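import Fermat.Prelude.Def_FLTPrelim_ModularRep
import Mathlib.NumberTheory.Padics.PadicVal.Basic

/-!
Area R2: the anchor curves whose two-adic representation is shown to be modular, and the two
statements that join the parcels.
-/

set_option autoImplicit false

noncomputable section

namespace FLTAgent.R2

open WeierstrassCurve

/-- semistable, two-torsion of image `S₃` with negative discriminant, multiplicative at `2` with
unramified two-torsion on which a Frobenius is a transposition, and two-torsion ramified at every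
odd bad prime -/
structure IsAnchor (W : WeierstrassCurve ℤ) : Prop where
  ss : W.IsSemistableModel
  irr : W.ModRepIsIrreducible 2
  neg : W.Δ < 0
  two : ∃ (k : ℕ) (u : ℤ), 1 ≤ k ∧ W.Δ = 2 ^ (2 * k) * u ∧ u % 8 = 5
  odd_v : ∀ l : ℕ, l.Prime → l ≠ 2 → (l : ℤ) ∣ W.Δ → Odd (padicValInt l W.Δ)
  big : ∃ l : ℕ, l.Prime ∧ 5 ≤ l ∧ (l : ℤ) ∣ W.Δ

/-- what area R2 proves: anchors are modular, of squarefree level containing all bad primes -/
def AnchorModular : Prop :=
  ∀ W : WeierstrassCurve ℤ, IsAnchor W →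
    ∃ N : ℕ, Squarefree N ∧ (∀ l : ℕ, l.Prime → (l : ℤ) ∣ W.Δ → l ∣ N) ∧
      W.IsModularModelOfLevel N

/-- what area SW3 proves: an anchor congruent modulo `3` to a given curve that is multiplicative
at `2` -/
def AnchorSwitch : Prop :=
  ∀ W : WeierstrassCurve ℤ, W.Δ ≠ 0 → W.IsSemistableModel → W.ModRepIsIrreducible 3 →
    (2 : ℤ) ∣ W.Δ →
      ∃ W' : WeierstrassCurve ℤ, IsAnchor W' ∧
        ∀ l : ℕ, l.Prime → W.IsGoodPrimeFor l → W'.IsGoodPrimeFor l → l ≠ 3 →
          (3 : ℤ) ∣ (W'.apOfModel l - W.apOfModel l)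

/-- what area SW3 proves at `5`: a switched curve that is still multiplicative at `2` -/
def FiveSwitch : Prop :=
  ∀ W : WeierstrassCurve ℤ, W.Δ ≠ 0 → W.IsSemistableModel → W.ModRepIsIrreducible 5 →
    (2 : ℤ) ∣ W.Δ →
      ∃ W' : WeierstrassCurve ℤ, W'.Δ ≠ 0 ∧ W'.IsSemistableModel ∧ W'.ModRepIsIrreducible 3 ∧
        (2 : ℤ) ∣ W'.Δ ∧
        ∀ l : ℕ, l.Prime → W.IsGoodPrimeFor l → W'.IsGoodPrimeFor l → l ≠ 5 →
          (5 : ℤ) ∣ (W'.apOfModel l - W.apOfModel l)

end FLTAgent.R2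

end
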