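import Mathlib

/-!
Area R2, parcel A: a two dimensional representation over a ring `B` whose traces lie in a Henselian
local subring `T`, with residually full image, is realised over `T` with the same traces and
determinants.
-/

set_option autoImplicit false
set_option linter.style.haveILetI false
set_option linter.unusedSectionVars false

noncomputable section

open Matrix IsLocalRing

namespace FLTAgent.R2.Carayol

local notation "M2" => Matrix (Fin 2) (Fin 2)

variable {B : Type*} [CommRing B]

theorem idem_sandwich {e : M2 B} (h1 : e 0 0 + e 1 1 = 1) (h0 : e 0 0 * e 1 1 = e 0 1 * e 1 0)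
    (z : M2 B) : e * z * e = (e * z).trace • e := by
  ext i j
  fin_cases i <;> fin_cases j <;>
    simp only [Fin.zero_eta, Fin.mk_one, Fin.isValue, Matrix.mul_apply, Matrix.trace_fin_two,
      Matrix.smul_apply, smul_eq_mul, Fin.sum_univ_two]
  · linear_combination -(z 1 1) * h0
  · linear_combination z 0 1 * h0
  · linear_combination z 1 0 * h0
  · linear_combination -z 0 0 * h0

theorem det_eq_of_idem {e : M2 B} (h1 : e 0 0 + e 1 1 = 1) (h0 : e 0 0 * e 1 1 = e 0 1 * e 1 0)
    (z : M2 B) :
    (e * z).trace * ((1 - e) * z).trace - (e * z * (1 - e) * z).trace = z.det := by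
  have h00 : e 1 1 = 1 - e 0 0 := by linear_combination h1
  rw [h00] at h0
  simp [Matrix.mul_apply, Matrix.trace_fin_two, Fin.sum_univ_two, Matrix.det_fin_two,
    Matrix.one_apply_ne (show (0 : Fin 2) ≠ 1 by decide),
    Matrix.one_apply_ne (show (1 : Fin 2) ≠ 0 by decide), h00]
  linear_combination (-2 * (z 0 0 * z 1 1 - z 0 1 * z 1 0)) * h0

theorem char_poly_sq (x : M2 B) : x * x = x.trace • x - x.det • 1 := by
  ext i j
  fin_cases i <;> fin_cases j <;>
    simp [Matrix.mul_apply, Matrix.trace_fin_two, Matrix.det_fin_two, Fin.sum_univ_two] <;> ring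

variable {G : Type*} [Monoid G] {T : Type*} [CommRing T] [HenselianLocalRing T] [Algebra T B]

/-- descent of a representation to the subring of its traces -/
theorem exists_rep (hinj : Function.Injective (algebraMap T B)) (ρ : G →* M2 B)
    {k : Type*} [Field k] (π : T →+* k) (hπ : Function.Surjective π) (r : G →* M2 k)
    (tr : G → T) (htr : ∀ g, algebraMap T B (tr g) = (ρ g).trace)
    (hres : ∀ g, π (tr g) = (r g).trace) (hfull : Submodule.span k (Set.range r) = ⊤) :
    ∃ ρT : G →* M2 T, (∀ g, (ρT g).trace = tr g) ∧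
      (∀ g, algebraMap T B (ρT g).det = (ρ g).det) ∧
      (∀ g, (ρT g).map π = r g) ∧
      ∃ F : M2 B →ₐ[B] M2 B, ∀ g, (ρT g).map (algebraMap T B) = F (ρ g) := by
  classical
  have hker : ∀ a, π a = 0 → a ∈ maximalIdeal T := fun a ha hu =>
    (hu.map π).ne_zero ha
  have hunit : ∀ a, π a ≠ 0 → IsUnit a := fun a ha => by
    by_contra hu
    have hm : RingHom.ker π = maximalIdeal T :=
      IsLocalRing.eq_maximalIdeal (RingHom.ker_isMaximal_of_surjective π hπ)
    exact ha (show a ∈ RingHom.ker π from hm.symm ▸ hu)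
  let Φ : MonoidAlgebra T G →ₐ[T] M2 B := MonoidAlgebra.lift T (M2 B) G ρ
  letI : Algebra T k := π.toAlgebra
  let Ψ : MonoidAlgebra T G →ₐ[T] M2 k := MonoidAlgebra.lift T (M2 k) G r
  let τ : MonoidAlgebra T G →+ T :=
    { toFun := fun x => x.coeff.sum fun g a => a * tr g
      map_zero' := by simp
      map_add' := fun x y => by simp [Finsupp.sum_add_index', add_mul] }
  have hτs : ∀ g a, τ (MonoidAlgebra.single g a) = a * tr g := fun g a => by
    show (MonoidAlgebra.single g a : MonoidAlgebra T G).coeff.sum (fun g a => a * tr g) = _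
    simp
  have hΦ : ∀ x, algebraMap T B (τ x) = (Φ x).trace := by
    intro x
    induction x using MonoidAlgebra.induction_linear with
    | zero => simp
    | add x y hx hy => rw [_root_.map_add, _root_.map_add, hx, hy, _root_.map_add, Matrix.trace_add]
    | single g a => rw [hτs, MonoidAlgebra.lift_single, Matrix.trace_smul, map_mul, htr, Algebra.smul_def]
  have hΨ : ∀ x, π (τ x) = (Ψ x).trace := by
    intro x
    induction x using MonoidAlgebra.induction_linear with
    | zero => simp
    | add x y hx hy => rw [_root_.map_add, _root_.map_add, hx, hy, _root_.map_add, Matrix.trace_add]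
    | single g a => rw [hτs, MonoidAlgebra.lift_single, Matrix.trace_smul, map_mul, hres, Algebra.smul_def]; rfl
  have hsurj : ∀ z : M2 k, ∃ x, Ψ x = z := fun z => by
    have hz : z ∈ Submodule.span k (Set.range r) := hfull ▸ Submodule.mem_top
    induction hz using Submodule.span_induction with
    | mem z hz =>
      obtain ⟨g, rfl⟩ := hz
      exact ⟨MonoidAlgebra.single g 1, by rw [MonoidAlgebra.lift_single, one_smul]⟩
    | zero => exact ⟨0, map_zero _⟩
    | add z w _ _ hz hw =>
      obtain ⟨x, rfl⟩ := hz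
      obtain ⟨y, rfl⟩ := hw
      exact ⟨x + y, _root_.map_add _ _ _⟩
    | smul c z _ hz =>
      obtain ⟨x, rfl⟩ := hz
      obtain ⟨c, rfl⟩ := hπ c
      exact ⟨c • x, by rw [map_smul]; exact (algebraMap_smul k c _).symm⟩
  obtain ⟨x, hx⟩ := hsurj !![1, 0; 0, 0]
  obtain ⟨t, ht⟩ : ∃ t, τ x = t := ⟨_, rfl⟩
  have ht1 : π t = 1 := by rw [← ht, hΨ, hx]; simp [Matrix.trace_fin_two]
  obtain ⟨u, hu⟩ := hunit t (by rw [ht1]; exact one_ne_zero)
  set d := (u⁻¹ : Tˣ) * (t * τ (x * x) - τ (x * x * x)) with hd
  have hd0 : π d = 0 := by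
    rw [hd]
    simp only [map_mul, map_sub, hΨ, hx, ht1]
    simp [Matrix.trace_fin_two, Matrix.mul_apply, Fin.sum_univ_two]
  have htB : algebraMap T B t = (Φ x).trace := by rw [← ht, hΦ]
  have hdB : algebraMap T B d = (Φ x).det := by
    have hc : t * d = t * τ (x * x) - τ (x * x * x) := by
      rw [hd, ← hu, ← mul_assoc, Units.mul_inv, one_mul]
    clear_value d
    have e := congrArg (algebraMap T B) hc
    rw [map_mul, map_sub, map_mul, hΦ, hΦ, map_mul Φ (x * x), map_mul Φ x x, htB] at e
    have hut : IsUnit (Φ x).trace := htB ▸ (hu ▸ u.isUnit).map (algebraMap T B)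
    refine hut.mul_left_cancel (e.trans ?_)
    simp [Matrix.mul_apply, Matrix.trace_fin_two, Fin.sum_univ_two, Matrix.det_fin_two]
    ring
  obtain ⟨α, hα, hα0⟩ := HenselianLocalRing.is_henselian (R := T)
    (Polynomial.X ^ 2 - Polynomial.C t * Polynomial.X + Polynomial.C d) (by monicity!) 0
    (by simpa using hker d hd0)
    (by simp; exact ⟨u, hu⟩)
  rw [sub_zero] at hα0
  have hπα : π α = 0 := by
    by_contra h
    exact hα0 (hunit α h)
  have hα' : α ^ 2 - t * α + d = 0 := by simpa using hα
  obtain ⟨w, hw⟩ := hunit (t - 2 * α) (by simp [ht1, hπα])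
  set eX : MonoidAlgebra T G := ((w⁻¹ : Tˣ) : T) • (x - α • 1) with heX
  set e := Φ eX with he
  have he' : e = algebraMap T B ((w⁻¹ : Tˣ) : T) • (Φ x - algebraMap T B α • 1) := by
    rw [he, heX, map_smul, map_sub, map_smul, map_one, algebraMap_smul, algebraMap_smul]
  have hwB : algebraMap T B ((w⁻¹ : Tˣ) : T) * (algebraMap T B t - 2 * algebraMap T B α) = 1 := by
    rw [← map_ofNat (algebraMap T B), ← map_mul, ← map_sub, ← map_mul, ← hw, Units.inv_mul,
      map_one]
  have hαB : algebraMap T B α ^ 2 - algebraMap T B t * algebraMap T B α + algebraMap T B d = 0 := by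
    rw [← map_pow, ← map_mul, ← map_sub, ← _root_.map_add, hα', map_zero]
  rw [htB] at hwB hαB
  rw [hdB] at hαB
  rw [Matrix.trace_fin_two] at hwB hαB
  rw [Matrix.det_fin_two] at hαB
  have h1 : e 0 0 + e 1 1 = 1 := by
    rw [he']
    simp only [Matrix.smul_apply, Matrix.sub_apply, smul_eq_mul, Matrix.one_apply_eq, mul_one]
    linear_combination hwB
  have h0 : e 0 0 * e 1 1 = e 0 1 * e 1 0 := by
    rw [he']
    simp only [Matrix.smul_apply, Matrix.sub_apply, smul_eq_mul, Matrix.one_apply_eq, mul_one,
      Matrix.one_apply_ne (show (0 : Fin 2) ≠ 1 by decide),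
      Matrix.one_apply_ne (show (1 : Fin 2) ≠ 0 by decide), mul_zero, sub_zero]
    linear_combination algebraMap T B ((w⁻¹ : Tˣ) : T) ^ 2 * hαB
  have hse : ∀ z, e * z * e = (e * z).trace • e := idem_sandwich h1 h0
  have h1' : (1 - e) 0 0 + (1 - e) 1 1 = 1 := by
    simp only [Matrix.sub_apply, Matrix.one_apply_eq]
    linear_combination -h1
  have h0' : (1 - e) 0 0 * (1 - e) 1 1 = (1 - e) 0 1 * (1 - e) 1 0 := by
    simp only [Matrix.sub_apply, Matrix.one_apply_eq,
      Matrix.one_apply_ne (show (0 : Fin 2) ≠ 1 by decide),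
      Matrix.one_apply_ne (show (1 : Fin 2) ≠ 0 by decide)]
    linear_combination h0 - h1
  have hΨe : Ψ eX = !![1, 0; 0, 0] := by
    have hw1 : π ((w⁻¹ : Tˣ) : T) = 1 := by
      have e1 := congrArg π (Units.inv_mul w)
      rw [map_mul, map_one, hw, map_sub, map_mul, ht1, hπα, mul_zero, sub_zero, mul_one] at e1
      exact e1
    rw [heX, map_smul, map_sub, map_smul, map_one, hx, ← algebraMap_smul k α, ← algebraMap_smul k
      ((w⁻¹ : Tˣ) : T), show algebraMap T k α = 0 from hπα,
      show algebraMap T k ((w⁻¹ : Tˣ) : T) = 1 from hw1, zero_smul, sub_zero, one_smul]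
  obtain ⟨y, hy⟩ := hsurj !![0, 0; 1, 0]
  obtain ⟨y', hy'⟩ := hsurj !![0, 1; 0, 0]
  set uX := (1 - eX) * y * eX with huX
  set vX := eX * y' * (1 - eX) with hvX
  have hs : π (τ (vX * uX)) = 1 := by
    rw [hΨ, huX, hvX]
    simp only [map_mul, map_sub, map_one, hΨe, hy, hy']
    rw [show (1 : M2 k) - !![1, 0; 0, 0] = !![0, 0; 0, 1] by
      ext i j; fin_cases i <;> fin_cases j <;> simp]
    simp [Matrix.trace_fin_two, Matrix.mul_apply, Fin.sum_univ_two]
  obtain ⟨c, hc⟩ := hunit (τ (vX * uX)) (by rw [hs]; exact one_ne_zero)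
  set S := algebraMap T B ((c⁻¹ : Tˣ) : T) with hS
  set U := Φ uX with hU
  set V := Φ vX with hV
  have hsc : S * (V * U).trace = 1 := by
    rw [hS, hU, hV, ← map_mul Φ, ← hΦ, ← hc, ← map_mul, Units.inv_mul, map_one]
  have hee : e * e = e := by
    have := hse 1
    rwa [mul_one, Matrix.trace_fin_two, h1, one_smul] at this
  have hUe : U = (1 - e) * Φ y * e := by rw [hU, huX]; simp [e]
  have hVe : V = e * Φ y' * (1 - e) := by rw [hV, hvX]; simp [e]
  have hf : S • (U * V) = 1 - e := by
    have hff : (1 - e) * (1 - e) = 1 - e := by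
      rw [mul_sub, mul_one, sub_mul, one_mul, hee, sub_self, sub_zero]
    have hUV : U * V = (1 - e) * (Φ y * e * Φ y') * (1 - e) := by
      rw [hUe, hVe]
      simp only [mul_assoc]
      rw [← mul_assoc e e, hee]
    have htr : ((1 - e) * (Φ y * e * Φ y')).trace = (V * U).trace := by
      calc ((1 - e) * (Φ y * e * Φ y')).trace
          = ((U * V)).trace := by
            rw [hUV, Matrix.trace_mul_comm _ (1 - e)]
            simp only [← mul_assoc, hff]
        _ = _ := Matrix.trace_mul_comm _ _
    rw [hUV, idem_sandwich h1' h0', smul_smul, htr, hsc, one_smul]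
  let f : G → M2 T := fun g =>
    !![τ (eX * MonoidAlgebra.single g 1), τ (eX * MonoidAlgebra.single g 1 * uX);
      (c⁻¹ : Tˣ) * τ (vX * MonoidAlgebra.single g 1 * eX),
      (c⁻¹ : Tˣ) * τ (vX * MonoidAlgebra.single g 1 * uX)]
  have hΦs : ∀ g, Φ (MonoidAlgebra.single g 1) = ρ g := fun g => by
    rw [MonoidAlgebra.lift_single, one_smul]
  have hev : V = e * V := by rw [hVe, ← mul_assoc, ← mul_assoc, hee]
  have hue : U = U * e := by rw [hUe, mul_assoc _ e e, hee]
  have hVe0 : V * (1 - e) = V := by
    rw [hVe, mul_assoc, mul_sub, mul_one, sub_mul, one_mul, hee, sub_self, sub_zero]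
  let F : M2 B → M2 B := fun z =>
    !![(e * z).trace, (e * z * U).trace; S * (V * z * e).trace, S * (V * z * U).trace]
  have hF : ∀ g, (f g).map (algebraMap T B) = F (ρ g) := fun g => by
    ext i j
    fin_cases i <;> fin_cases j <;>
      simp [f, F, hΦ, hΦs, hS, hU, hV, e]
  have hmul : ∀ a b : M2 B, F (a * b) = F a * F b := by
    intro a b
    have hsplit : ∀ (P Q : M2 B), (P * a * b * Q).trace =
        (P * a * e * b * Q).trace + S * (P * a * U * (V * b * Q)).trace := fun P Q => by
      rw [← smul_eq_mul S, ← Matrix.trace_smul, ← Matrix.trace_add]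
      congr 1
      calc P * a * b * Q = P * a * (e + (1 - e)) * b * Q := by rw [add_sub_cancel, mul_one]
        _ = P * a * e * b * Q + P * a * (S • (U * V)) * b * Q := by
            rw [hf, mul_add, add_mul, add_mul]
        _ = _ := by
            congr 1
            simp only [Matrix.mul_smul, Matrix.smul_mul, mul_assoc]
    have t1 : ∀ (P Q : M2 B), P = e * P → (P * a * e * b * Q).trace =
        (P * a * e).trace * (e * b * Q).trace := fun P Q hP => by
      have hp : e * (P * a) = P * a := by rw [← mul_assoc, ← hP]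
      have h2 : P * a * e = (P * a * e).trace • e := by
        calc P * a * e = e * (P * a) * e := by rw [hp]
          _ = _ := by rw [hse, Matrix.trace_mul_comm e]
      rw [show P * a * e * b * Q = P * a * e * (e * b * Q) by
        simp only [mul_assoc]; rw [← mul_assoc e e, hee]]
      rw [h2, Matrix.smul_mul, Matrix.trace_smul, smul_eq_mul, ← h2, ← mul_assoc e, ← mul_assoc e,
        hee]
    have t2 : ∀ (P Q : M2 B), P = e * P → Q = Q * e → (P * a * U * (V * b * Q)).trace =
        (P * a * U).trace * (V * b * Q).trace := fun P Q hP hQ => by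
      have hp : e * (P * a * U) = P * a * U := by rw [← mul_assoc, ← mul_assoc, ← hP]
      have h2 : P * a * U = (P * a * U).trace • e := by
        calc P * a * U = e * (P * a * U) * e := by rw [hp, mul_assoc _ U e, ← hue]
          _ = _ := by rw [hse, hp]
      rw [h2, Matrix.smul_mul, Matrix.trace_smul, smul_eq_mul, ← h2]
      congr 1
      rw [← mul_assoc, ← mul_assoc, ← hev]
    have hF2 : ∀ i j, F (a * b) i j = (F a * F b) i j := by
      have e1 : ∀ z : M2 B, (e * z * e).trace = (e * z).trace := fun z => by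
        rw [Matrix.trace_mul_comm, ← mul_assoc, hee]
      intro i j
      fin_cases i <;> fin_cases j <;>
        simp only [F, Matrix.mul_apply, Fin.sum_univ_two, Fin.zero_eta, Fin.mk_one, Fin.isValue,
          Matrix.of_apply, Matrix.cons_val', Matrix.cons_val_zero, Matrix.cons_val_one,
          Matrix.empty_val', Matrix.cons_val_fin_one, ← mul_assoc]
      · rw [← e1 a, ← e1 b, show (e * a * b).trace = (e * a * b * e).trace by
          rw [mul_assoc e a b, e1], hsplit e e, t1 e e hee.symm,
          t2 e e hee.symm hee.symm]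
        ring
      · rw [hsplit e U, t1 e U hee.symm, t2 e U hee.symm hue, e1]
        ring
      · rw [hsplit V e, t1 V e hev, t2 V e hev hee.symm, e1]
        ring
      · rw [hsplit V U, t1 V U hev, t2 V U hev hue]
        ring
    exact Matrix.ext hF2
  have hone : F 1 = 1 := by
    have hUz : (e * U).trace = 0 := by
      rw [hUe, ← mul_assoc, ← mul_assoc, mul_sub, mul_one, hee, sub_self, zero_mul, zero_mul,
        Matrix.trace_zero]
    have hVz : (V * e).trace = 0 := by
      rw [← hVe0, mul_assoc, sub_mul, one_mul, hee, sub_self, mul_zero, Matrix.trace_zero]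
    ext i j
    fin_cases i <;> fin_cases j <;> simp [F, hUz, hVz, hsc]
    · rw [Matrix.trace_fin_two, h1]
  have hinjM : Function.Injective fun z : M2 T => z.map (algebraMap T B) :=
    Matrix.map_injective hinj
  have hFadd : ∀ a b : M2 B, F (a + b) = F a + F b := fun a b => by
    ext i j
    fin_cases i <;> fin_cases j <;>
      simp [F, mul_add, add_mul, Matrix.trace_add]
  have hFsmul : ∀ (b : B) (z : M2 B), F (b • z) = b • F z := fun b z => by
    ext i j
    fin_cases i <;> fin_cases j <;>
      simp [F, Matrix.trace_smul, mul_left_comm]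
  let FA : M2 B →ₐ[B] M2 B :=
    { toFun := F
      map_one' := hone
      map_mul' := hmul
      map_zero' := by
        have h := hFsmul 0 0
        rwa [zero_smul, zero_smul] at h
      map_add' := hFadd
      commutes' := fun b => by rw [Algebra.algebraMap_eq_smul_one, hFsmul, hone] }
  have hs1 : π ((c⁻¹ : Tˣ) : T) = 1 := by
    have e1 := congrArg π (Units.inv_mul c)
    rwa [map_mul, map_one, hc, hs, mul_one] at e1
  have hres' : ∀ g, (f g).map π = r g := fun g => by
    have hu' : Ψ uX = !![0, 0; 1, 0] := by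
      rw [huX, map_mul, map_mul, map_sub, map_one, hΨe, hy]
      ext i j
      fin_cases i <;> fin_cases j <;> simp [Matrix.mul_apply, Fin.sum_univ_two]
    have hv' : Ψ vX = !![0, 1; 0, 0] := by
      rw [hvX, map_mul, map_mul, map_sub, map_one, hΨe, hy']
      ext i j
      fin_cases i <;> fin_cases j <;> simp [Matrix.mul_apply, Fin.sum_univ_two]
    have hg : Ψ (MonoidAlgebra.single g 1) = r g := by rw [MonoidAlgebra.lift_single, one_smul]
    ext i j
    fin_cases i <;> fin_cases j <;>
      simp [f, hΨ, hs1, hΨe, hu', hv', hg, Matrix.trace_fin_two, Matrix.mul_apply, Matrix.vecMul,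
        dotProduct, Fin.sum_univ_two]
  refine ⟨{ toFun := f, map_one' := hinjM ?_, map_mul' := fun g g' => hinjM ?_ }, fun g => ?_,
    fun g => ?_, hres', FA, hF⟩
  · simp only [hF, map_one, hone, Matrix.map_one _ (map_zero _) (map_one _)]
  · simp only [Matrix.map_mul, hF, map_mul, hmul]
  · refine hinj ?_
    show algebraMap T B (f g).trace = _
    rw [AddMonoidHom.map_trace (algebraMap T B), hF, htr]
    simp only [F, Matrix.trace_fin_two_of]
    rw [← smul_eq_mul S, Matrix.trace_mul_comm _ U, ← mul_assoc, ← Matrix.trace_smul,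
      ← Matrix.smul_mul, hf, ← Matrix.trace_add, ← add_mul, add_sub_cancel, one_mul]
  · show algebraMap T B (f g).det = _
    rw [RingHom.map_det, RingHom.mapMatrix_apply, hF, ← det_eq_of_idem h1 h0 (ρ g)]
    simp only [F, Matrix.det_fin_two_of]
    have h2 : ((1 - e) * ρ g).trace = S * (V * ρ g * U).trace := by
      rw [← smul_eq_mul S, Matrix.trace_mul_comm _ U, ← mul_assoc, ← Matrix.trace_smul,
        ← Matrix.smul_mul, hf]
    have h3 : (e * ρ g * (1 - e) * ρ g).trace =
        S * ((e * ρ g * U).trace * (V * ρ g * e).trace) := by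
      rw [← hf, Matrix.mul_smul, Matrix.smul_mul, Matrix.trace_smul, smul_eq_mul]
      congr 1
      have h4 : e * ρ g * U = (e * ρ g * U).trace • e := by
        nth_rw 1 [hue]
        rw [← mul_assoc (e * ρ g), mul_assoc e (ρ g), hse]
      calc (e * ρ g * (U * V) * ρ g).trace = ((e * ρ g * U) * (V * ρ g)).trace := by
            simp only [mul_assoc]
        _ = _ := by
            rw [h4, Matrix.smul_mul, Matrix.trace_smul, smul_eq_mul, Matrix.trace_mul_comm e, ← h4]
    rw [h2, h3]
    ring

/-- the same, with the endomorphism stated first -/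
theorem exists_rep_hom (hinj : Function.Injective (algebraMap T B)) (ρ : G →* M2 B)
    {k : Type*} [Field k] (π : T →+* k) (hπ : Function.Surjective π) (r : G →* M2 k)
    (tr : G → T) (htr : ∀ g, algebraMap T B (tr g) = (ρ g).trace)
    (hres : ∀ g, π (tr g) = (r g).trace) (hfull : Submodule.span k (Set.range r) = ⊤) :
    ∃ (ρT : G →* M2 T) (F : M2 B →ₐ[B] M2 B), (∀ g, (ρT g).map (algebraMap T B) = F (ρ g)) ∧
      (∀ g, (ρT g).map π = r g) ∧ (∀ g, (ρT g).trace = tr g) ∧
      (∀ g, algebraMap T B (ρT g).det = (ρ g).det) := by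
  obtain ⟨ρT, h1, h2, h3, F, hF⟩ := exists_rep hinj ρ π hπ r tr htr hres hfull
  exact ⟨ρT, F, hF, h3, h1, h2⟩

end FLTAgent.R2.Carayol
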