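import Mathlib.RingTheory.Nilpotent.Basic
import Mathlib.Algebra.Algebra.Basic
import Mathlib.RingTheory.Ideal.Operations
import Mathlib.Tactic.Module
import Mathlib.Tactic.LinearCombination

/-!
Area R2, parcel DESCENT: an element acting centrally while its trace is not that of a scalar forces
the module to vanish.  `g` is a lift of an element of order three, `φ` of a transposition: the
Cayley–Hamilton identities of `g`, `φ` and `g φ` suffice.
-/

set_option autoImplicit false

namespace FLTAgent.R2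

variable {R : Type*} [CommRing R] {A : Type*} [Ring A] [Algebra R A]

/-- commuting elements with these three quadratic relations make the algebra trivial modulo a
nilpotent element dividing the traces of `φ` and `g φ` -/
theorem subsingleton_of_quadratic {π : R} (hπ : IsNilpotent π) (h2 : π ∣ 2) {g φ : A}
    (hc : g * φ = φ * g) (hg : IsUnit g) {tg dg tφ dφ t : R}
    (eg : g * g = tg • g - dg • (1 : A)) (eφ : φ * φ = tφ • φ - dφ • (1 : A))
    (egφ : g * φ * (g * φ) = t • (g * φ) - (dg * dφ) • (1 : A))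
    (htg : IsUnit tg) (hdφ : IsUnit dφ) (htφ : π ∣ tφ) (ht : π ∣ t) : Subsingleton A := by
  have e : g * φ * (g * φ) = (g * g) * (φ * φ) := by
    rw [mul_assoc g φ, ← mul_assoc φ g, ← hc]
    simp only [mul_assoc]
  rw [e, eg, eφ] at egφ
  simp only [mul_sub, sub_mul, smul_mul_assoc, mul_smul_comm, mul_one, one_mul, smul_smul,
    smul_sub] at egφ
  have key : (tg * dφ) • g =
      (tg * tφ - t) • (g * φ) - (dg * tφ) • φ + (2 * (dg * dφ)) • (1 : A) := by
    linear_combination (norm := module) (-1 : ℤ) • egφ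
  obtain ⟨a, rfl⟩ := htφ
  obtain ⟨b, rfl⟩ := ht
  obtain ⟨c, hc2⟩ := h2
  rw [hc2] at key
  set u := (tg * a - b) • (g * φ) - (dg * a) • φ + (c * (dg * dφ)) • (1 : A) with hu
  have key' : (tg * dφ) • g = π • u := by
    rw [key, hu]
    module
  obtain ⟨v, hv⟩ := (htg.mul hdφ)
  have hg' : g = π • (((v⁻¹ : Rˣ) : R) • u) := by
    rw [smul_comm, ← key', ← hv, smul_smul, Units.inv_mul, one_smul]
  obtain ⟨n, hn⟩ := hπ
  obtain ⟨w, hw⟩ := hg
  have h1 : (1 : A) = π • ((((v⁻¹ : Rˣ) : R) • u) * ((w⁻¹ : Aˣ) : A)) := by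
    rw [← smul_mul_assoc, ← hg', ← hw, Units.mul_inv]
  set z := (((v⁻¹ : Rˣ) : R) • u) * ((w⁻¹ : Aˣ) : A)
  have hpow : ∀ k : ℕ, (1 : A) = π ^ k • z ^ k := by
    intro k
    induction k with
    | zero => simp
    | succ k ih =>
      rw [pow_succ, pow_succ, ← smul_mul_smul_comm, ← ih, one_mul]
      exact h1
  refine subsingleton_of_zero_eq_one ?_
  rw [hpow n, hn, zero_smul]

/-- the module form: an element of the group acting by an operator commuting with the group -/
theorem subsingleton_of_central {Y : Type*} [AddCommGroup Y] [Module R Y] {π : R}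
    (hπ : IsNilpotent π) (h2 : π ∣ 2) {g φ : Module.End R Y} (hc : g * φ = φ * g)
    (hg : IsUnit g) {tg dg tφ dφ t : R}
    (eg : ∀ y, g (g y) = tg • g y - dg • y) (eφ : ∀ y, φ (φ y) = tφ • φ y - dφ • y)
    (egφ : ∀ y, g (φ (g (φ y))) = t • g (φ y) - (dg * dφ) • y)
    (htg : IsUnit tg) (hdφ : IsUnit dφ) (htφ : π ∣ tφ) (ht : π ∣ t) : Subsingleton Y := by
  have := subsingleton_of_quadratic (A := Module.End R Y) hπ h2 hc hg (tg := tg) (dg := dg)
    (tφ := tφ) (dφ := dφ) (t := t) (LinearMap.ext eg) (LinearMap.ext eφ) (LinearMap.ext egφ)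
    htg hdφ htφ ht
  exact ⟨fun x y => LinearMap.congr_fun (Subsingleton.elim (1 : Module.End R Y) 0) x |>.trans
    (LinearMap.congr_fun (Subsingleton.elim (1 : Module.End R Y) 0) y).symm⟩

end FLTAgent.R2
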