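import Mathlib

/-!
Area R2, parcel A: the sums `∑ ψ (a b) F (a e₁ + b e₂)` over all frames determine a function on the
plane over `ℤ/q` of the homogeneity `ψ⁻²` (this is the injectivity of the twist of a principal
series into the functions on pairs of lines).
-/

set_option autoImplicit false
set_option linter.style.haveILetI false
set_option linter.unusedSectionVars false

noncomputable section

namespace FLTAgent.R2.TwistVec

variable {q : ℕ} [Fact q.Prime]

local notation "Vc" => Fin 2 → ZMod q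

/-- the determinant of two vectors -/
def d2 (v w : Vc) : ZMod q := v 0 * w 1 - v 1 * w 0

theorem d2_comb {e₁ e₂ : Vc} (h : d2 e₁ e₂ = 1) (a b : ZMod q) :
    d2 (a • e₁ + b • e₂) e₂ = a ∧ d2 e₁ (a • e₁ + b • e₂) = b := by
  simp only [d2, Pi.add_apply, Pi.smul_apply, smul_eq_mul] at *
  constructor
  · linear_combination a * h
  · linear_combination b * h

theorem comb_bijective {e₁ e₂ : Vc} (h : d2 e₁ e₂ = 1) :
    Function.Bijective fun ab : ZMod q × ZMod q => ab.1 • e₁ + ab.2 • e₂ := by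
  refine Function.bijective_iff_has_inverse.2 ⟨fun v => (d2 v e₂, d2 e₁ v), fun ab => ?_,
    fun v => ?_⟩
  · exact Prod.ext (d2_comb h ab.1 ab.2).1 (d2_comb h ab.1 ab.2).2
  · funext i
    simp only [d2, Pi.add_apply, Pi.smul_apply, smul_eq_mul] at *
    fin_cases i
    · simp only [Fin.zero_eta, Fin.isValue]; linear_combination v 0 * h
    · simp only [Fin.mk_one, Fin.isValue]; linear_combination v 1 * h

variable {K : Type*} [CommRing K] [IsDomain K] [CharZero K]

theorem cast_sub_one_ne_zero : ((q : K) - 1) ≠ 0 :=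
  sub_ne_zero.2 (by exact_mod_cast (Fact.out : q.Prime).ne_one)

/-- the sums on one affine line -/
theorem line_eq (ψ : MulChar (ZMod q) K) {F : Vc → K}
    (hhom : ∀ c : ZMod q, c ≠ 0 → ∀ v, F (c • v) = ψ⁻¹ c * ψ⁻¹ c * F v)
    (hker : ∀ e₁ e₂ : Vc, d2 e₁ e₂ = 1 → ∑ v, ψ (d2 v e₂ * d2 e₁ v) * F v = 0)
    {e₁ e₂ : Vc} (he : d2 e₁ e₂ = 1) (t : ZMod q) :
    ∑ s : ZMod q, ψ s * F ((s + t) • e₁ + e₂) = 0 := by
  classical
  have ht : d2 e₁ (e₂ + t • e₁) = 1 := by
    rw [← he]
    simp only [d2, Pi.add_apply, Pi.smul_apply, smul_eq_mul]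
    ring
  have h := hker _ _ ht
  rw [← Fintype.sum_bijective _ (comb_bijective ht) _ _ fun _ => rfl, Fintype.sum_prod_type,
    Finset.sum_comm] at h
  have hb : ∀ b : ZMod q, ∑ a : ZMod q, ψ (d2 (a • e₁ + b • (e₂ + t • e₁)) (e₂ + t • e₁) *
      d2 e₁ (a • e₁ + b • (e₂ + t • e₁))) * F (a • e₁ + b • (e₂ + t • e₁)) =
        if b = 0 then 0 else ∑ s : ZMod q, ψ s * F ((s + t) • e₁ + e₂) := by
    intro b
    simp only [(d2_comb ht _ _).1, (d2_comb ht _ _).2]
    split_ifs with hb
    · simp [hb, MulChar.map_zero]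
    · refine Eq.trans ?_ (Equiv.sum_comp (Equiv.mulRight₀ b⁻¹ (inv_ne_zero hb))
        fun s => ψ s * F ((s + t) • e₁ + e₂))
      refine Finset.sum_congr rfl fun a _ => ?_
      rw [Equiv.mulRight₀_apply]
      have e : a • e₁ + b • (e₂ + t • e₁) = b • ((a * b⁻¹ + t) • e₁ + e₂) := by
        funext i
        simp only [Pi.add_apply, Pi.smul_apply, smul_eq_mul]
        field_simp
        ring
      rw [e, hhom b hb, MulChar.inv_apply', map_mul, map_mul]
      have e1 : ψ b * ψ b⁻¹ = 1 := by rw [← map_mul, mul_inv_cancel₀ hb, map_one]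
      linear_combination (ψ a * ψ b⁻¹ * F ((a * b⁻¹ + t) • e₁ + e₂)) * e1
  rw [Finset.sum_congr rfl fun b _ => hb b, Finset.sum_ite, Finset.sum_const_zero, zero_add,
    Finset.sum_const, Finset.filter_ne', Finset.card_erase_of_mem (Finset.mem_univ _),
    Finset.card_univ, ZMod.card, nsmul_eq_mul, Nat.cast_sub (Fact.out : q.Prime).one_le,
    Nat.cast_one] at h
  exact (mul_eq_zero.1 h).resolve_left cast_sub_one_ne_zero

/-- convolution with the inverse character -/
theorem const_of_conv (ψ : MulChar (ZMod q) K) (hψ : ψ ≠ 1) {φ : ZMod q → K}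
    (h : ∀ t, ∑ s : ZMod q, ψ s * φ (s + t) = 0) (r : ZMod q) :
    (q : K) * φ r = ∑ u, φ u := by
  classical
  have hK : ∀ w : ZMod q, ∑ x : ZMod q, ψ⁻¹ x * ψ (w + x) =
      if w = 0 then (q : K) - 1 else -1 := by
    intro w
    have e : ∀ x : ZMod q, ψ⁻¹ x * ψ (w + x) =
        ψ (w * x⁻¹ + 1) - if x = 0 then 1 else 0 := by
      intro x
      rw [MulChar.inv_apply', ← map_mul]
      split_ifs with hx
      · subst hx; simp [MulChar.map_zero]
      · rw [sub_zero]
        congr 1
        field_simp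
    rw [Finset.sum_congr rfl fun x _ => e x, Finset.sum_sub_distrib, Finset.sum_ite_eq',
      if_pos (Finset.mem_univ _)]
    split_ifs with hw
    · simp [hw, ZMod.card]
    · rw [Fintype.sum_bijective (fun x : ZMod q => w * x⁻¹ + 1) ?_ _ ψ fun x => rfl,
        MulChar.sum_eq_zero_of_ne_one hψ, zero_sub]
      exact ((AddGroup.addRight_bijective (1 : ZMod q)).comp (Equiv.mulLeft₀ w hw).bijective).comp
        inv_involutive.bijective
  have h2 : ∑ x : ZMod q, ψ⁻¹ x * ∑ u : ZMod q, ψ (u - r + x) * φ u = 0 := by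
    refine Finset.sum_eq_zero fun x _ => ?_
    rw [show ∑ u : ZMod q, ψ (u - r + x) * φ u = ∑ s : ZMod q, ψ s * φ (s + (r - x)) from
      Fintype.sum_equiv (Equiv.addRight (x - r)) _ _ fun u => by
        simp only [Equiv.coe_addRight]
        congr 2 <;> ring, h, mul_zero]
  simp only [Finset.mul_sum, ← mul_assoc] at h2
  rw [Finset.sum_comm] at h2
  simp only [← Finset.sum_mul, hK, sub_eq_zero] at h2
  have e : ∀ u : ZMod q, (if u = r then (q : K) - 1 else -1) * φ u =
      (if u = r then (q : K) * φ u else 0) - φ u := fun u => by split_ifs <;> ring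
  rw [Finset.sum_congr rfl fun u _ => e u, Finset.sum_sub_distrib, Finset.sum_ite_eq',
    if_pos (Finset.mem_univ _), sub_eq_zero] at h2
  exact h2

/-- the twisted sums determine the function -/
theorem eq_zero (ψ : MulChar (ZMod q) K) (hψ : ψ = 1 ∨ ψ * ψ ≠ 1) {F : Vc → K} (h0 : F 0 = 0)
    (hhom : ∀ c : ZMod q, c ≠ 0 → ∀ v, F (c • v) = ψ⁻¹ c * ψ⁻¹ c * F v)
    (hker : ∀ e₁ e₂ : Vc, d2 e₁ e₂ = 1 → ∑ v, ψ (d2 v e₂ * d2 e₁ v) * F v = 0) (v : Vc) :
    F v = 0 := by
  classical
  have hq : (q : K) ≠ 0 := Nat.cast_ne_zero.2 (NeZero.ne q)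
  have hex : ∀ w : Vc, w ≠ 0 → ∃ x : Vc, d2 x w = 1 := by
    intro w hw
    by_cases h : w 1 = 0
    · have h' : w 0 ≠ 0 := fun h' => hw (funext fun i => by fin_cases i; exacts [h', h])
      refine ⟨![0, -(w 0)⁻¹], ?_⟩
      simp [d2, h']
    · exact ⟨![(w 1)⁻¹, 0], by simp [d2, h]⟩
  rcases eq_or_ne v 0 with rfl | hv
  · exact h0
  by_cases hψ1 : ψ = 1
  · subst hψ1
    obtain ⟨x, hx⟩ := hex v hv
    have hφ : ∀ t, F (t • x + v) = ∑ u, F (u • x + v) := fun t => by
      have h := line_eq 1 hhom hker hx t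
      have e : ∀ s : ZMod q, (1 : MulChar (ZMod q) K) s * F ((s + t) • x + v) =
          F ((s + t) • x + v) - if s = 0 then F ((s + t) • x + v) else 0 := fun s => by
        split_ifs with hs
        · subst hs; simp [MulChar.map_zero]
        · rw [MulChar.one_apply (Ne.isUnit hs)]; ring
      rw [Finset.sum_congr rfl fun s _ => e s, Finset.sum_sub_distrib, Finset.sum_ite_eq',
        if_pos (Finset.mem_univ _), zero_add, sub_eq_zero] at h
      rw [← h]
      exact Equiv.sum_comp (Equiv.addRight t) fun u => F (u • x + v)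
    have hS : ∑ u : ZMod q, F (u • x + v) = (q : K) * ∑ u : ZMod q, F (u • x + v) := by
      conv_lhs => rw [Finset.sum_congr rfl fun u _ => hφ u]
      rw [Finset.sum_const, Finset.card_univ, ZMod.card, nsmul_eq_mul]
    have h := hφ 0
    rw [zero_smul, zero_add] at h
    rw [h]
    exact (mul_eq_zero.1 (by linear_combination -hS :
      ((q : K) - 1) * ∑ u : ZMod q, F (u • x + v) = 0)).resolve_left cast_sub_one_ne_zero
  have hψ2 : ψ * ψ ≠ 1 := hψ.resolve_left hψ1
  have hline : ∀ w u : Vc, d2 u w ≠ 0 → F (u + w) = F w := by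
    intro w u hu
    set c := d2 u w with hc
    have he : d2 (c⁻¹ • u) w = 1 := by
      rw [← inv_mul_cancel₀ hu]
      simp only [hc, d2, Pi.smul_apply, smul_eq_mul]
      ring
    have h := fun r => const_of_conv ψ hψ1 (φ := fun s => F (s • (c⁻¹ • u) + w))
      (line_eq ψ hhom hker he) r
    have := (h c).trans (h 0).symm
    simp only [smul_smul, mul_inv_cancel₀ hu, one_smul, zero_mul, zero_smul, zero_add] at this
    exact mul_left_cancel₀ hq this
  have hindep : ∀ w w' : Vc, d2 w w' ≠ 0 → F w' = F w := fun w w' h => by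
    have e := hline w (w' - w) (by
      intro e
      exact h (by simp only [d2, Pi.sub_apply] at e ⊢; linear_combination -e))
    rwa [sub_add_cancel] at e
  obtain ⟨c, hc⟩ : ∃ c : (ZMod q)ˣ, (ψ * ψ) c ≠ 1 := by
    by_contra h
    push Not at h
    exact hψ2 (MulChar.ext fun a => by rw [h a, MulChar.one_apply_coe])
  obtain ⟨x, hx⟩ := hex v hv
  have e : F ((c⁻¹ : (ZMod q)ˣ) • v) = F v := by
    rw [Units.smul_def]
    refine (hindep x _ ?_).trans (hindep x v (by rw [hx]; exact one_ne_zero)).symm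
    rw [show d2 x (((c⁻¹ : (ZMod q)ˣ) : ZMod q) • v) = ((c⁻¹ : (ZMod q)ˣ) : ZMod q) * d2 x v by
      simp only [d2, Pi.smul_apply, smul_eq_mul]; ring, hx, mul_one]
    exact Units.ne_zero _
  rw [Units.smul_def, hhom _ (Units.ne_zero _), MulChar.inv_apply', Units.val_inv_eq_inv_val,
    inv_inv] at e
  rw [MulChar.mul_apply] at hc
  exact (mul_eq_zero.1 (by linear_combination e : (ψ c * ψ c - 1) * F v = 0)).resolve_left
    (sub_ne_zero.2 hc)

end FLTAgent.R2.TwistVec
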