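import Fermat.Agent.R2.CohTorsor
import Fermat.Agent.R2.CohTwistVec

/-!
Area R2, parcel A: the sets of an auxiliary prime (`GL₂` modulo `{(u, *; 0, *) : u ∈ H}` and modulo
the diagonal torus mod `q`), their torsor of diamonds, and products of such torsors.
-/

set_option autoImplicit false
set_option linter.style.haveILetI false
set_option linter.unusedSectionVars false

noncomputable section

open scoped MatrixGroups
open Matrix

namespace FLTAgent.R2.Coh

variable {M q : ℕ} (hqM : q ∣ M)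

/-- reduction to `GL(2, ℤ/q)` -/
def cq : GL (Fin 2) (ZMod M) →* GL (Fin 2) (ZMod q) :=
  Matrix.GeneralLinearGroup.map (ZMod.castHom hqM _)

theorem cq_apply (g : GL (Fin 2) (ZMod M)) (a b : Fin 2) :
    (cq hqM g).1 a b = ZMod.castHom hqM (ZMod q) (g.1 a b) := rfl

variable (H : Subgroup (ZMod q)ˣ)

/-- stabiliser of the first basis vector modulo `H` -/
def BXq : Subgroup (GL (Fin 2) (ZMod M)) where
  carrier := {g | (cq hqM g).1 1 0 = 0 ∧
    ∃ u ∈ H, ((u : (ZMod q)ˣ) : ZMod q) = (cq hqM g).1 0 0}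
  one_mem' := ⟨by simp, 1, one_mem _, by simp⟩
  mul_mem' := fun {g h} ⟨hg, u, hu, hu'⟩ ⟨hh, v, hv, hv'⟩ => by
    refine ⟨?_, u * v, mul_mem hu hv, ?_⟩
    · simp [map_mul, Matrix.mul_apply, Fin.sum_univ_two, hg, hh]
    · simp [map_mul, Matrix.mul_apply, Fin.sum_univ_two, hh, hu', hv']
  inv_mem' := fun {g} ⟨hg, u, hu, hu'⟩ => by
    have e : (cq hqM g⁻¹).1 * (cq hqM g).1 = 1 := by
      rw [← Units.val_mul, ← map_mul, inv_mul_cancel, map_one]; rfl
    have e00 := congrFun₂ e 0 0
    have e10 := congrFun₂ e 1 0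
    simp only [Matrix.mul_apply, Fin.sum_univ_two, hg, mul_zero, add_zero, ← hu',
      Matrix.one_apply_eq, Matrix.one_apply_ne (show (1 : Fin 2) ≠ 0 by decide)] at e00 e10
    refine ⟨(u.isUnit.mul_left_eq_zero).1 e10, u⁻¹, inv_mem hu, ?_⟩
    rw [← mul_one ((u⁻¹ : (ZMod q)ˣ) : ZMod q), ← e00, mul_comm _ (u : ZMod q),
      ← mul_assoc, Units.inv_mul, one_mul]

/-- the diagonal torus -/
def CQq : Subgroup (GL (Fin 2) (ZMod M)) where
  carrier := {g | (cq hqM g).1 1 0 = 0 ∧ (cq hqM g).1 0 1 = 0}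
  one_mem' := ⟨by simp, by simp⟩
  mul_mem' := fun {g h} hg hh => by
    refine ⟨?_, ?_⟩ <;>
      simp [map_mul, Matrix.mul_apply, Fin.sum_univ_two, hg.1, hh.1, hg.2, hh.2]
  inv_mem' := fun {g} hg => by
    simp only [Set.mem_ofPred_eq, map_inv, Matrix.coe_units_inv, Matrix.inv_def,
      Matrix.adjugate_fin_two, Matrix.smul_apply, smul_eq_mul]
    simp [hg.1, hg.2]

theorem BXq_le : BXq hqM H ≤ FLTAgent.LL.B0 M q := fun g hg => by
  have h : (ZMod.castHom hqM (ZMod q)) (g.1 1 0) = 0 := hg.1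
  rw [FLTAgent.LL.mem_B0]
  obtain ⟨a, ha⟩ := ZMod.intCast_surjective (g.1 1 0)
  rw [← ha] at h ⊢
  rw [map_intCast] at h
  obtain ⟨k, rfl⟩ := (ZMod.intCast_zmod_eq_zero_iff_dvd _ _).1 h
  exact ⟨(k : ZMod M), by rw [Int.cast_mul, Int.cast_natCast]⟩

/-- vectors modulo `H` -/
abbrev Xq : Type := GL (Fin 2) (ZMod M) ⧸ BXq hqM H

/-- pairs of lines -/
abbrev Pq : Type := GL (Fin 2) (ZMod M) ⧸ CQq hqM

/-- to the lines -/
def projq : Xq hqM H → FLTAgent.LL.P1 M q := Subgroup.quotientMapOfLE (BXq_le hqM H)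

variable [NeZero M]

/-- the class of a scalar -/
def clsq : (ZMod M)ˣ →* (ZMod q)ˣ ⧸ H := (QuotientGroup.mk' H).comp (ZMod.unitsMap hqM)

theorem clsq_surjective : Function.Surjective (clsq hqM H) :=
  (QuotientGroup.mk'_surjective H).comp (ZMod.unitsMap_surjective hqM)

theorem cls_scalar (a : (ZMod M)ˣ) :
    cq hqM (Matrix.GeneralLinearGroup.scalar (Fin 2) a) ∈
      {g : GL (Fin 2) (ZMod q) | g.1 1 0 = 0 ∧ g.1 0 0 = (ZMod.unitsMap hqM a : ZMod q)} := by
  constructor <;> simp [cq, Matrix.GeneralLinearGroup.map_apply, ZMod.unitsMap_def]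

theorem scalar_smul_eq_self {a : (ZMod M)ˣ} (x : Xq hqM H) :
    Matrix.GeneralLinearGroup.scalar (Fin 2) a • x = x ↔ clsq hqM H a = 1 := by
  induction x using QuotientGroup.induction_on with
  | H g =>
    rw [MulAction.Quotient.smul_mk, smul_eq_mul, Matrix.GeneralLinearGroup.scalar_commute,
      QuotientGroup.eq, _root_.mul_inv_rev, mul_assoc, inv_mul_cancel, mul_one, inv_mem_iff]
    refine ⟨fun ⟨_, u, hu, hu'⟩ => (QuotientGroup.eq_one_iff _).2 ?_,
      fun h => ⟨(cls_scalar hqM a).1, _, (QuotientGroup.eq_one_iff _).1 h, ?_⟩⟩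
    · rwa [show ZMod.unitsMap hqM a = u from Units.ext ((cls_scalar hqM a).2.symm.trans hu'.symm)]
    · exact (cls_scalar hqM a).2.symm

/-- scalars as permutations -/
def scalarPerm : (ZMod M)ˣ →* Equiv.Perm (Xq hqM H) :=
  (MulAction.toPermHom (GL (Fin 2) (ZMod M)) (Xq hqM H)).comp
    (Matrix.GeneralLinearGroup.scalar (Fin 2))

theorem ker_clsq_le : (clsq hqM H).ker ≤ (scalarPerm hqM H).ker := fun _ ha =>
  Equiv.ext fun x => (scalar_smul_eq_self hqM H x).2 ha

/-- the diamonds -/
def diaPerm : (ZMod q)ˣ ⧸ H →* Equiv.Perm (Xq hqM H) :=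
  (clsq hqM H).liftOfSurjective (clsq_surjective hqM H) ⟨scalarPerm hqM H, ker_clsq_le hqM H⟩

theorem diaPerm_clsq (a : (ZMod M)ˣ) (x : Xq hqM H) :
    diaPerm hqM H (clsq hqM H a) x = Matrix.GeneralLinearGroup.scalar (Fin 2) a • x := by
  rw [diaPerm, MonoidHom.liftOfSurjective, MonoidHom.liftOfRightInverse_comp_apply]
  rfl

theorem projq_smul (g : GL (Fin 2) (ZMod M)) (x : Xq hqM H) :
    projq hqM H (g • x) = g • projq hqM H x := by
  induction x using QuotientGroup.induction_on with | H h => rfl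

/-- the torsor of diamonds at one prime -/
def torsorq : Torsor M (Xq hqM H) (FLTAgent.LL.P1 M q) ((ZMod q)ˣ ⧸ H) where
  act := diaPerm hqM H
  act_smul u g x := by
    obtain ⟨a, rfl⟩ := clsq_surjective hqM H u
    rw [diaPerm_clsq, diaPerm_clsq, ← mul_smul, ← mul_smul,
      Matrix.GeneralLinearGroup.scalar_commute]
  free u x h := by
    obtain ⟨a, rfl⟩ := clsq_surjective hqM H u
    rw [diaPerm_clsq] at h
    exact (scalar_smul_eq_self hqM H x).1 h
  proj := projq hqM H
  proj_smul := projq_smul hqM H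
  proj_act u x := by
    obtain ⟨a, rfl⟩ := clsq_surjective hqM H u
    rw [diaPerm_clsq]
    induction x using QuotientGroup.induction_on with | H g =>
    rw [MulAction.Quotient.smul_mk, smul_eq_mul, Matrix.GeneralLinearGroup.scalar_commute]
    show (QuotientGroup.mk (g * _) : FLTAgent.LL.P1 M q) = QuotientGroup.mk g
    rw [QuotientGroup.eq, _root_.mul_inv_rev, mul_assoc, inv_mul_cancel, mul_one, inv_mem_iff,
      FLTAgent.LL.mem_B0]
    simp
  proj_surjective y := by
    induction y using QuotientGroup.induction_on with | H g => exact ⟨QuotientGroup.mk g, rfl⟩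
  exists_act x x' h := by
    induction x using QuotientGroup.induction_on with | H g =>
    induction x' using QuotientGroup.induction_on with | H g' =>
    have hb : g⁻¹ * g' ∈ FLTAgent.LL.B0 M q := QuotientGroup.eq.1 h
    obtain ⟨c, hc⟩ := (FLTAgent.LL.mem_B0 (M := M) (N := q)).1 hb
    have h10 : (cq hqM (g⁻¹ * g')).1 1 0 = 0 := by
      rw [cq_apply, hc, map_mul, map_natCast, ZMod.natCast_self, zero_mul]
    have hu : IsUnit ((cq hqM (g⁻¹ * g')).1 0 0) := by
      have hd := Matrix.isUnits_det_units (cq hqM (g⁻¹ * g'))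
      rw [Matrix.det_fin_two, h10, mul_zero, sub_zero] at hd
      exact isUnit_of_mul_isUnit_left hd
    obtain ⟨a, ha⟩ := ZMod.unitsMap_surjective hqM hu.unit
    refine ⟨clsq hqM H a, ?_⟩
    rw [diaPerm_clsq, MulAction.Quotient.smul_mk, smul_eq_mul,
      Matrix.GeneralLinearGroup.scalar_commute, QuotientGroup.eq, _root_.mul_inv_rev, mul_assoc,
      ← map_inv]
    have e := cls_scalar hqM a⁻¹
    refine ⟨?_, 1, one_mem _, ?_⟩
    · rw [map_mul, Units.val_mul, Matrix.mul_apply, Fin.sum_univ_two, h10, e.1, zero_mul,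
        mul_zero, add_zero]
    · rw [map_mul, Units.val_mul, Matrix.mul_apply, Fin.sum_univ_two, h10, e.2, mul_zero,
        add_zero, ← hu.unit_spec, ← ha, map_inv, ← Units.val_mul, inv_mul_cancel]

/-- product of torsors -/
def Torsor.pi {ι : Type*} {X Y : ι → Type*} [∀ i, MulAction (GL (Fin 2) (ZMod M)) (X i)]
    [∀ i, MulAction (GL (Fin 2) (ZMod M)) (Y i)] {Δ : ι → Type*} [∀ i, CommGroup (Δ i)]
    (T : ∀ i, Torsor M (X i) (Y i) (Δ i)) : Torsor M (∀ i, X i) (∀ i, Y i) (∀ i, Δ i) where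
  act :=
    { toFun := fun u => Equiv.piCongrRight fun i => (T i).act (u i)
      map_one' := Equiv.ext fun x => funext fun i => by
        show (T i).act 1 (x i) = x i
        rw [map_one]; rfl
      map_mul' := fun u v => Equiv.ext fun x => funext fun i => by
        show (T i).act (u i * v i) (x i) = (T i).act (u i) ((T i).act (v i) (x i))
        rw [map_mul]; rfl }
  act_smul u g x := funext fun i => (T i).act_smul (u i) g (x i)
  free u x h := funext fun i => (T i).free (u i) (x i) (congrFun h i)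
  proj x i := (T i).proj (x i)
  proj_smul g x := funext fun i => (T i).proj_smul g (x i)
  proj_act u x := funext fun i => (T i).proj_act (u i) (x i)
  proj_surjective y := by
    choose x hx using fun i => (T i).proj_surjective (y i)
    exact ⟨x, funext hx⟩
  exists_act x x' h := by
    choose u hu using fun i => (T i).exists_act (x i) (x' i) (congrFun h i)
    exact ⟨u, funext hu⟩

/-- a torsor times a set -/
def Torsor.prodLeft (Z : Type*) [MulAction (GL (Fin 2) (ZMod M)) Z] {X Y Δ : Type*}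
    [MulAction (GL (Fin 2) (ZMod M)) X] [MulAction (GL (Fin 2) (ZMod M)) Y] [CommGroup Δ]
    (T : Torsor M X Y Δ) : Torsor M (Z × X) (Z × Y) Δ where
  act :=
    { toFun := fun u => (Equiv.refl Z).prodCongr (T.act u)
      map_one' := Equiv.ext fun x => Prod.ext rfl (by
        show T.act 1 x.2 = x.2
        rw [map_one]; rfl)
      map_mul' := fun u v => Equiv.ext fun x => Prod.ext rfl (by
        show T.act (u * v) x.2 = T.act u (T.act v x.2)
        rw [map_mul]; rfl) }
  act_smul u g x := Prod.ext rfl (T.act_smul u g x.2)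
  free u x h := T.free u x.2 (congrArg Prod.snd h)
  proj x := (x.1, T.proj x.2)
  proj_smul g x := Prod.ext rfl (T.proj_smul g x.2)
  proj_act u x := Prod.ext rfl (T.proj_act u x.2)
  proj_surjective y := by
    obtain ⟨x, hx⟩ := T.proj_surjective y.2
    exact ⟨(y.1, x), Prod.ext rfl hx⟩
  exists_act x x' h := by
    obtain ⟨u, hu⟩ := T.exists_act x.2 x'.2 (congrArg Prod.snd h)
    exact ⟨u, Prod.ext (congrArg Prod.fst h :) hu⟩

end FLTAgent.R2.Coh
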