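import Fermat.Agent.R2.CohTwist

/-!
Area R2, parcel A: a complete family of twisting characters, from roots of unity of twice the
two-power orders of the diamond groups.
-/

set_option autoImplicit false
set_option linter.style.haveILetI false
set_option linter.unusedSectionVars false

noncomputable section

open IsLocalRing

namespace FLTAgent.R2.Coh

section OnePrime

variable {q : ℕ} [Fact q.Prime] (H : Subgroup (ZMod q)ˣ)

theorem two_mul_index_dvd (hneg : (-1 : (ZMod q)ˣ) ∈ H) (hq : q ≠ 2) :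
    2 * H.index ∣ Nat.card (ZMod q)ˣ := by
  haveI : Fact (2 < q) := ⟨lt_of_le_of_ne (Fact.out : q.Prime).two_le hq.symm⟩
  have ho : orderOf (-1 : (ZMod q)ˣ) = 2 :=
    orderOf_eq_prime (by simp) fun h => ZMod.neg_one_ne_one (n := q) (by
      simpa using congrArg Units.val h)
  have h2 : 2 ∣ Nat.card H := by
    have h := orderOf_dvd_natCard (⟨-1, hneg⟩ : H)
    rwa [← Subgroup.orderOf_coe, ho] at h
  rw [← H.card_mul_index]
  exact Nat.mul_dvd_mul h2 dvd_rfl

variable {A : Type*} [CommRing A] [IsDomain A]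

theorem exists_chars (hneg : (-1 : (ZMod q)ˣ) ∈ H) (hq : q ≠ 2) {ζ : A}
    (hζ : IsPrimitiveRoot ζ (2 * H.index)) :
    ∃ ψ : Fin H.index → MulChar (ZMod q) A,
      (∀ k, ∀ u ∈ H, ψ k u * ψ k u = 1) ∧ (∀ k, ψ k = 1 ∨ ψ k * ψ k ≠ 1) ∧
      (∀ k (u : (ZMod q)ˣ), ∃ j : ℕ, ψ k u = ζ ^ j) ∧
      ∀ u : (ZMod q)ˣ, u ∉ H → ∑ k, ψ k u * ψ k u = 0 := by
  classical
  set n := H.index with hn
  have hn0 : n ≠ 0 := H.index_ne_zero_of_finite
  obtain ⟨g, hg⟩ := IsCyclic.exists_generator (α := (ZMod q)ˣ)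
  have hord : orderOf g = Nat.card (ZMod q)ˣ := orderOf_eq_card_of_forall_mem_zpowers hg
  have hu : IsUnit ζ := hζ.isUnit (by omega)
  set z := hu.unit with hz
  have hz1 : z ^ (2 * n) = 1 := Units.ext (by rw [Units.val_pow_eq_pow_val, hu.unit_spec, Units.val_one, hζ.pow_eq_one])
  let f : Fin n → (ZMod q)ˣ →* Aˣ := fun k => monoidHomOfForallMemZpowers hg (g' := z ^ (k : ℕ)) (by
    refine dvd_trans (orderOf_dvd_of_pow_eq_one ?_) (hord ▸ two_mul_index_dvd H hneg hq)
    rw [← pow_mul, mul_comm, pow_mul, hz1, one_pow])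
  have hfg : ∀ k (j : ℕ), f k (g ^ j) = z ^ ((k : ℕ) * j) := fun k j => by
    rw [map_pow, show f k g = z ^ (k : ℕ) from monoidHomOfForallMemZpowers_apply_gen hg _, ← pow_mul]
  have hgen : ∀ u : (ZMod q)ˣ, ∃ j : ℕ, g ^ j = u := fun u =>
    Submonoid.mem_powers_iff _ _ |>.1 (mem_powers_iff_mem_zpowers.2 (hg u))
  have hmem : ∀ j : ℕ, g ^ j ∈ H ↔ n ∣ j := by
    intro j
    rw [← QuotientGroup.eq_one_iff, QuotientGroup.mk_pow, ← orderOf_dvd_iff_pow_eq_one,
      show orderOf (QuotientGroup.mk g : (ZMod q)ˣ ⧸ H) = n from ?_]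
    rw [hn, Subgroup.index]
    refine orderOf_eq_card_of_forall_mem_zpowers fun x => ?_
    obtain ⟨y, rfl⟩ := QuotientGroup.mk_surjective x
    obtain ⟨i, rfl⟩ := hg y
    exact ⟨i, rfl⟩
  have hval : ∀ k (j : ℕ), MulChar.ofUnitHom (f k) ((g ^ j : (ZMod q)ˣ) : ZMod q) = ζ ^ ((k : ℕ) * j) :=
    fun k j => by rw [MulChar.ofUnitHom_coe, hfg, Units.val_pow_eq_pow_val, hu.unit_spec]
  refine ⟨fun k => MulChar.ofUnitHom (f k), fun k u hu' => ?_, fun k => ?_, fun k u => ?_,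
    fun u hu' => ?_⟩
  · obtain ⟨j, rfl⟩ := hgen u
    obtain ⟨i, rfl⟩ := (hmem j).1 hu'
    rw [hval, ← pow_add, show (k : ℕ) * (n * i) + (k : ℕ) * (n * i) = (2 * n) * (k * i) by ring,
      pow_mul, hζ.pow_eq_one, one_pow]
  · rcases Nat.eq_zero_or_pos (k : ℕ) with hk | hk
    · refine Or.inl (MulChar.ext fun u => ?_)
      obtain ⟨j, rfl⟩ := hgen u
      rw [hval, hk, zero_mul, pow_zero, MulChar.one_apply_coe]
    · refine Or.inr fun h => ?_
      have e := congrArg (fun m : MulChar (ZMod q) A => m ((g ^ 1 : (ZMod q)ˣ) : ZMod q)) h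
      simp only [MulChar.mul_apply, hval, MulChar.one_apply_coe, mul_one, ← pow_add] at e
      exact hζ.pow_ne_one_of_pos_of_lt (by omega) (by omega) e
  · obtain ⟨j, rfl⟩ := hgen u
    exact ⟨_, hval k j⟩
  · obtain ⟨j, rfl⟩ := hgen u
    set x := ζ ^ (2 * j) with hx
    have hx1 : x ≠ 1 := fun h => hu' ((hmem j).2 (Nat.dvd_of_mul_dvd_mul_left two_pos
      ((hζ.pow_eq_one_iff_dvd _).1 h)))
    have hxn : x ^ n = 1 := by
      rw [hx, ← pow_mul, show 2 * j * n = 2 * n * j by ring, pow_mul, hζ.pow_eq_one, one_pow]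
    have hs : (x - 1) * ∑ k : Fin n, x ^ (k : ℕ) = 0 := by
      rw [Fin.sum_univ_eq_sum_range (fun i => x ^ i) n, mul_geom_sum, hxn, sub_self]
    refine Eq.trans (Finset.sum_congr rfl fun k _ => ?_)
      ((mul_eq_zero.1 hs).resolve_left (sub_ne_zero.2 hx1))
    rw [hval, ← pow_add, hx, ← pow_mul]
    congr 1
    ring

end OnePrime

/-- roots of unity of two-power order reduce to one -/
theorem sub_one_mem_of_pow_two_pow {A : Type*} [CommRing A] [IsLocalRing A]
    (h2 : (2 : A) ∈ maximalIdeal A) {x : A} {e : ℕ} (hx : x ^ 2 ^ e = 1) :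
    x - 1 ∈ maximalIdeal A := by
  rw [← IsLocalRing.residue_eq_zero_iff]
  set k := IsLocalRing.residue A
  haveI : Fact (Nat.Prime 2) := ⟨Nat.prime_two⟩
  haveI : CharP (ResidueField A) 2 := by
    refine CharTwo.of_one_ne_zero_of_two_eq_zero one_ne_zero ?_
    rw [← map_ofNat k, (IsLocalRing.residue_eq_zero_iff _).2 h2]
  have h : (k x - 1) ^ 2 ^ e = 0 := by
    rw [sub_pow_char_pow, one_pow, ← map_pow, hx, map_one, sub_self]
  rw [map_sub, map_one]
  exact eq_zero_of_pow_eq_zero h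

namespace AuxData

variable {M r : ℕ} (D : AuxData M r) {A : Type*} [CommRing A] [IsDomain A] [IsLocalRing A]

/-- a complete family of twists -/
theorem exists_choices (hodd : ∀ i, D.Q i ≠ 2) (h2 : (2 : A) ∈ maximalIdeal A)
    (he : ∀ i, ∃ e, (D.H i).index = 2 ^ e)
    (hζ : ∀ i, ∃ ζ : A, IsPrimitiveRoot ζ (2 * (D.H i).index)) :
    ∃ cs : (∀ i, Fin (D.H i).index) → D.Choice A,
      (∀ k a, (cs k).chi a - 1 ∈ maximalIdeal A) ∧
      ∀ u : D.Del, u ≠ 1 → ∑ k, (cs k).delta u = 0 := by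
  classical
  choose ζ hζ using hζ
  choose ψ hsq hadm hval hsum using fun i => exists_chars (D.H i) (D.neg_mem i) (hodd i) (hζ i)
  refine ⟨fun k => ⟨fun i => ψ i (k i), fun i => hsq i (k i), fun i => hadm i (k i)⟩,
    fun k a => ?_, fun u hu => ?_⟩
  · rw [← IsLocalRing.residue_eq_zero_iff, map_sub, map_one, sub_eq_zero]
    show IsLocalRing.residue A (∏ i, ψ i (k i) (ZMod.unitsMap (D.dvd i) a : ZMod (D.Q i))) = 1
    refine (map_prod (IsLocalRing.residue A) _ _).trans (Finset.prod_eq_one fun i _ => ?_)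
    obtain ⟨e, he⟩ := he i
    obtain ⟨j, hj⟩ := hval i (k i) (ZMod.unitsMap (D.dvd i) a)
    show IsLocalRing.residue A (ψ i (k i) _) = 1
    rw [hj, map_pow, show IsLocalRing.residue A (ζ i) = 1 from ?_, one_pow]
    rw [← sub_eq_zero, ← map_one (IsLocalRing.residue A), ← map_sub,
      IsLocalRing.residue_eq_zero_iff]
    refine sub_one_mem_of_pow_two_pow h2 (e := e + 1) ?_
    rw [pow_succ', ← he]
    exact (hζ i).pow_eq_one
  · obtain ⟨i, hi⟩ : ∃ i, u i ≠ 1 := by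
      by_contra h
      push Not at h
      exact hu (funext h)
    let g : ∀ i, Fin (D.H i).index → A := fun i k =>
      ψ i k (((u i).out⁻¹ : (ZMod (D.Q i))ˣ) : ZMod (D.Q i)) *
        ψ i k (((u i).out⁻¹ : (ZMod (D.Q i))ˣ) : ZMod (D.Q i))
    refine Eq.trans (Finset.sum_congr rfl fun k _ => ?_) ((Fintype.prod_sum g).symm.trans
      (Finset.prod_eq_zero (Finset.mem_univ i) (hsum i _ ?_)))
    · rw [Choice.delta, MonoidHom.coe_mk, OneHom.coe_mk]
      refine Finset.prod_congr rfl fun j _ => ?_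
      conv_lhs => rw [← QuotientGroup.out_eq' (u j)]
      rfl
    · intro h
      refine hi ?_
      rw [← QuotientGroup.out_eq' (u i), QuotientGroup.eq_one_iff]
      simpa using inv_mem h

end AuxData

end FLTAgent.R2.Coh
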