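import Fermat.Agent.R2.CohFree
import Fermat.Agent.LL.TWNak
import Fermat.Agent.LL.TWFree

/-!
Area R2, parcel A: the localised cohomology at an auxiliary level is free over the group ring of
the diamonds, with the level without diamonds as coinvariants (coefficients in which the residue
characteristic is nilpotent).
-/

set_option autoImplicit false
set_option linter.style.haveILetI false
set_option linter.unusedSectionVars false

noncomputable section

open scoped MatrixGroups
open Matrix

namespace FLTAgent.R2.Coh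

open FLTAgent.LL

section Algebra

variable {A : Type*} [CommRing A] {H H₀ : Type*} [AddCommGroup H] [Module A H] [AddCommGroup H₀]
  [Module A H₀] {Δ : Type*} [CommGroup Δ] [Fintype Δ]

/-- an element of `p`-power order is unipotent when `p` is nilpotent -/
theorem isNilpotent_sub_one {p : ℕ} (hp : p.Prime) (hnil : IsNilpotent (p : A)) {n : ℕ}
    {x : Module.End A H} (hx : x ^ p ^ n = 1) : IsNilpotent (x - 1) := by
  obtain ⟨k, hk⟩ := hnil
  obtain ⟨r, hr⟩ := ((Commute.one_right (x - 1))).exists_add_pow_prime_pow_eq hp n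
  rw [sub_add_cancel, hx, one_pow] at hr
  have hpow : (x - 1) ^ p ^ n = (p : Module.End A H) * -((x - 1) * 1 * r) := by
    linear_combination (norm := noncomm_ring) -hr
  refine ⟨p ^ n * k, ?_⟩
  rw [pow_mul, hpow, (Nat.cast_commute p _).mul_pow,
    ← map_natCast (algebraMap A (Module.End A H)), ← map_pow, hk, map_zero, zero_mul]

/-- the criterion: lifts of a basis of the coinvariants form a basis over the group ring -/
theorem bijective_of_coinvariants {p : ℕ} (hp : p.Prime) (hnil : IsNilpotent (p : A)) {n : ℕ}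
    (hΔ : ∀ u : Δ, u ^ p ^ n = 1) (dia : Δ →* Module.End A H) (toY : H →ₗ[A] H₀)
    (pull : H₀ →ₗ[A] H) (hpull : Function.Injective pull)
    (hpt : ∀ x, pull (toY x) = ∑ u, dia u x)
    (hker : LinearMap.ker toY ≤ ⨆ u, LinearMap.range (dia u - 1))
    {κ : Type*} [Fintype κ] (b : Module.Basis κ A H₀) (e : κ → H) (he : ∀ i, toY (e i) = b i) :
    Function.Bijective (fun c : κ → Δ → A => ∑ i, ∑ u, c i u • dia u (e i)) := by
  classical
  let S : (κ → Δ → A) →ₗ[A] H :=
    { toFun := fun c => ∑ i, ∑ u, c i u • dia u (e i)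
      map_add' := fun c c' => by simp [add_smul, Finset.sum_add_distrib]
      map_smul' := fun a c => by simp [Finset.smul_sum, smul_smul] }
  show Function.Bijective S
  let τ : Δ → Module.End A (κ → Δ → A) := fun v =>
    LinearMap.pi fun i => LinearMap.funLeft A A (fun u : Δ => v⁻¹ * u) ∘ₗ LinearMap.proj i
  have hτ : ∀ v c, dia v (S c) = S (τ v c) := by
    intro v c
    show dia v (∑ i, ∑ u, c i u • dia u (e i)) = ∑ i, ∑ u, c i (v⁻¹ * u) • dia u (e i)
    rw [map_sum]
    refine Finset.sum_congr rfl fun i _ => ?_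
    rw [map_sum]
    refine Fintype.sum_equiv (Equiv.mulLeft v) _ _ fun u => ?_
    rw [map_smul, Equiv.coe_mulLeft, inv_mul_cancel_left, map_mul, Module.End.mul_apply]
  let ev : Δ → Module.End A H := fun u => dia u - 1
  have hev : ∀ u v, Commute (ev u) (ev v) := fun u v => by
    have h : Commute (dia u) (dia v) := by
      rw [commute_iff_eq, ← map_mul, ← map_mul, mul_comm]
    exact (h.sub_left (Commute.one_left _)).sub_right (Commute.one_right _)
  have hevnil : ∀ u, IsNilpotent (ev u) := fun u =>
    isNilpotent_sub_one hp hnil (n := n) (by rw [← map_pow, hΔ, map_one])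
  have hτmul : ∀ u v, τ (u * v) = τ u * τ v := fun u v =>
    LinearMap.ext fun c => funext fun i => funext fun w => by
      show c i ((u * v)⁻¹ * w) = c i (v⁻¹ * (u⁻¹ * w))
      rw [_root_.mul_inv_rev, mul_assoc]
  have hτ1 : τ 1 = 1 := LinearMap.ext fun c => funext fun i => funext fun w => by
    show c i ((1 : Δ)⁻¹ * w) = c i w
    rw [inv_one, one_mul]
  let τh : Δ →* Module.End A (κ → Δ → A) := { toFun := τ, map_one' := hτ1, map_mul' := hτmul }
  constructor
  · refine LinearMap.ker_eq_bot.1 ?_
    by_contra hne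
    obtain ⟨c, hc, hc0, hfix⟩ := exists_common_kernel (fun v => τh v - 1) ⊥ (LinearMap.ker S)
      (fun v c hc => by rw [Submodule.mem_bot] at hc ⊢; rw [hc, map_zero])
      (fun v c hc => by
        rw [LinearMap.mem_ker] at hc ⊢
        show S (τ v c - c) = 0
        rw [_root_.map_sub, ← hτ, hc, map_zero, sub_zero])
      (fun u v => ((Commute.all u v).map τh |>.sub_left (Commute.one_left _)).sub_right
        (Commute.one_right _))
      (fun v => by
        obtain ⟨k, hk⟩ := isNilpotent_sub_one hp hnil (n := n) (x := τh v)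
          (by rw [← map_pow, hΔ, map_one])
        exact ⟨k, by rw [hk, LinearMap.range_zero]⟩)
      Finset.univ fun h => hne (le_bot_iff.1 h)
    have hconst : ∀ i u, c i u = c i 1 := fun i u => by
      have h := hfix u⁻¹ (Finset.mem_univ _)
      rw [Submodule.mem_bot, LinearMap.sub_apply, sub_eq_zero] at h
      have h2 := congrFun (congrFun h i) 1
      change c i (u⁻¹⁻¹ * 1) = c i 1 at h2
      rwa [inv_inv, mul_one] at h2
    have hS : pull (∑ i, c i 1 • b i) = 0 := by
      rw [← LinearMap.mem_ker.1 hc]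
      show _ = ∑ i, ∑ u, c i u • dia u (e i)
      rw [map_sum]
      refine Finset.sum_congr rfl fun i _ => ?_
      rw [map_smul, ← he, hpt, Finset.smul_sum]
      exact Finset.sum_congr rfl fun u _ => by rw [hconst i u]
    have hz := Fintype.linearIndependent_iff.1 b.linearIndependent (fun i => c i 1)
      (hpull (hS.trans (map_zero pull).symm))
    exact hc0 ((Submodule.mem_bot A).2 (funext fun i => funext fun u => by rw [hconst, hz]; rfl))
  · refine LinearMap.range_eq_top.1 (eq_top_of_sup_ranges ev _ (fun v => ?_) hev (fun u => ?_)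
      Finset.univ (eq_top_iff.2 fun x _ => ?_))
    · rintro _ ⟨_, ⟨c, rfl⟩, rfl⟩
      exact ⟨τ v c - c, by rw [_root_.map_sub, ← hτ]; rfl⟩
    · obtain ⟨k, hk⟩ := hevnil u
      exact ⟨k, by rw [hk, LinearMap.range_zero]; exact bot_le⟩
    · let c : κ → Δ → A := fun i u => if u = 1 then b.repr (toY x) i else 0
      rw [← sub_add_cancel x (S c)]
      refine add_mem (Submodule.mem_sup_right ?_) (Submodule.mem_sup_left ⟨c, rfl⟩)
      have h : x - S c ∈ LinearMap.ker toY := by
        rw [LinearMap.mem_ker, _root_.map_sub, sub_eq_zero]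
        show _ = toY (∑ i, ∑ u, c i u • dia u (e i))
        conv_lhs => rw [← b.sum_repr (toY x)]
        simp [c, he, ite_smul]
      simpa only [Finset.mem_univ, iSup_pos] using hker h

end Algebra

variable {M : ℕ} [NeZero M] {A : Type*} [CommRing A] {V V₀ : Type*} [AddCommGroup V] [Module A V]
  [AddCommGroup V₀] [Module A V₀]

/-- diamonds on a coefficient module, their invariants and coinvariants -/
structure DiaData (ρ : Representation A (GL (Fin 2) (ZMod M)) V)
    (ρ₀ : Representation A (GL (Fin 2) (ZMod M)) V₀) (Δ : Type*) [CommGroup Δ] [Fintype Δ] where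
  act : Δ →* Module.End A V
  isTwist_act : ∀ u, IsTwist ρ ρ 1 (act u)
  push : V →ₗ[A] V₀
  isTwist_push : IsTwist ρ ρ₀ 1 push
  push_surjective : Function.Surjective push
  pull : V₀ →ₗ[A] V
  isTwist_pull : IsTwist ρ₀ ρ 1 pull
  pull_injective : Function.Injective pull
  push_act : ∀ u, push ∘ₗ act u = push
  pull_push : ∀ v, pull (push v) = ∑ u, act u v
  ker_push : LinearMap.ker push ≤ ⨆ u, LinearMap.range (act u - 1)
  split : Module.End A V
  split_spec : ∀ v,
    split v + ρ (red M ModularGroup.S) (split (ρ (red M ModularGroup.S) v)) = v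
  split_act : ∀ u, Commute split (act u)

namespace DiaData

variable {ρ : Representation A (GL (Fin 2) (ZMod M)) V}
  {ρ₀ : Representation A (GL (Fin 2) (ZMod M)) V₀} {Δ : Type*} [CommGroup Δ] [Fintype Δ]
  (D : DiaData ρ ρ₀ Δ)

include D in
theorem sFree : SFree ρ := ⟨D.split, D.split_spec⟩

/-- `(F u)_u ↦ ∑ (u F u - F u)` -/
def diff : (Δ → V) →ₗ[A] V := ∑ u : Δ, (D.act u - 1) ∘ₗ LinearMap.proj u

theorem diff_apply (F : Δ → V) : D.diff F = ∑ u, (D.act u (F u) - F u) := by
  simp [diff, LinearMap.sum_apply]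

theorem range_diff : LinearMap.range D.diff = LinearMap.ker D.push := by
  classical
  refine le_antisymm ?_ ?_
  · rintro _ ⟨F, rfl⟩
    rw [LinearMap.mem_ker, diff_apply, map_sum]
    refine Finset.sum_eq_zero fun u _ => ?_
    rw [_root_.map_sub, ← LinearMap.comp_apply, D.push_act, sub_self]
  · refine D.ker_push.trans (iSup_le fun u => ?_)
    rintro _ ⟨v, rfl⟩
    refine ⟨Pi.single u v, ?_⟩
    rw [diff_apply, Finset.sum_eq_single u]
    · rw [Pi.single_eq_same]; rfl
    · intro w _ hw; rw [Pi.single_eq_of_ne hw, map_zero, sub_self]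
    · simp

include D in
theorem sFree₀ : SFree ρ₀ := by
  refine SFree.of_surjective D.isTwist_push D.push_surjective D.split_spec fun v hv => ?_
  rw [← LinearMap.mem_ker, ← D.range_diff] at hv ⊢
  obtain ⟨F, rfl⟩ := hv
  refine ⟨fun u => D.split (F u), ?_⟩
  rw [diff_apply, diff_apply, map_sum]
  exact Finset.sum_congr rfl fun u _ => by
    rw [_root_.map_sub, ← Module.End.mul_apply, ← (D.split_act u).eq, Module.End.mul_apply]

variable [IsLocalRing A] [IsNoetherianRing A] [IsAdicComplete (IsLocalRing.maximalIdeal A) A]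
  [Module.Finite A V] [Module.Finite A V₀] (s : Sys M A)

theorem one_sub_mem (u : (ZMod M)ˣ) :
    (1 : (ZMod M)ˣ →* A) u - 1 ∈ IsLocalRing.maximalIdeal A := by simp

/-- diamonds on the part of the system -/
def dia : Δ →* Module.End A (s.E ρ) where
  toFun u := (LL.map (D.isTwist_act u)).restrict fun _ hx =>
    s.map_mem_E _ one_sub_mem hx
  map_one' := LinearMap.ext fun x => Subtype.ext (by
    obtain ⟨f, hf⟩ := Submodule.mkQ_surjective _ x.1
    show LL.map (D.isTwist_act 1) x.1 = x.1
    rw [← hf]
    exact congrArg (H1.mk ρ) (Subtype.ext (funext fun g => LinearMap.congr_fun (map_one D.act) _)))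
  map_mul' u v := LinearMap.ext fun x => Subtype.ext (by
    obtain ⟨f, hf⟩ := Submodule.mkQ_surjective _ x.1
    show LL.map (D.isTwist_act (u * v)) x.1 = LL.map (D.isTwist_act u) (LL.map (D.isTwist_act v) x.1)
    rw [← hf]
    exact congrArg (H1.mk ρ) (Subtype.ext (funext fun g => LinearMap.congr_fun (map_mul D.act u v) _)))

theorem dia_val (u : Δ) (x : s.E ρ) : (D.dia s u x).1 = LL.map (D.isTwist_act u) x.1 := rfl

theorem commute_dia_T (u : Δ) {l : ℕ} (hl : l.Prime) (hlM : ¬ l ∣ M) (x : s.E ρ) :
    LL.map (D.isTwist_act u) (T ρ hl hlM x.1) = T ρ hl hlM (D.dia s u x).1 :=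
  map_T_one (D.isTwist_act u) hl hlM x.1

/-- to the level without diamonds -/
def toY : s.E ρ →ₗ[A] s.E ρ₀ :=
  (LL.map D.isTwist_push).restrict fun _ hx => s.map_mem_E _ one_sub_mem hx

/-- from the level without diamonds -/
def ofY : s.E ρ₀ →ₗ[A] s.E ρ :=
  (LL.map D.isTwist_pull).restrict fun _ hx => s.map_mem_E _ one_sub_mem hx

theorem ofY_injective : Function.Injective (D.ofY s) := fun x y h => by
  refine sub_eq_zero.1 (Subtype.ext (s.eq_zero_of_map_eq_zero D.isTwist_pull D.pull_injective
    (x - y).2 ?_))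
  rw [Submodule.coe_sub, _root_.map_sub, sub_eq_zero]
  exact congrArg Subtype.val h

theorem ofY_toY (x : s.E ρ) : D.ofY s (D.toY s x) = ∑ u, D.dia s u x := by
  refine Subtype.ext ?_
  rw [Submodule.coe_sum]
  simp only [dia_val]
  obtain ⟨f, hf⟩ := Submodule.mkQ_surjective _ x.1
  show LL.map D.isTwist_pull (LL.map D.isTwist_push x.1) = _
  rw [← hf]
  simp only [map_mk, ← map_sum]
  refine congrArg (H1.mk ρ) (Subtype.ext (funext fun g => ?_))
  rw [Submodule.coe_sum, Finset.sum_apply]
  exact D.pull_push (f.1 g)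

theorem toY_dia (u : Δ) (x : s.E ρ) : D.toY s (D.dia s u x) = D.toY s x := by
  refine Subtype.ext ?_
  obtain ⟨f, hf⟩ := Submodule.mkQ_surjective _ x.1
  show LL.map D.isTwist_push (LL.map (D.isTwist_act u) x.1) = LL.map D.isTwist_push x.1
  rw [← hf]
  exact congrArg (H1.mk ρ₀) (Subtype.ext (funext fun g => LinearMap.congr_fun (D.push_act u) _))

variable (hneg : ρ (red M (-1)) = 1) (h3 : IsUnit (3 : A))

include hneg h3 in
theorem toY_surjective : Function.Surjective (D.toY s) := fun y => by
  obtain ⟨x, hx, hxy⟩ := exists_mem_E_map_eq s hneg h3 D.isTwist_push one_sub_mem D.push_surjective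
    D.sFree₀ y.2
  exact ⟨⟨x, hx⟩, Subtype.ext hxy⟩

include hneg h3 in
theorem ker_toY : LinearMap.ker (D.toY s) = ⨆ u : Δ, LinearMap.range (D.dia s u - 1) := by
  refine le_antisymm (fun x hx => ?_) (iSup_le fun u => ?_)
  swap
  · rintro _ ⟨x, rfl⟩
    rw [LinearMap.mem_ker, LinearMap.sub_apply, _root_.map_sub, Module.End.one_apply, toY_dia,
      sub_self]
  let W : Submodule A V := LinearMap.ker D.push
  have hW : ∀ g, W ≤ W.comap (ρ g) := fun g v hv => by
    rw [Submodule.mem_comap, LinearMap.mem_ker, D.isTwist_push, MonoidHom.one_apply, one_smul,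
      LinearMap.mem_ker.1 hv, map_zero]
  let ρW := ρ.subrepresentation W hW
  have hi : IsTwist ρW ρ 1 W.subtype := fun g v => by
    rw [MonoidHom.one_apply, one_smul]
    rfl
  obtain ⟨w, hw, hwx⟩ := s.exists_mem_E_of_map_eq_zero hi D.isTwist_push one_sub_mem
    W.injective_subtype (LinearMap.exact_subtype_ker_map _) D.push_surjective x.2
    (congrArg Subtype.val hx)
  let Φ : (Δ → V) →ₗ[A] W := D.diff.codRestrict W fun F => D.range_diff.le (LinearMap.mem_range_self _ F)
  have hΦ : IsTwist (piRep Δ ρ) ρW 1 Φ := fun g F => by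
    rw [MonoidHom.one_apply, one_smul]
    refine Subtype.ext ?_
    show D.diff _ = ρ g (D.diff F)
    rw [diff_apply, diff_apply, map_sum]
    refine Finset.sum_congr rfl fun u _ => ?_
    rw [_root_.map_sub]
    show D.act u (ρ g (F u)) - ρ g (F u) = _
    rw [D.isTwist_act u g (F u), MonoidHom.one_apply, one_smul]
  have hΦs : Function.Surjective Φ := fun v => by
    obtain ⟨G, hG⟩ : v.1 ∈ LinearMap.range D.diff := by rw [D.range_diff]; exact v.2
    exact ⟨G, Subtype.ext hG⟩
  have hfree : SFree ρW := by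
    refine SFree.of_surjective hΦ hΦs
      (e := LinearMap.pi fun u => D.split ∘ₗ LinearMap.proj u)
      (fun F => funext fun u => D.split_spec (F u)) fun F hF => Subtype.ext ?_
    have hF' : D.diff F = 0 := congrArg Subtype.val hF
    show D.diff (fun u => D.split (F u)) = 0
    have h2 := congrArg D.split hF'
    rw [diff_apply, map_sum, map_zero] at h2
    rw [diff_apply, ← h2]
    exact Finset.sum_congr rfl fun u _ => by
      rw [_root_.map_sub, ← Module.End.mul_apply, ← (D.split_act u).eq, Module.End.mul_apply]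
  obtain ⟨z, hz, hzw⟩ := exists_mem_E_map_eq s (ρ := piRep Δ ρ)
    (LinearMap.ext fun F => funext fun u => by
      show ρ (red M (-1)) (F u) = F u
      rw [hneg]
      rfl) h3 hΦ one_sub_mem hΦs hfree hw
  let zu : Δ → s.E ρ := fun u =>
    ⟨LL.map (isTwist_piProj ρ u) z, s.map_mem_E _ one_sub_mem hz⟩
  have key : x = ∑ u, (D.dia s u (zu u) - zu u) := by
    refine Subtype.ext ?_
    rw [← hwx, ← hzw, Submodule.coe_sum]
    simp only [Submodule.coe_sub, dia_val, zu]
    obtain ⟨f, rfl⟩ := Submodule.mkQ_surjective _ z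
    simp only [map_mk, ← _root_.map_sub, ← map_sum]
    refine congrArg (H1.mk ρ) (Subtype.ext (funext fun γ => ?_))
    rw [Submodule.coe_sum, Finset.sum_apply]
    exact D.diff_apply (f.1 γ)
  rw [key]
  exact Submodule.sum_mem _ fun u _ => Submodule.mem_iSup_of_mem u ⟨zu u, rfl⟩

include hneg h3 in
/-- lifts of a basis at the level without diamonds form a basis over the group ring -/
theorem exists_diaBasis {p : ℕ} (hp : p.Prime) (hnil : IsNilpotent (p : A)) {n : ℕ}
    (hΔ : ∀ u : Δ, u ^ p ^ n = 1) [Module.Free A (s.E ρ₀)] :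
    ∃ e : Fin (Module.finrank A (s.E ρ₀)) → s.E ρ, Function.Bijective
      (fun c : Fin (Module.finrank A (s.E ρ₀)) → Δ → A => ∑ i, ∑ u, c i u • D.dia s u (e i)) := by
  haveI := s.E_finite (ρ := ρ₀)
  let b := Module.finBasis A (s.E ρ₀)
  choose e he using fun i => D.toY_surjective s hneg h3 (b i)
  exact ⟨e, bijective_of_coinvariants hp hnil hΔ (D.dia s) (D.toY s) (D.ofY s) (D.ofY_injective s)
    (D.ofY_toY s) (D.ker_toY s hneg h3).le b e he⟩

end DiaData

end FLTAgent.R2.Coh
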