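import Fermat.Agent.LL.CohAPI

/-!
Area R2, parcel A: exactness of the localised cohomology when `2` is not invertible.

* on the part of a system every class vanishes at `-1` (no hypothesis on `2`);
* `SFree ρ`: the coefficient module is free relative to the element `S` of order two (functions on a
  set without fixed points of `S`, and anything built from them);
* with `SFree` and `3` invertible, classes of a system lift along surjections, so that the part cut
  out by a system is an exact functor; multiplications are exact on it;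
* classes of a system are trivial at the cusps.
-/

set_option autoImplicit false
set_option linter.style.haveILetI false
set_option linter.unusedSectionVars false

noncomputable section

open scoped MatrixGroups
open Matrix

namespace FLTAgent.R2.Coh

open FLTAgent.LL

variable {M : ℕ} [NeZero M] {A : Type*} [CommRing A]
variable {V V' : Type*} [AddCommGroup V] [Module A V] [AddCommGroup V'] [Module A V']
  {ρ : Representation A (GL (Fin 2) (ZMod M)) V}
  {ρ' : Representation A (GL (Fin 2) (ZMod M)) V'}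
  {χ : (ZMod M)ˣ →* A} {Φ : V →ₗ[A] V'}

variable (ρ) in
/-- free relative to `S`: an endomorphism whose two translates sum to the identity -/
def SFree : Prop :=
  ∃ e : Module.End A V, ∀ v,
    e v + ρ (red M ModularGroup.S) (e (ρ (red M ModularGroup.S) v)) = v

theorem isUnit_three [IsLocalRing A] (h2 : (2 : A) ∈ IsLocalRing.maximalIdeal A) :
    IsUnit (3 : A) := by
  rw [← IsLocalRing.residue_ne_zero_iff_isUnit, show (3 : A) = 2 + 1 by norm_num, _root_.map_add,
    (IsLocalRing.residue_eq_zero_iff _).2 h2, zero_add, map_one]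
  exact one_ne_zero

theorem S_S (hneg : ρ (red M (-1)) = 1) (v : V) :
    ρ (red M ModularGroup.S) (ρ (red M ModularGroup.S) v) = v := by
  rw [← Module.End.mul_apply, ← map_mul, ← map_mul, Periods.S_mul_S, hneg]; rfl

theorem U_U_U (hneg : ρ (red M (-1)) = 1) (v : V) :
    ρ (red M Periods.eltU) (ρ (red M Periods.eltU) (ρ (red M Periods.eltU) v)) = v := by
  rw [← Module.End.mul_apply, ← map_mul, ← Module.End.mul_apply, ← map_mul, ← map_mul,
    ← map_mul, mul_assoc, Periods.eltU_pow_three, hneg]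
  rfl

theorem neg_one_of_surjective (hneg : ρ (red M (-1)) = 1) (h : IsTwist ρ ρ' χ Φ)
    (hs : Function.Surjective Φ) : ρ' (red M (-1)) = 1 := by
  refine LinearMap.ext fun v' => ?_
  obtain ⟨v, rfl⟩ := hs v'
  rw [← h.apply_red, hneg]
  rfl

theorem neg_one_of_injective (hneg : ρ' (red M (-1)) = 1) (h : IsTwist ρ ρ' χ Φ)
    (hi : Function.Injective Φ) : ρ (red M (-1)) = 1 := by
  refine LinearMap.ext fun v => hi ?_
  rw [h.apply_red, hneg]
  rfl

/-- `SFree` passes to a quotient whose kernel the splitting preserves -/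
theorem SFree.of_surjective (h : IsTwist ρ ρ' χ Φ) (hs : Function.Surjective Φ) {e : Module.End A V}
    (he : ∀ v, e v + ρ (red M ModularGroup.S) (e (ρ (red M ModularGroup.S) v)) = v)
    (hker : ∀ v, Φ v = 0 → Φ (e v) = 0) : SFree ρ' := by
  choose sec hsec using hs
  have hwd : ∀ v w, Φ v = Φ w → Φ (e v) = Φ (e w) := fun v w hvw => by
    rw [← sub_eq_zero, ← map_sub, ← map_sub]
    exact hker _ (by rw [map_sub, hvw, sub_self])
  refine ⟨{ toFun := fun x => Φ (e (sec x))
            map_add' := fun x y => by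
              rw [hwd (sec (x + y)) (sec x + sec y) (by rw [_root_.map_add, hsec, hsec, hsec]), _root_.map_add,
                _root_.map_add]
            map_smul' := fun c x => by
              rw [hwd (sec (c • x)) (c • sec x) (by rw [map_smul, hsec, hsec]), map_smul, map_smul,
                RingHom.id_apply] }, fun x => ?_⟩
  show Φ (e (sec x)) + ρ' _ (Φ (e (sec (ρ' _ x)))) = x
  rw [hwd (sec (ρ' _ x)) (ρ (red M ModularGroup.S) (sec x))
      (by rw [h.apply_red, hsec, hsec]), ← h.apply_red, ← _root_.map_add, he, hsec]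

/-- functions on a set without fixed points of `S` -/
theorem sFree_funRep {X : Type*} [MulAction (GL (Fin 2) (ZMod M)) X]
    (hX : ∀ x : X, red M (-1) • x = x) (hS : ∀ x : X, red M ModularGroup.S • x ≠ x) :
    SFree (funRep A X (M := M)) := by
  classical
  letI : LinearOrder X := linearOrderOfSTO WellOrderingRel
  set g := red M ModularGroup.S
  have hgg : ∀ x : X, g • g • x = x := fun x => by
    rw [smul_smul, ← map_mul, Periods.S_mul_S, hX]
  have hinv : ∀ x : X, g⁻¹ • x = g • x := fun x => inv_smul_eq_iff.2 (hgg x).symm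
  let e : Module.End A (X → A) :=
    { toFun := fun F x => if x < g • x then F x else 0
      map_add' := fun F F' => funext fun x => by simp only [Pi.add_apply]; split_ifs <;> simp
      map_smul' := fun c F => funext fun x => by simp }
  refine ⟨e, fun F => funext fun x => ?_⟩
  rw [Pi.add_apply, funRep_apply, hinv]
  show (if x < g • x then F x else 0) +
    (if g • x < g • g • x then funRep A X (M := M) g F (g • x) else 0) = F x
  rw [funRep_apply, inv_smul_smul, hgg]
  rcases lt_or_gt_of_ne (hS x) with hlt | hlt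
  · rw [if_neg (not_lt.2 hlt.le), if_pos hlt, zero_add]
  · rw [if_pos hlt, if_neg (not_lt.2 hlt.le), add_zero]

variable (ρ) in
/-- the sub-representation of multiples -/
def mulRep (c : A) : Representation A (GL (Fin 2) (ZMod M))
    (LinearMap.range (c • (LinearMap.id : V →ₗ[A] V))) where
  toFun g := (ρ g).restrict fun v hv => by
    obtain ⟨w, rfl⟩ := hv
    exact ⟨ρ g w, by simp⟩
  map_one' := LinearMap.ext fun v => Subtype.ext (by simp)
  map_mul' g g' := LinearMap.ext fun v => Subtype.ext (by simp)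

theorem isTwist_mulRep_subtype (c : A) :
    IsTwist (mulRep ρ c) ρ 1 (Submodule.subtype _) := fun g v => by
  rw [MonoidHom.one_apply, one_smul]
  rfl

theorem isTwist_mulRep_range (c : A) :
    IsTwist ρ (mulRep ρ c) 1 (c • (LinearMap.id : V →ₗ[A] V)).rangeRestrict := fun g v => by
  rw [MonoidHom.one_apply, one_smul]
  exact Subtype.ext (by simp [mulRep])

theorem sFree_mulRep (h : SFree ρ) (c : A) : SFree (mulRep ρ c) := by
  obtain ⟨e, he⟩ := h
  refine SFree.of_surjective (isTwist_mulRep_range (ρ := ρ) c) (LinearMap.surjective_rangeRestrict _) he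
    fun v hv => ?_
  have hv' : c • v = 0 := by simpa using congrArg Subtype.val hv
  refine Subtype.ext ?_
  simp [← map_smul, hv']

section Exact

variable [IsLocalRing A] (s : Sys M A)

/-- a class of the system vanishes at `-1` -/
theorem apply_neg_one (hneg : ρ (red M (-1)) = 1) (f : Z1 ρ)
    (hf : H1.mk ρ f ∈ unitPart (s.eta ρ)) : f.1 (-1) = 0 := by
  haveI : Fact s.l0.Prime := ⟨s.prime_l0⟩
  have hn : s.l0.Coprime M := (s.prime_l0.coprime_iff_not_dvd).mpr s.not_dvd_l0
  set R := stdReps s.l0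
  rw [unitPart, Submodule.mem_iInf] at hf
  obtain ⟨x, hx⟩ := hf 1
  obtain ⟨g, rfl⟩ := Submodule.Quotient.mk_surjective _ x
  rw [pow_one] at hx
  have hg : H1.mk ρ (heckeZ ρ R hn g - ((1 + s.l0 : ℕ) : A) • g) = H1.mk ρ f := by
    rw [← hx, map_sub, map_smul, ← heckeH_mk]
    rfl
  obtain ⟨v, hv⟩ := LinearMap.mem_range.mp ((Submodule.Quotient.eq _).mp hg.symm)
  have hv' : f.1 (-1) - ((heckeZ ρ R hn g).1 (-1) - ((1 + s.l0 : ℕ) : A) • g.1 (-1)) =
      ρ (red M (-1)) v - v :=
    (congrArg (fun F : Z1 ρ => F.1 (-1)) hv).symm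
  rw [hneg, Module.End.one_apply, sub_self, sub_eq_zero] at hv'
  have hinv : g.1 (-1) ∈ inv ρ := fun γ => by
    have e1 := Z1_apply_mul ρ g.2 γ (-1)
    have e2 := Z1_apply_mul ρ g.2 (-1) γ
    rw [mul_neg_one, ← neg_one_mul, e2, hneg, Module.End.one_apply, add_comm] at e1
    exact (add_left_cancel e1).symm
  have helt : ∀ i, R.elt (-1) i = -1 := fun i =>
    (R.elt_idx_eq (g := -1) (γ := -1) (i := i) (j := i)
      (by simp [Matrix.SpecialLinearGroup.coe_neg])).1
  rw [hv', heckeZ_apply, Finset.sum_congr rfl fun i _ => by rw [helt],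
    sum_adjRed_inv s.l0_eq_one hinv, add_comm 1 s.l0, sub_self]

variable [IsNoetherianRing A] [IsAdicComplete (IsLocalRing.maximalIdeal A) A]
  [Module.Finite A V] [Module.Finite A V']

/-- classes of the system lift along a surjection onto an `SFree` module -/
theorem exists_preimage (hneg : ρ (red M (-1)) = 1) (h3 : IsUnit (3 : A))
    (h : IsTwist ρ ρ' χ Φ) (hs : Function.Surjective Φ) (hfree : SFree ρ') {y : H1 ρ'}
    (hy : y ∈ s.E ρ') : ∃ x : H1 ρ, map h x = y := by
  have hneg' := neg_one_of_surjective hneg h hs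
  obtain ⟨f', rfl⟩ := Submodule.Quotient.mk_surjective _ y
  have h1 : f'.1 (-1) = 0 := apply_neg_one s hneg' f' ((s.mem_E_iff).mp hy).1
  obtain ⟨e, he⟩ := hfree
  obtain ⟨i3, hi3⟩ := h3.exists_left_inv
  set S' := ρ (red M ModularGroup.S) with hS'
  set U' := ρ (red M Periods.eltU) with hU'
  set S₁ := ρ' (red M ModularGroup.S) with hS₁
  set a' := f'.1 ModularGroup.S
  have ha' : a' + S₁ a' = 0 := by
    have e0 := Z1_apply_mul ρ' f'.2 ModularGroup.S ModularGroup.S
    rw [Periods.S_mul_S, h1] at e0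
    exact e0.symm
  obtain ⟨c, hc⟩ := hs (-e a')
  set a := S' c - c
  have ha : a + S' a = 0 := by
    simp only [a, S', map_sub, S_S hneg]
    abel
  have hΦa : Φ a = a' := by
    have e1 := he a'
    rw [show ρ' (red M ModularGroup.S) a' = -a' from eq_neg_of_add_eq_zero_right ha',
      map_neg] at e1
    simp only [a, map_sub, S', h.apply_red, hc]
    exact Eq.trans (by rw [sub_neg_eq_add, add_comm]) e1
  obtain ⟨b0, hb0⟩ := hs (f'.1 Periods.eltU)
  set b := i3 • ((2 : A) • b0 - U' b0 - U' (U' b0))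
  have hb : b + U' b + U' (U' b) = 0 := by
    simp only [b, U', map_smul, map_sub, U_U_U hneg, ← smul_add]
    rw [show ∀ p q r : V, (2 : A) • p - q - r + ((2 : A) • q - r - p) + ((2 : A) • r - p - q) = 0
      from fun p q r => by simp only [two_smul]; abel, smul_zero]
  obtain ⟨f, hfS, hfU⟩ := exists_Z1 hneg a b ha hb
  refine ⟨H1.mk ρ f, ?_⟩
  show H1.mk ρ' (mapZ h f) = H1.mk ρ' f'
  congr 1
  refine Z1_ext ?_ ?_
  · rw [mapZ_apply, hfS, hΦa]
  · have e0 := Z1_apply_mul ρ' f'.2 Periods.eltU (Periods.eltU * Periods.eltU)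
    rw [Periods.eltU_pow_three, h1, Z1_apply_mul ρ' f'.2, _root_.map_add] at e0
    rw [mapZ_apply, hfU]
    simp only [b, U', map_smul, map_sub, h.apply_red, hb0]
    rw [show (2 : A) • f'.1 Periods.eltU - ρ' (red M Periods.eltU) (f'.1 Periods.eltU)
        - ρ' (red M Periods.eltU) (ρ' (red M Periods.eltU) (f'.1 Periods.eltU))
        = (3 : A) • f'.1 Periods.eltU by
      rw [show (3 : A) = 2 + 1 by norm_num, add_smul, one_smul, sub_sub,
        eq_neg_of_add_eq_zero_right e0.symm, sub_neg_eq_add], smul_smul, hi3, one_smul]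

/-- classes of the system lift within the system -/
theorem exists_mem_E_map_eq (hneg : ρ (red M (-1)) = 1) (h3 : IsUnit (3 : A))
    (h : IsTwist ρ ρ' χ Φ) (hχ : ∀ u, χ u - 1 ∈ IsLocalRing.maximalIdeal A)
    (hs : Function.Surjective Φ) (hfree : SFree ρ') {y : H1 ρ'} (hy : y ∈ s.E ρ') :
    ∃ x ∈ s.E ρ, map h x = y := by
  obtain ⟨x0, rfl⟩ := exists_preimage s hneg h3 h hs hfree hy
  exact s.exists_preimage_mem_E h hχ hy

/-- if `ker a = range b` on the coefficients then the same holds on the part of the system -/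
theorem exists_smul_eq (hneg : ρ (red M (-1)) = 1) (h3 : IsUnit (3 : A)) (hfree : SFree ρ)
    (a b : A) (hab : ∀ v : V, a • v = 0 ↔ ∃ w, b • w = v) {x : H1 ρ} (hx : x ∈ s.E ρ)
    (h0 : a • x = 0) : ∃ y ∈ s.E ρ, b • y = x := by
  have h1χ : ∀ u, (1 : (ZMod M)ˣ →* A) u - 1 ∈ IsLocalRing.maximalIdeal A := fun u => by simp
  have hid : ∀ c : A, IsTwist ρ ρ 1 (c • (LinearMap.id : V →ₗ[A] V)) := fun c =>
    IsTwist.smul c IsTwist.id_map
  have hmap : ∀ (c : A) (z : H1 ρ),
      LL.map (isTwist_mulRep_subtype (ρ := ρ) c) (LL.map (isTwist_mulRep_range (ρ := ρ) c) z) = c • z := fun c z => by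
    have e : LL.map (hid c) = c • (LinearMap.id : H1 ρ →ₗ[A] H1 ρ) := by
      rw [LL.map_smul' c IsTwist.id_map (hid c), LL.map_id]
    obtain ⟨f, rfl⟩ := Submodule.Quotient.mk_surjective _ z
    exact LinearMap.congr_fun e (H1.mk ρ f)
  have hxa : LL.map (isTwist_mulRep_range (ρ := ρ) a) x = 0 :=
    s.eq_zero_of_map_eq_zero (isTwist_mulRep_subtype (ρ := ρ) a) (Submodule.injective_subtype _)
      (s.map_mem_E (isTwist_mulRep_range (ρ := ρ) a) h1χ hx) (by rw [hmap, h0])
  obtain ⟨z, hz, rfl⟩ := s.exists_mem_E_of_map_eq_zero (isTwist_mulRep_subtype (ρ := ρ) b)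
    (isTwist_mulRep_range (ρ := ρ) a) h1χ (Submodule.injective_subtype _) (fun v => by
      constructor
      · intro hv
        have hv' : a • v = 0 := by simpa using congrArg Subtype.val hv
        obtain ⟨w, rfl⟩ := (hab v).1 hv'
        exact ⟨⟨b • w, w, by simp⟩, rfl⟩
      · rintro ⟨⟨w', w, hw⟩, rfl⟩
        refine Subtype.ext ?_
        simpa using (hab w').2 ⟨w, by simpa using hw⟩)
    (LinearMap.surjective_rangeRestrict _) hx hxa
  obtain ⟨y, hy, rfl⟩ := exists_mem_E_map_eq s hneg h3 (isTwist_mulRep_range (ρ := ρ) b) h1χ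
    (LinearMap.surjective_rangeRestrict _) (sFree_mulRep hfree b) hz
  exact ⟨y, hy, (hmap b y).symm⟩

/-- classes of the system are trivial at the cusps -/
theorem exists_apply_eq_sub (hneg : ρ (red M (-1)) = 1) (f : Z1 ρ) (hf : H1.mk ρ f ∈ s.E ρ)
    (γ : SL(2, ℤ)) (htr : (γ : Matrix (Fin 2) (Fin 2) ℤ).trace ^ 2 = 4) :
    ∃ v : V, f.1 γ = ρ (red M γ) v - v := by
  obtain ⟨w, hw⟩ := s.exists_apply_T_eq_sub f hf
  let K : Subgroup SL(2, ℤ) :=
    { carrier := {g | f.1 g = ρ (red M g) w - w}
      one_mem' := by simp [Z1_apply_one ρ f.2]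
      mul_mem' := fun {a b} (ha : f.1 a = _) (hb : f.1 b = _) => by
        show f.1 (a * b) = _
        rw [Z1_apply_mul ρ f.2, ha, hb, map_mul, map_mul, Module.End.mul_apply, map_sub]
        abel
      inv_mem' := fun {a} (ha : f.1 a = _) => by
        show f.1 a⁻¹ = _
        rw [Z1_apply_inv ρ f.2, ha, map_sub, ← Module.End.mul_apply, ← map_mul, ← map_mul,
          inv_mul_cancel, map_one, map_one, Module.End.one_apply]
        abel }
  have hconj : ∀ (δ : SL(2, ℤ)) (m : ℤ), ∃ v,
      f.1 (δ * ModularGroup.T ^ m * δ⁻¹) = ρ (red M (δ * ModularGroup.T ^ m * δ⁻¹)) v - v := by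
    intro δ m
    refine ⟨ρ (red M δ) w - f.1 δ, ?_⟩
    have hd : ρ (red M δ⁻¹) (ρ (red M δ) w) = w := by
      rw [← Module.End.mul_apply, ← map_mul, ← map_mul, inv_mul_cancel, map_one, map_one]
      rfl
    rw [Z1_apply_mul ρ f.2, Z1_apply_mul ρ f.2, Z1_apply_inv ρ f.2,
      (K.zpow_mem hw m : f.1 (ModularGroup.T ^ m) = _)]
    simp only [map_mul, Module.End.mul_apply, map_sub, map_neg, hd]
    abel
  obtain ⟨δ, m, rfl | rfl⟩ := Periods.exists_conj_T_zpow htr
  · exact hconj δ m
  · obtain ⟨v, hv⟩ := hconj δ m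
    refine ⟨v, ?_⟩
    rw [← neg_one_mul (δ * ModularGroup.T ^ m * δ⁻¹), Z1_apply_mul ρ f.2,
      apply_neg_one s hneg f ((s.mem_E_iff).mp hf).1, zero_add, map_mul (red M), map_mul ρ, hneg,
      one_mul, Module.End.one_apply]
    exact hv

end Exact

/-- evaluation at a point is parabolic on the part of the system -/
theorem eval_eq_zero_of_mem_E {X : Type*} [MulAction (GL (Fin 2) (ZMod M)) X] [IsLocalRing A]
    [IsNoetherianRing A] [IsAdicComplete (IsLocalRing.maximalIdeal A) A] [Finite X] (s : Sys M A)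
    (hX : ∀ y : X, red M (-1) • y = y) (x : X) {y : H1 (funRep A X (M := M))}
    (hy : y ∈ s.E (funRep A X (M := M))) (γ : stab M x)
    (htr : ((γ : SL(2, ℤ)) : Matrix (Fin 2) (Fin 2) ℤ).trace ^ 2 = 4) :
    eval A x y (Additive.ofMul γ) = 0 := by
  obtain ⟨f, rfl⟩ := Submodule.Quotient.mk_surjective _ y
  obtain ⟨v, hv⟩ := exists_apply_eq_sub s (funRep_neg_one hX) f hy γ htr
  rw [show (Submodule.Quotient.mk f : H1 (funRep A X (M := M))) =
      H1.mk (funRep A X (M := M)) f from rfl,
    eval_mk, hv, Pi.sub_apply, funRep_apply, inv_smul_of_mem_stab γ.2, sub_self]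

end FLTAgent.R2.Coh
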