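import Fermat.Agent.R2.CohExact

/-!
Area R2, parcel A: change of the coefficient ring.  For an algebra `A → A'` of local rings and a
representation over `A'`, restriction of scalars does not change the cohomology, carries the part of
a system into the part of the pushed system, and conversely if `A → A'` is surjective.  Hence
* scalars extend injectively on functions along a split injection,
* classes of a system lift along reductions.
-/

set_option autoImplicit false
set_option linter.style.haveILetI false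
set_option linter.unusedSectionVars false

noncomputable section

open scoped MatrixGroups
open Matrix IsLocalRing

namespace FLTAgent.R2.Coh

variable {M : ℕ} [NeZero M] {A A' : Type*} [CommRing A] [CommRing A'] [Algebra A A']

/-- the system with eigenvalues in the algebra -/
def sysMap (A' : Type*) [CommRing A'] [Algebra A A'] (s : LL.Sys M A) : LL.Sys M A' where
  l0 := s.l0
  prime_l0 := s.prime_l0
  l0_eq_one := s.l0_eq_one
  bad := s.bad
  eig l := algebraMap A A' (s.eig l)

variable {V : Type*} [AddCommGroup V] [Module A' V] [Module A V] [IsScalarTower A A' V]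
  (ρ : Representation A' (GL (Fin 2) (ZMod M)) V)

/-- restriction of scalars -/
def resRep : Representation A (GL (Fin 2) (ZMod M)) V where
  toFun g := (ρ g).restrictScalars A
  map_one' := by rw [map_one]; rfl
  map_mul' g h := by rw [map_mul]; rfl

theorem resRep_apply (g : GL (Fin 2) (ZMod M)) (v : V) : resRep (A := A) ρ g v = ρ g v := rfl

/-- cocycles do not see the scalars -/
def resZ : LL.Z1 (resRep (A := A) ρ) ≃ₗ[A] LL.Z1 ρ where
  toFun f := ⟨f.1, f.2⟩
  map_add' _ _ := rfl
  map_smul' _ _ := rfl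
  invFun f := ⟨f.1, f.2⟩
  left_inv _ := rfl
  right_inv _ := rfl

theorem resZ_coboundary (v : V) :
    resZ (A := A) ρ (LL.coboundary (resRep (A := A) ρ) v) = LL.coboundary ρ v := rfl

/-- cohomology does not see the scalars -/
def resH : LL.H1 (resRep (A := A) ρ) ≃ₗ[A] LL.H1 ρ :=
  (Submodule.Quotient.equiv _ ((LL.B1 ρ).restrictScalars A) (resZ ρ) (by
    ext f
    simp only [Submodule.mem_map, Submodule.restrictScalars_mem, LL.B1, LinearMap.mem_range]
    constructor
    · rintro ⟨_, ⟨v, rfl⟩, rfl⟩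
      exact ⟨v, rfl⟩
    · rintro ⟨v, rfl⟩
      exact ⟨_, ⟨v, rfl⟩, rfl⟩)) ≪≫ₗ (Submodule.Quotient.restrictScalarsEquiv A (LL.B1 ρ))

theorem resH_mk (f : LL.Z1 (resRep (A := A) ρ)) :
    resH ρ (LL.H1.mk (resRep (A := A) ρ) f) = LL.H1.mk ρ (resZ ρ f) := rfl

theorem resH_T {l : ℕ} (hl : l.Prime) (hlM : ¬ l ∣ M) (x : LL.H1 (resRep (A := A) ρ)) :
    resH ρ (LL.T (resRep (A := A) ρ) hl hlM x) = LL.T ρ hl hlM (resH ρ x) := by
  obtain ⟨f, rfl⟩ := Submodule.mkQ_surjective _ x
  exact congrArg (LL.H1.mk ρ) (Subtype.ext (funext fun g => rfl))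

theorem resH_sub_pow (s : LL.Sys M A) {l : ℕ} (hl : l.Prime) (hlM : ¬ l ∣ M) (c : A) (k : ℕ)
    (x : LL.H1 (resRep (A := A) ρ)) :
    resH ρ (((LL.T (resRep (A := A) ρ) hl hlM - c • 1) ^ k) x) =
      ((LL.T ρ hl hlM - algebraMap A A' c • 1) ^ k) (resH ρ x) := by
  induction k generalizing x with
  | zero => rfl
  | succ k ih =>
    rw [pow_succ, pow_succ, Module.End.mul_apply, Module.End.mul_apply, ih]
    refine congrArg _ ?_
    rw [LinearMap.sub_apply, LinearMap.sub_apply, map_sub, resH_T, LinearMap.smul_apply,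
      LinearMap.smul_apply, Module.End.one_apply, Module.End.one_apply, map_smul, algebraMap_smul]

variable [IsLocalRing A] [IsLocalRing A']

theorem resH_unitPart (s : LL.Sys M A) (x : LL.H1 (resRep (A := A) ρ)) :
    resH ρ x ∈ LL.unitPart ((sysMap A' s).eta ρ) ↔ x ∈ LL.unitPart (s.eta (resRep (A := A) ρ)) := by
  have e : ∀ k y, resH ρ ((s.eta (resRep (A := A) ρ) ^ k) y) =
      ((sysMap A' s).eta ρ ^ k) (resH ρ y) := fun k y => by
    refine (resH_sub_pow ρ s _ _ _ k y).trans ?_
    rw [map_natCast]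
    rfl
  simp only [LL.unitPart, Submodule.mem_iInf, LinearMap.mem_range]
  refine forall_congr' fun k => ⟨fun ⟨y, hy⟩ => ⟨(resH ρ).symm y, (resH (A := A) ρ).injective ?_⟩,
    fun ⟨y, hy⟩ => ⟨resH ρ y, by rw [← e, hy]⟩⟩
  rw [e, LinearEquiv.apply_symm_apply, hy]

theorem resH_pow_smul [IsLocalHom (algebraMap A A')] (n : ℕ) {x : LL.H1 (resRep (A := A) ρ)}
    (hx : x ∈ maximalIdeal A ^ n • (⊤ : Submodule A (LL.H1 (resRep (A := A) ρ)))) :
    resH ρ x ∈ maximalIdeal A' ^ n • (⊤ : Submodule A' (LL.H1 ρ)) := by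
  refine Submodule.smul_induction_on hx (fun a ha y _ => ?_) (fun y z hy hz => ?_)
  · rw [map_smul, ← algebraMap_smul A' a (resH ρ y)]
    refine Submodule.smul_mem_smul ?_ Submodule.mem_top
    have h := Ideal.mem_map_of_mem (algebraMap A A') ha
    rw [Ideal.map_pow] at h
    exact Ideal.pow_right_mono (((IsLocalRing.local_hom_TFAE (algebraMap A A')).out 0 2 :).1
      inferInstance) n h
  · rw [_root_.map_add]
    exact add_mem hy hz

theorem resH_mem_E [IsLocalHom (algebraMap A A')] (s : LL.Sys M A)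
    {x : LL.H1 (resRep (A := A) ρ)} (hx : x ∈ s.E (resRep (A := A) ρ)) :
    resH ρ x ∈ (sysMap A' s).E ρ := by
  rw [LL.Sys.mem_E_iff] at hx ⊢
  refine ⟨(resH_unitPart ρ s x).2 hx.1, fun l hl hlM hb n => ?_⟩
  obtain ⟨k, hk⟩ := hx.2 l hl hlM hb n
  refine ⟨k, ?_⟩
  show ((LL.T ρ hl hlM - algebraMap A A' (s.eig l) • 1) ^ k) _ ∈ _
  rw [← resH_sub_pow ρ s]
  exact resH_pow_smul ρ n hk

theorem mem_E_of_resH (hσ : Function.Surjective (algebraMap A A')) (s : LL.Sys M A)
    {x : LL.H1 (resRep (A := A) ρ)} (hx : resH ρ x ∈ (sysMap A' s).E ρ) :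
    x ∈ s.E (resRep (A := A) ρ) := by
  rw [LL.Sys.mem_E_iff] at hx ⊢
  refine ⟨(resH_unitPart ρ s x).1 hx.1, fun l hl hlM hb n => ?_⟩
  obtain ⟨k, hk⟩ := hx.2 l hl hlM hb n
  refine ⟨k, ?_⟩
  have hk' : resH ρ (((LL.T (resRep (A := A) ρ) hl hlM - s.eig l • 1) ^ k) x) ∈
      maximalIdeal A' ^ n • (⊤ : Submodule A' (LL.H1 ρ)) := by
    rw [resH_sub_pow ρ s]
    exact hk
  generalize ((LL.T (resRep (A := A) ρ) hl hlM - s.eig l • 1) ^ k) x = y at hk' ⊢
  rw [← (resH (A := A) ρ).symm_apply_apply y]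
  generalize resH ρ y = z at hk' ⊢
  refine Submodule.smul_induction_on hk' (fun a ha w _ => ?_) (fun w w' hw hw' => ?_)
  · haveI : IsLocalHom (algebraMap A A') := hσ.isLocalHom _
    have hmap : maximalIdeal A' ^ n = (maximalIdeal A ^ n).map (algebraMap A A') := by
      rw [Ideal.map_pow]
      congr 1
      refine le_antisymm (fun b hb => ?_)
        (((IsLocalRing.local_hom_TFAE (algebraMap A A')).out 0 2 :).1 inferInstance)
      obtain ⟨a, rfl⟩ := hσ b
      exact Ideal.mem_map_of_mem _ fun hu => hb (hu.map _)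
    rw [hmap, Ideal.mem_map_iff_of_surjective _ hσ] at ha
    obtain ⟨a, ha, rfl⟩ := ha
    rw [algebraMap_smul, map_smul]
    exact Submodule.smul_mem_smul ha Submodule.mem_top
  · rw [_root_.map_add]
    exact add_mem hw hw'

theorem sFree_resRep (h : SFree ρ) : SFree (resRep (A := A) ρ) := by
  obtain ⟨e, he⟩ := h
  exact ⟨e.restrictScalars A, he⟩

section Maps

variable {U : Type*} [AddCommGroup U] [Module A U] {τ : Representation A (GL (Fin 2) (ZMod M)) U}
  {Φ : U →ₗ[A] V} (h : LL.IsTwist τ (resRep (A := A) ρ) 1 Φ)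

/-- the map of cohomology of a map of coefficients over two rings -/
def extH : LL.H1 τ →ₗ[A] LL.H1 ρ := (resH ρ).toLinearMap ∘ₗ LL.map h

theorem extH_T {l : ℕ} (hl : l.Prime) (hlM : ¬ l ∣ M) (x : LL.H1 τ) :
    extH ρ h (LL.T τ hl hlM x) = LL.T ρ hl hlM (extH ρ h x) := by
  show resH ρ (LL.map h _) = _
  rw [LL.map_T_one, resH_T]
  rfl

theorem extH_mem_E [IsLocalHom (algebraMap A A')] (s : LL.Sys M A) {x : LL.H1 τ}
    (hx : x ∈ s.E τ) : extH ρ h x ∈ (sysMap A' s).E ρ :=
  resH_mem_E ρ s (s.map_mem_E h (fun _ => by simp) hx)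

theorem extH_injective {Ψ : V →ₗ[A] U} (h' : LL.IsTwist (resRep (A := A) ρ) τ 1 Ψ)
    (hid : ∀ u, Ψ (Φ u) = u) : Function.Injective (extH ρ h) := by
  refine (resH ρ).injective.comp (Function.LeftInverse.injective (g := LL.map h') fun x => ?_)
  obtain ⟨f, rfl⟩ := Submodule.mkQ_surjective _ x
  exact congrArg (LL.H1.mk τ) (Subtype.ext (funext fun g => hid _))

variable [IsNoetherianRing A] [IsAdicComplete (maximalIdeal A) A] [Module.Finite A U]

/-- classes lift along a reduction -/
theorem exists_mem_E_extH_eq (hσ : Function.Surjective (algebraMap A A')) (s : LL.Sys M A)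
    (hneg : τ (LL.red M (-1)) = 1) (h3 : IsUnit (3 : A)) (hs : Function.Surjective Φ)
    (hfree : SFree ρ) {y : LL.H1 ρ} (hy : y ∈ (sysMap A' s).E ρ) :
    ∃ x ∈ s.E τ, extH ρ h x = y := by
  haveI : Module.Finite A V := Module.Finite.of_surjective Φ hs
  obtain ⟨x, hx, e⟩ := exists_mem_E_map_eq s hneg h3 h (fun _ => by simp) hs
    (sFree_resRep ρ hfree) (mem_E_of_resH ρ hσ s (x := (resH ρ).symm y)
      (by rw [LinearEquiv.apply_symm_apply]; exact hy))
  exact ⟨x, hx, by show resH ρ _ = y; rw [e, LinearEquiv.apply_symm_apply]⟩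

end Maps

section Functions

variable (A A') (X : Type*) [MulAction (GL (Fin 2) (ZMod M)) X]

/-- functions with extended values -/
def funExt : (X → A) →ₗ[A] (X → A') := (Algebra.linearMap A A').compLeft X

theorem isTwist_funExt :
    LL.IsTwist (LL.funRep A X (M := M)) (resRep (A := A) (LL.funRep A' X (M := M))) 1
      (funExt A A' X) := fun g F => by
  rw [MonoidHom.one_apply, one_smul]
  rfl

theorem funExt_injective {π : A' →ₗ[A] A} (hπ : π 1 = 1) :
    Function.Injective (extH (LL.funRep A' X (M := M)) (isTwist_funExt (M := M) A A' X)) := by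
  refine extH_injective _ _ (Ψ := π.compLeft X) (fun g F => ?_) fun F => funext fun x => ?_
  · rw [MonoidHom.one_apply, one_smul]
    rfl
  · show π (algebraMap A A' (F x)) = F x
    rw [Algebra.algebraMap_eq_smul_one, map_smul, hπ, smul_eq_mul, mul_one]

theorem funExt_surjective (hσ : Function.Surjective (algebraMap A A')) :
    Function.Surjective (funExt A A' X) := fun F => by
  choose G hG using fun x => hσ (F x)
  exact ⟨G, funext hG⟩

end Functions

end FLTAgent.R2.Coh
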