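import Fermat.Agent.R2.CohExact

/-!
Area R2, parcel A: where `S` has no fixed points, and freeness of the localised cohomology over an
Artinian chain ring.
-/

set_option autoImplicit false
set_option linter.style.haveILetI false
set_option linter.unusedSectionVars false

noncomputable section

open scoped MatrixGroups
open Matrix

namespace FLTAgent.R2.Coh

open FLTAgent.LL

variable {M : ℕ} [NeZero M]

/-- a prime `≡ 3 (mod 4)` of the level removes the fixed points of `S` -/
theorem S_smul_ne_P1 {N q : ℕ} (hq : q.Prime) (hq3 : q % 4 = 3) (hqN : q ∣ N) (hNM : N ∣ M)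
    (x : P1 M N) : red M ModularGroup.S • x ≠ x := by
  haveI : Fact q.Prime := ⟨hq⟩
  intro hx
  induction x using QuotientGroup.induction_on with | H g =>
  rw [MulAction.Quotient.smul_mk, QuotientGroup.eq, smul_eq_mul] at hx
  have hmem := (B0 M N).inv_mem hx
  rw [_root_.mul_inv_rev, inv_inv, mem_B0] at hmem
  obtain ⟨K, hK⟩ : ∃ K, g⁻¹ * (red M ModularGroup.S * g) = K := ⟨_, rfl⟩
  rw [hK] at hmem
  have hcoset : red M ModularGroup.S * g = g * K := by rw [← hK, mul_inv_cancel_left]
  let f : ZMod M →+* ZMod q := ZMod.castHom (hqN.trans hNM) _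
  obtain ⟨k, hk⟩ := hmem
  have hK10 : f (K.1 1 0) = 0 := by
    rw [hk, map_mul, map_natCast, (ZMod.natCast_eq_zero_iff N q).2 hqN, zero_mul]
  have hc : (red M ModularGroup.S).1 * g.1 = g.1 * K.1 := by
    rw [← Units.val_mul, hcoset, Units.val_mul]
  have e0 := congrArg f (congrFun₂ hc 0 0)
  have e1 := congrArg f (congrFun₂ hc 1 0)
  simp [Matrix.mul_apply, Fin.sum_univ_two, coe_red, ModularGroup.coe_S, hK10] at e0 e1
  have hdet : f g.1.det ≠ 0 := ((Matrix.GeneralLinearGroup.det g).isUnit.map f).ne_zero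
  rw [Matrix.det_fin_two, map_sub, map_mul, map_mul] at hdet
  have h : f (g.1 1 0) * (f (K.1 0 0) ^ 2 + 1) = 0 := by
    linear_combination -f (K.1 0 0) * e1 - e0
  rcases mul_eq_zero.1 h with h10 | h2
  · rw [h10, zero_mul] at e1
    exact hdet (by rw [h10, e1]; ring)
  · exact ZMod.mod_four_ne_three_of_sq_eq_neg_one (y := f (K.1 0 0)) (by linear_combination h2) hq3

theorem S_smul_ne_prod {X Y : Type*} [MulAction (GL (Fin 2) (ZMod M)) X]
    [MulAction (GL (Fin 2) (ZMod M)) Y] (hX : ∀ x : X, red M ModularGroup.S • x ≠ x) (z : X × Y) :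
    red M ModularGroup.S • z ≠ z := fun h => hX z.1 (congrArg Prod.fst h)

/-- families of an `SFree` module -/
theorem sFree_pi {A : Type*} [CommRing A] {V : Type*} [AddCommGroup V] [Module A V]
    {ρ : Representation A (GL (Fin 2) (ZMod M)) V} {ι : Type*}
    {σ : Representation A (GL (Fin 2) (ZMod M)) (ι → V)} (hσ : ∀ g F i, σ g F i = ρ g (F i))
    (h : SFree ρ) : SFree σ := by
  obtain ⟨e, he⟩ := h
  refine ⟨LinearMap.pi fun i => e ∘ₗ LinearMap.proj i, fun F => funext fun i => ?_⟩
  simp only [Pi.add_apply, hσ, LinearMap.pi_apply, LinearMap.coe_comp, Function.comp_apply,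
    LinearMap.proj_apply, he]

/-- a finite module over a local ring with nilpotent principal maximal ideal is free as soon as the
kernels of the powers of the generator are the expected images -/
theorem free_of_ker_eq {A : Type*} [CommRing A] [IsLocalRing A] {H : Type*} [AddCommGroup H]
    [Module A H] [Module.Finite A H] {π : A} (hπ : IsLocalRing.maximalIdeal A = Ideal.span {π})
    {N : ℕ} (hN : π ^ N = 0)
    (hker : ∀ j, j ≤ N → ∀ x : H, π ^ j • x = 0 → ∃ y, π ^ (N - j) • y = x) :
    Module.Free A H := by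
  classical
  obtain ⟨n, v, hspan, hmin⟩ : ∃ (n : ℕ) (v : Fin n → H), Submodule.span A (Set.range v) = ⊤ ∧
      ∀ m < n, ∀ w : Fin m → H, Submodule.span A (Set.range w) ≠ ⊤ := by
    have hex : ∃ n, ∃ v : Fin n → H, Submodule.span A (Set.range v) = ⊤ :=
      Module.Finite.exists_fin (R := A) (M := H)
    obtain ⟨v, hv⟩ := Nat.find_spec hex
    exact ⟨_, v, hv, fun m hm w hw => Nat.find_min hex hm ⟨w, hw⟩⟩
  have hlin : LinearIndependent A v := by
    rw [Fintype.linearIndependent_iff]
    intro g hg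
    suffices h : ∀ j, j ≤ N → ∃ g' : Fin n → A, ∀ i, g i = π ^ j * g' i by
      obtain ⟨g', hg'⟩ := h N le_rfl
      intro i
      rw [hg', hN, zero_mul]
    intro j
    induction j with
    | zero => exact fun _ => ⟨g, fun i => by simp⟩
    | succ j ih =>
      intro hj
      obtain ⟨g', hg'⟩ := ih (by omega)
      suffices hall : ∀ i, g' i ∈ IsLocalRing.maximalIdeal A by
        choose g'' hg'' using fun i => Ideal.mem_span_singleton'.1 (hπ ▸ hall i)
        exact ⟨g'', fun i => by rw [hg', ← hg'' i]; ring⟩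
      intro i0
      by_contra hu
      have hu' : IsUnit (g' i0) := IsLocalRing.notMem_maximalIdeal.1 hu
      obtain ⟨y, hy⟩ := hker j (by omega) (∑ i, g' i • v i) (by
        rw [Finset.smul_sum, ← hg]
        exact Finset.sum_congr rfl fun i _ => by rw [smul_smul, hg'])
      obtain ⟨c, hc⟩ := (Submodule.mem_span_range_iff_exists_fun A).1
        (hspan ▸ Submodule.mem_top : y ∈ Submodule.span A (Set.range v))
      have hd : ∑ i, (g' i - π ^ (N - j) * c i) • v i = 0 := by
        rw [← sub_eq_zero.2 hy.symm, ← hc, Finset.smul_sum, ← Finset.sum_sub_distrib]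
        exact Finset.sum_congr rfl fun i _ => by rw [sub_smul, smul_smul]
      have hu2 : IsUnit (g' i0 - π ^ (N - j) * c i0) := by
        refine IsLocalRing.notMem_maximalIdeal.1 fun h => hu ?_
        have h1 : π ^ (N - j) * c i0 ∈ IsLocalRing.maximalIdeal A := by
          rw [hπ, Ideal.mem_span_singleton]
          exact (dvd_pow_self π (by omega)).mul_right _
        simpa using add_mem h h1
      obtain ⟨u, hu3⟩ := hu2
      obtain ⟨m, rfl⟩ : ∃ m, n = m + 1 := ⟨n - 1, by have := i0.pos; omega⟩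
      refine hmin m (Nat.lt_succ_self m) (v ∘ i0.succAbove) (eq_top_iff.2 ?_)
      rw [← hspan, Submodule.span_le]
      rintro _ ⟨i, rfl⟩
      rcases Fin.eq_self_or_eq_succAbove i0 i with rfl | ⟨k, rfl⟩
      · rw [Fin.sum_univ_succAbove _ i, ← hu3] at hd
        have e := eq_neg_of_add_eq_zero_left hd
        rw [SetLike.mem_coe, ← one_smul A (v i), ← Units.inv_mul u, ← smul_smul, e]
        refine Submodule.smul_mem _ _ (neg_mem (Submodule.sum_mem _ fun k _ => ?_))
        exact Submodule.smul_mem _ _ (Submodule.subset_span ⟨k, rfl⟩)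
      · exact Submodule.subset_span ⟨k, rfl⟩
  exact Module.Free.of_basis (Module.Basis.mk hlin hspan.ge)

variable {A : Type*} [CommRing A] [IsLocalRing A] [IsNoetherianRing A]
  [IsAdicComplete (IsLocalRing.maximalIdeal A) A]
  {V : Type*} [AddCommGroup V] [Module A V] [Module.Finite A V]
  {ρ : Representation A (GL (Fin 2) (ZMod M)) V}

/-- the part of a system is free over the coefficient ring -/
theorem E_free (s : Sys M A) (hneg : ρ (red M (-1)) = 1) (h3 : IsUnit (3 : A)) (hfree : SFree ρ)
    {π : A} (hπ : IsLocalRing.maximalIdeal A = Ideal.span {π}) {N : ℕ} (hN : π ^ N = 0)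
    (hV : ∀ j, j ≤ N → ∀ v : V, π ^ j • v = 0 → ∃ w, π ^ (N - j) • w = v) :
    Module.Free A (s.E ρ) := by
  haveI := s.E_finite (ρ := ρ)
  refine free_of_ker_eq hπ hN fun j hj x hx => ?_
  obtain ⟨y, hy, hyx⟩ := exists_smul_eq s hneg h3 hfree (π ^ j) (π ^ (N - j)) (fun v => by
      refine ⟨hV j hj v, ?_⟩
      rintro ⟨w, rfl⟩
      rw [smul_smul, ← pow_add, Nat.add_sub_cancel' hj, hN, zero_smul]) x.2
    (by simpa using congrArg Subtype.val hx)
  exact ⟨⟨y, hy⟩, Subtype.ext hyx⟩

end FLTAgent.R2.Coh
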