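import Fermat.Agent.R2.CohExact

/-!
Area R2, parcel A: transport between moduli.  A representation of `GL₂(ℤ/N)` read as one of
`GL₂(ℤ/M)`, `N ∣ M`, has the same cohomology with the same operators `T l`, `l ∤ M`; functions on
`P¹(d)`, `d ∣ N`, do not depend on the modulus.
-/

set_option autoImplicit false
set_option linter.style.haveILetI false
set_option linter.unusedSectionVars false

noncomputable section

open scoped MatrixGroups
open Matrix IsLocalRing

namespace FLTAgent.R2.Coh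

variable {M N : ℕ} [NeZero M] [NeZero N] (hNM : N ∣ M)

/-- reduction of invertible matrices -/
def gl : GL (Fin 2) (ZMod M) →* GL (Fin 2) (ZMod N) :=
  Matrix.GeneralLinearGroup.map (ZMod.castHom hNM _)

theorem gl_red (γ : SL(2, ℤ)) : gl hNM (LL.red M γ) = LL.red N γ := by
  refine Units.ext (Matrix.ext fun i j => ?_)
  show ZMod.castHom hNM (ZMod N) ((γ.1 i j : ℤ) : ZMod M) = _
  rw [map_intCast]
  rfl

theorem gl_redGL {m : Matrix (Fin 2) (Fin 2) ℤ} (h : IsUnit ((m.det : ℤ) : ZMod M)) :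
    gl hNM (LL.redGL M m) = LL.redGL N m := by
  have h' : IsUnit ((m.det : ℤ) : ZMod N) := by simpa using h.map (ZMod.castHom hNM (ZMod N))
  refine Units.ext (Matrix.ext fun i j => ?_)
  show ZMod.castHom hNM (ZMod N) ((LL.redGL M m).1 i j) = _
  rw [LL.coe_redGL M h, LL.coe_redGL N h', Matrix.map_apply, Matrix.map_apply, map_intCast]

variable {A : Type*} [CommRing A] {V : Type*} [AddCommGroup V] [Module A V]
  (ρ : Representation A (GL (Fin 2) (ZMod N)) V)

/-- the representation at the larger modulus -/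
def inflate : Representation A (GL (Fin 2) (ZMod M)) V := ρ.comp (gl hNM)

/-- the same cocycles -/
def inflateZ : LL.Z1 (inflate hNM ρ) ≃ₗ[A] LL.Z1 ρ where
  toFun f := ⟨f.1, fun g h => by
    rw [f.2 g h, ← gl_red hNM]
    rfl⟩
  map_add' _ _ := rfl
  map_smul' _ _ := rfl
  invFun f := ⟨f.1, fun g h => by
    rw [f.2 g h, ← gl_red hNM]
    rfl⟩
  left_inv _ := rfl
  right_inv _ := rfl

/-- the same cohomology -/
def inflateH : LL.H1 (inflate hNM ρ) ≃ₗ[A] LL.H1 ρ :=
  Submodule.Quotient.equiv _ _ (inflateZ hNM ρ) (by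
    have e : ∀ v : V, inflateZ hNM ρ (LL.coboundary (inflate hNM ρ) v) = LL.coboundary ρ v :=
      fun v => Subtype.ext (funext fun g => by
        show ρ (gl hNM (LL.red M g)) v - v = ρ (LL.red N g) v - v
        rw [gl_red])
    ext f
    simp only [Submodule.mem_map, LL.B1, LinearMap.mem_range]
    constructor
    · rintro ⟨_, ⟨v, rfl⟩, rfl⟩
      exact ⟨v, (e v).symm⟩
    · rintro ⟨v, rfl⟩
      exact ⟨_, ⟨v, rfl⟩, e v⟩)

theorem inflateH_T {l : ℕ} (hl : l.Prime) (hlM : ¬ l ∣ M) (x : LL.H1 (inflate hNM ρ)) :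
    inflateH hNM ρ (LL.T (inflate hNM ρ) hl hlM x) =
      LL.T ρ hl (fun h => hlM (h.trans hNM)) (inflateH hNM ρ x) := by
  haveI : Fact l.Prime := ⟨hl⟩
  obtain ⟨f, rfl⟩ := Submodule.mkQ_surjective _ x
  refine congrArg (LL.H1.mk ρ) (Subtype.ext (funext fun g => ?_))
  show LL.heckeFun (inflate hNM ρ) (LL.stdReps l) f.1 g = LL.heckeFun ρ (LL.stdReps l) f.1 g
  refine Finset.sum_congr rfl fun i _ => ?_
  show ρ (gl hNM _) _ = ρ _ _
  rw [show LL.Reps.adjRed M (LL.stdReps l) i = LL.redGL M ((LL.stdReps l).rep i).adjugate from rfl,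
    gl_redGL hNM ((LL.stdReps l).isUnit_det_adjugate ((hl.coprime_iff_not_dvd).mpr hlM) i)]
  rfl

/-- the system at the smaller modulus -/
def sysRed (hNM : N ∣ M) (s : LL.Sys M A) : LL.Sys N A where
  l0 := s.l0
  prime_l0 := s.prime_l0
  l0_eq_one := by
    have e := congrArg (ZMod.castHom hNM (ZMod N)) s.l0_eq_one
    rwa [map_natCast, map_one] at e
  bad := s.bad
  eig := s.eig

variable [IsLocalRing A]

theorem inflateH_mem_E_iff (s : LL.Sys M A)
    (hbad : ∀ l : ℕ, l.Prime → l ∣ M → ¬ l ∣ N → l ∈ s.bad) (x : LL.H1 (inflate hNM ρ)) :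
    inflateH hNM ρ x ∈ (sysRed hNM s).E ρ ↔ x ∈ s.E (inflate hNM ρ) := by
  have hu : ∀ (l : ℕ) (hl : l.Prime) (hlM : ¬ l ∣ M) (c : A),
      (inflateH hNM ρ).toLinearMap ∘ₗ (LL.T (inflate hNM ρ) hl hlM - c • 1) =
        (LL.T ρ hl (fun h => hlM (h.trans hNM)) - c • 1) ∘ₗ (inflateH hNM ρ).toLinearMap :=
    fun l hl hlM c => LinearMap.ext fun y => by
      simp only [LinearMap.comp_apply, LinearEquiv.coe_coe, LinearMap.sub_apply,
        LinearMap.smul_apply, Module.End.one_apply, map_sub, map_smul, inflateH_T]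
  have hu' : ∀ (l : ℕ) (hl : l.Prime) (hlM : ¬ l ∣ M) (c : A),
      (inflateH hNM ρ).symm.toLinearMap ∘ₗ (LL.T ρ hl (fun h => hlM (h.trans hNM)) - c • 1) =
        (LL.T (inflate hNM ρ) hl hlM - c • 1) ∘ₗ (inflateH hNM ρ).symm.toLinearMap :=
    fun l hl hlM c => LinearMap.ext fun y => (inflateH hNM ρ).injective (by
      have e := LinearMap.congr_fun (hu l hl hlM c) ((inflateH hNM ρ).symm y)
      simp only [LinearMap.comp_apply, LinearEquiv.coe_coe, LinearEquiv.apply_symm_apply] at e ⊢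
      exact e.symm)
  simp only [LL.Sys.mem_E_iff]
  constructor
  · rintro ⟨h1, h2⟩
    rw [← (inflateH hNM ρ).symm_apply_apply x]
    exact ⟨LL.Fitting.map_unitPart (hu' _ s.prime_l0 s.not_dvd_l0 _) h1, fun l hl hlM hb =>
      LL.Fitting.map_nilPart _ (hu' l hl hlM _) (h2 l hl (fun h => hlM (h.trans hNM)) hb)⟩
  · rintro ⟨h1, h2⟩
    exact ⟨LL.Fitting.map_unitPart (hu _ s.prime_l0 s.not_dvd_l0 _) h1, fun l hl hlN hb =>
      LL.Fitting.map_nilPart _ (hu l hl (fun h => hb (hbad l hl h hlN)) _)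
        (h2 l hl (fun h => hb (hbad l hl h hlN)) hb)⟩

section Functions

variable {d : ℕ} (hdN : d ∣ N)

/-- `P¹(d)` at two moduli -/
def p1Map (hNM : N ∣ M) : LL.P1 M d → LL.P1 N d :=
  Quotient.map' (gl hNM) fun a b h => by
    rw [QuotientGroup.leftRel_apply] at h ⊢
    rw [← map_inv, ← map_mul]
    rw [LL.mem_B0] at h ⊢
    have e := map_dvd (ZMod.castHom hNM (ZMod N)) h
    rw [map_natCast] at e
    exact e

theorem p1Map_smul (g : GL (Fin 2) (ZMod M)) (x : LL.P1 M d) :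
    p1Map hNM (g • x) = gl hNM g • p1Map hNM x := by
  induction x using QuotientGroup.induction_on with | H h =>
  show (QuotientGroup.mk (gl hNM (g * h)) : LL.P1 N d) = QuotientGroup.mk (gl hNM g * gl hNM h)
  rw [map_mul]

include hdN in
theorem p1Map_bijective : Function.Bijective (p1Map (d := d) hNM) := by
  have hbase : p1Map hNM (LL.P1.base M d) = LL.P1.base N d := by
    show (QuotientGroup.mk (gl hNM 1) : LL.P1 N d) = QuotientGroup.mk 1
    rw [map_one]
  refine ⟨fun x y e => ?_, fun y => ?_⟩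
  · obtain ⟨γ, rfl⟩ := LL.P1.transitive x
    obtain ⟨δ, rfl⟩ := LL.P1.transitive y
    rw [p1Map_smul, p1Map_smul, hbase, gl_red, gl_red, eq_comm, ← inv_smul_eq_iff, ← map_inv,
      smul_smul, ← map_mul] at e
    have h : γ⁻¹ * δ ∈ LL.stab M (LL.P1.base M d) := by
      rw [LL.stab_base (hdN.trans hNM), ← LL.stab_base (M := N) hdN]
      exact LL.mem_stab.2 e
    have h' := LL.mem_stab.1 h
    rw [map_mul, map_inv, mul_smul, inv_smul_eq_iff] at h'
    exact h'.symm
  · obtain ⟨γ, rfl⟩ := LL.P1.transitive y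
    exact ⟨LL.red M γ • LL.P1.base M d, by rw [p1Map_smul, hbase, gl_red]⟩

theorem isTwist_p1Map :
    LL.IsTwist (inflate hNM (LL.funRep A (LL.P1 N d) (M := N))) (LL.funRep A (LL.P1 M d) (M := M)) 1
      (LL.funPull A (p1Map hNM)) := fun g F => by
  rw [MonoidHom.one_apply, one_smul]
  funext x
  show F ((gl hNM g)⁻¹ • p1Map hNM x) = F (p1Map hNM (g⁻¹ • x))
  rw [p1Map_smul, map_inv]

end Functions

end FLTAgent.R2.Coh
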