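import Fermat.Agent.Attach.Residual

/-!
Area R2, parcel A: a finite extension of `ℤ₂` containing the roots of unity of a given two-power
order and, residually, the two primitive cube roots of unity.
-/

set_option autoImplicit false
set_option linter.style.haveILetI false
set_option linter.unusedSectionVars false

noncomputable section

open IsLocalRing

namespace FLTAgent.R2.Coh

local instance fact_two : Fact (Nat.Prime 2) := ⟨Nat.prime_two⟩

/-- the coefficients of the twists -/
theorem exists_roots_ring (e : ℕ) :
    ∃ (O : Type) (_ : CommRing O) (_ : IsDomain O) (_ : IsDiscreteValuationRing O)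
      (_ : IsAdicComplete (maximalIdeal O) O) (_ : Finite (ResidueField O)) (_ : CharZero O)
      (_ : Algebra ℤ_[2] O) (_ : Module.Finite ℤ_[2] O) (_ : IsLocalHom (algebraMap ℤ_[2] O)),
      Function.Injective (algebraMap ℤ_[2] O) ∧ (2 : O) ∈ maximalIdeal O ∧
      (∀ i, i ≤ e → ∃ ζ : O, IsPrimitiveRoot ζ (2 ^ i)) ∧
      ∃ w : ResidueField O, w ≠ 1 ∧ w ^ 2 + w + 1 = 0 := by
  classical
  let K := FractionRing ℤ_[2]
  let Ω := AlgebraicClosure K
  haveI : CharZero K := charZero_of_injective_algebraMap (IsFractionRing.injective ℤ_[2] K)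
  haveI : CharZero Ω := charZero_of_injective_algebraMap (algebraMap K Ω).injective
  haveI : NeZero ((3 * 2 ^ e : ℕ) : Ω) := ⟨Nat.cast_ne_zero.2 (by positivity)⟩
  obtain ⟨z, hz⟩ := HasEnoughRootsOfUnity.exists_primitiveRoot Ω (3 * 2 ^ e)
  have hzint : IsIntegral ℤ_[2] z := by
    refine IsIntegral.of_pow (n := 3 * 2 ^ e) (by positivity) ?_
    rw [hz.pow_eq_one]
    exact isIntegral_one
  let L : IntermediateField K Ω := IntermediateField.adjoin K {z}
  haveI : FiniteDimensional K L :=
    IntermediateField.adjoin.finiteDimensional (Algebra.IsIntegral.isIntegral z)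
  let O := integralClosure ℤ_[2] L
  haveI := Attach.closure_finite ℤ_[2] L
  haveI : CharZero O := Attach.closure_charZero ℤ_[2] L
  haveI := Attach.closure_isLocalRing ℤ_[2] L
  haveI := Attach.closure_isLocalHom ℤ_[2] L
  haveI := Attach.closure_isDVR ℤ_[2] L
  haveI : IsAdicComplete (maximalIdeal O) O :=
    IsLocalRing.isAdicComplete_of_module_finite (𝒪 := ℤ_[2])
  haveI : Finite (ResidueField ℤ_[2]) := Finite.of_equiv _ PadicInt.residueField.toEquiv.symm
  haveI : Finite (ResidueField O) :=
    IsLocalRing.ResidueField.finite_of_finite (R := ℤ_[2]) inferInstance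
  have h2 : (2 : O) ∈ maximalIdeal O := by
    rw [show (2 : O) = algebraMap ℤ_[2] O 2 from (map_ofNat _ 2).symm]
    exact map_nonunit (algebraMap ℤ_[2] O) _
      (by rw [PadicInt.maximalIdeal_eq_span_p]; exact Ideal.mem_span_singleton_self _)
  let zL : L := ⟨z, IntermediateField.subset_adjoin K _ rfl⟩
  have hzL : IsIntegral ℤ_[2] zL :=
    (isIntegral_algHom_iff (L.val.restrictScalars ℤ_[2]) Subtype.val_injective).1 hzint
  let zO : O := ⟨zL, hzL⟩
  have hzO : IsPrimitiveRoot zO (3 * 2 ^ e) :=
    IsPrimitiveRoot.of_map_of_injective (f := (algebraMap L Ω).comp O.val.toRingHom) hz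
      (Subtype.val_injective.comp Subtype.val_injective)
  refine ⟨O, inferInstance, inferInstance, inferInstance, inferInstance, inferInstance,
    inferInstance, inferInstance, inferInstance, inferInstance,
    Attach.closure_injective ℤ_[2] L, h2, fun i hi => ⟨zO ^ (3 * 2 ^ (e - i)),
      hzO.pow (by positivity) ?_⟩, ?_⟩
  · rw [mul_assoc, ← pow_add, Nat.sub_add_cancel hi]
  · set w := zO ^ 2 ^ e with hw
    have hw3 : IsPrimitiveRoot w 3 := hzO.pow (by positivity) (mul_comm _ _)
    have h := hw3.geom_sum_eq_zero (by norm_num : 1 < 3)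
    simp only [Finset.sum_range_succ, Finset.sum_range_zero, zero_add, pow_zero, pow_one] at h
    have h' : residue O w ^ 2 + residue O w + 1 = 0 := by
      rw [← map_pow, ← _root_.map_one (residue O), ← _root_.map_add, ← _root_.map_add,
        show w ^ 2 + w + 1 = 0 by linear_combination h, _root_.map_zero]
    refine ⟨residue O w, fun h1 => ?_, h'⟩
    rw [h1] at h'
    have hk : (2 : ResidueField O) = 0 := by
      rw [← map_ofNat (residue O), residue_eq_zero_iff]
      exact h2
    exact one_ne_zero (by linear_combination h' - hk : (1 : ResidueField O) = 0)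

end FLTAgent.R2.Coh
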