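import Fermat.Agent.R2.CohDia

/-!
Area R2, parcel A: coefficient modules of functions with values in a representation, and the
diamond data of a free action on a set.
-/

set_option autoImplicit false
set_option linter.style.haveILetI false
set_option linter.unusedSectionVars false

noncomputable section

open scoped MatrixGroups
open Matrix

namespace FLTAgent.R2.Coh

open FLTAgent.LL

variable {M : ℕ} [NeZero M] {A : Type*} [CommRing A] {W : Type*} [AddCommGroup W] [Module A W]

/-- functions with values in a representation: `(g F) x = g (F (g⁻¹ x))` -/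
def funTensor (τ : Representation A (GL (Fin 2) (ZMod M)) W) (X : Type*)
    [MulAction (GL (Fin 2) (ZMod M)) X] : Representation A (GL (Fin 2) (ZMod M)) (X → W) where
  toFun g := LinearMap.pi fun x => τ g ∘ₗ LinearMap.proj (g⁻¹ • x)
  map_one' := by
    ext F x
    simp
  map_mul' g h := by
    ext F x
    simp [mul_smul]

variable {τ : Representation A (GL (Fin 2) (ZMod M)) W} {X Y : Type*}
  [MulAction (GL (Fin 2) (ZMod M)) X] [MulAction (GL (Fin 2) (ZMod M)) Y]

theorem funTensor_apply (g : GL (Fin 2) (ZMod M)) (F : X → W) (x : X) :
    funTensor τ X g F x = τ g (F (g⁻¹ • x)) := rfl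

theorem funTensor_neg_one (hτ : τ (red M (-1)) = 1) (hX : ∀ x : X, red M (-1) • x = x) :
    funTensor τ X (red M (-1)) = 1 := by
  refine LinearMap.ext fun F => funext fun x => ?_
  rw [funTensor_apply, hτ, inv_smul_eq_iff.mpr (hX x).symm]
  rfl

open Classical in
/-- the sum over the fibres, vector valued -/
def vecPush [Fintype X] (π : X → Y) : (X → W) →ₗ[A] (Y → W) where
  toFun F y := ∑ x, if π x = y then F x else 0
  map_add' F F' := by
    ext y
    simp only [Pi.add_apply, ← Finset.sum_add_distrib]
    exact Finset.sum_congr rfl fun x _ => by split_ifs <;> simp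
  map_smul' c F := by
    ext y
    simp only [Pi.smul_apply, Finset.smul_sum, RingHom.id_apply]
    exact Finset.sum_congr rfl fun x _ => by split_ifs <;> simp

theorem vecPush_apply [Fintype X] [DecidableEq Y] (π : X → Y) (F : X → W) (y : Y) :
    vecPush (A := A) π F y = ∑ x, if π x = y then F x else 0 := by
  unfold vecPush
  simp only [LinearMap.coe_mk, AddHom.coe_mk]
  exact Finset.sum_congr rfl fun x _ => by by_cases h : π x = y <;> simp [h]

/-- pull-back, vector valued -/
def vecPull (π : X → Y) : (Y → W) →ₗ[A] (X → W) := LinearMap.funLeft A W π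

theorem isTwist_vecPull (π : X → Y) (hπ : ∀ (g : GL (Fin 2) (ZMod M)) x, π (g • x) = g • π x) :
    IsTwist (funTensor τ Y) (funTensor τ X) 1 (vecPull π) := by
  intro g F
  rw [MonoidHom.one_apply, one_smul]
  funext x
  show funTensor τ Y g F (π x) = τ g (F (π (g⁻¹ • x)))
  rw [funTensor_apply, hπ]

theorem isTwist_vecPush [Fintype X] (π : X → Y)
    (hπ : ∀ (g : GL (Fin 2) (ZMod M)) x, π (g • x) = g • π x) :
    IsTwist (funTensor τ X) (funTensor τ Y) 1 (vecPush π) := by
  classical
  intro g F
  rw [MonoidHom.one_apply, one_smul]
  funext y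
  rw [funTensor_apply]
  show (∑ x, if π x = y then funTensor τ X g F x else 0)
    = τ g (∑ x, if π x = g⁻¹ • y then F x else 0)
  rw [map_sum, ← Equiv.sum_comp (MulAction.toPerm (g⁻¹ : GL (Fin 2) (ZMod M)) : Equiv.Perm X)
    (fun x => τ g (if π x = g⁻¹ • y then F x else 0))]
  refine Finset.sum_congr rfl fun x _ => ?_
  simp only [MulAction.toPerm_apply, funTensor_apply, hπ, smul_left_cancel_iff]
  split_ifs <;> simp

/-- a Hecke-compatible free action of a group on a set, with its quotient -/
structure Torsor (M : ℕ) (X Y : Type*) [MulAction (GL (Fin 2) (ZMod M)) X]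
    [MulAction (GL (Fin 2) (ZMod M)) Y] (Δ : Type*) [CommGroup Δ] where
  act : Δ →* Equiv.Perm X
  act_smul : ∀ u (g : GL (Fin 2) (ZMod M)) x, act u (g • x) = g • act u x
  free : ∀ u x, act u x = x → u = 1
  proj : X → Y
  proj_smul : ∀ (g : GL (Fin 2) (ZMod M)) x, proj (g • x) = g • proj x
  proj_act : ∀ u x, proj (act u x) = proj x
  proj_surjective : Function.Surjective proj
  exists_act : ∀ x x', proj x = proj x' → ∃ u, act u x = x'

namespace Torsor

variable {Δ : Type*} [CommGroup Δ] [Fintype Δ] (T : Torsor M X Y Δ)

theorem sum_eq [Fintype X] {β : Type*} [AddCommMonoid β] (x : X) (F : X → β) [DecidableEq Y] :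
    (∑ z, if T.proj z = T.proj x then F z else 0) = ∑ u, F (T.act u x) := by
  classical
  rw [← Finset.sum_filter]
  refine (Finset.sum_bij (fun u _ => T.act u x) (fun u _ => ?_) (fun u _ v _ h => ?_)
    (fun y hy => ?_) fun u _ => rfl).symm
  · simp [T.proj_act]
  · have h2 := congrArg (T.act u⁻¹) h
    rw [← Equiv.Perm.mul_apply, ← map_mul, inv_mul_cancel, map_one, Equiv.Perm.one_apply,
      ← Equiv.Perm.mul_apply, ← map_mul] at h2
    exact (inv_mul_eq_one.1 (T.free _ _ h2.symm))
  · obtain ⟨u, hu⟩ := T.exists_act x y (Finset.mem_filter.1 hy).2.symm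
    exact ⟨u, Finset.mem_univ _, hu⟩

/-- the diamond data on functions, for `S` without fixed points downstairs -/
def diaData [Fintype X] (τ : Representation A (GL (Fin 2) (ZMod M)) W)
    (hτ : τ (red M (-1)) = 1) (hX : ∀ x : X, red M (-1) • x = x)
    (hS : ∀ y : Y, red M ModularGroup.S • y ≠ y) :
    DiaData (funTensor τ X) (funTensor τ Y) Δ :=
  haveI := Classical.decRel (WellOrderingRel (α := Y))
  haveI := Classical.decEq Y
  haveI := Classical.decEq X
  { act :=
      { toFun := fun u => LinearMap.funLeft A W (T.act u)
        map_one' := LinearMap.ext fun F => funext fun x => by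
          show F (T.act 1 x) = F x
          rw [map_one]
          rfl
        map_mul' := fun u v => LinearMap.ext fun F => funext fun x => by
          show F (T.act (u * v) x) = F (T.act v (T.act u x))
          rw [mul_comm, map_mul]
          rfl }
    isTwist_act := fun u g F => by
      rw [MonoidHom.one_apply, one_smul]
      funext x
      show τ g (F (g⁻¹ • T.act u x)) = τ g (F (T.act u (g⁻¹ • x)))
      rw [T.act_smul]
    push := vecPush T.proj
    isTwist_push := isTwist_vecPush _ T.proj_smul
    push_surjective := fun G => by
      choose sec hsec using T.proj_surjective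
      refine ⟨fun x => if sec (T.proj x) = x then G (T.proj x) else 0, funext fun y => ?_⟩
      rw [vecPush_apply]
      rw [Finset.sum_eq_single (sec y)]
      · rw [hsec y, if_pos rfl, if_pos rfl]
      · intro x _ hx
        split_ifs with h h'
        · exact absurd (by rw [← h', h]) hx
        · rfl
        · rfl
      · exact fun h => absurd (Finset.mem_univ _) h
    pull := vecPull T.proj
    isTwist_pull := isTwist_vecPull _ T.proj_smul
    pull_injective := LinearMap.funLeft_injective_of_surjective A W _ T.proj_surjective
    push_act := fun u => LinearMap.ext fun F => funext fun y => by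
      show vecPush (A := A) T.proj (fun x => F (T.act u x)) y = _
      rw [vecPush_apply, vecPush_apply]
      rw [← Equiv.sum_comp (T.act u) (fun x => if T.proj x = y then F x else 0)]
      exact Finset.sum_congr rfl fun x _ => by rw [T.proj_act]
    pull_push := fun F => funext fun x => by
      show vecPush (A := A) T.proj F (T.proj x) = (∑ u, LinearMap.funLeft A W (T.act u) F) x
      rw [vecPush_apply]
      rw [T.sum_eq x F, Finset.sum_apply]
      rfl
    ker_push := fun F hF => by
      classical
      choose sec hsec using T.proj_surjective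
      choose u hu using fun x => T.exists_act (sec (T.proj x)) x (hsec _)
      have key : F = ∑ x, (LinearMap.funLeft A W (T.act (u x)⁻¹) - 1)
          (Pi.single (sec (T.proj x)) (F x)) := by
        funext z
        rw [Finset.sum_apply]
        simp only [LinearMap.sub_apply, Module.End.one_apply, Pi.sub_apply, Finset.sum_sub_distrib]
        have h1 : ∀ x, LinearMap.funLeft A W (T.act (u x)⁻¹) (Pi.single (sec (T.proj x)) (F x)) z =
            if z = x then F x else 0 := by
          intro x
          rw [LinearMap.funLeft_apply, Pi.single_apply]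
          refine if_congr ⟨fun h => ?_, fun h => ?_⟩ rfl rfl
          · have h' := congrArg (T.act (u x)) h
            rwa [← Equiv.Perm.mul_apply, ← map_mul, mul_inv_cancel, map_one, Equiv.Perm.one_apply,
              hu] at h'
          · subst h
            nth_rw 2 [← hu z]
            rw [← Equiv.Perm.mul_apply, ← map_mul, inv_mul_cancel, map_one, Equiv.Perm.one_apply]
        rw [Finset.sum_congr rfl fun x _ => h1 x, Finset.sum_ite_eq, if_pos (Finset.mem_univ _)]
        have h2 : ∑ x, (Pi.single (sec (T.proj x)) (F x) : X → W) z = 0 := by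
          by_cases hzs : sec (T.proj z) = z
          · refine Eq.trans ?_ ((vecPush_apply (A := A) T.proj F (T.proj z)).symm.trans
              (congrFun hF (T.proj z)))
            refine Finset.sum_congr rfl fun x _ => ?_
            rw [Pi.single_apply]
            refine if_congr ⟨fun h => ?_, fun h => by rw [h, hzs]⟩ rfl rfl
            rw [h, hsec]
          · refine Finset.sum_eq_zero fun x _ => ?_
            rw [Pi.single_apply, if_neg]
            intro h
            exact hzs (by rw [h, hsec])
        rw [h2, sub_zero]
      rw [key]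
      exact Submodule.sum_mem _ fun x _ =>
        Submodule.mem_iSup_of_mem ((u x)⁻¹) ⟨_, rfl⟩
    split :=
      { toFun := fun F x => if WellOrderingRel (T.proj x) (red M ModularGroup.S • T.proj x) then F x else 0
        map_add' := fun F F' => funext fun x => by
          simp only [Pi.add_apply]; split_ifs <;> simp
        map_smul' := fun c F => funext fun x => by simp }
    split_spec := fun F => funext fun x => by
      set g := red M ModularGroup.S with hg
      have hgg : ∀ y : Y, g • g • y = y := fun y => by
        obtain ⟨z, rfl⟩ := T.proj_surjective y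
        rw [smul_smul, ← map_mul, Periods.S_mul_S, ← T.proj_smul, hX]
      show (if WellOrderingRel (T.proj x) (g • T.proj x) then F x else 0) + τ g
        (if WellOrderingRel (T.proj (g⁻¹ • x)) (g • T.proj (g⁻¹ • x)) then τ g (F (g⁻¹ • g⁻¹ • x)) else 0) = F x
      rw [T.proj_smul, inv_smul_eq_iff.2 (hgg (T.proj x)).symm, hgg]
      rcases trichotomous_of WellOrderingRel (g • T.proj x) (T.proj x) with hlt | heq | hlt
      rotate_left
      · exact absurd heq (hS (T.proj x))
      rotate_left
      · have e : τ g (τ g (F (g⁻¹ • g⁻¹ • x))) = F (g⁻¹ • g⁻¹ • x) := S_S hτ _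
        have e2 : g⁻¹ • g⁻¹ • x = x := by
          rw [smul_smul, ← _root_.mul_inv_rev, ← map_mul, Periods.S_mul_S, inv_smul_eq_iff, hX]
        rw [if_neg (asymm hlt), if_pos hlt, zero_add, e, e2]
      · rw [if_pos hlt, if_neg (asymm hlt), map_zero, add_zero]
    split_act := fun u => LinearMap.ext fun F => funext fun x => by
      show (if WellOrderingRel (T.proj x) _ then F (T.act u x) else 0) =
        if WellOrderingRel (T.proj (T.act u x)) (red M ModularGroup.S • T.proj (T.act u x)) then F (T.act u x) else 0
      rw [T.proj_act] }

end Torsor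

end FLTAgent.R2.Coh
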