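import Fermat.Agent.R2.CohAux
import Fermat.Agent.LL.TWKernel

/-!
Area R2, parcel A: the twist of the auxiliary level by characters `ψ i` of `(ℤ/Q i)ˣ` with
`δ = ψ⁻²` trivial on `H i`, as a twisted map of coefficient modules from functions on `P¹(N0)` times
vectors modulo `H` to functions on `P¹(N0)` times pairs of lines, and its injectivity on the part on
which the diamonds act by `δ`.
-/

set_option autoImplicit false
set_option linter.style.haveILetI false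
set_option linter.unusedSectionVars false

noncomputable section

open scoped MatrixGroups
open Matrix

namespace FLTAgent.R2.Coh

/-- the auxiliary primes with their subgroups -/
structure AuxData (M r : ℕ) where
  N0 : ℕ
  dvd0 : N0 ∣ M
  Q : Fin r → ℕ
  prime : ∀ i, (Q i).Prime
  inj : Function.Injective Q
  dvd : ∀ i, Q i ∣ M
  ndvd : ∀ i, ¬ Q i ∣ N0
  H : ∀ i, Subgroup (ZMod (Q i))ˣ
  neg_mem : ∀ i, (-1) ∈ H i

namespace AuxData

variable {M r : ℕ} (D : AuxData M r)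

/-- the same primes without diamonds -/
abbrev tw : LL.TWData M 3 r where
  N0 := D.N0
  dvd0 := D.dvd0
  Q := D.Q
  prime := D.prime
  inj := D.inj
  dvd := D.dvd
  ndvd := D.ndvd
  H _ := ⊤
  prime_p := Nat.prime_three
  p_ne_two := by decide
  index _ := ⟨0, by simp⟩

/-- the diamonds -/
abbrev Del : Type := ∀ i, (ZMod (D.Q i))ˣ ⧸ D.H i

/-- `P¹(N0)` times vectors modulo `H` -/
abbrev X : Type := LL.P1 M D.N0 × ∀ i, Xq (D.dvd i) (D.H i)

instance delCommGroup : CommGroup D.Del := Pi.commGroup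

instance fact_prime (i : Fin r) : Fact (D.Q i).Prime := ⟨D.prime i⟩

instance fact_prime_tw (i : Fin r) : Fact (D.tw.Q i).Prime := ⟨D.prime i⟩

instance subsingleton_tw (i : Fin r) : Subsingleton ((ZMod (D.tw.Q i))ˣ ⧸ D.tw.H i) :=
  QuotientGroup.subsingleton_quotient_top

instance [NeZero M] : Fintype D.X := Fintype.ofFinite _

instance fintype_quot (i : Fin r) : Fintype ((ZMod (D.Q i))ˣ ⧸ D.H i) := Fintype.ofFinite _

/-- the torsor of diamonds -/
def torsor [NeZero M] : Torsor M D.X D.tw.Y D.Del :=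
  Torsor.prodLeft _ (Torsor.pi fun i => torsorq (D.dvd i) (D.H i))

theorem torsor_act [NeZero M] (u : D.Del) (x : D.X) :
    D.torsor.act u x = (x.1, fun i => diaPerm (D.dvd i) (D.H i) (u i) (x.2 i)) := rfl

theorem col0_mul_of_BXq (i : Fin r) (h : GL (Fin 2) (ZMod M)) {b : GL (Fin 2) (ZMod M)}
    (hb : b ∈ BXq (D.dvd i) (D.H i)) :
    ∃ u ∈ D.H i, D.tw.col0 i (h * b) = (u : ZMod (D.Q i)) • D.tw.col0 i h := by
  obtain ⟨h10, u, hu, hu'⟩ := hb
  refine ⟨u, hu, funext fun a => ?_⟩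
  show (cq (D.dvd i) (h * b)).1 a 0 = (u : ZMod (D.Q i)) * (cq (D.dvd i) h).1 a 0
  simp [Matrix.mul_apply, Fin.sum_univ_two, h10, hu', mul_comm]

theorem mk_eq_of_col0 (i : Fin r) {h h' : GL (Fin 2) (ZMod M)} {u : (ZMod (D.Q i))ˣ}
    (hu : u ∈ D.H i) (e : D.tw.col0 i h' = (u : ZMod (D.Q i)) • D.tw.col0 i h) :
    (QuotientGroup.mk h : Xq (D.dvd i) (D.H i)) = QuotientGroup.mk h' := by
  rw [QuotientGroup.eq]
  have hinv : (cq (D.dvd i) h⁻¹).1 * (cq (D.dvd i) h).1 = 1 := by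
    rw [← Units.val_mul, ← map_mul, inv_mul_cancel, map_one]
    rfl
  have ea : ∀ a, (cq (D.dvd i) h').1 a 0 = u * (cq (D.dvd i) h).1 a 0 := fun a => congrFun e a
  have hc : ∀ a, (cq (D.dvd i) (h⁻¹ * h')).1 a 0 =
      u * (1 : Matrix (Fin 2) (Fin 2) (ZMod (D.Q i))) a 0 := fun a => by
    rw [← hinv, map_mul, Units.val_mul, Matrix.mul_apply, Matrix.mul_apply, Fin.sum_univ_two,
      Fin.sum_univ_two, ea, ea]
    ring
  exact ⟨by rw [hc]; simp, u, hu, by rw [hc]; simp⟩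

variable {A : Type*} [CommRing A]

/-- characters whose squares are trivial on `H` -/
structure Choice (A : Type*) [CommRing A] where
  ψ : ∀ i, MulChar (ZMod (D.Q i)) A
  sq : ∀ i, ∀ u ∈ D.H i, ψ i u * ψ i u = 1
  adm : ∀ i, ψ i = 1 ∨ ψ i * ψ i ≠ 1

variable {D} (c : D.Choice A)

theorem Choice.inv_mul (i : Fin r) {x : ZMod (D.Q i)} (hx : x ≠ 0) :
    (c.ψ i)⁻¹ x * c.ψ i x = 1 := by
  rw [← MulChar.mul_apply, inv_mul_cancel, MulChar.one_apply hx.isUnit]

theorem Choice.inv_unit (i : Fin r) (a : (ZMod (D.Q i))ˣ) :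
    c.ψ i a * c.ψ i ((a⁻¹ : (ZMod (D.Q i))ˣ) : ZMod (D.Q i)) = 1 := by
  rw [← map_mul, Units.mul_inv, map_one]

/-- `ψ⁻²` at one prime -/
def Choice.delta1 (i : Fin r) : (ZMod (D.Q i))ˣ ⧸ D.H i →* A :=
  QuotientGroup.lift (D.H i)
    { toFun := fun u => c.ψ i ((u⁻¹ : (ZMod (D.Q i))ˣ) : ZMod (D.Q i)) *
        c.ψ i ((u⁻¹ : (ZMod (D.Q i))ˣ) : ZMod (D.Q i))
      map_one' := by simp
      map_mul' := fun u v => by
        simp only [_root_.mul_inv_rev, Units.val_mul, map_mul]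
        ring }
    fun u hu => c.sq i _ (inv_mem hu)

theorem Choice.delta1_mk (i : Fin r) (u : (ZMod (D.Q i))ˣ) :
    c.delta1 i (QuotientGroup.mk u) = c.ψ i ((u⁻¹ : (ZMod (D.Q i))ˣ) : ZMod (D.Q i)) *
      c.ψ i ((u⁻¹ : (ZMod (D.Q i))ˣ) : ZMod (D.Q i)) := rfl

/-- `ψ⁻²` -/
def Choice.delta : D.Del →* A where
  toFun u := ∏ i, c.delta1 i (u i)
  map_one' := by simp
  map_mul' u v := by simp [Finset.prod_mul_distrib]

/-- the character of the twist -/
def Choice.chi : (ZMod M)ˣ →* A where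
  toFun a := ∏ i, c.ψ i (ZMod.unitsMap (D.dvd i) a : ZMod (D.Q i))
  map_one' := by simp
  map_mul' a b := by simp [Finset.prod_mul_distrib]

/-- the kernel at one prime, on representatives -/
def Choice.kerRep (i : Fin r) (g h : GL (Fin 2) (ZMod M)) : A :=
  c.ψ i (TwistVec.d2 (D.tw.col0 i h) (D.tw.col1 i g) *
      TwistVec.d2 (D.tw.col0 i g) (D.tw.col0 i h)) *
    (c.ψ i)⁻¹ (TwistVec.d2 (D.tw.col0 i g) (D.tw.col1 i g))

theorem d2_smul {q : ℕ} [Fact q.Prime] (a b : ZMod q) (v w : Fin 2 → ZMod q) :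
    TwistVec.d2 (a • v) (b • w) = a * b * TwistVec.d2 v w := by
  simp only [TwistVec.d2, Pi.smul_apply, smul_eq_mul]
  ring

theorem Choice.kerRep_scale (i : Fin r) (g : GL (Fin 2) (ZMod M)) {h h' : GL (Fin 2) (ZMod M)}
    (a : ZMod (D.Q i)) (e : D.tw.col0 i h' = a • D.tw.col0 i h) :
    c.kerRep i g h' = c.ψ i a * c.ψ i a * c.kerRep i g h := by
  have e1 := d2_smul a 1 (D.tw.col0 i h) (D.tw.col1 i g)
  have e2 := d2_smul 1 a (D.tw.col0 i g) (D.tw.col0 i h)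
  rw [one_smul, mul_one] at e1
  rw [one_smul, one_mul] at e2
  rw [Choice.kerRep, e, e1, e2, Choice.kerRep]
  simp only [map_mul]
  ring

theorem Choice.kerRep_mul_BX (i : Fin r) (g h : GL (Fin 2) (ZMod M)) {b : GL (Fin 2) (ZMod M)}
    (hb : b ∈ BXq (D.dvd i) (D.H i)) : c.kerRep i g (h * b) = c.kerRep i g h := by
  obtain ⟨u, hu, e⟩ := D.col0_mul_of_BXq i h hb
  rw [c.kerRep_scale i g _ e, c.sq i u hu, one_mul]

theorem Choice.kerRep_mul_CQ (i : Fin r) (g h : GL (Fin 2) (ZMod M)) {t : GL (Fin 2) (ZMod M)}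
    (ht : t ∈ D.tw.CQ i) : c.kerRep i (g * t) h = c.kerRep i g h := by
  obtain ⟨e0, e1⟩ := D.tw.cols_mul_of_CQ i g ht
  have hdet : (D.tw.cQ i t).1.det ≠ 0 := (Matrix.isUnits_det_units _).ne_zero
  rw [Matrix.det_fin_two, ht.1, mul_zero, sub_zero] at hdet
  set a := (D.tw.cQ i t).1 0 0
  set d := (D.tw.cQ i t).1 1 1
  have f1 := d2_smul 1 d (D.tw.col0 i h) (D.tw.col1 i g)
  have f2 := d2_smul a 1 (D.tw.col0 i g) (D.tw.col0 i h)
  rw [one_smul, one_mul] at f1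
  rw [one_smul, mul_one] at f2
  rw [Choice.kerRep, e0, e1, f1, f2, d2_smul, Choice.kerRep]
  have hi := c.inv_mul i hdet
  simp only [map_mul] at hi ⊢
  linear_combination (c.ψ i (TwistVec.d2 (D.tw.col0 i h) (D.tw.col1 i g)) *
    c.ψ i (TwistVec.d2 (D.tw.col0 i g) (D.tw.col0 i h)) *
    (c.ψ i)⁻¹ (TwistVec.d2 (D.tw.col0 i g) (D.tw.col1 i g))) * hi

theorem Choice.kerRep_smul (i : Fin r) (k g h : GL (Fin 2) (ZMod M)) :
    c.kerRep i (k * g) (k * h) =
      c.ψ i (ZMod.unitsMap (D.dvd i) (Matrix.GeneralLinearGroup.det k) : ZMod (D.Q i)) *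
        c.kerRep i g h := by
  have hdet : (ZMod.unitsMap (D.dvd i) (Matrix.GeneralLinearGroup.det k) : ZMod (D.Q i)) =
      (D.tw.cQ i k).1.det := by
    rw [← Matrix.GeneralLinearGroup.val_det_apply, LL.TWData.cQ,
      Matrix.GeneralLinearGroup.map_det]
    rfl
  have hd : (D.tw.cQ i k).1.det ≠ 0 := (Matrix.isUnits_det_units _).ne_zero
  have hmv : ∀ v w : Fin 2 → ZMod (D.Q i), TwistVec.d2 ((D.tw.cQ i k).1 *ᵥ v)
      ((D.tw.cQ i k).1 *ᵥ w) = (D.tw.cQ i k).1.det * TwistVec.d2 v w :=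
    LL.TWData.det2_mulVec _
  rw [Choice.kerRep, (D.tw.cols_mul_left i k g).1, (D.tw.cols_mul_left i k g).2,
    (D.tw.cols_mul_left i k h).1, hmv, hmv, hmv, hdet, Choice.kerRep]
  have hi := c.inv_mul i hd
  simp only [map_mul] at hi ⊢
  linear_combination (c.ψ i (D.tw.cQ i k).1.det *
    c.ψ i (TwistVec.d2 (D.tw.col0 i h) (D.tw.col1 i g)) *
    c.ψ i (TwistVec.d2 (D.tw.col0 i g) (D.tw.col0 i h)) *
    (c.ψ i)⁻¹ (TwistVec.d2 (D.tw.col0 i g) (D.tw.col1 i g))) * hi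

/-- the kernel at one prime -/
def Choice.kerQ (i : Fin r) (z : GL (Fin 2) (ZMod M) ⧸ D.tw.CQ i) (x : Xq (D.dvd i) (D.H i)) : A :=
  c.kerRep i z.out x.out

theorem Choice.kerQ_mk (i : Fin r) (g h : GL (Fin 2) (ZMod M)) :
    c.kerQ i (QuotientGroup.mk g) (QuotientGroup.mk h) = c.kerRep i g h := by
  obtain ⟨⟨t, ht⟩, et⟩ := QuotientGroup.mk_out_eq_mul (D.tw.CQ i) g
  obtain ⟨⟨b, hb⟩, eb⟩ := QuotientGroup.mk_out_eq_mul (BXq (D.dvd i) (D.H i)) h
  rw [Choice.kerQ, et, eb, c.kerRep_mul_BX i _ h hb, c.kerRep_mul_CQ i g h ht]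

variable [NeZero M]

theorem Choice.kerQ_diaPerm (i : Fin r) (z : GL (Fin 2) (ZMod M) ⧸ D.tw.CQ i)
    (u : (ZMod (D.Q i))ˣ ⧸ D.H i) (x : Xq (D.dvd i) (D.H i)) :
    c.delta1 i u * c.kerQ i z (diaPerm (D.dvd i) (D.H i) u x) = c.kerQ i z x := by
  obtain ⟨a, rfl⟩ := clsq_surjective (D.dvd i) (D.H i) u
  induction z using QuotientGroup.induction_on with | H g =>
  induction x using QuotientGroup.induction_on with | H h =>
  rw [diaPerm_clsq, MulAction.Quotient.smul_mk, smul_eq_mul, c.kerQ_mk, c.kerQ_mk]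
  set l := ZMod.unitsMap (D.dvd i) a with hl
  have e : D.tw.col0 i (Matrix.GeneralLinearGroup.scalar (Fin 2) a * h) =
      (l : ZMod (D.Q i)) • D.tw.col0 i h := by
    funext b
    simp [LL.TWData.col0, LL.TWData.cQ, hl, ZMod.unitsMap_def, Matrix.mul_apply, Matrix.scalar_apply]
    fin_cases b <;> simp
  rw [c.kerRep_scale i g _ e, show clsq (D.dvd i) (D.H i) a = QuotientGroup.mk l from rfl,
    c.delta1_mk]
  linear_combination (c.ψ i l * c.ψ i ((l⁻¹ : (ZMod (D.Q i))ˣ) : ZMod (D.Q i)) + 1) *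
    c.kerRep i g h * c.inv_unit i l

open Classical in
/-- the kernel of the twist -/
def Choice.ker (z : D.tw.PD) (x : D.X) : A :=
  (if z.1.1 = x.1 then 1 else 0) * ∏ i, c.kerQ i (z.1.2 i) (x.2 i)

/-- the twist -/
def Choice.Φ : (D.X → A) →ₗ[A] (D.tw.PD → A) := LL.funKer c.ker

theorem isTwist_funKer' {X Z : Type*} [Fintype X] [MulAction (GL (Fin 2) (ZMod M)) X]
    [MulAction (GL (Fin 2) (ZMod M)) Z] (χ : (ZMod M)ˣ →* A) (K : Z → X → A)
    (hK : ∀ (g : GL (Fin 2) (ZMod M)) z x,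
      K (g • z) (g • x) = χ (Matrix.GeneralLinearGroup.det g) * K z x) :
    LL.IsTwist (LL.funRep A X (M := M)) (LL.funRep A Z (M := M)) χ (LL.funKer K) := fun g F => by
  ext z
  rw [Pi.smul_apply, LL.funRep_apply, LL.funKer_apply, LL.funKer_apply, Finset.smul_sum]
  refine (Fintype.sum_equiv (MulAction.toPerm g) _ _ fun x => ?_).symm
  rw [MulAction.toPerm_apply, LL.funRep_apply, inv_smul_smul, smul_eq_mul, ← mul_assoc,
    ← hK g (g⁻¹ • z) x, smul_inv_smul]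

theorem Choice.ker_smul (k : GL (Fin 2) (ZMod M)) (z : D.tw.PD) (x : D.X) :
    c.ker (k • z) (k • x) = c.chi (Matrix.GeneralLinearGroup.det k) * c.ker z x := by
  classical
  have e : ∀ i, c.kerQ i ((k • z).1.2 i) ((k • x).2 i) =
      c.ψ i (ZMod.unitsMap (D.dvd i) (Matrix.GeneralLinearGroup.det k) : ZMod (D.Q i)) *
        c.kerQ i (z.1.2 i) (x.2 i) := fun i => by
    simp only [Prod.smul_fst, Prod.smul_snd, Pi.smul_apply]
    obtain ⟨g, hg⟩ := QuotientGroup.mk_surjective (z.1.2 i)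
    obtain ⟨h, hh⟩ := QuotientGroup.mk_surjective (x.2 i)
    rw [← hg, ← hh, MulAction.Quotient.smul_mk, MulAction.Quotient.smul_mk, c.kerQ_mk, c.kerQ_mk]
    exact c.kerRep_smul i k g h
  rw [Choice.ker, Finset.prod_congr rfl fun i _ => e i, Finset.prod_mul_distrib, Choice.ker,
    show c.chi (Matrix.GeneralLinearGroup.det k) = ∏ i, c.ψ i
      (ZMod.unitsMap (D.dvd i) (Matrix.GeneralLinearGroup.det k) : ZMod (D.Q i)) from rfl,
    show (if (k • z).1.1 = (k • x).1 then (1 : A) else 0) = if z.1.1 = x.1 then 1 else 0 from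
      if_congr (smul_left_cancel_iff k) rfl rfl]
  ring

theorem Choice.isTwist : LL.IsTwist (LL.funRep A D.X (M := M))
    (LL.funRep A D.tw.PD (M := M)) c.chi c.Φ :=
  isTwist_funKer' _ _ c.ker_smul

theorem Choice.ker_act (z : D.tw.PD) (u : D.Del) (x : D.X) :
    c.delta u * c.ker z (D.torsor.act u x) = c.ker z x := by
  classical
  rw [torsor_act, Choice.ker, Choice.ker, mul_left_comm,
    show c.delta u = ∏ i, c.delta1 i (u i) from rfl, ← Finset.prod_mul_distrib,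
    Finset.prod_congr rfl fun i _ => c.kerQ_diaPerm i (z.1.2 i) (u i) (x.2 i)]

theorem Choice.Φ_act (u : D.Del) (F : D.X → A) :
    c.Φ (LinearMap.funLeft A A (D.torsor.act u) F) = c.delta u • c.Φ F := by
  ext z
  rw [Pi.smul_apply, smul_eq_mul, Choice.Φ, LL.funKer_apply, LL.funKer_apply, Finset.mul_sum]
  refine Fintype.sum_equiv (D.torsor.act u) _ _ fun x => ?_
  rw [← c.ker_act z u x, LinearMap.funLeft_apply]
  ring

end AuxData

end FLTAgent.R2.Coh
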