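import Fermat.Agent.R2.CohTwist

/-!
Area R2, parcel A: the twists by a complete family of characters are jointly injective on the part
of a system at the auxiliary level.
-/

set_option autoImplicit false
set_option linter.style.haveILetI false
set_option linter.unusedSectionVars false

noncomputable section

open scoped MatrixGroups
open Matrix IsLocalRing

namespace FLTAgent.R2.Coh

namespace AuxData

variable {M r : ℕ} {D : AuxData M r} [NeZero M] {A : Type*} [CommRing A] [IsDomain A] [CharZero A]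
  (c : D.Choice A)

theorem Choice.eq_zero_of_kerQ {K : Type*} [Field K] [CharZero K] (φ : A →+* K)
    (hφ : Function.Injective φ) (i : Fin r) [Fintype (Xq (D.dvd i) (D.H i))]
    (f : Xq (D.dvd i) (D.H i) → K)
    (hiso : ∀ u x, f (diaPerm (D.dvd i) (D.H i) u x) = φ (c.delta1 i u) * f x)
    (h : ∀ z, ∑ x, φ (c.kerQ i z x) * f x = 0) : f = 0 := by
  classical
  let hv : ∀ v : Fin 2 → ZMod (D.Q i), v ≠ 0 → GL (Fin 2) (ZMod M) := fun v hv =>
    (D.tw.exists_col0 i hv).choose
  have hvs : ∀ v (hne : v ≠ 0), D.tw.col0 i (hv v hne) = v := fun v hne =>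
    (D.tw.exists_col0 i hne).choose_spec
  let fv : (Fin 2 → ZMod (D.Q i)) → K := fun v =>
    if hne : v = 0 then 0 else f (QuotientGroup.mk (hv v hne))
  have hfv : ∀ (g : GL (Fin 2) (ZMod M)) (u : (ZMod (D.Q i))ˣ), u ∈ D.H i →
      fv ((u : ZMod (D.Q i)) • D.tw.col0 i g) = f (QuotientGroup.mk g) := by
    intro g u hu
    have hne : (u : ZMod (D.Q i)) • D.tw.col0 i g ≠ 0 :=
      smul_ne_zero u.ne_zero (D.tw.col0_ne_zero i g)
    simp only [fv, dif_neg hne]
    rw [D.mk_eq_of_col0 i hu (hvs _ hne)]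
  set ψ : MulChar (ZMod (D.Q i)) K := (c.ψ i).ringHomComp φ with hψdef
  have hadm : ψ = 1 ∨ ψ * ψ ≠ 1 := by
    rcases c.adm i with h1 | h2
    · refine Or.inl (MulChar.ext fun a => ?_)
      rw [hψdef, MulChar.ringHomComp_apply, h1, MulChar.one_apply_coe, MulChar.one_apply_coe,
        map_one]
    · refine Or.inr fun h2' => h2 (MulChar.ext fun a => hφ ?_)
      have e := congrArg (fun m : MulChar (ZMod (D.Q i)) K => m (a : ZMod (D.Q i))) h2'
      simpa [hψdef, MulChar.ringHomComp_apply] using e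
  have key : ∀ v, fv v = 0 := by
    refine TwistVec.eq_zero ψ hadm (dif_pos rfl) (fun x hx v => ?_) (fun e₁ e₂ he => ?_)
    · rcases eq_or_ne v 0 with rfl | hne
      · rw [smul_zero, show fv 0 = 0 from dif_pos rfl, mul_zero]
      · obtain ⟨a, ha⟩ := ZMod.unitsMap_surjective (D.dvd i) (Units.mk0 x hx)
        have ha' : ((ZMod.unitsMap (D.dvd i) a : (ZMod (D.Q i))ˣ) : ZMod (D.Q i)) = x := by
          rw [ha, Units.val_mk0]
        have hne' : x • v ≠ 0 := smul_ne_zero hx hne
        simp only [fv, dif_neg hne, dif_neg hne']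
        have e : (QuotientGroup.mk (hv (x • v) hne') : Xq (D.dvd i) (D.H i)) =
            diaPerm (D.dvd i) (D.H i) (clsq (D.dvd i) (D.H i) a) (QuotientGroup.mk (hv v hne)) := by
          rw [diaPerm_clsq, MulAction.Quotient.smul_mk, smul_eq_mul]
          refine D.mk_eq_of_col0 i (one_mem _) ?_
          rw [Units.val_one, one_smul, hvs (x • v) hne']
          nth_rw 2 [← hvs v hne]
          funext b
          simp [LL.TWData.col0, LL.TWData.cQ, Matrix.mul_apply, Matrix.scalar_apply, ← ha',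
            ZMod.unitsMap_def]
          fin_cases b <;> simp
        rw [e, hiso, show clsq (D.dvd i) (D.H i) a =
          QuotientGroup.mk (ZMod.unitsMap (D.dvd i) a) from rfl, c.delta1_mk, map_mul]
        congr 1
        rw [MulChar.inv_apply', hψdef, MulChar.ringHomComp_apply, Units.val_inv_eq_inv_val, ha']
    · obtain ⟨g, hg0, hg1⟩ := D.tw.exists_cols i he
      let Φ : Xq (D.dvd i) (D.H i) × D.H i → {v : Fin 2 → ZMod (D.Q i) // v ≠ 0} :=
        fun xu => ⟨((xu.2 : (ZMod (D.Q i))ˣ) : ZMod (D.Q i)) • D.tw.col0 i xu.1.out,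
          smul_ne_zero (Units.ne_zero _) (D.tw.col0_ne_zero i _)⟩
      have hΦ : Function.Bijective Φ := by
        refine ⟨fun ⟨x, u⟩ ⟨x', u'⟩ e => ?_, fun ⟨v, hne⟩ => ?_⟩
        · have e' := congrArg Subtype.val e
          simp only [Φ] at e'
          have hx : x = x' := by
            rw [← QuotientGroup.out_eq' x, ← QuotientGroup.out_eq' x']
            refine D.mk_eq_of_col0 i (mul_mem (inv_mem u'.2) u.2) ?_
            rw [Units.val_mul, mul_smul, e', smul_smul, Units.inv_mul, one_smul]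
          subst hx
          refine Prod.ext rfl (Subtype.ext (Units.ext ?_))
          exact smul_left_injective (ZMod (D.Q i)) (D.tw.col0_ne_zero i x.out) e'
        · obtain ⟨⟨b, hb⟩, eb⟩ :=
            QuotientGroup.mk_out_eq_mul (BXq (D.dvd i) (D.H i)) (hv v hne)
          obtain ⟨u, hu, e⟩ := D.col0_mul_of_BXq i (hv v hne) hb
          refine ⟨(QuotientGroup.mk (hv v hne), ⟨u, hu⟩⁻¹), Subtype.ext ?_⟩
          simp only [Φ, eb, e, hvs, InvMemClass.coe_inv, smul_smul, Units.inv_mul, one_smul]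
      haveI : Fintype {v : Fin 2 → ZMod (D.Q i) // v ≠ 0} := inferInstance
      have hk : ∀ xu, ψ (TwistVec.d2 (Φ xu).1 e₂ * TwistVec.d2 e₁ (Φ xu).1) * fv (Φ xu).1 =
          φ (c.kerQ i (QuotientGroup.mk g) xu.1) * f xu.1 := by
        rintro ⟨x, u⟩
        simp only [Φ]
        rw [hfv x.out u.1 u.2, QuotientGroup.out_eq']
        refine congrArg (· * f x) ?_
        conv_rhs => rw [← QuotientGroup.out_eq' x, c.kerQ_mk]
        set w := D.tw.col0 i x.out with hw
        have e1 := d2_smul ((u.1 : (ZMod (D.Q i))ˣ) : ZMod (D.Q i)) 1 w e₂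
        have e2 := d2_smul 1 ((u.1 : (ZMod (D.Q i))ˣ) : ZMod (D.Q i)) e₁ w
        rw [one_smul, mul_one] at e1
        rw [one_smul, one_mul] at e2
        rw [e1, e2, hψdef, MulChar.ringHomComp_apply, AuxData.Choice.kerRep, hg0, hg1, ← hw, he,
          MulChar.map_one, mul_one]
        refine congrArg φ ?_
        simp only [map_mul]
        linear_combination (c.ψ i (TwistVec.d2 w e₂) * c.ψ i (TwistVec.d2 e₁ w)) * c.sq i u.1 u.2
      rw [← Finset.add_sum_erase _ _ (Finset.mem_univ (0 : Fin 2 → ZMod (D.Q i))),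
        show fv 0 = 0 from dif_pos rfl, mul_zero, zero_add,
        Finset.sum_subtype (p := fun v => v ≠ 0) _ (by simp)
          fun v => ψ (TwistVec.d2 v e₂ * TwistVec.d2 e₁ v) * fv v,
        ← hΦ.sum_comp, Finset.sum_congr rfl fun xu _ => hk xu, Fintype.sum_prod_type]
      simp only [Finset.sum_const, ← Finset.smul_sum, h, smul_zero]
  funext x
  have := key (((1 : (ZMod (D.Q i))ˣ) : ZMod (D.Q i)) • D.tw.col0 i x.out)
  rwa [hfv _ _ (one_mem _), QuotientGroup.out_eq'] at this

/-- a left inverse of the kernel at one prime, up to the projector -/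
theorem Choice.exists_left {K : Type*} [Field K] [CharZero K] (φ : A →+* K)
    (hφ : Function.Injective φ) (i : Fin r) [Fintype (Xq (D.dvd i) (D.H i))]
    [Fintype (GL (Fin 2) (ZMod M) ⧸ D.tw.CQ i)] [DecidableEq (Xq (D.dvd i) (D.H i))] :
    ∃ L : Matrix (Xq (D.dvd i) (D.H i)) (GL (Fin 2) (ZMod M) ⧸ D.tw.CQ i) K,
      ∀ x x', ∑ z, L x z * φ (c.kerQ i z x') = ∑ u, φ (c.delta1 i u⁻¹) *
        if diaPerm (D.dvd i) (D.H i) u x = x' then 1 else 0 := by
  classical
  let N : Matrix (Xq (D.dvd i) (D.H i)) (Xq (D.dvd i) (D.H i)) K :=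
    Matrix.of fun x x' => ∑ u, φ (c.delta1 i u⁻¹) *
      if diaPerm (D.dvd i) (D.H i) u x = x' then 1 else 0
  let Ki : Matrix (GL (Fin 2) (ZMod M) ⧸ D.tw.CQ i) (Xq (D.dvd i) (D.H i)) K :=
    fun z x => φ (c.kerQ i z x)
  have hN : ∀ f x, N.mulVecLin f x =
      ∑ u, φ (c.delta1 i u⁻¹) * f (diaPerm (D.dvd i) (D.H i) u x) := fun f x => by
    simp only [Matrix.mulVecLin_apply, Matrix.mulVec, dotProduct, N, Matrix.of_apply,
      Finset.sum_mul]
    rw [Finset.sum_comm]
    refine Finset.sum_congr rfl fun u _ => ?_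
    simp
  have hle : LinearMap.ker Ki.mulVecLin ≤ LinearMap.ker N.mulVecLin := by
    intro f hf
    rw [LinearMap.mem_ker] at hf ⊢
    refine c.eq_zero_of_kerQ φ hφ i _ (fun v x => ?_) (fun z => ?_)
    · rw [hN, hN, Finset.mul_sum]
      refine Fintype.sum_equiv (Equiv.mulRight v) _ _ fun u => ?_
      rw [Equiv.coe_mulRight, ← mul_assoc, ← map_mul, ← map_mul, ← Equiv.Perm.mul_apply,
        ← map_mul]
      congr 3
      group
    · simp only [hN, Finset.mul_sum]
      rw [Finset.sum_comm]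
      refine Finset.sum_eq_zero fun u _ => ?_
      refine Eq.trans ?_ (congrFun hf z)
      refine Fintype.sum_equiv (diaPerm (D.dvd i) (D.H i) u) _ _ fun x => ?_
      show _ = Ki z _ * f _
      simp only [Ki]
      rw [← c.kerQ_diaPerm i z u x, map_mul, ← mul_assoc, mul_comm (φ (c.delta1 i u)),
        mul_assoc (φ (c.kerQ i z _)), ← map_mul φ, ← map_mul (c.delta1 i), mul_inv_cancel, map_one,
        map_one, mul_one]
  obtain ⟨G, hG⟩ := (((LinearMap.ker Ki.mulVecLin).liftQ N.mulVecLin hle) ∘ₗ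
    Ki.mulVecLin.quotKerEquivRange.symm.toLinearMap).exists_extend
  have hG' : G ∘ₗ Ki.mulVecLin = N.mulVecLin := LinearMap.ext fun f => by
    have e := LinearMap.congr_fun hG ⟨Ki.mulVecLin f, LinearMap.mem_range_self _ f⟩
    simp only [LinearMap.comp_apply, Submodule.subtype_apply, LinearEquiv.coe_coe] at e
    rwa [Ki.mulVecLin.quotKerEquivRange_symm_apply_image f, Submodule.mkQ_apply,
      Submodule.liftQ_apply] at e
  refine ⟨LinearMap.toMatrix' G, fun x x' => ?_⟩
  have e : LinearMap.toMatrix' G * Ki = N := by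
    rw [← LinearMap.toMatrix'_toLin' Ki, ← LinearMap.toMatrix'_comp, Matrix.toLin'_apply', hG',
      ← Matrix.toLin'_apply', LinearMap.toMatrix'_toLin']
  show _ = N x x'
  rw [← e]
  rfl

/-- the twist is injective on the functions on which the diamonds act by `δ` -/
theorem Choice.eq_zero_of_Φ {F : D.X → A}
    (hiso : ∀ u x, F (D.torsor.act u x) = c.delta u * F x) (hF : c.Φ F = 0) : F = 0 := by
  classical
  haveI := fun i => Fintype.ofFinite (Xq (D.dvd i) (D.H i))
  haveI := fun i => Fintype.ofFinite (GL (Fin 2) (ZMod M) ⧸ D.tw.CQ i)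
  let K := FractionRing A
  let φ : A →+* K := algebraMap A K
  have hφ : Function.Injective φ := IsFractionRing.injective A K
  haveI : CharZero K := charZero_of_injective_algebraMap hφ
  choose L hL using fun i => c.exists_left φ hφ i
  funext x
  refine IsFractionRing.injective A K ?_
  rw [Pi.zero_apply, map_zero]
  have hcard : ((Fintype.card D.Del : ℕ) : K) ≠ 0 := Nat.cast_ne_zero.2 Fintype.card_ne_zero
  refine (mul_eq_zero.1 (?_ : ((Fintype.card D.Del : ℕ) : K) * φ (F x) = 0)).resolve_left hcard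
  have h0 : ∑ z : ∀ i, GL (Fin 2) (ZMod M) ⧸ D.tw.CQ i,
      (∏ i, L i (x.2 i) (z i)) * φ (c.Φ F ((x.1, z), D.tw.tor 1)) = 0 := by
    simp [hF]
  refine Eq.trans ?_ h0
  simp only [Choice.Φ, LL.funKer_apply, Choice.ker, map_sum, map_mul, map_prod, Finset.mul_sum]
  rw [Finset.sum_comm]
  have key : ∀ y : D.X, ∑ z : ∀ i, GL (Fin 2) (ZMod M) ⧸ D.tw.CQ i,
      (∏ i, L i (x.2 i) (z i)) * (φ (if x.1 = y.1 then 1 else 0) *
        (∏ i, φ (c.kerQ i (z i) (y.2 i))) * φ (F y)) =
      ∑ u : D.Del, if D.torsor.act u x = y then φ (c.delta u⁻¹ * F y) else 0 := by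
    intro y
    have e : ∀ z : ∀ i, GL (Fin 2) (ZMod M) ⧸ D.tw.CQ i,
        (∏ i, L i (x.2 i) (z i)) * (φ (if x.1 = y.1 then 1 else 0) *
          (∏ i, φ (c.kerQ i (z i) (y.2 i))) * φ (F y)) =
        φ (if x.1 = y.1 then 1 else 0) * φ (F y) *
          ∏ i, L i (x.2 i) (z i) * φ (c.kerQ i (z i) (y.2 i)) := fun z => by
      rw [Finset.prod_mul_distrib]
      ring
    rw [Finset.sum_congr rfl fun z _ => e z, ← Finset.mul_sum,
      ← Fintype.prod_sum (fun i z => L i (x.2 i) z * φ (c.kerQ i z (y.2 i)))]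
    simp only [hL]
    rw [Fintype.prod_sum, Finset.mul_sum]
    refine Finset.sum_congr rfl fun u _ => ?_
    rw [Finset.prod_mul_distrib, Fintype.prod_boole, apply_ite φ, map_one, map_zero,
      show (∏ i, φ (c.delta1 i (u i)⁻¹)) = φ (c.delta u⁻¹) from (map_prod φ _ _).symm]
    rw [torsor_act, map_mul]
    by_cases h1 : x.1 = y.1
    · rw [if_pos h1, one_mul]
      by_cases h2 : ∀ i, diaPerm (D.dvd i) (D.H i) (u i) (x.2 i) = y.2 i
      · rw [if_pos h2, if_pos (show ((x.1, fun i => diaPerm (D.dvd i) (D.H i) (u i) (x.2 i)) : D.X) = y from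
          Prod.ext h1 (funext h2))]
        ring
      · rw [if_neg h2, if_neg (show ¬ ((x.1, fun i => diaPerm (D.dvd i) (D.H i) (u i) (x.2 i)) : D.X) = y from
          fun h => h2 fun i => congrFun (congrArg Prod.snd h) i)]
        ring
    · rw [if_neg h1, if_neg (show ¬ ((x.1, fun i => diaPerm (D.dvd i) (D.H i) (u i) (x.2 i)) : D.X) = y from
        fun h => h1 (congrArg Prod.fst h :))]
      ring
  rw [Finset.sum_congr rfl fun y _ => key y, Finset.sum_comm]
  simp only [Finset.sum_ite_eq, Finset.mem_univ, if_true]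
  rw [Finset.sum_congr rfl fun u _ => show φ (c.delta u⁻¹ * F (D.torsor.act u x)) = φ (F x) by
    rw [hiso, ← mul_assoc, ← map_mul c.delta, inv_mul_cancel, map_one, one_mul],
    Finset.sum_const, Finset.card_univ, nsmul_eq_mul]

/-- the functions on which the diamonds act by `δ` -/
def Choice.iso : Submodule A (D.X → A) where
  carrier := {F | ∀ u x, F (D.torsor.act u x) = c.delta u * F x}
  zero_mem' := by simp
  add_mem' := fun {F F'} hF hF' u x => by simp [hF u x, hF' u x, mul_add]
  smul_mem' := fun a F hF u x => by simp [hF u x, mul_left_comm]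

/-- the representation on them -/
def Choice.isoRep : Representation A (GL (Fin 2) (ZMod M)) c.iso where
  toFun g := (LL.funRep A D.X (M := M) g).restrict fun F hF u x => by
    rw [LL.funRep_apply, LL.funRep_apply, ← D.torsor.act_smul, hF]
  map_one' := LinearMap.ext fun F => Subtype.ext (by simp)
  map_mul' g h := LinearMap.ext fun F => Subtype.ext (by simp <;> rfl)

theorem Choice.isTwist_subtype :
    LL.IsTwist c.isoRep (LL.funRep A D.X (M := M)) 1 c.iso.subtype := fun g F => by
  rw [MonoidHom.one_apply, one_smul]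
  rfl

theorem Choice.isTwist_restrict :
    LL.IsTwist c.isoRep (LL.funRep A D.tw.PD (M := M)) c.chi (c.Φ.domRestrict c.iso) :=
  fun g F => c.isTwist g F.1

theorem Choice.domRestrict_injective : Function.Injective (c.Φ.domRestrict c.iso) :=
  (injective_iff_map_eq_zero _).2 fun F hF => Subtype.ext (c.eq_zero_of_Φ F.2 hF)

/-- the projection, up to the order of the diamonds -/
def Choice.proj : (D.X → A) →ₗ[A] c.iso :=
  (∑ u, c.delta u⁻¹ • LinearMap.funLeft A A (D.torsor.act u)).codRestrict c.iso fun F v x => by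
    simp only [LinearMap.coe_sum, Finset.sum_apply, LinearMap.smul_apply, Pi.smul_apply,
      LinearMap.funLeft_apply, smul_eq_mul, Finset.mul_sum]
    refine Fintype.sum_equiv (Equiv.mulRight v) _ _ fun u => ?_
    rw [Equiv.coe_mulRight, ← mul_assoc, ← map_mul, ← Equiv.Perm.mul_apply, ← map_mul]
    congr 2
    group

theorem Choice.proj_apply (F : D.X → A) (x : D.X) :
    (c.proj F).1 x = ∑ u, c.delta u⁻¹ * F (D.torsor.act u x) := by
  show ((∑ u, c.delta u⁻¹ • LinearMap.funLeft A A (D.torsor.act u)) F) x = _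
  simp [LinearMap.funLeft_apply]

theorem Choice.isTwist_proj : LL.IsTwist (LL.funRep A D.X (M := M)) c.isoRep 1 c.proj := by
  intro g F
  rw [MonoidHom.one_apply, one_smul]
  refine Subtype.ext (funext fun x => ?_)
  show ((∑ u, c.delta u⁻¹ • LinearMap.funLeft A A (D.torsor.act u)) _) x =
    ((∑ u, c.delta u⁻¹ • LinearMap.funLeft A A (D.torsor.act u)) F) (g⁻¹ • x)
  simp only [LinearMap.coe_sum, Finset.sum_apply, LinearMap.smul_apply, Pi.smul_apply,
    LinearMap.funLeft_apply, LL.funRep_apply, D.torsor.act_smul]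

theorem Choice.Φ_proj : c.Φ.domRestrict c.iso ∘ₗ c.proj = (Fintype.card D.Del : A) • c.Φ := by
  refine LinearMap.ext fun F => ?_
  show c.Φ ((∑ u, c.delta u⁻¹ • LinearMap.funLeft A A (D.torsor.act u)) F) = _
  rw [LinearMap.coe_sum, Finset.sum_apply, map_sum]
  simp only [LinearMap.smul_apply, map_smul, c.Φ_act, smul_smul, ← map_mul, inv_mul_cancel,
    map_one, one_smul, Finset.sum_const, Finset.card_univ, ← Nat.cast_smul_eq_nsmul A]

variable [IsLocalRing A] [IsNoetherianRing A] [IsAdicComplete (maximalIdeal A) A]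

theorem Choice.map_proj_eq_zero (s : LL.Sys M A) {y : LL.H1 (LL.funRep A D.X (M := M))}
    (hy : y ∈ s.E (LL.funRep A D.X (M := M))) (h0 : LL.map c.isTwist y = 0) :
    LL.map c.isTwist_proj y = 0 := by
  refine s.eq_zero_of_map_eq_zero c.isTwist_restrict c.domRestrict_injective
    (s.map_mem_E c.isTwist_proj (fun _ => by simp) hy) ?_
  obtain ⟨f, rfl⟩ := Submodule.mkQ_surjective _ y
  have e : LL.map c.isTwist_restrict (LL.map c.isTwist_proj (LL.H1.mk (LL.funRep A D.X (M := M)) f)) =
      (Fintype.card D.Del : A) • LL.map c.isTwist (LL.H1.mk (LL.funRep A D.X (M := M)) f) := by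
    rw [LL.map_mk, LL.map_mk, LL.map_mk, ← _root_.map_smul]
    refine congrArg (fun z => LL.H1.mk (LL.funRep A D.tw.PD (M := M)) z)
      (Subtype.ext (funext fun γ => ?_))
    exact LinearMap.congr_fun c.Φ_proj (f.1 γ)
  rw [e, h0, smul_zero]

/-- twists by a complete family of characters are jointly injective on the part of a system -/
theorem eq_zero_of_twists (s : LL.Sys M A) {κ : Type*} [Fintype κ] (cs : κ → D.Choice A)
    (hsum : ∀ u : D.Del, u ≠ 1 → ∑ k, (cs k).delta u = 0) (hκ : Fintype.card κ ≠ 0)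
    {y : LL.H1 (LL.funRep A D.X (M := M))} (hy : y ∈ s.E (LL.funRep A D.X (M := M)))
    (h0 : ∀ k, LL.map (cs k).isTwist y = 0) : y = 0 := by
  refine s.smul_eq_zero_imp ((Fintype.card κ : ℕ) : A) (fun F hF => funext fun x => ?_) hy ?_
  · have := congrFun hF x
    rw [Pi.smul_apply, Pi.zero_apply, smul_eq_zero] at this
    exact this.resolve_left (Nat.cast_ne_zero.2 hκ)
  obtain ⟨f, rfl⟩ := Submodule.mkQ_surjective _ y
  have hk : ∀ k, LL.map (cs k).isTwist_subtype (LL.map (cs k).isTwist_proj (LL.H1.mk (LL.funRep A D.X (M := M)) f)) = 0 :=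
    fun k => by rw [(cs k).map_proj_eq_zero s hy (h0 k), map_zero]
  have e : ((Fintype.card κ : ℕ) : A) • LL.H1.mk (LL.funRep A D.X (M := M)) f =
      ∑ k, LL.map (cs k).isTwist_subtype (LL.map (cs k).isTwist_proj (LL.H1.mk (LL.funRep A D.X (M := M)) f)) := by
    simp only [LL.map_mk, ← map_sum, ← _root_.map_smul]
    refine congrArg (fun z => LL.H1.mk (LL.funRep A D.X (M := M)) z)
      (Subtype.ext (funext fun γ => funext fun x => ?_))
    simp only [Submodule.coe_smul, Submodule.coe_sum, Pi.smul_apply, Finset.sum_apply,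
      LL.mapZ_apply, Submodule.subtype_apply, Choice.proj_apply, smul_eq_mul]
    rw [Finset.sum_comm, Finset.sum_eq_single (1 : D.Del)]
    · simp [map_one]
    · intro u _ hu
      rw [← Finset.sum_mul, hsum _ (inv_ne_one.2 hu), zero_mul]
    · exact fun h => absurd (Finset.mem_univ _) h
  show ((Fintype.card κ : ℕ) : A) • LL.H1.mk (LL.funRep A D.X (M := M)) f = 0
  rw [e, Finset.sum_eq_zero fun k _ => hk k]

end AuxData

end FLTAgent.R2.Coh
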