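import Fermat.Agent.R2.CohTwistInj
import Fermat.Agent.LL.ConjTW
import Fermat.Agent.LL.TWMod

/-!
Area R2, parcel A: the twisted classes lie in the lattice of level `Γ₀(N0 R²)`, in the part of the
system, with `T l` turned into `χ l • T l`.
-/

set_option autoImplicit false
set_option linter.style.haveILetI false
set_option linter.unusedSectionVars false

noncomputable section

open scoped MatrixGroups TensorProduct
open Matrix IsLocalRing CongruenceSubgroup

namespace FLTAgent.R2.Coh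

namespace AuxData

variable {M r : ℕ} {D : AuxData M r} [NeZero M] {A : Type*} [CommRing A] [IsDomain A] [CharZero A]
  [IsLocalRing A] [IsNoetherianRing A] [IsAdicComplete (maximalIdeal A) A] (s : LL.Sys M A)
  {L : ℕ} [NeZero L] (hL : L = D.N0 * D.tw.R ^ 2)

theorem tw_del_eq (d : D.tw.Del) : d = 1 := Subsingleton.elim _ _

include hL in
theorem evalPD_mem_range {y : LL.H1 (LL.funRep A D.tw.PD (M := M))}
    (hy : y ∈ s.E (LL.funRep A D.tw.PD (M := M))) :
    D.tw.evalPD A hL 1 y ∈ LinearMap.range (LL.lamCast A L) := by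
  haveI : NeZero D.tw.R := ⟨D.tw.R_ne_zero⟩
  refine LinearMap.mem_range.2 ((LL.range_lamCast _).mpr fun γ hγ => ?_)
  refine (LL.evalConj_apply (D.tw.conj_dvd hL) (D.tw.basePD 1) (D.tw.conj_mem_stab hL 1) y γ).trans ?_
  refine eval_eq_zero_of_mem_E s D.tw.red_neg_one_smul_PD _ hy _ ?_
  rw [LL.trace_conjHom]
  exact hγ

/-- the class of the lattice -/
def toLamE : s.E (LL.funRep A D.tw.PD (M := M)) →ₗ[A] A ⊗[ℤ] JTors.Lam L :=
  (LinearEquiv.ofInjective (LL.lamCast A L) LL.lamCast_injective).symm.toLinearMap ∘ₗ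
    (D.tw.evalPD A hL 1 ∘ₗ (s.E (LL.funRep A D.tw.PD (M := M))).subtype).codRestrict
      (LinearMap.range (LL.lamCast A L)) fun y => evalPD_mem_range s hL y.2

theorem lamCast_toLamE (y : s.E (LL.funRep A D.tw.PD (M := M))) :
    LL.lamCast A L (toLamE s hL y) = D.tw.evalPD A hL 1 y.1 := by
  rw [toLamE, ← LinearEquiv.ofInjective_apply (h := LL.lamCast_injective)]
  exact congrArg Subtype.val (LinearEquiv.apply_symm_apply _ _)

theorem toLamE_injective : Function.Injective (toLamE (D := D) s hL) := by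
  refine (injective_iff_map_eq_zero _).2 fun y hy => Subtype.ext ?_
  refine D.tw.eq_zero_of_evalPD (A := A) hL fun d => ?_
  rw [tw_del_eq d, ← lamCast_toLamE, hy, map_zero]

theorem toLamE_T (LD : JTors.LatticeData L) {l : ℕ} (hl : l.Prime) (hlM : ¬ l ∣ M)
    (y : s.E (LL.funRep A D.tw.PD (M := M))) :
    toLamE s hL ⟨LL.T (LL.funRep A D.tw.PD (M := M)) hl hlM y.1, s.T_mem_E hl hlM y.2⟩ =
      (LD.T ⟨l, hl⟩).baseChange A (toLamE s hL y) := by
  refine LL.lamCast_injective ?_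
  rw [lamCast_toLamE, D.tw.lamCast_evalPD_T LD hL hl hlM 1 y.1 _ (lamCast_toLamE s hL y),
    tw_del_eq (D.tw.w _ * 1)]

theorem toLamE_mem_lamPart (LD : JTors.LatticeData L)
    (y : s.E (LL.funRep A D.tw.PD (M := M))) : toLamE s hL y ∈ LL.lamPart LD s := by
  obtain ⟨e, he1, he2, he3⟩ := s.exists_proj_E (ρ := LL.funRep A D.tw.PD (M := M))
  have hmem : ∀ z, e z ∈ s.E (LL.funRep A D.tw.PD (M := M)) := fun z =>
    he1.le (LinearMap.mem_range_self e z)
  let Φ : LL.H1 (LL.funRep A D.tw.PD (M := M)) →ₗ[A] A ⊗[ℤ] JTors.Lam L :=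
    toLamE s hL ∘ₗ e.codRestrict _ hmem
  have hΦ : Φ y.1 = toLamE s hL y := congrArg (toLamE s hL) (Subtype.ext (he2 _ y.2))
  have hT : ∀ (l : ℕ) (hl : l.Prime) (hlM : ¬ l ∣ M) (z : LL.H1 (LL.funRep A D.tw.PD (M := M))),
      Φ (LL.T (LL.funRep A D.tw.PD (M := M)) hl hlM z) = (LD.T ⟨l, hl⟩).baseChange A (Φ z) := fun l hl hlM z => by
    have hc : Commute (LL.T (LL.funRep A D.tw.PD (M := M)) hl hlM) e :=
      he3 _ fun l' hl' hl'M => LL.T_comm hl hlM hl' hl'M
    refine Eq.trans (congrArg (toLamE s hL) (Subtype.ext ?_)) (toLamE_T s hL LD hl hlM _)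
    exact (LinearMap.congr_fun hc.eq z).symm
  rw [← hΦ]
  obtain ⟨h1, h2⟩ := (LL.Sys.mem_E_iff s).mp y.2
  refine Submodule.mem_inf.2 ⟨LL.Fitting.map_unitPart (LinearMap.ext fun z => ?_) h1, ?_⟩
  · simp only [LL.Sys.eta, LinearMap.comp_apply, LinearMap.sub_apply, LinearMap.smul_apply,
      Module.End.one_apply, _root_.map_sub, map_smul, hT]
  · simp only [Submodule.mem_iInf]
    intro l hl hlM hb
    refine LL.Fitting.map_nilPart _ (LinearMap.ext fun z => ?_) (h2 l hl hlM hb)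
    simp only [LinearMap.comp_apply, LinearMap.sub_apply, LinearMap.smul_apply,
      Module.End.one_apply, _root_.map_sub, map_smul, hT]

variable (c : D.Choice A)

/-- the twist to the lattice -/
def Choice.toLam (hχ : ∀ a, c.chi a - 1 ∈ maximalIdeal A) :
    s.E (LL.funRep A D.X (M := M)) →ₗ[A] A ⊗[ℤ] JTors.Lam L :=
  toLamE s hL ∘ₗ (LL.map c.isTwist).restrict fun _ hx => s.map_mem_E c.isTwist hχ hx

theorem Choice.toLam_mem_lamPart (hχ : ∀ a, c.chi a - 1 ∈ maximalIdeal A)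
    (LD : JTors.LatticeData L) (x : s.E (LL.funRep A D.X (M := M))) :
    c.toLam s hL hχ x ∈ LL.lamPart LD s :=
  toLamE_mem_lamPart s hL LD _

theorem Choice.toLam_T (hχ : ∀ a, c.chi a - 1 ∈ maximalIdeal A) (LD : JTors.LatticeData L) {l : ℕ}
    (hl : l.Prime) (hlM : ¬ l ∣ M) (x : s.E (LL.funRep A D.X (M := M))) :
    c.toLam s hL hχ ⟨LL.T (LL.funRep A D.X (M := M)) hl hlM x.1, s.T_mem_E hl hlM x.2⟩ =
      c.chi (ZMod.unitOfCoprime l ((hl.coprime_iff_not_dvd).mpr hlM)) •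
        (LD.T ⟨l, hl⟩).baseChange A (c.toLam s hL hχ x) := by
  set a := c.chi (ZMod.unitOfCoprime l ((hl.coprime_iff_not_dvd).mpr hlM))
  set y : s.E (LL.funRep A D.tw.PD (M := M)) :=
    (LL.map c.isTwist).restrict (fun _ hx => s.map_mem_E c.isTwist hχ hx) x
  show toLamE s hL _ = a • (LD.T ⟨l, hl⟩).baseChange A (toLamE s hL y)
  rw [← toLamE_T s hL LD hl hlM y, ← map_smul]
  exact congrArg (toLamE s hL) (Subtype.ext (LL.map_T c.isTwist hl hlM x.1))

/-- the diamonds become the scalars `δ` -/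
theorem Choice.toLam_act (hχ : ∀ a, c.chi a - 1 ∈ maximalIdeal A) (u : D.Del)
    (x x' : s.E (LL.funRep A D.X (M := M))) (h : LL.IsTwist (LL.funRep A D.X (M := M))
      (LL.funRep A D.X (M := M)) 1 (LinearMap.funLeft A A (D.torsor.act u)))
    (hx : x'.1 = LL.map h x.1) : c.toLam s hL hχ x' = c.delta u • c.toLam s hL hχ x := by
  show toLamE s hL _ = c.delta u • toLamE s hL _
  rw [← map_smul]
  refine congrArg (toLamE s hL) (Subtype.ext ?_)
  show LL.map c.isTwist x'.1 = c.delta u • LL.map c.isTwist x.1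
  rw [hx]
  obtain ⟨f, hf⟩ := Submodule.mkQ_surjective _ x.1
  rw [← hf]
  refine congrArg (fun z => LL.H1.mk (LL.funRep A D.tw.PD (M := M)) z)
    (Subtype.ext (funext fun γ => ?_))
  exact c.Φ_act u (f.1 γ)

/-- twists by a complete family are jointly injective into the lattice -/
theorem eq_zero_of_toLam {κ : Type*} [Fintype κ] (cs : κ → D.Choice A)
    (hχ : ∀ k a, (cs k).chi a - 1 ∈ maximalIdeal A)
    (hsum : ∀ u : D.Del, u ≠ 1 → ∑ k, (cs k).delta u = 0) (hκ : Fintype.card κ ≠ 0)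
    {x : s.E (LL.funRep A D.X (M := M))} (h0 : ∀ k, (cs k).toLam s hL (hχ k) x = 0) : x = 0 := by
  refine Subtype.ext (eq_zero_of_twists s cs hsum hκ x.2 fun k => ?_)
  exact congrArg Subtype.val
    ((injective_iff_map_eq_zero _).1 (toLamE_injective (D := D) s hL) _ (h0 k))

end AuxData

end FLTAgent.R2.Coh
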