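import Fermat.Agent.R2.CurveComp
import Fermat.Agent.MLT.PointTateLocal

/-!
Area R2, parcel F (curve): the two-adic Tate module at a prime of multiplicative reduction, the
prime being odd or equal to two.

The points of two-power order on the zero component form a line of full order; a decomposition
element acts on the quotient by a sign, one on inertia.
-/

set_option autoImplicit false
set_option linter.unusedSectionVars false
set_option linter.style.haveILetI false

noncomputable section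

open WeierstrassCurve IsLocalRing
open FLTAgent.Local FLTAgent.Torsion
open FLTAgent.MLT (TateBasis levelEnd exists_div smul_nsmul_point)
open FLTAgent.Attach (cyc)
open WeierstrassCurve.Affine.Point (galoisRepModuleEnd_apply)
open scoped WeierstrassCurve.Affine

namespace FLTAgent.R2

local notation "GalQ" => AlgebraicClosure ℚ ≃ₐ[ℚ] AlgebraicClosure ℚ

local instance fact_prime_two_curve : Fact (Nat.Prime 2) := ⟨Nat.prime_two⟩

local instance decEqResCurve (A : ValuationSubring (AlgebraicClosure ℚ)) :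
    DecidableEq (ResidueField A) := Classical.decEq _

/-- multiplicative reduction at a place over `q`, which may be two -/
structure MultPlace (W : WeierstrassCurve ℤ) (A : ValuationSubring (AlgebraicClosure ℚ))
    (q : ℕ) : Prop where
  prime : q.Prime
  lies : A.LiesOverPrime q
  Δ_ne : W.Δ ≠ 0
  dvd : (q : ℤ) ∣ W.Δ
  ss : SemistableAt W q

/-- `σ` is the sign `e` modulo the zero component on the points of two-power order -/
def SignAt (W : WeierstrassCurve ℤ) (A : ValuationSubring (AlgebraicClosure ℚ)) (σ : GalQ)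
    (e : ℤˣ) : Prop :=
  ∀ (m : ℕ) (P : QPoint W), 2 ^ m • P = 0 → σ • P - (e : ℤ) • P ∈ zeroComp W A

variable {W : WeierstrassCurve ℤ} {A : ValuationSubring (AlgebraicClosure ℚ)} {q : ℕ}

namespace MultPlace

variable (h : MultPlace W A q)
include h

/-- twice two points off the zero component on it: their difference is on it -/
theorem sub_mem_of_double {P Q : QPoint W} (P0 : P ∉ zeroComp W A) (Q0 : Q ∉ zeroComp W A)
    (hP : 2 • P ∈ zeroComp W A) (hQ : 2 • Q ∈ zeroComp W A) : P - Q ∈ zeroComp W A := by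
  obtain ⟨W1, φ, hN, hδ, -, h0, -, -⟩ := exists_nodal_model h.lies h.prime h.dvd h.ss
  have hδ0 : A.valuation (W1.a₆ : AlgebraicClosure ℚ) ≠ 0 := by
    rw [hδ, Ne, map_eq_zero, Int.cast_eq_zero]; exact h.Δ_ne
  rw [← h0, map_sub]
  rw [two_nsmul, ← h0, map_add] at hP hQ
  exact sub_inE0_of_double hN hδ0 (mt (h0 P).1 P0) (mt (h0 Q).1 Q0) hP hQ

/-- some point of order two is off the zero component -/
theorem exists_two_notMem : ∃ P : QPoint W, 2 • P = 0 ∧ P ∉ zeroComp W A := by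
  obtain ⟨W1, φ, hN, hδ, hinj, h0, -, -⟩ := exists_nodal_model h.lies h.prime h.dvd h.ss
  have hδ0 : A.valuation (W1.a₆ : AlgebraicClosure ℚ) ≠ 0 := by
    rw [hδ, Ne, map_eq_zero, Int.cast_eq_zero]; exact h.Δ_ne
  obtain ⟨R, hR, hR0⟩ := exists_two_not_inE0 hN hδ0
  rw [← two_nsmul] at hR
  haveI : (genFib W1).IsElliptic :=
    ⟨isUnit_iff_ne_zero.2 fun e => hδ0 (by rw [← S58.val_Δ hN, e, map_zero])⟩
  let g : {P : QPoint W // 2 • P = 0} → {P : (genFib W1).toAffine.Point // 2 • P = 0} :=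
    fun P => ⟨φ P.1, by rw [← map_nsmul, P.2, map_zero]⟩
  have c2 := card_nsmul_kernel (genFib W1) 2 two_ne_zero
  have c1 := EllFrob.natCard_torsion (W := W) h.Δ_ne 2 two_ne_zero
  haveI : Finite {P : (genFib W1).toAffine.Point // 2 • P = 0} :=
    Nat.finite_of_card_ne_zero (by rw [c2]; norm_num)
  obtain ⟨⟨S, hS⟩, he⟩ := ((Nat.bijective_iff_injective_and_card g).2
    ⟨fun a b e => Subtype.ext (hinj (congrArg Subtype.val e)), c1.trans c2.symm⟩).2 ⟨R, hR⟩
  refine ⟨S, hS, fun hh => hR0 ?_⟩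
  rw [← show φ S = R from congrArg Subtype.val he]
  exact (h0 S).2 hh

/-- decomposition elements act by a sign modulo the zero component -/
theorem smul_pm {σ : GalQ} (hσ : σ ∈ A.decompositionSubgroup ℚ) (P : QPoint W) :
    σ • P - P ∈ zeroComp W A ∨ σ • P + P ∈ zeroComp W A := by
  obtain ⟨W1, φ, hN, hδ, -, h0, -, hσ'⟩ := exists_nodal_model h.lies h.prime h.dvd h.ss
  have hδ0 : A.valuation (W1.a₆ : AlgebraicClosure ℚ) ≠ 0 := by
    rw [hδ, Ne, map_eq_zero, Int.cast_eq_zero]; exact h.Δ_ne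
  rw [← h0, ← h0, map_sub, map_add]
  exact (add_or_sub_of_dist1 hN hδ0 (S58.dist1_image
    (σ := (σ : AlgebraicClosure ℚ →+* AlgebraicClosure ℚ)) (fun z => val_aut hσ z)
    ((hσ' σ hσ).2 P))).symm

/-- inertia is trivial modulo the zero component -/
theorem smul_sub_mem {σ : GalQ} (hσ : σ ∈ A.inertiaSubgroupIn ℚ) (P : QPoint W) :
    σ • P - P ∈ zeroComp W A := by
  obtain ⟨W1, φ, hN, hδ, -, h0, -, hσ'⟩ := exists_nodal_model h.lies h.prime h.dvd h.ss
  have hδ0 : A.valuation (W1.a₆ : AlgebraicClosure ℚ) ≠ 0 := by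
    rw [hδ, Ne, map_eq_zero, Int.cast_eq_zero]; exact h.Δ_ne
  obtain ⟨hf, hI⟩ := hσ' σ (inertia_mem_decomposition hσ)
  rw [← h0, map_sub]
  exact image_sub_inE0_all hN hδ0 (inertial_of_mem hσ) hf (hI P)

/-- an adapted basis of the Tate module: the first sequence spans the points on the zero component -/
theorem exists_adapted : ∃ T : TateBasis W 2, (∀ n, T.pt 0 n ∈ zeroComp W A) ∧
    ∀ (n : ℕ) (c : ℤ), c • T.pt 1 n ∈ zeroComp W A → ((2 ^ (n + 1) : ℕ) : ℤ) ∣ c := by
  classical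
  obtain ⟨P0, hP0, hP0C⟩ := h.exists_two_notMem
  obtain ⟨S⟩ := MLT.exists_tateBasis (W := W) (p := 2) h.Δ_ne
  have hz : ∀ {T : QPoint W}, T ∉ zeroComp W A → T ≠ 0 := fun hT e => hT (e ▸ zero_mem _)
  -- a point of order two on the zero component
  obtain ⟨T0, hT0, hT0ne, hT0C⟩ : ∃ T : QPoint W, 2 • T = 0 ∧ T ≠ 0 ∧ T ∈ zeroComp W A := by
    have h0 : ∀ i, 2 • S.pt i 0 = 0 := fun i => by simpa using S.kill i 0
    have hne : ∀ i, S.pt i 0 ≠ 0 := by
      intro i e
      fin_cases i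
      · exact absurd (S.indep 1 0 (by simpa using e)).1 (by norm_num)
      · exact absurd (S.indep 0 1 (by simpa using e)).2 (by norm_num)
    obtain ⟨i, hi⟩ : ∃ i, S.pt i 0 ≠ P0 := by
      by_contra hh
      push Not at hh
      refine absurd (S.indep 1 1 ?_).1 (by norm_num)
      rw [one_nsmul, one_nsmul, hh, hh, ← two_nsmul, hP0]
    by_cases hC : S.pt i 0 ∈ zeroComp W A
    · exact ⟨_, h0 i, hne i, hC⟩
    · exact ⟨S.pt i 0 - P0, by rw [nsmul_sub, h0, hP0, sub_zero], sub_ne_zero.2 hi,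
        h.sub_mem_of_double hC hP0C (by rw [h0]; exact zero_mem _) (by rw [hP0]; exact zero_mem _)⟩
  have hsuccT : ∀ n (P : {P : QPoint W // 2 ^ (n + 1) • P = 0 ∧ P ∈ zeroComp W A}),
      ∃ Q : {Q : QPoint W // 2 ^ (n + 1 + 1) • Q = 0 ∧ Q ∈ zeroComp W A}, 2 • Q.1 = P.1 := by
    intro n P
    obtain ⟨y, hy⟩ := exists_div h.Δ_ne two_ne_zero (pow_ne_zero (n + 1) two_ne_zero) P.2.1
    by_cases hC : y ∈ zeroComp W A
    · exact ⟨⟨y, by rw [pow_succ', mul_nsmul, hy, P.2.1], hC⟩, hy⟩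
    · have h2 : 2 • (y - P0) = P.1 := by rw [nsmul_sub, hy, hP0, sub_zero]
      exact ⟨⟨y - P0, by rw [pow_succ', mul_nsmul, h2, P.2.1],
        h.sub_mem_of_double hC hP0C (by rw [hy]; exact P.2.2) (by rw [hP0]; exact zero_mem _)⟩, h2⟩
  have hsuccQ : ∀ n (P : {P : QPoint W // 2 ^ (n + 1) • P = 0}),
      ∃ Q : {Q : QPoint W // 2 ^ (n + 1 + 1) • Q = 0}, 2 • Q.1 = P.1 := fun n P => by
    obtain ⟨y, hy⟩ := exists_div h.Δ_ne two_ne_zero (pow_ne_zero (n + 1) two_ne_zero) P.2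
    exact ⟨⟨y, by rw [pow_succ', mul_nsmul, hy, P.2]⟩, hy⟩
  choose nT hnT using hsuccT
  choose nQ hnQ using hsuccQ
  let sT : ∀ n, {P : QPoint W // 2 ^ (n + 1) • P = 0 ∧ P ∈ zeroComp W A} := fun n =>
    Nat.rec ⟨T0, by rw [show Nat.zero + 1 = 1 from rfl, pow_one]; exact hT0, hT0C⟩
      (fun m P => nT m P) n
  let sQ : ∀ n, {P : QPoint W // 2 ^ (n + 1) • P = 0} := fun n =>
    Nat.rec ⟨P0, by rw [show Nat.zero + 1 = 1 from rfl, pow_one]; exact hP0⟩
      (fun m P => nQ m P) n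
  let f : Fin 2 → ℕ → QPoint W := ![fun n => (sT n).1, fun n => (sQ n).1]
  have hkill : ∀ i n, 2 ^ (n + 1) • f i n = 0 := fun i n => by
    fin_cases i
    · exact (sT n).2.1
    · exact (sQ n).2
  have hstep : ∀ i n, 2 • f i (n + 1) = f i n := fun i n => by
    fin_cases i
    · exact hnT n (sT n)
    · exact hnQ n (sQ n)
  have hindep : ∀ a b : ℕ, a • f 0 0 + b • f 1 0 = 0 → 2 ∣ a ∧ 2 ∣ b := by
    intro a b e
    change a • T0 + b • P0 = 0 at e
    have hb : 2 ∣ b := by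
      by_contra hb
      obtain ⟨k, rfl⟩ : Odd b := Nat.not_even_iff_odd.1 fun h => hb (even_iff_two_dvd.1 h)
      refine hP0C ?_
      rw [add_nsmul, mul_nsmul, hP0, nsmul_zero, zero_add, one_nsmul] at e
      rw [eq_neg_of_add_eq_zero_right e]
      exact neg_mem (AddSubgroup.nsmul_mem _ hT0C a)
    refine ⟨?_, hb⟩
    obtain ⟨k, rfl⟩ := hb
    rw [mul_nsmul, hP0, nsmul_zero, add_zero] at e
    by_contra ha
    obtain ⟨j, rfl⟩ : Odd a := Nat.not_even_iff_odd.1 fun h => ha (even_iff_two_dvd.1 h)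
    rw [add_nsmul, mul_nsmul, hT0, nsmul_zero, zero_add, one_nsmul] at e
    exact hT0ne e
  refine ⟨⟨f, hkill, hstep, hindep⟩, fun n => (sT n).2.2, ?_⟩
  intro n
  induction n with
  | zero =>
    intro c hc
    change c • P0 ∈ zeroComp W A at hc
    rw [zero_add, pow_one]
    by_contra hn
    obtain ⟨k, rfl⟩ : Odd c := Int.not_even_iff_odd.1 fun h => hn (by exact_mod_cast even_iff_two_dvd.1 h)
    rw [add_zsmul, one_zsmul, mul_comm, mul_zsmul, ofNat_zsmul, hP0, zsmul_zero, zero_add] at hc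
    exact hP0C hc
  | succ n ih =>
    intro c hc
    have h1 := AddSubgroup.nsmul_mem _ hc 2
    rw [← natCast_zsmul, ← mul_zsmul, mul_comm, mul_zsmul, natCast_zsmul] at h1
    change c • (2 • f 1 (n + 1)) ∈ zeroComp W A at h1
    rw [hstep] at h1
    obtain ⟨d, rfl⟩ := ih c h1
    have hb : ∀ k, (2 ^ k : ℕ) • f 1 k = P0 := by
      intro k
      induction k with
      | zero => exact one_nsmul _
      | succ k ih => rw [pow_succ', mul_nsmul, hstep, ih]
    change (((2 ^ (n + 1) : ℕ) : ℤ) * d) • f 1 (n + 1) ∈ zeroComp W A at hc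
    rw [mul_comm, mul_zsmul, natCast_zsmul, hb] at hc
    by_contra hn
    obtain ⟨k, rfl⟩ : Odd d := Int.not_even_iff_odd.1 fun ⟨k, hk⟩ =>
      hn ⟨k, by rw [hk]; push_cast; ring⟩
    rw [add_zsmul, one_zsmul, mul_comm, mul_zsmul, ofNat_zsmul, hP0, zsmul_zero, zero_add] at hc
    exact hP0C hc

theorem sign_unique {σ : GalQ} {e e' : ℤˣ} (he : SignAt W A σ e) (he' : SignAt W A σ e') :
    e = e' := by
  obtain ⟨T, -, hQ⟩ := h.exists_adapted
  have h1 := sub_mem (he' 2 _ (T.kill 1 1)) (he 2 _ (T.kill 1 1))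
  rw [sub_sub_sub_cancel_left, ← sub_smul] at h1
  have h2 := hQ 1 _ h1
  rcases Int.units_eq_one_or e with rfl | rfl <;> rcases Int.units_eq_one_or e' with rfl | rfl <;>
    first | rfl | (exfalso; revert h2; decide)

theorem exists_sign {σ : GalQ} (hσ : σ ∈ A.decompositionSubgroup ℚ) : ∃ e, SignAt W A σ e := by
  obtain ⟨T, hT, hQ⟩ := h.exists_adapted
  have hw : ∀ n, ∃ e : ℤˣ, σ • T.pt 1 n - (e : ℤ) • T.pt 1 n ∈ zeroComp W A := fun n => by
    rcases h.smul_pm hσ (T.pt 1 n) with e | e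
    · exact ⟨1, by rwa [Units.val_one, one_zsmul]⟩
    · exact ⟨-1, by rwa [Units.val_neg, Units.val_one, neg_one_zsmul, sub_neg_eq_add]⟩
  obtain ⟨e, he⟩ := hw 1
  have hall : ∀ n, σ • T.pt 1 (n + 1) - (e : ℤ) • T.pt 1 (n + 1) ∈ zeroComp W A := by
    intro n
    obtain ⟨e', he'⟩ := hw (n + 1)
    suffices e' = e by rwa [this] at he'
    have h1 := AddSubgroup.nsmul_mem _ he' (2 ^ n)
    rw [nsmul_sub, ← smul_nsmul_point, add_comm n 1, T.pow_nsmul, ← natCast_zsmul, ← mul_zsmul,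
      mul_comm, mul_zsmul, natCast_zsmul, T.pow_nsmul] at h1
    have h1' := sub_mem he h1
    rw [sub_sub_sub_cancel_left, ← sub_smul] at h1'
    have h2 := hQ 1 _ h1'
    rcases Int.units_eq_one_or e with rfl | rfl <;> rcases Int.units_eq_one_or e' with rfl | rfl <;>
      first | rfl | (exfalso; revert h2; decide)
  refine ⟨e, fun m P hP => ?_⟩
  have hP' : 2 ^ (m + 1 + 1) • P = 0 := by
    rw [pow_succ, pow_succ, mul_assoc, mul_nsmul, hP, nsmul_zero]
  obtain ⟨c, hc⟩ := (T.bijective_comb h.Δ_ne (m + 1)).2 (mkTors P hP')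
  have hPc : P = (c 0).val • T.pt 0 (m + 1) + (c 1).val • T.pt 1 (m + 1) := by
    rw [← T.coe_comb, hc]; rfl
  have h0 : σ • T.pt 0 (m + 1) - (e : ℤ) • T.pt 0 (m + 1) ∈ zeroComp W A :=
    sub_mem (S58.smul_mem_zeroComp h.lies h.prime h.dvd h.ss hσ (hT _))
      (zsmul_mem (hT _) _)
  have h1 := add_mem (AddSubgroup.nsmul_mem _ h0 (c 0).val)
    (AddSubgroup.nsmul_mem _ (hall m) (c 1).val)
  rw [hPc, MLT.smul_add_point, smul_nsmul_point, smul_nsmul_point]
  convert h1 using 1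
  rw [nsmul_sub, nsmul_sub]
  simp only [zsmul_add, ← natCast_zsmul, ← mul_zsmul, mul_comm (e : ℤ)]
  abel

theorem sign_inertia {σ : GalQ} (hσ : σ ∈ A.inertiaSubgroupIn ℚ) : SignAt W A σ 1 :=
  fun m P _ => by rw [Units.val_one, one_zsmul]; exact h.smul_sub_mem hσ P

theorem sign_mul {g g' : GalQ} (hg : g ∈ A.decompositionSubgroup ℚ) {e e' : ℤˣ}
    (he : SignAt W A g e) (he' : SignAt W A g' e') : SignAt W A (g * g') (e * e') := by
  intro m P hP
  have h1 := he m ((e' : ℤ) • P) (by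
    rw [← natCast_zsmul, ← mul_zsmul, mul_comm, mul_zsmul, natCast_zsmul, hP, zsmul_zero])
  have h2 := S58.smul_mem_zeroComp h.lies h.prime h.dvd h.ss hg (he' m P hP)
  rw [S58.galois_sub] at h2
  have h3 := add_mem h1 h2
  rw [mul_smul, Units.val_mul, mul_zsmul]
  convert h3 using 1
  abel

/-- at an odd prime inertia is unipotent on the points of two-power order -/
theorem inertia_sq (hq2 : q ≠ 2) {σ : GalQ} (hσ : σ ∈ A.inertiaSubgroupIn ℚ) {n : ℕ}
    {P : QPoint W} (hP : 2 ^ n • P = 0) : σ • (σ • P - P) = σ • P - P := by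
  have hQ : 2 ^ n • (σ • P - P) = 0 := by rw [nsmul_sub, smul_torsion hP, hP, sub_zero]
  rw [← sub_eq_zero]
  exact redKernel_torsion_eq_zero h.lies h.prime
    (fun hd => hq2 ((Nat.prime_dvd_prime_iff_eq h.prime Nat.prime_two).1
      (h.prime.dvd_of_dvd_pow hd)))
    (inertia_sub_mem_redKernel hσ (h.smul_sub_mem hσ P))
    (by rw [nsmul_sub, smul_torsion hQ, hQ, sub_zero])

end MultPlace

end FLTAgent.R2

end
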