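import Fermat.Agent.R2.Defs
import Fermat.Agent.R2.CurveTwo

/-!
Area R2, parcel F (curve): an anchor on its `2^(N+1)`-torsion satisfies the deformation
conditions, for a sign `ε` at two.

At a multiplicative place the torsion has the line of the zero component; at two the decomposition
group acts there by `χ η` and on the quotient by the sign `η`, unramified, so `ε = η(frobTwo)`.
-/

set_option autoImplicit false
set_option linter.style.haveILetI false

noncomputable section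

open WeierstrassCurve IsLocalRing Matrix
open FLTAgent.Local FLTAgent.Torsion
open FLTAgent.MLT (TateBasis levelEnd)
open WeierstrassCurve.Affine.Point (galoisRepModuleEnd_apply)
open scoped WeierstrassCurve.Affine

namespace FLTAgent.R2

local instance fact_prime_two_sign : Fact (Nat.Prime 2) := ⟨Nat.prime_two⟩

variable {W : WeierstrassCurve ℤ}

theorem rE_eq_levelMat (hW : IsAnchor W) (N : ℕ) (σ : GQ) :
    rE hW N σ = (tate hW).levelMat hW.neg.ne N σ :=
  (tate hW).mat_level hW.neg.ne N σ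

/-- traces at good primes -/
theorem trace_rE (hW : IsAnchor W) (N : ℕ) {l : ℕ} (hl : l.Prime) (hl2 : l ≠ 2)
    (hgood : ¬ (l : ℤ) ∣ W.Δ) {P : ValuationSubring (AlgebraicClosure ℚ)} (hP : P.LiesOverPrime l)
    {σ : GQ} (hσ : P.IsFrobeniusAt σ l) :
    (rE hW N σ).trace = (W.apOfModel l : Lam N) := by
  have h := ((tate hW).frobenius hW.neg.ne hl hgood hP hσ hl2.symm).1
  have h2 : (rE hW N σ).trace =
      PadicInt.toZModPow (p := 2) (N + 1) ((tate hW).mat hW.neg.ne σ).trace :=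
    (AddMonoidHom.map_trace (PadicInt.toZModPow (p := 2) (N + 1)).toAddMonoidHom _).symm
  rw [h2, h, map_intCast]

theorem det_rE (hW : IsAnchor W) (N : ℕ) (σ : GQ) : (rE hW N σ).det = chi N σ := by
  rw [rE_eq_levelMat]
  exact (tate hW).det_level hW.neg.ne N σ

theorem not_dvd_of_not_mem_badOdd (hW : IsAnchor W) {q : ℕ} (hq : q.Prime) (hq2 : q ≠ 2)
    (hb : q ∉ badOdd W) : ¬ (q : ℤ) ∣ W.Δ := fun h => hb
  (Finset.mem_filter.2 ⟨Nat.mem_primeFactors.2
    ⟨hq, Int.natCast_dvd.1 h, Int.natAbs_ne_zero.2 hW.neg.ne⟩, hq2⟩)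

theorem rE_inertia_good (hW : IsAnchor W) (N : ℕ) {q : ℕ} (hq : q.Prime) (hq2 : q ≠ 2)
    (hgood : ¬ (q : ℤ) ∣ W.Δ) {P : ValuationSubring (AlgebraicClosure ℚ)} (hP : P.LiesOverPrime q)
    {σ : GQ} (hσ : σ ∈ P.inertiaSubgroupIn ℚ) : rE hW N σ = 1 := by
  show ((tate hW).mat hW.neg.ne σ).map _ = 1
  rw [(tate hW).mat_inertia_good hW.neg.ne hq hq2 hgood hP hσ,
    Matrix.map_one _ (map_zero _) (map_one _)]

theorem good_of_not_dvd_lev {hW : IsAnchor W} {B : Base W} {N : ℕ} (K : Aux hW B N) {q : ℕ}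
    (hq : q.Prime) (h : ¬ q ∣ B.lev) : q ≠ 2 ∧ ¬ (q : ℤ) ∣ W.Δ := by
  have hq2 : q ≠ 2 := fun e => h (by rw [e, Base.lev, mul_assoc]; exact dvd_mul_right _ _)
  refine ⟨hq2, not_dvd_of_not_mem_badOdd hW hq hq2 fun hm => h ?_⟩
  exact dvd_mul_of_dvd_left (dvd_mul_of_dvd_right (Finset.dvd_prod_of_mem (fun l => l) hm) 2) _

theorem multPlace_bad (hW : IsAnchor W) {q : ℕ} (hq : q ∈ badOdd W)
    {P : ValuationSubring (AlgebraicClosure ℚ)} (hP : P.LiesOverPrime q) : MultPlace W P q := by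
  obtain ⟨hm, -⟩ := Finset.mem_filter.1 hq
  have hp := Nat.prime_of_mem_primeFactors hm
  exact ⟨hp, hP, hW.neg.ne, Int.natCast_dvd.2 (Nat.dvd_of_mem_primeFactors hm), hW.ss q hp⟩

theorem multPlace_two (hW : IsAnchor W) : MultPlace W placeTwo 2 := by
  obtain ⟨k, u, hk, hΔ, -⟩ := hW.two
  refine ⟨Nat.prime_two, placeTwo_lies, hW.neg.ne, ?_, hW.ss 2 Nat.prime_two⟩
  rw [hΔ]
  exact Dvd.dvd.mul_right (dvd_pow_self _ (by omega)) u

theorem rE_inertia_bad (hW : IsAnchor W) (N : ℕ) {q : ℕ} (hq : q ∈ badOdd W)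
    {P : ValuationSubring (AlgebraicClosure ℚ)} (hP : P.LiesOverPrime q)
    {σ : GQ} (hσ : σ ∈ P.inertiaSubgroupIn ℚ) :
    (rE hW N σ - 1) * (rE hW N σ - 1) = 0 := by
  have h := multPlace_bad hW hq hP
  have hf : (levelEnd W 2 N σ - 1) * (levelEnd W 2 N σ - 1) = 0 := by
    refine LinearMap.ext fun x => Subtype.ext ?_
    simp only [Module.End.mul_apply, LinearMap.sub_apply, Module.End.one_apply,
      galoisRepModuleEnd_apply, LinearMap.zero_apply, AddSubgroupClass.coe_sub, coe_smul,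
      ZeroMemClass.coe_zero]
    rw [h.inertia_sq (Finset.mem_filter.1 hq).2 hσ (nsmul_tors x), sub_self]
  have e := congrArg (LinearMap.toMatrix ((tate hW).basis hW.neg.ne N)
    ((tate hW).basis hW.neg.ne N)) hf
  rw [LinearMap.toMatrix_mul, map_sub, LinearMap.toMatrix_one, map_zero] at e
  rw [rE_eq_levelMat]
  exact e

/-- in an adapted basis a decomposition element with sign `e` is triangular with diagonal
`χ e, e` -/
theorem levelMat_adapted {A : ValuationSubring (AlgebraicClosure ℚ)} {q : ℕ}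
    (h : MultPlace W A q) {T : TateBasis W 2} (hT : ∀ n, T.pt 0 n ∈ zeroComp W A)
    (hQ : ∀ (n : ℕ) (c : ℤ), c • T.pt 1 n ∈ zeroComp W A → ((2 ^ (n + 1) : ℕ) : ℤ) ∣ c)
    (n : ℕ) {g : GQ} (hg : g ∈ A.decompositionSubgroup ℚ) {e : ℤˣ} (he : SignAt W A g e) :
    T.levelMat h.Δ_ne n g 1 0 = 0 ∧ T.levelMat h.Δ_ne n g 1 1 = ((e : ℤ) : Lam n) ∧
      T.levelMat h.Δ_ne n g 0 0 = chi n g * ((e : ℤ) : Lam n) := by
  set M := T.levelMat h.Δ_ne n g with hM
  have h10 : M 1 0 = 0 := by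
    have hmem := S58.smul_mem_zeroComp h.lies h.prime h.dvd h.ss hg (hT n)
    rw [T.smul_pt h.Δ_ne n g 0, ← hM,
      AddSubgroup.add_mem_cancel_left _ (AddSubgroup.nsmul_mem _ (hT n) _), ← natCast_zsmul] at hmem
    have h1 := (ZMod.intCast_zmod_eq_zero_iff_dvd _ (2 ^ (n + 1))).2 (hQ n _ hmem)
    rwa [Int.cast_natCast, ZMod.natCast_zmod_val] at h1
  have h11 : M 1 1 = ((e : ℤ) : Lam n) := by
    have hmem := he (n + 1) _ (T.kill 1 n)
    rw [T.smul_pt h.Δ_ne n g 1, ← hM, add_sub_assoc,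
      AddSubgroup.add_mem_cancel_left _ (AddSubgroup.nsmul_mem _ (hT n) _), ← natCast_zsmul,
      ← sub_smul] at hmem
    have h1 := (ZMod.intCast_zmod_eq_zero_iff_dvd _ (2 ^ (n + 1))).2 (hQ n _ hmem)
    rwa [Int.cast_sub, Int.cast_natCast, ZMod.natCast_zmod_val, sub_eq_zero] at h1
  refine ⟨h10, h11, ?_⟩
  have hd : M.det = chi n g := T.det_level h.Δ_ne n g
  rw [Matrix.det_fin_two, h10, mul_zero, sub_zero, h11] at hd
  have hsq : ((e : ℤ) : Lam n) * ((e : ℤ) : Lam n) = 1 := by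
    rw [← Int.cast_mul, ← Units.val_mul, Int.units_mul_self, Units.val_one, Int.cast_one]
  rw [← hd, mul_assoc, hsq, mul_one]

/-- the relation of a Steinberg point at a multiplicative place -/
theorem rE_steinberg (hW : IsAnchor W) (N : ℕ) {A : ValuationSubring (AlgebraicClosure ℚ)}
    {q : ℕ} (hA : MultPlace W A q) {g h : GQ} (hg : g ∈ A.decompositionSubgroup ℚ)
    (hh : h ∈ A.decompositionSubgroup ℚ) {e e' : ℤˣ} (he : SignAt W A g e)
    (he' : SignAt W A h e') :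
    (rE hW N g - (chi N g * ((e : ℤ) : Lam N)) • (1 : Matrix (Fin 2) (Fin 2) (Lam N))) *
      (rE hW N h - ((e' : ℤ) : Lam N) • (1 : Matrix (Fin 2) (Fin 2) (Lam N))) = 0 := by
  obtain ⟨T, hT, hQ⟩ := hA.exists_adapted
  obtain ⟨g10, g11, g00⟩ := levelMat_adapted hA hT hQ N hg he
  obtain ⟨h10, h11, h00⟩ := levelMat_adapted hA hT hQ N hh he'
  set a : Lam N := chi N g * ((e : ℤ) : Lam N)
  set b : Lam N := ((e' : ℤ) : Lam N)
  have key : (levelEnd W 2 N g - a • 1) * (levelEnd W 2 N h - b • 1) = 0 := by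
    apply (LinearMap.toMatrix (T.basis hA.Δ_ne N) (T.basis hA.Δ_ne N)).injective
    rw [LinearMap.toMatrix_mul, map_sub, map_sub, map_smul, map_smul, LinearMap.toMatrix_one,
      map_zero]
    show (T.levelMat hA.Δ_ne N g - a • 1) * (T.levelMat hA.Δ_ne N h - b • 1) = 0
    ext i j
    fin_cases i <;> fin_cases j <;>
      simp [Matrix.mul_apply, Fin.sum_univ_two, g10, g00, h10, h11]
  have e2 := congrArg (LinearMap.toMatrix ((tate hW).basis hW.neg.ne N)
    ((tate hW).basis hW.neg.ne N)) key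
  rw [LinearMap.toMatrix_mul, map_sub, map_sub, map_smul, map_smul, LinearMap.toMatrix_one,
    map_zero] at e2
  rw [rE_eq_levelMat, rE_eq_levelMat]
  exact e2

theorem rE_finLevel (hW : IsAnchor W) (N : ℕ) : Deform.FinLevel (fun σ => rE hW N σ) := by
  obtain ⟨L, hL, hLt⟩ := (tate hW).exists_level hW.neg.ne N
  refine ⟨L, hL, fun σ hσ => ?_⟩
  show rE hW N σ = 1
  rw [← map_one (rE hW N), rE_eq_levelMat, rE_eq_levelMat, hLt σ 1 fun z hz => hσ z hz]

theorem rE_res (hW : IsAnchor W) (N : ℕ) (σ : GQ) (a b : Fin 2) :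
    rE hW N σ a b - ((rb hW σ a b).val : Lam N) ∈ maximalIdeal (Lam N) := by
  obtain ⟨x, hx, hx0⟩ : ∃ x : ℤ_[2], rE hW N σ a b = PadicInt.toZModPow (p := 2) (N + 1) x ∧
      rb hW σ a b = PadicInt.toZModPow (p := 2) (0 + 1) x :=
    ⟨(tate hW).mat hW.neg.ne σ a b, rfl, rfl⟩
  set c := PadicInt.toZModPow (p := 2) (0 + 1) x with hc
  rw [hx, hx0, ← map_natCast (PadicInt.toZModPow (p := 2) (N + 1)) c.val, ← map_sub]
  have hy : x - (c.val : ℤ_[2]) ∈ Ideal.span {((2 : ℕ) : ℤ_[2]) ^ (0 + 1)} := by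
    rw [← PadicInt.ker_toZModPow, RingHom.mem_ker, map_sub, map_natCast, ZMod.natCast_zmod_val,
      ← hc, sub_self]
  replace hy : x - (c.val : ℤ_[2]) ∈ Ideal.span {((2 : ℕ) : ℤ_[2])} := by simpa using hy
  obtain ⟨z, hz⟩ := Ideal.mem_span_singleton.1 hy
  rw [hz, map_mul, map_natCast]
  refine Ideal.mul_mem_right _ _ ?_
  rw [IsLocalRing.mem_maximalIdeal, mem_nonunits_iff, ZMod.isUnit_iff_coprime]
  simp

theorem exists_sign (hW : IsAnchor W) :
    ∃ ε : ℤˣ, ∀ (B : Base W) (N n : ℕ) (K : Aux hW B N) (D : TW K n),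
      Cond ε D (rE hW N) := by
  classical
  have hT := multPlace_two hW
  have hF := frobTwo_spec.mem_decompositionSubgroup
  choose sgn hsgn using fun (g : GQ) (hg : g ∈ placeTwo.decompositionSubgroup ℚ) =>
    hT.exists_sign hg
  refine ⟨sgn frobTwo hF, fun B N n K D => ?_⟩
  have hgood : ∀ q : ℕ, q.Prime → ¬ q ∣ B.lev → q ≠ 2 ∧ ¬ (q : ℤ) ∣ W.Δ :=
    fun q hq h => good_of_not_dvd_lev K hq h
  refine
    { level := rE_finLevel hW N
      res := fun σ a b => rE_res hW N σ a b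
      unr := fun q hq hq2 hb _ _ P hP σ hσ =>
        rE_inertia_good hW N hq hq2 (not_dvd_of_not_mem_badOdd hW hq hq2 hb) hP hσ
      det := fun σ _ => det_rE hW N σ
      bad := fun q hq P hP σ hσ => rE_inertia_bad hW N hq hP hσ
      aux := fun i σ hσ => ?_
      aux_tr := fun i => by rw [K.tr, zero_pow two_ne_zero]
      tw := fun i σ hσ => ?_
      two := ?_ }
  · obtain ⟨h2, hg⟩ := hgood _ (K.prime i) (K.ndvd i)
    rw [rE_inertia_good hW N (K.prime i) h2 hg (K.lies i) hσ, sub_self, mul_zero]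
  · obtain ⟨h2, hg⟩ := hgood _ (D.prime i) (fun h => D.ndvd i (dvd_mul_of_dvd_left h _))
    rw [rE_inertia_good hW N (D.prime i) h2 hg (D.lies i) hσ]
    exact Commute.one_left _
  refine ⟨fun g => if hg : g ∈ placeTwo.decompositionSubgroup ℚ then ((sgn g hg : ℤ) : Lam N)
    else 1, ?_, ?_, ?_, ?_⟩
  · beta_reduce
    rw [dif_pos hF, det_rE, Algebra.algebraMap_self, RingHom.id_apply]
  · intro g hg h hh
    beta_reduce
    rw [dif_pos hg, dif_pos hh, dif_pos (mul_mem hg hh), ← Int.cast_mul, ← Units.val_mul,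
      hT.sign_unique (hsgn _ (mul_mem hg hh)) (hT.sign_mul hg (hsgn g hg) (hsgn h hh))]
  · intro g hg
    have hd := inertia_mem_decomposition hg
    beta_reduce
    rw [dif_pos hd, hT.sign_unique (hsgn g hd) (hT.sign_inertia hg), Units.val_one, Int.cast_one]
  · intro g hg h hh
    beta_reduce
    rw [dif_pos hg, dif_pos hh, Algebra.algebraMap_self, RingHom.id_apply]
    exact rE_steinberg hW N hT hg hh (hsgn g hg) (hsgn h hh)

end FLTAgent.R2

end
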