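import Fermat.Agent.S58.Nodal
import Fermat.Agent.Local.API

/-!
Area R2, parcel F (curve): components of points of a nodal model, with no restriction on the order
of the points.

A point is off the zero component exactly when its abscissa is in the maximal ideal.  Two such
points whose doubles are on the zero component are middle points, and their sum and difference are
on the zero component.  Two points with abscissas of one valuation agree up to sign modulo the zero
component, with sign `+` if an inertial automorphism carries one to the other.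
-/

set_option autoImplicit false
set_option linter.all false

noncomputable section

namespace FLTAgent.R2

open WeierstrassCurve IsLocalRing FLTAgent.Local

variable {K : Type*} [Field K] {A : ValuationSubring K} [DecidableEq K] [CharZero K]
  [IsAlgClosed K] [DecidableEq (ResidueField A)] {W0 : WeierstrassCurve A}

theorem some_eq_or_neg {x₁ y₁ x₂ y₂ : K} {h₁ : (genFib W0).toAffine.Nonsingular x₁ y₁}
    {h₂ : (genFib W0).toAffine.Nonsingular x₂ y₂} (hx : x₁ = x₂) :
    Affine.Point.some _ _ h₁ = Affine.Point.some _ _ h₂ ∨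
      Affine.Point.some _ _ h₁ = -Affine.Point.some _ _ h₂ :=
  (Affine.Point.X_eq_iff (h₁ := h₁) (h₂ := h₂)).1 hx

/-- sum and difference of two middle points are on the zero component -/
theorem middle_add_sub (hW : Nodal W0) (hδ : A.valuation (W0.a₆ : K) ≠ 0)
    {P Q : (genFib W0).toAffine.Point} (hP : dist1 P < 1) (hQ : dist1 Q < 1)
    (hP2 : dist1 P ^ 2 ≤ A.valuation (W0.a₆ : K)) (hQ2 : dist1 Q ^ 2 ≤ A.valuation (W0.a₆ : K)) :
    InE0 (P + Q) ∧ InE0 (P - Q) := by
  have hPP := hW.double_middle hP hP2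
  obtain ⟨x₁, y₁, h₁, rfl, hd₁, hx₁⟩ := exists_of_dist1_lt hP
  obtain ⟨x₂, y₂, h₂, rfl, hd₂, hx₂⟩ := exists_of_dist1_lt hQ
  by_cases hx : (x₁ : K) = x₂
  · rcases some_eq_or_neg (h₁ := h₁) (h₂ := h₂) hx with e | e
    · rw [← e, sub_self]
      exact ⟨hPP, trivial⟩
    · rw [eq_neg_iff_add_eq_zero] at e
      rw [e, show Affine.Point.some _ _ h₁ - Affine.Point.some _ _ h₂ =
        Affine.Point.some _ _ h₁ + Affine.Point.some _ _ h₁ by
          rw [sub_eq_add_neg, neg_eq_of_add_eq_zero_left e]]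
      exact ⟨trivial, hPP⟩
  rw [hd₁] at hP2
  rw [hd₂] at hQ2
  obtain ⟨hsum, hprod⟩ := hW.vieta h₁.1 h₂.1 hx
  set xp := (genFib W0).toAffine.addX (x₁ : K) x₂ ((genFib W0).toAffine.slope (x₁ : K) x₂ y₁ y₂)
  set xm := (genFib W0).toAffine.addX (x₁ : K) x₂ ((genFib W0).toAffine.slope (x₁ : K) x₂ y₁
    ((genFib W0).toAffine.negY (x₂ : K) y₂))
  set δ := A.valuation (W0.a₆ : K) with hδdef
  set X := A.valuation (x₁ : K)
  set Y := A.valuation (x₂ : K)
  have hδ0 : 0 < δ := zero_lt_iff.2 hδ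
  have hXY : X * Y ≤ δ := by
    refine (pow_le_pow_iff_left₀ zero_le zero_le two_ne_zero).1 ?_
    rw [mul_pow, sq δ]
    exact mul_le_mul' hP2 hQ2
  have hXY2 : (X * Y) ^ 2 < δ := by
    calc (X * Y) ^ 2 ≤ δ ^ 2 := pow_le_pow_left₀ zero_le hXY 2
      _ < δ := by rw [sq]; exact mul_lt_of_lt_one_right hδ0 hW.a₆
  set d := A.valuation ((x₁ : K) - x₂) with hddef
  have hdne : 0 < d := zero_lt_iff.2 ((Valuation.ne_zero_iff _).2 (sub_ne_zero.2 hx))
  have hd2 : d ^ 2 ≤ δ := by
    rcases le_total Y X with h | h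
    · exact (pow_le_pow_left₀ zero_le ((A.valuation.map_sub _ _).trans (max_le le_rfl h)) 2).trans hP2
    · exact (pow_le_pow_left₀ zero_le ((A.valuation.map_sub _ _).trans (max_le h le_rfl)) 2).trans hQ2
  have hs : A.valuation (4 * ((x₁ : K) + x₂)) < 1 := by
    rw [map_mul]
    exact lt_of_le_of_lt (mul_le_of_le_one_left' Nodal.val_four_le)
      (Valuation.map_add_lt _ hx₁ hx₂)
  have ht : A.valuation (((x₁ : K) * x₂) ^ 2) = (X * Y) ^ 2 := by rw [map_pow, map_mul]
  have hP' : A.valuation xp * A.valuation xm * d ^ 2 = δ := by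
    rw [hddef, ← map_pow, ← map_mul, ← map_mul, hprod,
      (hW.val_num (t := ((x₁ : K) * x₂) ^ 2) hs).2 (by rw [ht]; exact hXY2.ne), ht,
      max_eq_right hXY2.le]
  have hS : A.valuation (xp + xm) * d ^ 2 ≤ δ := by
    rw [hddef, ← map_pow, ← map_mul, hsum]
    refine Valuation.map_add_le _ (Valuation.map_add_le _ ?_ ?_) ?_
    · rw [show 2 * (x₁ : K) * x₂ * (x₁ + x₂) = (2 * ((x₁ : K) + x₂)) * (x₁ * x₂) by ring,
        map_mul, map_mul A.valuation (x₁ : K)]
      refine (mul_le_of_le_one_left' ?_).trans hXY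
      rw [map_mul]
      exact (mul_le_of_le_one_left' Nodal.val_two_le).trans
        (Valuation.map_add_le _ hx₁.le hx₂.le)
    · rw [map_mul, map_mul, hW.b₂, one_mul]; exact hXY
    · rw [map_mul]; exact mul_le_of_le_one_left' Nodal.val_four_le
  have key : ∀ a b : K, A.valuation a * A.valuation b * d ^ 2 = δ →
      A.valuation (a + b) * d ^ 2 ≤ δ → ¬ A.valuation a < 1 := by
    intro a b h₁ h₂ ha
    have hb : A.valuation a < A.valuation b := by
      by_contra hle
      push Not at hle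
      have : A.valuation a * A.valuation b * d ^ 2 < d ^ 2 := by
        refine mul_lt_of_lt_one_left (pow_pos hdne 2) ?_
        exact lt_of_le_of_lt (mul_le_of_le_one_right' (hle.trans ha.le)) ha
      rw [h₁] at this
      exact absurd hd2 (not_le.2 this)
    rw [Valuation.map_add_eq_of_lt_right _ hb] at h₂
    have hb0 : 0 < A.valuation b := lt_of_le_of_lt zero_le hb
    have : A.valuation a * A.valuation b * d ^ 2 < A.valuation b * d ^ 2 :=
      mul_lt_mul_of_pos_right (mul_lt_of_lt_one_left hb0 ha) (pow_pos hdne 2)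
    rw [h₁] at this
    exact absurd h₂ (not_le.2 this)
  constructor
  · rw [Affine.Point.add_of_X_ne hx, hW.inE0_iff]
    simp only [dist1]
    rw [if_neg (key xp xm hP' hS)]
    exact lt_irrefl 1
  · rw [sub_eq_add_neg, Affine.Point.neg_some, Affine.Point.add_of_X_ne hx, hW.inE0_iff]
    simp only [dist1]
    rw [if_neg (key xm xp (by rw [mul_comm (A.valuation xm)]; exact hP') (by rwa [add_comm]))]
    exact lt_irrefl 1

/-- a point off the zero component whose double is on it is a middle point -/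
theorem middle_of_double (hW : Nodal W0) {P : (genFib W0).toAffine.Point} (P0 : ¬ InE0 P)
    (h2 : InE0 (P + P)) : dist1 P ^ 2 ≤ A.valuation (W0.a₆ : K) := by
  by_contra h
  push Not at h
  refine hW.inE0_iff.1 h2 ?_
  by_cases m : NonMid (P + P)
  · exact (hW.double_pair (hW.dist1_lt P0) (fun _ => h) m).1
  · by_contra hge
    exact m fun hlt => absurd hlt hge

theorem sub_inE0_of_double (hW : Nodal W0) (hδ : A.valuation (W0.a₆ : K) ≠ 0)
    {P Q : (genFib W0).toAffine.Point} (P0 : ¬ InE0 P) (Q0 : ¬ InE0 Q) (hP : InE0 (P + P))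
    (hQ : InE0 (Q + Q)) : InE0 (P - Q) :=
  (middle_add_sub hW hδ (hW.dist1_lt P0) (hW.dist1_lt Q0) (middle_of_double hW P0 hP)
    (middle_of_double hW Q0 hQ)).2

/-- points with abscissas of one valuation agree up to sign modulo the zero component -/
theorem add_or_sub_of_dist1 (hW : Nodal W0) (hδ : A.valuation (W0.a₆ : K) ≠ 0)
    {P Q : (genFib W0).toAffine.Point} (h : dist1 P = dist1 Q) : InE0 (P + Q) ∨ InE0 (P - Q) := by
  by_cases P0 : InE0 P
  · exact Or.inl ((compZero W0).add_mem P0 (hW.inE0_iff.2 (h ▸ hW.inE0_iff.1 P0)))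
  have hP := hW.dist1_lt P0
  have hQ : dist1 Q < 1 := h ▸ hP
  by_cases hm : dist1 P ^ 2 ≤ A.valuation (W0.a₆ : K)
  · exact Or.inl (middle_add_sub hW hδ hP hQ hm (h ▸ hm)).1
  push Not at hm
  obtain ⟨x₁, y₁, h₁, rfl, hd₁, hx₁⟩ := exists_of_dist1_lt hP
  obtain ⟨x₂, y₂, h₂, rfl, hd₂, hx₂⟩ := exists_of_dist1_lt hQ
  rw [hd₁] at hm
  rw [hd₁, hd₂] at h
  by_cases hx : (x₁ : K) = x₂
  · rcases some_eq_or_neg (h₁ := h₁) (h₂ := h₂) hx with e | e
    · right; rw [e, sub_self]; trivial
    · left; rw [e, neg_add_cancel]; trivial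
  obtain ⟨hsum, -⟩ := hW.vieta h₁.1 h₂.1 hx
  set xp := (genFib W0).toAffine.addX (x₁ : K) x₂ ((genFib W0).toAffine.slope (x₁ : K) x₂ y₁ y₂)
  set xm := (genFib W0).toAffine.addX (x₁ : K) x₂ ((genFib W0).toAffine.slope (x₁ : K) x₂ y₁
    ((genFib W0).toAffine.negY (x₂ : K) y₂))
  set X := A.valuation (x₁ : K)
  set d := A.valuation ((x₁ : K) - x₂) with hddef
  have hX0 : 0 < X := zero_lt_iff.2 fun e => by
    rw [e, zero_pow two_ne_zero] at hm; exact not_lt_zero hm
  have hdne : 0 < d := zero_lt_iff.2 ((Valuation.ne_zero_iff _).2 (sub_ne_zero.2 hx))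
  have hdX : d ≤ X := (A.valuation.map_sub _ _).trans (max_le le_rfl h.ge)
  have hS : A.valuation (xp + xm) * d ^ 2 = X ^ 2 := by
    rw [hddef, ← map_pow, ← map_mul, hsum]
    have e : A.valuation ((W0.b₂ : K) * x₁ * x₂) = X ^ 2 := by
      rw [map_mul, map_mul, hW.b₂, one_mul, ← h, sq]
    rw [show 2 * (x₁ : K) * x₂ * (x₁ + x₂) + (W0.b₂ : K) * x₁ * x₂ + 4 * W0.a₆ =
      (W0.b₂ : K) * x₁ * x₂ + (2 * x₁ * x₂ * (x₁ + x₂) + 4 * W0.a₆) by ring,
      Valuation.map_add_eq_of_lt_left, e]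
    rw [e]
    refine Valuation.map_add_lt _ ?_ ?_
    · rw [show 2 * (x₁ : K) * x₂ * (x₁ + x₂) = (2 * ((x₁ : K) + x₂)) * (x₁ * x₂) by ring,
        map_mul, map_mul A.valuation (x₁ : K), ← h, sq]
      refine mul_lt_of_lt_one_left (mul_pos hX0 hX0) ?_
      rw [map_mul]
      exact lt_of_le_of_lt (mul_le_of_le_one_left' Nodal.val_two_le)
        (Valuation.map_add_lt _ hx₁ hx₂)
    · rw [map_mul]; exact lt_of_le_of_lt (mul_le_of_le_one_left' Nodal.val_four_le) hm
  have h1 : ¬ A.valuation (xp + xm) < 1 := fun hlt => by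
    have h2 := mul_lt_of_lt_one_left (pow_pos hdne 2) hlt
    rw [hS] at h2
    exact absurd (pow_le_pow_left₀ zero_le hdX 2) (not_le.2 h2)
  rcases not_and_or.1 (fun hh : A.valuation xp < 1 ∧ A.valuation xm < 1 =>
    h1 (Valuation.map_add_lt _ hh.1 hh.2)) with hp | hp
  · left
    rw [Affine.Point.add_of_X_ne hx, hW.inE0_iff]
    simp only [dist1]
    rw [if_neg hp]
    exact lt_irrefl 1
  · right
    rw [sub_eq_add_neg, Affine.Point.neg_some, Affine.Point.add_of_X_ne hx, hW.inE0_iff]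
    simp only [dist1]
    rw [if_neg hp]
    exact lt_irrefl 1

theorem image_add_not_inE0_of_nonMid (hW : Nodal W0) {σ : K →+* K} (hσ : Inertial A σ)
    (hf : FixesCoeff W0 σ) {P P' : (genFib W0).toAffine.Point} (hI : IsImage σ P P')
    (P0 : ¬ InE0 P) (hδ : A.valuation (W0.a₆ : K) < dist1 P ^ 2) : ¬ InE0 (P + P') := by
  have P1 := hW.dist1_lt P0
  have hPP : ¬ InE0 (P + P) := fun h => absurd (middle_of_double hW P0 h) (not_le.2 hδ)
  obtain ⟨x, y, h, rfl, hd, hx⟩ := exists_of_dist1_lt P1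
  rw [hd] at hδ
  rcases P' with _ | ⟨x', y', h'⟩
  · exact hI.elim
  obtain ⟨rfl, rfl⟩ := hI
  obtain ⟨α, β, hsum, hprod, hdiff, hw, hu⟩ := hW.exists_branch h.1 hx hδ
  set X := A.valuation (x : K)
  have hX : X ≠ 0 := fun e => by rw [e, zero_pow two_ne_zero] at hδ; exact not_lt_zero hδ
  have hroot : ((σ β : K) - α) * (σ β - β) = 0 := by
    have e : (β : K) ^ 2 + W0.a₁ * β - W0.a₂ = 0 := by
      linear_combination (β : K) * hsum - hprod
    have e' := congrArg σ e
    simp only [map_add, map_sub, map_mul, map_pow, map_zero, hf.h₁, hf.h₂] at e'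
    linear_combination e' - (σ (β : K)) * hsum + hprod
  have hβ : σ (β : K) = β := by
    rcases mul_eq_zero.1 hroot with e | e
    · have := hσ.triv _ β.2
      rw [sub_eq_zero.1 e, hdiff] at this
      exact absurd this (lt_irrefl 1)
    · exact sub_eq_zero.1 e
  have hα : σ (α : K) = α := by
    have e := congrArg σ hsum
    simp only [map_add, map_neg, hf.h₁, hβ] at e
    linear_combination e - hsum
  have hw' : A.valuation (σ y - β * σ x) < X := by
    rw [← hβ, ← map_mul, ← map_sub, hσ.val]; exact hw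
  have hu' : A.valuation (σ y - α * σ x) = X := by
    rw [← hα, ← map_mul, ← map_sub, hσ.val]; exact hu
  by_cases hxx : (x : K) = σ x
  · rcases Affine.Y_eq_of_X_eq h.1 h'.1 hxx with e | e
    · rw [show Affine.Point.some _ _ h' = Affine.Point.some _ _ h by simp [← hxx, ← e]]
      exact hPP
    · exfalso
      simp only [Affine.negY, WeierstrassCurve.toAffine, genFib_a₁, genFib_a₃, hW.a₃] at e
      push_cast at e
      have : (y : K) - β * x = -(σ y - α * σ x) := by
        linear_combination e - (β : K) * hxx - σ (x : K) * hsum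
      rw [this, Valuation.map_neg, hu'] at hw
      exact lt_irrefl _ hw
  rw [Affine.Point.add_of_X_ne hxx, hW.inE0_iff, not_not]
  set ℓ := (genFib W0).toAffine.slope (x : K) (σ x) y (σ y) with hℓ
  have hℓ' : ℓ * ((x : K) - σ x) = y - σ y := slope_mul_sub hxx
  have e1 : ((y : K) - α * x) * (y - β * x) = x ^ 3 + W0.a₆ := by
    linear_combination hW.equation h.1 - ((y : K) * x) * hsum + (x : K) ^ 2 * hprod
  have e2 : (σ y - α * σ x) * (σ y - β * σ x) = σ (x : K) ^ 3 + W0.a₆ := by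
    linear_combination hW.equation h'.1 - (σ (y : K) * σ x) * hsum + σ (x : K) ^ 2 * hprod
  have key : (ℓ - β) * ((y - β * x) + (σ y - α * σ x)) =
      (x : K) ^ 2 + x * σ x + σ x ^ 2 - (β - α) * (y - β * x) := by
    apply mul_right_cancel₀ (sub_ne_zero.2 hxx)
    linear_combination e1 - e2 + (((y : K) - β * x) + (σ y - α * σ x)) * hℓ'
  have hσX : A.valuation (σ (x : K)) = X := hσ.val _
  have hr : A.valuation ((x : K) ^ 2 + x * σ x + σ x ^ 2 - (β - α) * (y - β * x)) < X := by
    have hXX : X * X < X := mul_lt_of_lt_one_right (zero_lt_iff.2 hX) hx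
    refine Valuation.map_sub_lt _ (Valuation.map_add_lt _ (Valuation.map_add_lt _ ?_ ?_) ?_) ?_
    · rw [map_pow, sq]; exact hXX
    · rw [map_mul, hσX]; exact hXX
    · rw [map_pow, sq, hσX]; exact hXX
    · rw [map_mul, Valuation.map_sub_swap, hdiff, one_mul]; exact hw
  rw [← key, map_mul, Valuation.map_add_eq_of_lt_right _ (by rwa [hu']), hu'] at hr
  have hℓβ : A.valuation (ℓ - β) < 1 := (mul_lt_iff_lt_one_left (zero_lt_iff.2 hX)).1 hr
  have hℓα : A.valuation (ℓ - α) ≤ 1 := by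
    rw [show ℓ - (α : K) = (ℓ - β) + (β - α) by ring]
    refine Valuation.map_add_le _ hℓβ.le ?_
    rw [Valuation.map_sub_swap, hdiff]
  have hx3 : A.valuation ((genFib W0).toAffine.addX (x : K) (σ x) ℓ) < 1 := by
    rw [show (genFib W0).toAffine.addX (x : K) (σ x) ℓ = (ℓ - α) * (ℓ - β) - x - σ x by
      simp only [Affine.addX, WeierstrassCurve.toAffine, genFib_a₁, genFib_a₂]
      linear_combination ℓ * hsum - hprod]
    refine Valuation.map_sub_lt _ (Valuation.map_sub_lt _ ?_ hx) (by rwa [hσX])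
    rw [map_mul]
    exact lt_of_le_of_lt (mul_le_of_le_one_left' hℓα) hℓβ
  simp only [dist1]
  rw [← hℓ, if_pos hx3]
  exact hx3

/-- an inertial automorphism moves every point inside the zero component -/
theorem image_sub_inE0_all (hW : Nodal W0) (hδ : A.valuation (W0.a₆ : K) ≠ 0) {σ : K →+* K}
    (hσ : Inertial A σ) (hf : FixesCoeff W0 σ) {P P' : (genFib W0).toAffine.Point}
    (hI : IsImage σ P P') : InE0 (P' - P) := by
  by_cases P0 : InE0 P
  · exact (inertial_sub_inE1 hσ hI P0).inE0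
  have hd : dist1 P' = dist1 P := S58.dist1_image hσ.val hI
  rw [← neg_sub]
  refine inE0_neg ?_
  by_cases hm : dist1 P ^ 2 ≤ A.valuation (W0.a₆ : K)
  · exact (middle_add_sub hW hδ (hW.dist1_lt P0) (hd ▸ hW.dist1_lt P0) hm (hd.symm ▸ hm)).2
  push Not at hm
  exact (add_or_sub_of_dist1 hW hδ hd.symm).resolve_left
    (image_add_not_inE0_of_nonMid hW hσ hf hI P0 hm)

/-- some point of order two is off the zero component -/
theorem exists_two_not_inE0 (hW : Nodal W0) (hδ : A.valuation (W0.a₆ : K) ≠ 0) :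
    ∃ P : (genFib W0).toAffine.Point, P + P = 0 ∧ ¬ InE0 P := by
  have hΔ : (genFib W0).Δ ≠ 0 := fun e => hδ (by rw [← S58.val_Δ hW, e, map_zero])
  have hdeg : (Cubic.mk (4 : K) (W0.b₂ : K) 0 (4 * W0.a₆)).toPoly.degree ≠ 0 := by
    rw [Cubic.degree_of_a_ne_zero (by norm_num : (4 : K) ≠ 0)]; decide
  obtain ⟨x₁, hx₁⟩ := IsAlgClosed.exists_root _ hdeg
  simp [Cubic.toPoly] at hx₁
  set c := (W0.b₂ : K) + 4 * x₁ with hc
  obtain ⟨s, hs⟩ := exists_sqrt (c ^ 2 - 16 * (c * x₁))
  set x₂ := (-c + s) / 8 with hx₂def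
  set x₃ := (-c - s) / 8 with hx₃def
  have h23 : x₂ * x₃ = c * x₁ / 4 := by
    rw [hx₂def, hx₃def]; linear_combination (-1 / 64 : K) * hs
  have hf : ∀ x ∈ ({x₁, x₂, x₃} : Set K),
      4 * x ^ 3 + (W0.b₂ : K) * x ^ 2 + 4 * W0.a₆ = 0 := by
    intro x hx
    have hq : x = x₁ ∨ 4 * x ^ 2 + c * x + c * x₁ = 0 := by
      rcases hx with rfl | rfl | rfl
      · exact Or.inl rfl
      · right; rw [hx₂def]; linear_combination (1 / 16 : K) * hs
      · right; rw [hx₃def]; linear_combination (1 / 16 : K) * hs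
    rcases hq with rfl | hq
    · linear_combination hx₁
    · linear_combination (x - x₁) * hq + hx₁
  obtain ⟨x, hx, hxv⟩ : ∃ x ∈ ({x₁, x₂, x₃} : Set K), A.valuation x < 1 := by
    by_contra hno
    push Not at hno
    have e : A.valuation (x₁ * (x₂ * x₃)) = A.valuation (W0.a₆ : K) := by
      rw [h23, show x₁ * (c * x₁ / 4) = -(W0.a₆ : K) by
        rw [hc]; linear_combination (1 / 4 : K) * hx₁, Valuation.map_neg]
    have h1 : (1 : A.ValueGroup) ≤ A.valuation (W0.a₆ : K) := by
      rw [← e, map_mul, map_mul]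
      exact one_le_mul (hno x₁ (by simp)) (one_le_mul (hno x₂ (by simp)) (hno x₃ (by simp)))
    exact absurd hW.a₆ (not_lt.2 h1)
  have hf' := hf x hx
  set y := -(W0.a₁ : K) * x / 2 with hy
  have heq : (genFib W0).toAffine.Equation x y := by
    rw [Affine.equation_iff, genFib_a₁, genFib_a₂, genFib_a₃, genFib_a₄, genFib_a₆, hW.a₃, hW.a₄]
    rw [Nodal.coe_b₂] at hf'
    push_cast
    rw [hy]
    linear_combination (-1 / 4 : K) * hf'
  have hns := (Affine.equation_iff_nonsingular_of_Δ_ne_zero hΔ).1 heq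
  refine ⟨.some x y hns, ?_, ?_⟩
  · rw [Affine.Point.add_self_of_Y_eq]
    simp only [Affine.negY, WeierstrassCurve.toAffine, genFib_a₁, genFib_a₃, hW.a₃]
    push_cast
    rw [hy]; ring
  · rw [hW.inE0_iff, not_not]
    simp [dist1, hxv]

end FLTAgent.R2

end
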