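import Mathlib.RingTheory.Nakayama
import Mathlib.RingTheory.Ideal.Maps
import Mathlib.RingTheory.Finiteness.Ideal
import Mathlib.RingTheory.Jacobson.Ideal
import Mathlib.Data.ZMod.Basic
import Mathlib.Algebra.BigOperators.Fin
import Mathlib.RingTheory.Finiteness.Ideal

/-!
Area R2, parcel H: in the fibre at the point the ideal `C` of the frame coordinates is nilpotent, so
killing modulo `C` costs only a bounded factor.
-/

set_option autoImplicit false

open Ideal Submodule

namespace FLTAgent.R2

variable {R : Type*} [CommRing R]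

/-- if the squares of `k` generators of `C` lie in `m C²`, then `C ^ (k + 1) = 0` -/
theorem pow_succ_eq_bot_of_sq_mem {ι : Type*} [Fintype ι] (c : ι → R) {m : Ideal R}
    (hm : m ≤ Ideal.jacobson ⊥)
    (hsq : ∀ i, c i ^ 2 ∈ m * Ideal.span (Set.range c) ^ 2) :
    Ideal.span (Set.range c) ^ (Fintype.card ι + 1) = ⊥ := by
  set C := Ideal.span (Set.range c) with hC
  refine Submodule.eq_bot_of_le_smul_of_le_jacobson_bot m _
    (Ideal.FG.pow (Submodule.fg_span (Set.finite_range c))) ?_ hm
  rw [smul_eq_mul]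
  intro x hx
  rw [hC, Ideal.span, Submodule.span_pow] at hx
  refine (Submodule.span_le.2 ?_) hx
  intro y hy
  rw [Set.mem_pow] at hy
  obtain ⟨f, rfl⟩ := hy
  rw [List.prod_ofFn]
  choose g hg using fun j => (f j).2
  obtain ⟨a, b, hab, hgab⟩ := Fintype.exists_ne_map_eq_of_card_lt g (by simp)
  rw [SetLike.mem_coe, ← Finset.mul_prod_erase Finset.univ (fun j => ((f j : Set.range c) : R))
    (Finset.mem_univ a), ← Finset.mul_prod_erase (Finset.univ.erase a)
    (fun j => ((f j : Set.range c) : R)) (Finset.mem_erase.2 ⟨hab.symm, Finset.mem_univ b⟩)]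
  have hk : Fintype.card ι ≥ 1 := Fintype.card_pos_iff.2 ⟨g a⟩
  obtain ⟨r, hr⟩ : ∃ r, Fintype.card ι = r + 1 := ⟨Fintype.card ι - 1, by omega⟩
  have hp : (∏ j ∈ (Finset.univ.erase a).erase b, ((f j : Set.range c) : R)) ∈ C ^ r := by
    have hcard : ((Finset.univ.erase a).erase b).card = r := by
      rw [Finset.card_erase_of_mem (Finset.mem_erase.2 ⟨hab.symm, Finset.mem_univ b⟩),
        Finset.card_erase_of_mem (Finset.mem_univ a), Finset.card_univ, Fintype.card_fin]
      omega
    have h := Ideal.prod_mem_prod (s := (Finset.univ.erase a).erase b) (I := fun _ => C)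
      (x := fun j => ((f j : Set.range c) : R)) fun j _ => Ideal.subset_span (f j).2
    rwa [Finset.prod_const, hcard] at h
  have h2 : ((f a : Set.range c) : R) * ((f b : Set.range c) : R) ∈ m * C ^ 2 := by
    rw [← hg a, ← hg b, ← hgab, ← pow_two]
    exact hsq (g a)
  rw [← mul_assoc, show C ^ (Fintype.card ι + 1) = C ^ 2 * C ^ r by
    rw [← pow_add]; congr 1; omega, ← mul_assoc]
  exact Ideal.mul_mem_mul h2 hp

/-- what is killed modulo `C` is killed by the `(k + 1)`-st power -/
theorem pow_smul_eq_zero_of_mem_smul {M : Type*} [AddCommGroup M] [Module R M] {C : Ideal R}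
    {k : ℕ} (hC : C ^ k = ⊥) {e : R} (he : ∀ x : M, e • x ∈ C • (⊤ : Submodule R M)) (x : M) :
    e ^ k • x = 0 := by
  have key : ∀ j : ℕ, ∀ y : M, e ^ j • y ∈ (C ^ j) • (⊤ : Submodule R M) := by
    intro j
    induction j with
    | zero => intro y; simp
    | succ j ih =>
      intro y
      have h : (C ^ j) • (⊤ : Submodule R M) ≤
          ((C ^ (j + 1)) • (⊤ : Submodule R M)).comap (LinearMap.lsmul R M e) := by
        refine Submodule.smul_le.2 fun r hr z _ => ?_
        rw [Submodule.mem_comap, LinearMap.lsmul_apply, smul_comm, pow_succ, Submodule.mul_smul]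
        exact Submodule.smul_mem_smul hr (he z)
      rw [pow_succ' e, mul_smul]
      exact h (ih y)
  simpa [hC] using key k x

/-- in a free module over `ℤ/2^N` the exponent modulo a nilpotent ideal is large -/
theorem le_mul_of_two_pow_mem_smul {M : Type*} [AddCommGroup M] [Module R M] {C : Ideal R}
    {k N a : ℕ} (hC : C ^ k = ⊥) (hfree : ∃ x : M, ∀ t : ℕ, t • x = 0 → 2 ^ N ∣ t)
    (he : ∀ x : M, (2 ^ a : ℕ) • x ∈ C • (⊤ : Submodule R M)) : N ≤ a * k := by
  obtain ⟨x, hx⟩ := hfree
  have h := pow_smul_eq_zero_of_mem_smul hC (e := ((2 ^ a : ℕ) : R))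
    (fun y => by rw [Nat.cast_smul_eq_nsmul]; exact he y) x
  rw [← Nat.cast_pow, Nat.cast_smul_eq_nsmul, ← pow_mul] at h
  exact (Nat.pow_dvd_pow_iff_le_right one_lt_two).1 (hx _ h)

end FLTAgent.R2
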