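import Mathlib

/-!
Area R2, parcel PATCH: `ℤ/2^(N+1)` is self-injective, so an element outside a submodule is detected
by a functional killing that submodule.
-/

set_option autoImplicit false
set_option linter.style.haveILetI false

noncomputable section

namespace FLTAgent.R2

theorem exists_two_pow_span (N : ℕ) (I : Ideal (ZMod (2 ^ (N + 1)))) :
    ∃ i ≤ N + 1, I = Ideal.span {(2 : ZMod (2 ^ (N + 1))) ^ i} := by
  set f := Int.castRingHom (ZMod (2 ^ (N + 1))) with hf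
  have hfs : Function.Surjective f := ZMod.intCast_surjective
  obtain ⟨m, hm⟩ := (IsPrincipalIdealRing.principal (I.comap f)).principal
  have hdvd : m ∣ ((2 ^ (N + 1) : ℕ) : ℤ) := by
    rw [← Ideal.mem_span_singleton, ← Ideal.submodule_span_eq, ← hm, Ideal.mem_comap, map_natCast,
      ZMod.natCast_self]
    exact I.zero_mem
  obtain ⟨i, hi, hmi⟩ := (Nat.dvd_prime_pow Nat.prime_two).1
    (Int.natCast_dvd_natCast.1 (Int.natAbs_dvd.2 hdvd))
  refine ⟨i, hi, ?_⟩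
  rw [← Ideal.map_comap_of_surjective f hfs I, hm, Ideal.submodule_span_eq, ← Int.span_natAbs,
    hmi, Ideal.map_span, Set.image_singleton]
  congr
  simp

theorem two_pow_natCast_zmod_eq_zero {N j : ℕ} (h : N + 1 ≤ j) :
    (2 : ZMod (2 ^ (N + 1))) ^ j = 0 := by
  obtain ⟨u, rfl⟩ := Nat.exists_eq_add_of_le h
  refine pow_eq_zero_of_le (le_add_right le_rfl) ?_
  exact_mod_cast ZMod.natCast_self (2 ^ (N + 1))

theorem two_pow_dvd_of_mul_eq_zero {N i : ℕ} (hi : i ≤ N + 1) {z : ZMod (2 ^ (N + 1))}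
    (h : (2 : ZMod (2 ^ (N + 1))) ^ (N + 1 - i) * z = 0) : ∃ b, z = 2 ^ i * b := by
  have h1 : 2 ^ (N + 1) ∣ 2 ^ (N + 1 - i) * z.val := by
    rw [← ZMod.natCast_eq_zero_iff]
    push_cast
    rw [ZMod.natCast_zmod_val]
    exact h
  have h2 : 2 ^ (N + 1 - i) * 2 ^ i ∣ 2 ^ (N + 1 - i) * z.val := by
    rwa [← pow_add, show N + 1 - i + i = N + 1 by omega]
  obtain ⟨b, hb⟩ := Nat.dvd_of_mul_dvd_mul_left (by positivity) h2
  exact ⟨b, by rw [← ZMod.natCast_zmod_val z, hb]; push_cast; rfl⟩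

theorem baer_zmod_two_pow (N : ℕ) : Module.Baer (ZMod (2 ^ (N + 1))) (ZMod (2 ^ (N + 1))) := by
  intro I g
  obtain ⟨i, hi, rfl⟩ := exists_two_pow_span N I
  have ha : (2 : ZMod (2 ^ (N + 1))) ^ i ∈ Ideal.span {(2 : ZMod (2 ^ (N + 1))) ^ i} :=
    Ideal.mem_span_singleton_self _
  obtain ⟨b, hb⟩ := two_pow_dvd_of_mul_eq_zero hi (z := g ⟨_, ha⟩) (by
    rw [← smul_eq_mul, ← map_smul]
    convert map_zero g
    refine Subtype.ext ?_
    change (2 : ZMod (2 ^ (N + 1))) ^ (N + 1 - i) * 2 ^ i = 0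
    rw [← pow_add]
    exact two_pow_natCast_zmod_eq_zero (by omega))
  refine ⟨LinearMap.toSpanSingleton _ _ b, fun x hx => ?_⟩
  obtain ⟨u, rfl⟩ := Ideal.mem_span_singleton'.1 hx
  rw [show (⟨u * 2 ^ i, hx⟩ : Ideal.span {(2 : ZMod (2 ^ (N + 1))) ^ i}) = u • ⟨_, ha⟩ from rfl,
    map_smul, hb,
    LinearMap.toSpanSingleton_apply, smul_eq_mul, smul_eq_mul]
  ring

/-- a nonzero element is detected by a functional -/
theorem exists_functional_ne_zero {N : ℕ} {Q : Type} [AddCommGroup Q] [Module (ZMod (2 ^ (N + 1))) Q]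
    {x : Q} (hx : x ≠ 0) : ∃ ψ : Q →ₗ[ZMod (2 ^ (N + 1))] ZMod (2 ^ (N + 1)), ψ x ≠ 0 := by
  set Λ := ZMod (2 ^ (N + 1))
  set s : Λ →ₗ[Λ] Q := LinearMap.toSpanSingleton Λ Q x with hs
  obtain ⟨i, hi, hK⟩ := exists_two_pow_span N (LinearMap.ker s)
  have hi0 : i ≠ 0 := by
    rintro rfl
    have : (1 : Λ) ∈ LinearMap.ker s := by rw [hK]; simp
    rw [LinearMap.mem_ker, hs, LinearMap.toSpanSingleton_apply, one_smul] at this
    exact hx this
  set c : Λ := 2 ^ (N + 1 - i) with hc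
  have hle : LinearMap.ker s ≤ LinearMap.ker (LinearMap.toSpanSingleton Λ Λ c) := by
    rw [hK, Ideal.span_singleton_le_iff_mem, LinearMap.mem_ker, LinearMap.toSpanSingleton_apply,
      smul_eq_mul, hc, ← pow_add]
    exact two_pow_natCast_zmod_eq_zero (by omega)
  let f : LinearMap.range s →ₗ[Λ] Λ :=
    ((LinearMap.ker s).liftQ _ hle) ∘ₗ s.quotKerEquivRange.symm.toLinearMap
  obtain ⟨ψ, hψ⟩ := (baer_zmod_two_pow N).extension_property (LinearMap.range s).subtype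
    Subtype.val_injective f
  refine ⟨ψ, ?_⟩
  have h1 : s 1 = x := by simp [hs]
  rw [← h1]
  have h2 := congrFun (congrArg DFunLike.coe hψ) ⟨s 1, LinearMap.mem_range_self s 1⟩
  simp only [LinearMap.comp_apply, Submodule.subtype_apply] at h2
  rw [h2]
  have h3 : f ⟨s 1, LinearMap.mem_range_self s 1⟩ = c := by
    simp only [f, LinearMap.comp_apply, LinearEquiv.coe_coe]
    rw [LinearMap.quotKerEquivRange_symm_apply_image, Submodule.mkQ_apply, Submodule.liftQ_apply,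
      LinearMap.toSpanSingleton_apply, one_smul]
  rw [h3, hc, show (2 : Λ) ^ (N + 1 - i) = ((2 ^ (N + 1 - i) : ℕ) : Λ) by push_cast; rfl]
  intro h
  rw [ZMod.natCast_eq_zero_iff, Nat.pow_dvd_pow_iff_le_right one_lt_two] at h
  omega

/-- an element outside a submodule is detected by a functional killing the submodule -/
theorem exists_functional_killing {N : ℕ} {M : Type} [AddCommGroup M]
    [Module (ZMod (2 ^ (N + 1))) M] (S : Submodule (ZMod (2 ^ (N + 1))) M) {x : M} (hx : x ∉ S) :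
    ∃ ψ : M →ₗ[ZMod (2 ^ (N + 1))] ZMod (2 ^ (N + 1)), (∀ z ∈ S, ψ z = 0) ∧ ψ x ≠ 0 := by
  obtain ⟨ψ, hψ⟩ := exists_functional_ne_zero (N := N) (x := S.mkQ x) (by
    rwa [Ne, Submodule.mkQ_apply, Submodule.Quotient.mk_eq_zero])
  exact ⟨ψ ∘ₗ S.mkQ, fun z hz => by
    rw [LinearMap.comp_apply, Submodule.mkQ_apply, (Submodule.Quotient.mk_eq_zero S).2 hz, map_zero],
    hψ⟩

end FLTAgent.R2

end
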