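import Fermat.Agent.Alg.PowerSeriesRegular

/-!
Area R2, parcel H: over an Artinian coefficient ring, a module free over one power series ring through
a homomorphism to another is free over the second.
-/

set_option autoImplicit false
set_option linter.style.haveILetI false
set_option linter.unusedSectionVars false

noncomputable section

namespace FLTAgent.R2

open IsLocalRing RingTheory.Sequence FLTAgent.Alg

/-- the list `X_0, …, X_{r-1}` -/
def varsX (O : Type) [CommRing O] : (r : ℕ) → List (MvPowerSeries (Fin r) O)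
  | 0 => []
  | r + 1 => MvPowerSeries.X 0 :: (varsX O r).map (addFirst O r)

theorem length_varsX (O : Type) [CommRing O] : ∀ r, (varsX O r).length = r
  | 0 => rfl
  | r + 1 => by simp [varsX, length_varsX O r]

theorem addFirst_X {O : Type} [CommRing O] (r : ℕ) (i : Fin r) :
    addFirst O r (MvPowerSeries.X i) = MvPowerSeries.X i.succ := by
  apply (MvPowerSeries.finSuccEquiv O r).injective
  simp [addFirst, MvPowerSeries.finSuccEquiv_X_succ]

theorem exists_eq_X {O : Type} [CommRing O] :
    ∀ r, ∀ f ∈ varsX O r, ∃ i, f = MvPowerSeries.X i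
  | 0, f, hf => by simp [varsX] at hf
  | r + 1, f, hf => by
    simp only [varsX, List.mem_cons, List.mem_map] at hf
    rcases hf with rfl | ⟨g, hg, rfl⟩
    · exact ⟨0, rfl⟩
    · obtain ⟨i, rfl⟩ := exists_eq_X r g hg
      exact ⟨i.succ, addFirst_X r i⟩

theorem isWeaklyRegular_varsX (k : Type) [Field k] :
    ∀ r, IsWeaklyRegular (MvPowerSeries (Fin r) k) (varsX k r)
  | 0 => IsWeaklyRegular.nil _ _
  | r + 1 => by
    rw [varsX, isWeaklyRegular_cons_iff]
    refine ⟨?_, ?_⟩
    · intro a b hab
      have hX : (MvPowerSeries.finSuccEquiv k r (MvPowerSeries.X 0)) ≠ 0 := by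
        rw [MvPowerSeries.finSuccEquiv_X_zero]; exact PowerSeries.X_ne_zero
      apply (MvPowerSeries.finSuccEquiv k r).injective
      refine mul_left_cancel₀ hX ?_
      rw [← map_mul, ← map_mul]
      exact congrArg _ hab
    · let e : QuotSMulTop (MvPowerSeries.X 0 : MvPowerSeries (Fin (r + 1)) k)
          (MvPowerSeries (Fin (r + 1)) k) ≃+ MvPowerSeries (Fin r) k :=
        (QuotientAddGroup.quotientAddEquivOfEq (by
          rw [← Submodule.ideal_span_singleton_smul, smul_eq_mul, Ideal.mul_top, ← ker_killFirst]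
          ext f
          exact Iff.rfl)).trans
        (QuotientAddGroup.quotientKerEquivOfSurjective (killFirst k r).toAddMonoidHom
          (killFirst_surjective r))
      refine (e.isWeaklyRegular_congr ?_).2 (isWeaklyRegular_varsX k r)
      rw [List.forall₂_map_left_iff, List.forall₂_same]
      intro a _ q
      obtain ⟨f, rfl⟩ := Submodule.Quotient.mk_surjective _ q
      change killFirst k r (addFirst k r a * f) = a * killFirst k r f
      rw [map_mul, killFirst_addFirst]

theorem ofList_varsX (k : Type) [Field k] :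
    ∀ r, Ideal.ofList (varsX k r) = maximalIdeal (MvPowerSeries (Fin r) k)
  | 0 => by
    rw [varsX, Ideal.ofList_nil, eq_comm, ← le_bot_iff]
    intro f hf
    rw [IsLocalRing.mem_maximalIdeal, mem_nonunits_iff, MvPowerSeries.isUnit_iff_constantCoeff,
      isUnit_iff_ne_zero, not_not] at hf
    rw [Ideal.mem_bot]
    ext n
    rw [Subsingleton.elim n 0, MvPowerSeries.coeff_zero_eq_constantCoeff_apply, hf, map_zero]
  | r + 1 => by
    apply le_antisymm
    · refine Ideal.span_le.2 fun f hf => ?_
      obtain ⟨i, rfl⟩ := exists_eq_X (r + 1) f hf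
      simp [IsLocalRing.mem_maximalIdeal, mem_nonunits_iff, MvPowerSeries.isUnit_iff_constantCoeff]
    · intro f hf
      obtain ⟨g, hg⟩ := decomp_first r f
      rw [hg, varsX, Ideal.ofList_cons, ← Ideal.map_ofList]
      refine add_mem (Ideal.mem_sup_right (Ideal.mem_map_of_mem _ ?_))
        (Ideal.mem_sup_left (Ideal.mem_span_singleton.2 (dvd_mul_right _ _)))
      rw [ofList_varsX k r, IsLocalRing.mem_maximalIdeal, mem_nonunits_iff,
        MvPowerSeries.isUnit_iff_constantCoeff, constantCoeff_killFirst]
      rwa [IsLocalRing.mem_maximalIdeal, mem_nonunits_iff,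
        MvPowerSeries.isUnit_iff_constantCoeff] at hf

/-- the field case, stated with any list of images of the variables -/
theorem free_of_free_field {k : Type} [Field k] {r : ℕ} {N : Type} [AddCommGroup N]
    [Module (MvPowerSeries (Fin r) k) N]
    (ψ : MvPowerSeries (Fin r) k →+* MvPowerSeries (Fin r) k)
    (hloc : ∀ i, ψ (MvPowerSeries.X i) ∈ maximalIdeal (MvPowerSeries (Fin r) k))
    {d : ℕ} (b : Fin d → N)
    (hspan : ∀ x : N, ∃ c : Fin d → MvPowerSeries (Fin r) k, x = ∑ i, ψ (c i) • b i)
    (hind : ∀ c : Fin d → MvPowerSeries (Fin r) k, ∑ i, ψ (c i) • b i = 0 → ∀ i, c i = 0) :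
    Module.Free (MvPowerSeries (Fin r) k) N := by
  set P := MvPowerSeries (Fin r) k
  haveI : Module.Finite P N := by
    refine Module.Finite.of_surjective (Fintype.linearCombination P b) fun x => ?_
    obtain ⟨c, hc⟩ := hspan x
    exact ⟨fun i => ψ (c i), by simp [Fintype.linearCombination_apply, hc]⟩
  let e : (Fin d → P) →+ N :=
    { toFun := fun c => ∑ i, ψ (c i) • b i
      map_zero' := by simp
      map_add' := fun c c' => by simp [add_smul, Finset.sum_add_distrib] }
  have he : Function.Bijective e :=
    ⟨(injective_iff_map_eq_zero e).2 fun c hc => funext (hind c hc),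
      fun x => (hspan x).imp fun c hc => hc.symm⟩
  have hP : IsWeaklyRegular (Fin d → P) (varsX k r) := by
    have h := (isWeaklyRegular_varsX k r).isWeaklyRegular_lTensor (M₂ := Fin d → P)
    exact ((TensorProduct.rid P (Fin d → P)).isWeaklyRegular_congr _).1 h
  have hN : IsWeaklyRegular N ((varsX k r).map ψ) := by
    refine ((AddEquiv.ofBijective e he).isWeaklyRegular_congr ?_).1 hP
    rw [List.forall₂_map_right_iff, List.forall₂_same]
    intro a _ c
    change ∑ i, ψ (a * c i) • b i = ψ a • ∑ i, ψ (c i) • b i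
    simp [Finset.smul_sum, mul_smul]
  refine free_of_hasReg r P (varsX k r) (length_varsX k r) (isWeaklyRegular_varsX k r)
    (ofList_varsX k r) N ⟨(varsX k r).map ψ, by simp [length_varsX], ?_, hN⟩
  intro f hf
  obtain ⟨a, ha, rfl⟩ := List.mem_map.1 hf
  obtain ⟨i, rfl⟩ := exists_eq_X r a ha
  exact hloc i

section Artin

variable {Λ : Type} [CommRing Λ] [IsLocalRing Λ] {π : Λ}

/-- series with coefficients in the maximal ideal are multiples of `π` -/
theorem exists_eq_C_mul (hπ : maximalIdeal Λ = Ideal.span {π}) {σ : Type} {f : MvPowerSeries σ Λ}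
    (hf : MvPowerSeries.map (residue Λ) f = 0) : ∃ g, f = MvPowerSeries.C π * g := by
  have h : ∀ n, ∃ t, MvPowerSeries.coeff n f = π * t := fun n => by
    have h1 : residue Λ (MvPowerSeries.coeff n f) = 0 := by
      have := congrArg (MvPowerSeries.coeff n) hf
      simpa using this
    rw [residue_eq_zero_iff, hπ, Ideal.mem_span_singleton'] at h1
    obtain ⟨t, ht⟩ := h1
    exact ⟨t, by rw [← ht, mul_comm]⟩
  choose t ht using h
  let t' : MvPowerSeries σ Λ := fun n => t n
  refine ⟨t', MvPowerSeries.ext fun n => ?_⟩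
  rw [ht n, MvPowerSeries.coeff_C_mul]
  rfl

theorem map_residue_surjective (σ : Type) :
    Function.Surjective (MvPowerSeries.map (residue Λ) (σ := σ)) := fun f => by
  choose t ht using fun n => residue_surjective (R := Λ) (MvPowerSeries.coeff n f)
  let t' : MvPowerSeries σ Λ := fun n => t n
  refine ⟨t', MvPowerSeries.ext fun n => ?_⟩
  rw [MvPowerSeries.coeff_map]
  exact ht n

/-- freeness over the second power series ring -/
theorem free_of_free_artin (hπ : maximalIdeal Λ = Ideal.span {π}) (hnil : IsNilpotent π) {r : ℕ}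
    {N : Type} [AddCommGroup N] [Module (MvPowerSeries (Fin r) Λ) N]
    (φ : MvPowerSeries (Fin r) Λ →ₐ[Λ] MvPowerSeries (Fin r) Λ)
    (hloc : ∀ i, φ (MvPowerSeries.X i) ∈ maximalIdeal (MvPowerSeries (Fin r) Λ))
    {d : ℕ} (b : Fin d → N)
    (hspan : ∀ x : N, ∃ c : Fin d → MvPowerSeries (Fin r) Λ, x = ∑ i, φ (c i) • b i)
    (hind : ∀ c : Fin d → MvPowerSeries (Fin r) Λ, ∑ i, φ (c i) • b i = 0 → ∀ i, c i = 0) :
    Module.Free (MvPowerSeries (Fin r) Λ) N := by
  classical
  set P := MvPowerSeries (Fin r) Λ
  set k := ResidueField Λ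
  set Pk := MvPowerSeries (Fin r) k
  set g : P →+* Pk := MvPowerSeries.map (residue Λ) with hg
  have hgs : Function.Surjective g := map_residue_surjective _
  have hgC : g (MvPowerSeries.C π) = 0 := by
    rw [hg, MvPowerSeries.map_C, (residue_eq_zero_iff π).2 (hπ ▸ Ideal.mem_span_singleton_self π),
      map_zero]
  have hφC : φ (MvPowerSeries.C π) = MvPowerSeries.C π := φ.commutes π
  set πN : Submodule P N := LinearMap.range (LinearMap.lsmul P N (MvPowerSeries.C π)) with hπN
  set Nb := N ⧸ πN
  have hkill : ∀ (f : P), g f = 0 → ∀ y : Nb, f • y = 0 := by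
    intro f hf y
    obtain ⟨x, rfl⟩ := Submodule.Quotient.mk_surjective _ y
    obtain ⟨t, rfl⟩ := exists_eq_C_mul hπ hf
    rw [← Submodule.Quotient.mk_smul, Submodule.Quotient.mk_eq_zero]
    exact ⟨t • x, by rw [LinearMap.lsmul_apply, smul_smul]⟩
  have hcongr : ∀ f f' : P, g f = g f' → ∀ y : Nb, f • y = f' • y := fun f f' h y => by
    rw [← sub_eq_zero, ← sub_smul]
    exact hkill _ (by rw [map_sub, h, sub_self]) y
  choose s hs using hgs
  letI : Module Pk Nb :=
    { smul := fun a y => s a • y
      one_smul := fun y => (hcongr _ 1 (by rw [hs, map_one]) y).trans (one_smul _ y)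
      mul_smul := fun a a' y =>
        (hcongr _ (s a * s a') (by rw [hs, map_mul, hs, hs]) y).trans (mul_smul _ _ y)
      smul_zero := fun a => smul_zero (s a)
      smul_add := fun a => smul_add (s a)
      add_smul := fun a a' y =>
        (hcongr _ (s a + s a') (by rw [hs, map_add, hs, hs]) y).trans (add_smul _ _ y)
      zero_smul := fun y => (hcongr _ 0 (by rw [hs, map_zero]) y).trans (zero_smul _ y) }
  have hsmul : ∀ (f : P) (y : Nb), g f • y = f • y := fun f y => hcongr _ f (hs _) y
  -- the induced homomorphism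
  have hker : RingHom.ker g ≤ RingHom.ker (g.comp φ.toRingHom) := fun f hf => by
    obtain ⟨t, rfl⟩ := exists_eq_C_mul hπ (RingHom.mem_ker.1 hf)
    simp [RingHom.mem_ker, hφC, hgC]
  let ψ : Pk →+* Pk :=
    RingHom.liftOfRightInverse g s hs ⟨g.comp φ.toRingHom, hker⟩
  have hψ : ∀ f, ψ (g f) = g (φ f) := fun f =>
    RingHom.liftOfRightInverse_comp_apply _ _ _ _ _
  have hψloc : ∀ i, ψ (MvPowerSeries.X i) ∈ maximalIdeal Pk := fun i => by
    rw [← MvPowerSeries.map_X (residue Λ) i, ← hg, hψ, IsLocalRing.mem_maximalIdeal,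
      mem_nonunits_iff, MvPowerSeries.isUnit_iff_constantCoeff]
    have h := hloc i
    rw [IsLocalRing.mem_maximalIdeal, mem_nonunits_iff,
      MvPowerSeries.isUnit_iff_constantCoeff] at h
    rw [hg, MvPowerSeries.constantCoeff_map, isUnit_iff_ne_zero, not_not, residue_eq_zero_iff]
    exact h
  have hfree : Module.Free Pk Nb := by
    refine free_of_free_field ψ hψloc (fun i => Submodule.Quotient.mk (b i)) (fun y => ?_)
      fun c hc => ?_
    · obtain ⟨x, rfl⟩ := Submodule.Quotient.mk_surjective _ y
      obtain ⟨c, rfl⟩ := hspan x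
      refine ⟨fun i => g (c i), ?_⟩
      simp only [hψ, hsmul]
      exact map_sum (Submodule.mkQ πN) _ _
    · have h0 : (Submodule.Quotient.mk (∑ i, φ (s (c i)) • b i) : Nb) = 0 := by
        rw [← hc, ← Submodule.mkQ_apply, map_sum]
        refine Finset.sum_congr rfl fun i _ => ?_
        conv_rhs => rw [← hs (c i), hψ, hsmul]
        rfl
      obtain ⟨x, hx⟩ := (Submodule.Quotient.mk_eq_zero _).1 h0
      obtain ⟨a, rfl⟩ := hspan x
      rw [LinearMap.lsmul_apply, Finset.smul_sum] at hx
      intro i
      have := hind (fun i => s (c i) - MvPowerSeries.C π * a i) (by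
        simp only [map_sub, map_mul, hφC, sub_smul, mul_smul, Finset.sum_sub_distrib]
        rw [hx, sub_self]) i
      rw [← hs (c i), sub_eq_zero.1 this, map_mul, hgC, zero_mul]
  haveI : Module.Finite P N := by
    refine Module.Finite.of_surjective (Fintype.linearCombination P b) fun x => ?_
    obtain ⟨c, hc⟩ := hspan x
    exact ⟨fun i => φ (c i), by simp [Fintype.linearCombination_apply, hc]⟩
  haveI : Module.Finite Pk Nb := by
    refine Module.Finite.of_surjective
      (Fintype.linearCombination Pk fun i => (Submodule.Quotient.mk (b i) : Nb)) fun y => ?_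
    obtain ⟨x, rfl⟩ := Submodule.Quotient.mk_surjective _ y
    obtain ⟨c, rfl⟩ := hspan x
    refine ⟨fun i => g (φ (c i)), ?_⟩
    simp only [Fintype.linearCombination_apply, hsmul]
    exact (map_sum (Submodule.mkQ πN) _ _).symm
  obtain ⟨e, ⟨β⟩⟩ : ∃ e, Nonempty (Module.Basis (Fin e) Pk Nb) :=
    ⟨_, ⟨Module.finBasis Pk Nb⟩⟩
  choose v hv using fun j => Submodule.Quotient.mk_surjective πN (β j)
  let T : (Fin e → P) →ₗ[P] N := Fintype.linearCombination P v
  -- reduction of relations
  have hred : ∀ c : Fin e → P, T c ∈ πN → ∀ j, g (c j) = 0 := by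
    intro c hc
    have h0 : ∑ j, g (c j) • β j = 0 := by
      have h1 : Submodule.mkQ πN (∑ j, c j • v j) = 0 :=
        (Submodule.Quotient.mk_eq_zero _).2 (by simpa [T, Fintype.linearCombination_apply] using hc)
      rw [map_sum] at h1
      refine Eq.trans (Finset.sum_congr rfl fun j _ => ?_) h1
      rw [hsmul, map_smul, Submodule.mkQ_apply, hv]
    exact Fintype.linearIndependent_iff.1 β.linearIndependent _ h0
  -- multiples killed by a power of `π`
  have hnext : ∀ (j : ℕ) (y : N), (MvPowerSeries.C π : P) ^ j • y = 0 →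
      (MvPowerSeries.C π : P) ^ j = 0 ∨ y ∈ πN := by
    intro j y hy
    obtain ⟨a, rfl⟩ := hspan y
    have h1 := hind (fun i => (MvPowerSeries.C π : P) ^ j * a i) (by
      simp only [map_mul, map_pow, hφC, mul_smul]
      rw [← Finset.smul_sum]
      exact hy)
    by_cases hj : (π : Λ) ^ j = 0
    · exact Or.inl (by rw [← map_pow, hj, map_zero])
    refine Or.inr (Submodule.sum_mem _ fun i _ => ?_)
    have hga : g (a i) = 0 := by
      ext n
      rw [hg, MvPowerSeries.coeff_map, map_zero, residue_eq_zero_iff]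
      by_contra hu
      rw [IsLocalRing.mem_maximalIdeal, mem_nonunits_iff, not_not] at hu
      have h2 := congrArg (MvPowerSeries.coeff n) (h1 i)
      rw [← map_pow, MvPowerSeries.coeff_C_mul, map_zero] at h2
      exact hj ((hu.mul_left_eq_zero).1 h2)
    obtain ⟨t, ht⟩ := exists_eq_C_mul hπ hga
    exact ⟨φ t • b i, by rw [LinearMap.lsmul_apply, ht, map_mul, hφC, mul_smul]⟩
  obtain ⟨n, hn⟩ := hnil
  have hCn : (MvPowerSeries.C π : P) ^ n = 0 := by rw [← map_pow, hn, map_zero]
  have hinj : Function.Injective T := by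
    refine (injective_iff_map_eq_zero T).2 fun c hc => ?_
    have key : ∀ j, ∃ a : Fin e → P, c = (MvPowerSeries.C π : P) ^ j • a := by
      intro j
      induction j with
      | zero => exact ⟨c, by simp⟩
      | succ j ih =>
        obtain ⟨a, ha⟩ := ih
        rw [ha, map_smul] at hc
        rcases hnext j _ hc with h | h
        · exact ⟨0, by rw [ha, h, zero_smul, smul_zero]⟩
        · choose t ht using fun i => exists_eq_C_mul hπ (hred a h i)
          refine ⟨t, ?_⟩
          rw [ha, pow_succ, mul_smul]
          exact congrArg _ (funext fun i => ht i)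
    obtain ⟨a, ha⟩ := key n
    rw [ha, hCn, zero_smul]
  have hsurj : Function.Surjective T := by
    have key : ∀ (j : ℕ) (x : N), ∃ c, ∃ y : N,
        x = T c + (MvPowerSeries.C π : P) ^ j • y := by
      intro j
      induction j with
      | zero => exact fun x => ⟨0, x, by simp⟩
      | succ j ih =>
        intro x
        obtain ⟨c, y, rfl⟩ := ih x
        obtain ⟨a, ha⟩ : ∃ a : Fin e → P, y - T a ∈ πN := by
          refine ⟨fun i => s (β.repr (Submodule.Quotient.mk y) i), ?_⟩
          rw [← Submodule.Quotient.eq]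
          conv_lhs => rw [← β.sum_repr (Submodule.Quotient.mk y)]
          rw [Fintype.linearCombination_apply]
          refine Eq.trans (Finset.sum_congr rfl fun i _ => ?_) (map_sum (Submodule.mkQ πN) _ _).symm
          rw [map_smul, Submodule.mkQ_apply, hv, ← hsmul, hs]
        obtain ⟨z, hz⟩ := ha
        refine ⟨c + (MvPowerSeries.C π : P) ^ j • a, z, ?_⟩
        rw [map_add, map_smul, pow_succ, mul_smul]
        rw [LinearMap.lsmul_apply] at hz
        rw [hz, smul_sub]
        abel
    intro x
    obtain ⟨c, y, rfl⟩ := key n x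
    exact ⟨c, by rw [hCn, zero_smul, add_zero]⟩
  exact Module.Free.of_equiv (LinearEquiv.ofBijective T ⟨hinj, hsurj⟩)

end Artin

end FLTAgent.R2

end
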