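import Fermat.Agent.R2.Defs
import Fermat.Agent.LL.Eval

/-!
Area R2, parcel PATCH: a module free over diamonds of order `2^(n+1)` is, in a box of exponents
growing with `n`, free over a power series ring.
-/

set_option autoImplicit false
set_option linter.style.haveILetI false

noncomputable section

namespace FLTAgent.R2

open MvPowerSeries

/-- the ideal of series vanishing in a box of exponents -/
def boxIdeal (O : Type) [CommRing O] (r D : ℕ) : Ideal (MvPowerSeries (Fin r) O) where
  carrier := {f | ∀ m : Fin r →₀ ℕ, (∀ i, m i < D) → coeff m f = 0}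
  add_mem' hf hg m hm := by rw [map_add, hf m hm, hg m hm, add_zero]
  zero_mem' m _ := by simp
  smul_mem' g f hf m hm := by
    classical
    rw [smul_eq_mul, MvPowerSeries.coeff_mul]
    refine Finset.sum_eq_zero fun p hp => ?_
    rw [Finset.HasAntidiagonal.mem_antidiagonal] at hp
    rw [hf p.2 fun i => lt_of_le_of_lt ?_ (hm i), mul_zero]
    rw [← hp, Finsupp.add_apply]
    exact Nat.le_add_left _ _

theorem X_pow_mem_boxIdeal (O : Type) [CommRing O] {r D : ℕ} (i : Fin r) :
    (X i : MvPowerSeries (Fin r) O) ^ D ∈ boxIdeal O r D := by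
  classical
  intro m hm
  rw [X_pow_eq, coeff_monomial, if_neg]
  intro h
  have := hm i
  rw [h, Finsupp.single_eq_same] at this
  exact lt_irrefl _ this

theorem two_pow_lam (N : ℕ) : (2 : Lam N) ^ (N + 1) = 0 := by
  exact_mod_cast ZMod.natCast_self (2 ^ (N + 1))

theorem two_pow_series (N r : ℕ) : (2 : MvPowerSeries (Fin r) (Lam N)) ^ (N + 1) = 0 := by
  rw [← map_ofNat (C (σ := Fin r) (R := Lam N)) 2, ← map_pow, two_pow_lam, map_zero]

/-- a unit `1 + X_i` has order `2^(n+1)` in a box of size `2^(n+1-N)` -/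
theorem one_add_X_pow_sub_one_mem {N r n : ℕ} (i : Fin r) :
    (1 + X i : MvPowerSeries (Fin r) (Lam N)) ^ 2 ^ (n + 1) - 1 ∈
      boxIdeal (Lam N) r (2 ^ (n + 1 - N)) := by
  rcases Nat.lt_or_ge (n + 1) N with h | h
  · rw [Nat.sub_eq_zero_of_le h.le, pow_zero]
    obtain ⟨u, hu⟩ := sub_dvd_pow_sub_pow (1 + X i : MvPowerSeries (Fin r) (Lam N)) 1 (2 ^ (n + 1))
    rw [one_pow, add_sub_cancel_left] at hu
    rw [hu]
    have := (boxIdeal (Lam N) r 1).mul_mem_right u (X_pow_mem_boxIdeal (Lam N) (D := 1) i)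
    rwa [pow_one] at this
  set D := 2 ^ (n + 1 - N) with hD
  obtain ⟨u, hu⟩ := exists_add_pow_prime_pow_eq (R := MvPowerSeries (Fin r) (Lam N))
    (p := 2) (x := (1 : MvPowerSeries (Fin r) (Lam N))) (y := X i) Nat.prime_two (n := n + 1 - N)
  have h2 : ((2 : ℕ) : MvPowerSeries (Fin r) (Lam N)) ∣
      (1 + X i) ^ D - (1 + X i ^ D) := ⟨X i * u, by rw [hu, one_pow]; ring⟩
  have h3 := dvd_sub_pow_of_dvd_sub h2 N
  rw [Nat.cast_ofNat, two_pow_series, zero_dvd_iff, sub_eq_zero, ← pow_mul, hD, ← pow_add,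
    Nat.sub_add_cancel h] at h3
  rw [h3]
  obtain ⟨v, hv⟩ := sub_dvd_pow_sub_pow (1 + X i ^ D : MvPowerSeries (Fin r) (Lam N)) 1 (2 ^ N)
  rw [one_pow, add_sub_cancel_left] at hv
  rw [hv]
  exact (boxIdeal (Lam N) r D).mul_mem_right v (X_pow_mem_boxIdeal (Lam N) i)

/-- one level of the limit: evaluation at the diamonds, and the coordinates it gives -/
theorem exists_level {N n r d : ℕ} {R : Type} [CommRing R] [Algebra (Lam N) R]
    {M : Type} [AddCommGroup M] [Module (Lam N) M] (φ : R →ₐ[Lam N] Module.End (Lam N) M)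
    (δ : Fin r → R) (hnil : ∀ i, IsNilpotent (δ i - 1))
    (hpow : ∀ i, φ (δ i ^ 2 ^ (n + 1)) = 1) (e : Fin d → M)
    (hB : Function.Bijective fun a : Fin d → (Fin r → Fin (2 ^ (n + 1))) → Lam N =>
        ∑ j, ∑ u, a j u • φ (∏ i, δ i ^ (u i : ℕ)) (e j)) :
    ∃ ev : MvPowerSeries (Fin r) (Lam N) →+* R,
      (∀ i, ev (X i) = δ i - 1) ∧ (∀ a, ev (C a) = algebraMap (Lam N) R a) ∧
      (∀ z : M, ∃ v : Fin d → MvPowerSeries (Fin r) (Lam N), ∑ j, φ (ev (v j)) (e j) = z) ∧
      ∀ v : Fin d → MvPowerSeries (Fin r) (Lam N), ∑ j, φ (ev (v j)) (e j) = 0 →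
        ∀ j, ∀ m : Fin r →₀ ℕ, (∀ i, m i < 2 ^ (n + 1 - N)) → coeff m (v j) = 0 := by
  classical
  set D := 2 ^ (n + 1 - N) with hD
  set x : Fin r → R := fun i => δ i - 1 with hx
  choose Nx hNx using hnil
  set K := Finset.univ.sup Nx + D with hK
  have hxK : ∀ i, x i ^ K ∈ (⊥ : Ideal R) := fun i => by
    rw [Ideal.mem_bot]
    exact pow_eq_zero_of_le ((Finset.le_sup (Finset.mem_univ i)).trans (Nat.le_add_right _ _))
      (hNx i)
  set P := MvPowerSeries (Fin r) (Lam N)
  set ev : P →+* R := LL.evalHom ⊥ x K hxK with hev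
  have hev' : ∀ F : P, ev F = MvPolynomial.aeval x (truncTotal (LL.cutDeg (Fin r) K 1) F) := by
    intro F
    have h := LL.evalHom_sub_mem ⊥ hxK 1 F
    rw [pow_one, Ideal.mem_bot, sub_eq_zero] at h
    exact h
  have hevX : ∀ i, ev (X i) = δ i - 1 := fun i => LL.evalHom_X ⊥ hxK i
  have hevC : ∀ a, ev (C a) = algebraMap (Lam N) R a := fun a => LL.evalHom_C ⊥ hxK a
  -- the basis and its lift
  let U := Fin r → Fin (2 ^ (n + 1))
  let B : (Fin d → U → Lam N) →ₗ[Lam N] M :=
    { toFun := fun a => ∑ j, ∑ u, a j u • φ (∏ i, δ i ^ (u i : ℕ)) (e j)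
      map_add' := fun a b => by simp [add_smul, Finset.sum_add_distrib]
      map_smul' := fun c a => by simp [Finset.smul_sum, mul_smul] }
  let L : (Fin d → U → Lam N) →ₗ[Lam N] (Fin d → P) :=
    { toFun := fun a j => ∑ u, a j u • ∏ i, (1 + X i : P) ^ (u i : ℕ)
      map_add' := fun a b => by funext j; simp [add_smul, Finset.sum_add_distrib]
      map_smul' := fun c a => by funext j; simp [Finset.smul_sum, mul_smul] }
  have hevsmul : ∀ (c : Lam N) (f : P), ev (c • f) = c • ev f := fun c f => by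
    rw [smul_eq_C_mul, map_mul, hevC, Algebra.smul_def]
  have hΨL : ∀ a, ∑ j, φ (ev (L a j)) (e j) = B a := fun a => by
    simp only [L, B, LinearMap.coe_mk, AddHom.coe_mk, map_sum, LinearMap.sum_apply]
    refine Finset.sum_congr rfl fun j _ => Finset.sum_congr rfl fun u _ => ?_
    rw [hevsmul, map_smul, LinearMap.smul_apply, map_prod]
    congr 3
    refine Finset.prod_congr rfl fun i _ => ?_
    rw [map_pow, map_add, map_one, hevX, add_sub_cancel]
  let Bq : M ≃ₗ[Lam N] (Fin d → U → Lam N) := (LinearEquiv.ofBijective B hB).symm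
  let Q := P ⧸ boxIdeal (Lam N) r D
  let mkQ : P →ₐ[Lam N] Q := Ideal.Quotient.mkₐ (Lam N) _
  let Θ : M →ₗ[Lam N] (Fin d → Q) :=
    (LinearMap.pi fun j => mkQ.toLinearMap ∘ₗ LinearMap.proj j) ∘ₗ L ∘ₗ Bq.toLinearMap
  -- powers modulo the period
  have hpow' : ∀ (i : Fin r) (v : ℕ), φ (δ i) ^ v = φ (δ i) ^ (v % 2 ^ (n + 1)) := fun i v => by
    exact pow_eq_pow_mod v ((map_pow φ (δ i) (2 ^ (n + 1))).symm.trans (hpow i))
  have hmkpow : ∀ (i : Fin r) (v : ℕ),
      mkQ (1 + X i) ^ v = mkQ (1 + X i) ^ (v % 2 ^ (n + 1)) := fun i v => by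
    have h1 : mkQ (1 + X i) ^ 2 ^ (n + 1) = 1 := by
      rw [← map_pow, ← map_one mkQ]
      exact Ideal.Quotient.eq.2 (one_add_X_pow_sub_one_mem i)
    exact pow_eq_pow_mod v h1
  have hmon : ∀ (j : Fin d) (v : Fin r → ℕ),
      Θ (φ (∏ i, δ i ^ v i) (e j)) = Pi.single j (mkQ (∏ i, (1 + X i) ^ v i)) := by
    intro j v
    set u : U := fun i => ⟨v i % 2 ^ (n + 1), Nat.mod_lt _ (by positivity)⟩ with hu
    have hBu : B (Pi.single j (Pi.single u 1)) = φ (∏ i, δ i ^ v i) (e j) := by
      simp only [B, LinearMap.coe_mk, AddHom.coe_mk]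
      rw [Finset.sum_eq_single j (fun j' _ hj' => by simp [hj']) (by simp),
        Finset.sum_eq_single u (fun u' _ hu' => by simp [hu']) (by simp)]
      simp only [Pi.single_eq_same, one_smul]
      refine congrArg (fun f : Module.End (Lam N) M => f (e j)) ?_
      induction (Finset.univ : Finset (Fin r)) using Finset.induction with
      | empty => simp
      | @insert a s ha ih =>
        rw [Finset.prod_insert ha, Finset.prod_insert ha, map_mul, map_mul, map_pow, map_pow, ih,
          hpow' a (v a)]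
    have hBq : Bq (φ (∏ i, δ i ^ v i) (e j)) = Pi.single j (Pi.single u 1) := by
      rw [← hBu]
      exact LinearEquiv.symm_apply_apply (LinearEquiv.ofBijective B hB) _
    funext j'
    simp only [Θ, LinearMap.comp_apply, LinearEquiv.coe_coe, hBq, LinearMap.pi_apply,
      LinearMap.proj_apply, AlgHom.toLinearMap_apply]
    rcases eq_or_ne j' j with rfl | hj
    · simp only [L, LinearMap.coe_mk, AddHom.coe_mk, Pi.single_eq_same]
      rw [Finset.sum_eq_single u (fun u' _ hu' => by simp [hu']) (by simp), Pi.single_eq_same,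
        one_smul, map_prod, map_prod]
      simp only [map_pow]
      exact Finset.prod_congr rfl fun i _ => (hmkpow i (v i)).symm
    · simp [L, hj]
  have hpoly : ∀ (j : Fin d) (q : MvPolynomial (Fin r) (Lam N)),
      Θ (φ (MvPolynomial.aeval δ q) (e j)) =
        Pi.single j (mkQ (MvPolynomial.aeval (fun i => (1 + X i : P)) q)) := by
    intro j q
    induction q using MvPolynomial.induction_on' with
    | monomial v c =>
      rw [MvPolynomial.aeval_monomial, MvPolynomial.aeval_monomial, ← Algebra.smul_def,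
        ← Algebra.smul_def, map_smul, map_smul, LinearMap.smul_apply, map_smul,
        Finsupp.prod_fintype _ _ (fun i => pow_zero _),
        Finsupp.prod_fintype _ _ (fun i => pow_zero _), hmon j, Pi.single_smul]
    | add p q hp hq =>
      simp only [map_add, LinearMap.add_apply, hp, hq, Pi.single_add]
  have hser : ∀ (j : Fin d) (F : P), Θ (φ (ev F) (e j)) = Pi.single j (mkQ F) := by
    intro j F
    set p := truncTotal (LL.cutDeg (Fin r) K 1) F with hp
    set q := MvPolynomial.aeval (fun i => (MvPolynomial.X i - 1 : MvPolynomial (Fin r) (Lam N))) p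
    have hq : ∀ {A : Type} [CommRing A] [Algebra (Lam N) A] (z : Fin r → A),
        MvPolynomial.aeval z q = MvPolynomial.aeval (fun i => z i - 1) p := by
      intro A _ _ z
      rw [← AlgHom.comp_apply, MvPolynomial.comp_aeval]
      congr 2
      funext i
      simp
    rw [hev', ← hp, show MvPolynomial.aeval x p = MvPolynomial.aeval δ q from (hq δ).symm, hpoly,
      hq]
    congr 1
    refine Ideal.Quotient.eq.2 fun m hm => ?_
    have hdeg : m.degree < LL.cutDeg (Fin r) K 1 := by
      simp only [LL.cutDeg, Nat.card_fin, mul_one]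
      rw [Finsupp.degree_eq_sum]
      have : ∑ i, m i ≤ ∑ _i : Fin r, K := Finset.sum_le_sum fun i _ => by
        have := hm i
        rw [hK]
        omega
      simp only [Finset.sum_const, Finset.card_univ, Fintype.card_fin, smul_eq_mul] at this
      omega
    have hX : (fun i => (1 + X i : P) - 1) = fun i => ((MvPolynomial.X i :
        MvPolynomial (Fin r) (Lam N)) : P) := by
      funext i
      rw [add_sub_cancel_left, MvPolynomial.coe_X]
    rw [map_sub, hX, show MvPolynomial.aeval (fun i => ((MvPolynomial.X i :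
        MvPolynomial (Fin r) (Lam N)) : P)) p = (p : P) by
      conv_rhs => rw [← MvPolynomial.aeval_X_left_apply p]
      exact (MvPolynomial.comp_aeval_apply (fun i => MvPolynomial.X i)
        (MvPolynomial.coeToMvPowerSeries.algHom (Lam N)) p).symm, MvPolynomial.coeff_coe, hp,
      coeff_truncTotal _ hdeg, sub_self]
  refine ⟨ev, hevX, hevC, fun z => ?_, fun v hv j m hm => ?_⟩
  · obtain ⟨a, rfl⟩ := hB.surjective z
    exact ⟨L a, hΨL a⟩
  · have h : ∑ j', Θ (φ (ev (v j')) (e j')) = 0 := by rw [← map_sum, hv, map_zero]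
    simp only [hser] at h
    rw [Finset.univ_sum_single] at h
    exact Ideal.Quotient.eq_zero_iff_mem.1 (congrFun h j) m hm

end FLTAgent.R2

end
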