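import Fermat.Agent.Alg.MaximalCM
import Mathlib.RingTheory.KrullDimension.Regular
import Mathlib.RingTheory.KrullDimension.NonZeroDivisors
import Mathlib.RingTheory.KrullDimension.Zero
import Fermat.Agent.R2.Nilp

/-!
Area R2, parcel PATCH: elements generating the maximal ideal up to radical on a module of full depth
form a regular sequence; modules over `ℤ/2^(N+1)` that are flat stay flat in the quotient.
-/

set_option autoImplicit false
set_option linter.style.haveILetI false
set_option linter.unusedSectionVars false

noncomputable section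

namespace FLTAgent.R2

open IsLocalRing RingTheory.Sequence FLTAgent.Alg

variable {T : Type} [CommRing T] [IsLocalRing T] [IsNoetherianRing T]

/-- the depth is at most the dimension of an associated prime -/
theorem natCast_le_ringKrullDim_of_hasReg :
    ∀ (n : ℕ) (M : Type) [AddCommGroup M] [Module T M] [Module.Finite T M],
      HasReg T M n → ∀ q ∈ associatedPrimes T M, (n : WithBot ℕ∞) ≤ ringKrullDim (T ⧸ q) := by
  intro n
  induction n with
  | zero =>
    intro M _ _ _ _ q hq
    haveI : q.IsPrime := IsAssociatedPrime.isPrime hq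
    simpa using ringKrullDim_nonneg_of_nontrivial (R := T ⧸ q)
  | succ n ih =>
    intro M _ _ _ hM q hq
    obtain ⟨rs, hlen, hrm, hrs⟩ := hM
    match rs, hlen with
    | x :: rs', hlen =>
      simp only [List.length_cons, Nat.add_right_cancel_iff] at hlen
      simp only [List.mem_cons, forall_eq_or_imp] at hrm
      obtain ⟨hxm, hrm'⟩ := hrm
      rw [isWeaklyRegular_cons_iff] at hrs
      obtain ⟨hx, hrest⟩ := hrs
      have hxq := not_mem_ass_of_regular hx hq
      obtain ⟨hp, z, hz⟩ := isAssociatedPrime_iff.1 hq
      have hz0 : z ≠ 0 := by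
        rintro rfl
        apply hp.ne_top
        rw [hz]
        ext a
        simp [Submodule.mem_colon_singleton]
      have hkill : ∀ f ∈ q, f • z = 0 := by
        intro f hf
        rw [hz, Submodule.mem_colon_singleton] at hf
        simpa using hf
      classical
      have hxne : Ideal.span {x} ≠ (⊤ : Ideal T) := by
        rw [Ne, Ideal.span_singleton_eq_top]
        exact hxm
      have hex : ∃ k : ℕ, ¬ ∃ c : M, x ^ k • c = z := by
        by_contra h
        push Not at h
        apply hz0
        have : z ∈ (⨅ i : ℕ, Ideal.span {x} ^ i • ⊤ : Submodule T M) := by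
          refine Submodule.mem_iInf _ |>.2 fun i => ?_
          obtain ⟨c, hc⟩ := h i
          rw [← hc, Ideal.span_singleton_pow]
          exact Submodule.smul_mem_smul (Ideal.mem_span_singleton_self _) trivial
        rw [Ideal.iInf_pow_smul_eq_bot_of_isLocalRing _ hxne] at this
        simpa using this
      have hk0 : Nat.find hex ≠ 0 := by
        intro h0
        exact Nat.find_spec hex ⟨z, by rw [h0]; simp⟩
      obtain ⟨k, hk⟩ := Nat.exists_eq_succ_of_ne_zero hk0
      obtain ⟨z', hz'⟩ : ∃ c : M, x ^ k • c = z := by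
        by_contra h
        have := Nat.find_min' hex h
        omega
      have hz'x : (Submodule.Quotient.mk z' : QuotSMulTop x M) ≠ 0 := by
        intro h0
        rw [Submodule.Quotient.mk_eq_zero] at h0
        obtain ⟨c, -, hc⟩ := (Submodule.mem_smul_pointwise_iff_exists _ _ _).1 h0
        apply Nat.find_spec hex
        refine ⟨c, ?_⟩
        rw [hk, pow_succ, mul_smul, hc, hz']
      obtain ⟨q', hq', hle⟩ := exists_le_isAssociatedPrime_of_isNoetherianRing T _ hz'x
      have hqq' : q ≤ q' := by
        intro f hf
        apply hle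
        rw [Submodule.mem_colon_singleton, Submodule.mem_bot, ← Submodule.Quotient.mk_smul]
        have : f • z' = 0 := by
          apply hx.pow k
          change x ^ k • (f • z') = x ^ k • (0 : M)
          rw [smul_zero, smul_comm, hz', hkill f hf]
        rw [this, Submodule.Quotient.mk_zero]
      have hxq' : x ∈ q' := by
        apply hle
        rw [Submodule.mem_colon_singleton, Submodule.mem_bot, ← Submodule.Quotient.mk_smul,
          Submodule.Quotient.mk_eq_zero]
        exact Submodule.smul_mem_pointwise_smul _ _ _ trivial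
      haveI : q.IsPrime := hp
      set π := Ideal.Quotient.mk q
      have hnzd : π x ∈ nonZeroDivisors (T ⧸ q) :=
        mem_nonZeroDivisors_of_ne_zero fun h => hxq (Ideal.Quotient.eq_zero_iff_mem.1 h)
      have hker : Ideal.span {π x} ≤ RingHom.ker (Ideal.Quotient.factor hqq') := by
        rw [Ideal.span_singleton_le_iff_mem, RingHom.mem_ker]
        exact (Ideal.Quotient.factor_mk hqq' x).trans (Ideal.Quotient.eq_zero_iff_mem.2 hxq')
      have hdim : ringKrullDim (T ⧸ q') + 1 ≤ ringKrullDim (T ⧸ q) := by
        refine le_trans ?_ (ringKrullDim_quotient_succ_le_of_nonZeroDivisor hnzd)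
        gcongr
        exact ringKrullDim_le_of_surjective (Ideal.Quotient.lift _ _ hker)
          (Ideal.Quotient.lift_surjective_of_surjective _ hker
            (Ideal.Quotient.factor_surjective hqq'))
      calc ((n + 1 : ℕ) : WithBot ℕ∞) = (n : WithBot ℕ∞) + 1 := by push_cast; rfl
        _ ≤ ringKrullDim (T ⧸ q') + 1 := by
          gcongr
          exact ih _ ⟨rs', hlen, hrm', hrest⟩ q' hq'
        _ ≤ _ := hdim

/-- an element that together with fewer than depth many others generates the maximal ideal up to
radical on the module is regular -/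
theorem isSMulRegular_of_depth {M : Type} [AddCommGroup M] [Module T M] [Module.Finite T M] {n : ℕ}
    (hM : HasReg T M (n + 1)) (s : Finset T) (hs : s.card ≤ n) (hsm : ∀ a ∈ s, a ∈ maximalIdeal T)
    {y : T} (hprime : ∀ p : Ideal T, p.IsPrime → Module.annihilator T M ≤ p → y ∈ p →
      (∀ a ∈ s, a ∈ p) → maximalIdeal T ≤ p) : IsSMulRegular M y := by
  classical
  by_contra hr
  have h := (biUnion_associatedPrimes_eq_compl_regular T M).ge hr
  simp only [Set.mem_iUnion, exists_prop] at h
  obtain ⟨q, hq, hyq⟩ := h
  haveI : q.IsPrime := IsAssociatedPrime.isPrime hq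
  have hann : Module.annihilator T M ≤ q := by
    simpa [Submodule.annihilator_top] using IsAssociatedPrime.annihilator_le hq
  have h1 := natCast_le_ringKrullDim_of_hasReg (n + 1) M hM q hq
  set π := Ideal.Quotient.mk q
  haveI : IsLocalRing (T ⧸ q) := .of_surjective' π Ideal.Quotient.mk_surjective
  set S : Finset (T ⧸ q) := s.image π
  have hSm : (S : Set (T ⧸ q)) ⊆ maximalIdeal (T ⧸ q) := by
    intro b hb
    simp only [S, Finset.coe_image, Set.mem_image, Finset.mem_coe] at hb
    obtain ⟨a, ha, rfl⟩ := hb
    refine ((local_hom_TFAE π).out 0 1 rfl rfl).1 ?_ ⟨a, hsm a ha, rfl⟩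
    exact IsLocalHom.of_surjective π Ideal.Quotient.mk_surjective
  have h2 : ringKrullDim (T ⧸ q) ≤
      ringKrullDim ((T ⧸ q) ⧸ Ideal.span (S : Set (T ⧸ q))) + S.card :=
    ringKrullDim_le_ringKrullDim_quotient_add_card S
      (by rwa [IsLocalRing.ringJacobson_eq_maximalIdeal])
  have h0 : ringKrullDim ((T ⧸ q) ⧸ Ideal.span (S : Set (T ⧸ q))) ≤ 0 := by
    set π' := (Ideal.Quotient.mk (Ideal.span (S : Set (T ⧸ q)))).comp π
    have hπ' : Function.Surjective π' :=
      Ideal.Quotient.mk_surjective.comp Ideal.Quotient.mk_surjective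
    refine le_of_eq_of_le rfl ?_
    haveI : Ring.KrullDimLE 0 ((T ⧸ q) ⧸ Ideal.span (S : Set (T ⧸ q))) := by
      refine Ring.krullDimLE_zero_iff.2 fun P hP => ?_
      have hmem : maximalIdeal T ≤ P.comap π' := by
        refine hprime _ (Ideal.IsPrime.comap π') (fun a ha => ?_) ?_ (fun a ha => ?_)
        · rw [Ideal.mem_comap, RingHom.comp_apply, Ideal.Quotient.eq_zero_iff_mem.2 (hann ha),
            map_zero]
          exact P.zero_mem
        · rw [Ideal.mem_comap, RingHom.comp_apply, Ideal.Quotient.eq_zero_iff_mem.2 hyq, map_zero]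
          exact P.zero_mem
        · rw [Ideal.mem_comap, RingHom.comp_apply, Ideal.Quotient.eq_zero_iff_mem.2
            (Ideal.subset_span (Finset.mem_image_of_mem π ha))]
          exact P.zero_mem
      have hmax : (P.comap π').IsMaximal :=
        (IsLocalRing.maximalIdeal.isMaximal T).eq_of_le (Ideal.IsPrime.comap π').ne_top hmem ▸
          IsLocalRing.maximalIdeal.isMaximal T
      rw [← Ideal.map_comap_of_surjective π' hπ' P]
      refine (Ideal.map_eq_top_or_isMaximal_of_surjective π' hπ' hmax).resolve_left fun h => ?_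
      rw [Ideal.map_comap_of_surjective π' hπ' P] at h
      exact hP.ne_top h
    exact_mod_cast Ring.krullDimLE_iff.1 ‹_›
  have h3 : ((n + 1 : ℕ) : WithBot ℕ∞) ≤ (n : ℕ) := by
    refine h1.trans (h2.trans ?_)
    calc _ ≤ (0 : WithBot ℕ∞) + (S.card : WithBot ℕ∞) := by gcongr
      _ ≤ _ := by
        rw [zero_add]
        exact_mod_cast Finset.card_image_le.trans hs
  have h4 : n + 1 ≤ n := by exact_mod_cast h3
  omega

/-- elements generating the maximal ideal up to radical on a module of full depth are regular -/
theorem isWeaklyRegular_of_depth :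
    ∀ (l : List T) (M : Type) [AddCommGroup M] [Module T M] [Module.Finite T M],
      HasReg T M l.length → (∀ a ∈ l, a ∈ maximalIdeal T) →
      (∀ p : Ideal T, p.IsPrime → Module.annihilator T M ≤ p → (∀ a ∈ l, a ∈ p) →
        maximalIdeal T ≤ p) → IsWeaklyRegular M l := by
  classical
  intro l
  induction l with
  | nil => intro M _ _ _ _ _ _; exact IsWeaklyRegular.nil _ _
  | cons y l ih =>
    intro M _ _ _ hM hm hprime
    have hy : IsSMulRegular M y :=
      isSMulRegular_of_depth hM l.toFinset (List.toFinset_card_le l)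
        (fun a ha => hm a (List.mem_cons_of_mem _ (List.mem_toFinset.1 ha)))
        fun p hp ha hyp hs => hprime p hp ha fun a h => by
          rcases List.mem_cons.1 h with rfl | h
          · exact hyp
          · exact hs a (List.mem_toFinset.2 h)
    refine IsWeaklyRegular.cons hy (ih _ (hasReg_quotient _ M hM y (hm y (List.mem_cons_self ..)) hy)
      (fun a ha => hm a (List.mem_cons_of_mem _ ha)) fun p hp hann hl => ?_)
    have hyann : y ∈ Module.annihilator T (QuotSMulTop y M) := by
      rw [Module.mem_annihilator]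
      intro z
      obtain ⟨w, rfl⟩ := Submodule.Quotient.mk_surjective _ z
      rw [← Submodule.Quotient.mk_smul, Submodule.Quotient.mk_eq_zero]
      exact Submodule.smul_mem_pointwise_smul _ _ _ trivial
    refine hprime p hp (fun a ha => hann ?_) fun a ha => ?_
    · rw [Module.mem_annihilator] at ha ⊢
      intro z
      obtain ⟨w, rfl⟩ := Submodule.Quotient.mk_surjective _ z
      rw [← Submodule.Quotient.mk_smul, ha w, Submodule.Quotient.mk_zero]
    · rcases List.mem_cons.1 ha with rfl | ha
      · exact hann hyann
      · exact hl a ha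

/-- a module flat over `ℤ/2^(N+1)` has no exponent `2^N` modulo a sequence regular modulo `2` -/
theorem not_forall_two_pow_mem {N : ℕ} {M : Type} [AddCommGroup M] [Module T M] [Module.Finite T M]
    [Nontrivial M]
    (hflat : ∀ z : M, (2 : T) • z = 0 → ∃ w : M, z = (2 : T) ^ N • w)
    (l : List T) (hl : ∀ a ∈ l, a ∈ maximalIdeal T)
    (hreg : IsWeaklyRegular (M ⧸ Ideal.span {(2 : T)} • (⊤ : Submodule T M)) l) :
    ¬ ∀ z : M, (2 : T) ^ N • z ∈ Ideal.ofList l • (⊤ : Submodule T M) := by
  intro hall
  set D : Submodule T M := Ideal.span {(2 : T) ^ N} • ⊤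
  have hmem : ∀ (a : T) (z : M), z ∈ Ideal.span {a} • (⊤ : Submodule T M) ↔ ∃ w, a • w = z := by
    intro a z
    rw [Submodule.ideal_span_singleton_smul, Submodule.mem_smul_pointwise_iff_exists]
    simp
  have hD : ∀ z, z ∈ D ↔ ∃ w, (2 : T) ^ N • w = z := hmem _
  have key : ∀ i ≤ l.length, ∀ z : M,
      (2 : T) • z ∈ Ideal.ofList (l.take i) • (⊤ : Submodule T M) →
        z ∈ Ideal.ofList (l.take i) • (⊤ : Submodule T M) ⊔ D := by
    intro i
    induction i with
    | zero =>
      intro _ z hz
      rw [List.take_zero, Ideal.ofList_nil, Submodule.bot_smul, Submodule.mem_bot] at hz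
      obtain ⟨w, rfl⟩ := hflat z hz
      exact Submodule.mem_sup_right ((hD _).2 ⟨w, rfl⟩)
    | succ i ih =>
      intro hi z hz
      have hi' : i < l.length := hi
      rw [List.take_succ_eq_append_getElem hi', Ideal.ofList_append, Ideal.ofList_singleton,
        Submodule.sup_smul] at hz ⊢
      obtain ⟨a, ha, b, hb, hab⟩ := Submodule.mem_sup.1 hz
      obtain ⟨u, rfl⟩ := (hmem _ _).1 hb
      have hr := (isWeaklyRegular_iff _ _).1 hreg i hi'
      have hu : u ∈ Ideal.ofList (l.take i) • (⊤ : Submodule T M) ⊔
          Ideal.span {(2 : T)} • ⊤ := by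
        set Q := M ⧸ Ideal.span {(2 : T)} • (⊤ : Submodule T M)
        set π : M →ₗ[T] Q := Submodule.mkQ _
        have hmap : Submodule.map π (Ideal.ofList (l.take i) • ⊤) =
            Ideal.ofList (l.take i) • (⊤ : Submodule T Q) := by
          rw [Submodule.map_smul'', Submodule.map_top, Submodule.range_mkQ]
        have h0 : π u ∈ Ideal.ofList (l.take i) • (⊤ : Submodule T Q) := by
          rw [← Submodule.Quotient.mk_eq_zero (p := Ideal.ofList (l.take i) • (⊤ : Submodule T Q))]
          refine hr.right_eq_zero_of_smul ?_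
          rw [← Submodule.Quotient.mk_smul, Submodule.Quotient.mk_eq_zero, ← hmap]
          refine ⟨-a, neg_mem ha, ?_⟩
          have e : l[i] • u = (2 : T) • z - a := eq_sub_of_add_eq' hab
          rw [← π.map_smul, e, map_sub, map_neg,
            show π ((2 : T) • z) = 0 from (Submodule.Quotient.mk_eq_zero _).2
              (Submodule.smul_mem_smul (Ideal.mem_span_singleton_self _) trivial), zero_sub]
        rw [← hmap] at h0
        obtain ⟨u0, hu0, hu0'⟩ := h0
        have : u - u0 ∈ Ideal.span {(2 : T)} • (⊤ : Submodule T M) :=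
          (Submodule.Quotient.eq _).1 hu0'.symm
        exact Submodule.mem_sup.2 ⟨u0, hu0, u - u0, this, by abel⟩
      obtain ⟨u0, hu0, u1, hu1, rfl⟩ := Submodule.mem_sup.1 hu
      obtain ⟨v, rfl⟩ := (hmem _ _).1 hu1
      have hz' : (2 : T) • (z - l[i] • v) ∈ Ideal.ofList (l.take i) • (⊤ : Submodule T M) := by
        have e : (2 : T) • (z - l[i] • v) = a + l[i] • u0 := by
          rw [smul_sub, ← hab, smul_add, smul_comm (2 : T) l[i] v]
          abel
        rw [e]
        exact add_mem ha (Submodule.smul_mem _ _ hu0)
      obtain ⟨c, hc, d, hd, hcd⟩ := Submodule.mem_sup.1 (ih (by omega) _ hz')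
      refine Submodule.mem_sup.2 ⟨c + l[i] • v, ?_, d, hd, ?_⟩
      · exact Submodule.mem_sup.2 ⟨c, hc, l[i] • v,
          Submodule.smul_mem_smul (Ideal.mem_span_singleton_self _) trivial, rfl⟩
      · rw [add_right_comm, hcd, sub_add_cancel]
  have hDle : D ≤ Ideal.ofList l • (⊤ : Submodule T M) := fun z hz => by
    obtain ⟨w, rfl⟩ := (hD z).1 hz
    exact hall w
  have hdown : ∀ j ≤ N, ∀ z : M, (2 : T) ^ (N - j) • z ∈ Ideal.ofList l • (⊤ : Submodule T M) := by
    intro j
    induction j with
    | zero => intro _ z; exact hall z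
    | succ j ih =>
      intro hj z
      have h := ih (by omega) z
      rw [show N - j = (N - (j + 1)) + 1 by omega, pow_succ', mul_smul] at h
      have h' := key l.length le_rfl _ (by rwa [List.take_length])
      rw [List.take_length, sup_eq_left.2 hDle] at h'
      exact h'
  have htop : (⊤ : Submodule T M) ≤ Ideal.ofList l • (⊤ : Submodule T M) := fun z _ => by
    simpa using hdown N le_rfl z
  have hbot := Submodule.eq_bot_of_le_smul_of_le_jacobson_bot (Ideal.ofList l) (⊤ : Submodule T M)
    Module.Finite.fg_top htop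
    ((Ideal.span_le.2 hl).trans (IsLocalRing.jacobson_eq_maximalIdeal ⊥ bot_ne_top).ge)
  exact top_ne_bot hbot

end FLTAgent.R2

end
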