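import Fermat.Agent.R2.Defs
import Fermat.Agent.R2.Nilp
import Fermat.Agent.R2.PatchDual
import Fermat.Agent.R2.PatchFree
import Fermat.Agent.R2.PatchLevel
import Fermat.Agent.R2.PatchRegular

/-!
Area R2, parcel PATCH: over the limit ring the coordinates of the point are a regular sequence modulo
two, so the exponent modulo their ideal is large.
-/

set_option autoImplicit false
set_option linter.style.haveILetI false
set_option linter.unusedSectionVars false

noncomputable section

namespace FLTAgent.R2

open IsLocalRing RingTheory.Sequence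
open scoped Pointwise

theorem cast_two_eq_zero_iff {N : ℕ} (z : Lam N) :
    ZMod.castHom (dvd_pow_self 2 N.succ_ne_zero) (ZMod 2) z = 0 ↔ ∃ b, z = 2 * b := by
  constructor
  · intro h
    rw [← ZMod.natCast_zmod_val z, map_natCast, ZMod.natCast_eq_zero_iff] at h
    obtain ⟨b, hb⟩ := h
    exact ⟨b, by rw [← ZMod.natCast_zmod_val z, hb]; push_cast; rfl⟩
  · rintro ⟨b, rfl⟩
    rw [map_mul, map_ofNat, show (2 : ZMod 2) = 0 from rfl, zero_mul]

theorem exists_varsX_idx (k : Type) [Field k] (r : ℕ) :
    ∃ l : List (Fin r), varsX k r = l.map MvPowerSeries.X := by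
  refine ⟨(varsX k r).attach.map fun f => (exists_eq_X r f.1 f.2).choose, ?_⟩
  rw [List.map_map]
  conv_lhs => rw [← List.attach_map_subtype_val (varsX k r)]
  exact List.map_congr_left fun f _ => (exists_eq_X r f.1 f.2).choose_spec

/-- if the squares of the `k` generators of an ideal lie in `D`, its `(k + 1)`-st power lies in
`D` times the `(k - 1)`-st -/
theorem pow_succ_le_of_sq_mem {R : Type*} [CommRing R] {k : ℕ} (c : Fin k → R) {D : Ideal R}
    (hsq : ∀ i, c i ^ 2 ∈ D) :
    Ideal.span (Set.range c) ^ (k + 1) ≤ D * Ideal.span (Set.range c) ^ (k - 1) := by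
  classical
  set C := Ideal.span (Set.range c) with hC
  intro x hx
  rw [hC, Ideal.span, Submodule.span_pow] at hx
  refine (Submodule.span_le.2 ?_) hx
  intro y hy
  rw [Set.mem_pow] at hy
  obtain ⟨f, rfl⟩ := hy
  rw [List.prod_ofFn]
  choose g hg using fun j => (f j).2
  obtain ⟨a, b, hab, hgab⟩ := Fintype.exists_ne_map_eq_of_card_lt g (by simp)
  rw [SetLike.mem_coe, ← Finset.mul_prod_erase Finset.univ (fun j => ((f j : Set.range c) : R))
    (Finset.mem_univ a), ← Finset.mul_prod_erase (Finset.univ.erase a)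
    (fun j => ((f j : Set.range c) : R)) (Finset.mem_erase.2 ⟨hab.symm, Finset.mem_univ b⟩)]
  have hcard : ((Finset.univ.erase a).erase b).card = k - 1 := by
    rw [Finset.card_erase_of_mem (Finset.mem_erase.2 ⟨hab.symm, Finset.mem_univ b⟩),
      Finset.card_erase_of_mem (Finset.mem_univ a), Finset.card_univ, Fintype.card_fin]
    omega
  have hp := Ideal.prod_mem_prod (s := (Finset.univ.erase a).erase b) (I := fun _ => C)
    (x := fun j => ((f j : Set.range c) : R)) fun j _ => Ideal.subset_span (f j).2
  rw [Finset.prod_const, hcard] at hp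
  have h2 : ((f a : Set.range c) : R) * ((f b : Set.range c) : R) ∈ D := by
    rw [← hg a, ← hg b, ← hgab, ← pow_two]
    exact hsq (g a)
  rw [← mul_assoc]
  exact Ideal.mul_mem_mul h2 hp

theorem sup_pow_le {R : Type*} [CommRing R] (I J : Ideal R) :
    ∀ m : ℕ, (I ⊔ J) ^ m ≤ I ⊔ J ^ m
  | 0 => by simp
  | m + 1 => by
    rw [pow_succ, pow_succ]
    refine (Ideal.mul_mono_left (sup_pow_le I J m)).trans ?_
    rw [Ideal.sup_mul, Ideal.mul_sup (J ^ m)]
    refine sup_le (Ideal.mul_le.2 fun a ha b _ => ?_) (sup_le ?_ le_sup_right)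
    · exact Ideal.mem_sup_left (Ideal.mul_mem_right b I ha)
    · exact Ideal.mul_le.2 fun a _ b hb => Ideal.mem_sup_left (Ideal.mul_mem_left I a hb)

set_option maxHeartbeats 800000 in
/-- in the limit no power `2 ^ t` with `t (k + 1) ≤ N` kills the module modulo the coordinates -/
theorem false_of_limit {N t d r k : ℕ} (hN : t * (k + 1) < N + 1) (hd : 0 < d)
    {T : Type} [CommRing T] [IsLocalRing T] [IsNoetherianRing T]
    [Module T (Fin d → MvPowerSeries (Fin r) (Lam N))]
    [Module.Finite T (Fin d → MvPowerSeries (Fin r) (Lam N))]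
    (sc : MvPowerSeries (Fin r) (Lam N) →+* T)
    (hscsmul : ∀ (f : MvPowerSeries (Fin r) (Lam N))
      (v : Fin d → MvPowerSeries (Fin r) (Lam N)), sc f • v = f • v)
    (Y : Fin r → T) (C : Fin k → T) (Q : Fin r → T) (h2m : (2 : T) ∈ maximalIdeal T)
    (hJm : Ideal.span (Set.range Y ∪ Set.range C ∪ Set.range Q) ≤ maximalIdeal T)
    (hmax : maximalIdeal T ≤ Ideal.span {(2 : T)} ⊔ Ideal.span (Set.range Y ∪ Set.range C ∪ Set.range Q))
    (hsqT : ∀ i, C i ^ 2 ∈ maximalIdeal T * Ideal.span (Set.range Y ∪ Set.range C ∪ Set.range Q) ^ 2)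
    (hscX : ∀ i, sc (MvPowerSeries.X i) ∈ maximalIdeal T *
      Ideal.span (Set.range Y ∪ Set.range C ∪ Set.range Q))
    (hqX : ∀ i (v : Fin d → MvPowerSeries (Fin r) (Lam N)),
      ∃ w : Fin d → MvPowerSeries (Fin r) (Lam N), Q i • v = sc (MvPowerSeries.X i) • w)
    (hbase : ∀ j, (2 : T) ^ t • (Pi.single j 1 : Fin d → MvPowerSeries (Fin r) (Lam N)) ∈
      Ideal.span (Set.range Y ∪ Set.range C ∪ Set.range Q) •
        (⊤ : Submodule T (Fin d → MvPowerSeries (Fin r) (Lam N)))) : False := by
  classical
  let P := MvPowerSeries (Fin r) (Lam N)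
  set JT : Ideal T := Ideal.span (Set.range Y ∪ Set.range C ∪ Set.range Q) with hJT
  set CT : Ideal T := Ideal.span (Set.range Y ∪ Set.range C) with hCT
  let V : Submodule T (Fin d → P) := ⊤
  have hjac : maximalIdeal T ≤ Ideal.jacobson ⊥ :=
    (IsLocalRing.jacobson_eq_maximalIdeal (R := T) ⊥ bot_ne_top).ge
  haveI : IsNoetherian T (Fin d → P) := inferInstance
  -- modulo the killing coordinates the others add nothing
  have hJC : JT • V = CT • V := by
    refine le_antisymm ?_ (Submodule.smul_mono_left (Ideal.span_mono Set.subset_union_left))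
    refine Submodule.le_of_le_smul_of_le_jacobson_bot (IsNoetherian.noetherian _) hjac ?_
    refine Submodule.smul_le.2 fun a ha v _ => ?_
    rw [hJT] at ha
    induction ha using Submodule.span_induction with
    | mem a ha =>
      rcases ha with ha | ⟨i, rfl⟩
      · exact Submodule.mem_sup_left (Submodule.smul_mem_smul (Ideal.subset_span ha) trivial)
      · obtain ⟨w, hw⟩ := hqX i v
        rw [hw, ← Submodule.mul_smul]
        exact Submodule.mem_sup_right (Submodule.smul_mem_smul (hscX i) trivial)
    | zero => rw [zero_smul]; exact zero_mem _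
    | add a b _ _ ha hb => rw [add_smul]; exact add_mem ha hb
    | smul u a _ ha => rw [smul_eq_mul, mul_smul]; exact Submodule.smul_mem _ u ha
  have hJCpow : ∀ j : ℕ, JT ^ j • V = CT ^ j • V := by
    intro j
    induction j with
    | zero => rw [pow_zero, pow_zero]
    | succ j ih =>
      rw [pow_succ JT, Submodule.mul_smul, hJC, ← Submodule.mul_smul, mul_comm,
        Submodule.mul_smul, ih, ← Submodule.mul_smul, ← pow_succ']
  have hCle : Ideal.span (Set.range C) ≤ JT :=
    Ideal.span_mono (Set.subset_union_right.trans Set.subset_union_left)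
  let l : List T := List.ofFn Y
  have hJpow : JT ^ (k + 1) • V ≤ Ideal.ofList l • V := by
    have hYl : Ideal.span (Set.range Y) = Ideal.ofList l := by
      refine congrArg Ideal.span (Set.ext fun a => ?_)
      simp [l]
    refine Submodule.le_of_le_smul_of_le_jacobson_bot (IsNoetherian.noetherian _) hjac ?_
    rw [← Submodule.mul_smul, ← Submodule.sup_smul, hJCpow]
    refine Submodule.smul_mono_left ?_
    rw [hCT, Ideal.span_union, hYl]
    refine (sup_pow_le (Ideal.ofList l) (Ideal.span (Set.range C)) (k + 1)).trans ?_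
    refine sup_le_sup_left ?_ _
    refine (pow_succ_le_of_sq_mem C hsqT).trans ?_
    rw [mul_assoc]
    refine Ideal.mul_mono_right ((Ideal.mul_mono_right (Ideal.pow_right_mono hCle _)).trans ?_)
    rw [← pow_add]
    exact Ideal.pow_le_pow_right (by omega)
  -- regularity modulo two
  let S2 : Submodule T (Fin d → P) := Ideal.span {(2 : T)} • ⊤
  have htwo : ∀ (j : ℕ) (v : Fin d → P), (2 : T) ^ j • v = fun i => (2 : P) ^ j * v i := by
    intro j v
    rw [← map_ofNat sc 2, ← map_pow, hscsmul]
    rfl
  let Pk := MvPowerSeries (Fin r) (ZMod 2)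
  let mp : P →+* Pk := MvPowerSeries.map (ZMod.castHom (dvd_pow_self 2 N.succ_ne_zero) (ZMod 2))
  let red : (Fin d → P) →+ (Fin d → Pk) := AddMonoidHom.compLeft mp.toAddMonoidHom (Fin d)
  have hredker : red.ker = S2.toAddSubgroup := by
    ext v
    rw [AddMonoidHom.mem_ker, Submodule.mem_toAddSubgroup,
      show v ∈ S2 ↔ v ∈ (2 : T) • (⊤ : Submodule T (Fin d → P)) by
        rw [← Submodule.ideal_span_singleton_smul],
      Submodule.mem_smul_pointwise_iff_exists]
    constructor
    · intro h
      have h1 : ∀ (i : Fin d) (m : Fin r →₀ ℕ), ∃ b, MvPowerSeries.coeff m (v i) = 2 * b := fun i m =>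
        (cast_two_eq_zero_iff _).1 (by
          have := congrArg (MvPowerSeries.coeff m) (congrFun h i)
          rw [← MvPowerSeries.coeff_map]
          exact this.trans (map_zero _))
      choose b hb using h1
      let w : Fin d → P := fun i => fun m => b i m
      refine ⟨w, trivial, ?_⟩
      rw [← pow_one (2 : T), htwo]
      funext i
      ext m
      rw [pow_one, ← map_ofNat (MvPowerSeries.C (σ := Fin r) (R := Lam N)) 2,
        MvPowerSeries.coeff_C_mul, hb]
      rfl
    · rintro ⟨w, -, rfl⟩
      rw [← pow_one (2 : T), htwo]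
      funext i
      change mp ((2 : P) ^ 1 * w i) = 0
      rw [map_mul, map_pow, map_ofNat, pow_one,
        ← map_ofNat (MvPowerSeries.C (σ := Fin r) (R := ZMod 2)) 2,
        show (2 : ZMod 2) = 0 from rfl, map_zero, zero_mul]
  have hredsurj : Function.Surjective red := fun v => by
    choose w hw using fun (i : Fin d) (m : Fin r →₀ ℕ) =>
      ZMod.ringHom_surjective (ZMod.castHom (dvd_pow_self 2 N.succ_ne_zero) (ZMod 2))
        (MvPowerSeries.coeff m (v i))
    let w' : Fin d → P := fun i => fun m => w i m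
    refine ⟨w', ?_⟩
    funext i
    ext m
    exact hw i m
  let eq2 : ((Fin d → P) ⧸ S2) ≃+ (Fin d → Pk) :=
    (QuotientAddGroup.quotientAddEquivOfEq hredker.symm).trans
      (QuotientAddGroup.quotientKerEquivOfSurjective red hredsurj)
  haveI : Fact (Nat.Prime 2) := ⟨Nat.prime_two⟩
  obtain ⟨idx, hidx⟩ := exists_varsX_idx (ZMod 2) r
  have hPk : IsWeaklyRegular (Fin d → Pk) (varsX (ZMod 2) r) := by
    have h := (isWeaklyRegular_varsX (ZMod 2) r).isWeaklyRegular_lTensor (M₂ := Fin d → Pk)
    exact ((TensorProduct.rid Pk (Fin d → Pk)).isWeaklyRegular_congr _).1 h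
  let xs : List T := idx.map fun i => sc (MvPowerSeries.X i)
  have hxsreg : IsWeaklyRegular ((Fin d → P) ⧸ S2) xs := by
    refine (eq2.isWeaklyRegular_congr ?_).2 hPk
    rw [hidx, List.forall₂_map_left_iff, List.forall₂_map_right_iff, List.forall₂_same]
    intro i _ v
    obtain ⟨v, rfl⟩ := Submodule.Quotient.mk_surjective _ v
    change red (sc (MvPowerSeries.X i) • v) = MvPowerSeries.X i • red v
    funext a
    rw [hscsmul]
    change mp (MvPowerSeries.X i * v a) = MvPowerSeries.X i * mp (v a)
    rw [map_mul, MvPowerSeries.map_X]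
  have hReg : Alg.HasReg T ((Fin d → P) ⧸ S2) r := by
    refine ⟨xs, ?_, fun x hx => ?_, hxsreg⟩
    · have := congrArg List.length hidx
      rw [length_varsX, List.length_map] at this
      simp [xs, this]
    · obtain ⟨i, -, rfl⟩ := List.mem_map.1 hx
      exact Ideal.mul_le_left (hscX i)
  have hlm : ∀ a ∈ l, a ∈ maximalIdeal T := fun a ha => by
    obtain ⟨i, rfl⟩ := List.mem_ofFn.1 ha
    exact hJm (Ideal.subset_span (Or.inl (Or.inl ⟨i, rfl⟩)))
  have hlreg : IsWeaklyRegular ((Fin d → P) ⧸ S2) l := by
    refine isWeaklyRegular_of_depth l _ (by rw [List.length_ofFn]; exact hReg) hlm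
      fun p hp hann hl => ?_
    have h2p : (2 : T) ∈ p := hann (by
      rw [Module.mem_annihilator]
      intro v
      obtain ⟨v, rfl⟩ := Submodule.Quotient.mk_surjective _ v
      rw [← Submodule.Quotient.mk_smul, Submodule.Quotient.mk_eq_zero]
      exact Submodule.smul_mem_smul (Ideal.mem_span_singleton_self _) trivial)
    refine hmax.trans (sup_le ((Ideal.span_singleton_le_iff_mem p).2 h2p) ?_)
    refine Ideal.IsPrime.le_of_pow_le (n := k + 1) fun a ha => ?_
    have hp' : (⟨p, hp⟩ : PrimeSpectrum T) ∈ Module.support T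
        (((Fin d → P) ⧸ S2) ⧸ Ideal.ofList l • (⊤ : Submodule T ((Fin d → P) ⧸ S2))) := by
      rw [Module.support_quotient, Module.support_eq_zeroLocus]
      exact ⟨hann, Ideal.span_le.2 fun z hz => hl z hz⟩
    rw [Module.mem_support_iff_of_finite] at hp'
    refine hp' ?_
    rw [Module.mem_annihilator]
    intro v
    obtain ⟨v, rfl⟩ := Submodule.Quotient.mk_surjective _ v
    obtain ⟨v, rfl⟩ := Submodule.Quotient.mk_surjective _ v
    rw [← Submodule.Quotient.mk_smul, Submodule.Quotient.mk_eq_zero]
    have h1 := Submodule.mem_map_of_mem (f := S2.mkQ)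
      (hJpow (Submodule.smul_mem_smul ha (show v ∈ V from trivial)))
    rwa [Submodule.map_smul'', Submodule.map_top, Submodule.range_mkQ] at h1
  haveI : Nonempty (Fin d) := ⟨⟨0, hd⟩⟩
  have hflat : ∀ v : Fin d → P, (2 : T) • v = 0 → ∃ w, v = (2 : T) ^ N • w := by
    intro v hv
    rw [← pow_one (2 : T), htwo] at hv
    have h1 : ∀ (i : Fin d) (m : Fin r →₀ ℕ), ∃ b, MvPowerSeries.coeff m (v i) = 2 ^ N * b :=
      fun i m => by
        refine two_pow_dvd_of_mul_eq_zero (N.le_succ) ?_
        have := congrArg (MvPowerSeries.coeff m) (congrFun hv i)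
        simp only [pow_one, Pi.zero_apply, map_zero] at this
        rw [← map_ofNat (MvPowerSeries.C (σ := Fin r) (R := Lam N)) 2,
          MvPowerSeries.coeff_C_mul] at this
        rw [show N + 1 - N = 1 by omega, pow_one]
        exact this
    choose b hb using h1
    let w : Fin d → P := fun i => fun m => b i m
    refine ⟨w, ?_⟩
    rw [htwo]
    funext i
    ext m
    rw [← map_ofNat (MvPowerSeries.C (σ := Fin r) (R := Lam N)) 2, ← map_pow,
      MvPowerSeries.coeff_C_mul, hb]
    rfl
  have hJtop : ∀ z : Fin d → P, (2 : T) ^ t • z ∈ JT • (⊤ : Submodule T (Fin d → P)) := by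
    intro z
    have hz : z = ∑ j, sc (z j) • (Pi.single j 1 : Fin d → P) := by
      simp only [hscsmul]
      funext i
      simp [Pi.single_apply]
    rw [hz, Finset.smul_sum]
    exact sum_mem fun j _ => by rw [smul_comm]; exact Submodule.smul_mem _ _ (hbase j)
  have hJj : ∀ (j : ℕ) (z : Fin d → P),
      (2 : T) ^ (t * j) • z ∈ JT ^ j • (⊤ : Submodule T (Fin d → P)) := by
    intro j
    induction j with
    | zero => intro z; simp
    | succ j ih =>
      intro z
      have h : (JT ^ j) • (⊤ : Submodule T (Fin d → P)) ≤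
          ((JT ^ (j + 1)) • (⊤ : Submodule T (Fin d → P))).comap
            (LinearMap.lsmul T _ ((2 : T) ^ t)) := by
        refine Submodule.smul_le.2 fun a ha v _ => ?_
        rw [Submodule.mem_comap, LinearMap.lsmul_apply, smul_comm, pow_succ JT j, Submodule.mul_smul]
        exact Submodule.smul_mem_smul ha (hJtop v)
      rw [Nat.mul_succ, pow_add (2 : T) (t * j) t, mul_comm, mul_smul]
      exact h (ih z)
  refine not_forall_two_pow_mem hflat l hlm hlreg fun z => ?_
  rw [← pow_mul_pow_sub (2 : T) (show t * (k + 1) ≤ N by omega), mul_comm, mul_smul]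
  exact Submodule.smul_mem _ _ (hJpow (hJj (k + 1) z))

end FLTAgent.R2

end
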