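import Fermat.Agent.EIS.Tame
import Fermat.Agent.PT.Tool.Places
import Fermat.Agent.PT.Defs

/-!
Area R2: tame inertia at an odd prime in a representation of finite level whose inertia image is
killed by a power of two: it is generated by any inertia element moving a square root of the
prime, Frobenius raises it to the power of the prime, and with a Frobenius it generates the image
of the decomposition group.
-/

set_option autoImplicit false
set_option linter.style.haveILetI false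

noncomputable section

namespace FLTAgent.R2

local notation "GalQ" => AlgebraicClosure ℚ ≃ₐ[ℚ] AlgebraicClosure ℚ

/-- the kernel of the sign on a square root -/
theorem map_sqrt {q : ℕ} {z : AlgebraicClosure ℚ} (hz : z ^ 2 = (q : AlgebraicClosure ℚ))
    (σ : GalQ) : σ z = z ∨ σ z = -z := by
  have h : (σ z) ^ 2 = z ^ 2 := by rw [← map_pow, hz, map_natCast]
  exact sq_eq_sq_iff_eq_or_eq_neg.1 h

/-- the automorphisms fixing a square root of a natural number -/
def sqrtStab (z : AlgebraicClosure ℚ) : Subgroup GalQ := MulAction.stabilizer GalQ z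

theorem normal_sqrtStab {q : ℕ} {z : AlgebraicClosure ℚ} (hz : z ^ 2 = (q : AlgebraicClosure ℚ)) :
    (sqrtStab z).Normal := by
  refine ⟨fun n (hn : n z = z) g => ?_⟩
  show (g * n * g⁻¹) z = z
  rw [AlgEquiv.mul_apply, AlgEquiv.mul_apply]
  rcases map_sqrt hz g⁻¹ with h | h <;> rw [h]
  · rw [hn]
    exact (congrArg g h.symm).trans (g.apply_symm_apply z)
  · rw [map_neg, hn, map_neg, ← map_neg]
    exact (congrArg g h.symm).trans (g.apply_symm_apply z)

theorem tame_image {G : Type*} [Monoid G] (F : GalQ →* G)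
    (hlev : ∃ L : IntermediateField ℚ (AlgebraicClosure ℚ), FiniteDimensional ℚ L ∧
      ∀ σ : GalQ, (∀ x ∈ L, σ x = x) → F σ = 1)
    {q : ℕ} (hq : q.Prime) (hq2 : q ≠ 2) {P : ValuationSubring (AlgebraicClosure ℚ)}
    (hP : P.LiesOverPrime q) {k : ℕ} (hk : ∀ τ ∈ P.inertiaSubgroupIn ℚ, F τ ^ 2 ^ k = 1)
    {τ₀ : GalQ} (hτ₀ : τ₀ ∈ P.inertiaSubgroupIn ℚ)
    (hsqrt : ∀ x : AlgebraicClosure ℚ, x ^ 2 = (q : AlgebraicClosure ℚ) → τ₀ x = -x) :
    (∀ τ ∈ P.inertiaSubgroupIn ℚ, ∃ m : ℕ, F τ = F τ₀ ^ m) ∧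
      ∀ φ : GalQ, P.IsFrobeniusAt φ q →
        F φ * F τ₀ = F τ₀ ^ q * F φ ∧
        ∀ d ∈ P.decompositionSubgroup ℚ, ∃ i m : ℕ, F d = F φ ^ i * F τ₀ ^ m := by
  classical
  haveI := FLTAgent.Common.isAlgebraic_qbar
  haveI := FLTAgent.Common.isGalois_qbar
  obtain ⟨z, hz⟩ := IsAlgClosed.exists_pow_nat_eq (q : AlgebraicClosure ℚ) (n := 2) two_pos
  have hz0 : z ≠ 0 := fun h => hq.ne_zero (by
    rw [h, zero_pow two_ne_zero] at hz; exact_mod_cast hz.symm)
  let N' : Subgroup GalQ := F.ker ⊓ sqrtStab z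
  haveI hN'n : N'.Normal := by
    haveI := normal_sqrtStab hz
    exact inferInstanceAs (F.ker ⊓ sqrtStab z).Normal
  obtain ⟨L₁, hL₁, hF1⟩ := hlev
  haveI := hL₁
  haveI : FiniteDimensional ℚ (IntermediateField.adjoin ℚ ({z} : Set (AlgebraicClosure ℚ))) :=
    IntermediateField.adjoin.finiteDimensional
      ((AlgebraicClosure.isAlgebraic ℚ).isAlgebraic z).isIntegral
  let E := L₁ ⊔ IntermediateField.adjoin ℚ ({z} : Set (AlgebraicClosure ℚ))
  have hEle : E.fixingSubgroup ≤ N' := by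
    intro g hg
    have hfix := (IntermediateField.mem_fixingSubgroup_iff _ _).1 hg
    exact ⟨hF1 g fun x hx => hfix x (le_sup_left (b := IntermediateField.adjoin ℚ {z}) hx),
      hfix z (le_sup_right (a := L₁) (IntermediateField.mem_adjoin_simple_self ℚ z))⟩
  have hopen : IsOpen (N' : Set GalQ) :=
    Subgroup.isOpen_mono hEle (IntermediateField.fixingSubgroup_isOpen E)
  let N'c : ClosedSubgroup GalQ := ⟨N', Subgroup.isClosed_of_isOpen _ hopen⟩
  let L := IntermediateField.fixedField N'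
  have hLfix : L.fixingSubgroup = N' := InfiniteGalois.fixingSubgroup_fixedField N'c
  have hLE : L ≤ E := by
    rw [← InfiniteGalois.fixedField_fixingSubgroup E]
    exact IntermediateField.fixedField_le hEle
  haveI : FiniteDimensional ℚ L := FiniteDimensional.of_injective
    (IntermediateField.inclusion hLE).toLinearMap (IntermediateField.inclusion_injective hLE)
  haveI : L.fixingSubgroup.Normal := by rw [hLfix]; exact hN'n
  haveI : IsGalois ℚ L := (InfiniteGalois.normal_iff_isGalois L).mp inferInstance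
  have hfixN : ∀ g ∈ N', ∀ x ∈ L, g x = x := fun g hg =>
    (IntermediateField.mem_fixingSubgroup_iff _ _).1 (hLfix.symm ▸ hg)
  have hL : ∀ g : GalQ, ∀ x ∈ L, g x ∈ L := by
    intro g x hx
    rw [IntermediateField.mem_fixedField_iff] at hx ⊢
    intro s hs
    have := hx _ (by simpa using hN'n.conj_mem s hs g⁻¹ : g⁻¹ * s * g ∈ N')
    rw [AlgEquiv.mul_apply, AlgEquiv.mul_apply] at this
    have e := congrArg g this
    rwa [← AlgEquiv.mul_apply g g⁻¹, mul_inv_cancel, AlgEquiv.one_apply] at e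
  have hcong : ∀ g g' : GalQ, (∀ x ∈ L, g x = g' x) → F g = F g' ∧ g z = g' z := by
    intro g g' h
    have hm : g'⁻¹ * g ∈ N' := hLfix ▸ (IntermediateField.mem_fixingSubgroup_iff _ _).2 fun x hx =>
      by rw [AlgEquiv.mul_apply, h x hx]; exact g'.symm_apply_apply x
    obtain ⟨h1, h2⟩ := hm
    constructor
    · calc F g = F g' * F (g'⁻¹ * g) := by rw [← map_mul, mul_inv_cancel_left]
        _ = _ := by rw [show F (g'⁻¹ * g) = 1 from h1, mul_one]
    · have h2' : g'⁻¹ (g z) = z := h2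
      calc g z = g' (g'⁻¹ (g z)) := (g'.apply_symm_apply (g z)).symm
        _ = g' z := by rw [h2']
  have hζ : ∀ y : AlgebraicClosure ℚ, y ^ 2 = 1 → y ∈ L := by
    intro y hy
    rcases (sq_eq_one_iff).1 hy with rfl | rfl
    · exact one_mem L
    · exact neg_mem (one_mem L)
  have hexp : ∀ τ ∈ P.inertiaSubgroupIn ℚ, ∀ x ∈ L, (τ ^ (2 ^ (k + 1))) x = x := by
    intro τ hτ
    refine hfixN _ ⟨?_, ?_⟩
    · show F (τ ^ 2 ^ (k + 1)) = 1
      rw [map_pow, pow_succ, pow_mul, hk τ hτ, one_pow]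
    · show (τ ^ 2 ^ (k + 1)) z = z
      rw [pow_succ', pow_mul]
      have h2 : (τ ^ 2) z = z := by
        rw [pow_two, AlgEquiv.mul_apply]
        rcases map_sqrt hz τ with h | h
        · rw [h, h]
        · rw [h, map_neg, h, neg_neg]
      exact (sqrtStab z).pow_mem (show τ ^ 2 ∈ sqrtStab z from h2) _
  obtain ⟨σ₀, hσ₀, hgen, hconj⟩ := EIS.exists_tame_generator (k := k + 1) hq hP Nat.prime_two
    (Ne.symm hq2) L hL hζ hexp
  obtain ⟨m₀, hm₀⟩ := hgen τ₀ hτ₀
  obtain ⟨hFτ, hzτ⟩ := hcong _ _ hm₀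
  rw [map_pow] at hFτ
  have hodd : Odd m₀ := by
    by_contra h
    obtain ⟨c, rfl⟩ := Nat.not_odd_iff_even.1 h
    have h2 : (σ₀ ^ 2) z = z := by
      rw [pow_two, AlgEquiv.mul_apply]
      rcases map_sqrt hz σ₀ with h | h
      · rw [h, h]
      · rw [h, map_neg, h, neg_neg]
    have h3 : (σ₀ ^ (c + c)) z = z := by
      rw [← two_mul, pow_mul]
      exact (sqrtStab z).pow_mem (show σ₀ ^ 2 ∈ sqrtStab z from h2) c
    rw [h3, hsqrt z hz] at hzτ
    exact hz0 (by linear_combination (-(1 : AlgebraicClosure ℚ) / 2) * hzτ)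
  obtain ⟨j, hj⟩ : ∃ j : ℕ, (m₀ * j) % 2 ^ (k + 1) = 1 % 2 ^ (k + 1) := by
    have hcop : m₀.Coprime (2 ^ (k + 1)) :=
      Nat.Coprime.pow_right _ (Nat.coprime_two_right.2 hodd)
    haveI : NeZero (2 ^ (k + 1)) := ⟨pow_ne_zero _ two_ne_zero⟩
    refine ⟨((m₀ : ZMod (2 ^ (k + 1)))⁻¹).val, ?_⟩
    have := ZMod.coe_mul_inv_eq_one m₀ hcop
    exact (ZMod.natCast_eq_natCast_iff' _ _ _).mp (by
      rw [Nat.cast_mul, ZMod.natCast_zmod_val, Nat.cast_one, this])
  have hσ₀1 : F σ₀ ^ (2 ^ (k + 1)) = 1 := by rw [pow_succ, pow_mul, hk σ₀ hσ₀, one_pow]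
  have hinv : F σ₀ = F τ₀ ^ j := by
    rw [hFτ, ← pow_mul, pow_eq_pow_mod (m₀ * j) hσ₀1, hj, ← pow_eq_pow_mod 1 hσ₀1, pow_one]
  refine ⟨fun τ hτ => ?_, fun φ hφ => ⟨?_, fun d hd => ?_⟩⟩
  · obtain ⟨m, hm⟩ := hgen τ hτ
    exact ⟨j * m, by rw [(hcong τ _ hm).1, map_pow, hinv, pow_mul]⟩
  · have h := (hcong _ _ (hconj φ hφ)).1
    rw [map_mul, map_mul, map_pow] at h
    have hc : F φ * F σ₀ = F σ₀ ^ q * F φ := by
      rw [← h, mul_assoc (F φ * F σ₀), ← map_mul F φ⁻¹ φ, inv_mul_cancel, map_one, mul_one]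
    rw [hFτ]
    have : ∀ i : ℕ, F φ * F σ₀ ^ i = (F σ₀ ^ q) ^ i * F φ := by
      intro i
      induction i with
      | zero => simp
      | succ i ih => rw [pow_succ, pow_succ, ← mul_assoc, ih, mul_assoc, hc, mul_assoc]
    rw [this, ← pow_mul, ← pow_mul, mul_comm q]
  · obtain ⟨i, ρ, hρ, hρd⟩ := PT.exists_pow_frob_inertia hq hP hφ hd L
    obtain ⟨m, hm⟩ := hgen ρ hρ
    refine ⟨i, j * m, ?_⟩
    have e1 : F ((φ ^ i)⁻¹ * d) = F τ₀ ^ (j * m) := by
      rw [← (hcong _ _ hρd).1, (hcong ρ _ hm).1, map_pow, hinv, pow_mul]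
    rw [← e1, ← map_pow, ← map_mul, mul_inv_cancel_left]

end FLTAgent.R2

end
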