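import Fermat.Agent.R2.PointRep
import Fermat.Agent.R2.PatchEnd
import Fermat.Agent.R2.Tame

/-!
Area R2, parcel DEF: the coordinates of a pointed ring of deformations.

With `ev` the value at the curve and `J` its kernel: the frame coordinate and the trace of
Frobenius at a killing prime square into `2 J ^ 2 + J ^ 3`, the diamonds are `1` up to `2 J + J ^ 2`,
and `J` is generated by the coordinates and `rk W` further elements.
-/

set_option autoImplicit false
set_option linter.style.haveILetI false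
set_option linter.unusedSectionVars false

noncomputable section

open Matrix IsLocalRing

namespace FLTAgent.R2.Pt

local notation "M₂" => Matrix (Fin 2) (Fin 2)

variable {W : WeierstrassCurve ℤ} {hW : IsAnchor W} {B : Base W} {N n : ℕ} {K : Aux hW B N}

theorem pow_eq_of_unip {A : Type} [CommRing A] {X : M₂ A} (h : (X - 1) * (X - 1) = 0) :
    ∀ m : ℕ, X ^ m = 1 + (m : A) • (X - 1)
  | 0 => by simp
  | m + 1 => by
    have e : X = 1 + (X - 1) := (add_sub_cancel _ _).symm
    rw [pow_succ, pow_eq_of_unip h m]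
    conv_lhs => enter [2]; rw [e]
    rw [mul_add, mul_one, add_mul, one_mul, Matrix.smul_mul, h, smul_zero, add_zero, Nat.cast_succ,
      add_smul, one_smul, add_assoc]

theorem frame_conj {A : Type} [CommRing A] (S : M₂ A) (v : Fin 2 → A) :
    S * (Matrix.of ![v, S *ᵥ v])ᵀ = (Matrix.of ![v, S *ᵥ v])ᵀ * !![0, -S.det; 1, S.trace] := by
  ext i j
  fin_cases i <;> fin_cases j <;>
    simp [Matrix.mul_apply, Matrix.transpose_apply, Matrix.mulVec, dotProduct, Fin.sum_univ_two,
      Matrix.det_fin_two, Matrix.trace_fin_two] <;> ring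

variable {A : Type} [CommRing A] [IsLocalRing A] [Finite A] [Algebra (Lam N) A]
  (ev : A →ₐ[Lam N] Lam N) {ε : ℤˣ} {D : TW K n} {ρT : GQ →* M₂ A}

/-- the kernel of the value at the curve -/
abbrev ptIdeal : Ideal A := RingHom.ker (ev : A →+* Lam N)

theorem sub_algebraMap_mem (x : A) : x - algebraMap (Lam N) A (ev x) ∈ ptIdeal ev := by
  rw [RingHom.mem_ker]
  change ev (x - algebraMap (Lam N) A (ev x)) = 0
  rw [map_sub, AlgHom.commutes, Algebra.algebraMap_self, RingHom.id_apply, sub_self]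

theorem ptIdeal_le (hmax : ∀ x : A, x ∈ maximalIdeal A ↔ par N (ev x) = 0) :
    ptIdeal ev ≤ maximalIdeal A := fun x hx => by
  rw [hmax, show ev x = 0 from hx, map_zero]

theorem maximal_le (hmax : ∀ x : A, x ∈ maximalIdeal A ↔ par N (ev x) = 0) :
    maximalIdeal A ≤ Ideal.span {(2 : A)} ⊔ ptIdeal ev := fun x hx => by
  obtain ⟨b, hb⟩ := (par_eq_zero_iff _).1 ((hmax x).1 hx)
  rw [show x = algebraMap (Lam N) A (ev x) + (x - algebraMap (Lam N) A (ev x)) by ring]
  refine Submodule.add_mem_sup ?_ (sub_algebraMap_mem ev x)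
  rw [hb, map_mul, map_ofNat]
  exact Ideal.mul_mem_right _ _ (Ideal.mem_span_singleton_self _)

/-- what vanishes at the curve and to first order lies in `2 J + J ^ 2` -/
theorem mem_two_mul_sup_sq (hmax : ∀ x : A, x ∈ maximalIdeal A ↔ par N (ev x) = 0) {a : A}
    (ha : a ∈ Ideal.span {(2 : A)} ⊔ maximalIdeal A ^ 2) (h0 : ev a = 0) :
    a ∈ Ideal.span {(2 : A)} * ptIdeal ev ⊔ ptIdeal ev ^ 2 := by
  have h1 : Ideal.span {(2 : A)} ⊔ maximalIdeal A ^ 2 ≤
      Ideal.span {(2 : A)} ⊔ ptIdeal ev ^ 2 :=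
    sup_le le_sup_left ((Ideal.pow_right_mono (maximal_le ev hmax) 2).trans (sup_pow_le _ _ 2))
  obtain ⟨b, hb, w, hw, rfl⟩ := Submodule.mem_sup.1 (h1 ha)
  obtain ⟨u, rfl⟩ := Ideal.mem_span_singleton'.1 hb
  have hw0 : ev w = 0 := (Ideal.pow_le_self two_ne_zero) hw
  rw [map_add, hw0, add_zero, map_mul, map_ofNat] at h0
  refine Submodule.add_mem_sup ?_ hw
  have e : u * 2 = 2 * (u - algebraMap (Lam N) A (ev u)) := by
    rw [mul_sub, mul_comm u, ← map_ofNat (algebraMap (Lam N) A) 2, ← map_mul (algebraMap (Lam N) A),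
      mul_comm (2 : Lam N), h0, map_zero, sub_zero]
  rw [e]
  exact Ideal.mul_mem_mul (Ideal.mem_span_singleton_self _) (sub_algebraMap_mem ev u)

/-- the square of the frame coordinate at a killing prime -/
theorem frame_sq (hc : Cond ε D ρT) (hmax : ∀ x : A, x ∈ maximalIdeal A ↔ par N (ev x) = 0)
    (hdet : ∀ σ, (ρT σ).det - algebraMap (Lam N) A (chi N σ) ∈
      Ideal.span {(2 : A)} ⊔ maximalIdeal A ^ 2)
    (hevdet : ∀ σ, ev (ρT σ).det = chi N σ)
    (hevtau : ∀ i a b, ev ((ρT (K.tau i) - 1) a b) = 0) (i : Fin K.k) :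
    (frameY K ρT i 0 0 - frameY K ρT i 1 0) ∈ ptIdeal ev ∧
    (frameY K ρT i 0 0 - frameY K ρT i 1 0) * (frameY K ρT i 0 0 - frameY K ρT i 1 0) ∈
      Ideal.span {(2 : A)} * ptIdeal ev ^ 2 ⊔ ptIdeal ev ^ 3 := by
  obtain ⟨hq2, -⟩ := good_of_not_dvd_lev K (K.prime i) (K.ndvd i)
  set S := ρT (K.frob i) with hS
  set Y := ρT (K.tau i) - 1 with hY
  set P := frameMat K ρT i with hP
  set Pi := Ring.inverse P.det • P.adjugate with hPi
  have hunit : IsUnit P.det := by
    have hone : ∀ a b, rb hW (K.frob i) a b = 1 → IsUnit (S a b) := fun a b h => by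
      have h1 := hc.res (K.frob i) a b
      rw [h, show ((1 : Lam 0).val : A) = 1 by rw [show (1 : Lam 0).val = 1 from rfl, Nat.cast_one]]
        at h1
      by_contra hu
      have := sub_mem ((mem_maximalIdeal _).2 hu) h1
      rw [sub_sub_cancel] at this
      exact (mem_maximalIdeal _).1 this isUnit_one
    have key : ∀ M : M₂ (Lam 0), M.det = 1 → M ≠ 1 →
        (M *ᵥ ![1, 0] = ![1, 0] → M 0 1 = 1) ∧ (M *ᵥ ![1, 0] ≠ ![1, 0] → M 1 0 = 1) := by decide
    have hd1 : (rb hW (K.frob i)).det = 1 := by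
      have := Layer.det_one (Layer.map_mul_map_inv (r2 hW) (K.frob i))
      rw [r2_eq_rb] at this
      exact this
    obtain ⟨k1, k2⟩ := key _ hd1 (K.ne_one i)
    by_cases hv : rb hW (K.frob i) *ᵥ ![1, 0] = ![1, 0]
    · have e : P.det = -S 0 1 := by
        rw [hP, frameMat, frameVec, if_pos hv]
        simp [Matrix.det_fin_two, Matrix.mulVec, dotProduct, Fin.sum_univ_two, hS]
      rw [e]
      exact (hone 0 1 (k1 hv)).neg
    · have e : P.det = S 1 0 := by
        rw [hP, frameMat, frameVec, if_neg hv]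
        simp [Matrix.det_fin_two, Matrix.mulVec, dotProduct, Fin.sum_univ_two, hS]
      rw [e]
      exact hone 1 0 (k2 hv)
  have hPiP : Pi * P = 1 := by
    rw [hPi, Matrix.smul_mul, Matrix.adjugate_mul, smul_smul, Ring.inverse_mul_cancel _ hunit,
      one_smul]
  have hPPi : P * Pi = 1 := mul_eq_one_comm.1 hPiP
  set Z := frameY K ρT i with hZ
  have hZ' : Z = Pi * Y * P := by
    rw [hZ, frameY, hPi, ← hY, ← hP, Matrix.smul_mul, Matrix.smul_mul]
  have hY2 : Y * Y = 0 := hc.aux i _ (K.tau_mem i)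
  have hpow2 : ∀ τ ∈ (K.place i).inertiaSubgroupIn ℚ, ρT τ ^ 2 ^ (N + 1) = 1 := fun τ hτ => by
    rw [pow_eq_of_unip (hc.aux i τ hτ), ← map_natCast (algebraMap (Lam N) A),
      ZMod.natCast_self, map_zero, zero_smul, add_zero]
  have hlev : ∃ L : IntermediateField ℚ (AlgebraicClosure ℚ), FiniteDimensional ℚ L ∧
      ∀ σ : GQ, (∀ x ∈ L, σ x = x) → ρT σ = 1 := hc.level
  obtain ⟨-, hfrob⟩ := tame_image ρT hlev (K.prime i) hq2 (K.lies i) hpow2 (K.tau_mem i)
    (K.tau_sqrt i)
  obtain ⟨hSY, -⟩ := hfrob _ (K.frob_spec i)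
  have hq : ((K.q i : ℕ) : A) = -1 := by
    rw [← map_natCast (algebraMap (Lam N) A), K.cong i, map_neg, map_one]
  have hanti : S * Y = -(Y * S) := by
    rw [← hS, pow_eq_of_unip hY2, hq, ← hY, neg_one_smul,
      show ρT (K.tau i) = 1 + Y by rw [hY, add_sub_cancel], mul_add, mul_one, add_mul, one_mul,
      neg_mul] at hSY
    exact add_left_cancel hSY
  set C : M₂ A := !![0, -S.det; 1, S.trace]
  have hSP : S * P = P * C := frame_conj S _
  have hCZ : C * Z = -(Z * C) := by
    have e1 : C = Pi * S * P := by rw [mul_assoc, hSP, ← mul_assoc, hPiP, one_mul]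
    calc C * Z = Pi * (S * Y) * P := by
          rw [e1, hZ']
          simp only [mul_assoc]
          rw [← mul_assoc P Pi, hPPi, one_mul]
      _ = -(Pi * (Y * S) * P) := by rw [hanti, mul_neg, neg_mul]
      _ = -(Z * C) := by
          rw [hZ']
          simp only [mul_assoc]
          rw [hSP]
  have hZ2 : Z * Z = 0 := by
    rw [hZ']
    simp only [mul_assoc]
    rw [← mul_assoc P Pi, hPPi, one_mul, ← mul_assoc Y Y, hY2, zero_mul, mul_zero]
  have hmem : ∀ a b, Z a b ∈ ptIdeal ev := fun a b => by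
    rw [RingHom.mem_ker, hZ']
    change ((ev : A →+* Lam N).mapMatrix (Pi * Y * P)) a b = 0
    rw [map_mul, map_mul, show (ev : A →+* Lam N).mapMatrix Y = 0 from
      Matrix.ext fun a b => hevtau i a b, mul_zero, zero_mul, Matrix.zero_apply]
  have hb := congrFun (congrFun hCZ 0) 0
  have ha := congrFun (congrFun hZ2 0) 0
  simp [C, Matrix.mul_apply, Fin.sum_univ_two] at hb ha
  have hchi : chi N (K.frob i) = -1 := by
    have hndvd : ¬ K.q i ∣ 2 ^ (N + 1) := fun h =>
      hq2 ((Nat.prime_dvd_prime_iff_eq (K.prime i) Nat.prime_two).1 ((K.prime i).dvd_of_dvd_pow h))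
    rw [← K.cong i]
    exact Attach.cyc_frobenius (K.prime i) hndvd (K.lies i) (K.frob_spec i)
  have hd : -1 - S.det ∈ Ideal.span {(2 : A)} * ptIdeal ev ⊔ ptIdeal ev ^ 2 := by
    refine mem_two_mul_sup_sq ev hmax ?_ ?_
    · have := neg_mem (hdet (K.frob i))
      rwa [hchi, map_neg, map_one, neg_sub] at this
    · rw [map_sub, map_neg, map_one, hS, hevdet, hchi, sub_self]
  refine ⟨sub_mem (hmem 0 0) (hmem 1 0), ?_⟩
  have hkey : (Z 0 0 - Z 1 0) * (Z 0 0 - Z 1 0) =
      (-1 - S.det) * (Z 1 0 * Z 1 0) - 2 * ((Z 0 0 - Z 1 0) * Z 1 0) := by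
    linear_combination ha + (Z 1 0) * hb
  rw [hkey]
  refine sub_mem ?_ (Ideal.mem_sup_left (Ideal.mul_mem_mul (Ideal.mem_span_singleton_self _) ?_))
  · have h1 := Ideal.mul_mem_mul hd (Ideal.mul_mem_mul (hmem 1 0) (hmem 1 0))
    rw [← pow_two (ptIdeal ev), Ideal.sup_mul, mul_assoc] at h1
    have hle1 : Ideal.span {(2 : A)} * (ptIdeal ev * ptIdeal ev ^ 2) ⊔
        ptIdeal ev ^ 2 * ptIdeal ev ^ 2 ≤
        Ideal.span {(2 : A)} * ptIdeal ev ^ 2 ⊔ ptIdeal ev ^ 3 :=
      sup_le_sup (Ideal.mul_mono_right Ideal.mul_le_right)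
        ((pow_add (ptIdeal ev) 2 2).ge.trans (Ideal.pow_le_pow_right (by norm_num)))
    exact hle1 h1
  · rw [pow_two]
    exact Ideal.mul_mem_mul (sub_mem (hmem 0 0) (hmem 1 0)) (hmem 1 0)

set_option maxHeartbeats 800000 in
/-- the coordinates -/
theorem exists_coords (hc : Cond ε D ρT)
    (hmax : ∀ x : A, x ∈ maximalIdeal A ↔ par N (ev x) = 0)
    (hdet : ∀ σ, (ρT σ).det - algebraMap (Lam N) A (chi N σ) ∈
      Ideal.span {(2 : A)} ⊔ maximalIdeal A ^ 2)
    (hcot : ∃ y : Fin (rk W) → A, (∀ j, y j ∈ maximalIdeal A) ∧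
      maximalIdeal A ≤ Ideal.span (Set.range y ∪ Set.range (coord D ρT)) ⊔ Ideal.span {(2 : A)} ⊔
        maximalIdeal A ^ 2)
    (hevdet : ∀ σ, ev (ρT σ).det = chi N σ)
    (hevtr : ∀ σ, ev (ρT σ).trace = (rE hW N σ).trace)
    (hevtau : ∀ i a b, ev ((ρT (K.tau i) - 1) a b) = 0)
    (hevQ : ∀ i a b, ev ((ρT (D.tau i) - 1) a b) = 0) :
    ∃ (y : Fin (rk W) → A) (c : Fin (2 * K.k) → A),
      let cQ : Fin (rk W) → A := fun i => (ρT (D.tau i) - 1) 0 0
      let J : Ideal A := Ideal.span (Set.range y ∪ Set.range c ∪ Set.range cQ)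
      J = ptIdeal ev ∧ Algebra.adjoin (Lam N) (Set.range y ∪ Set.range c ∪ Set.range cQ) = ⊤ ∧
        (∀ x ∈ J, IsNilpotent x) ∧
        (∀ i, (ρT (D.tau i)).det - 1 ∈ Ideal.span {(2 : A)} * J ⊔ J ^ 2) ∧
        ∀ i, c i * c i ∈ Ideal.span {(2 : A)} * J ^ 2 ⊔ J ^ 3 := by
  classical
  obtain ⟨y0, hy0, hle⟩ := hcot
  let y : Fin (rk W) → A := fun j => y0 j - algebraMap (Lam N) A (ev (y0 j))
  let e : Fin (2 * K.k) ≃ Fin K.k ⊕ Fin K.k := (finCongr (two_mul _)).trans finSumFinEquiv.symm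
  let c : Fin (2 * K.k) → A := fun i =>
    Sum.elim (fun i => frameY K ρT i 0 0 - frameY K ρT i 1 0)
      (fun i => (ρT (K.frob i)).trace) (e i)
  let cQ : Fin (rk W) → A := fun i => (ρT (D.tau i) - 1) 0 0
  set X : Set A := Set.range y ∪ Set.range c ∪ Set.range cQ with hX
  set I : Ideal A := Ideal.span X with hI
  set J := ptIdeal ev with hJdef
  have hfr := frame_sq ev hc hmax hdet hevdet hevtau
  have htK : ∀ i, (ρT (K.frob i)).trace ∈ J := fun i => by
    rw [hJdef, RingHom.mem_ker]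
    change ev (ρT (K.frob i)).trace = 0
    rw [hevtr, K.tr]
  have hXJ : X ⊆ J := by
    rintro x ((⟨j, rfl⟩ | ⟨i, rfl⟩) | ⟨i, rfl⟩)
    · exact sub_algebraMap_mem ev _
    · simp only [c]
      rcases e i with j | j
      · exact (hfr j).1
      · exact htK j
    · exact hevQ i 0 0
  have h2 : Ideal.span {(2 : A)} ≤ maximalIdeal A := (Ideal.span_singleton_le_iff_mem _).2
    ((hmax 2).2 (by rw [map_ofNat, map_ofNat]; rfl))
  have hjac : maximalIdeal A ≤ Ideal.jacobson ⊥ :=
    (IsLocalRing.jacobson_eq_maximalIdeal (R := A) ⊥ bot_ne_top).ge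
  have hm : maximalIdeal A ≤ I ⊔ Ideal.span {(2 : A)} := by
    refine Submodule.le_of_le_smul_of_le_jacobson_bot (IsNoetherian.noetherian _) hjac ?_
    rw [smul_eq_mul, ← pow_two]
    refine hle.trans (sup_le_sup_right (sup_le ?_ le_sup_right) _)
    refine Ideal.span_le.2 ?_
    rintro x (⟨j, rfl⟩ | ⟨idx, rfl⟩)
    · rw [show y0 j = y j + algebraMap (Lam N) A (ev (y0 j)) by simp [y]]
      obtain ⟨b, hb⟩ := (par_eq_zero_iff _).1 ((hmax _).1 (hy0 j))
      refine Submodule.add_mem_sup (Ideal.subset_span (Or.inl (Or.inl ⟨j, rfl⟩))) ?_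
      rw [hb, map_mul, map_ofNat]
      exact Ideal.mul_mem_right _ _ (Ideal.mem_span_singleton_self _)
    · refine Ideal.mem_sup_left (Ideal.subset_span ?_)
      rcases idx with i | i | i
      · exact Or.inl (Or.inr ⟨e.symm (Sum.inl i), by simp [c, coord]⟩)
      · exact Or.inl (Or.inr ⟨e.symm (Sum.inr i), by simp [c, coord]⟩)
      · exact Or.inr ⟨i, rfl⟩
  have hIJ : I = J := by
    refine le_antisymm (Ideal.span_le.2 hXJ) ?_
    refine Submodule.le_of_le_smul_of_le_jacobson_bot (IsNoetherian.noetherian _) (h2.trans hjac) ?_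
    intro a ha
    obtain ⟨i, hi, w, hw, rfl⟩ := Submodule.mem_sup.1 (hm (ptIdeal_le ev hmax ha))
    obtain ⟨u, rfl⟩ := Ideal.mem_span_singleton'.1 hw
    refine Submodule.add_mem_sup hi ?_
    have h0 : ev (u * 2) = 0 := by
      have : ev (i + u * 2) = 0 := ha
      rwa [map_add, show ev i = 0 from (Ideal.span_le.2 hXJ) hi, zero_add] at this
    rw [map_mul, map_ofNat] at h0
    have e' : u * 2 = 2 * (u - algebraMap (Lam N) A (ev u)) := by
      rw [mul_sub, mul_comm u, ← map_ofNat (algebraMap (Lam N) A) 2,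
        ← map_mul (algebraMap (Lam N) A), mul_comm (2 : Lam N), h0, map_zero, sub_zero]
    rw [e', smul_eq_mul]
    exact Ideal.mul_mem_mul (Ideal.mem_span_singleton_self _) (sub_algebraMap_mem ev u)
  obtain ⟨L, hL⟩ := IsArtinianRing.isNilpotent_jacobson_bot (R := A)
  have hJL : J ^ L = ⊥ := le_bot_iff.1
    ((Ideal.pow_right_mono ((ptIdeal_le ev hmax).trans hjac) L).trans hL.le)
  have hgen : Algebra.adjoin (Lam N) X = ⊤ := by
    set S := Algebra.adjoin (Lam N) X with hS
    have key : ∀ j : ℕ, ∀ a ∈ J ^ (L - j), a ∈ S := by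
      intro j
      induction j with
      | zero =>
        intro a ha
        rw [Nat.sub_zero, hJL, Ideal.mem_bot] at ha
        exact ha ▸ S.zero_mem
      | succ j ih =>
        intro a ha
        rcases Nat.lt_or_ge j L with hj | hj
        swap
        · exact ih a (by rwa [show L - j = L - (j + 1) by omega])
        set m := L - (j + 1) with hm'
        have hm1 : L - j = m + 1 := by omega
        rw [hm1] at ih
        have ha' : a ∈ I ^ m := hIJ ▸ ha
        rw [hI, Ideal.span, Submodule.span_pow] at ha'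
        clear ha
        suffices a ∈ S ∧ a ∈ J ^ m from this.1
        induction ha' using Submodule.span_induction with
        | mem b hb =>
          refine ⟨?_, ?_⟩
          · rw [Set.mem_pow] at hb
            obtain ⟨f, rfl⟩ := hb
            exact list_prod_mem fun z hz => by
              obtain ⟨i, rfl⟩ := List.mem_ofFn.1 hz
              exact Algebra.subset_adjoin (f i).2
          · rw [← hIJ, hI, Ideal.span, Submodule.span_pow]
            exact Submodule.subset_span hb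
        | zero => exact ⟨S.zero_mem, zero_mem _⟩
        | add b b' _ _ hb hb' => exact ⟨add_mem hb.1 hb'.1, add_mem hb.2 hb'.2⟩
        | smul r b _ hb =>
          refine ⟨?_, Ideal.mul_mem_left _ r hb.2⟩
          rw [smul_eq_mul, show r * b = algebraMap (Lam N) A (ev r) * b +
            (r - algebraMap (Lam N) A (ev r)) * b by ring]
          refine add_mem (mul_mem (S.algebraMap_mem _) hb.1) (ih _ ?_)
          rw [pow_succ']
          exact Ideal.mul_mem_mul (sub_algebraMap_mem ev r) hb.2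
    rw [eq_top_iff]
    intro a _
    exact key L a (by rw [Nat.sub_self, pow_zero, Ideal.one_eq_top]; trivial)
  refine ⟨y, c, hIJ, hgen, fun x hx => ?_, fun i => ?_, fun i => ?_⟩
  · refine ⟨L, ?_⟩
    have := Ideal.pow_mem_pow (show x ∈ J from hIJ ▸ hx) L
    rwa [hJL, Ideal.mem_bot] at this
  · show _ ∈ Ideal.span {(2 : A)} * I ⊔ I ^ 2
    rw [hIJ]
    have h1 : ev (ρT (D.tau i)).det = 1 := by
      change (ev : A →+* Lam N) (ρT (D.tau i)).det = 1
      rw [RingHom.map_det, show (ev : A →+* Lam N).mapMatrix (ρT (D.tau i)) = 1 from ?_,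
        Matrix.det_one]
      refine Matrix.ext fun a b => ?_
      have := hevQ i a b
      rw [Matrix.sub_apply, map_sub, sub_eq_zero] at this
      refine this.trans ?_
      rcases eq_or_ne a b with rfl | h <;> simp [*]
    refine mem_two_mul_sup_sq ev hmax ?_ (by rw [map_sub, h1, map_one, sub_self])
    have := hdet (D.tau i)
    rwa [← hevdet, h1, map_one] at this
  · show c i * c i ∈ Ideal.span {(2 : A)} * I ^ 2 ⊔ I ^ 3
    rw [hIJ]
    simp only [c]
    rcases e i with j | j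
    · exact (hfr j).2
    · rw [Sum.elim_inr, ← pow_two, hc.aux_tr j]
      exact zero_mem _

end FLTAgent.R2.Pt

end
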