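import Fermat.Agent.R2.TanBridge

/-!
Area R2, parcel tangent space: the determinant character has no tangent vector, and off the
coordinates the cotangent space has dimension at most `rk W`.
-/

set_option autoImplicit false
set_option linter.style.haveILetI false

noncomputable section

open Matrix FLTAgent.R2.Tan IsLocalRing

namespace FLTAgent.R2

variable {W : WeierstrassCurve ℤ} {hW : IsAnchor W} {B : Base W} {N n : ℕ} {K : Aux hW B N}
  {R : Type} [CommRing R] [IsLocalRing R] [Algebra (Lam N) R] {ε : ℤˣ}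
  {D : TW K n} {ρ : GQ →* Matrix (Fin 2) (Fin 2) R}

omit [IsLocalRing R] in
theorem two_pow_eq_zero : (2 : R) ^ (N + 1) = 0 := by
  have h : ((2 : ℕ) : Lam N) ^ (N + 1) = 0 := by
    rw [← Nat.cast_pow, ZMod.natCast_self]
  have e := congrArg (algebraMap (Lam N) R) h
  rwa [map_pow, map_natCast, map_zero, Nat.cast_ofNat] at e

omit [Algebra (Lam N) R] in
theorem two_mem_of_pow (h : (2 : R) ^ (N + 1) = 0) : (2 : R) ∈ maximalIdeal R :=
  (mem_maximalIdeal _).2 (IsNilpotent.not_isUnit ⟨N + 1, h⟩)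

omit [Algebra (Lam N) R] in
theorem cases_of_nat (h2 : (2 : R) ∈ maximalIdeal R) {x : R}
    (h : ∃ c : ℕ, x - (c : R) ∈ maximalIdeal R) : x ∈ maximalIdeal R ∨ x - 1 ∈ maximalIdeal R := by
  obtain ⟨c, hc⟩ := h
  rcases Nat.even_or_odd' c with ⟨j, rfl | rfl⟩
  · left
    have := add_mem hc (Ideal.mul_mem_right (j : R) (maximalIdeal R) h2)
    rwa [Nat.cast_mul, Nat.cast_ofNat, sub_add_cancel] at this
  · right
    have := add_mem hc (Ideal.mul_mem_right (j : R) (maximalIdeal R) h2)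
    rwa [Nat.cast_add, Nat.cast_mul, Nat.cast_ofNat, Nat.cast_one,
      show x - (2 * (j : R) + 1) + 2 * j = x - 1 by ring] at this

/-- the algebra of the entries -/
def entries (ρ : GQ →* Matrix (Fin 2) (Fin 2) R) : Subalgebra (Lam N) R :=
  Algebra.adjoin (Lam N) {x | ∃ σ a b, ρ σ a b = x}

omit [IsLocalRing R] in
theorem mem_entries (σ : GQ) (a b : Fin 2) : ρ σ a b ∈ entries (N := N) ρ :=
  Algebra.subset_adjoin ⟨σ, a, b, rfl⟩

theorem entries_nat (hc : Cond ε D ρ) {x : R} (hx : x ∈ entries (N := N) ρ) :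
    ∃ c : ℕ, x - (c : R) ∈ maximalIdeal R := by
  induction hx using Algebra.adjoin_induction with
  | mem x hx => obtain ⟨σ, a, b, rfl⟩ := hx; exact ⟨_, hc.res σ a b⟩
  | algebraMap c =>
    refine ⟨c.val, ?_⟩
    rw [← map_natCast (algebraMap (Lam N) R), ZMod.natCast_zmod_val, sub_self]
    exact zero_mem _
  | add x y _ _ hx hy =>
    obtain ⟨a, ha⟩ := hx
    obtain ⟨b, hb⟩ := hy
    refine ⟨a + b, ?_⟩
    rw [Nat.cast_add, show x + y - ((a : R) + b) = (x - a) + (y - b) by ring]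
    exact add_mem ha hb
  | mul x y _ _ hx hy =>
    obtain ⟨a, ha⟩ := hx
    obtain ⟨b, hb⟩ := hy
    refine ⟨a * b, ?_⟩
    rw [Nat.cast_mul, show x * y - (a : R) * b = (x - a) * y + a * (y - b) by ring]
    exact add_mem (Ideal.mul_mem_right _ _ ha) (Ideal.mul_mem_left _ _ hb)

/-- the representation with values in the algebra of its entries -/
def rhoEnt (ρ : GQ →* Matrix (Fin 2) (Fin 2) R) :
    GQ →* Matrix (Fin 2) (Fin 2) (entries (N := N) ρ) where
  toFun σ := Matrix.of fun a b => ⟨ρ σ a b, mem_entries σ a b⟩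
  map_one' := by
    refine Matrix.ext fun a b => Subtype.ext ?_
    show ρ 1 a b = _
    rw [map_one]
    fin_cases a <;> fin_cases b <;> simp
  map_mul' σ τ := by
    refine Matrix.ext fun a b => Subtype.ext ?_
    show ρ (σ * τ) a b = _
    simp only [map_mul, Matrix.mul_apply, Fin.sum_univ_two]
    rfl

omit [IsLocalRing R] in
theorem rhoEnt_map (σ : GQ) :
    (entries (N := N) ρ).val.toRingHom.mapMatrix (rhoEnt ρ σ) = ρ σ := rfl

theorem det_sub_chi_mem_aux (hc : Cond ε D ρ) (σ : GQ) :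
    (ρ σ).det - algebraMap (Lam N) R (chi N σ) ∈ Ideal.span {(2 : R)} ⊔ maximalIdeal R ^ 2 := by
  set R₀ := entries (N := N) ρ
  set v := R₀.val.toRingHom
  have hv : Function.Injective v := Subtype.val_injective
  have h2m := two_mem_of_pow (two_pow_eq_zero (N := N) (R := R))
  set I₀ : Ideal R₀ := (maximalIdeal R).comap v
  have hI : ResTwo I₀ := by
    refine ⟨?_, ?_, fun x => ?_⟩
    · rw [Ideal.mem_comap, map_one]
      exact (maximalIdeal R).ne_top_iff_one.1 (maximalIdeal.isMaximal R).ne_top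
    · rwa [Ideal.mem_comap, map_ofNat]
    · rw [Ideal.mem_comap, Ideal.mem_comap, map_sub, map_one]
      exact cases_of_nat h2m (entries_nat hc x.2)
  set ρ₀ := rhoEnt (N := N) ρ
  have hρ : ∀ τ, v.mapMatrix (ρ₀ τ) = ρ τ := fun τ => rhoEnt_map τ
  have hdet : ∀ τ, Attach.cyc D.R τ = 1 → (ρ₀ τ).det = algebraMap (Lam N) R₀ (chi N τ) :=
    fun τ hτ => hv (by rw [RingHom.map_det, hρ, hc.det τ hτ]; rfl)
  have hbad : ∀ q ∈ badOdd W, ∀ P : ValuationSubring (AlgebraicClosure ℚ), P.LiesOverPrime q →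
      ∀ τ ∈ P.inertiaSubgroupIn ℚ, (ρ₀ τ - 1) * (ρ₀ τ - 1) = 0 := fun q hq P hP τ hτ =>
    Matrix.map_injective hv (show v.mapMatrix _ = v.mapMatrix 0 by
      rw [map_mul, map_sub, map_one, hρ, map_zero, hc.bad q hq P hP τ hτ])
  have hmap : ∀ (f : R₀ ⧸ tanIdeal I₀ →ₗ[ZMod 2] ZMod 2) (h1 : f 1 = 0),
      TanMap (hW := hW) ρ₀ (hI.dualMap f h1) := fun f h1 => by
    refine ⟨?_, fun τ a b => ?_⟩
    · obtain ⟨L, hL, h⟩ := hc.level
      exact ⟨L, hL, fun τ hτ => Matrix.map_injective hv (show v.mapMatrix _ = v.mapMatrix 1 by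
        rw [hρ, map_one]; exact h τ hτ)⟩
    · rw [hI.dualMap_fst]
      refine hI.resMap_eq_val _ ?_
      rw [Ideal.mem_comap, map_sub, map_natCast, rU_val]
      exact hc.res τ a b
  have hx : (ρ₀ σ).det - algebraMap (Lam N) R₀ (chi N σ) ∈ tanIdeal I₀ := hI.mem_tanIdeal
    fun f h1 => by
      have h := hmap f h1
      rw [map_sub, map_chi, RingHom.map_det, ← mapLift_apply h]
      refine sub_eq_zero.2 ((det_eq_one_iff (mapLift h) σ).2 ?_)
      exact trace_coc_eq_zero' (tanSetting D) (fun w hw τ hτ => det_one_of_unr h hdet hw hτ)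
        (fun w hw τ hτ => unip_of_bad h hbad hw hτ) σ
  have e : (ρ σ).det - algebraMap (Lam N) R (chi N σ) =
      v ((ρ₀ σ).det - algebraMap (Lam N) R₀ (chi N σ)) := by
    rw [map_sub, RingHom.map_det, hρ]; rfl
  rw [e, ← Ideal.mem_comap]
  refine (sup_le ?_ ?_ : tanIdeal I₀ ≤ _) hx
  · rw [Ideal.span_singleton_le_iff_mem, Ideal.mem_comap, map_ofNat]
    exact Ideal.mem_sup_left (Ideal.mem_span_singleton_self _)
  · rw [pow_two]
    refine Ideal.mul_le.2 fun a ha b hb => ?_
    rw [Ideal.mem_comap, map_mul, pow_two]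
    exact Ideal.mem_sup_right (Ideal.mul_mem_mul ha hb)

theorem exists_cotangent_aux [Finite R] (hc : Cond ε D ρ)
    (hgen : Algebra.adjoin (Lam N) (Set.range fun σ => (ρ σ).trace) = ⊤) :
    ∃ y : Fin (rk W) → R, (∀ j, y j ∈ maximalIdeal R) ∧
      maximalIdeal R ≤ Ideal.span (Set.range y ∪ Set.range (coord D ρ)) ⊔ Ideal.span {(2 : R)} ⊔
        maximalIdeal R ^ 2 := by
  classical
  have h2m := two_mem_of_pow (two_pow_eq_zero (N := N) (R := R))
  have hall : ∀ x : R, x ∈ maximalIdeal R ∨ x - 1 ∈ maximalIdeal R := fun x => by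
    refine cases_of_nat h2m (entries_nat hc ?_)
    have hle : Algebra.adjoin (Lam N) (Set.range fun σ => (ρ σ).trace) ≤ entries (N := N) ρ :=
      Algebra.adjoin_le (by
        rintro _ ⟨σ, rfl⟩
        show (ρ σ).trace ∈ entries (N := N) ρ
        rw [Matrix.trace_fin_two]
        exact add_mem (mem_entries σ 0 0) (mem_entries σ 1 1))
    exact hle (hgen.symm ▸ Algebra.mem_top)
  set m := maximalIdeal R
  have hI : ResTwo m := ⟨m.ne_top_iff_one.1 (maximalIdeal.isMaximal R).ne_top, h2m, hall⟩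
  let q := Ideal.Quotient.mk (tanIdeal m)
  -- the lifts
  let T := {φ : R →+* DualNumber (ZMod 2) //
    TanMap (hW := hW) ρ φ ∧ ∀ c, (φ (coord D ρ c)).snd = 0}
  obtain ⟨hT, hcard⟩ := card_tanSpace_le (tanSetting D) (selTrivial D)
    (T := T) (fun t => mapLift t.2.1) (fun t => tanCond hc t.2.1 t.2.2) (by
      rintro ⟨φ, hφ, hφc⟩ ⟨ψ, hψ, hψc⟩ ⟨M, hM⟩
      refine Subtype.ext (RingHom.ext fun x => ?_)
      have hx : x ∈ Algebra.adjoin (Lam N) (Set.range fun σ => (ρ σ).trace) :=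
        hgen.symm ▸ Algebra.mem_top
      induction hx using Algebra.adjoin_induction with
      | algebraMap c => exact RingHom.congr_fun (RingHom.ext_zmod (φ.comp (algebraMap (Lam N) R))
          (ψ.comp (algebraMap (Lam N) R))) c
      | add a b _ _ ha hb => rw [map_add, map_add, ha, hb]
      | mul a b _ _ ha hb => rw [map_mul, map_mul, ha, hb]
      | mem a ha =>
        obtain ⟨σ, rfl⟩ := ha
        simp only [Matrix.trace_fin_two, map_add]
        refine TrivSqZeroExt.ext (by simp only [TrivSqZeroExt.fst_add, hφ.fst, hψ.fst]) ?_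
        have key : ∀ (g M A B : Matrix (Fin 2) (Fin 2) (ZMod 2)),
            A + B = g * M + M * g → A 0 0 + A 1 1 = B 0 0 + B 1 1 := by
          intro g M A B h
          have e := congrArg Matrix.trace h
          rw [Matrix.trace_add, Matrix.trace_add, Matrix.trace_mul_comm M g,
            CharTwo.add_self_eq_zero, CharTwo.add_eq_zero] at e
          rwa [Matrix.trace_fin_two, Matrix.trace_fin_two] at e
        simp only [TrivSqZeroExt.snd_add]
        exact key _ _ _ _ (hM σ))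
  -- the functionals
  set V := Submodule.span (ZMod 2) (insert 1 (q '' Set.range (coord D ρ))) with hV
  haveI : Finite (R ⧸ tanIdeal m) := Finite.of_surjective q Ideal.Quotient.mk_surjective
  haveI : Finite ((R ⧸ tanIdeal m) ⧸ V) := Finite.of_surjective _ V.mkQ_surjective
  let toT : Module.Dual (ZMod 2) ((R ⧸ tanIdeal m) ⧸ V) → T := fun g =>
    have h1 : (g.comp V.mkQ) 1 = 0 := by
      rw [LinearMap.comp_apply, Submodule.mkQ_apply,
        (Submodule.Quotient.mk_eq_zero V).2 (Submodule.subset_span (Set.mem_insert _ _)), map_zero]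
    ⟨hI.dualMap (g.comp V.mkQ) h1,
      ⟨hc.level, fun τ a b => by
        rw [hI.dualMap_fst]
        refine hI.resMap_eq_val _ ?_
        rw [rU_val]
        exact hc.res τ a b⟩,
      fun c => by
        rw [hI.dualMap_snd, LinearMap.comp_apply, Submodule.mkQ_apply,
          (Submodule.Quotient.mk_eq_zero V).2 (Submodule.subset_span
            (Set.mem_insert_of_mem _ ⟨_, ⟨c, rfl⟩, rfl⟩)), map_zero]⟩
  have hinj : Function.Injective toT := fun g g' e => by
    refine LinearMap.ext fun z => ?_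
    obtain ⟨w, rfl⟩ := V.mkQ_surjective z
    obtain ⟨x, rfl⟩ := Ideal.Quotient.mk_surjective w
    have := congrArg (fun t : T => (t.1 x).snd) e
    simpa only [toT, hI.dualMap_snd, LinearMap.comp_apply] using this
  haveI := hT
  have hdim : Module.finrank (ZMod 2) ((R ⧸ tanIdeal m) ⧸ V) ≤ rk W := by
    have h := (Nat.card_le_card_of_injective toT hinj).trans hcard
    rw [Module.natCard_eq_pow_finrank (K := ZMod 2), Subspace.dual_finrank_eq, Nat.card_zmod,
      card_badP, show (badOdd W).card - 1 = rk W from rfl] at h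
    exact (Nat.pow_le_pow_iff_right one_lt_two).1 h
  -- the generators
  let b := Module.finBasis (ZMod 2) ((R ⧸ tanIdeal m) ⧸ V)
  let z : Fin (rk W) → (R ⧸ tanIdeal m) ⧸ V := fun j =>
    if h : (j : ℕ) < Module.finrank (ZMod 2) ((R ⧸ tanIdeal m) ⧸ V) then b ⟨j, h⟩ else 0
  have hlift : ∀ j, ∃ x ∈ m, V.mkQ (q x) = z j := by
    intro j
    obtain ⟨w, hw⟩ := V.mkQ_surjective (z j)
    obtain ⟨x, rfl⟩ := Ideal.Quotient.mk_surjective w
    rcases hall x with hx | hx
    · exact ⟨x, hx, hw⟩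
    · refine ⟨x - 1, hx, ?_⟩
      rw [map_sub q, map_one q, map_sub, Submodule.mkQ_apply V 1,
        (Submodule.Quotient.mk_eq_zero V).2 (Submodule.subset_span (Set.mem_insert _ _)), sub_zero,
        hw]
  choose y hym hyz using hlift
  refine ⟨y, hym, fun x hx => ?_⟩
  set RHS := Ideal.span (Set.range y ∪ Set.range (coord D ρ)) ⊔ Ideal.span {(2 : R)} ⊔ m ^ 2
    with hRHS
  by_cases htop : RHS = ⊤
  · rw [htop]; trivial
  have hJ : tanIdeal m ≤ RHS := sup_le (le_sup_of_le_left le_sup_right) le_sup_right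
  let G : Submodule (ZMod 2) (R ⧸ tanIdeal m) :=
    AddSubgroup.toZModSubmodule 2 (RHS.toAddSubgroup.map q.toAddMonoidHom)
  have hG : ∀ r ∈ RHS, q r ∈ G := fun r hr => ⟨r, hr, rfl⟩
  have hle : Ideal.span (Set.range y ∪ Set.range (coord D ρ)) ≤ RHS :=
    le_sup_of_le_left le_sup_left
  have hspan : ∀ w, w ∈ Submodule.span (ZMod 2) {(1 : R ⧸ tanIdeal m)} ⊔ G := by
    intro w
    have hVle : V ≤ Submodule.span (ZMod 2) {(1 : R ⧸ tanIdeal m)} ⊔ G := by
      rw [hV, Submodule.span_le]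
      rintro u (rfl | ⟨_, ⟨c, rfl⟩, rfl⟩)
      · exact Submodule.mem_sup_left (Submodule.mem_span_singleton_self _)
      · exact Submodule.mem_sup_right (hG _ (hle
          (Ideal.subset_span (Or.inr ⟨c, rfl⟩))))
    have hmap : V.mkQ w ∈ (Submodule.span (ZMod 2) {(1 : R ⧸ tanIdeal m)} ⊔ G).map V.mkQ := by
      rw [← b.sum_repr (V.mkQ w)]
      refine Submodule.sum_mem _ fun k _ => Submodule.smul_mem _ _ ?_
      have hk : (k : ℕ) < rk W := lt_of_lt_of_le k.2 hdim
      refine ⟨q (y ⟨k, hk⟩), Submodule.mem_sup_right (hG _ (hle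
        (Ideal.subset_span (Or.inl ⟨_, rfl⟩)))), ?_⟩
      rw [hyz, show z ⟨k, hk⟩ = b k from dif_pos k.2]
    rw [← Submodule.mem_comap, Submodule.comap_map_mkQ, sup_eq_right.2 hVle] at hmap
    exact hmap
  obtain ⟨u, hu, w, hw, e⟩ := Submodule.mem_sup.1 (hspan (q x))
  obtain ⟨c, rfl⟩ := Submodule.mem_span_singleton.1 hu
  obtain ⟨r, hr, rfl⟩ := hw
  obtain rfl | rfl : c = 0 ∨ c = 1 := (by decide : ∀ c : ZMod 2, c = 0 ∨ c = 1) c
  · rw [zero_smul, zero_add] at e
    have := RHS.sub_mem hr (hJ ((Ideal.Quotient.mk_eq_mk_iff_sub_mem _ _).1 e))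
    rwa [sub_sub_cancel] at this
  · rw [one_smul, ← map_one q] at e
    have e' : q (1 + r) = q x := by rw [map_add]; exact e
    have h1 := RHS.sub_mem hr (hJ ((Ideal.Quotient.mk_eq_mk_iff_sub_mem _ _).1 e'))
    rw [show r - (1 + r - x) = x - 1 by ring] at h1
    exfalso
    have := m.sub_mem hx (IsLocalRing.le_maximalIdeal htop h1)
    rw [sub_sub_cancel] at this
    exact hI.ne_top this

end FLTAgent.R2

end
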