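import Fermat.Agent.R2.Defs
import Fermat.Agent.R2.PointCoord
import Fermat.Agent.R2.TanCotangent

/-!
Area R2, parcel DEF: the tangent space and the ring of a level joined with the curve point.

`PointRing`: a ring over the ring of a level, generated by `rk W` elements `y`, the coordinates `c`
at the killing primes and the coordinates `cQ` at the Taylor–Wiles primes, all vanishing at the
curve; there the diamonds are `1` up to `2 J + J ^ 2` and the squares of the coordinates `c` lie in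
`2 J ^ 2 + J ^ 3`.
-/

set_option autoImplicit false
set_option linter.style.haveILetI false

noncomputable section

open Matrix IsLocalRing

namespace FLTAgent.R2

variable {W : WeierstrassCurve ℤ} {hW : IsAnchor W} {B : Base W} {N n : ℕ} {K : Aux hW B N}

section Tangent

variable {R : Type} [CommRing R] [IsLocalRing R] [Finite R] [Algebra (Lam N) R] {ε : ℤˣ}
  {D : TW K n} {ρ : GQ →* Matrix (Fin 2) (Fin 2) R}

/-- the determinant character has no tangent vector -/
theorem det_sub_chi_mem (hc : Cond ε D ρ) (σ : GQ) :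
    (ρ σ).det - algebraMap (Lam N) R (chi N σ) ∈ Ideal.span {(2 : R)} ⊔ maximalIdeal R ^ 2 :=
  det_sub_chi_mem_aux hc σ

/-- off the coordinates the tangent space has dimension at most `rk W` -/
theorem exists_cotangent (hc : Cond ε D ρ)
    (hgen : Algebra.adjoin (Lam N) (Set.range fun σ => (ρ σ).trace) = ⊤) :
    ∃ y : Fin (rk W) → R, (∀ j, y j ∈ maximalIdeal R) ∧
      maximalIdeal R ≤ Ideal.span (Set.range y ∪ Set.range (coord D ρ)) ⊔ Ideal.span {(2 : R)} ⊔
        maximalIdeal R ^ 2 :=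
  exists_cotangent_aux hc hgen

end Tangent

/-- the ring of a level joined with the curve point -/
structure PointRing (D : TW K n) {R : Type} [CommRing R] [Algebra (Lam N) R]
    (ρ : GQ →* Matrix (Fin 2) (Fin 2) R) : Type 1 where
  R' : Type
  [commRing : CommRing R']
  [algebra : Algebra (Lam N) R']
  π : R' →ₐ[Lam N] R
  y : Fin (rk W) → R'
  c : Fin (2 * K.k) → R'
  cQ : Fin (rk W) → R'
  δ : Fin (rk W) → R'
  δ_eq : ∀ i, π (δ i) = (ρ (D.tau i)).det
  cQ_mem : ∀ i, π (cQ i) ∈
    Ideal.span (Set.range fun ab : Fin 2 × Fin 2 => (ρ (D.tau i) - 1) ab.1 ab.2)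
  gen : Algebra.adjoin (Lam N) (Set.range y ∪ Set.range c ∪ Set.range cQ) = ⊤
  nil : ∀ x ∈ Ideal.span (Set.range y ∪ Set.range c ∪ Set.range cQ), IsNilpotent x
  δ_mem : ∀ i, δ i - 1 ∈ Ideal.span {(2 : R')} * Ideal.span (Set.range y ∪ Set.range c ∪ Set.range cQ) ⊔
    Ideal.span (Set.range y ∪ Set.range c ∪ Set.range cQ) ^ 2
  sq : ∀ i, c i * c i ∈ Ideal.span {(2 : R')} *
      Ideal.span (Set.range y ∪ Set.range c ∪ Set.range cQ) ^ 2 ⊔
    Ideal.span (Set.range y ∪ Set.range c ∪ Set.range cQ) ^ 3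
  trace : ∀ σ, ∃ a : R', π a = (ρ σ).trace ∧
    a - algebraMap (Lam N) R' (rE hW N σ).trace ∈
      Ideal.span (Set.range y ∪ Set.range c ∪ Set.range cQ)

attribute [instance] PointRing.commRing PointRing.algebra

/-- every level joins the curve point -/
theorem nonempty_pointRing {R : Type} [CommRing R] [IsLocalRing R] [Finite R] [Algebra (Lam N) R]
    {ε : ℤˣ} {D : TW K n} {ρ : GQ →* Matrix (Fin 2) (Fin 2) R} (hc : Cond ε D ρ)
    (hgen : Algebra.adjoin (Lam N) (Set.range fun σ => (ρ σ).trace) = ⊤)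
    (hE : Cond ε D (rE hW N)) : Nonempty (PointRing D ρ) := by
  classical
  haveI := Pt.isLocalRing_carrier hc
  obtain ⟨ρT, F, hF, htr, hdet, -, hgenT, hcT⟩ := Pt.exists_rep_carrier hc hE
  let A := Pt.carrier hW N ρ
  let ev : A →ₐ[Lam N] Lam N := (AlgHom.snd (Lam N) R (Lam N)).comp A.val
  let π : A →ₐ[Lam N] R := (AlgHom.fst (Lam N) R (Lam N)).comp A.val
  have hmax : ∀ x : A, x ∈ maximalIdeal A ↔ Pt.par N (ev x) = 0 := fun x => by
    rw [Pt.maximalIdeal_carrier, RingHom.mem_ker]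
    rfl
  have hev : ∀ σ, rE hW N σ = 1 → ∀ a b, ev ((ρT σ - 1) a b) = 0 := fun σ h a b => by
    have h1 : ((0, 1) : R × Lam N) • Pt.pairRep hW N ρ σ =
        ((0, 1) : R × Lam N) • (1 : Matrix (Fin 2) (Fin 2) (R × Lam N)) := by
      refine Matrix.ext fun a b => Prod.ext ?_ ?_
      · rcases eq_or_ne a b with rfl | hab <;> simp [*]
      · rcases eq_or_ne a b with rfl | hab <;> simp [Pt.pairRep, *]
    have h2 := congrArg F h1
    rw [map_smul, map_smul, map_one, ← hF] at h2
    have h3 := congrArg Prod.snd (congrFun (congrFun h2 a) b)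
    rcases eq_or_ne a b with rfl | hab <;> simp [ev, *] at h3 ⊢ <;> simp [h3]
  have htau : ∀ i, rE hW N (K.tau i) = 1 := fun i => by
    obtain ⟨h2, hg⟩ := good_of_not_dvd_lev K (K.prime i) (K.ndvd i)
    exact rE_inertia_good hW N (K.prime i) h2 hg (K.lies i) (K.tau_mem i)
  have hQ : ∀ i, rE hW N (D.tau i) = 1 := fun i => by
    obtain ⟨h2, hg⟩ := good_of_not_dvd_lev K (D.prime i)
      (fun h => D.ndvd i (dvd_mul_of_dvd_left h _))
    exact rE_inertia_good hW N (D.prime i) h2 hg (D.lies i) (D.tau_mem i)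
  have hevdet : ∀ σ, ev (ρT σ).det = chi N σ := fun σ => by
    show ((ρT σ).det : R × Lam N).2 = _
    rw [hdet, det_rE]
  have hevtr : ∀ σ, ev (ρT σ).trace = (rE hW N σ).trace := fun σ => by
    show ((ρT σ).trace : R × Lam N).2 = _
    rw [htr]
  obtain ⟨y, c, hJ, hgenX, hnil, hδ, hsq⟩ := Pt.exists_coords ev hcT hmax
    (det_sub_chi_mem hcT) (exists_cotangent hcT hgenT) hevdet hevtr
    (fun i => hev _ (htau i)) (fun i => hev _ (hQ i))
  refine ⟨{
    R' := A
    π := π
    y := y
    c := c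
    cQ := fun i => (ρT (D.tau i) - 1) 0 0
    δ := fun i => (ρT (D.tau i)).det
    δ_eq := fun i => ?_
    cQ_mem := fun i => ?_
    gen := hgenX
    nil := hnil
    δ_mem := hδ
    sq := hsq
    trace := fun σ => ⟨(ρT σ).trace, ?_, ?_⟩ }⟩
  · show ((ρT (D.tau i)).det : R × Lam N).1 = _
    rw [hdet]
  · set Z := Pt.pairRep hW N ρ (D.tau i) - 1 with hZ
    have e1 : (((ρT (D.tau i) - 1) 0 0 : A) : R × Lam N) = F Z 0 0 := by
      rw [hZ, map_sub, map_one, ← hF]
      simp
    have e2 : F Z 0 0 = ∑ a, ∑ b, Z a b * F (Matrix.single a b 1) 0 0 := by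
      conv_lhs => rw [Matrix.matrix_eq_sum_single Z]
      simp only [map_sum, Matrix.sum_apply]
      refine Finset.sum_congr rfl fun a _ => Finset.sum_congr rfl fun b _ => ?_
      rw [show Matrix.single a b (Z a b) = Z a b • Matrix.single a b (1 : R × Lam N) by
        rw [Matrix.smul_single, smul_eq_mul, mul_one], map_smul, Matrix.smul_apply, smul_eq_mul]
    show (((ρT (D.tau i) - 1) 0 0 : A) : R × Lam N).1 ∈ _
    rw [e1, e2, Prod.fst_sum]
    refine sum_mem fun a _ => ?_
    rw [Prod.fst_sum]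
    refine sum_mem fun b _ => ?_
    rw [Prod.fst_mul]
    refine Ideal.mul_mem_right _ _ (Ideal.subset_span ⟨(a, b), ?_⟩)
    rcases eq_or_ne a b with rfl | hab <;> simp [hZ, Pt.pairRep, *]
  · show ((ρT σ).trace : R × Lam N).1 = _
    rw [htr]
  · rw [hJ, RingHom.mem_ker]
    show ev ((ρT σ).trace - algebraMap (Lam N) A (rE hW N σ).trace) = 0
    rw [map_sub, hevtr, AlgHom.commutes, Algebra.algebraMap_self, RingHom.id_apply, sub_self]

end FLTAgent.R2

end
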