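import Fermat.Agent.R2.Anchor
import Fermat.Agent.MLT.PointTate
import Fermat.Agent.LL.CohAPI
import Fermat.Agent.Alg.Frobenius
import Mathlib.NumberTheory.LegendreSymbol.JacobiSymbol

/-!
Area R2: the objects shared by the parcels.

* `Lam N = ℤ/2^(N+1)`, `chi` the cyclotomic character, `rE` the curve on its `2^(N+1)`-torsion,
  `rb` the same for `N = 0`;
* `Base`: the auxiliary prime of the level (`≡ 11 (mod 24)`, residual Frobenius of order three);
* `InX`: cocycles of the Selmer space of the two-torsion;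
* `Aux`: primes `q ≡ -1 (mod 2^(N+1))` with Frobenius of trace `0` killing that space;
* `TW`: the Taylor–Wiles primes and the prime carrying the diamond of order two;
* `Cond`: the deformation conditions;
* `coord`: the coordinates that are nilpotent at the curve point.
-/

set_option autoImplicit false
set_option linter.style.haveILetI false

noncomputable section

namespace FLTAgent.R2

open Matrix IsLocalRing

/-- the absolute Galois group -/
abbrev GQ : Type := AlgebraicClosure ℚ ≃ₐ[ℚ] AlgebraicClosure ℚ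

/-- the coefficients -/
abbrev Lam (N : ℕ) : Type := ZMod (2 ^ (N + 1))

instance fact_one_lt_two_pow (N : ℕ) : Fact (1 < 2 ^ (N + 1)) :=
  ⟨Nat.one_lt_pow N.succ_ne_zero one_lt_two⟩

instance isLocalRing_lam (N : ℕ) : IsLocalRing (Lam N) :=
  haveI : Fact (Nat.Prime 2) := ⟨Nat.prime_two⟩
  IsLocalRing.of_surjective' (PadicInt.toZModPow (p := 2) (N + 1))
    (ZMod.ringHom_surjective _)

/-- the cyclotomic character -/
def chi (N : ℕ) (σ : GQ) : Lam N := Attach.cyc (2 ^ (N + 1)) σ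

/-- the place over two -/
def placeTwo : ValuationSubring (AlgebraicClosure ℚ) :=
  (Alg.exists_place_frobenius 2 Nat.prime_two).choose

/-- a Frobenius at two -/
def frobTwo : GQ := (Alg.exists_place_frobenius 2 Nat.prime_two).choose_spec.choose

theorem placeTwo_lies : placeTwo.LiesOverPrime 2 :=
  (Alg.exists_place_frobenius 2 Nat.prime_two).choose_spec.choose_spec.1

theorem frobTwo_spec : placeTwo.IsFrobeniusAt frobTwo 2 :=
  (Alg.exists_place_frobenius 2 Nat.prime_two).choose_spec.choose_spec.2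

variable {W : WeierstrassCurve ℤ}

/-- a basis of the two-adic Tate module -/
def tate (hW : IsAnchor W) : MLT.TateBasis W 2 :=
  haveI : Fact (Nat.Prime 2) := ⟨Nat.prime_two⟩
  (MLT.exists_tateBasis hW.neg.ne).some

/-- the curve on its `2^(N+1)`-torsion -/
def rE (hW : IsAnchor W) (N : ℕ) : GQ →* Matrix (Fin 2) (Fin 2) (Lam N) :=
  haveI : Fact (Nat.Prime 2) := ⟨Nat.prime_two⟩
  { toFun := fun σ => ((tate hW).mat hW.neg.ne σ).map (PadicInt.toZModPow (p := 2) (N + 1))
    map_one' := by rw [(tate hW).mat_one, Matrix.map_one _ (map_zero _) (map_one _)]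
    map_mul' := fun σ τ => by rw [(tate hW).mat_mul, Matrix.map_mul] }

/-- the residual representation -/
def rb (hW : IsAnchor W) : GQ →* Matrix (Fin 2) (Fin 2) (Lam 0) := rE hW 0

variable (W) in
/-- the odd bad primes -/
def badOdd : Finset ℕ := W.Δ.natAbs.primeFactors.filter fun l => l ≠ 2

variable (W) in
/-- the number of Taylor–Wiles primes -/
def rk : ℕ := (badOdd W).card - 1

variable (W) in
/-- the auxiliary prime of the level -/
structure Base : Type where
  r : ℕ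
  prime : r.Prime
  mod24 : r % 24 = 11
  good : ¬ (r : ℤ) ∣ W.Δ
  odd_ap : Odd (W.apOfModel r)

namespace Base

variable (B : Base W)

/-- the level at which modularity is shown -/
def lev : ℕ := 2 * (∏ l ∈ badOdd W, l) * B.r

instance neZero_lev : NeZero B.lev :=
  ⟨mul_ne_zero (mul_ne_zero two_ne_zero (Finset.prod_ne_zero_iff.2 fun l hl =>
    (Nat.prime_of_mem_primeFactors (Finset.mem_filter.1 hl).1).ne_zero)) B.prime.ne_zero⟩

end Base

/-- a cocycle with values in the two-torsion, unramified outside `S`, with values in the fixed line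
of the decomposition groups of `S` up to a coboundary there -/
structure InX (hW : IsAnchor W) (S : Finset ℕ) (f : GQ → Fin 2 → Lam 0) : Prop where
  cocycle : ∀ g h, f (g * h) = f g + rb hW g *ᵥ f h
  level : ∃ F : IntermediateField ℚ (AlgebraicClosure ℚ), FiniteDimensional ℚ F ∧
    ∀ g s, (∀ x ∈ F, s x = x) → f (g * s) = f g
  unr : ∀ q : ℕ, q.Prime → q ∉ S → ∀ P : ValuationSubring (AlgebraicClosure ℚ),
    P.LiesOverPrime q → ∀ σ ∈ P.inertiaSubgroupIn ℚ, f σ = 0
  line : ∀ q ∈ S, ∀ P : ValuationSubring (AlgebraicClosure ℚ), P.LiesOverPrime q →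
    ∃ v : Fin 2 → Lam 0, ∀ g ∈ P.decompositionSubgroup ℚ, ∀ h ∈ P.decompositionSubgroup ℚ,
      rb hW h *ᵥ (f g - (rb hW g *ᵥ v - v)) = f g - (rb hW g *ᵥ v - v)

/-- every class of the Selmer space vanishes -/
def SelmerZero (hW : IsAnchor W) (S : Finset ℕ) : Prop :=
  ∀ f : GQ → Fin 2 → Lam 0, InX hW S f → ∃ v : Fin 2 → Lam 0, ∀ g, f g = rb hW g *ᵥ v - v

/-- the killing primes -/
structure Aux (hW : IsAnchor W) (B : Base W) (N : ℕ) : Type where
  k : ℕ
  q : Fin k → ℕ
  prime : ∀ i, (q i).Prime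
  inj : Function.Injective q
  ndvd : ∀ i, ¬ q i ∣ B.lev
  cong : ∀ i, (q i : Lam N) = -1
  place : Fin k → ValuationSubring (AlgebraicClosure ℚ)
  lies : ∀ i, (place i).LiesOverPrime (q i)
  frob : Fin k → GQ
  frob_spec : ∀ i, (place i).IsFrobeniusAt (frob i) (q i)
  tr : ∀ i, (rE hW N (frob i)).trace = 0
  ne_one : ∀ i, rb hW (frob i) ≠ 1
  tau : Fin k → GQ
  tau_mem : ∀ i, tau i ∈ (place i).inertiaSubgroupIn ℚ
  tau_sqrt : ∀ i (x : AlgebraicClosure ℚ), x ^ 2 = (q i : AlgebraicClosure ℚ) → tau i x = -x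
  selmer : SelmerZero hW (insert 2 (badOdd W ∪ Finset.univ.image q))

namespace Aux

variable {hW : IsAnchor W} {B : Base W} {N : ℕ} (K : Aux hW B N)

/-- the level with the killing primes -/
def lev : ℕ := B.lev * ∏ i, K.q i

instance neZero_lev : NeZero K.lev :=
  ⟨mul_ne_zero (NeZero.ne B.lev) (Finset.prod_ne_zero_iff.2 fun i _ => (K.prime i).ne_zero)⟩

theorem q_dvd_lev (i : Fin K.k) : K.q i ∣ K.lev :=
  dvd_mul_of_dvd_right (Finset.dvd_prod_of_mem K.q (Finset.mem_univ i)) _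

end Aux

/-- the Taylor–Wiles primes and the prime of the diamond of order two -/
structure TW {hW : IsAnchor W} {B : Base W} {N : ℕ} (K : Aux hW B N) (n : ℕ) : Type where
  Q : Fin (rk W) → ℕ
  prime : ∀ i, (Q i).Prime
  inj : Function.Injective Q
  ndvd : ∀ i, ¬ Q i ∣ K.lev
  cong : ∀ i, Q i % 2 ^ (n + 3) = 1
  place : Fin (rk W) → ValuationSubring (AlgebraicClosure ℚ)
  lies : ∀ i, (place i).LiesOverPrime (Q i)
  frob : Fin (rk W) → GQ
  frob_spec : ∀ i, (place i).IsFrobeniusAt (frob i) (Q i)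
  order_three : ∀ i, (rb hW (frob i)).trace = 1
  tau : Fin (rk W) → GQ
  tau_mem : ∀ i, tau i ∈ (place i).inertiaSubgroupIn ℚ
  tau_sqrt : ∀ i (x : AlgebraicClosure ℚ), x ^ 2 = (Q i : AlgebraicClosure ℚ) → tau i x = -x
  legendre : ∀ a : Fin (rk W) → ZMod 2,
    (∀ p ∈ badOdd W, (∑ i, if jacobiSym (p : ℤ) (Q i) = -1 then a i else 0) = 0) → a = 0
  l : ℕ
  prime_l : l.Prime
  ndvd_l : ¬ l ∣ K.lev
  l_ne : ∀ i, Q i ≠ l
  mod8 : l % 8 = 5
  odd_l : Odd (W.apOfModel l)
  g2 : GQ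
  g2_spec : haveI : NeZero (∏ i, Q i) :=
      ⟨Finset.prod_ne_zero_iff.2 fun i _ => (prime i).ne_zero⟩
    Attach.cyc (∏ i, Q i) g2 ^ 2 = 2

namespace TW

variable {hW : IsAnchor W} {B : Base W} {N : ℕ} {K : Aux hW B N} {n : ℕ} (D : TW K n)

/-- the product of the Taylor–Wiles primes -/
def R : ℕ := ∏ i, D.Q i

instance neZero_R : NeZero D.R :=
  ⟨Finset.prod_ne_zero_iff.2 fun i _ => (D.prime i).ne_zero⟩

/-- the primes of the auxiliary data -/
def aux : Finset ℕ := insert D.l (Finset.univ.image D.Q)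

end TW

section Conditions

variable {hW : IsAnchor W} {B : Base W} {N : ℕ} {K : Aux hW B N} {n : ℕ}

/-- the deformation conditions -/
structure Cond (ε : ℤˣ) (D : TW K n) {R : Type} [CommRing R] [IsLocalRing R] [Algebra (Lam N) R]
    (ρ : GQ →* Matrix (Fin 2) (Fin 2) R) : Prop where
  level : Deform.FinLevel (fun σ => ρ σ)
  res : ∀ σ a b, ρ σ a b - (((rb hW σ) a b).val : R) ∈ maximalIdeal R
  unr : ∀ q : ℕ, q.Prime → q ≠ 2 → q ∉ badOdd W → (∀ i, K.q i ≠ q) → (∀ i, D.Q i ≠ q) →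
    ∀ P : ValuationSubring (AlgebraicClosure ℚ), P.LiesOverPrime q →
      ∀ σ ∈ P.inertiaSubgroupIn ℚ, ρ σ = 1
  det : ∀ σ, Attach.cyc D.R σ = 1 → (ρ σ).det = algebraMap (Lam N) R (chi N σ)
  bad : ∀ q ∈ badOdd W, ∀ P : ValuationSubring (AlgebraicClosure ℚ), P.LiesOverPrime q →
    ∀ σ ∈ P.inertiaSubgroupIn ℚ, (ρ σ - 1) * (ρ σ - 1) = 0
  aux : ∀ i, ∀ σ ∈ (K.place i).inertiaSubgroupIn ℚ, (ρ σ - 1) * (ρ σ - 1) = 0
  aux_tr : ∀ i, (ρ (K.frob i)).trace ^ 2 = 0
  tw : ∀ i, ∀ σ ∈ (D.place i).inertiaSubgroupIn ℚ, Commute (ρ σ) (ρ (D.frob i))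
  two : ∃ lam : GQ → R,
    lam frobTwo * algebraMap (Lam N) R (chi N D.g2) = ((ε : ℤ) : R) * (ρ D.g2).det ∧
    (∀ g ∈ placeTwo.decompositionSubgroup ℚ, ∀ h ∈ placeTwo.decompositionSubgroup ℚ,
      lam (g * h) = lam g * lam h) ∧
    (∀ g ∈ placeTwo.inertiaSubgroupIn ℚ, lam g = 1) ∧
    ∀ g ∈ placeTwo.decompositionSubgroup ℚ, ∀ h ∈ placeTwo.decompositionSubgroup ℚ,
      (ρ g - (algebraMap (Lam N) R (chi N g) * lam g) • (1 : Matrix (Fin 2) (Fin 2) R)) *
        (ρ h - lam h • (1 : Matrix (Fin 2) (Fin 2) R)) = 0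

variable (K) in
/-- a vector moved by the residual Frobenius at a killing prime -/
def frameVec (R : Type) [CommRing R] (i : Fin K.k) : Fin 2 → R :=
  if rb hW (K.frob i) *ᵥ ![1, 0] = ![1, 0] then ![0, 1] else ![1, 0]

/-- the basis `v, σ v` at a killing prime -/
def frameMat (K : Aux hW B N) {R : Type} [CommRing R] (ρ : GQ →* Matrix (Fin 2) (Fin 2) R)
    (i : Fin K.k) : Matrix (Fin 2) (Fin 2) R :=
  (Matrix.of ![frameVec K R i, ρ (K.frob i) *ᵥ frameVec K R i])ᵀ

/-- inertia at a killing prime in that basis -/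
def frameY (K : Aux hW B N) {R : Type} [CommRing R] (ρ : GQ →* Matrix (Fin 2) (Fin 2) R)
    (i : Fin K.k) : Matrix (Fin 2) (Fin 2) R :=
  Ring.inverse (frameMat K ρ i).det •
    ((frameMat K ρ i).adjugate * (ρ (K.tau i) - 1) * frameMat K ρ i)

/-- the coordinates: two at each killing prime, one at each Taylor–Wiles prime -/
def coord (D : TW K n) {R : Type} [CommRing R] (ρ : GQ →* Matrix (Fin 2) (Fin 2) R) :
    Fin K.k ⊕ Fin K.k ⊕ Fin (rk W) → R
  | .inl i => frameY K ρ i 0 0 - frameY K ρ i 1 0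
  | .inr (.inl i) => (ρ (K.frob i)).trace
  | .inr (.inr i) => (ρ (D.tau i) - 1) 0 0

end Conditions

section Coefficients

variable {hW : IsAnchor W} {B : Base W} {N : ℕ} (K : Aux hW B N)

/-- functions coming from a level without one of the killing primes -/
def oldSub : Submodule (Lam N) (LL.P1 K.lev K.lev → Lam N) :=
  ⨆ i : Fin K.k, LinearMap.range
    (LL.funPull (Lam N) (LL.P1.proj K.lev (Nat.div_dvd_of_dvd (K.q_dvd_lev i))))

theorem oldSub_le (g : GL (Fin 2) (ZMod K.lev)) :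
    oldSub K ≤ (oldSub K).comap (LL.funRep (Lam N) (LL.P1 K.lev K.lev) (M := K.lev) g) := by
  refine iSup_le fun i => ?_
  rintro _ ⟨F, rfl⟩
  rw [Submodule.mem_comap]
  refine Submodule.mem_iSup_of_mem i ⟨LL.funRep (Lam N) _ (M := K.lev) g F, ?_⟩
  funext x
  simp only [LL.funPull_apply, LL.funRep_apply, LL.P1.proj_smul]

/-- functions of the level modulo the old ones -/
def botRep : Representation (Lam N) (GL (Fin 2) (ZMod K.lev))
    ((LL.P1 K.lev K.lev → Lam N) ⧸ oldSub K) :=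
  (LL.funRep (Lam N) (LL.P1 K.lev K.lev) (M := K.lev)).quotient (oldSub K) (oldSub_le K)

end Coefficients

end FLTAgent.R2

end
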