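import Fermat.Agent.R2.DescentDefs
import Fermat.Agent.Attach.HeckeAction

/-!
Area R2, parcel DESCENT: the bottom level, an eigenclass gives the relations modulo its order.
-/

set_option autoImplicit false
set_option linter.style.haveILetI false
set_option synthInstance.maxHeartbeats 400000

noncomputable section

open ModularCurve MvPolynomial

namespace FLTAgent.R2.Desc

theorem two_pow_dvd_of_class {L : ℕ} [NeZero L] {W : WeierstrassCurve ℤ} {y : JZero L}
    (hy : y ∈ tor L) {R : MvPolynomial (GoodIdx L) ℤ} (hR : aeval (opT L) R = 0) {s : ℕ}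
    (hord : 2 ^ (s - 1) • y ≠ 0)
    (heig : ∀ i ∈ R.vars, heckeOperatorBar L ⟨i.1, i.2.1⟩ y = W.apOfModel i.1 • y) :
    (2 : ℤ) ^ s ∣ aeval (fun i : GoodIdx L => W.apOfModel i.1) R := by
  obtain ⟨D⟩ := Attach.exists_heckeLattice L
  obtain ⟨m, hm⟩ := hy
  have hn : 0 < 2 ^ m := pow_pos two_pos m
  obtain ⟨v, hv⟩ := (D.nsmul_eq_zero_iff _ hn y).mp hm
  set ev := (aeval fun i : GoodIdx L => W.apOfModel i.1 : MvPolynomial (GoodIdx L) ℤ →ₐ[ℤ] ℤ)
  have key : ∀ P ∈ supported ℤ (↑R.vars : Set (GoodIdx L)), ∀ (w : D.Lam) (z : ℤ),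
      D.tors (2 ^ m) w = z • y → D.tors (2 ^ m) (D.act (aeval (opT L) P) w) = (ev P * z) • y := by
    intro P hP
    rw [supported] at hP
    induction hP using Algebra.adjoin_induction with
    | mem P hP =>
      obtain ⟨i, hi, rfl⟩ := hP
      intro w z hw
      rw [aeval_X, opT, D.act_T i.2.1 i.2.2, D.tors_T _ hn, hw, map_zsmul, heig i hi,
        show ev (X i) = W.apOfModel i.1 from aeval_X _ _, smul_smul, mul_comm]
    | algebraMap c =>
      intro w z hw
      rw [AlgHom.commutes, AlgHom.commutes, algebraMap_int_eq, algebraMap_int_eq, eq_intCast,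
        eq_intCast, map_intCast, Module.End.intCast_apply, map_zsmul, hw, smul_smul, Int.cast_eq]
    | add P P' _ _ ih ih' =>
      intro w z hw
      rw [map_add, map_add, map_add, LinearMap.add_apply, map_add, ih w z hw, ih' w z hw, add_mul,
        add_zsmul]
    | mul P P' _ _ ih ih' =>
      intro w z hw
      rw [map_mul, map_mul, map_mul, Module.End.mul_apply, ih _ _ (ih' w z hw), mul_assoc]
  have h0 := key R (mem_supported.2 subset_rfl) v 1 (by rw [hv, one_zsmul])
  rw [hR, map_zero, LinearMap.zero_apply, map_zero, mul_one] at h0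
  by_contra hd
  refine hord ?_
  -- the greatest common divisor of the value and `2 ^ m` kills `y`
  obtain ⟨j, hjm, hj⟩ := (Nat.dvd_prime_pow Nat.prime_two).mp
    (Nat.gcd_dvd_right (ev R).natAbs (2 ^ m))
  have h1 : (2 ^ j) • y = 0 := by
    rw [← hj, ← addOrderOf_dvd_iff_nsmul_eq_zero]
    refine Nat.dvd_gcd ?_ (addOrderOf_dvd_iff_nsmul_eq_zero.mpr hm)
    exact Int.natCast_dvd.mp (addOrderOf_dvd_iff_zsmul_eq_zero.mpr h0.symm)
  have hjs : j ≤ s - 1 := by
    by_contra hlt
    refine hd (Int.natAbs_dvd_natAbs.mp ?_)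
    rw [Int.natAbs_pow]
    exact (pow_dvd_pow 2 (show s ≤ j by omega)).trans (hj ▸ Nat.gcd_dvd_left _ _)
  obtain ⟨e, he⟩ := Nat.exists_eq_add_of_le hjs
  rw [he, pow_add, mul_nsmul, h1, nsmul_zero]

end FLTAgent.R2.Desc

end
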