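import Fermat.Agent.R2.DescentStep
import Fermat.Agent.R2.DescentBase

/-!
Area R2, parcel DESCENT: the endpoint in terms of classes of the Jacobian, by removing the auxiliary
primes one at a time.
-/

set_option autoImplicit false
set_option linter.unusedSectionVars false
set_option linter.unusedVariables false
set_option linter.style.haveILetI false
set_option synthInstance.maxHeartbeats 400000

noncomputable section

open ModularCurve MvPolynomial
open FLTAgent.Reduction (Qb Ctx)

namespace FLTAgent.R2.Desc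

variable {W : WeierstrassCurve ℤ}

theorem two_dvd_level (hW : IsAnchor W) {N : ℕ}
    (hbad : ∀ l : ℕ, l.Prime → (l : ℤ) ∣ W.Δ → l ∣ N) : 2 ∣ N := by
  obtain ⟨k, u, hk, hu, -⟩ := hW.two
  refine hbad 2 Nat.prime_two ?_
  rw [hu, Nat.cast_ofNat]
  exact dvd_mul_of_dvd_left (dvd_pow_self 2 (by omega)) u

theorem mem_of_odd_zsmul {G : Type*} [AddCommGroup G] {O : AddSubgroup G} {x : G} {m : ℕ}
    (hx : 2 ^ m • x = 0) {u : ℤ} (hu : Odd u) (h : u • x ∈ O) : x ∈ O := by
  have hcop : IsCoprime u ((2 : ℤ) ^ m) := by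
    refine IsCoprime.pow_right ?_
    obtain ⟨t, rfl⟩ := hu
    exact ⟨1, -t, by ring⟩
  obtain ⟨a, b, e⟩ := hcop
  have hx' : ((2 : ℤ) ^ m) • x = 0 := by
    rw [show ((2 : ℤ) ^ m) = ((2 ^ m : ℕ) : ℤ) by norm_num, natCast_zsmul, hx]
  rw [← one_zsmul x, ← e, add_zsmul, mul_zsmul, mul_zsmul, hx', zsmul_zero, add_zero]
  exact zsmul_mem h a

/-- `eta` is invertible on eigenclasses modulo old classes -/
theorem mem_old_of_eta {L : ℕ} [NeZero L] {R : Finset ℕ} {l : Nat.Primes} (hl : ¬ (l : ℕ) ∣ L)
    (hl2 : (l : ℕ) ≠ 2) (hodd : Odd (W.apOfModel l)) {x : JZero L} (hx : x ∈ tor L)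
    (hdev : dev W l x ∈ Old R L) {c : ℕ} (h : (eta L l)^[c] x ∈ Old R L) : x ∈ Old R L := by
  have hu : Odd (W.apOfModel l - (((l : ℕ) + 1 : ℕ) : ℤ)) := by
    refine hodd.sub_even ?_
    rw [Int.even_coe_nat, Nat.even_add_one, Nat.not_even_iff_odd]
    exact l.2.odd_of_ne_two hl2
  induction c with
  | zero => exact h
  | succ c ih =>
    refine ih ?_
    obtain ⟨m, hm⟩ := eta_pow_mem_tor l hx c
    refine mem_of_odd_zsmul hm hu ?_
    rw [Function.iterate_succ_apply'] at h
    have h1 : dev W l ((eta L l)^[c] x) ∈ Old R L := by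
      rw [dev_eta_pow l hx]
      exact old_eta_pow hl hl2 hdev c
    rw [show (W.apOfModel l - (((l : ℕ) + 1 : ℕ) : ℤ)) • (eta L l)^[c] x =
      eta L l ((eta L l)^[c] x) - dev W l ((eta L l)^[c] x) by
        rw [eta_apply, dev_apply, sub_zsmul, natCast_zsmul]; abel]
    exact sub_mem h h1

theorem squarefree_mul_prod {N : ℕ} (hN : Squarefree N) :
    ∀ {Q : Finset ℕ}, (∀ q ∈ Q, q.Prime ∧ ¬ q ∣ N) → Squarefree (N * ∏ q ∈ Q, q) := by
  intro Q hQ
  induction Q using Finset.induction with
  | empty => simpa using hN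
  | @insert q R hq ih =>
    obtain ⟨hqp, hqN⟩ := hQ q (Finset.mem_insert_self q R)
    rw [Finset.prod_insert hq, mul_left_comm]
    refine Nat.squarefree_mul_iff.mpr ⟨(Nat.Prime.coprime_iff_not_dvd hqp).mpr ?_,
      hqp.squarefree, ih fun x hx => hQ x (Finset.mem_insert_of_mem hx)⟩
    intro hd
    rcases hqp.dvd_mul.mp hd with h | h
    · exact hqN h
    · obtain ⟨x, hx, hqx⟩ := hqp.prime.exists_mem_finset_dvd h
      exact hq ((Nat.prime_dvd_prime_iff_eq hqp
        (hQ x (Finset.mem_insert_of_mem hx)).1).mp hqx ▸ hx)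

/-- the descent -/
theorem descent : DescentGoal := by
  classical
  intro W N r _ Q S s L _ y hW hN hbad hr h11 hrN hy
  induction Q using Finset.induction generalizing S s L y with
  | empty =>
    intro R hR hvars
    have hLN : L = N := by simpa using hy.level
    subst hLN
    rw [Finset.card_empty, pow_zero, Nat.div_one]
    refine two_pow_dvd_of_class hy.torsion hR (fun h => hy.order ?_) fun i hi => ?_
    · rw [h]; exact zero_mem _
    · exact sub_eq_zero.mp (eq_zero_of_mem_old_empty (hy.eig i.1 i.2.1 i.2.2 (hvars i hi).2))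
  | @insert q Q' hqQ ih =>
    intro R hR hvars
    have hqm : q ∈ insert q Q' := Finset.mem_insert_self q Q'
    have htr := hy.prime q hqm
    obtain ⟨hqp, hq2, -, -, -⟩ := id htr
    have hqN := hy.not_dvd q hqm
    have hprimes : ∀ x ∈ insert q Q', x.Prime ∧ ¬ x ∣ N :=
      fun x hx => ⟨(hy.prime x hx).1, hy.not_dvd x hx⟩
    have hprod : 0 < ∏ x ∈ Q', x :=
      Finset.prod_pos fun x hx => (hprimes x (Finset.mem_insert_of_mem hx)).1.pos
    haveI : NeZero q := ⟨hqp.ne_zero⟩
    set M := N * ∏ x ∈ Q', x with hM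
    haveI : NeZero M := ⟨mul_ne_zero (NeZero.ne N) hprod.ne'⟩
    obtain rfl : L = M * q := by rw [hy.level, hM, Finset.prod_insert hqQ]; ring
    rw [Finset.card_insert_of_notMem hqQ, pow_succ', ← Nat.div_div_eq_div_mul]
    rcases Nat.eq_zero_or_pos (s / 2) with hs | hs
    · rw [hs, Nat.zero_div, pow_zero]; exact one_dvd _
    have hsq : Squarefree (M * q) := by
      have := squarefree_mul_prod hN hprimes
      rwa [Finset.prod_insert hqQ, mul_left_comm, mul_comm q] at this
    have hqM : ¬ q ∣ M := fun h =>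
      hqp.one_lt.ne' (Nat.isUnit_iff.mp (hsq q (mul_dvd_mul_right h q)))
    obtain ⟨A, -, hA, -⟩ := Alg.exists_place_frobenius q hqp
    have C : Ctx A M q := ⟨hqp, hqM, hA⟩
    have hrM : r ∣ M := hrN.mul_right _
    have h2M : 2 ∣ M := (two_dvd_level hW hbad).mul_right _
    obtain ⟨l, hl, hlS, -, -, hodd⟩ := Join.exists_l0 hW 1 (insert 2 (S ∪ (M * q).primeFactors))
    simp only [Finset.mem_insert, Finset.mem_union, not_or, Nat.mem_primeFactors] at hlS
    obtain ⟨hl2, hlS', hlL⟩ := hlS
    have hlL' : ¬ l ∣ M * q := fun h => hlL ⟨hl, h, NeZero.ne _⟩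
    let l' : Nat.Primes := ⟨l, hl⟩
    have H : Loc r Q' M q l' :=
      { slots := ⟨hsq, hr, h11, hrM.mul_right q, fun h => hy.not_dvd r (Finset.mem_insert_of_mem h) hrN,
          fun x hx => ⟨(hprimes x (Finset.mem_insert_of_mem hx)).1,
            (hy.prime x (Finset.mem_insert_of_mem hx)).2.1,
            (dvd_mul_of_dvd_right (Finset.dvd_prod_of_mem (fun t => t) hx) N).mul_right q⟩⟩
        ne_two := hq2
        ne_r := fun h => hqN (h ▸ hrN)
        not_mem := hqQ
        not_dvd := hlL'
        l_ne_two := hl2 }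
    set i := s / 2 - 1 with hi
    have heig : EigOn W (Sat (insert q Q') (M * q) l') (insert q (insert 2 S)) y :=
      fun k hk hkL hkS => old_le_sat hlL' hl2 (hy.eig k hk hkL fun h =>
        hkS (Finset.mem_insert_of_mem (Finset.mem_insert_of_mem h)))
    have hord : 2 ^ (i + i) • y ∉ Sat (insert q Q') (M * q) l' := by
      rintro ⟨ht, c, hc⟩
      have h1 : 2 ^ (i + i) • y ∈ Old (insert q Q') (M * q) := by
        refine mem_old_of_eta (W := W) (l := l') hlL' hl2 hodd ht ?_ (hc c le_rfl)
        rw [map_nsmul]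
        exact nsmul_mem (hy.eig l hl hlL' hlS') _
      obtain ⟨e, he⟩ := Nat.exists_eq_add_of_le (show i + i ≤ s - 1 by omega)
      refine hy.order ?_
      rw [he, pow_add, mul_nsmul]
      exact nsmul_mem h1 _
    obtain ⟨h, hht, he, hno⟩ := exists_step C H hW htr
      (Finset.mem_insert_of_mem (Finset.mem_insert_self 2 S)) (Finset.mem_insert_self q _) i
      hy.torsion heig hord
    obtain ⟨m, hm⟩ := id hht
    have hlM : ¬ l ∣ M := not_dvd_M C H
    obtain ⟨c, hc⟩ := sat_uniform (R := Q') (l := l') hlM hl2 m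
    have hnext : DescentInput W N Q' (insert q S) (s / 2) M ((eta M l')^[c] h) :=
      { level := hM
        prime := fun x hx => hy.prime x (Finset.mem_insert_of_mem hx)
        not_dvd := fun x hx => hy.not_dvd x (Finset.mem_insert_of_mem hx)
        torsion := eta_pow_mem_tor l' hht c
        eig := fun k hk hkM hkS => by
          let k' : Nat.Primes := ⟨k, hk⟩
          show dev W k' ((eta M l')^[c] h) ∈ Old Q' M
          rw [dev_eta_pow k' hht]
          refine hc _ (he k hk hkM ?_) (by rw [← map_nsmul, hm, map_zero])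
          simp only [Finset.mem_insert, not_or] at hkS ⊢
          exact ⟨hkS.1, fun e => hkM (e ▸ h2M), hkS.2⟩
        order := fun hmem => hno (sat_of_pow hlM hl2 (nsmul_mem hht _) (c := c) (by
          rwa [← hi, ← iterate_map_nsmul (eta M l')] at hmem)) }
    refine ih (insert q S) (s / 2) M _ hnext R hR fun j hj => ?_
    have hv := hvars j hj
    simp only [Finset.mem_insert, not_or] at hv ⊢
    exact ⟨hv.1.2, hv.1.1, hv.2⟩

end FLTAgent.R2.Desc

end
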