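import Fermat.Agent.R2.PrimesCheb
import Fermat.Agent.R2.Anchor
import Fermat.Agent.TH2.AnchorForm
import Fermat.Agent.Attach.Defs

/-!
Area R2, parcel JOIN: a prime `≡ 1 (mod M)` at which the trace of an anchor is odd.
-/

set_option autoImplicit false
set_option linter.style.haveILetI false
set_option synthInstance.maxHeartbeats 200000
set_option synthInstance.maxSize 1024

noncomputable section

namespace FLTAgent.R2.Join

local notation "Ω" => AlgebraicClosure ℚ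
local notation "GalQ" => AlgebraicClosure ℚ ≃ₐ[ℚ] AlgebraicClosure ℚ

theorem perm_commutator : ∀ s t : Equiv.Perm (Fin 3), Equiv.Perm.sign t ≠ 1 →
    Equiv.Perm.sign s = 1 → s ≠ 1 →
      Equiv.Perm.sign (s * t * s⁻¹ * t⁻¹) = 1 ∧ s * t * s⁻¹ * t⁻¹ ≠ 1 := by decide

theorem perm_pow_even : ∀ c : Equiv.Perm (Fin 3), Equiv.Perm.sign c = 1 → c ^ 3 = 1 := by decide

/-- a prime splitting at `M` with odd trace, outside a finite set -/
theorem exists_l0 {W : WeierstrassCurve ℤ} (hW : IsAnchor W) (M : ℕ) [NeZero M] (S : Finset ℕ) :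
    ∃ l : ℕ, l.Prime ∧ l ∉ S ∧ (l : ZMod M) = 1 ∧ ¬ (l : ℤ) ∣ W.Δ ∧ Odd (W.apOfModel l) := by
  classical
  have hadm := TH2.admissible_of_anchor hW
  have hΔ := hW.neg.ne
  obtain ⟨D⟩ := TH2.nonempty_trio hΔ
  obtain ⟨t, ht⟩ := TH2.exists_odd D hW.neg
  obtain ⟨s, hs, hs1⟩ := TH2.exists_three_cycle D hW.irr hW.neg
  set σ : GalQ := s * t * s⁻¹ * t⁻¹ with hσ
  have hperm : D.permHom σ = D.permHom s * D.permHom t * (D.permHom s)⁻¹ * (D.permHom t)⁻¹ := by
    rw [hσ, map_mul, map_mul, map_mul, map_inv, map_inv]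
  obtain ⟨hσ1, hσ2⟩ := perm_commutator (D.permHom s) (D.permHom t) ht hs hs1
  rw [← hperm] at hσ1 hσ2
  have hcyc : Attach.cyc M σ = 1 := by
    have h1 : ∀ g : GalQ, Attach.cyc M g * Attach.cyc M g⁻¹ = 1 := fun g => by
      rw [← Attach.cyc_mul, mul_inv_cancel, Attach.cyc_one]
    rw [hσ, Attach.cyc_mul, Attach.cyc_mul, Attach.cyc_mul]
    calc _ = (Attach.cyc M s * Attach.cyc M s⁻¹) * (Attach.cyc M t * Attach.cyc M t⁻¹) := by ring
      _ = 1 := by rw [h1, h1, one_mul]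
  obtain ⟨E₁, hE₁, hc₁⟩ := Attach.exists_cyc_level M
  haveI := hE₁
  let K : IntermediateField ℚ Ω := (TH2.cubicField W).restrictScalars ℚ
  haveI : FiniteDimensional ℚ K := (inferInstance : FiniteDimensional ℚ (TH2.cubicField W))
  obtain ⟨l, A, φ, j, u, hl, hlS, hA, hφ, hj, hu⟩ := Layer.exists_frobenius_gen (E₁ ⊔ K) σ
    (S ∪ {2} ∪ W.Δ.natAbs.primeFactors ∪ M.primeFactors)
  simp only [Finset.mem_union, Finset.mem_singleton, not_or, Nat.mem_primeFactors] at hlS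
  obtain ⟨⟨⟨hlS', hl2⟩, hlΔ⟩, hlM⟩ := hlS
  have hgood : ¬ (l : ℤ) ∣ W.Δ := fun h =>
    hlΔ ⟨hl, Int.natCast_dvd.1 h, Int.natAbs_ne_zero.2 hΔ⟩
  have hlM' : ¬ l ∣ M := fun h => hlM ⟨hl, h, NeZero.ne M⟩
  -- agreement on the level determines the character and the permutation
  have key : ∀ a b : GalQ, (∀ x ∈ E₁ ⊔ K, a x = b x) →
      Attach.cyc M a = Attach.cyc M b ∧ D.permHom a = D.permHom b := by
    intro a b h
    have hfix : ∀ x ∈ E₁ ⊔ K, (b⁻¹ * a) x = x := fun x hx => by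
      rw [AlgEquiv.mul_apply, h x hx, ← AlgEquiv.mul_apply, inv_mul_cancel, AlgEquiv.one_apply]
    constructor
    · have e := hc₁ (b⁻¹ * a) fun x hx => hfix x ((le_sup_left : E₁ ≤ E₁ ⊔ K) hx)
      calc Attach.cyc M a = Attach.cyc M (b * (b⁻¹ * a)) := by rw [mul_inv_cancel_left]
        _ = _ := by rw [Attach.cyc_mul, e, mul_one]
    · have e := (D.fixesTwo_iff_perm hΔ (b⁻¹ * a)).mp ((TH2.fixesTwo_iff hadm _).mpr fun x hx =>
        hfix x ((le_sup_right : K ≤ E₁ ⊔ K) hx))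
      have e' : D.permHom (b⁻¹ * a) = 1 := e
      rw [map_mul, map_inv, inv_mul_eq_one] at e'
      exact e'.symm
  obtain ⟨hcj, hpj⟩ := key _ _ hj
  obtain ⟨hcu, hpu⟩ := key _ _ hu
  have hpow : ∀ (g : GalQ) (k : ℕ), Attach.cyc M (g ^ k) = Attach.cyc M g ^ k := by
    intro g k
    induction k with
    | zero => simp [Attach.cyc_one]
    | succ k ih => rw [pow_succ, Attach.cyc_mul, ih, pow_succ]
  rw [hpow, hcyc, one_pow, Attach.cyc_frobenius hl hlM' hA hφ] at hcu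
  have hcycle : TH2.IsCycle W φ := by
    rw [TH2.isCycle_iff D hΔ]
    show Equiv.Perm.sign (D.permHom φ) = 1 ∧ D.permHom φ ≠ 1
    refine ⟨by rw [hpu, map_pow, map_pow, hσ1, one_pow], fun h => hσ2 ?_⟩
    rw [← hpj, map_pow, h, one_pow]
  refine ⟨l, hl, hlS', by simpa using hcu, hgood, ?_⟩
  have htr := (EllFrob.galois_charpoly hl hgood hA hφ Nat.prime_two (Ne.symm hl2)).1
  rw [(TH2.galoisTrace_two hadm φ).mpr hcycle] at htr
  exact (ZMod.intCast_eq_one_iff_odd).mp htr.symm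

end FLTAgent.R2.Join

end
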