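import Fermat.Agent.JTors.Tors
import Fermat.Agent.JTors.HeckeEquiv
import Fermat.Agent.JTors.Conj
import Fermat.Agent.LR.Pull

/-!
Area R2, parcel JOIN: pullback of a torsion class along `α` is restriction of the homomorphism.
-/

set_option autoImplicit false
set_option linter.unusedSectionVars false
set_option linter.style.haveILetI false
set_option synthInstance.maxHeartbeats 200000

noncomputable section

open ModularCurve CongruenceSubgroup AlgebraicCurve UpperHalfPlane
open scoped MatrixGroups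

namespace FLTAgent.R2

open Genus (Qbar FN)
open FLTAgent.JTors
open scoped Genus

variable {N r : ℕ} [NeZero N] [NeZero r]

/-- the inclusion of the levels -/
theorem mem_Gamma0_of_mem_mul (γ : Gamma0 (N * r)) : (γ : SL(2, ℤ)) ∈ Gamma0 N := by
  rw [Gamma0_mem, ZMod.intCast_zmod_eq_zero_iff_dvd]
  have h := (ZMod.intCast_zmod_eq_zero_iff_dvd _ _).mp (Gamma0_mem.mp γ.2)
  exact (Int.natCast_dvd_natCast.mpr (dvd_mul_right N r)).trans h

/-- the inclusion as a homomorphism -/
def inclHom : Gamma0 (N * r) →* Gamma0 N where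
  toFun γ := ⟨(γ : SL(2, ℤ)), mem_Gamma0_of_mem_mul γ⟩
  map_one' := rfl
  map_mul' _ _ := rfl

variable (N r) in
/-- restriction of a homomorphism to the deeper level -/
def resLam : Lam N →+ Lam (N * r) :=
  AddMonoidHom.mk' (fun φ => ⟨φ.1.comp (inclHom (N := N) (r := r)).toAdditive, fun γ hγ =>
    φ.2 (inclHom γ) hγ⟩) (fun φ ψ => Subtype.ext (AddMonoidHom.ext fun _ => by simp))

theorem resLam_apply (φ : Lam N) (γ : Gamma0 (N * r)) :
    (resLam N r φ).1 (Additive.ofMul γ) = φ.1 (Additive.ofMul (inclHom γ)) := rfl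

/-- the pullback along `α` of the point of `φ` is the point of its restriction -/
theorem torsMap_resLam {n : ℕ} (hn : 0 < n) (φ : Lam N) :
    torsMap (N * r) n (resLam N r φ) =
      LR.pullJ N r (heckeAlphaBar Qbar N r) (torsMap N n φ) := by
  refine IsTors.eq_torsMap hn ?_
  obtain ⟨f, D, hf, ⟨ψ, hψ, hc⟩, hD, e⟩ := isTors_torsMap hn φ
  refine ⟨heckeAlphaBar Qbar N r f,
    ⟨LR.pullDiv N r (heckeAlphaBar Qbar N r) (D : Divisor Qbar (FN N)),
      LR.pullDiv_mem_degZero N r _ D.2⟩,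
    (map_ne_zero _).mpr hf, ⟨ψ, ?_, fun γ => ?_⟩, fun v => ?_, ?_⟩
  · rw [hψ, JTors.evH_alpha]
  · have h := hc (inclHom γ)
    rw [expChar_apply, resLam_apply]
    rw [expChar_apply] at h
    exact h
  · exact LR.pullDiv_apply_of_ord (M := N) (q := r) _ hD v
  · rw [e, LR.pullJ_mk]

/-- the conjugate of an element of the deeper level by `diag(r, 1)` -/
theorem diag_mul_incl (γ : Gamma0 (N * r)) :
    ModularForm.heckeDiagMatrix r * Matrix.SpecialLinearGroup.mapGL ℝ (γ : SL(2, ℤ)) =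
      Matrix.SpecialLinearGroup.mapGL ℝ ((wElt (inclHom (wElt γ) : Gamma0 N) : Gamma0 N) : SL(2, ℤ)) *
        ModularForm.heckeDiagMatrix r := by
  obtain ⟨c, hc⟩ := dvd_lower γ
  have hN : (N : ℤ) ≠ 0 := by exact_mod_cast NeZero.ne N
  have hNr : ((N * r : ℕ) : ℤ) ≠ 0 := by exact_mod_cast NeZero.ne (N * r)
  have h01 : -((((N * r : ℕ) : ℤ) * (γ : SL(2, ℤ)) 0 1)) / (N : ℤ) =
      -((r : ℤ) * (γ : SL(2, ℤ)) 0 1) := by
    push_cast
    rw [mul_assoc, ← mul_neg, Int.mul_ediv_cancel_left _ hN]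
  have hq : (γ : SL(2, ℤ)) 1 0 / ((N * r : ℕ) : ℤ) = c := by
    rw [hc, Int.mul_ediv_cancel_left _ hNr]
  refine Units.ext ?_
  rw [Units.val_mul, Units.val_mul, Matrix.SpecialLinearGroup.mapGL_coe_matrix,
    Matrix.SpecialLinearGroup.mapGL_coe_matrix, ModularForm.val_heckeDiagMatrix (NeZero.ne r)]
  have h10 : (γ : SL(2, ℤ)) 1 0 = (N : ℤ) * r * c := by rw [hc]; push_cast; ring
  ext i j
  fin_cases i <;> fin_cases j <;>
    simp [Matrix.mul_apply, Fin.sum_univ_two, wElt_00, wElt_01, wElt_10, wElt_11, inclHom]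
  all_goals (try push_cast at h01 hq)
  · ring
  · rw [h01]
    push_cast
    ring
  · rw [hq, h10]
    push_cast
    ring

/-- the pullback along `β` -/
theorem torsMap_resLam_conj {n : ℕ} (hn : 0 < n) (φ : Lam N) :
    torsMap (N * r) n (conjW (resLam N r (conjW φ))) =
      LR.pullJ N r (heckeBetaBar Qbar N r) (torsMap N n φ) := by
  refine IsTors.eq_torsMap hn ?_
  obtain ⟨f, D, hf, ⟨ψ, hψ, hc⟩, hD, e⟩ := isTors_torsMap hn φ
  refine ⟨heckeBetaBar Qbar N r f,
    ⟨LR.pullDiv N r (heckeBetaBar Qbar N r) (D : Divisor Qbar (FN N)),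
      LR.pullDiv_mem_degZero N r _ D.2⟩,
    (map_ne_zero _).mpr hf,
    ⟨pull (ModularForm.heckeDiagMatrix r) (det_diag_pos r) ψ, ?_, fun γ => ?_⟩, fun v => ?_, ?_⟩
  · rw [← map_pow, hψ, JTors.evH_beta]
  · rw [pullSL, ← pull_mul (det_diag_pos r) (det_pos_SL _),
      pull_congr _ (det_pos_mul (det_pos_SL _) (det_diag_pos r)) (diag_mul_incl γ),
      pull_mul (det_pos_SL _) (det_diag_pos r)]
    show pull _ (det_diag_pos r) (pullSL ((wElt (inclHom (wElt γ) : Gamma0 N) : Gamma0 N) : SL(2, ℤ)) ψ) = _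
    rw [hc, map_mul, AlgHom.commutes, expChar_apply, expChar_apply, conjW_apply, resLam_apply,
      conjW_apply]
  · exact LR.pullDiv_apply_of_ord (M := N) (q := r) _ hD v
  · rw [e, LR.pullJ_mk]

/-- in the coordinates of the Hecke lattice, restriction is the pullback along `β` -/
theorem torsMap_conjW_resLam {n : ℕ} (hn : 0 < n) (φ : Lam N) :
    torsMap (N * r) n (conjW (resLam N r φ)) =
      LR.pullJ N r (heckeBetaBar Qbar N r) (torsMap N n (conjW φ)) := by
  rw [← torsMap_resLam_conj hn (conjW φ), conjW_conjW]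

/-- a combination of restrictions gives a point in the sum of the pullbacks -/
theorem torsMap_mem_range {n : ℕ} (hn : 0 < n) {v : Lam (N * r)} {φ : Lam N} {w : Lam (N * r)}
    (h : v = resLam N r φ + (n : ℤ) • w) :
    torsMap (N * r) n v ∈ (LR.pullJ N r (heckeAlphaBar Qbar N r)).range := by
  refine ⟨torsMap N n φ, ?_⟩
  rw [← torsMap_resLam hn, h, map_add, map_zsmul, natCast_zsmul, nsmul_torsMap_eq_zero hn,
    add_zero]

end FLTAgent.R2

end
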