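import Fermat.Agent.LR.Lattice
import Fermat.Agent.R2.JoinPull

/-!
Area R2, parcel JOIN: away from the level the Hecke operators of the lattice commute with the
conjugation by the Fricke element, so `torsMap` is equivariant for them.
-/

set_option autoImplicit false
set_option linter.unusedSectionVars false
set_option linter.style.haveILetI false
set_option synthInstance.maxHeartbeats 200000

noncomputable section

open CongruenceSubgroup OnePoint Matrix.SpecialLinearGroup ModularCurve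
open scoped MatrixGroups

namespace FLTAgent.R2

open FLTAgent.JTors

variable {N : ℕ} [NeZero N]

/-- conjugating a representative by the Fricke element gives a representative -/
theorem exists_conj_rep (ℓ : ℕ) [Fact ℓ.Prime] (hd : ¬ ℓ ∣ N) (i : OnePoint (ZMod ℓ)) :
    ∃ (u : Gamma0 N) (j : OnePoint (ZMod ℓ)),
      wGL N * (Periods.repsT ℓ hd).rep i =
        mapGL ℝ (u : SL(2, ℤ)) * (Periods.repsT ℓ hd).rep j * wGL N := by
  haveI : NeZero ℓ := ⟨(Fact.out : ℓ.Prime).ne_zero⟩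
  have hinf : ModularForm.heckeDiagMatrix ℓ = (Periods.repsT ℓ hd).rep ∞ := rfl
  induction i using OnePoint.rec with
  | infty =>
    obtain ⟨g, h, -, e⟩ := wGL_conj_heckeDiag (N := N)
      ((Fact.out : ℓ.Prime).coprime_iff_not_dvd.mpr hd)
    obtain ⟨σ, g', hg'⟩ := (Periods.repsT ℓ hd).move (h : SL(2, ℤ)) h.2
    refine ⟨g * g' ∞, σ ∞, ?_⟩
    rw [← hinf, e, hinf, hg' ∞, Subgroup.coe_mul, map_mul]
    simp only [mul_assoc]
  | coe b =>
    obtain ⟨h, -, e⟩ := wGL_conj_heckeMatrix (N := N) ℓ b.val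
    obtain ⟨σ, g', hg'⟩ := (Periods.repsT ℓ hd).move (h : SL(2, ℤ)) h.2
    refine ⟨g' ∞, σ ∞, ?_⟩
    rw [show (Periods.repsT ℓ hd).rep (b : OnePoint (ZMod ℓ)) = ModularForm.heckeMatrix ℓ b.val
      from rfl, e, hinf, hg' ∞]

/-- the representatives are pairwise inequivalent -/
theorem repsT_sep (ℓ : ℕ) [Fact ℓ.Prime] (hd : ¬ ℓ ∣ N) {i j : OnePoint (ZMod ℓ)} {g : Gamma0 N}
    (h : (Periods.repsT ℓ hd).rep i = mapGL ℝ (g : SL(2, ℤ)) * (Periods.repsT ℓ hd).rep j) :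
    i = j := by
  haveI : NeZero ℓ := ⟨(Fact.out : ℓ.Prime).ne_zero⟩
  have hc : ∀ k : OnePoint (ZMod ℓ), LR.toR (LR.tRep ℓ k) = (Periods.repsT ℓ hd).rep k := fun k => by
    induction k using OnePoint.rec with
    | infty => exact LR.toR_tRep_infty (NeZero.ne ℓ)
    | coe b => exact LR.toR_tRep_coe (NeZero.ne ℓ) b
  refine (LR.TC N N ℓ (Fact.out : ℓ.Prime) dvd_rfl hd).sep i j g ?_
  have hinj : Function.Injective LR.toR := by
    intro a b e
    refine Units.ext (Matrix.ext fun x y => (algebraMap ℚ ℝ).injective ?_)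
    exact congrArg (fun M : GL (Fin 2) ℝ => (M : Matrix (Fin 2) (Fin 2) ℝ) x y) e
  refine hinj ?_
  rw [map_mul, LR.embG_apply, LR.toR_emb]
  change LR.toR (LR.tRep ℓ i) = _ * LR.toR (LR.tRep ℓ j)
  rw [hc, hc]
  exact h

/-- a transfer away from the level commutes with the conjugation -/
theorem transfer_conjW {ℓ : ℕ} [Fact ℓ.Prime] (hd : ¬ ℓ ∣ N) {t : Module.End ℤ (Lam N)}
    (ht : IsTransfer (Periods.repsT ℓ hd) t) (φ : Lam N) : t (conjW φ) = conjW (t φ) := by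
  set C := Periods.repsT ℓ hd
  choose u τ hu' using exists_conj_rep (N := N) ℓ hd
  have hu : ∀ i, wGL N * C.rep i = mapGL ℝ (u i : SL(2, ℤ)) * C.rep (τ i) * wGL N := hu'
  have hτ : Function.Injective τ := by
    intro i j e
    refine repsT_sep ℓ hd (g := wElt (u i * (u j)⁻¹)) ?_
    refine mul_left_cancel (a := wGL N) ?_
    rw [hu i, e, ← mul_assoc, ← mapGL_wElt', mul_assoc _ (wGL N) (C.rep j), hu j, Subgroup.coe_mul,
      map_mul, Subgroup.coe_inv, map_inv]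
    group
  let T : OnePoint (ZMod ℓ) ≃ OnePoint (ZMod ℓ) :=
    Equiv.ofBijective τ (Finite.injective_iff_bijective.mp hτ)
  refine Subtype.ext (AddMonoidHom.ext fun x => ?_)
  obtain ⟨γ, rfl⟩ := Additive.ofMul.surjective x
  obtain ⟨σ, g, hg⟩ := C.move (γ : SL(2, ℤ)) γ.2
  have hrel : ∀ k, C.rep k * mapGL ℝ (wElt γ : SL(2, ℤ)) =
      mapGL ℝ (((u (T.symm k))⁻¹ * wElt (g (T.symm k)) * u (σ (T.symm k)) : Gamma0 N) : SL(2, ℤ)) *
        C.rep (T (σ (T.symm k))) := by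
    intro k
    obtain ⟨j, rfl⟩ := T.surjective k
    rw [T.symm_apply_apply]
    show C.rep (τ j) * _ = _ * C.rep (τ (σ j))
    have e1 : C.rep (τ j) = (mapGL ℝ (u j : SL(2, ℤ)))⁻¹ * (wGL N * C.rep j) * (wGL N)⁻¹ := by
      rw [hu j]; group
    have e2 : C.rep (τ (σ j)) = (mapGL ℝ (u (σ j) : SL(2, ℤ)))⁻¹ * (wGL N * C.rep (σ j)) *
        (wGL N)⁻¹ := by
      rw [hu (σ j)]; group
    have e3 : mapGL ℝ (wElt γ : SL(2, ℤ)) = wGL N * mapGL ℝ (γ : SL(2, ℤ)) * (wGL N)⁻¹ := by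
      rw [← mapGL_wElt, mul_inv_cancel_right]
    have e4 : mapGL ℝ (wElt (g j) : SL(2, ℤ)) = wGL N * mapGL ℝ (g j : SL(2, ℤ)) * (wGL N)⁻¹ := by
      rw [← mapGL_wElt, mul_inv_cancel_right]
    rw [e1, e2, e3, Subgroup.coe_mul, Subgroup.coe_mul, map_mul, map_mul, Subgroup.coe_inv, map_inv,
      e4]
    calc _ = (mapGL ℝ (u j : SL(2, ℤ)))⁻¹ * wGL N * (C.rep j * mapGL ℝ (γ : SL(2, ℤ))) *
        (wGL N)⁻¹ := by group
      _ = _ := by rw [hg j]; group
  have h1 := ht φ (wElt γ) ((T.symm.trans σ).trans T) _ hrel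
  have h2 := ht (conjW φ) γ σ g hg
  rw [h2, conjW_apply, h1]
  simp only [conjW_apply, ofMul_mul, ofMul_inv, map_add, map_neg, Finset.sum_add_distrib,
    Finset.sum_neg_distrib]
  rw [Equiv.sum_comp T.symm (fun k => φ.1 (Additive.ofMul (u k))),
    Equiv.sum_comp T.symm (fun k => φ.1 (Additive.ofMul (wElt (g k)))),
    Equiv.sum_comp T.symm (fun k => φ.1 (Additive.ofMul (u (σ k)))),
    Equiv.sum_comp σ (fun k => φ.1 (Additive.ofMul (u k)))]
  abel

/-- `torsMap` intertwines the good operators of the lattice with those of the Jacobian -/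
theorem heckeOperatorBar_torsMap {n : ℕ} (hn : 0 < n) (LD : LatticeData N) {ℓ : ℕ} (hℓ : ℓ.Prime)
    (hd : ¬ ℓ ∣ N) (φ : Lam N) :
    heckeOperatorBar N ⟨ℓ, hℓ⟩ (torsMap N n φ) = torsMap N n (LD.T ⟨ℓ, hℓ⟩ φ) := by
  haveI : Fact ℓ.Prime := ⟨hℓ⟩
  have hx : IsTors n (conjW (conjW φ)) (torsMap N n φ) := by
    rw [conjW_conjW]; exact isTors_torsMap hn φ
  have h := isTors_hecke_T hn ⟨ℓ, hℓ⟩ hd (LD.transferT ⟨ℓ, hℓ⟩ hd) hx
  rw [transfer_conjW hd (LD.transferT ⟨ℓ, hℓ⟩ hd) φ, conjW_conjW] at h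
  exact (h.eq_torsMap hn).symm

end FLTAgent.R2

end
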