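import Fermat.Agent.R2.DescentDefs
import Fermat.Agent.R2.JoinComm
import Fermat.Agent.JTors.Tors

/-!
Area R2, parcel JOIN: the point of a restricted homomorphism is the pullback along the inclusion
from any lower level; points of combinations of restrictions are old.
-/

set_option autoImplicit false
set_option linter.unusedSectionVars false
set_option linter.style.haveILetI false
set_option synthInstance.maxHeartbeats 200000

noncomputable section

open ModularCurve CongruenceSubgroup AlgebraicCurve UpperHalfPlane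
open scoped MatrixGroups

namespace FLTAgent.R2.Desc

open Genus (Qbar FN)
open FLTAgent.JTors
open scoped Genus

variable {d L : ℕ} [NeZero d] [NeZero L]

/-- the inclusion of the groups -/
def inclDvd (h : d ∣ L) : Gamma0 L →* Gamma0 d where
  toFun γ := ⟨(γ : SL(2, ℤ)), by
    rw [Gamma0_mem, ZMod.intCast_zmod_eq_zero_iff_dvd]
    exact (Int.natCast_dvd_natCast.mpr h).trans
      ((ZMod.intCast_zmod_eq_zero_iff_dvd _ _).mp (Gamma0_mem.mp γ.2))⟩
  map_one' := rfl
  map_mul' _ _ := rfl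

/-- restriction to a deeper level -/
def resDvd (h : d ∣ L) : Lam d →+ Lam L :=
  AddMonoidHom.mk' (fun φ => ⟨φ.1.comp (inclDvd h).toAdditive, fun γ hγ => φ.2 (inclDvd h γ) hγ⟩)
    (fun φ ψ => Subtype.ext (AddMonoidHom.ext fun _ => by simp))

theorem resDvd_apply (h : d ∣ L) (φ : Lam d) (γ : Gamma0 L) :
    (resDvd h φ).1 (Additive.ofMul γ) = φ.1 (Additive.ofMul (inclDvd h γ)) := rfl

theorem evH_incl (h : d ∣ L) (x : FN d) : evH L (SS2.incl h x) = evH d x := by
  obtain ⟨k, rfl⟩ := h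
  haveI : NeZero k := ⟨fun e => NeZero.ne (d * k) (by rw [e, mul_zero])⟩
  rw [show SS2.incl (dvd_mul_right d k) x = heckeAlphaBar Qbar d k x from
    Subtype.ext ((SS2.coe_incl _ _).trans (coe_heckeAlphaBar d k x).symm), JTors.evH_alpha]

/-- the point of a restriction is the pullback along the inclusion -/
theorem torsMap_resDvd (h : d ∣ L) {n : ℕ} (hn : 0 < n) (φ : Lam d) :
    torsMap L n (resDvd h φ) = up h (torsMap d n φ) := by
  refine IsTors.eq_torsMap hn ?_
  obtain ⟨f, D, hf, ⟨ψ, hψ, hc⟩, hD, e⟩ := isTors_torsMap hn φ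
  refine ⟨SS2.incl h f, MLT.pullD (SS2.incl h) D, (map_ne_zero _).mpr hf, ⟨ψ, ?_, fun γ => ?_⟩,
    fun v => MLT.ord_pullD (SS2.incl h) (p := n) hD v, by rw [e]; rfl⟩
  · rw [hψ, evH_incl]
  · have h' := hc (inclDvd h γ)
    rw [expChar_apply, resDvd_apply]
    rw [expChar_apply] at h'
    exact h'

/-- the restricted classes for the primes in `R`, in the lattice -/
def OldLam (R : Finset ℕ) (L : ℕ) [NeZero L] : AddSubgroup (Lam L) :=
  AddSubgroup.closure {v | ∃ r ∈ R, ∃ (d : ℕ) (_ : NeZero d) (h : d ∣ L) (φ : Lam d),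
    d * r = L ∧ resDvd h φ = v}

/-- their points are old -/
theorem torsMap_mem_old {R : Finset ℕ} {v : Lam L} (hv : v ∈ OldLam R L) (m : ℕ) :
    torsMap L (2 ^ m) v ∈ Old R L := by
  induction hv using AddSubgroup.closure_induction with
  | mem w hw =>
    obtain ⟨r, hr, d, i, h, φ, hd, rfl⟩ := hw
    haveI := i
    refine AddSubgroup.subset_closure ⟨r, hr, d, i, h, torsMap d (2 ^ m) φ, hd,
      ⟨m, nsmul_torsMap_eq_zero (Nat.pow_pos two_pos) φ⟩, ?_⟩
    exact (torsMap_resDvd h (Nat.pow_pos two_pos) φ).symm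
  | zero => rw [map_zero]; exact zero_mem _
  | add a b _ _ ha hb => rw [map_add]; exact add_mem ha hb
  | neg a _ ha => rw [map_neg]; exact neg_mem ha

/-- every old class of exponent dividing `2 ^ m` is the point of a combination of restrictions,
up to multiples of `2 ^ m`, provided pullbacks detect the exponent -/
theorem mem_oldLam_of_old {R : Finset ℕ} {m : ℕ} {v : Lam L}
    (h : torsMap L (2 ^ m) v ∈ Old R L) :
    ∃ (j : ℕ) (w : Lam L) (u : Lam L), w ∈ OldLam R L ∧
      (2 ^ j : ℤ) • v = w + (2 ^ (m + j) : ℤ) • u := by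
  have key : ∀ y ∈ Old R L, ∃ (a : ℕ) (w : Lam L), w ∈ OldLam R L ∧ torsMap L (2 ^ a) w = y := by
    intro y hy
    induction hy using AddSubgroup.closure_induction with
    | mem y hy =>
      obtain ⟨r, hr, d, i, hd, x, hdr, ⟨a, hx⟩, rfl⟩ := hy
      haveI := i
      obtain ⟨φ, rfl⟩ := (JTors.nsmul_eq_zero_iff (Nat.pow_pos two_pos) x).1 hx
      exact ⟨a, resDvd hd φ, AddSubgroup.subset_closure ⟨r, hr, d, i, hd, φ, hdr, rfl⟩,
        torsMap_resDvd hd (Nat.pow_pos two_pos) φ⟩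
    | zero => exact ⟨0, 0, zero_mem _, map_zero _⟩
    | add x y _ _ hx hy =>
      obtain ⟨a, w, hw, rfl⟩ := hx
      obtain ⟨b, w', hw', rfl⟩ := hy
      refine ⟨a + b, (2 ^ b : ℕ) • w + (2 ^ a : ℕ) • w',
        add_mem (AddSubgroup.nsmul_mem _ hw _) (AddSubgroup.nsmul_mem _ hw' _), ?_⟩
      rw [map_add, map_nsmul, map_nsmul, pow_add, torsMap_mul (Nat.pow_pos two_pos) (Nat.pow_pos two_pos),
        mul_comm (2 ^ a) (2 ^ b), torsMap_mul (Nat.pow_pos two_pos) (Nat.pow_pos two_pos)]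
    | neg x _ hx =>
      obtain ⟨a, w, hw, rfl⟩ := hx
      exact ⟨a, -w, neg_mem hw, map_neg _ _⟩
  obtain ⟨a, w, hw, he⟩ := key _ h
  have h1 : torsMap L (2 ^ a * 2 ^ m) ((2 ^ a : ℕ) • v - (2 ^ m : ℕ) • w) = 0 := by
    rw [map_sub, map_nsmul, map_nsmul, torsMap_mul (Nat.pow_pos two_pos) (Nat.pow_pos two_pos),
      mul_comm, torsMap_mul (Nat.pow_pos two_pos) (Nat.pow_pos two_pos), he, sub_self]
  obtain ⟨u, hu⟩ := (torsMap_eq_zero_iff (Nat.mul_pos (Nat.pow_pos two_pos) (Nat.pow_pos two_pos)) _).1 h1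
  refine ⟨a, (2 ^ m : ℕ) • w, u, AddSubgroup.nsmul_mem _ hw _, ?_⟩
  rw [← pow_add] at hu
  have : ((2 ^ a : ℕ) • v - (2 ^ m : ℕ) • w : Lam L) = ((2 ^ (a + m) : ℕ) : ℤ) • u := hu
  rw [sub_eq_iff_eq_add'] at this
  rw [← natCast_zsmul] at this
  push_cast at this
  rw [this, add_comm m a]

end FLTAgent.R2.Desc

end
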