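import Fermat.Agent.R2.JoinLift
import Fermat.Agent.R2.JoinUp
import Fermat.Agent.R2.JoinComm
import Fermat.Agent.Attach.Defs

/-!
Area R2, parcel JOIN: two-adic classes of level `Γ₀(N)` and the lattice of periods modulo `2 ^ n`.
-/

set_option autoImplicit false
set_option linter.style.haveILetI false
set_option linter.unusedSectionVars false
set_option synthInstance.maxHeartbeats 200000

noncomputable section

open scoped MatrixGroups TensorProduct
open Matrix

namespace FLTAgent.R2.Join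

open FLTAgent.LL

variable {M : ℕ} [NeZero M] {N : ℕ} [NeZero N]

/-- the lattice vector is congruent to the class modulo `2 ^ n` -/
def Approx (n : ℕ) (y : H1 (zRep M N)) (v : JTors.Lam N) : Prop :=
  ∀ γ : CongruenceSubgroup.Gamma0 N,
    (2 : Z2) ^ n ∣ evalGamma0 M N Z2 y (Additive.ofMul γ) - ((v.1 (Additive.ofMul γ) : ℤ) : Z2)

variable {n : ℕ}

theorem Approx.add {y y' : H1 (zRep M N)} {v v' : JTors.Lam N} (h : Approx n y v)
    (h' : Approx n y' v') : Approx n (y + y') (v + v') := fun γ => by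
  have e := dvd_add (h γ) (h' γ)
  rw [show (v + v').1 (Additive.ofMul γ) = v.1 (Additive.ofMul γ) + v'.1 (Additive.ofMul γ) from rfl,
    Int.cast_add, _root_.map_add, AddMonoidHom.add_apply]
  convert e using 1
  ring

theorem Approx.zero : Approx n (0 : H1 (zRep M N)) (0 : JTors.Lam N) := fun γ => by
  rw [show (0 : JTors.Lam N).1 (Additive.ofMul γ) = 0 from rfl, map_zero]
  simp

theorem Approx.smul {y : H1 (zRep M N)} {v : JTors.Lam N} (h : Approx n y v) (a : ℤ) :
    Approx n ((a : Z2) • y) (a • v) := fun γ => by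
  have e := (h γ).mul_left (a : Z2)
  rw [show (a • v).1 (Additive.ofMul γ) = a * v.1 (Additive.ofMul γ) by simp, Int.cast_mul,
    map_smul]
  convert e using 1
  show (a : Z2) * _ - _ = _
  ring

theorem Approx.sub {y y' : H1 (zRep M N)} {v v' : JTors.Lam N} (h : Approx n y v)
    (h' : Approx n y' v') : Approx n (y - y') (v - v') := by
  have e := h.add (h'.smul (-1))
  rw [Int.cast_neg, Int.cast_one, neg_one_smul, neg_one_zsmul] at e
  rw [sub_eq_add_neg, sub_eq_add_neg]
  exact e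

theorem Approx.sum {κ : Type*} (s : Finset κ) {y : κ → H1 (zRep M N)} {v : κ → JTors.Lam N}
    (h : ∀ i ∈ s, Approx n (y i) (v i)) : Approx n (∑ i ∈ s, y i) (∑ i ∈ s, v i) := by
  classical
  induction s using Finset.induction_on with
  | empty => simpa using Approx.zero
  | insert i s hi ih =>
    rw [Finset.sum_insert hi, Finset.sum_insert hi]
    exact (h i (Finset.mem_insert_self i s)).add (ih fun j hj => h j (Finset.mem_insert_of_mem hj))

/-- multiples of `2 ^ n` are congruent to zero -/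
theorem Approx.smul_pow (y : H1 (zRep M N)) :
    Approx n ((2 : Z2) ^ n • y) (0 : JTors.Lam N) := fun γ => by
  rw [show (0 : JTors.Lam N).1 (Additive.ofMul γ) = 0 from rfl, map_smul, Int.cast_zero, sub_zero]
  exact ⟨_, rfl⟩

/-- congruent vectors give the same torsion point -/
theorem Approx.torsMap_eq {y : H1 (zRep M N)} {v v' : JTors.Lam N} (h : Approx n y v)
    (h' : Approx n y v') : JTors.torsMap N (2 ^ n) v = JTors.torsMap N (2 ^ n) v' := by
  rw [← sub_eq_zero, ← map_sub, JTors.torsMap_eq_zero_iff (Nat.pow_pos two_pos)]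
  have hd : ∀ x, (2 : ℤ) ^ n ∣ (v - v').1 x := fun x => by
    obtain ⟨γ, rfl⟩ := Additive.ofMul.surjective x
    have e := dvd_sub (h' γ) (h γ)
    rw [sub_sub_sub_cancel_left, ← Int.cast_sub] at e
    have e2 := (PadicInt.norm_int_le_pow_iff_dvd (p := 2) (n := n)).1
      ((PadicInt.norm_le_pow_iff_mem_span_pow _ n).2 (Ideal.mem_span_singleton.2 (by exact_mod_cast e)))
    show (2 : ℤ) ^ n ∣ v.1 _ - v'.1 _
    exact_mod_cast e2
  choose w hw using hd
  refine ⟨⟨AddMonoidHom.mk' w fun a b => mul_left_cancel₀ (pow_ne_zero n (two_ne_zero (α := ℤ)))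
    (by rw [← hw, _root_.map_add, hw, hw, mul_add]), fun γ hγ => ?_⟩, ?_⟩
  · refine (mul_eq_zero.1 ?_).resolve_left (pow_ne_zero n (two_ne_zero (α := ℤ)))
    exact (hw _).symm.trans ((v - v').2 γ hγ)
  · refine Subtype.ext (AddMonoidHom.ext fun x => ?_)
    rw [hw]
    simp

/-- `T l - (1 + l)` of a class is congruent to a lattice vector -/
theorem exists_approx_eta {l : ℕ} (hl : l.Prime) (hlM : ¬ l ∣ M) (hl1 : (l : ZMod M) = 1)
    (y : H1 (zRep M N)) :
    ∃ v, Approx n (T (zRep M N) hl hlM y - ((1 + l : ℕ) : Z2) • y) v := by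
  haveI : Fact l.Prime := ⟨hl⟩
  obtain ⟨g, rfl⟩ := Submodule.Quotient.mk_surjective _ y
  set f : Z1 (zRep M N) := heckeZ (zRep M N) (stdReps l) ((hl.coprime_iff_not_dvd).mpr hlM) g
    - ((1 + l : ℕ) : Z2) • g with hf
  have hclass : T (zRep M N) hl hlM (H1.mk (zRep M N) g) - ((1 + l : ℕ) : Z2) • H1.mk (zRep M N) g =
      H1.mk (zRep M N) f := rfl
  have hpar : ModularCurve.Period.IsParabolicHom (CongruenceSubgroup.Gamma0 N)
      (evalGamma0 M N Z2 (H1.mk (zRep M N) f)) := by
    intro γ hγ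
    obtain ⟨v, hv⟩ := exists_apply_eq_sub hl hlM hl1 (zRep_neg_one N) zRep_add_self g γ.1 hγ
    rw [evalGamma0_mk, show f.1 γ.1 = _ from hv, Pi.sub_apply, funRep_apply,
      inv_smul_of_mem_stab (Gamma0_le_stab M N γ.2), sub_self]
  obtain ⟨z, hz⟩ := (range_lamCast _).2 hpar
  suffices h : ∃ v : JTors.Lam N, ∀ x, (2 : Z2) ^ n ∣ lamCast Z2 N z x - ((v.1 x : ℤ) : Z2) by
    obtain ⟨v, hv⟩ := h
    refine ⟨v, fun γ => ?_⟩
    have e := hv (Additive.ofMul γ)
    rw [hz, ← hclass] at e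
    exact e
  clear hz
  induction z using TensorProduct.induction_on with
  | zero => exact ⟨0, fun x => by rw [show (0 : JTors.Lam N).1 x = 0 from rfl]; simp⟩
  | tmul a φ =>
    refine ⟨((PadicInt.toZModPow n a).val : ℤ) • φ, fun x => ?_⟩
    rw [show (((PadicInt.toZModPow n a).val : ℤ) • φ).1 x = ((PadicInt.toZModPow n a).val : ℤ) * φ.1 x
      by simp, Int.cast_mul, lamCast_tmul, ← sub_mul]
    refine Dvd.dvd.mul_right ?_ _
    rw [← red2_eq_zero_iff]
    simp
  | add z z' hz hz' =>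
    obtain ⟨v, hv⟩ := hz
    obtain ⟨v', hv'⟩ := hz'
    refine ⟨v + v', fun x => ?_⟩
    rw [show (v + v').1 x = v.1 x + v'.1 x from rfl, Int.cast_add, _root_.map_add,
      AddMonoidHom.add_apply]
    convert dvd_add (hv x) (hv' x) using 1
    ring

/-- every lattice vector is a class -/
theorem exists_class (h : N ∣ M) (v : JTors.Lam N) : ∃ y : H1 (zRep M N),
    ∀ γ, evalGamma0 M N Z2 y (Additive.ofMul γ) = ((v.1 (Additive.ofMul γ) : ℤ) : Z2) := by
  obtain ⟨y, hy⟩ := (evalGamma0_bijective (A := Z2) h).2 (lamCast Z2 N ((1 : Z2) ⊗ₜ v))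
  exact ⟨y, fun γ => by rw [hy, lamCast_tmul, one_mul]⟩

/-- congruence is divisibility of the difference of classes -/
theorem Approx.exists_eq (h : N ∣ M) {y y' : H1 (zRep M N)} {v : JTors.Lam N}
    (hy : Approx n y v) (hy' : Approx n y' v) : ∃ w, y = y' + (2 : Z2) ^ n • w := by
  have hd : ∀ x, (2 : Z2) ^ n ∣ evalGamma0 M N Z2 (y - y') x := fun x => by
    obtain ⟨γ, rfl⟩ := Additive.ofMul.surjective x
    have e := dvd_sub (hy γ) (hy' γ)
    rw [sub_sub_sub_cancel_right] at e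
    rw [map_sub, AddMonoidHom.sub_apply]
    exact e
  choose w hw using hd
  obtain ⟨W, hW⟩ := (evalGamma0_bijective (A := Z2) h).2 (AddMonoidHom.mk' w fun a b =>
    mul_left_cancel₀ (pow_ne_zero n (two_ne_zero (α := Z2)))
      (by rw [← hw, _root_.map_add, hw, hw, mul_add]))
  refine ⟨W, ?_⟩
  rw [← sub_eq_iff_eq_add']
  refine (evalGamma0_bijective (A := Z2) h).1 (AddMonoidHom.ext fun x => ?_)
  rw [map_smul, hW, hw]
  rfl

/-- the good operators -/
theorem Approx.hecke (h : N ∣ M) (D : JTors.LatticeData N) {l : ℕ} (hl : l.Prime) (hlM : ¬ l ∣ M)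
    {y : H1 (zRep M N)} {v : JTors.Lam N} (hy : Approx n y v) :
    Approx n (T (zRep M N) hl hlM y) (D.T ⟨l, hl⟩ v) := by
  obtain ⟨x, hx⟩ := exists_class (M := M) h v
  obtain ⟨w, rfl⟩ := hy.exists_eq h (y' := x) fun γ => by rw [hx, sub_self]; exact dvd_zero _
  rw [_root_.map_add, map_smul, ← add_zero (D.T ⟨l, hl⟩ v)]
  refine Approx.add (fun γ => ?_) (Approx.smul_pow _)
  have e := lamCast_T D h hl hlM x ((1 : Z2) ⊗ₜ v) (AddMonoidHom.ext fun a => by
    obtain ⟨δ, rfl⟩ := Additive.ofMul.surjective a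
    rw [lamCast_tmul, one_mul, hx])
  rw [← e, LinearMap.baseChange_tmul, lamCast_tmul, one_mul, sub_self]
  exact dvd_zero _

/-- evaluation of a pullback -/
theorem evalGamma0_pullH {e : ℕ} [NeZero e] (he : e ∣ N) (y : H1 (zRep M e))
    (γ : CongruenceSubgroup.Gamma0 N) :
    evalGamma0 M N Z2 (pullH he y) (Additive.ofMul γ) =
      evalGamma0 M e Z2 y (Additive.ofMul (Desc.inclDvd he γ)) := by
  obtain ⟨f, rfl⟩ := Submodule.Quotient.mk_surjective _ y
  rfl

/-- restriction is pullback -/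
theorem Approx.pull {e : ℕ} [NeZero e] (he : e ∣ N) {y : H1 (zRep M e)} {v : JTors.Lam e}
    (hy : Approx n y v) : Approx n (pullH he y) (Desc.resDvd he v) := fun γ => by
  rw [evalGamma0_pullH, Desc.resDvd_apply]
  exact hy _

/-- the class of a restriction -/
theorem pullH_class (h : N ∣ M) {e : ℕ} [NeZero e] (he : e ∣ N) {y : H1 (zRep M e)}
    {v : JTors.Lam e}
    (hy : ∀ γ, evalGamma0 M e Z2 y (Additive.ofMul γ) = ((v.1 (Additive.ofMul γ) : ℤ) : Z2))
    {x : H1 (zRep M N)}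
    (hx : ∀ γ, evalGamma0 M N Z2 x (Additive.ofMul γ) =
      (((Desc.resDvd he v).1 (Additive.ofMul γ) : ℤ) : Z2)) : x = pullH he y := by
  refine (evalGamma0_bijective (A := Z2) h).1 (AddMonoidHom.ext fun a => ?_)
  obtain ⟨γ, rfl⟩ := Additive.ofMul.surjective a
  rw [evalGamma0_pullH, hx, hy, Desc.resDvd_apply]

end FLTAgent.R2.Join

end
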