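import Fermat.Agent.R2.Limit
import Fermat.Agent.MLT.SquarePull
import Fermat.Agent.SS2.Incl
import Fermat.Agent.EIS.Trace
import Fermat.Agent.TOR.MazurEigen

/-!
Area R2, parcel DESCENT: the notions.

* `Old R L`: sum over the primes `r ∈ R` of the two-power torsion classes of level `L` pulled back
  along the inclusion from level `L / r`.
* `DescentInput W N Q S s y`: a two-power torsion class of level `N ∏ Q` which is an eigenclass,
  outside `S`, of the system of `W` modulo the old classes and has order at least `2 ^ s` modulo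
  them.
* `DescentGoal`: the endpoint of the parcel.
-/

set_option autoImplicit false
set_option linter.unusedSectionVars false
set_option linter.style.haveILetI false

noncomputable section

open ModularCurve WeierstrassCurve MvPolynomial
open FLTAgent.Reduction (Qb FB)
open FLTAgent.Torsion (Tors)

namespace FLTAgent.R2.Desc

/-- two-power torsion classes -/
abbrev tor (L : ℕ) [NeZero L] : AddSubgroup (JZero L) := EIS.torR L 2

/-- pullback of classes along the inclusion of function fields -/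
abbrev up {d L : ℕ} [NeZero d] [NeZero L] (h : d ∣ L) : JZero d →+ JZero L :=
  MLT.pullJ (SS2.incl h)

/-- the old classes for the primes in `R` -/
def Old (R : Finset ℕ) (L : ℕ) [NeZero L] : AddSubgroup (JZero L) :=
  AddSubgroup.closure {y | ∃ r ∈ R, ∃ (d : ℕ) (_ : NeZero d) (h : d ∣ L) (x : JZero d),
    d * r = L ∧ x ∈ tor d ∧ up h x = y}

/-- an eigenclass, outside `S`, of the system of `W` modulo the old classes for `R` -/
def EigMod (W : WeierstrassCurve ℤ) (R S : Finset ℕ) (L : ℕ) [NeZero L] (y : JZero L) : Prop :=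
  ∀ (l : ℕ) (hl : l.Prime), ¬ l ∣ L → l ∉ S →
    heckeOperatorBar L ⟨l, hl⟩ y - W.apOfModel l • y ∈ Old R L

/-- a prime at which a Frobenius acts on the two-torsion as a transposition -/
def TranspPrime (W : WeierstrassCurve ℤ) (q : ℕ) : Prop :=
  q.Prime ∧ q ≠ 2 ∧ W.IsGoodPrimeFor q ∧ (2 : ℤ) ∣ W.apOfModel q ∧
    ∀ A : ValuationSubring Qb, A.LiesOverPrime q → ∀ σ : Qb ≃ₐ[ℚ] Qb, A.IsFrobeniusAt σ q →
      ∃ x : Tors W 2, σ • x ≠ x

/-- the class handed to the descent -/
structure DescentInput (W : WeierstrassCurve ℤ) (N : ℕ) (Q S : Finset ℕ) (s L : ℕ) [NeZero L]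
    (y : JZero L) : Prop where
  level : L = N * ∏ q ∈ Q, q
  prime : ∀ q ∈ Q, TranspPrime W q
  not_dvd : ∀ q ∈ Q, ¬ q ∣ N
  torsion : y ∈ tor L
  eig : EigMod W Q S L y
  order : 2 ^ (s - 1) • y ∉ Old Q L

/-- the endpoint: the relations at the bottom level, in primes outside `Q` and `S`, hold modulo
`2 ^ (s / 2 ^ #Q)` -/
def DescentGoal : Prop :=
  ∀ (W : WeierstrassCurve ℤ) (N r : ℕ) [NeZero N] (Q S : Finset ℕ) (s L : ℕ) [NeZero L]
    (y : JZero L), IsAnchor W → Squarefree N → (∀ l : ℕ, l.Prime → (l : ℤ) ∣ W.Δ → l ∣ N) →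
    r.Prime → r % 12 = 11 → r ∣ N → DescentInput W N Q S s L y →
      ∀ R : MvPolynomial (GoodIdx N) ℤ, aeval (opT N) R = 0 → (∀ i ∈ R.vars, (i.1 : ℕ) ∉ Q ∧ (i.1 : ℕ) ∉ S) →
        (2 : ℤ) ^ (s / 2 ^ Q.card) ∣ aeval (fun i : GoodIdx N => W.apOfModel i.1) R

end FLTAgent.R2.Desc

end
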