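import Fermat.Agent.R2.PrimesAux
import Fermat.Agent.R2.DescentDefs
import Fermat.Agent.TH2.AnchorForm

/-!
Area R2, parcel JOIN: the killing primes are primes of transposition.
-/

set_option autoImplicit false
set_option linter.style.haveILetI false

noncomputable section

namespace FLTAgent.R2.Join

open FLTAgent.TH2 (sqrtΔ sqrtΔ_sq)
open FLTAgent.Local (QBar)

variable {W : WeierstrassCurve ℤ}

/-- the action of a Frobenius element on `√Δ` is read off the symbol of `Δ` -/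
theorem frob_sqrt {q : ℕ} (hq : q.Prime) (hq2 : q ≠ 2) (hgood : ¬ (q : ℤ) ∣ W.Δ)
    {A : ValuationSubring QBar} (hA : A.LiesOverPrime q) {σ : GQ} (hσ : A.IsFrobeniusAt σ q) :
    σ (sqrtΔ W) = sqrtΔ W ↔ (q : ℤ) ∣ W.Δ ^ (q / 2) - 1 := by
  have hv : A.valuation (sqrtΔ W) = 1 := by
    have h2 : A.valuation (sqrtΔ W) ^ 2 = 1 := by
      rw [← map_pow, sqrtΔ_sq]; exact Local.val_int_eq_one hA hq hgood
    exact (pow_eq_one_iff.mp h2).resolve_right two_ne_zero
  have hsA : sqrtΔ W ∈ A := (A.valuation_le_one_iff _).mp hv.le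
  have h1 := Chebotarev.frob_sub_pow_mem hσ hsA
  rw [ValuationSubring.mem_nonunits_iff] at h1
  have hodd : q = 2 * (q / 2) + 1 := by
    have := hq.eq_two_or_odd
    omega
  have hiff : A.valuation (sqrtΔ W ^ q - sqrtΔ W) < 1 ↔ (q : ℤ) ∣ W.Δ ^ (q / 2) - 1 := by
    rw [show sqrtΔ W ^ q - sqrtΔ W = ((W.Δ ^ (q / 2) - 1 : ℤ) : QBar) * sqrtΔ W by
      conv_lhs => rw [hodd, pow_succ, pow_mul, sqrtΔ_sq]
      push_cast; ring, map_mul, hv, mul_one, Local.val_int_lt_one_iff hA hq]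
  rw [← hiff]
  constructor
  · intro e
    rw [e, Valuation.map_sub_swap] at h1
    exact h1
  · intro h2
    by_contra hne
    have e' : σ (sqrtΔ W) = -sqrtΔ W := (sq_eq_sq_iff_eq_or_eq_neg.mp (by
      rw [← map_pow, sqrtΔ_sq, map_intCast])).resolve_left hne
    have h3 : A.valuation (σ (sqrtΔ W) - sqrtΔ W) < 1 := by
      rw [show σ (sqrtΔ W) - sqrtΔ W = (σ (sqrtΔ W) - sqrtΔ W ^ q) +
        (sqrtΔ W ^ q - sqrtΔ W) by ring]
      exact lt_of_le_of_lt (Valuation.map_add _ _ _) (max_lt h1 h2)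
    rw [e', show -sqrtΔ W - sqrtΔ W = -(((2 : ℤ) : QBar) * sqrtΔ W) by push_cast; ring,
      Valuation.map_neg, map_mul, hv, mul_one, Local.val_int_lt_one_iff hA hq] at h3
    exact hq2 ((Nat.prime_dvd_prime_iff_eq hq Nat.prime_two).mp (by exact_mod_cast h3))

/-- a killing prime is a prime of transposition -/
theorem transpPrime (hW : IsAnchor W) (B : Base W) {N : ℕ} (K : Aux hW B N) (i : Fin K.k) :
    Desc.TranspPrime W (K.q i) := by
  haveI : Fact (Nat.Prime 2) := ⟨Nat.prime_two⟩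
  have hq := K.prime i
  have hq2 : K.q i ≠ 2 := fun h => K.ndvd i (by
    rw [h]; exact Dvd.dvd.mul_right (Dvd.dvd.mul_right dvd_rfl _) _)
  have hgood : ¬ (K.q i : ℤ) ∣ W.Δ := fun h => K.ndvd i (Dvd.dvd.mul_right (dvd_mul_of_dvd_right
    (Finset.dvd_prod_of_mem _ ((badOdd_spec hW).2 ⟨hq, hq2, h⟩)) _) _)
  have h2a : (2 : ℤ) ∣ W.apOfModel (K.q i) := by
    have htr := (tate hW).frobenius hW.neg.ne hq hgood (K.lies i) (K.frob_spec i) (Ne.symm hq2)
    have e : (rE hW N (K.frob i)).trace = 0 := K.tr i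
    change (((tate hW).mat hW.neg.ne (K.frob i)).map (PadicInt.toZModPow (N + 1))).trace = 0 at e
    rw [Matrix.trace_fin_two, Matrix.map_apply, Matrix.map_apply, ← map_add, ← Matrix.trace_fin_two,
      htr.1, map_intCast, ZMod.intCast_zmod_eq_zero_iff_dvd] at e
    exact (dvd_pow_self (2 : ℤ) N.succ_ne_zero).trans (by exact_mod_cast e)
  refine ⟨hq, hq2, hgood, h2a, fun A hA σ hσ => ?_⟩
  by_contra hcon
  push Not at hcon
  have hadm := TH2.admissible_of_anchor hW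
  have hΔ := hW.neg.ne
  obtain ⟨D⟩ := TH2.nonempty_trio hΔ
  have hfix : TH2.FixesTwo W σ := fun P hP =>
    congrArg Subtype.val (hcon (FLTAgent.Torsion.mkTors P hP))
  have hs : σ (sqrtΔ W) = sqrtΔ W := by
    rw [D.fixes_sqrt_iff hΔ, (D.fixesTwo_iff_perm hΔ σ).mp hfix, map_one]
  have hs' : K.frob i (sqrtΔ W) = sqrtΔ W :=
    (frob_sqrt hq hq2 hgood (K.lies i) (K.frob_spec i)).2 ((frob_sqrt hq hq2 hgood hA hσ).1 hs)
  by_cases hf : TH2.FixesTwo W (K.frob i)
  · exact K.ne_one i ((rb_eq_one_iff hW _).2 ((Layer.red_eq_one_iff _ _ _).2 hf))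
  · have htr := (EllFrob.galois_charpoly hq hgood (K.lies i) (K.frob_spec i) Nat.prime_two
      (Ne.symm hq2)).1
    rw [(TH2.galoisTrace_two hadm _).mpr ⟨hs', hf⟩] at htr
    have h0 : (W.apOfModel (K.q i) : ZMod 2) = 0 :=
      (ZMod.intCast_zmod_eq_zero_iff_dvd _ 2).2 (by exact_mod_cast h2a)
    rw [h0] at htr
    exact one_ne_zero htr

end FLTAgent.R2.Join

end
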