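import Fermat.Agent.LR.Eigen
import Fermat.Agent.R2.Anchor

/-!
Area R2, parcel LIMIT: a curve whose coefficients satisfy every relation of the Hecke operators of
level `L` modulo every power of two is modular of level `L`.
-/

set_option autoImplicit false
set_option linter.style.haveILetI false

noncomputable section

namespace FLTAgent.R2

open MvPolynomial WeierstrassCurve ModularFormClass
open FLTAgent.Attach (TFull)

/-- the primes not dividing the level -/
abbrev GoodIdx (L : ℕ) : Type := {ℓ : ℕ // ℓ.Prime ∧ ¬ ℓ ∣ L}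

/-- the Hecke operators at the primes not dividing the level -/
def opT (L : ℕ) [NeZero L] (i : GoodIdx L) : TFull L :=
  CuspForm.heckeAlgebra.T i.2.1 i.2.2 (Set.notMem_empty _)

/-- the relations of the Hecke operators are relations of the coefficients modulo every power -/
def RelModPow (L : ℕ) [NeZero L] (W : WeierstrassCurve ℤ) : Prop :=
  ∀ R : MvPolynomial (GoodIdx L) ℤ, aeval (opT L) R = 0 →
    ∀ m : ℕ, (2 : ℤ) ^ m ∣ aeval (fun i : GoodIdx L => W.apOfModel i.1) R

/-- an integer divisible by every power of two vanishes -/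
theorem eq_zero_of_two_pow_dvd {z : ℤ} (h : ∀ m : ℕ, (2 : ℤ) ^ m ∣ z) : z = 0 := by
  refine Int.natAbs_eq_zero.1 (Nat.eq_zero_of_dvd_of_lt ?_ (Nat.lt_two_pow_self (n := z.natAbs)))
  have := Int.natAbs_dvd_natAbs.2 (h z.natAbs)
  simpa [Int.natAbs_pow] using this

/-- a curve whose coefficients satisfy all relations of the operators is modular of that level -/
theorem modularModel_of_relModPow {L : ℕ} [NeZero L] {W : WeierstrassCurve ℤ}
    (h : RelModPow L W) : W.IsModularModelOfLevel L := by
  classical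
  set a : GoodIdx L → ℤ := fun i => W.apOfModel i.1 with ha
  set π : MvPolynomial (GoodIdx L) ℤ →ₐ[ℤ] TFull L := aeval (opT L) with hπ
  have hker : RingHom.ker π.rangeRestrict.toRingHom ≤
      RingHom.ker (aeval a : MvPolynomial (GoodIdx L) ℤ →ₐ[ℤ] ℤ).toRingHom := by
    intro R hR
    rw [RingHom.mem_ker] at hR ⊢
    refine eq_zero_of_two_pow_dvd (h R ?_)
    exact congrArg Subtype.val hR
  let ψ : π.range →+* ℤ :=
    RingHom.liftOfSurjective π.rangeRestrict.toRingHom π.rangeRestrict_surjective ⟨_, hker⟩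
  have hψ : ∀ R, ψ (π.rangeRestrict R) = aeval a R := fun R =>
    RingHom.liftOfRightInverse_comp_apply _ _ _ _ _
  haveI := Attach.finite_TFull L
  haveI : Algebra.IsIntegral π.range (TFull L) :=
    ⟨fun x => (IsIntegral.of_finite ℤ x).tower_top⟩
  haveI : (RingHom.ker ψ).IsPrime := RingHom.ker_isPrime ψ
  have hle : RingHom.ker (algebraMap π.range (TFull L)) ≤ RingHom.ker ψ := by
    intro x hx
    rw [RingHom.mem_ker] at hx ⊢
    rw [show x = 0 from Subtype.ext hx, map_zero]
  obtain ⟨P, -, hP, hcomap⟩ := Ideal.exists_ideal_over_prime_of_isIntegral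
    (RingHom.ker ψ) (⊥ : Ideal (TFull L)) hle
  haveI := hP
  set Q := TFull L ⧸ P with hQ
  have hchar : CharZero Q := by
    refine charZero_of_inj_zero fun n hn => ?_
    have h1 : ((n : π.range) ∈ RingHom.ker ψ) := by
      rw [← hcomap, Ideal.mem_comap, map_natCast, ← Ideal.Quotient.eq_zero_iff_mem, map_natCast]
      exact hn
    rw [RingHom.mem_ker, map_natCast] at h1
    exact_mod_cast h1
  haveI : Module.Finite ℤ Q :=
    Module.Finite.of_surjective (Ideal.Quotient.mk P).toAddMonoidHom.toIntLinearMap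
      Ideal.Quotient.mk_surjective
  let F := FractionRing Q
  haveI : CharZero F := charZero_of_injective_algebraMap (IsFractionRing.injective Q F)
  have hint : ∀ x : Q, IsIntegral ℚ (algebraMap Q F x) := fun x =>
    IsIntegral.map_of_comp_eq (algebraMap ℤ ℚ) (algebraMap Q F) (RingHom.ext_int _ _)
      (IsIntegral.of_finite ℤ x)
  haveI : Algebra.IsAlgebraic ℚ F := ⟨fun z => by
    obtain ⟨x, y, -, rfl⟩ := IsFractionRing.div_surjective Q z
    rw [div_eq_mul_inv]
    exact ((hint x).mul (hint y).inv).isAlgebraic⟩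
  let emb : F →ₐ[ℚ] ℂ := IsAlgClosed.lift
  let ι : Q →+* ℂ := emb.toRingHom.comp (algebraMap Q F)
  obtain ⟨g, hg, hgT, -⟩ := LR.exists_eigenform_full (ι.comp (Ideal.Quotient.mk P))
  refine ⟨g, hg, fun p hp _ hpL => ?_⟩
  rw [hgT p hp hpL]
  set i : GoodIdx L := ⟨p, hp, hpL⟩
  have hmem : π.rangeRestrict (X i - C (a i)) ∈ RingHom.ker ψ := by
    rw [RingHom.mem_ker, hψ]
    simp
  rw [← hcomap, Ideal.mem_comap] at hmem
  have h0 : Ideal.Quotient.mk P (opT L i - ((a i : ℤ) : TFull L)) = 0 := by
    rw [Ideal.Quotient.eq_zero_iff_mem]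
    convert hmem using 1
    simp [π]
  rw [map_sub, sub_eq_zero, map_intCast] at h0
  change ι (Ideal.Quotient.mk P (opT L i)) = _
  rw [h0, map_intCast]

/-- an element of exact order at least `2 ^ m` on which the operators act by the coefficients forces
the relations modulo `2 ^ m` -/
theorem two_pow_dvd_of_eigen {L : ℕ} [NeZero L] {W : WeierstrassCurve ℤ} {Y : Type*}
    [AddCommGroup Y] (act : TFull L →+* AddMonoid.End Y) {R : MvPolynomial (GoodIdx L) ℤ}
    (hR : aeval (opT L) R = 0) {y : Y} {m : ℕ} (hord : ∀ z : ℤ, z • y = 0 → (2 : ℤ) ^ m ∣ z)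
    (heig : ∀ i ∈ R.vars, act (opT L i) y = W.apOfModel i.1 • y) :
    (2 : ℤ) ^ m ∣ aeval (fun i : GoodIdx L => W.apOfModel i.1) R := by
  refine hord _ ?_
  have key : ∀ S : MvPolynomial (GoodIdx L) ℤ, S ∈ supported ℤ (↑R.vars : Set (GoodIdx L)) →
      act (aeval (opT L) S) y = aeval (fun i : GoodIdx L => W.apOfModel i.1) S • y := by
    intro S hS
    rw [supported, Algebra.adjoin_eq_range] at hS
    obtain ⟨T, rfl⟩ := hS
    induction T using MvPolynomial.induction_on with
    | C z => simp [map_intCast]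
    | add p q hp hq =>
      simp only [map_add, add_smul]
      rw [← hp, ← hq]
      rfl
    | mul_X p i hp =>
      obtain ⟨j, hj, hji⟩ := i.2
      simp only [AlgHom.toRingHom_eq_coe, RingHom.coe_coe] at hp ⊢
      simp only [map_mul, aeval_X, AddMonoid.End.coe_mul, Function.comp_apply, ← hji]
      rw [heig j hj, map_zsmul, hp, smul_smul, mul_comm]
  rw [← key R (mem_supported.2 subset_rfl), hR, map_zero]
  rfl

end FLTAgent.R2

end
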