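import Fermat.Agent.R2.Defs
import Fermat.Agent.R2.Limit
import Fermat.Agent.R2.DescentCore
import Fermat.Agent.R2.JoinLattice
import Fermat.Agent.R2.JoinL0
import Fermat.Agent.R2.JoinTransp
import Fermat.Agent.JTors.LatticeAPI

/-!
Area R2, parcel I: descent to the level without the killing primes, from the descent of classes of
the Jacobian.

A class `x` of functions of the level modulo the old ones lifts to a two-adic class `h`; for
`l₀ ≡ 1` with odd trace, `y` is the torsion point of `T l₀ h - (1 + l₀) h`, which is parabolic.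
-/

set_option autoImplicit false
set_option linter.style.haveILetI false
set_option synthInstance.maxHeartbeats 200000

noncomputable section

open MvPolynomial

namespace FLTAgent.R2

variable {W : WeierstrassCurve ℤ}

open Join in
theorem exists_descentInput (hW : IsAnchor W) (B : Base W) {N : ℕ} (K : Aux hW B N) (S : Finset ℕ)
    (T : ℕ) (x : LL.H1 (botRep K)) (hx : (2 ^ T : Lam N) • x ≠ 0)
    (heig : ∀ (l : ℕ) (hl : l.Prime) (hlK : ¬ l ∣ K.lev), l ∉ S →
      LL.T (botRep K) hl hlK x = (W.apOfModel l : Lam N) • x) :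
    ∃ y : ModularCurve.JZero K.lev,
      Desc.DescentInput W B.lev (Finset.univ.image K.q) S (T + 1) K.lev y := by
  classical
  set M := K.lev with hM
  let d : Fin K.k → ℕ := fun i => M / K.q i
  have hd : ∀ i, d i ∣ M := fun i => Nat.div_dvd_of_dvd (K.q_dvd_lev i)
  have hdq : ∀ i, d i * K.q i = M := fun i => Nat.div_mul_cancel (K.q_dvd_lev i)
  haveI hd0 : ∀ i, NeZero (d i) := fun i => ⟨fun h => NeZero.ne M (by rw [← hdq i, h, zero_mul])⟩
  have hdform : ∀ i, d i = B.lev * ∏ j ∈ Finset.univ.erase i, K.q j := fun i => by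
    refine Nat.eq_of_mul_eq_mul_right (K.prime i).pos ?_
    rw [hdq, mul_assoc, Finset.prod_erase_mul _ _ (Finset.mem_univ i)]
    rfl
  have hcop : ∀ i, (d i).Coprime (K.q i) := fun i => by
    refine ((K.prime i).coprime_iff_not_dvd.2 fun h => ?_).symm
    rw [hdform] at h
    rcases (K.prime i).dvd_mul.1 h with h | h
    · exact K.ndvd i h
    · obtain ⟨j, hj, hdvd⟩ := (K.prime i).prime.exists_mem_finset_dvd h
      exact (Finset.mem_erase.1 hj).1
        (K.inj ((Nat.prime_dvd_prime_iff_eq (K.prime i) (K.prime j)).1 hdvd)).symm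
  have hrB : B.r ∣ B.lev := dvd_mul_left _ _
  have hrd : ∀ i, B.r ∣ d i := fun i => by rw [hdform]; exact hrB.mul_right _
  have hrM : B.r ∣ M := hrB.mul_right _
  have hr4 : B.r % 4 = 3 := by have := B.mod24; omega
  obtain ⟨l0, hl0, hl0S, hl01, -, hl0odd⟩ := exists_l0 hW M S
  have hl0M : ¬ l0 ∣ M := fun h => by
    haveI : Fact l0.Prime := ⟨hl0⟩
    have e := congrArg (ZMod.castHom h (ZMod l0)) hl01
    rw [map_natCast, map_one, ZMod.natCast_self] at e
    exact zero_ne_one e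
  set n := N + 1 with hn
  set a0 : ZMod (2 ^ n) := (W.apOfModel l0 : ZMod (2 ^ n)) with ha0
  have hl0two : l0 ≠ 2 := by
    rintro rfl
    exact hl0M (Dvd.dvd.mul_right (Dvd.dvd.mul_right (Dvd.dvd.mul_right dvd_rfl _) _) _)
  have hu : IsUnit (a0 - ((1 + l0 : ℕ) : ZMod (2 ^ n))) := by
    have ho : Odd (W.apOfModel l0 - (((1 + l0 : ℕ) : ℤ))) := by
      refine hl0odd.sub_even ?_
      obtain ⟨t, ht⟩ := hl0.odd_of_ne_two hl0two
      exact ⟨(t : ℤ) + 1, by rw [ht]; push_cast; ring⟩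
    have hcop2 : IsCoprime (W.apOfModel l0 - (((1 + l0 : ℕ) : ℤ))) ((2 ^ n : ℕ) : ℤ) := by
      push_cast
      exact ((Int.prime_two.coprime_iff_not_dvd.2 fun h =>
        Int.not_even_iff_odd.2 ho (even_iff_two_dvd.2 h)).symm).pow_right
    obtain ⟨u, v, huv⟩ := hcop2
    refine IsUnit.of_mul_eq_one (u : ZMod (2 ^ n)) ?_
    have e := congrArg (Int.cast : ℤ → ZMod (2 ^ n)) huv
    push_cast at e
    rw [show (2 : ZMod (2 ^ n)) ^ n = 0 by exact_mod_cast ZMod.natCast_self (2 ^ n)] at e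
    rw [ha0]
    push_cast
    linear_combination e
  obtain ⟨x', hx', heig'⟩ : ∃ x' : LL.H1 (botOf n d hd), (2 : ZMod (2 ^ n)) ^ T • x' ≠ 0 ∧
      ∀ (l : ℕ) (hl : l.Prime) (hlM : ¬ l ∣ M), l ∉ S →
        LL.T (botOf n d hd) hl hlM x' = (W.apOfModel l : ZMod (2 ^ n)) • x' := ⟨x, hx, heig⟩
  clear hx heig x
  rename' x' => x, hx' => hx, heig' => heig
  -- the lift
  obtain ⟨h, hh⟩ := exists_piH_eq n d hd B.prime hr4 hrd hrM hl0 hl0M hl01 hu (x := x)
    (heig l0 hl0 hl0M hl0S)
  let η : ∀ e, LL.H1 (zRep M e) →ₗ[Z2] LL.H1 (zRep M e) := fun e =>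
    LL.T (zRep M e) hl0 hl0M - ((1 + l0 : ℕ) : Z2) • LinearMap.id
  have hηdef : ∀ e y, η e y = LL.T (zRep M e) hl0 hl0M y - ((1 + l0 : ℕ) : Z2) • y :=
    fun e y => rfl
  have hηpi : ∀ z (c : ZMod (2 ^ n)),
      LL.T (botOf n d hd) hl0 hl0M (piH n d hd z) = c • piH n d hd z →
        piH n d hd (η M z) = (c - ((1 + l0 : ℕ) : ZMod (2 ^ n))) • piH n d hd z := fun z c hz => by
    rw [hηdef, map_sub, piH_T, piH_smul, hz, map_natCast, sub_smul]
  obtain ⟨v0, hv0⟩ := exists_approx_eta (n := n) hl0 hl0M hl01 h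
  obtain ⟨LD⟩ := JTors.exists_latticeData M
  have hLDd : ∀ i, Nonempty (JTors.LatticeData (d i)) := fun i => JTors.exists_latticeData (d i)
  refine ⟨JTors.torsMap M (2 ^ n) v0, ?_, ?_, ?_, ?_, ?_, ?_⟩
  · show K.lev = _
    rw [Aux.lev, Finset.prod_image fun i _ j _ e => K.inj e]
  · intro q hq
    obtain ⟨i, -, rfl⟩ := Finset.mem_image.1 hq
    exact transpPrime hW B K i
  · intro q hq
    obtain ⟨i, -, rfl⟩ := Finset.mem_image.1 hq
    exact K.ndvd i
  · exact ⟨n, JTors.nsmul_torsMap_eq_zero (Nat.pow_pos two_pos) v0⟩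
  · -- eigen modulo the old classes
    intro l hl hlM hlS
    have hzero : piH n d hd (LL.T (zRep M M) hl hlM h - ((W.apOfModel l : ℤ) : Z2) • h) = 0 := by
      rw [map_sub, piH_T, piH_smul, hh, map_intCast, sub_eq_zero]
      exact heig l hl hlM hlS
    obtain ⟨g, gi, hgi⟩ := exists_of_piH_eq_zero n d hd B.prime hr4 hrd hrM hzero
    have e1 := congrArg (η M) hgi
    rw [map_sub, map_smul, map_add, map_smul, map_sum] at e1
    have hcomm : η M (LL.T (zRep M M) hl hlM h) = LL.T (zRep M M) hl hlM (η M h) := by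
      rw [hηdef, hηdef, map_sub, map_smul]
      congr 1
      exact LinearMap.congr_fun (LL.T_comm (ρ := zRep M M) hl0 hl0M hl hlM).eq h
    have hpull : ∀ i, η M (pullH (hd i) (gi i)) = pullH (hd i) (η (d i) (gi i)) := fun i => by
      rw [hηdef, hηdef, map_sub, map_smul, pullH_T]
    rw [hcomm, Finset.sum_congr rfl fun i _ => hpull i] at e1
    choose vi hvi using fun i => exists_approx_eta (n := n) hl0 hl0M hl01 (gi i)
    have hL : Approx n (LL.T (zRep M M) hl hlM (η M h) - ((W.apOfModel l : ℤ) : Z2) • η M h)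
        (LD.T ⟨l, hl⟩ v0 - W.apOfModel l • v0) :=
      (Approx.hecke dvd_rfl LD hl hlM hv0).sub (hv0.smul _)
    have hR : Approx n ((2 : Z2) ^ n • η M g + ∑ i, pullH (hd i) (η (d i) (gi i)))
        (0 + ∑ i, Desc.resDvd (hd i) (vi i)) :=
      (Approx.smul_pow _).add (Approx.sum _ fun i _ => (hvi i).pull (hd i))
    rw [← e1, zero_add] at hR
    rw [heckeOperatorBar_torsMap (Nat.pow_pos two_pos) LD hl hlM, ← map_zsmul, ← map_sub,
      hL.torsMap_eq hR, map_sum]
    refine sum_mem fun i _ => Desc.torsMap_mem_old (AddSubgroup.subset_closure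
      ⟨K.q i, Finset.mem_image_of_mem _ (Finset.mem_univ i), d i, hd0 i, hd i, vi i, hdq i, rfl⟩) n
  · -- the order modulo the old classes
    intro hold
    rw [Nat.add_sub_cancel, ← map_nsmul] at hold
    obtain ⟨a, w, u, hw, heq⟩ := Desc.mem_oldLam_of_old hold
    obtain ⟨gi, hgi⟩ : ∃ gi : ∀ i, LL.H1 (zRep M (d i)), ∀ γ,
        LL.evalGamma0 M M Z2 (∑ i, pullH (hd i) (gi i)) (Additive.ofMul γ) =
          ((w.1 (Additive.ofMul γ) : ℤ) : Z2) := by
      clear heq
      induction hw using AddSubgroup.closure_induction with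
      | mem w hw =>
        obtain ⟨r, hr, e, he0, he, φ, her, rfl⟩ := hw
        obtain ⟨i, -, rfl⟩ := Finset.mem_image.1 hr
        obtain rfl : e = d i := Nat.eq_of_mul_eq_mul_right (K.prime i).pos (her.trans (hdq i).symm)
        obtain ⟨z, hz⟩ := exists_class (M := M) (hd i) φ
        refine ⟨Pi.single i z, fun γ => ?_⟩
        rw [Finset.sum_eq_single i (fun j _ hj => by rw [Pi.single_eq_of_ne hj, map_zero])
          (fun h => absurd (Finset.mem_univ i) h), Pi.single_eq_same, evalGamma0_pullH,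
          Desc.resDvd_apply]
        exact hz _
      | zero =>
        refine ⟨0, fun γ => ?_⟩
        simp
      | add w w' _ _ h1 h2 =>
        obtain ⟨g1, hg1⟩ := h1
        obtain ⟨g2, hg2⟩ := h2
        refine ⟨g1 + g2, fun γ => ?_⟩
        simp only [Pi.add_apply, map_add, Finset.sum_add_distrib, AddMonoidHom.add_apply, hg1, hg2]
        rw [show (w + w').1 (Additive.ofMul γ) = w.1 (Additive.ofMul γ) + w'.1 (Additive.ofMul γ)
          from rfl, Int.cast_add]
      | neg w _ h1 =>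
        obtain ⟨g1, hg1⟩ := h1
        refine ⟨-g1, fun γ => ?_⟩
        simp only [Pi.neg_apply, map_neg, Finset.sum_neg_distrib, AddMonoidHom.neg_apply, hg1]
        rw [show (-w).1 (Additive.ofMul γ) = -(w.1 (Additive.ofMul γ)) from rfl, Int.cast_neg]
    -- modulo `2 ^ (n + a)` both sides are the sum of pullbacks
    have hA : Approx (n + a) ((2 : Z2) ^ a • ((2 : Z2) ^ T • η M h))
        ((2 ^ a : ℤ) • ((2 ^ T : ℕ) • v0)) := fun γ => by
      have e := mul_dvd_mul (dvd_refl ((2 : Z2) ^ a)) ((hv0 γ).mul_left ((2 : Z2) ^ T))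
      rw [← pow_add, add_comm a n] at e
      convert e using 1
      rw [map_smul, map_smul,
        show ((2 ^ a : ℤ) • ((2 ^ T : ℕ) • v0)).1 (Additive.ofMul γ) =
          2 ^ a * (2 ^ T * v0.1 (Additive.ofMul γ)) by simp]
      show (2 : Z2) ^ a * ((2 : Z2) ^ T * _) - _ = _
      rw [hηdef]
      generalize (LL.evalGamma0 M M Z2) _ (Additive.ofMul γ) = E
      push_cast
      ring
    have hB : Approx (n + a) (∑ i, pullH (hd i) (gi i)) ((2 ^ a : ℤ) • ((2 ^ T : ℕ) • v0)) :=
      fun γ => by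
      rw [hgi, heq, show (w + (2 ^ (n + a) : ℤ) • u).1 (Additive.ofMul γ) =
        w.1 (Additive.ofMul γ) + 2 ^ (n + a) * u.1 (Additive.ofMul γ) by simp]
      push_cast
      rw [sub_add_cancel_left]
      exact (dvd_mul_right _ _).neg_right
    obtain ⟨Ω', hΩ⟩ := hA.exists_eq dvd_rfl hB
    have htor : (2 : Z2) ^ a • ((2 : Z2) ^ T • η M h - (2 : Z2) ^ n • Ω') =
        ∑ i, pullH (hd i) (gi i) := by
      rw [smul_sub, smul_smul _ _ Ω', ← pow_add, add_comm a n, hΩ, add_sub_cancel_right]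
    have hkill := piH_T_eq_of_torsion n d hd K.q hdq hcop htor hl0 hl0M hl01
    have hc : ∀ m : ℕ, red2 n ((2 : Z2) ^ m) = (2 : ZMod (2 ^ n)) ^ m := fun m => by
      rw [map_pow, map_ofNat]
    have hxl0 : LL.T (botOf n d hd) hl0 hl0M x = a0 • x := heig l0 hl0 hl0M hl0S
    set c1 : ZMod (2 ^ n) := ((1 + l0 : ℕ) : ZMod (2 ^ n)) with hc1
    have hy : piH n d hd (η M h) = (a0 - c1) • x := by
      have := hηpi h a0 (by rw [hh]; exact hxl0)
      rw [hh] at this
      exact this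
    have h2n' : red2 n ((2 : Z2) ^ n) = 0 := (red2_eq_zero_iff n _).2 dvd_rfl
    have e2 : piH n d hd ((2 : Z2) ^ n • Ω') = 0 := by rw [piH_smul, h2n', zero_smul]
    have hz : piH n d hd ((2 : Z2) ^ T • η M h - (2 : Z2) ^ n • Ω') =
        ((2 : ZMod (2 ^ n)) ^ T * (a0 - c1)) • x := by
      rw [map_sub, e2, sub_zero, piH_smul, hc, hy, smul_smul]
    rw [hz, map_smul, hxl0, smul_smul, smul_smul, ← sub_eq_zero, ← sub_smul] at hkill
    have h0 : (a0 - c1) • ((a0 - c1) • ((2 : ZMod (2 ^ n)) ^ T • x)) = 0 := by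
      rw [smul_smul, smul_smul]
      refine Eq.trans ?_ hkill
      congr 1
      ring
    exact hx (hu.smul_eq_zero.1 (hu.smul_eq_zero.1 h0))

theorem exists_descent_bound (hW : IsAnchor W) (B : Base W) (k m : ℕ) :
    ∃ T : ℕ, ∀ (N : ℕ) (K : Aux hW B N), K.k = k → ∀ (S : Finset ℕ) (x : LL.H1 (botRep K)),
      (2 ^ T : Lam N) • x ≠ 0 →
      (∀ (l : ℕ) (hl : l.Prime) (hlK : ¬ l ∣ K.lev), l ∉ S →
        LL.T (botRep K) hl hlK x = (W.apOfModel l : Lam N) • x) →
      ∀ R : MvPolynomial (GoodIdx B.lev) ℤ, aeval (opT B.lev) R = 0 →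
        (∀ i ∈ R.vars, ¬ (i : ℕ) ∣ K.lev ∧ (i : ℕ) ∉ S) →
          (2 : ℤ) ^ m ∣ aeval (fun i : GoodIdx B.lev => W.apOfModel i) R := by
  classical
  refine ⟨m * 2 ^ k, fun N K hK S x hx heig R hR hvars => ?_⟩
  obtain ⟨y, hy⟩ := exists_descentInput hW B K S _ x hx heig
  have hcard : (Finset.univ.image K.q).card = k := by
    rw [Finset.card_image_of_injective _ K.inj, Finset.card_univ, Fintype.card_fin, hK]
  have hbad : ∀ l : ℕ, l.Prime → (l : ℤ) ∣ W.Δ → l ∣ B.lev := fun l hl h => by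
    by_cases h2 : l = 2
    · subst h2
      exact dvd_mul_of_dvd_left (dvd_mul_right 2 _) _
    · exact dvd_mul_of_dvd_left (dvd_mul_of_dvd_right
        (Finset.dvd_prod_of_mem _ ((badOdd_spec hW).2 ⟨hl, h2, h⟩)) _) _
  have hsq : Squarefree B.lev := by
    have h24 := B.mod24
    have hr2 : B.r ≠ 2 := by omega
    have hr : B.r ∉ badOdd W := fun h => B.good ((badOdd_spec hW).1 h).2.2
    have h2 : 2 ∉ insert B.r (badOdd W) := by
      simp only [Finset.mem_insert, not_or]
      exact ⟨Ne.symm hr2, fun h => ((badOdd_spec hW).1 h).2.1 rfl⟩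
    have hs : ∀ l ∈ insert 2 (insert B.r (badOdd W)), l.Prime := by
      intro l hl
      simp only [Finset.mem_insert] at hl
      rcases hl with rfl | rfl | hl
      · exact Nat.prime_two
      · exact B.prime
      · exact ((badOdd_spec hW).1 hl).1
    rw [show B.lev = ∏ l ∈ insert 2 (insert B.r (badOdd W)), l by
      rw [Finset.prod_insert h2, Finset.prod_insert hr, Base.lev]; ring]
    exact Finset.squarefree_prod_of_pairwise_isCoprime (fun a ha b hb hab =>
      Nat.coprime_iff_isRelPrime.mp ((Nat.coprime_primes (hs a ha) (hs b hb)).2 hab))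
      fun a ha => (hs a ha).squarefree
  have h := Desc.descent W B.lev B.r _ S _ K.lev y hW hsq hbad B.prime
    (by have := B.mod24; omega) (dvd_mul_left _ _) hy R hR fun i hi =>
      ⟨fun hmem => by
        obtain ⟨j, -, hj⟩ := Finset.mem_image.1 hmem
        exact (hvars i hi).1 (hj ▸ K.q_dvd_lev j), (hvars i hi).2⟩
  refine (pow_dvd_pow (2 : ℤ) ?_).trans h
  rw [hcard, Nat.le_div_iff_mul_le (Nat.pow_pos two_pos)]
  exact Nat.le_succ _

end FLTAgent.R2

end
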