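import Fermat.Agent.R2.DescentDefs
import Fermat.Agent.LL.MazurKill
import Fermat.Agent.LL.MazurRel
import Fermat.Agent.LL.MazurRes

/-!
Area R2, parcel DESCENT, one level: the abelian classes of a torsion class of level `M * q` at a
place over `q`. `Fst` is the class on the component of `∞`; the other component is read through the
Atkin–Lehner involution `TOR.wJ`.
-/

set_option autoImplicit false
set_option linter.unusedSectionVars false
set_option linter.style.haveILetI false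
set_option synthInstance.maxHeartbeats 400000

noncomputable section

open ModularCurve AlgebraicCurve
open FLTAgent.Reduction (Qb Ctx kA FB FS PS GR UG red redS rP dv)
open FLTAgent.SS
open FLTAgent.TOR (inclS)

namespace FLTAgent.R2.Desc

local notation "GalQ" => AlgebraicClosure ℚ ≃ₐ[ℚ] AlgebraicClosure ℚ

variable {M q : ℕ} [NeZero M] [NeZero q] {A : ValuationSubring Qb}

/-- `x` is the class of `y` on the component of `∞` -/
def Fst (A : ValuationSubring Qb) (y : JZero (M * q)) (x : JZero M) : Prop :=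
  ∃ m : ℕ, 2 ^ m • y = 0 ∧ 2 ^ m • x = 0 ∧ LL.Match A (2 ^ m) y x

/-- the operator killing the components -/
def eta (L : ℕ) [NeZero L] (l : Nat.Primes) : JZero L →+ JZero L :=
  (heckeOperatorBar L l).toAddMonoidHom - ((l : ℕ) + 1) • AddMonoidHom.id (JZero L)

section Helpers

theorem match_mul_exponent {n : ℕ} (k : ℕ) {y : JZero (M * q)} {a : JZero M}
    (h : LL.Match A n y a) : LL.Match A (n * k) y a := by
  obtain ⟨φ, ⟨E, f, rfl, hf, hr, h0⟩, D, hD, hDφ⟩ := h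
  refine ⟨φ ^ k, ⟨E, f ^ k, rfl, fun P => ?_, hr.pow k, pow_ne_zero _ h0⟩, D, hD, fun Q => ?_⟩
  · rw [RR.ord_pow, ← hf]; push_cast; ring
  · rw [RR.ord_pow, ← hDφ]; push_cast; ring

theorem match_pow_le {m m' : ℕ} (hm : m ≤ m') {y : JZero (M * q)} {a : JZero M}
    (h : LL.Match A (2 ^ m) y a) : LL.Match A (2 ^ m') y a := by
  obtain ⟨e, rfl⟩ := Nat.exists_eq_add_of_le hm
  rw [pow_add]
  exact match_mul_exponent _ h

theorem pow_nsmul_eq_zero {G : Type*} [AddMonoid G] {m m' : ℕ} (hm : m ≤ m') {y : G}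
    (hy : 2 ^ m • y = 0) : 2 ^ m' • y = 0 := by
  obtain ⟨e, rfl⟩ := Nat.exists_eq_add_of_le hm
  rw [pow_add, mul_nsmul, hy, nsmul_zero]

/-- a function gives one class -/
theorem res_unique {n : ℕ} (hn : n ≠ 0) {φ : FS A M} {z z' : JZeroC (kA A) M}
    (a : LL.Res n φ z) (b : LL.Res n φ z') : z = z' := by
  obtain ⟨D, rfl, hD⟩ := a
  obtain ⟨D', rfl, hD'⟩ := b
  exact congrArg Pic0.mk (Subtype.ext (Finsupp.ext fun Q =>
    mul_left_cancel₀ (Int.natCast_ne_zero.mpr hn) ((hD Q).trans (hD' Q).symm)))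

/-- two functions with the same class differ by a power -/
theorem res_exists_pow (C : Ctx A M q) {n : ℕ} (hn : 0 < n) {φ ψ : FS A M}
    {z : JZeroC (kA A) M} (hφ : φ ≠ 0) (hψ : ψ ≠ 0) (a : LL.Res n φ z) (b : LL.Res n ψ z) :
    ∃ h, h ≠ 0 ∧ φ = ψ * h ^ n := by
  obtain ⟨D, rfl, hD⟩ := a
  obtain ⟨D', hD'z, hD'⟩ := b
  have h0 : LL.Res n (φ * ψ⁻¹) (0 : JZeroC (kA A) M) := by
    refine ⟨D - D', ?_, fun Q => ?_⟩
    · show (QuotientAddGroup.mk' _) (D - D') = 0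
      rw [map_sub, sub_eq_zero]
      exact hD'z.symm
    · rw [Q.ord_mul hφ (inv_ne_zero hψ), Q.ord_inv, ← hD, ← hD', AddSubgroup.coe_sub,
        Finsupp.sub_apply]
      ring
  obtain ⟨h, hh⟩ := h0.exists_pow C hn (mul_ne_zero hφ (inv_ne_zero hψ))
  refine ⟨h, fun e => mul_ne_zero hφ (inv_ne_zero hψ) (by rw [hh, e, zero_pow hn.ne']), ?_⟩
  rw [← hh, mul_comm φ, mul_inv_cancel_left₀ hψ]

/-- a class killed by `n` has a trivialisation that is a unit on the special fibre -/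
theorem exists_unit_trivialisation (C : Ctx A M q) {n : ℕ}
    {D : Divisor.degZero (K := Qb) (F := FB M)} (h : n • (Pic0.mk D : JZero M) = 0) :
    ∃ f : FB M, UG A M f ∧ ∀ P : Place Qb (FB M), (n : ℤ) * (D : Divisor Qb (FB M)) P = P.ord f := by
  obtain ⟨f, hf, hfD⟩ := TOR.exists_trivialisation h
  obtain ⟨c, u, hc, hu, rfl⟩ := Reduction.exists_scale_UG C hf
  refine ⟨u, hu, fun P => ?_⟩
  rw [hfD, P.ord_mul ((map_ne_zero _).mpr hc) (hu.ne_zero C)]
  show P.ord (algebraMap Qb (FB M) c) + _ = _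
  rw [RR.ord_algebraMap, zero_add]

/-- the class of the residue of a trivialisation -/
theorem res_red (C : Ctx A M q) {n : ℕ} {D : Divisor.degZero (K := Qb) (F := FB M)} {f : FB M}
    (hu : UG A M f) (hf : ∀ P : Place Qb (FB M), (n : ℤ) * (D : Divisor Qb (FB M)) P = P.ord f) :
    LL.Res n (red A M f) (reductionModL A M (Pic0.mk D)) := by
  rw [Reduction.reductionModL_mk_rP C]
  refine ⟨_, rfl, fun Q => ?_⟩
  show (n : ℤ) * Finsupp.mapDomain (rP C) (D : Divisor Qb (FB M)) Q = _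
  have e : n • (D : Divisor Qb (FB M)) = dv f := Finsupp.ext fun P => by
    rw [Finsupp.smul_apply, nsmul_eq_mul, hf, Reduction.dv_apply]
  have h1 := Reduction.defect_eq_zero C hu Q
  rw [Reduction.defect, sub_eq_zero, ← e, Finsupp.mapDomain_smul, Finsupp.smul_apply,
    nsmul_eq_mul] at h1
  exact h1

/-- residues on the component of `∞` of functions from lower levels -/
theorem isRed_incl {d : ℕ} [NeZero d] (h : d ∣ M * q) {f : FB d} (hf : f ∈ GR A d) {φ : FS A M}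
    (hφ : redS A d f = (φ : LaurentSeries (kA A))) : IsRed A false (SS2.incl h f) φ := by
  obtain ⟨h1, h2⟩ := TOR.redS_incl (A := A) h hf
  exact ⟨h1, h2.trans hφ⟩

end Helpers

variable (C : Ctx A M q)

/-- fixed by inertia, with classes on both components -/
def InDom (y : JZero (M * q)) : Prop :=
  y ∈ tor (M * q) ∧ (∀ σ ∈ A.inertiaSubgroupIn ℚ, σ • y = y) ∧
    (∃ a, Fst A y a) ∧ ∃ b, Fst A (TOR.wJ C y) b

/-- both classes vanish -/
def InKer (y : JZero (M * q)) : Prop :=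
  y ∈ tor (M * q) ∧ (∀ σ ∈ A.inertiaSubgroupIn ℚ, σ • y = y) ∧
    Fst A y 0 ∧ Fst A (TOR.wJ C y) 0

include C

theorem fst_unique (hq2 : q ≠ 2) {y : JZero (M * q)} {a a' : JZero M} (h : Fst A y a)
    (h' : Fst A y a') : a = a' := by
  obtain ⟨m, -, hx, hm⟩ := h
  obtain ⟨m', -, hx', hm'⟩ := h'
  obtain ⟨φ, hφ, hr⟩ := match_pow_le (le_max_left m m') hm
  obtain ⟨φ', hφ', hr'⟩ := match_pow_le (le_max_right m m') hm'
  haveI : NeZero (2 ^ max m m') := ⟨pow_ne_zero _ two_ne_zero⟩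
  obtain ⟨h, hh, e⟩ := hφ.samePow C hφ'
  subst e
  have hz := res_unique (NeZero.ne _) (hr.mul_pow C hφ.ne_zero hh) hr'
  have hq : ¬ q ∣ 2 ^ max m m' := fun e =>
    hq2 ((Nat.prime_dvd_prime_iff_eq C.prime Nat.prime_two).mp (C.prime.dvd_of_dvd_pow e))
  refine sub_eq_zero.mp (Reduction.eq_zero_of_torsion C hq
    ?_ (by rw [map_sub, hz, sub_self]))
  rw [nsmul_sub, pow_nsmul_eq_zero (le_max_left m m') hx, pow_nsmul_eq_zero (le_max_right m m') hx',
    sub_zero]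

theorem fst_add (hq2 : q ≠ 2) {y y' : JZero (M * q)} {a a' : JZero M} (h : Fst A y a)
    (h' : Fst A y' a') : Fst A (y + y') (a + a') := by
  obtain ⟨m, hy, hx, hm⟩ := h
  obtain ⟨m', hy', hx', hm'⟩ := h'
  refine ⟨max m m', ?_, ?_, ?_⟩
  · rw [nsmul_add, pow_nsmul_eq_zero (le_max_left m m') hy,
      pow_nsmul_eq_zero (le_max_right m m') hy', add_zero]
  · rw [nsmul_add, pow_nsmul_eq_zero (le_max_left m m') hx,
      pow_nsmul_eq_zero (le_max_right m m') hx', add_zero]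
  obtain ⟨φ, hφ, hr⟩ := match_pow_le (le_max_left m m') hm
  obtain ⟨φ', hφ', hr'⟩ := match_pow_le (le_max_right m m') hm'
  refine ⟨_, hφ.add hφ', ?_⟩
  rw [map_add]
  exact hr.mul hr' hφ.ne_zero hφ'.ne_zero

theorem fst_neg (hq2 : q ≠ 2) {y : JZero (M * q)} {a : JZero M} (h : Fst A y a) :
    Fst A (-y) (-a) := by
  obtain ⟨m, hy, hx, φ, hφ, hr⟩ := h
  have hpos : 1 ≤ 2 ^ m := Nat.one_le_two_pow
  have key : ∀ {G : Type} [AddCommGroup G] (z : G), 2 ^ m • z = 0 → (2 ^ m - 1) • z = -z := by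
    intro G _ z hz
    rw [eq_neg_iff_add_eq_zero, ← succ_nsmul, Nat.sub_add_cancel hpos, hz]
  refine ⟨m, by rw [neg_nsmul, hy, neg_zero], by rw [neg_nsmul, hx, neg_zero], φ ^ (2 ^ m - 1), ?_, ?_⟩
  · rw [← key y hy]
    exact hφ.nsmul _
  · rw [← key a hx, map_nsmul]
    exact hr.pow hφ.ne_zero _

theorem fst_hecke (hq2 : q ≠ 2) {l : ℕ} (hl : l.Prime) (hlN : ¬ l ∣ M * q) {y : JZero (M * q)}
    {a : JZero M} (h : Fst A y a) :
    Fst A (heckeOperatorBar (M * q) ⟨l, hl⟩ y) (heckeOperatorBar M ⟨l, hl⟩ a) := by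
  obtain ⟨m, hy, hx, φ, hφ, hr⟩ := h
  haveI : NeZero l := ⟨hl.ne_zero⟩
  haveI : NeZero (2 ^ m) := ⟨pow_ne_zero _ two_ne_zero⟩
  have hlq : l ≠ q := fun h => hlN (h ▸ dvd_mul_left q M)
  obtain ⟨u, hu, -, -⟩ := TOR.exists_root C.prime C.lies hl hlq
  obtain ⟨ψ, hψ, hψy⟩ := hφ.hecke C hl hlN hu
  exact ⟨m, by rw [← map_nsmul, hy, map_zero], by rw [← map_nsmul, hx, map_zero], ψ, hψy,
    hr.hecke C hl (fun h => hlN (h.mul_right q)) hlq hu hφ.ne_zero hψ⟩

/-- an inclusion from a level prime to `q` -/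
theorem fst_up {d : ℕ} [NeZero d] (hd : d ∣ M) (hdq : d * q ∣ M * q) (hq2 : q ≠ 2)
    (C' : Ctx A d q) {y : JZero (d * q)} {a : JZero d} (h : Fst A y a) :
    Fst A (up hdq y) (up hd a) := by
  obtain ⟨m, hy, hx, φ, ⟨E, f, rfl, hf, hr, h0⟩, hres⟩ := h
  refine ⟨m, by rw [← map_nsmul, hy, map_zero], by rw [← map_nsmul, hx, map_zero],
    inclS A hd φ, ⟨MLT.pullD (SS2.incl hdq) E, SS2.incl hdq f, rfl,
      fun w => MLT.ord_pullD (SS2.incl hdq) hf w, ?_, (map_ne_zero _).mpr h0⟩, ?_⟩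
  · refine isRed_incl hdq (f := f) hr.1 ?_
    rw [TOR.coe_inclS]
    exact hr.2
  obtain ⟨D, rfl⟩ := Pic0.mk_surjective a
  obtain ⟨g, hg, hgD⟩ := exists_unit_trivialisation C' hx
  obtain ⟨h, hh, e⟩ := res_exists_pow C' (pow_pos two_pos m) h0 hg.2 hres (res_red C' hg hgD)
  obtain ⟨h1, h2⟩ := TOR.redS_incl (A := A) hd hg.1
  have hcoe : red A M (SS2.incl hd g) = inclS A hd (red A d g) := Subtype.ext (by
    rw [TOR.coe_inclS, Reduction.coe_red C h1, h2, Reduction.coe_red C' hg.1])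
  have hu : UG A M (SS2.incl hd g) := ⟨h1, by rw [hcoe]; exact (map_ne_zero _).mpr hg.2⟩
  have hr1 := res_red C (D := MLT.pullD (SS2.incl hd) D) hu fun w =>
    MLT.ord_pullD (SS2.incl hd) hgD w
  rw [e, map_mul, map_pow, ← hcoe]
  exact hr1.mul_pow C hu.2 ((map_ne_zero _).mpr hh)

theorem wJ_up {d : ℕ} [NeZero d] (hd : d ∣ M) (hdq : d * q ∣ M * q) (C' : Ctx A d q)
    (y : JZero (d * q)) : TOR.wJ C (up hdq y) = up hdq (TOR.wJ C' y) := by
  obtain ⟨r, rfl⟩ := hd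
  haveI : NeZero r := ⟨fun e => NeZero.ne (d * r) (by rw [e, mul_zero])⟩
  haveI := HeckeJ.hasPrincipalDivisors_bar (d * r * q)
  obtain ⟨D, rfl⟩ := Pic0.mk_surjective y
  show SemilinearAut.ofAlgAut (TOR.atkinEquiv C) • up hdq (Pic0.mk D) =
    up hdq (SemilinearAut.ofAlgAut (TOR.atkinEquiv C') • (Pic0.mk D : JZero (d * q)))
  show SemilinearAut.ofAlgAut (TOR.atkinEquiv C) • MLT.pullJ (SS2.incl hdq) (Pic0.mk D) =
    MLT.pullJ (SS2.incl hdq) (SemilinearAut.ofAlgAut (TOR.atkinEquiv C') • (Pic0.mk D : JZero (d * q)))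
  rw [SemilinearAut.pic0_smul_mk, MLT.pullJ_mk, MLT.pullJ_mk, SemilinearAut.pic0_smul_mk]
  refine congrArg Pic0.mk (Subtype.ext ?_)
  simp only [SemilinearAut.coe_degZeroSMulHom]
  refine (HeckeJ.pullbackAlong_smul (SS2.incl hdq) (HeckeJ.isIntegralAlong _) (fun x => ?_) _).symm
  exact (LL.incl_atkinW C' C hdq x).symm

/-- a class from level `M` -/
theorem fst_alpha (hq2 : q ≠ 2) {a : JZero M} (ha : a ∈ tor M) :
    Fst A (up (dvd_mul_right M q) a) a := by
  obtain ⟨m, hm⟩ := ha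
  obtain ⟨D, rfl⟩ := Pic0.mk_surjective a
  obtain ⟨f, hu, hfD⟩ := exists_unit_trivialisation C hm
  exact ⟨m, by rw [← map_nsmul, hm, map_zero], hm, red A M f,
    ⟨MLT.pullD (SS2.incl (dvd_mul_right M q)) D, SS2.incl (dvd_mul_right M q) f, rfl,
      fun w => MLT.ord_pullD (SS2.incl (dvd_mul_right M q)) hfD w,
      isRed_incl _ hu.1 (Reduction.coe_red C hu.1).symm, hu.2⟩, res_red C hu hfD⟩

end FLTAgent.R2.Desc

end
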