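import Mathlib.Data.ZMod.Basic
import Mathlib.LinearAlgebra.Matrix.Determinant.Basic
import Mathlib.LinearAlgebra.Matrix.Trace
import Mathlib.Algebra.CharP.Two
import Mathlib.LinearAlgebra.Matrix.NonsingularInverse
import Mathlib.GroupTheory.Subgroup.Simple

/-!
Area R2, parcel D: finite matrix lemmas at the prime `2`.

In a group of matrices over `ℤ/2^(n+1)` that is onto `GL₂(𝔽₂)`, the normal closure of the square of
an element of determinant one and trace `2` modulo `4`, not the identity modulo `2`, contains every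
matrix of determinant one that is the identity modulo `2`.
-/

set_option autoImplicit false

noncomputable section

open Matrix

namespace FLTAgent.R2.Layer

/-- reduction modulo two -/
abbrev modTwo (n : ℕ) : ZMod (2 ^ (n + 1)) →+* ZMod 2 :=
  ZMod.castHom (dvd_pow_self 2 n.succ_ne_zero) _

local notation "M₂" => Matrix (Fin 2) (Fin 2) (ZMod 2)

theorem trace_zero_eq : ∀ N : M₂, N.trace = 0 → ∃ a b c : ZMod 2,
    N = a • !![0, 1; 0, 0] + b • !![0, 0; 1, 0] + c • !![1, 1; 1, 1] := by decide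

theorem nilp_conj : ∀ B N : M₂, B ≠ 0 → B * B = 0 → N ≠ 0 → N * N = 0 →
    ∃ g : M₂, ∃ g' : M₂, g * g' = 1 ∧ g * B * g' = N := by decide

theorem nilp_basis : ∀ N : M₂, N = !![0, 1; 0, 0] ∨ N = !![0, 0; 1, 0] ∨ N = !![1, 1; 1, 1] →
    N ≠ 0 ∧ N * N = 0 := by decide

theorem sub_one_sq : ∀ A : M₂, A.det = 1 → A.trace = 0 → (A + 1) * (A + 1) = 0 := by decide

theorem exists_two_mul {n : ℕ} {x : ZMod (2 ^ (n + 1))} (h : modTwo n x = 0) :
    ∃ y, x = 2 * y := by
  obtain ⟨k, rfl⟩ := ZMod.natCast_zmod_surjective x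
  rw [map_natCast, ZMod.natCast_eq_zero_iff] at h
  obtain ⟨j, rfl⟩ := h
  exact ⟨(j : ℕ), by push_cast; rfl⟩

theorem exists_two_smul {n : ℕ} {A : Matrix (Fin 2) (Fin 2) (ZMod (2 ^ (n + 1)))}
    (h : A.map (modTwo n) = 0) : ∃ C : Matrix (Fin 2) (Fin 2) (ZMod (2 ^ (n + 1))), A = (2 : ℕ) • C := by
  choose c hc using fun i j => exists_two_mul (congrFun (congrFun h i) j)
  refine ⟨Matrix.of c, Matrix.ext fun i j => ?_⟩
  rw [hc i j]
  simp

theorem two_smul' {n : ℕ} (C : Matrix (Fin 2) (Fin 2) (ZMod (2 ^ (n + 1)))) :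
    (2 : ZMod (2 ^ (n + 1))) • C = C + C := two_smul (ZMod (2 ^ (n + 1))) C

theorem ch_two {R : Type*} [CommRing R] (A : Matrix (Fin 2) (Fin 2) R) :
    A * A = A.trace • A - A.det • 1 := by
  ext i j
  fin_cases i <;> fin_cases j <;>
    simp [Matrix.mul_apply, Fin.sum_univ_two, Matrix.trace_fin_two, Matrix.det_fin_two] <;> ring

theorem det_one_add_smul {R : Type*} [CommRing R] (c : R) (A : Matrix (Fin 2) (Fin 2) R) :
    (1 + c • A).det = 1 + c * (A.trace + c * A.det) := by
  simp [Matrix.det_fin_two, Matrix.trace_fin_two]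
  ring

section Closure

variable {n : ℕ} {G : Type*} [Group G] (r : G →* Matrix (Fin 2) (Fin 2) (ZMod (2 ^ (n + 1))))
  {t : G}

/-- the residues of the `m`-th layer met by the normal closure of `t²` -/
def InLayer (t : G) (m : ℕ) (N : M₂) : Prop :=
  ∃ s ∈ Subgroup.normalClosure ({t * t} : Set G), ∃ A : Matrix (Fin 2) (Fin 2) (ZMod (2 ^ (n + 1))),
    r s = 1 + (2 ^ m : ZMod (2 ^ (n + 1))) • A ∧ A.map (modTwo n) = N

theorem InLayer.zero (m : ℕ) : InLayer r t m 0 :=
  ⟨1, one_mem _, 0, by simp, Matrix.map_zero _ (map_zero _)⟩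

theorem InLayer.add {m : ℕ} (hm : 1 ≤ m) {N N' : M₂} (h : InLayer r t m N)
    (h' : InLayer r t m N') : InLayer r t m (N + N') := by
  obtain ⟨s, hs, A, hA, hN⟩ := h
  obtain ⟨s', hs', A', hA', hN'⟩ := h'
  refine ⟨s * s', mul_mem hs hs', A + A' + (2 ^ m : ZMod (2 ^ (n + 1))) • (A * A'), ?_, ?_⟩
  · rw [map_mul, hA, hA']
    simp only [mul_add, add_mul, mul_one, one_mul, smul_add, Matrix.smul_mul, Matrix.mul_smul,
      smul_smul]
    abel
  · obtain ⟨j, rfl⟩ : ∃ j, m = j + 1 := ⟨m - 1, by omega⟩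
    have e : modTwo n (2 ^ (j + 1)) = 0 := by
      rw [map_pow, map_ofNat, show (2 : ZMod 2) = 0 from rfl, zero_pow (Nat.succ_ne_zero j)]
    ext i k
    have h1 := congrFun (congrFun hN i) k
    have h2 := congrFun (congrFun hN' i) k
    simp only [Matrix.map_apply] at h1 h2
    simp only [Matrix.map_apply, Matrix.add_apply, Matrix.smul_apply, smul_eq_mul, map_add,
      map_mul, e, zero_mul, add_zero, h1, h2]

theorem InLayer.conj {m : ℕ} {N : M₂} (h : InLayer r t m N) (g : G) :
    InLayer r t m ((r g).map (modTwo n) * N * (r g⁻¹).map (modTwo n)) := by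
  obtain ⟨s, hs, A, hA, hN⟩ := h
  refine ⟨g * s * g⁻¹, Subgroup.Normal.conj_mem Subgroup.normalClosure_normal s hs g,
    r g * A * r g⁻¹, ?_, ?_⟩
  · rw [map_mul, map_mul, hA, mul_add, add_mul, mul_one, ← map_mul, mul_inv_cancel, map_one,
      Matrix.mul_smul, Matrix.smul_mul]
  · rw [Matrix.map_mul, Matrix.map_mul, hN]

theorem InLayer.sq {N : M₂} (hN : N * N = 0) :
    ∀ {m : ℕ}, 1 ≤ m → InLayer r t m N → InLayer r t (m + 1) N := by
  intro m hm h
  obtain ⟨s, hs, A, hA, hAN⟩ := h
  obtain ⟨j, rfl⟩ : ∃ j, m = j + 1 := ⟨m - 1, by omega⟩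
  refine ⟨s * s, mul_mem hs hs, A + (2 ^ j : ZMod (2 ^ (n + 1))) • (A * A), ?_, ?_⟩
  · rw [map_mul, hA]
    simp only [mul_add, add_mul, mul_one, one_mul, smul_add, Matrix.smul_mul, Matrix.mul_smul,
      smul_smul, pow_succ]
    module
  · have h2 : (A * A).map (modTwo n) = 0 := by rw [Matrix.map_mul, hAN, hN]
    ext i k
    have h2' := congrFun (congrFun h2 i) k
    have h1' := congrFun (congrFun hAN i) k
    simp only [Matrix.map_apply, Matrix.zero_apply] at h1' h2'
    simp only [Matrix.map_apply, Matrix.add_apply, Matrix.smul_apply, smul_eq_mul, map_add,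
      map_mul, h2', h1', mul_zero, add_zero]

theorem inLayer_one (hdet : (r t).det = 1) (ht : ∃ b, (r t).trace = 2 * b ∧ modTwo n b = 1) :
    InLayer r t 1 ((r t).map (modTwo n) + 1) := by
  obtain ⟨b, hb, hb1⟩ := ht
  refine ⟨t * t, Subgroup.subset_normalClosure rfl, b • r t - 1, ?_, ?_⟩
  · rw [map_mul, ch_two, hdet, hb, one_smul, pow_one, smul_sub, smul_smul,
      two_smul (ZMod (2 ^ (n + 1))) (1 : Matrix (Fin 2) (Fin 2) (ZMod (2 ^ (n + 1))))]
    abel
  · ext i k
    simp only [Matrix.map_apply, Matrix.sub_apply, Matrix.smul_apply, smul_eq_mul, map_sub,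
      map_mul, hb1, one_mul, Matrix.add_apply]
    rw [sub_eq_add_neg, CharTwo.neg_eq, Matrix.one_apply, Matrix.one_apply]
    split_ifs <;> simp

theorem det_eq_one (hdet : (r t).det = 1) {s : G}
    (hs : s ∈ Subgroup.normalClosure ({t * t} : Set G)) : (r s).det = 1 := by
  have hle : Subgroup.normalClosure ({t * t} : Set G) ≤
      (((Matrix.detMonoidHom).comp r).toHomUnits).ker := by
    refine Subgroup.normalClosure_le_normal ?_
    rintro _ rfl
    refine MonoidHom.mem_ker.mpr (Units.ext ?_)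
    simp [map_mul, hdet]
  have := congrArg Units.val (MonoidHom.mem_ker.mp (hle hs))
  simpa using this

/-- **the layer lemma, matrix form** -/
theorem exists_eq_of_one_mod_two
    (hsurj : ∀ g g' : M₂, g * g' = 1 → ∃ x : G, (r x).map (modTwo n) = g)
    (hdet : (r t).det = 1) (ht : ∃ b, (r t).trace = 2 * b ∧ modTwo n b = 1)
    (hne : (r t).map (modTwo n) ≠ 1) {X : Matrix (Fin 2) (Fin 2) (ZMod (2 ^ (n + 1)))}
    (hX : X.det = 1) (hX2 : X.map (modTwo n) = 1) :
    ∃ s ∈ Subgroup.normalClosure ({t * t} : Set G), r s = X := by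
  set B := (r t).map (modTwo n) + 1 with hBdef
  have hB0 : B ≠ 0 := fun h => hne (by
    have h' := eq_neg_of_add_eq_zero_left h
    rw [h']
    decide)
  have hB2 : B * B = 0 := by
    refine sub_one_sq _ ?_ ?_
    · have := (RingHom.map_det (modTwo n) (r t)).symm
      rw [hdet, map_one] at this
      exact this
    · obtain ⟨b, hb, -⟩ := ht
      rw [Matrix.trace_fin_two, Matrix.map_apply, Matrix.map_apply, ← map_add,
        ← Matrix.trace_fin_two, hb, map_mul, map_ofNat, show (2 : ZMod 2) = 0 from rfl, zero_mul]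
  have hBm : ∀ m, 1 ≤ m → InLayer r t m B := by
    intro m hm
    induction m, hm using Nat.le_induction with
    | base => exact inLayer_one r hdet ht
    | succ m hm ih => exact InLayer.sq r hB2 hm ih
  have hall : ∀ m, 1 ≤ m → ∀ N : M₂, N.trace = 0 → InLayer r t m N := by
    intro m hm N hN
    have hbas : ∀ N' : M₂, N' ≠ 0 → N' * N' = 0 → InLayer r t m N' := by
      intro N' h0 h2
      obtain ⟨g, g', hgg, he⟩ := nilp_conj B N' hB0 hB2 h0 h2
      obtain ⟨x, hx⟩ := hsurj g g' hgg
      have hx' : (r x⁻¹).map (modTwo n) = g' := by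
        refine left_inv_eq_right_inv (a := g) ?_ hgg
        rw [← hx, ← Matrix.map_mul, ← map_mul, inv_mul_cancel, map_one,
          Matrix.map_one _ (map_zero _) (map_one _)]
      rw [← he, ← hx, ← hx']
      exact InLayer.conj r (hBm m hm) x
    have hsm : ∀ (a : ZMod 2) (N' : M₂), InLayer r t m N' → InLayer r t m (a • N') := by
      intro a N' h
      obtain rfl | rfl : a = 0 ∨ a = 1 := by revert a; decide
      · rw [zero_smul]; exact InLayer.zero r m
      · rwa [one_smul]
    obtain ⟨a, b, c, rfl⟩ := trace_zero_eq N hN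
    refine InLayer.add r hm (InLayer.add r hm (hsm _ _ ?_) (hsm _ _ ?_)) (hsm _ _ ?_)
    · exact (fun h => hbas _ h.1 h.2) (nilp_basis _ (Or.inl rfl))
    · exact (fun h => hbas _ h.1 h.2) (nilp_basis _ (Or.inr (Or.inl rfl)))
    · exact (fun h => hbas _ h.1 h.2) (nilp_basis _ (Or.inr (Or.inr rfl)))
  have main : ∀ d m, 1 ≤ m → n + 1 ≤ m + d →
      ∀ A : Matrix (Fin 2) (Fin 2) (ZMod (2 ^ (n + 1))),
        (1 + (2 ^ m : ZMod (2 ^ (n + 1))) • A).det = 1 →
        ∃ s ∈ Subgroup.normalClosure ({t * t} : Set G),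
          r s = 1 + (2 ^ m : ZMod (2 ^ (n + 1))) • A := by
    intro d
    induction d with
    | zero =>
      intro m hm hle A _
      refine ⟨1, one_mem _, ?_⟩
      have : (2 ^ m : ZMod (2 ^ (n + 1))) = 0 := by
        rw [show (2 ^ m : ZMod (2 ^ (n + 1))) = ((2 ^ m : ℕ) : ZMod (2 ^ (n + 1))) by push_cast; rfl,
          ZMod.natCast_eq_zero_iff]
        exact pow_dvd_pow 2 (by simpa using hle)
      simp [this]
    | succ d ih =>
      intro m hm hle A hA
      rcases Nat.lt_or_ge n m with hnm | hnm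
      · exact ih m hm (by omega) A hA
      have htr : modTwo n A.trace = 0 := by
        have h0 := hA
        rw [det_one_add_smul, add_eq_left] at h0
        obtain ⟨k, hk⟩ := ZMod.natCast_zmod_surjective (A.trace + 2 ^ m * A.det)
        rw [← hk] at h0
        have h1 : ((2 ^ m * k : ℕ) : ZMod (2 ^ (n + 1))) = 0 := by
          push_cast; exact h0
        rw [ZMod.natCast_eq_zero_iff] at h1
        have h2 : 2 ∣ k := by
          obtain ⟨j, hj⟩ : ∃ j, n + 1 = m + (j + 1) := ⟨n - m, by omega⟩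
          rw [hj, pow_add] at h1
          exact (dvd_pow_self 2 j.succ_ne_zero).trans
            (Nat.dvd_of_mul_dvd_mul_left (pow_pos two_pos m) h1)
        have h3 := congrArg (modTwo n) hk
        rw [map_natCast, (ZMod.natCast_eq_zero_iff k 2).mpr h2, map_add, map_mul, map_pow, map_ofNat,
          show (2 : ZMod 2) = 0 from rfl, zero_pow (by omega), zero_mul, add_zero] at h3
        exact h3.symm
      obtain ⟨s, hs, A', hA', hred⟩ := hall m hm (A.map (modTwo n)) (by
        rw [Matrix.trace_fin_two, Matrix.map_apply, Matrix.map_apply, ← map_add,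
          ← Matrix.trace_fin_two, htr])
      obtain ⟨C, hC⟩ : ∃ C : Matrix (Fin 2) (Fin 2) (ZMod (2 ^ (n + 1))),
          A - A' = (2 : ℕ) • C := exists_two_smul (by
        ext i k
        have := congrFun (congrFun hred i) k
        simp only [Matrix.map_apply] at this
        rw [Matrix.map_apply, Matrix.sub_apply, map_sub, this, sub_self, Matrix.zero_apply])
      have hprod : 1 + (2 ^ m : ZMod (2 ^ (n + 1))) • A =
          r s * (1 + (2 ^ (m + 1) : ZMod (2 ^ (n + 1))) • (r s⁻¹ * C)) := by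
        rw [mul_add, mul_one, Matrix.mul_smul, ← mul_assoc, ← map_mul, mul_inv_cancel, map_one,
          one_mul, hA', sub_eq_iff_eq_add'.mp hC, smul_add, pow_succ (2 : ZMod (2 ^ (n + 1))) m, mul_smul,
          two_smul ℕ C, two_smul' C, add_assoc]
      obtain ⟨s', hs', he⟩ := ih (m + 1) (by omega) (by omega) (r s⁻¹ * C) (by
        have := congrArg Matrix.det hprod
        rw [hA, Matrix.det_mul, det_eq_one r hdet hs, one_mul] at this
        exact this.symm)
      exact ⟨s * s', mul_mem hs hs', by rw [map_mul, he, hprod]⟩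
  obtain ⟨C, hC⟩ : ∃ C : Matrix (Fin 2) (Fin 2) (ZMod (2 ^ (n + 1))), X - 1 = (2 : ℕ) • C :=
    exists_two_smul (by
      ext i k
      have := congrFun (congrFun hX2 i) k
      simp only [Matrix.map_apply] at this
      rw [Matrix.map_apply, Matrix.sub_apply, map_sub, this, Matrix.one_apply, Matrix.one_apply,
        apply_ite (modTwo n), map_one, map_zero, sub_self, Matrix.zero_apply])
  have e : X = 1 + (2 ^ 1 : ZMod (2 ^ (n + 1))) • C := by
    rw [pow_one, two_smul' C, ← two_smul ℕ C, ← hC]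
    abel
  rw [e] at hX ⊢
  exact main n 1 le_rfl (by omega) C hX

end Closure

end FLTAgent.R2.Layer

end
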