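import Fermat.Agent.R2.CentralFrob
import Fermat.Agent.R2.PrimesGroup
import Mathlib.Algebra.Module.ZMod

/-!
Area R2, parcel DESCENT: algebra of a representation satisfying the quadratic relations of a matrix
representation.
-/

set_option autoImplicit false

namespace FLTAgent.R2.Desc

open Matrix

section Quad

variable {R A : Type*} [CommRing R] [Ring A] [Algebra R A]

/-- powers of a root of the characteristic polynomial of a matrix -/
theorem quadratic_pow (M : Matrix (Fin 2) (Fin 2) R) (f : A)
    (h : f * f = M.trace • f - M.det • (1 : A)) (k : ℕ) :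
    f ^ k * f ^ k = (M ^ k).trace • f ^ k - (M ^ k).det • (1 : A) := by
  obtain ⟨u, v, hf, hM⟩ : ∃ u v : R, f ^ k = u • f + v • (1 : A) ∧ M ^ k = u • M + v • 1 := by
    induction k with
    | zero => exact ⟨0, 1, by simp, by simp⟩
    | succ k ih =>
      obtain ⟨u, v, hf, hM⟩ := ih
      refine ⟨u * M.trace + v, -(u * M.det), ?_, ?_⟩
      · rw [pow_succ, hf, add_mul, smul_mul_assoc, smul_mul_assoc, one_mul, h]
        module
      · rw [pow_succ, hM, add_mul, smul_mul_assoc, smul_mul_assoc, one_mul, Layer.ch_two M]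
        module
  have ht : (M ^ k).trace = u * M.trace + v + v := by
    rw [hM, Matrix.trace_add, Matrix.trace_smul, Matrix.trace_smul, smul_eq_mul, smul_eq_mul,
      Matrix.trace_one, Fintype.card_fin]
    push_cast
    ring
  have hd : (M ^ k).det = u * u * M.det + u * v * M.trace + v * v := by
    rw [hM]
    simp [Matrix.det_fin_two, Matrix.trace_fin_two]
    ring
  rw [ht, hd, hf]
  simp only [add_mul, mul_add, smul_mul_assoc, mul_smul_comm, one_mul, mul_one, h]
  module

variable {G : Type*} [Group G]

/-- an element sent to the identity matrix acts trivially, if some commutator has trace `2` plus a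
unit -/
theorem eq_one_of_matrix_eq_one (μ : G →* Matrix (Fin 2) (Fin 2) R) (ρ : G →* A)
    (hq : ∀ g, ρ g * ρ g = (μ g).trace • ρ g - (μ g).det • (1 : A)) {τ : G} (hτ : μ τ = 1)
    {g h : G} (hc : IsUnit ((μ (g * h * g⁻¹ * h⁻¹)).trace - 2)) : ρ τ = 1 := by
  set N := ρ τ - 1 with hN
  have hρ : ρ τ = 1 + N := by rw [hN]; abel
  have hNN : N * N = 0 := by
    have e := hq τ
    rw [hτ, Matrix.det_one, Matrix.trace_one, Fintype.card_fin, one_smul, Nat.cast_ofNat,
      two_smul] at e
    rw [hN, sub_mul, mul_sub, mul_sub, e, one_mul, mul_one, one_mul]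
    abel
  have hflip : ∀ x, N * ρ x = (μ x).det • (ρ x⁻¹ * N) := by
    intro x
    have e := hq (τ * x)
    rw [map_mul μ τ x, hτ, one_mul, map_mul, hρ] at e
    simp only [add_mul, one_mul, mul_add, smul_add, mul_assoc, hq x] at e
    -- the relation multiplied by the inverse
    have e1 : N * ρ x * ρ x + ρ x * (N * ρ x) + N * ρ x * (N * ρ x) =
        (μ x).trace • (N * ρ x) := by
      simp only [mul_assoc, hq x]
      linear_combination (norm := module) e
    have hinv : ρ x * ρ x⁻¹ = 1 := by rw [← map_mul, mul_inv_cancel, map_one]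
    have e2 : N * ρ x + ρ x * N + N * ρ x * N = (μ x).trace • N := by
      have := congrArg (· * ρ x⁻¹) e1
      simp only [add_mul, smul_mul_assoc, mul_assoc, hinv, mul_one] at this
      simpa only [mul_assoc] using this
    have e3 : N * ρ x * N = 0 := by
      have := congrArg (N * ·) e2
      simp only [mul_add, mul_smul_comm, ← mul_assoc, hNN, zero_mul, zero_add, add_zero, smul_zero]
        at this
      exact this
    rw [e3, add_zero] at e2
    have e4 : (μ x).trace • (1 : A) - ρ x = (μ x).det • ρ x⁻¹ := by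
      have := congrArg (· * ρ x⁻¹) (hq x)
      simp only [sub_mul, smul_mul_assoc, mul_assoc, hinv, mul_one, one_mul] at this
      rw [this]
      abel
    rw [← smul_mul_assoc, ← e4, sub_mul ((μ x).trace • (1 : A)), smul_mul_assoc, one_mul, ← e2]
    abel
  have hdet : ∀ x, IsUnit (μ x).det := fun x => IsUnit.of_mul_eq_one (μ x⁻¹).det
    (by rw [← Matrix.det_mul, ← map_mul, mul_inv_cancel, map_one, Matrix.det_one])
  have hcomm : ρ (g⁻¹ * h⁻¹) * N = ρ (h⁻¹ * g⁻¹) * N := by
    have e1 : N * ρ (g * h) = ((μ g).det * (μ h).det) • (ρ (g⁻¹ * h⁻¹) * N) := by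
      rw [map_mul, ← mul_assoc, hflip g, smul_mul_assoc, mul_assoc, hflip h, mul_smul_comm,
        ← mul_assoc, ← map_mul, smul_smul]
    rw [hflip (g * h), map_mul μ, Matrix.det_mul, _root_.mul_inv_rev] at e1
    exact ((hdet g).mul (hdet h)).smul_left_cancel.mp e1.symm
  set c := g * h * g⁻¹ * h⁻¹ with hcd
  have hcN : ρ c * N = N := by
    rw [hcd, mul_assoc (g * h), map_mul ρ (g * h), mul_assoc, hcomm, ← mul_assoc, ← map_mul,
      mul_assoc g, mul_inv_cancel_left, mul_inv_cancel, map_one, one_mul]
  have hcdet : (μ c).det = 1 := by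
    have h1 : ∀ x, (μ x).det * (μ x⁻¹).det = 1 := fun x => by
      rw [← Matrix.det_mul, ← map_mul, mul_inv_cancel, map_one, Matrix.det_one]
    rw [hcd, map_mul, map_mul, map_mul, Matrix.det_mul, Matrix.det_mul, Matrix.det_mul]
    calc (μ g).det * (μ h).det * (μ g⁻¹).det * (μ h⁻¹).det
        = ((μ g).det * (μ g⁻¹).det) * ((μ h).det * (μ h⁻¹).det) := by ring
      _ = 1 := by rw [h1, h1, one_mul]
  have hc2 : ((μ c).trace - 2) • N = 0 := by
    have := congrArg (· * N) (hq c)
    simp only [mul_assoc, hcN, sub_mul, smul_mul_assoc, one_mul, hcdet, one_smul] at this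
    rw [sub_smul, two_smul]
    linear_combination (norm := module) -this
  rw [← sub_eq_zero, ← hN]
  exact hc.smul_eq_zero.mp hc2

end Quad

section Cyclic

/-- the module generated by the translates of an element killed by `n` -/
theorem exists_cyclic_rep {G Q : Type} [Group G] [AddCommGroup Q] (act : G → Q →+ Q)
    (h1 : ∀ x, act 1 x = x) (hm : ∀ g h x, act (g * h) x = act g (act h x)) (n : ℕ) [NeZero n]
    (q0 : Q) (hn : n • q0 = 0) :
    ∃ (V : Type) (_ : AddCommGroup V) (_ : Module (ZMod n) V) (ρ : G →* Module.End (ZMod n) V)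
      (e : V →+ Q) (v : V), Function.Injective e ∧ (∀ g, e (ρ g v) = act g q0) ∧
      ∀ f f' : Module.End (ZMod n) V, (∀ g, f (ρ g v) = f' (ρ g v)) → f = f' := by
  let X : AddSubgroup Q := AddSubgroup.closure (Set.range fun g => act g q0)
  have hX : ∀ g, ∀ x ∈ X, act g x ∈ X := fun g x hx => by
    induction hx using AddSubgroup.closure_induction with
    | mem x hx =>
      obtain ⟨h, rfl⟩ := hx
      exact AddSubgroup.subset_closure ⟨g * h, hm g h q0⟩
    | zero => rw [map_zero]; exact zero_mem _
    | add a b _ _ ha hb => rw [map_add]; exact add_mem ha hb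
    | neg a _ ha => rw [map_neg]; exact neg_mem ha
  have hkill : ∀ x : X, n • x = 0 := by
    rintro ⟨x, hx⟩
    refine Subtype.ext ?_
    show n • x = 0
    induction hx using AddSubgroup.closure_induction with
    | mem x hx =>
      obtain ⟨h, rfl⟩ := hx
      rw [← map_nsmul, hn, map_zero]
    | zero => exact nsmul_zero _
    | add a b _ _ ha hb => rw [smul_add, ha, hb, add_zero]
    | neg a _ ha => rw [smul_neg, ha, neg_zero]
  haveI instX : Module (ZMod n) X := AddCommGroup.zmodModule hkill
  let F : G → Module.End (ZMod n) X := fun g => AddMonoidHom.toZModLinearMap n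
    (((act g).comp X.subtype).codRestrict X fun x => hX g x x.2)
  have hF : ∀ g (x : X), ((F g x : X) : Q) = act g x := fun g x => rfl
  have ext : ∀ f f' : Module.End (ZMod n) X,
      (∀ g, f ⟨act g q0, AddSubgroup.subset_closure ⟨g, rfl⟩⟩ =
        f' ⟨act g q0, AddSubgroup.subset_closure ⟨g, rfl⟩⟩) → f = f' := by
    intro f f' h
    refine LinearMap.ext ?_
    rintro ⟨x, hx⟩
    induction hx using AddSubgroup.closure_induction with
    | mem x hx =>
      obtain ⟨g, rfl⟩ := hx
      exact h g
    | zero => exact (map_zero f).trans (map_zero f').symm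
    | add a b ha hb iha ihb =>
      show f (⟨a, ha⟩ + ⟨b, hb⟩) = f' (⟨a, ha⟩ + ⟨b, hb⟩)
      rw [map_add, map_add, iha, ihb]
    | neg a ha iha =>
      show f (-⟨a, ha⟩) = f' (-⟨a, ha⟩)
      rw [map_neg, map_neg, iha]
  let v : X := ⟨act 1 q0, AddSubgroup.subset_closure ⟨1, rfl⟩⟩
  let ρ : G →* Module.End (ZMod n) X :=
    { toFun := F
      map_one' := LinearMap.ext fun x => Subtype.ext (by rw [hF, h1]; rfl)
      map_mul' := fun a b => LinearMap.ext fun x => Subtype.ext (by
        rw [hF, hm, Module.End.mul_apply, hF, hF]) }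
  have hv : ∀ g, ((ρ g v : X) : Q) = act g q0 := fun g => by
    show ((F g v : X) : Q) = _
    rw [hF, ← hm, mul_one]
  refine ⟨X, inferInstance, inferInstance, ρ, X.subtype, v, Subtype.val_injective, hv,
    fun f f' h => ext f f' fun g => ?_⟩
  convert h g using 2 <;> exact Subtype.ext (hv g).symm

end Cyclic

local notation "M₂" => Matrix (Fin 2) (Fin 2) (ZMod 2)

theorem trace_commutator : ∀ a b : M₂, a.det = 1 → b.det = 1 → a.trace = 1 → b.trace = 0 → b ≠ 1 →
    (a * b * a.adjugate * b.adjugate).trace = 1 ∧ (a * b).trace = 0 := by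
  simp only [Matrix.adjugate_fin_two]
  decide

theorem inv_eq_adjugate {a a' : M₂} (h : a * a' = 1) (hd : a.det = 1) : a' = a.adjugate := by
  calc a' = a.adjugate * a * a' := by rw [Matrix.adjugate_mul, hd, one_smul, one_mul]
    _ = a.adjugate := by rw [mul_assoc, h, mul_one]

theorem det_eq_one_of_unit : ∀ x : ZMod 2, IsUnit x → x = 1 := by decide

end FLTAgent.R2.Desc
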