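import Fermat.Agent.R2.DescentAbel

/-!
Area R2, parcel DESCENT: formal properties of pullbacks along inclusions and of the old classes.
-/

set_option autoImplicit false
set_option linter.unusedSectionVars false
set_option linter.unusedVariables false
set_option linter.style.haveILetI false
set_option synthInstance.maxHeartbeats 400000

noncomputable section

open ModularCurve AlgebraicCurve
open FLTAgent.Reduction (Qb FB Ctx)

namespace FLTAgent.R2.Desc

local notation "GalQ" => AlgebraicClosure ℚ ≃ₐ[ℚ] AlgebraicClosure ℚ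

/-! ### pullback along composites -/

theorem place_exists_ord_one {K F : Type*} [Field K] [Field F] [Algebra K F] (v : Place K F) :
    ∃ f : F, v.ord f = 1 := by
  obtain ⟨π, hπ⟩ := IsDiscreteValuationRing.exists_irreducible v.toValuationSubring
  exact ⟨(π : F), v.ord_coe_irreducible hπ⟩

theorem place_eq_of_subring {K F : Type*} [Field K] [Field F] [Algebra K F] {v w : Place K F}
    (h : v.toValuationSubring = w.toValuationSubring) : v = w := by
  cases v
  cases w
  cases h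
  rfl

theorem restrictAlong_comp' {K F G H : Type*} [Field K] [Field F] [Field G] [Field H]
    [Algebra K F] [Algebra K G] [Algebra K H] (φ : F →ₐ[K] G) (ψ : G →ₐ[K] H)
    (hφ : φ.toRingHom.IsIntegral) (hψ : ψ.toRingHom.IsIntegral)
    (hc : (ψ.comp φ).toRingHom.IsIntegral) (w : Place K H) :
    (w.restrictAlong ψ hψ).restrictAlong φ hφ = w.restrictAlong (ψ.comp φ) hc :=
  place_eq_of_subring rfl

section Comp

variable {a b c : ℕ} [NeZero a] [NeZero b] [NeZero c]

theorem incl_comp (h1 : a ∣ b) (h2 : b ∣ c) :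
    (SS2.incl h2).comp (SS2.incl h1) = SS2.incl (h1.trans h2) :=
  AlgHom.ext fun x => Subtype.ext (by
    rw [AlgHom.comp_apply, SS2.coe_incl, SS2.coe_incl, SS2.coe_incl])

theorem pullJ_comp (φ : FB a →ₐ[Qb] FB b) (ψ : FB b →ₐ[Qb] FB c) (x : JZero a) :
    MLT.pullJ ψ (MLT.pullJ φ x) = MLT.pullJ (ψ.comp φ) x := by
  obtain ⟨D, rfl⟩ := Pic0.mk_surjective x
  rw [MLT.pullJ_mk, MLT.pullJ_mk, MLT.pullJ_mk]
  refine congrArg Pic0.mk (Subtype.ext (Finsupp.ext fun w => ?_))
  haveI := HeckeJ.hasPrincipalDivisors_bar b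
  haveI := HeckeJ.hasPrincipalDivisors_bar c
  have hφ := HeckeJ.isIntegralAlong φ
  have hψ := HeckeJ.isIntegralAlong ψ
  have hc := HeckeJ.isIntegralAlong (ψ.comp φ)
  show Divisor.pullbackAlong ψ hψ (Divisor.pullbackAlong φ hφ D.1) w =
    Divisor.pullbackAlong (ψ.comp φ) hc D.1 w
  have e : (w.restrictAlong ψ hψ).restrictAlong φ hφ = w.restrictAlong (ψ.comp φ) hc :=
    restrictAlong_comp' φ ψ hφ hψ hc w
  simp only [Divisor.pullbackAlong_apply, e]
  obtain ⟨f, hf⟩ := place_exists_ord_one (w.restrictAlong (ψ.comp φ) hc)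
  have h1 := Place.ord_restrictAlong (ψ.comp φ) hc w f
  rw [hf, mul_one, AlgHom.comp_apply, Place.ord_restrictAlong ψ hψ,
    Place.ord_restrictAlong φ hφ, e, hf, mul_one] at h1
  rw [← mul_assoc, h1]

theorem up_up (h1 : a ∣ b) (h2 : b ∣ c) (x : JZero a) :
    up h2 (up h1 x) = up (h1.trans h2) x := by
  show MLT.pullJ (SS2.incl h2) (MLT.pullJ (SS2.incl h1) x) = _
  rw [pullJ_comp, incl_comp]

end Comp

variable {d L : ℕ} [NeZero d] [NeZero L]

theorem up_smul (h : d ∣ L) (σ : GalQ) (x : JZero d) : up h (σ • x) = σ • up h x :=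
  MLT.pullJ_smul (SS2.incl h) σ (SS2.intertwines_incl h σ) x

theorem up_mem_tor (h : d ∣ L) {x : JZero d} (hx : x ∈ tor d) : up h x ∈ tor L := by
  obtain ⟨m, hm⟩ := hx
  exact ⟨m, by rw [← map_nsmul, hm, map_zero]⟩

theorem smul_mem_tor (σ : GalQ) {x : JZero L} (hx : x ∈ tor L) : σ • x ∈ tor L :=
  EIS.map_torR L 2 (DistribSMul.toAddMonoidHom (JZero L) σ) hx

theorem hecke_mem_tor (l : Nat.Primes) {x : JZero L} (hx : x ∈ tor L) :
    heckeOperatorBar L l x ∈ tor L :=
  EIS.map_torR L 2 (heckeOperatorBar L l).toAddMonoidHom hx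

theorem eta_mem_tor (l : Nat.Primes) {x : JZero L} (hx : x ∈ tor L) : eta L l x ∈ tor L :=
  EIS.map_torR L 2 (eta L l) hx

theorem eta_pow_mem_tor (l : Nat.Primes) {x : JZero L} (hx : x ∈ tor L) (c : ℕ) :
    (eta L l)^[c] x ∈ tor L := by
  induction c with
  | zero => exact hx
  | succ c ih =>
    rw [Function.iterate_succ_apply']
    exact eta_mem_tor l ih

theorem not_dvd_two_pow {l : ℕ} (hl : l.Prime) (hl2 : l ≠ 2) (m : ℕ) : ¬ l ∣ 2 ^ m := fun h =>
  hl2 ((Nat.prime_dvd_prime_iff_eq hl Nat.prime_two).mp (hl.dvd_of_dvd_pow h))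

theorem up_hecke (h : d ∣ L) {l : Nat.Primes} (hl : ¬ (l : ℕ) ∣ L) (hl2 : (l : ℕ) ≠ 2)
    {x : JZero d} (hx : x ∈ tor d) :
    up h (heckeOperatorBar d l x) = heckeOperatorBar L l (up h x) := by
  obtain ⟨m, hm⟩ := hx
  exact MLT.pullJ_hecke (SS2.incl h) (fun σ => SS2.intertwines_incl h σ) l.2
    (fun hd => hl (hd.trans h)) hl (pow_pos two_pos m) (not_dvd_two_pow l.2 hl2 m) hm

theorem eta_apply (l : Nat.Primes) (x : JZero L) :
    eta L l x = heckeOperatorBar L l x - ((l : ℕ) + 1) • x := rfl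

theorem up_eta (h : d ∣ L) {l : Nat.Primes} (hl : ¬ (l : ℕ) ∣ L) (hl2 : (l : ℕ) ≠ 2)
    {x : JZero d} (hx : x ∈ tor d) : up h (eta d l x) = eta L l (up h x) := by
  rw [eta_apply, eta_apply, map_sub, map_nsmul, up_hecke h hl hl2 hx]

theorem up_eta_pow (h : d ∣ L) {l : Nat.Primes} (hl : ¬ (l : ℕ) ∣ L) (hl2 : (l : ℕ) ≠ 2)
    {x : JZero d} (hx : x ∈ tor d) (c : ℕ) :
    up h ((eta d l)^[c] x) = (eta L l)^[c] (up h x) := by
  induction c with
  | zero => rfl
  | succ c ih =>
    rw [Function.iterate_succ_apply', Function.iterate_succ_apply',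
      up_eta h hl hl2 (eta_pow_mem_tor l hx c), ih]

theorem eta_smul (l : Nat.Primes) (σ : GalQ) (x : JZero L) :
    eta L l (σ • x) = σ • eta L l x := by
  rw [eta_apply, eta_apply, smul_sub, (Attach.galoisInputs L).smul_hecke σ l x]
  exact congrArg₂ (· - ·) rfl (map_nsmul (DistribSMul.toAddMonoidHom (JZero L) σ) _ x).symm

theorem eta_pow_smul (l : Nat.Primes) (σ : GalQ) (x : JZero L) (c : ℕ) :
    (eta L l)^[c] (σ • x) = σ • (eta L l)^[c] x := by
  induction c with
  | zero => rfl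
  | succ c ih => rw [Function.iterate_succ_apply', Function.iterate_succ_apply', ih, eta_smul]

/-! ### the old classes -/

variable {R : Finset ℕ}

theorem up_mem_old {r : ℕ} (hr : r ∈ R) (hdr : d * r = L) (h : d ∣ L) {x : JZero d}
    (hx : x ∈ tor d) : up h x ∈ Old R L :=
  AddSubgroup.subset_closure ⟨r, hr, d, inferInstance, h, x, hdr, hx, rfl⟩

theorem old_induction {P : JZero L → Prop}
    (gen : ∀ r ∈ R, ∀ (d : ℕ) [NeZero d] (h : d ∣ L) (x : JZero d),
      d * r = L → x ∈ tor d → P (up h x))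
    (zero : P 0) (add : ∀ x y, P x → P y → P (x + y)) (neg : ∀ x, P x → P (-x))
    {y : JZero L} (hy : y ∈ Old R L) : P y := by
  induction hy using AddSubgroup.closure_induction with
  | mem y hy =>
    obtain ⟨r, hr, d, hd0, h, x, hdr, hx, rfl⟩ := hy
    exact @gen r hr d hd0 h x hdr hx
  | zero => exact zero
  | add x y _ _ hx hy => exact add x y hx hy
  | neg x _ hx => exact neg x hx

theorem old_le_tor : Old R L ≤ tor L := fun y hy =>
  old_induction (P := fun y => y ∈ tor L) (fun r _ d _ h x _ hx => up_mem_tor h hx) (zero_mem _)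
    (fun _ _ => add_mem) (fun _ => neg_mem) hy

theorem old_smul (σ : GalQ) {y : JZero L} (hy : y ∈ Old R L) : σ • y ∈ Old R L :=
  old_induction (P := fun y => σ • y ∈ Old R L)
    (fun r hr d _ h x hdr hx => by
      rw [← up_smul]
      exact up_mem_old hr hdr h (smul_mem_tor σ hx))
    (by rw [show σ • (0 : JZero L) = 0 from smul_zero (A := JZero L) σ]; exact zero_mem _)
    (fun a b ha hb => by rw [smul_add]; exact add_mem ha hb)
    (fun a ha => by rw [smul_neg]; exact neg_mem ha) hy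

theorem old_hecke {l : Nat.Primes} (hl : ¬ (l : ℕ) ∣ L) (hl2 : (l : ℕ) ≠ 2) {y : JZero L}
    (hy : y ∈ Old R L) : heckeOperatorBar L l y ∈ Old R L :=
  old_induction (P := fun y => heckeOperatorBar L l y ∈ Old R L)
    (fun r hr d _ h x hdr hx => by
      rw [← up_hecke h hl hl2 hx]
      exact up_mem_old hr hdr h (hecke_mem_tor l hx))
    (by rw [map_zero]; exact zero_mem _)
    (fun a b ha hb => by rw [map_add]; exact add_mem ha hb)
    (fun a ha => by rw [map_neg]; exact neg_mem ha) hy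

theorem old_eta {l : Nat.Primes} (hl : ¬ (l : ℕ) ∣ L) (hl2 : (l : ℕ) ≠ 2) {y : JZero L}
    (hy : y ∈ Old R L) : eta L l y ∈ Old R L := by
  rw [eta_apply]
  exact sub_mem (old_hecke hl hl2 hy) (nsmul_mem hy _)

theorem old_eta_pow {l : Nat.Primes} (hl : ¬ (l : ℕ) ∣ L) (hl2 : (l : ℕ) ≠ 2) {y : JZero L}
    (hy : y ∈ Old R L) (c : ℕ) : (eta L l)^[c] y ∈ Old R L := by
  induction c with
  | zero => exact hy
  | succ c ih =>
    rw [Function.iterate_succ_apply']
    exact old_eta hl hl2 ih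

theorem old_mono {R' : Finset ℕ} (h : R' ⊆ R) : Old R' L ≤ Old R L := fun _ hy =>
  old_induction (P := fun y => y ∈ Old R L)
    (fun r hr d _ hd x hdr hx => up_mem_old (h hr) hdr hd hx) (zero_mem _)
    (fun _ _ => add_mem) (fun _ => neg_mem) hy

theorem eq_zero_of_mem_old_empty {y : JZero L} (hy : y ∈ Old ∅ L) : y = 0 :=
  old_induction (P := fun y => y = 0) (fun r hr => absurd hr (Finset.notMem_empty r)) rfl
    (fun a b ha hb => by rw [ha, hb, add_zero]) (fun a ha => by rw [ha, neg_zero]) hy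

/-- old classes go to old classes under inclusions of one further prime -/
theorem up_old {x : ℕ} [NeZero x] (h : d ∣ L) (hdx : d * x = L) {y : JZero d}
    (hy : y ∈ Old R d) : up h y ∈ Old R L :=
  old_induction (P := fun y => up h y ∈ Old R L)
    (fun r hr e _ he z her hz => by
      have h1 : e ∣ e * x := dvd_mul_right e x
      have h2 : e * x ∣ L := ⟨r, by rw [← hdx, ← her]; ring⟩
      rw [up_up, show up (he.trans h) z = up h2 (up h1 z) by rw [up_up]]
      exact up_mem_old hr (by rw [← hdx, ← her]; ring) h2 (up_mem_tor h1 hz))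
    (by rw [map_zero]; exact zero_mem _)
    (fun a b ha hb => by rw [map_add]; exact add_mem ha hb)
    (fun a ha => by rw [map_neg]; exact neg_mem ha) hy

/-- splitting off one old prime -/
theorem exists_split_insert {x : ℕ} (h : d ∣ L) (hx0 : x ≠ 0) (hdx : d * x = L) {y : JZero L}
    (hy : y ∈ Old (insert x R) L) :
    ∃ a ∈ tor d, ∃ b ∈ Old R L, up h a + b = y :=
  old_induction (P := fun y => ∃ a ∈ tor d, ∃ b ∈ Old R L, up h a + b = y)
    (fun r hr e he0 he z her hz => by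
      rcases Finset.mem_insert.mp hr with rfl | hrR
      · obtain rfl : e = d := Nat.eq_of_mul_eq_mul_right (Nat.pos_of_ne_zero hx0)
          (her.trans hdx.symm)
        exact ⟨z, hz, 0, zero_mem _, add_zero _⟩
      · exact ⟨0, zero_mem _, _, up_mem_old hrR her he hz, by rw [map_zero, zero_add]⟩)
    ⟨0, zero_mem _, 0, zero_mem _, by rw [map_zero, zero_add]⟩
    (fun _ _ ⟨a, ha, b, hb, e⟩ ⟨a', ha', b', hb', e'⟩ => ⟨a + a', add_mem ha ha', b + b',
      add_mem hb hb', by rw [map_add, ← e, ← e']; abel⟩)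
    (fun _ ⟨a, ha, b, hb, e⟩ => ⟨-a, neg_mem ha, -b, neg_mem hb, by rw [map_neg, ← e]; abel⟩) hy

/-! ### the involution -/

section W

variable {M q : ℕ} [NeZero M] [NeZero q] {A : ValuationSubring Qb} (C : Ctx A M q)
include C

theorem wJ_mem_tor {y : JZero (M * q)} (hy : y ∈ tor (M * q)) : TOR.wJ C y ∈ tor (M * q) :=
  EIS.map_torR (M * q) 2 (TOR.wJ C) hy

theorem wJ_hecke {l : Nat.Primes} (hl : ¬ (l : ℕ) ∣ M * q) (hl2 : (l : ℕ) ≠ 2)
    {y : JZero (M * q)} (hy : y ∈ tor (M * q)) :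
    heckeOperatorBar (M * q) l (TOR.wJ C y) = TOR.wJ C (heckeOperatorBar (M * q) l y) := by
  obtain ⟨m, hm⟩ := hy
  obtain ⟨B, σ, hB, hσ⟩ := Alg.exists_place_frobenius (l : ℕ) l.2
  have hn : 0 < 2 ^ m := pow_pos two_pos m
  have hln := not_dvd_two_pow l.2 hl2 m
  have G := Attach.galoisInputs (M * q)
  have e1 := SS.hecke_eq_frobenius G l.2 hl hB hσ hn hln hm
  have e2 := SS.hecke_eq_frobenius G l.2 hl hB hσ hn hln
    (x := TOR.wJ C y) (by rw [← map_nsmul, hm, map_zero])
  refine e2.trans ?_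
  rw [show heckeOperatorBar (M * q) l y = _ from e1, map_add, map_nsmul, TOR.wJ_smul, TOR.wJ_smul]

theorem wJ_eta {l : Nat.Primes} (hl : ¬ (l : ℕ) ∣ M * q) (hl2 : (l : ℕ) ≠ 2)
    {y : JZero (M * q)} (hy : y ∈ tor (M * q)) :
    eta (M * q) l (TOR.wJ C y) = TOR.wJ C (eta (M * q) l y) := by
  rw [eta_apply, eta_apply, map_sub, map_nsmul, wJ_hecke C hl hl2 hy]

theorem wJ_eta_pow {l : Nat.Primes} (hl : ¬ (l : ℕ) ∣ M * q) (hl2 : (l : ℕ) ≠ 2)
    {y : JZero (M * q)} (hy : y ∈ tor (M * q)) (c : ℕ) :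
    (eta (M * q) l)^[c] (TOR.wJ C y) = TOR.wJ C ((eta (M * q) l)^[c] y) := by
  induction c with
  | zero => rfl
  | succ c ih =>
    rw [Function.iterate_succ_apply', Function.iterate_succ_apply', ih,
      wJ_eta C hl hl2 (eta_pow_mem_tor l hy c)]

theorem wJ_old {R : Finset ℕ} (hR : ∀ x ∈ R, x.Prime ∧ x ≠ q) {y : JZero (M * q)}
    (hy : y ∈ Old R (M * q)) : TOR.wJ C y ∈ Old R (M * q) :=
  old_induction (P := fun y => TOR.wJ C y ∈ Old R (M * q))
    (fun x hx d hd0 h z hdx hz => by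
      obtain ⟨hxp, hxq⟩ := hR x hx
      obtain ⟨d', rfl⟩ : q ∣ d := by
        rcases (Nat.Prime.dvd_mul C.prime).mp (hdx ▸ dvd_mul_left q M) with h1 | h1
        · exact h1
        · exact absurd ((Nat.prime_dvd_prime_iff_eq C.prime hxp).mp h1).symm hxq
      haveI : NeZero d' := ⟨fun e => NeZero.ne (q * d') (by rw [e, mul_zero])⟩
      revert h z hz hd0
      rw [mul_comm q d'] at hdx ⊢
      intro hd0 h z hz
      have hM : d' * x = M := Nat.eq_of_mul_eq_mul_right C.prime.pos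
        (by rw [← hdx]; ring)
      have C' : Ctx A d' q := ⟨C.prime, fun e => C.not_dvd (e.trans ⟨x, hM.symm⟩), C.lies⟩
      rw [wJ_up C ⟨x, hM.symm⟩ h C' z]
      exact up_mem_old hx hdx h (wJ_mem_tor C' hz))
    (by rw [map_zero]; exact zero_mem _)
    (fun a b ha hb => by rw [map_add]; exact add_mem ha hb)
    (fun a ha => by rw [map_neg]; exact neg_mem ha) hy

end W

end FLTAgent.R2.Desc

end
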