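import Fermat.Agent.R2.DescentGen
import Fermat.Agent.EIS.Divisible

/-!
Area R2, parcel DESCENT, one level: counting two-power torsion at a place over `q`. With
`t + 1` double points and `g' = 2 g + t`: there are at most `n ^ t` toric classes killed by `n`, and
the classes with abelian classes have bounded index among the fixed ones; hence the monodromy is
onto the toric classes and the abelian classes are arbitrary.
-/

set_option autoImplicit false
set_option linter.unusedSectionVars false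
set_option linter.unusedVariables false
set_option linter.style.haveILetI false
set_option synthInstance.maxHeartbeats 400000
set_option maxHeartbeats 1000000

noncomputable section

open ModularCurve AlgebraicCurve IsLocalRing
open FLTAgent.Reduction (Qb kA FB FS PB PS Ctx Val)
open FLTAgent.SS2 (galFn rationalFn)

namespace FLTAgent.R2.Desc

open FLTAgent.SS

local notation "GalQ" => AlgebraicClosure ℚ ≃ₐ[ℚ] AlgebraicClosure ℚ

section Jump

variable {K : Type*} [Field K] [IsAlgClosed K] [CharZero K] {B : ValuationSubring K}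
  {F : Type*} [Field F] [Algebra K F] [RR.FnField K F]
  {Fs : Type*} [Field Fs] [Algebra (ResidueField B) Fs] {D : Data K B F Fs} {n : ℕ}

/-- a constant root of unity may be moved into the jump -/
theorem hasJump_const_mul {E : Divisor K F} {ζ : D.ι → ResidueField B} (h : D.HasJump n E ζ)
    {c : ResidueField B} (hc : c ^ n = 1) (hn : n ≠ 0) :
    D.HasJump n E (fun s => c * ζ s) := by
  obtain ⟨R, rfl, hR⟩ := h
  have hc0 : c ≠ 0 := by
    rintro rfl
    rw [zero_pow hn] at hc
    exact zero_ne_one hc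
  refine ⟨{ R with
    h := fun b => algebraMap (ResidueField B) Fs (cond b c 1) * R.h b
    h_ne := fun b => mul_ne_zero ((_root_.map_ne_zero _).mpr (by cases b <;> simp [hc0])) (R.h_ne b)
    red_eq := fun b => by
      rw [R.red_eq b, mul_pow, ← map_pow,
        show (cond b c (1 : ResidueField B)) ^ n = 1 by cases b <;> simp [hc], map_one, one_mul] },
    rfl, fun m x hx hx' s d hd => ?_⟩
  have e : ∀ b, D.toCore.red b (algebraMap K F (R.α b) * x) *
      (algebraMap (ResidueField B) Fs (cond b c 1) * R.h b) =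
      algebraMap (ResidueField B) Fs (cond b c 1) * R.res x b := fun b => by
    show _ = _ * (D.toCore.red b (algebraMap K F (R.α b) * x) * R.h b)
    ring
  change Val (D.pt false s) (D.toCore.red false (algebraMap K F (R.α false) * x) *
      (algebraMap (ResidueField B) Fs (cond false c 1) * R.h false)) d at hd
  rw [e, cond_false, map_one, one_mul] at hd
  show Val (D.pt true s) (D.toCore.red true (algebraMap K F (R.α true) * x) *
      (algebraMap (ResidueField B) Fs (cond true c 1) * R.h true)) _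
  rw [e, cond_true, mul_assoc c]
  exact (Val.const c).mul (hR m x hx hx' s d hd)

/-- classes with the same jump are equal -/
theorem eq_of_same_jump (hS : D.Surj) (hA : Arch B) (hn : (n : ResidueField B) ≠ 0)
    {E E' : Divisor.degZero (K := K) (F := F)} {ζ : D.ι → ResidueField B}
    (hζ : ∀ s, ζ s ^ n = 1) (h : D.HasJump n (E : Divisor K F) ζ)
    (h' : D.HasJump n (E' : Divisor K F) ζ) :
    (Pic0.mk E : Pic0 K F) = Pic0.mk E' := by
  have hn0 : n ≠ 0 := fun e => hn (by simp [e])
  have h1 := h.add hn0 hS (h'.neg hn0 hS)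
  rw [show ζ * ζ⁻¹ = 1 from funext fun s => mul_inv_cancel₀ fun h0 => by
    have := hζ s
    rw [h0, zero_pow hn0] at this
    exact zero_ne_one this] at h1
  obtain ⟨x, hx, hdiv⟩ := Data.principal_of_jump_one hS hA hn h1
  show (QuotientAddGroup.mk' _) E = (QuotientAddGroup.mk' _) E'
  rw [← sub_eq_zero, ← map_sub, QuotientAddGroup.mk'_apply, QuotientAddGroup.eq_zero_iff,
    AddSubgroup.mem_addSubgroupOf]
  refine ⟨x, hx, fun P => ?_⟩
  rw [← hdiv P, AddSubgroupClass.coe_sub]
  simp [sub_eq_add_neg]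

end Jump

variable {M q : ℕ} [NeZero M] [NeZero q] {A : ValuationSubring Qb}

local notation "DZ" => Divisor.degZero (K := Qb) (F := FB (M * q))

variable (C : Ctx A M q) {r : ℕ}
include C

/-- the classes killed by `2 ^ m` -/
def killed (N m : ℕ) [NeZero N] : AddSubgroup (JZero N) :=
  (nsmulAddMonoidHom (α := JZero N) (2 ^ m)).ker

omit C in
theorem finite_killed (N m : ℕ) [NeZero N] : Finite (killed N m) ∧
    Nat.card (killed N m) = (2 ^ m) ^ (2 * genusFF Qb (FB N)) :=
  MLT.finite_card_killed N (n := 2 ^ m) (pow_pos two_pos m)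

omit C in
theorem mem_killed {N m : ℕ} [NeZero N] {y : JZero N} : y ∈ killed N m ↔ 2 ^ m • y = 0 := Iff.rfl

omit C in
theorem killed_le_tor {N m : ℕ} [NeZero N] {y : JZero N} (h : y ∈ killed N m) : y ∈ tor N := ⟨m, h⟩

/-- the number of double points and the genera -/
theorem exists_genus (hr : r.Prime) (h11 : r % 12 = 11) (hrM : r ∣ M) :
    ∃ t, Nat.card (fibreData C).ι = t + 1 ∧
      genusFF Qb (FB (M * q)) = 2 * genusFF Qb (FB M) + t := by
  have hcnt := SS2.card_double C (TOR.levelData C) hr h11 hrM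
  have hgen := SS2.genus_diff (M := M) (q := q) hr h11 hrM C.prime C.not_dvd
  have h6 : (12 : ℤ) * (Nat.card (fibreData C).ι : ℤ) =
      12 * ((genusFF Qb (FB (M * q)) : ℤ) - 2 * genusFF Qb (FB M) + 1) := hcnt.trans hgen.symm
  have hι : 0 < Nat.card (fibreData C).ι := by
    have h1 := Reduction.dedekindPsi_pos C
    have h2 := C.prime.two_le
    rcases Nat.eq_zero_or_pos (Nat.card (fibreData C).ι) with h0 | h0
    · exfalso
      rw [h0, Nat.cast_zero, mul_zero] at hcnt
      rcases mul_eq_zero.mp hcnt.symm with h | h <;> omega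
    · exact h0
  exact ⟨Nat.card (fibreData C).ι - 1, by omega, by omega⟩

/-- toric classes, as a group -/
def toricSub (hq2 : q ≠ 2) (m : ℕ) : AddSubgroup (JZero (M * q)) :=
  AddSubgroup.ofSub {y | InKer C y ∧ 2 ^ m • y = 0}
    ⟨0, ⟨zero_mem _, fun σ _ => smul_zero (A := JZero (M * q)) σ, fst_zero C hq2,
      by rw [map_zero]; exact fst_zero C hq2⟩, nsmul_zero _⟩
    fun y hy y' hy' => by
      rw [← sub_eq_add_neg]
      exact ⟨inKer_sub' C hq2 hy.1 hy'.1, by rw [nsmul_sub, hy.2, hy'.2, sub_zero]⟩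

theorem mem_toricSub {hq2 : q ≠ 2} {m : ℕ} {y : JZero (M * q)} :
    y ∈ toricSub C hq2 m ↔ InKer C y ∧ 2 ^ m • y = 0 := Iff.rfl

theorem toricSub_le (hq2 : q ≠ 2) (m : ℕ) : toricSub C hq2 m ≤ killed (M * q) m := fun y hy => hy.2

/-- at most `n ^ t` toric classes -/
theorem card_toric_le (hq2 : q ≠ 2) (m : ℕ) {t : ℕ} (ht : Nat.card (fibreData C).ι = t + 1) :
    Nat.card (toricSub C hq2 m) ≤ (2 ^ m) ^ t := by
  classical
  set n := 2 ^ m
  have hn : n ≠ 0 := pow_ne_zero _ two_ne_zero
  have hn' : (n : kA A) ≠ 0 := natCast_ne_zero_kA C.prime C.lies (not_dvd_pow_two C.prime hq2 m)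
  haveI := (fibreData C).fintype
  obtain ⟨s0⟩ : Nonempty (fibreData C).ι := (Nat.card_pos_iff.mp (ht ▸ t.succ_pos)).1
  let R := {x : kA A // x ∈ Polynomial.nthRootsFinset n (1 : kA A)}
  have hR : Nat.card R ≤ n := by
    rw [Nat.card_eq_fintype_card, Fintype.card_coe, Polynomial.nthRootsFinset_def]
    exact (Multiset.toFinset_card_le _).trans (Polynomial.card_nthRoots n 1)
  have norm : ∀ y : toricSub C hq2 m, ∃ (E : DZ) (ζ : (fibreData C).ι → kA A),
      Pic0.mk E = (y : JZero (M * q)) ∧ (∀ s, ζ s ^ n = 1) ∧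
      (fibreData C).HasJump n (E : Divisor Qb (FB (M * q))) ζ ∧ ζ s0 = 1 := by
    intro y
    obtain ⟨⟨-, -, h1, h2⟩, hy⟩ := (mem_toricSub C).mp y.2
    obtain ⟨E, ζ, hE, hζ, hJ⟩ := toric_of_inKer C hq2 hy h1 h2
    have h0 : ζ s0 ≠ 0 := fun e => by
      have := hζ s0
      rw [e, zero_pow hn] at this
      exact zero_ne_one this
    have hc : (ζ s0)⁻¹ ^ n = 1 := by rw [inv_pow, hζ, inv_one]
    exact ⟨E, _, hE, fun s => by rw [mul_pow, hc, hζ, one_mul], hasJump_const_mul hJ hc hn,
      inv_mul_cancel₀ h0⟩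
  choose E ζ hE hζ hJ hs0 using norm
  let f : toricSub C hq2 m → ({s : (fibreData C).ι // s ≠ s0} → R) := fun y s =>
    ⟨ζ y s, (Polynomial.mem_nthRootsFinset (Nat.pos_of_ne_zero hn) 1).mpr (hζ y s)⟩
  have hf : Function.Injective f := fun y y' h => by
    have he : ζ y = ζ y' := funext fun s => by
      by_cases hs : s = s0
      · rw [hs, hs0, hs0]
      · exact congrArg Subtype.val (congrFun h ⟨s, hs⟩)
    refine Subtype.ext ?_
    rw [← hE y, ← hE y']
    exact eq_of_same_jump (fibreData C).exists_surj (arch C.prime C.lies) hn' (hζ y) (hJ y)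
      (he ▸ hJ y')
  refine (Nat.card_le_card_of_injective f hf).trans ?_
  rw [Nat.card_fun, show Nat.card {s : (fibreData C).ι // s ≠ s0} = t by
    rw [Nat.card_eq_fintype_card, Fintype.card_subtype_compl, Fintype.card_subtype_eq,
      ← Nat.card_eq_fintype_card, ht, Nat.add_sub_cancel]]
  exact Nat.pow_le_pow_left hR t

/-- classes with abelian classes, as a group -/
def domSub (hq2 : q ≠ 2) (m : ℕ) : AddSubgroup (JZero (M * q)) :=
  AddSubgroup.ofSub {y | InDom C y ∧ 2 ^ m • y = 0} ⟨0, inDom_zero C hq2, nsmul_zero _⟩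
    fun y hy y' hy' =>
      ⟨inDom_add C hq2 hy.1 (inDom_neg C hq2 hy'.1),
        by rw [nsmul_add, neg_nsmul, hy.2, hy'.2, neg_zero, add_zero]⟩

theorem mem_domSub {hq2 : q ≠ 2} {m : ℕ} {y : JZero (M * q)} :
    y ∈ domSub C hq2 m ↔ InDom C y ∧ 2 ^ m • y = 0 := Iff.rfl

/-- the two classes -/
theorem exists_classHom (hq2 : q ≠ 2) (m : ℕ) :
    ∃ c : domSub C hq2 m →+ killed M m × killed M m,
      (∀ y : domSub C hq2 m, Fst A (y : JZero (M * q)) ((c y).1 : JZero M) ∧
        Fst A (TOR.wJ C y) ((c y).2 : JZero M)) ∧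
      Nat.card (domSub C hq2 m) ≤ Nat.card c.range * Nat.card (toricSub C hq2 m) := by
  classical
  have h := fun y : domSub C hq2 m => ((mem_domSub C).mp y.2).1.2.2
  choose a ha using fun y => (h y).1
  choose b hb using fun y => (h y).2
  have hk := fun y : domSub C hq2 m => ((mem_domSub C).mp y.2).2
  have hak : ∀ y, a y ∈ killed M m := fun y => (match_exact C hq2 (hk y) (ha y)).1
  have hbk : ∀ y, b y ∈ killed M m := fun y =>
    (match_exact C hq2 (by rw [← map_nsmul, hk y, map_zero]) (hb y)).1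
  let c : domSub C hq2 m →+ killed M m × killed M m :=
    AddMonoidHom.mk' (fun y => (⟨a y, hak y⟩, ⟨b y, hbk y⟩)) fun y y' => by
      refine Prod.ext (Subtype.ext ?_) (Subtype.ext ?_)
      · exact fst_unique C hq2 (ha (y + y')) (fst_add C hq2 (ha y) (ha y'))
      · refine fst_unique C hq2 (hb (y + y')) ?_
        rw [AddSubgroup.coe_add, map_add]
        exact fst_add C hq2 (hb y) (hb y')
  refine ⟨c, fun y => ⟨ha y, hb y⟩, ?_⟩
  haveI := (finite_killed (M * q) m).1
  haveI : Finite (toricSub C hq2 m) :=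
    Finite.of_injective _ (AddSubgroup.inclusion_injective (toricSub_le C hq2 m))
  have hker : ∀ y : c.ker, ((y : domSub C hq2 m) : JZero (M * q)) ∈ toricSub C hq2 m := by
    rintro ⟨y, hy⟩
    obtain ⟨hd, hk'⟩ := (mem_domSub C).mp y.2
    rw [AddMonoidHom.mem_ker] at hy
    have h1 : a y = 0 := congrArg (fun p : killed M m × killed M m => (p.1 : JZero M)) hy
    have h2 : b y = 0 := congrArg (fun p : killed M m × killed M m => (p.2 : JZero M)) hy
    exact ⟨⟨hd.1, hd.2.1, h1 ▸ ha y, h2 ▸ hb y⟩, hk'⟩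
  calc Nat.card (domSub C hq2 m) = Nat.card c.range * Nat.card c.ker := by
        rw [← AddSubgroup.index_ker, AddSubgroup.index_mul_card]
    _ ≤ _ := Nat.mul_le_mul_left _ (Nat.card_le_card_of_injective (fun y : c.ker => (⟨_, hker y⟩ : toricSub C hq2 m))
        fun y y' e => Subtype.ext (Subtype.ext (congrArg Subtype.val e :)))

/-- fixed classes -/
def fixSub (_C : Ctx A M q) (m : ℕ) : AddSubgroup (JZero (M * q)) :=
  AddSubgroup.ofSub {y | (∀ σ ∈ A.inertiaSubgroupIn ℚ, σ • y = y) ∧ 2 ^ m • y = 0}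
    ⟨0, fun σ _ => smul_zero (A := JZero (M * q)) σ, nsmul_zero _⟩
    fun y hy y' hy' => ⟨fun σ hσ => by rw [smul_add, smul_neg, hy.1 σ hσ, hy'.1 σ hσ],
      by rw [nsmul_add, neg_nsmul, hy.2, hy'.2, neg_zero, add_zero]⟩

theorem mem_fixSub {m : ℕ} {y : JZero (M * q)} :
    y ∈ fixSub C m ↔ (∀ σ ∈ A.inertiaSubgroupIn ℚ, σ • y = y) ∧ 2 ^ m • y = 0 := Iff.rfl

/-- the difference of the scales is killed by the number of double points -/
theorem nsmul_scale_eq_zero (hr : r.Prime) (h11 : r % 12 = 11) (hrM : r ∣ M) {n : ℕ} (hn : 0 < n)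
    {E : DZ} {f : FB (M * q)} (hf : f ≠ 0)
    (hord : ∀ P : PB (M * q), (n : ℤ) * (E : Divisor Qb (FB (M * q))) P = P.ord f)
    (hrat : f ∈ rationalFn A (M * q)) {i : Bool → ℤ}
    (hu : ∀ b, algebraMap Qb (FB (M * q)) ((q : Qb) ^ i b) * f ∈ GS M q A b ∧
      redM M q A b (algebraMap Qb (FB (M * q)) ((q : Qb) ^ i b) * f) ≠ 0) :
    (n : ℤ) ∣ (Nat.card (fibreData C).ι : ℤ) * (i true - i false) := by
  classical
  set κ := algebraMap Qb (FB (M * q))
  have hq : (q : Qb) ≠ 0 := Nat.cast_ne_zero.mpr C.prime.ne_zero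
  set x := κ ((q : Qb) ^ i false) * f
  have hxr : x ∈ rationalFn A (M * q) :=
    mul_mem (SS2.const_mem_rationalFn (zpow_mem (natCast_mem _ q) _)) hrat
  have hx : x ≠ 0 := mul_ne_zero ((_root_.map_ne_zero _).mpr (zpow_ne_zero _ hq)) hf
  have hxord : ∀ P : PB (M * q), (n : ℤ) * (E : Divisor Qb (FB (M * q))) P = P.ord x := fun P => by
    rw [P.ord_mul ((_root_.map_ne_zero _).mpr (zpow_ne_zero _ hq)) hf, RR.ord_algebraMap, zero_add,
      hord]
  have ex : κ ((q : Qb) ^ (i true - i false)) * x = κ ((q : Qb) ^ i true) * f := by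
    rw [← mul_assoc, ← map_mul, ← zpow_add₀ hq, sub_add_cancel]
  set e := i true - i false
  set φ := redM M q A false x with hφdef
  have hφ : φ ≠ 0 := (hu false).2
  obtain ⟨E0, hdeg, hE0⟩ := EIS.exists_divisor_S C hφ
  haveI := (fibreData C).fintype
  set P1 : Divisor (kA A) (FS A M) := ∑ s, Finsupp.single ((fibreData C).pt false s) 1 with hP1
  have hall : ∀ Q, (n : ℤ) ∣ (E0 + e • P1) Q := fun Q => by
    rw [Finsupp.add_apply, Finsupp.smul_apply, hE0, hP1, Finsupp.finsetSum_apply, smul_eq_mul]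
    by_cases hs : ∃ s, (fibreData C).pt false s = Q
    · obtain ⟨s, rfl⟩ := hs
      rw [Finset.sum_eq_single s
        (fun s' _ hs' => Finsupp.single_eq_of_ne fun h => hs' ((fibreData C).pt_inj false h).symm)
        (fun h => absurd (Finset.mem_univ s) h), Finsupp.single_eq_same, mul_one]
      exact MLT.dvd_ord_double_scale C hn hr h11 hrM s hx hxord hxr (hu false).1 (hu false).2
        (ex.symm ▸ (hu true).1) (ex.symm ▸ (hu true).2)
    · rw [Finset.sum_eq_zero fun s _ => Finsupp.single_eq_of_ne fun h => hs ⟨s, h.symm⟩, mul_zero,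
        add_zero]
      exact dvd_ord_off C hn E hx hxord (isRed_redM C (hu false).1) hφ (not_exists.mp hs)
  set D := (E0 + e • P1).mapRange (fun z => z / (n : ℤ)) (Int.zero_ediv _)
  have hD : n • D = E0 + e • P1 := Finsupp.ext fun Q => by
    rw [Finsupp.smul_apply, Finsupp.mapRange_apply, nsmul_eq_mul,
      Int.mul_ediv_cancel' (hall Q)]
  have h := congrArg Divisor.degree hD
  rw [map_nsmul, map_add, map_zsmul, hdeg, zero_add, hP1, map_sum, Finset.sum_congr rfl
    fun s _ => (Flat.curveLike_S C).degree_single _ _, Finset.sum_const, Finset.card_univ,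
    ← Nat.card_eq_fintype_card, nsmul_eq_mul, nsmul_eq_mul, smul_eq_mul, mul_one] at h
  exact ⟨Divisor.degree D, by rw [mul_comm, ← h]⟩

/-- flat classes have bounded index among fixed ones -/
theorem card_fix_le (hq2 : q ≠ 2) (hr : r.Prime) (h11 : r % 12 = 11) (hrM : r ∣ M) (m : ℕ) :
    Nat.card (fixSub C m) ≤ Nat.card (fibreData C).ι * Nat.card (domSub C hq2 m) := by
  classical
  set n := 2 ^ m with hndef
  have hn : 0 < n := pow_pos two_pos m
  haveI : NeZero n := ⟨hn.ne'⟩
  haveI := (fibreData C).fintype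
  obtain ⟨t, ht, -⟩ := exists_genus C hr h11 hrM
  obtain ⟨⟨s⟩, -⟩ := Nat.card_pos_iff.mp (show 0 < Nat.card (fibreData C).ι by omega)
  haveI := (finite_killed (M * q) m).1
  haveI : Finite (domSub C hq2 m) := Finite.of_injective
    (fun y : domSub C hq2 m => (⟨y.1, ((mem_domSub C).mp y.2).2⟩ : killed (M * q) m))
    fun y y' e => Subtype.ext (congrArg Subtype.val e :)
  choose Ef ff ii hEf hff hordf hratf huf using fun z : fixSub C m =>
    MLT.exists_rat_scales C ((mem_fixSub C).mp z.2).2 ((mem_fixSub C).mp z.2).1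
  let X := {a : ZMod n // Nat.card (fibreData C).ι • a = 0}
  let eF : fixSub C m → X := fun z => ⟨((ii z true - ii z false : ℤ) : ZMod n), by
    rw [nsmul_eq_mul, ← Int.cast_natCast, ← Int.cast_mul, ZMod.intCast_zmod_eq_zero_iff_dvd]
    exact nsmul_scale_eq_zero C hr h11 hrM hn (hff z) (hordf z) (hratf z) (huf z)⟩
  have hq0 : (q : Qb) ≠ 0 := Nat.cast_ne_zero.mpr C.prime.ne_zero
  have heF : ∀ z z' : fixSub C m, eF z = eF z' → (z : JZero (M * q)) - z' ∈ domSub C hq2 m := by
    intro z z' h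
    have hzk : 2 ^ m • ((z : JZero (M * q)) - z') = 0 := by
      rw [nsmul_sub, ((mem_fixSub C).mp z.2).2, ((mem_fixSub C).mp z'.2).2, sub_zero]
    refine ⟨inDom_of_flat C hq2 hr h11 hrM hzk (fun σ hσ => by
      rw [smul_sub, ((mem_fixSub C).mp z.2).1 σ hσ, ((mem_fixSub C).mp z'.2).1 σ hσ]) ?_, hzk⟩
    have hdiv : (n : ℤ) ∣ (ii z true - ii z' true) - (ii z false - ii z' false) := by
      rw [← ZMod.intCast_zmod_eq_zero_iff_dvd]
      have h' := congrArg Subtype.val h
      simp only [eF] at h'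
      push_cast at h' ⊢
      linear_combination h'
    set f := ff z * (ff z')⁻¹
    have e : ∀ b, algebraMap Qb (FB (M * q)) ((q : Qb) ^ (ii z b - ii z' b)) * f =
        algebraMap Qb (FB (M * q)) ((q : Qb) ^ ii z b) * ff z *
          (algebraMap Qb (FB (M * q)) ((q : Qb) ^ ii z' b) * ff z')⁻¹ := fun b => by
      rw [zpow_sub₀ hq0, map_div₀, mul_inv, div_eq_mul_inv]
      ring
    have hu : ∀ b, algebraMap Qb (FB (M * q)) ((q : Qb) ^ (ii z b - ii z' b)) * f ∈ GS M q A b ∧
        redM M q A b (algebraMap Qb (FB (M * q)) ((q : Qb) ^ (ii z b - ii z' b)) * f) ≠ 0 := by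
      intro b
      obtain ⟨h1, h2⟩ := (fibreCore C).inv_mem b (huf z' b).1 (huf z' b).2
      rw [e]
      refine ⟨mul_mem (huf z b).1 h1, ?_⟩
      show (fibreCore C).red b _ ≠ 0
      rw [(fibreCore C).red_mul b _ (huf z b).1 _ h1, h2]
      exact mul_ne_zero (huf z b).2 (inv_ne_zero (huf z' b).2)
    obtain ⟨E', f', h1, h2, h3, h4⟩ := MLT.exists_equal_scales C hr h11 hrM s
      (E := Ef z - Ef z') (mul_ne_zero (hff z) (inv_ne_zero (hff z')))
      (fun P => by
        rw [P.ord_mul (hff z) (inv_ne_zero (hff z')), P.ord_inv, ← hordf z, ← hordf z',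
          AddSubgroupClass.coe_sub, Finsupp.sub_apply]
        ring)
      (mul_mem (hratf z) (inv_mem (hratf z'))) (i := fun b => ii z b - ii z' b)
      (fun b => (hu b).1) hdiv
    refine ⟨E', f', h1.trans (by rw [MLT.mk_sub, hEf, hEf]), h2, h3, fun b => ⟨(h4 b).1, ?_⟩⟩
    obtain ⟨w, hw, hwe⟩ := (h4 b).2
    rw [hwe]
    exact mul_ne_zero (hu b).2 (pow_ne_zero _ hw)
  refine (MLT.card_le_mul_of_fibres (fixSub C m) (domSub C hq2 m) eF heF).trans
    (Nat.mul_le_mul_right _ ?_)
  rw [Nat.card_eq_fintype_card (α := X), Fintype.card_subtype]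
  exact IsAddCyclic.card_nsmul_eq_zero_le (α := ZMod n) (show 0 < Nat.card (fibreData C).ι by omega)

/-- the differences under a generator, and the classes, are many -/
theorem exists_many (hq2 : q ≠ 2) (hr : r.Prime) (h11 : r % 12 = 11) (hrM : r ∣ M) {τ : GalQ}
    (hτ : Gen A q τ) {t : ℕ} (ht : Nat.card (fibreData C).ι = t + 1)
    (hg : genusFF Qb (FB (M * q)) = 2 * genusFF Qb (FB M) + t) (m : ℕ) :
    ∃ D : AddSubgroup (JZero (M * q)), D ≤ toricSub C hq2 m ∧
      (∀ y ∈ D, ∃ z ∈ tor (M * q), τ • z - z = y) ∧ (2 ^ m) ^ t ≤ (t + 1) * Nat.card D ∧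
      ∃ c : domSub C hq2 m →+ killed M m × killed M m,
        (∀ y : domSub C hq2 m, Fst A (y : JZero (M * q)) ((c y).1 : JZero M) ∧
          Fst A (TOR.wJ C y) ((c y).2 : JZero M)) ∧
        (2 ^ m) ^ (4 * genusFF Qb (FB M)) ≤ (t + 1) * Nat.card c.range := by
  classical
  set n := 2 ^ m
  set g0 := genusFF Qb (FB M)
  obtain ⟨hfinJ, hJ⟩ := finite_killed (M * q) m
  haveI := hfinJ
  obtain ⟨hfinM, hM⟩ := finite_killed M m
  haveI := hfinM
  let δ : killed (M * q) m →+ JZero (M * q) :=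
    AddMonoidHom.mk' (fun z => τ • (z : JZero (M * q)) - z) fun a b => by
      rw [AddSubgroup.coe_add, smul_add]
      abel
  have hrange : δ.range ≤ toricSub C hq2 m := by
    rintro _ ⟨z, rfl⟩
    obtain ⟨hf, h1⟩ := fst_inertia_sub C hq2 hτ.1 (killed_le_tor z.2)
    obtain ⟨-, h2⟩ := fst_inertia_sub C hq2 hτ.1 (wJ_mem_tor C (killed_le_tor z.2))
    rw [← TOR.wJ_smul, ← map_sub] at h2
    refine ⟨⟨sub_mem (smul_mem_tor τ (killed_le_tor z.2)) (killed_le_tor z.2), hf, h1, h2⟩, ?_⟩
    show n • (τ • (z : JZero (M * q)) - z) = 0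
    have hz : n • (z : JZero (M * q)) = 0 := z.2
    rw [nsmul_sub, ← show τ • (n • (z : JZero (M * q))) = n • τ • (z : JZero (M * q)) from
      map_nsmul (DistribSMul.toAddMonoidHom (JZero (M * q)) τ) _ _, hz, sub_zero]
    exact smul_zero (A := JZero (M * q)) τ
  haveI : Finite (fixSub C m) := Finite.of_injective
    (fun y : fixSub C m => (⟨y.1, ((mem_fixSub C).mp y.2).2⟩ : killed (M * q) m))
    fun y y' e => Subtype.ext (congrArg Subtype.val e :)
  have hkerF : ∀ z : δ.ker, ((z : killed (M * q) m) : JZero (M * q)) ∈ fixSub C m := fun z =>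
    ⟨gen_fixed_aux C hq2 hτ (killed_le_tor z.1.2) (sub_eq_zero.mp z.2), z.1.2⟩
  have e1 : Nat.card δ.ker ≤ Nat.card (fixSub C m) :=
    Nat.card_le_card_of_injective (fun z : δ.ker => (⟨_, hkerF z⟩ : fixSub C m))
      fun z z' e => Subtype.ext (Subtype.ext (congrArg Subtype.val e :))
  obtain ⟨c, hc, hcard⟩ := exists_classHom C hq2 m
  refine ⟨δ.range, hrange, ?_, ?_⟩
  · rintro _ ⟨z, rfl⟩
    exact ⟨z, killed_le_tor z.2, rfl⟩
  haveI : Finite (toricSub C hq2 m) :=
    Finite.of_injective _ (AddSubgroup.inclusion_injective (toricSub_le C hq2 m))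
  have hT := card_toric_le C hq2 m ht
  have hD : Nat.card δ.range ≤ Nat.card (toricSub C hq2 m) :=
    Nat.card_le_card_of_injective (AddSubgroup.inclusion hrange) (AddSubgroup.inclusion_injective hrange)
  have hcr : Nat.card c.range ≤ n ^ (4 * g0) := by
    refine (AddSubgroup.card_le_card_addGroup _).trans ?_
    rw [Nat.card_prod, hM, ← pow_add]
    exact le_of_eq (congrArg (n ^ ·) (by omega))
  have hF : Nat.card (fixSub C m) ≤
      (t + 1) * (Nat.card c.range * Nat.card (toricSub C hq2 m)) := by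
    have := card_fix_le C hq2 hr h11 hrM m
    rw [ht] at this
    exact this.trans (Nat.mul_le_mul_left _ hcard)
  have hmain : n ^ (4 * g0) * n ^ t * n ^ t ≤
      Nat.card δ.range * ((t + 1) * (Nat.card c.range * n ^ t)) := by
    calc n ^ (4 * g0) * n ^ t * n ^ t = Nat.card (killed (M * q) m) := by
          rw [hJ, hg, ← pow_add, ← pow_add]; congr 1; ring
      _ = Nat.card δ.range * Nat.card δ.ker := by
          rw [← AddSubgroup.index_ker, AddSubgroup.index_mul_card]
      _ ≤ _ := Nat.mul_le_mul_left _ (e1.trans (hF.trans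
          (Nat.mul_le_mul_left _ (Nat.mul_le_mul_left _ hT))))
  have hn : 0 < n := pow_pos two_pos m
  refine ⟨?_, c, hc, ?_⟩
  · refine Nat.le_of_mul_le_mul_left ?_ (Nat.mul_pos (pow_pos hn (4 * g0)) (pow_pos hn t))
    calc n ^ (4 * g0) * n ^ t * n ^ t
        ≤ Nat.card δ.range * ((t + 1) * (n ^ (4 * g0) * n ^ t)) := hmain.trans
          (Nat.mul_le_mul_left _ (Nat.mul_le_mul_left _ (Nat.mul_le_mul_right _ hcr)))
      _ = _ := by ring
  · refine Nat.le_of_mul_le_mul_left ?_ (Nat.mul_pos (pow_pos hn t) (pow_pos hn t))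
    calc n ^ t * n ^ t * n ^ (4 * g0) = n ^ (4 * g0) * n ^ t * n ^ t := by ring
      _ ≤ n ^ t * ((t + 1) * (Nat.card c.range * n ^ t)) :=
          hmain.trans (Nat.mul_le_mul_right _ (hD.trans hT))
      _ = _ := by ring

end FLTAgent.R2.Desc

end
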