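import Fermat.Agent.R2.DescentBasic
import Fermat.Agent.R2.DescentAbel

/-!
Area R2, parcel DESCENT: the calculus of the abelian classes at a place over `q`.
-/

set_option autoImplicit false
set_option linter.unusedSectionVars false
set_option linter.unusedVariables false
set_option linter.style.haveILetI false
set_option synthInstance.maxHeartbeats 400000

noncomputable section

open ModularCurve
open FLTAgent.Reduction (Qb Ctx)

namespace FLTAgent.R2.Desc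

local notation "GalQ" => AlgebraicClosure ℚ ≃ₐ[ℚ] AlgebraicClosure ℚ

theorem inertia_fix {d x : ℕ} [NeZero d] (hx : x.Prime) (hx2 : x ≠ 2) (hxd : ¬ x ∣ d)
    {B : ValuationSubring Qb} (hB : B.LiesOverPrime x) {σ : GalQ}
    (hσ : σ ∈ B.inertiaSubgroupIn ℚ) {a : JZero d} (ha : a ∈ tor d) : σ • a = a := by
  obtain ⟨m, hm⟩ := ha
  exact (Attach.galoisInputs d).inertia_trivial x hx hxd B hB σ hσ a
    ⟨2 ^ m, pow_pos two_pos m, not_dvd_two_pow hx hx2 m, hm⟩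

theorem eta_pow_sub {L : ℕ} [NeZero L] (l : Nat.Primes) (c : ℕ) (x y : JZero L) :
    (eta L l)^[c] (x - y) = (eta L l)^[c] x - (eta L l)^[c] y :=
  iterate_map_sub (eta L l) c x y

theorem eta_pow_add {L : ℕ} [NeZero L] (l : Nat.Primes) (c : ℕ) (x y : JZero L) :
    (eta L l)^[c] (x + y) = (eta L l)^[c] x + (eta L l)^[c] y :=
  iterate_map_add (eta L l) c x y

theorem eta_pow_zero {L : ℕ} [NeZero L] (l : Nat.Primes) (c : ℕ) :
    (eta L l)^[c] (0 : JZero L) = 0 :=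
  iterate_map_zero (eta L l) c

theorem eta_pow_neg {L : ℕ} [NeZero L] (l : Nat.Primes) (c : ℕ) (x : JZero L) :
    (eta L l)^[c] (-x) = -(eta L l)^[c] x :=
  iterate_map_neg (eta L l) c x

theorem eta_pow_pow {L : ℕ} [NeZero L] (l : Nat.Primes) (c c' : ℕ) (x : JZero L) :
    (eta L l)^[c] ((eta L l)^[c'] x) = (eta L l)^[c + c'] x :=
  (Function.iterate_add_apply _ c c' x).symm

theorem fst_mem_tor {M q : ℕ} [NeZero M] [NeZero q] {A : ValuationSubring Qb}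
    {y : JZero (M * q)} {a : JZero M} (h : Fst A y a) : a ∈ tor M := by
  obtain ⟨m, -, hm, -⟩ := h
  exact ⟨m, hm⟩

section Level

variable {M q : ℕ} [NeZero M] [NeZero q] {A : ValuationSubring Qb} (C : Ctx A M q)
include C

theorem fst_zero (hq2 : q ≠ 2) : Fst A (0 : JZero (M * q)) (0 : JZero M) := by
  have h := fst_alpha C hq2 (zero_mem (tor M))
  rwa [map_zero] at h

theorem fst_sub (hq2 : q ≠ 2) {y y' : JZero (M * q)} {a a' : JZero M} (h : Fst A y a)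
    (h' : Fst A y' a') : Fst A (y - y') (a - a') := by
  rw [sub_eq_add_neg, sub_eq_add_neg]
  exact fst_add C hq2 h (fst_neg C hq2 h')

theorem fst_nsmul (hq2 : q ≠ 2) {y : JZero (M * q)} {a : JZero M} (h : Fst A y a) (n : ℕ) :
    Fst A (n • y) (n • a) := by
  induction n with
  | zero => rw [zero_nsmul, zero_nsmul]; exact fst_zero C hq2
  | succ n ih => rw [succ_nsmul, succ_nsmul]; exact fst_add C hq2 ih h

theorem fst_eta (hq2 : q ≠ 2) {l : Nat.Primes} (hl : ¬ (l : ℕ) ∣ M * q) {y : JZero (M * q)}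
    {a : JZero M} (h : Fst A y a) : Fst A (eta (M * q) l y) (eta M l a) := by
  rw [eta_apply, eta_apply]
  exact fst_sub C hq2 (fst_hecke C hq2 l.2 hl h) (fst_nsmul C hq2 h _)

theorem fst_eta_pow (hq2 : q ≠ 2) {l : Nat.Primes} (hl : ¬ (l : ℕ) ∣ M * q) {y : JZero (M * q)}
    {a : JZero M} (h : Fst A y a) (c : ℕ) :
    Fst A ((eta (M * q) l)^[c] y) ((eta M l)^[c] a) := by
  induction c with
  | zero => exact h
  | succ c ih =>
    rw [Function.iterate_succ_apply', Function.iterate_succ_apply']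
    exact fst_eta C hq2 hl ih

theorem inDom_zero (hq2 : q ≠ 2) : InDom C 0 :=
  ⟨zero_mem _, fun σ _ => smul_zero (A := JZero (M * q)) σ, ⟨0, fst_zero C hq2⟩,
    ⟨0, by rw [map_zero]; exact fst_zero C hq2⟩⟩

theorem inDom_add (hq2 : q ≠ 2) {y y' : JZero (M * q)} (h : InDom C y) (h' : InDom C y') :
    InDom C (y + y') := by
  obtain ⟨hy, hf, ⟨a, ha⟩, b, hb⟩ := h
  obtain ⟨hy', hf', ⟨a', ha'⟩, b', hb'⟩ := h'
  refine ⟨add_mem hy hy', fun σ hσ => by rw [smul_add, hf σ hσ, hf' σ hσ],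
    ⟨_, fst_add C hq2 ha ha'⟩, b + b', ?_⟩
  rw [map_add]
  exact fst_add C hq2 hb hb'

theorem inDom_neg (hq2 : q ≠ 2) {y : JZero (M * q)} (h : InDom C y) : InDom C (-y) := by
  obtain ⟨hy, hf, ⟨a, ha⟩, b, hb⟩ := h
  refine ⟨neg_mem hy, fun σ hσ => by rw [smul_neg, hf σ hσ], ⟨_, fst_neg C hq2 ha⟩, -b, ?_⟩
  rw [map_neg]
  exact fst_neg C hq2 hb

theorem wJ_fixed {y : JZero (M * q)} (hf : ∀ σ ∈ A.inertiaSubgroupIn ℚ, σ • y = y) :
    ∀ σ ∈ A.inertiaSubgroupIn ℚ, σ • TOR.wJ C y = TOR.wJ C y :=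
  fun σ hσ => by rw [← TOR.wJ_smul, hf σ hσ]

theorem inDom_wJ {y : JZero (M * q)} (h : InDom C y) : InDom C (TOR.wJ C y) := by
  obtain ⟨hy, hf, ha, hb⟩ := h
  exact ⟨wJ_mem_tor C hy, wJ_fixed C hf, hb, by rw [TOR.wJ_wJ]; exact ha⟩

theorem inKer_inDom {y : JZero (M * q)} (h : InKer C y) : InDom C y :=
  ⟨h.1, h.2.1, ⟨0, h.2.2.1⟩, 0, h.2.2.2⟩

theorem inKer_sub' (hq2 : q ≠ 2) {y y' : JZero (M * q)} (h : InKer C y) (h' : InKer C y') :
    InKer C (y - y') := by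
  refine ⟨sub_mem h.1 h'.1, fun σ hσ => by rw [smul_sub, h.2.1 σ hσ, h'.2.1 σ hσ], ?_, ?_⟩
  · simpa only [sub_zero] using fst_sub C hq2 h.2.2.1 h'.2.2.1
  · rw [map_sub]
    simpa only [sub_zero] using fst_sub C hq2 h.2.2.2 h'.2.2.2

theorem eta_pow_fixed (l : Nat.Primes) {y : JZero (M * q)}
    (hf : ∀ σ ∈ A.inertiaSubgroupIn ℚ, σ • y = y) (c : ℕ) :
    ∀ σ ∈ A.inertiaSubgroupIn ℚ, σ • (eta (M * q) l)^[c] y = (eta (M * q) l)^[c] y :=
  fun σ hσ => by rw [← eta_pow_smul, hf σ hσ]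

theorem inKer_eta_pow (hq2 : q ≠ 2) {l : Nat.Primes} (hl : ¬ (l : ℕ) ∣ M * q) (hl2 : (l : ℕ) ≠ 2)
    {y : JZero (M * q)} (h : InKer C y) (c : ℕ) : InKer C ((eta (M * q) l)^[c] y) := by
  refine ⟨eta_pow_mem_tor l h.1 c, eta_pow_fixed C l h.2.1 c, ?_, ?_⟩
  · have e := fst_eta_pow C hq2 hl h.2.2.1 c
    rwa [eta_pow_zero] at e
  · rw [← wJ_eta_pow C hl hl2 h.1]
    have e := fst_eta_pow C hq2 hl h.2.2.2 c
    rwa [eta_pow_zero] at e

variable {d : ℕ} [NeZero d]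

theorem inDom_up (hq2 : q ≠ 2) (hd : d ∣ M) (hdq : d * q ∣ M * q) (C' : Ctx A d q)
    {y : JZero (d * q)} (h : InDom C' y) : InDom C (up hdq y) := by
  obtain ⟨hy, hf, ⟨a, ha⟩, b, hb⟩ := h
  refine ⟨up_mem_tor hdq hy, fun σ hσ => by rw [← up_smul, hf σ hσ],
    ⟨_, fst_up C hd hdq hq2 C' ha⟩, up hd b, ?_⟩
  rw [wJ_up C hd hdq C']
  exact fst_up C hd hdq hq2 C' hb

theorem inKer_up (hq2 : q ≠ 2) (hd : d ∣ M) (hdq : d * q ∣ M * q) (C' : Ctx A d q)
    {y : JZero (d * q)} (h : InKer C' y) : InKer C (up hdq y) := by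
  obtain ⟨hy, hf, ha, hb⟩ := h
  refine ⟨up_mem_tor hdq hy, fun σ hσ => by rw [← up_smul, hf σ hσ], ?_, ?_⟩
  · have e := fst_up C hd hdq hq2 C' ha
    rwa [map_zero] at e
  · rw [wJ_up C hd hdq C']
    have e := fst_up C hd hdq hq2 C' hb
    rwa [map_zero] at e

end Level

end FLTAgent.R2.Desc

end
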