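import Fermat.Agent.R2.DescentDom
import Fermat.Agent.R2.DescentOrd
import Fermat.Agent.MLT.SquareToric
import Fermat.Agent.LL.MazurToric

/-!
Area R2, parcel DESCENT, one level: two-power torsion classes at a place over `q`; toric classes are
those with trivial abelian classes, flat classes have abelian classes.
-/

set_option autoImplicit false
set_option linter.unusedSectionVars false
set_option linter.unusedVariables false
set_option linter.style.haveILetI false
set_option synthInstance.maxHeartbeats 400000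
set_option maxHeartbeats 1000000

noncomputable section

open ModularCurve AlgebraicCurve IsLocalRing
open FLTAgent.Reduction (Qb kA FB FS PB PS Ctx)
open FLTAgent.SS2 (galFn rationalFn)

namespace FLTAgent.R2.Desc

open FLTAgent.SS

local notation "GalQ" => AlgebraicClosure ℚ ≃ₐ[ℚ] AlgebraicClosure ℚ
variable {M q : ℕ} [NeZero M] [NeZero q] {A : ValuationSubring Qb}

local notation "DZ" => Divisor.degZero (K := Qb) (F := FB (M * q))

theorem not_dvd_pow_two (hq : q.Prime) (hq2 : q ≠ 2) (m : ℕ) : ¬ q ∣ 2 ^ m :=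
  not_dvd_two_pow hq hq2 m

variable (C : Ctx A M q)
include C

/-! ### toric classes -/

/-- a class with a toric representative has first class zero -/
theorem fst_zero_of_toric {m : ℕ} {y : JZero (M * q)} (hy : 2 ^ m • y = 0)
    (ht : (fibreData C).Toric (2 ^ m) y) : Fst A y 0 := by
  obtain ⟨E, ζ, rfl, -, R, hRE, -⟩ := ht
  have hm : ∀ P : PB (M * q), ((2 ^ m : ℕ) : ℤ) * (E : Divisor Qb (FB (M * q))) P =
      P.ord ((algebraMap Qb (FB (M * q)) (R.α false ^ 2 ^ m))⁻¹ * R.f) := fun P => by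
    rw [P.ord_mul (inv_ne_zero ((map_ne_zero _).mpr (pow_ne_zero _ (R.α_ne false)))) R.f_ne,
      P.ord_inv, RR.ord_algebraMap, neg_zero, zero_add, ← R.ord_f, hRE]
  have hmem : (algebraMap Qb (FB (M * q)) (R.α false ^ 2 ^ m))⁻¹ * R.f ∈ GS M q A false :=
    R.mem false
  have hred : redM M q A false ((algebraMap Qb (FB (M * q)) (R.α false ^ 2 ^ m))⁻¹ * R.f) =
      R.h false ^ 2 ^ m := R.red_eq false
  have hr := isRed_redM C hmem
  rw [hred] at hr
  refine ⟨m, hy, nsmul_zero _, R.h false ^ 2 ^ m,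
    ⟨E, _, rfl, hm, hr, pow_ne_zero _ (R.h_ne false)⟩, ?_⟩
  rw [map_zero]
  simpa only [one_mul] using
    (LL.Res.one (A := A) (M := M) (p := 2 ^ m)).mul_pow C one_ne_zero (R.h_ne false)

/-- inertia moves a class by a toric class -/
theorem fst_inertia_sub (hq2 : q ≠ 2) {σ : GalQ} (hσ : σ ∈ A.inertiaSubgroupIn ℚ)
    {y : JZero (M * q)} (hy : y ∈ tor (M * q)) :
    (∀ τ ∈ A.inertiaSubgroupIn ℚ, τ • (σ • y - y) = σ • y - y) ∧ Fst A (σ • y - y) 0 := by
  obtain ⟨m, hm⟩ := hy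
  have ht := MLT.toric_inertia_sub C (pow_ne_zero m two_ne_zero) hσ hm
  refine ⟨fun τ hτ => MLT.toric_fixed C (not_dvd_pow_two C.prime hq2 m) hτ ht,
    fst_zero_of_toric C (m := m) ?_ ht⟩
  rw [nsmul_sub, hm, sub_zero]
  exact (map_nsmul (DistribSMul.toAddMonoidHom (JZero (M * q)) σ) _ y).symm.trans
    (by rw [hm]; exact map_zero _)

/-- the classes are defined at the exponent of the class -/
theorem match_exact (hq2 : q ≠ 2) {m : ℕ} {y : JZero (M * q)} {a : JZero M} (hy : 2 ^ m • y = 0)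
    (h : Fst A y a) : 2 ^ m • a = 0 ∧ LL.Match A (2 ^ m) y a := by
  have ha : 2 ^ m • a = 0 := fst_unique C hq2 (fst_nsmul C hq2 h (2 ^ m))
    (by rw [hy]; exact fst_zero C hq2)
  refine ⟨ha, ?_⟩
  obtain ⟨j, -, -, hj⟩ := h
  obtain ⟨φN, hN, hrN⟩ := match_pow_le (le_max_left j m) hj
  haveI : NeZero (2 ^ m) := ⟨pow_ne_zero _ two_ne_zero⟩
  haveI : NeZero (2 ^ max j m) := ⟨pow_ne_zero _ two_ne_zero⟩
  obtain ⟨φ, hφ⟩ := LL.exists_resCls C hy
  refine ⟨φ, hφ, ?_⟩
  obtain ⟨e, he⟩ := Nat.exists_eq_add_of_le (le_max_right j m)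
  have hk : LL.ResCls A (2 ^ max j m) y (φ ^ 2 ^ e) := by
    rw [he, pow_add]
    obtain ⟨E, f, rfl, hf, hr, h0⟩ := hφ
    exact ⟨E, f ^ 2 ^ e, rfl, fun P => by rw [RR.ord_pow, ← hf]; push_cast; ring, hr.pow _,
      pow_ne_zero _ h0⟩
  obtain ⟨h', hh', e'⟩ := hN.samePow C hk
  obtain ⟨D, hD, hDo⟩ := hrN.mul_pow C hN.ne_zero hh'
  refine ⟨D, hD, fun Q => ?_⟩
  have h2 := hDo Q
  rw [← e', RR.ord_pow, he, pow_add] at h2
  push_cast at h2 ⊢
  refine mul_left_cancel₀ (pow_ne_zero e (two_ne_zero (α := ℤ))) ?_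
  linear_combination h2

/-- a class with trivial abelian classes is toric -/
theorem toric_of_inKer (hq2 : q ≠ 2) {m : ℕ} {y : JZero (M * q)} (hy : 2 ^ m • y = 0)
    (h1 : Fst A y 0) (h2 : Fst A (TOR.wJ C y) 0) : (fibreData C).Toric (2 ^ m) y := by
  haveI : NeZero (2 ^ m) := ⟨pow_ne_zero _ two_ne_zero⟩
  have key : ∀ {z : JZero (M * q)}, 2 ^ m • z = 0 → Fst A z 0 →
      ∃ h : FS A M, LL.ResCls A (2 ^ m) z (h ^ 2 ^ m) := by
    intro z hz hf
    obtain ⟨φ, hφ, hr⟩ := (match_exact C hq2 hz hf).2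
    rw [map_zero] at hr
    obtain ⟨h, rfl⟩ := hr.exists_pow C (pow_pos two_pos m) hφ.ne_zero
    exact ⟨h, hφ⟩
  obtain ⟨h, hh⟩ := key hy h1
  obtain ⟨h', hh'⟩ := key (show 2 ^ m • TOR.wJ C y = 0 by rw [← map_nsmul, hy, map_zero]) h2
  exact LL.toric_of_resCls C (pow_ne_zero m two_ne_zero) hh hh'

/-! ### the special fibre of level `M` -/

theorem finite_killed_red (hq2 : q ≠ 2) (k : ℕ) :
    Finite {z : JZeroC (kA A) M // 2 ^ k • z = 0} ∧
      Nat.card {z : JZeroC (kA A) M // 2 ^ k • z = 0} ≤ (2 ^ k) ^ (2 * genusFF Qb (FB M)) := by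
  induction k with
  | zero =>
    haveI : Subsingleton {z : JZeroC (kA A) M // 2 ^ 0 • z = 0} := ⟨fun a b => Subtype.ext (by
      have ha : (a.1 : JZeroC (kA A) M) = 0 :=
        (one_nsmul a.1).symm.trans (show (1 : ℕ) • a.1 = 0 from a.2)
      have hb : (b.1 : JZeroC (kA A) M) = 0 :=
        (one_nsmul b.1).symm.trans (show (1 : ℕ) • b.1 = 0 from b.2)
      rw [ha, hb])⟩
    refine ⟨inferInstance, ?_⟩
    rw [pow_zero, one_pow]
    exact Finite.card_le_one_iff_subsingleton.mpr inferInstance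
  | succ k ih =>
    obtain ⟨hfin, hcard⟩ := ih
    obtain ⟨hfin1, hcard1⟩ := MLT.finite_card_killed_red C Nat.prime_two hq2
    haveI := hfin
    haveI := hfin1
    classical
    let S := {z : JZeroC (kA A) M // 2 ^ (k + 1) • z = 0}
    let f : S → {z : JZeroC (kA A) M // 2 ^ k • z = 0} := fun z =>
      ⟨2 • z.1, by rw [← mul_nsmul', ← pow_succ, z.2]⟩
    let pick : {z : JZeroC (kA A) M // 2 ^ k • z = 0} → JZeroC (kA A) M := fun w =>
      if h : ∃ z : S, f z = w then h.choose.1 else 0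
    let g : S → {z : JZeroC (kA A) M // 2 ^ k • z = 0} × {z : JZeroC (kA A) M // 2 • z = 0} :=
      fun z => (f z, ⟨z.1 - pick (f z), by
        have h : ∃ z' : S, f z' = f z := ⟨z, rfl⟩
        show 2 • (z.1 - pick (f z)) = 0
        rw [show pick (f z) = h.choose.1 from dif_pos h, nsmul_sub, sub_eq_zero]
        exact (congrArg Subtype.val h.choose_spec).symm⟩)
    have hg : Function.Injective g := fun a b e => by
      simp only [g, Prod.mk.injEq, Subtype.mk.injEq] at e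
      obtain ⟨e1, e2⟩ := e
      rw [e1] at e2
      exact Subtype.ext (sub_left_inj.mp e2)
    refine ⟨Finite.of_injective g hg, (Nat.card_le_card_of_injective g hg).trans ?_⟩
    rw [Nat.card_prod, pow_succ, mul_pow]
    exact Nat.mul_le_mul hcard hcard1

/-- reduction is onto on two-power torsion -/
theorem exists_lift_red (hq2 : q ≠ 2) {m : ℕ} {z : JZeroC (kA A) M} (hz : 2 ^ m • z = 0) :
    ∃ x : JZero M, 2 ^ m • x = 0 ∧ reductionModL A M x = z := by
  obtain ⟨hfin, hcard⟩ := finite_killed_red C hq2 m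
  haveI := hfin
  obtain ⟨hfinJ, hcardJ⟩ := MLT.finite_card_killed M (n := 2 ^ m) (pow_pos two_pos m)
  haveI := hfinJ
  let r : {x : JZero M // 2 ^ m • x = 0} → {z : JZeroC (kA A) M // 2 ^ m • z = 0} := fun x =>
    ⟨reductionModL A M x, by rw [← map_nsmul, x.2, map_zero]⟩
  have hr : Function.Injective r := fun a b e => Subtype.ext (sub_eq_zero.mp
    (Reduction.eq_zero_of_torsion C (not_dvd_pow_two C.prime hq2 m)
      (by rw [nsmul_sub, a.2, b.2, sub_zero])
      (by rw [map_sub, sub_eq_zero]; exact congrArg Subtype.val e)))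
  obtain ⟨x, hx⟩ := ((Nat.bijective_iff_injective_and_card r).mpr
    ⟨hr, le_antisymm (Nat.card_le_card_of_injective r hr) (hcardJ ▸ hcard)⟩).2 ⟨z, hz⟩
  exact ⟨x.1, x.2, congrArg Subtype.val hx⟩

/-! ### flat classes -/

/-- `T_l - 1 - l` makes an inertia fixed class flat -/
theorem flat_hecke_gen {n : ℕ} (hn : 0 < n) {l : ℕ} [NeZero l] (hl : l.Prime) (hlN : ¬ l ∣ M * q)
    {y : JZero (M * q)} (hy : n • y = 0) (hfix : ∀ σ ∈ A.inertiaSubgroupIn ℚ, σ • y = y) :
    LL.Flat A n (heckeOperatorBar (M * q) ⟨l, hl⟩ y - (l + 1) • y) := by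
  classical
  haveI : NeZero n := ⟨hn.ne'⟩
  obtain ⟨R, rfl⟩ := SS2.exists_ratClass (A := A) (n := n) y hy hfix
  set E : DZ := ⟨R.D, R.degree_D⟩
  obtain ⟨E', hE', hord'⟩ := LL.exists_div_normBeta hl R.f_ne E R.ord_f
  have hn0 : Reduction.normBeta (M * q) l R.f ≠ 0 := by
    rw [LL.normBeta_eq]
    exact SS2.normAlong_ne_zero _ ((_root_.map_ne_zero _).mpr R.f_ne)
  have hfp := pow_ne_zero (l + 1) R.f_ne
  refine ⟨E' - (l + 1) • E, Reduction.normBeta (M * q) l R.f / R.f ^ (l + 1), ?_, fun P => ?_, ?_,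
    fun b => ?_⟩
  · show (QuotientAddGroup.mk' _) (E' - (l + 1) • E) = _
    rw [map_sub, map_nsmul]
    exact congrArg (· - _) hE'
  · rw [div_eq_mul_inv, P.ord_mul hn0 (inv_ne_zero hfp), P.ord_inv, RR.ord_pow, ← hord' P,
      ← R.ord_f P, AddSubgroup.coe_sub, Finsupp.sub_apply, AddSubgroup.coe_nsmul,
      Finsupp.smul_apply, nsmul_eq_mul]
    push_cast
    ring
  · have hr : R.f ∈ rationalFn A (M * q) := fun σ hσ => R.f_fixed σ (R.inertia σ hσ)
    exact div_mem (LL.normBeta_rational (M * q) l hr) (pow_mem hr _)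
  · obtain ⟨c, hc, hu, hur⟩ := (fibreCore C).exists_scale b R.f R.f_ne
    set x := algebraMap Qb (FB (M * q)) c * R.f
    have e : Reduction.normBeta (M * q) l R.f / R.f ^ (l + 1) =
        Reduction.normBeta (M * q) l x * (x ^ (l + 1))⁻¹ := by
      rw [LL.normBeta_mul, LL.normBeta_const hl hlN, mul_pow, mul_inv]
      have := (_root_.map_ne_zero (algebraMap Qb (FB (M * q)))).mpr hc
      field_simp
    obtain ⟨h1, h1'⟩ := LL.unit_normBeta C hl hlN hu hur
    have hxp := pow_mem hu (l + 1)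
    obtain ⟨h2, h2'⟩ := (fibreCore C).inv_mem b hxp
      (by rw [(fibreCore C).red_pow b hu]; exact pow_ne_zero _ hur)
    refine ⟨e ▸ mul_mem h1 h2, ?_⟩
    show (fibreCore C).red b _ ≠ 0
    rw [e, (fibreCore C).red_mul b _ h1 _ h2, h2', (fibreCore C).red_pow b hu]
    exact mul_ne_zero h1' (inv_ne_zero (pow_ne_zero _ hur))

/-- off the double points -/
theorem dvd_ord_off {n : ℕ} (hn : 0 < n) (E : DZ) {f : FB (M * q)} (hf : f ≠ 0)
    (hord : ∀ P : PB (M * q), (n : ℤ) * (E : Divisor Qb (FB (M * q))) P = P.ord f)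
    {φ : FS A M} (hφ : IsRed A false f φ) (hφ0 : φ ≠ 0) {Q : PS A M}
    (hQ : ∀ s, (fibreData C).pt false s ≠ Q) : (n : ℤ) ∣ Q.ord φ := by
  rcases Nat.lt_or_ge 1 n with h1 | h1
  · exact dvd_ord_off_double_gen C h1 E hf hord hφ hφ0 hQ
  · obtain rfl : n = 1 := by omega
    simp

variable {r : ℕ}

/-- a flat class has a class on the component of `∞` -/
theorem flat_fst (hq2 : q ≠ 2) (hr : r.Prime) (h11 : r % 12 = 11) (hrM : r ∣ M) {m : ℕ}
    {y : JZero (M * q)} (hy : 2 ^ m • y = 0) (hflat : LL.Flat A (2 ^ m) y) : ∃ a, Fst A y a := by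
  obtain ⟨E, f, rfl, hord, hrat, hu⟩ := hflat
  have hf : f ≠ 0 := (isRed_redM C (hu false).1).ne_zero (hu false).2
  have hdvd : ∀ Q : PS A M, ((2 ^ m : ℕ) : ℤ) ∣ Q.ord (redM M q A false f) := fun Q => by
    by_cases hs : ∃ s, (fibreData C).pt false s = Q
    · obtain ⟨s, rfl⟩ := hs
      exact LL.dvd_ord_double C (pow_pos two_pos m) hr h11 hrM s hf hord hrat (fun b => (hu b).1)
        (fun b => (hu b).2) false
    · exact dvd_ord_off C (pow_pos two_pos m) E hf hord (isRed_redM C (hu false).1) (hu false).2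
        (not_exists.mp hs)
  obtain ⟨z, hz⟩ := LL.exists_res C (pow_pos two_pos m) (hu false).2 hdvd
  obtain ⟨a, ha, rfl⟩ := exists_lift_red C hq2 (hz.nsmul_eq_zero C (hu false).2)
  exact ⟨a, m, hy, ha, _, ⟨E, f, rfl, hord, isRed_redM C (hu false).1, (hu false).2⟩, hz⟩

/-- a fixed flat class has both classes -/
theorem inDom_of_flat (hq2 : q ≠ 2) (hr : r.Prime) (h11 : r % 12 = 11) (hrM : r ∣ M) {m : ℕ}
    {y : JZero (M * q)} (hy : 2 ^ m • y = 0) (hfix : ∀ σ ∈ A.inertiaSubgroupIn ℚ, σ • y = y)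
    (hflat : LL.Flat A (2 ^ m) y) : InDom C y :=
  ⟨⟨m, hy⟩, hfix, flat_fst C hq2 hr h11 hrM hy hflat,
    flat_fst C hq2 hr h11 hrM (by rw [← map_nsmul, hy, map_zero]) (hflat.wJ C)⟩

end FLTAgent.R2.Desc

end
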