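import Fermat.Agent.R2.DescentFlat
import Fermat.Agent.EIS.Tame

/-!
Area R2, parcel DESCENT, one level: an element of inertia moving `√q` fixes only the classes fixed
by all of inertia.
-/

set_option autoImplicit false
set_option linter.unusedSectionVars false
set_option linter.unusedVariables false
set_option linter.style.haveILetI false
set_option synthInstance.maxHeartbeats 400000
set_option maxHeartbeats 1000000

noncomputable section

open ModularCurve
open FLTAgent.Reduction (Qb Ctx)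

namespace FLTAgent.R2.Desc

local notation "GalQ" => AlgebraicClosure ℚ ≃ₐ[ℚ] AlgebraicClosure ℚ

/-- an element of inertia generating the two-part of tame inertia -/
def Gen (A : ValuationSubring Qb) (q : ℕ) (τ : Qb ≃ₐ[ℚ] Qb) : Prop :=
  τ ∈ A.inertiaSubgroupIn ℚ ∧ ∀ u : Qb, u * u = (q : Qb) → τ u ≠ u

variable {M q : ℕ} [NeZero M] [NeZero q] {A : ValuationSubring Qb} (C : Ctx A M q)
include C

theorem exists_gen_aux : ∃ τ, Gen A q τ := by
  obtain ⟨u, hu⟩ := IsAlgClosed.exists_pow_nat_eq (q : Qb) (n := 2) two_pos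
  rw [sq] at hu
  have hu0 : u ≠ 0 := fun e => C.prime.ne_zero (by exact_mod_cast (show (q : Qb) = 0 by
    rw [← hu, e, mul_zero]))
  obtain ⟨τ, hτ, hmove⟩ : ∃ τ ∈ A.inertiaSubgroupIn ℚ, τ u ≠ u := by
    by_contra hno
    push Not at hno
    obtain ⟨i, hi⟩ := SS2.exists_zpow_valuation_T C.prime C.lies (SS2.mem_inertiaFixed.mpr hno) hu0
    have hw : A.valuation (q : Qb) ≠ 0 :=
      (Valuation.ne_zero_iff _).mpr (Nat.cast_ne_zero.mpr C.prime.ne_zero)
    have h : A.valuation (q : Qb) ^ (1 : ℤ) = A.valuation (q : Qb) ^ (i + i) := by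
      rw [zpow_one, zpow_add₀ hw, ← hi, ← map_mul, hu]
    have := (zpow_right_inj₀ (zero_lt_iff.mpr hw) (ne_of_lt C.lies)).mp h
    omega
  refine ⟨τ, hτ, fun v hv => ?_⟩
  rcases mul_self_eq_mul_self_iff.mp (hv.trans hu.symm) with rfl | rfl
  · exact hmove
  · rw [map_neg]
    exact fun e => hmove (neg_injective e)

theorem gen_fixed_aux (hq2 : q ≠ 2) {τ : GalQ} (hτ : Gen A q τ) {y : JZero (M * q)}
    (hy : y ∈ tor (M * q)) (hfix : τ • y = y) :
    ∀ ρ ∈ A.inertiaSubgroupIn ℚ, ρ • y = y := by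
  classical
  obtain ⟨m, hm⟩ := hy
  haveI := FLTAgent.Common.isAlgebraic_qbar
  haveI := FLTAgent.Common.isGalois_qbar
  haveI : NeZero (2 ^ m) := ⟨pow_ne_zero _ two_ne_zero⟩
  have hqm : ¬ q ∣ 2 ^ m := not_dvd_pow_two C.prime hq2 m
  obtain ⟨u, hu⟩ := IsAlgClosed.exists_pow_nat_eq (q : Qb) (n := 2) two_pos
  rw [sq] at hu
  obtain ⟨hfin, -⟩ := MLT.finite_card_killed (M * q) (n := 2 ^ m) (pow_pos two_pos m)
  haveI := hfin
  have hsign : ∀ g : GalQ, g u = u ∨ g u = -u := fun g =>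
    mul_self_eq_mul_self_iff.mp (by rw [← map_mul, hu, map_natCast])
  let N : Subgroup GalQ :=
    { carrier := {g | (∀ z : JZero (M * q), 2 ^ m • z = 0 → g • z = z) ∧ g u = u}
      one_mem' := ⟨fun z _ => one_smul _ z, rfl⟩
      mul_mem' := fun {a b} ha hb => ⟨fun z hz => by rw [mul_smul, hb.1 z hz, ha.1 z hz],
        by rw [AlgEquiv.mul_apply, hb.2, ha.2]⟩
      inv_mem' := fun {a} ha => ⟨fun z hz => by
        conv_lhs => rw [← ha.1 z hz]
        rw [inv_smul_smul], by
        conv_lhs => rw [← ha.2]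
        rw [← AlgEquiv.mul_apply, inv_mul_cancel, AlgEquiv.one_apply]⟩ }
  choose Lz hLz hLzf using fun z : {z : JZero (M * q) // 2 ^ m • z = 0} =>
    HeckeJ.exists_level (M * q) z.1
  haveI := hLz
  haveI : FiniteDimensional ℚ (⨆ z, Lz z : IntermediateField ℚ Qb) :=
    IntermediateField.finiteDimensional_iSup_of_finite
  let L₂ : IntermediateField ℚ Qb := IntermediateField.adjoin ℚ {u}
  haveI : FiniteDimensional ℚ L₂ :=
    IntermediateField.adjoin.finiteDimensional (Algebra.IsIntegral.isIntegral u)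
  let E : IntermediateField ℚ Qb := (⨆ z, Lz z) ⊔ L₂
  have hEle : E.fixingSubgroup ≤ N := by
    intro g hg
    have hf : ∀ K : IntermediateField ℚ Qb, K ≤ E → ∀ x ∈ K, g x = x :=
      fun K hK x hx => (IntermediateField.mem_fixingSubgroup_iff _ _).1 hg x (hK hx)
    exact ⟨fun z hz => hLzf ⟨z, hz⟩ g (hf _ ((le_iSup Lz ⟨z, hz⟩).trans le_sup_left)),
      hf L₂ le_sup_right u (IntermediateField.subset_adjoin _ _ rfl)⟩
  have hNn : N.Normal := ⟨fun a ha g => ⟨fun z hz => by
    rw [mul_smul, mul_smul, ha.1 (g⁻¹ • z) (by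
      rw [← show g⁻¹ • (2 ^ m • z) = 2 ^ m • g⁻¹ • z from
        map_nsmul (DistribSMul.toAddMonoidHom (JZero (M * q)) g⁻¹) _ z, hz]
      exact smul_zero (A := JZero (M * q)) g⁻¹), smul_inv_smul], by
    rw [AlgEquiv.mul_apply, AlgEquiv.mul_apply,
      show a (g⁻¹ u) = g⁻¹ u by rcases hsign g⁻¹ with h | h <;> rw [h]
                                · exact ha.2
                                · rw [map_neg, ha.2],
      ← AlgEquiv.mul_apply, mul_inv_cancel, AlgEquiv.one_apply]⟩⟩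
  have hopen : IsOpen (N : Set GalQ) :=
    Subgroup.isOpen_mono hEle (IntermediateField.fixingSubgroup_isOpen E)
  let Nc : ClosedSubgroup GalQ := ⟨N, Subgroup.isClosed_of_isOpen _ hopen⟩
  let L := IntermediateField.fixedField N
  have hLfix : L.fixingSubgroup = N := InfiniteGalois.fixingSubgroup_fixedField Nc
  haveI : FiniteDimensional ℚ L :=
    (InfiniteGalois.isOpen_iff_finite L).mp (by rw [hLfix]; exact hopen)
  have hfixN : ∀ g ∈ N, ∀ x ∈ L, g x = x := fun g hg =>
    (IntermediateField.mem_fixingSubgroup_iff _ _).1 (hLfix.symm ▸ hg)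
  have hmemN : ∀ g, (∀ x ∈ L, g x = x) → g ∈ N := fun g hg =>
    hLfix ▸ (IntermediateField.mem_fixingSubgroup_iff _ _).2 hg
  have hL : ∀ g : GalQ, ∀ x ∈ L, g x ∈ L := by
    intro g x hx
    rw [IntermediateField.mem_fixedField_iff] at hx ⊢
    intro s hs
    have := hx _ (by simpa using hNn.conj_mem s hs g⁻¹ : g⁻¹ * s * g ∈ N)
    rw [AlgEquiv.mul_apply, AlgEquiv.mul_apply] at this
    have e := congrArg g this
    rwa [← AlgEquiv.mul_apply g g⁻¹, mul_inv_cancel, AlgEquiv.one_apply] at e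
  have hζ : ∀ x : Qb, x ^ 2 = 1 → x ∈ L := by
    intro x hx
    rcases sq_eq_one_iff.mp hx with rfl | rfl
    · exact one_mem L
    · exact neg_mem (one_mem L)
  have hlin : ∀ g ∈ A.inertiaSubgroupIn ℚ, ∀ z : JZero (M * q), 2 ^ m • z = 0 →
      ∀ n : ℕ, g ^ n • z = z + n • (g • z - z) := by
    intro g hg z hz n
    induction n with
    | zero => rw [pow_zero, one_smul, zero_nsmul, add_zero]
    | succ n ih =>
      rw [pow_succ', mul_smul, ih, smul_add, show g • (n • (g • z - z)) = n • g • (g • z - z) from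
        map_nsmul (DistribSMul.toAddMonoidHom (JZero (M * q)) g) n _,
        MLT.toric_fixed C hqm hg (MLT.toric_inertia_sub C (pow_ne_zero m two_ne_zero) hg hz),
        succ_nsmul', ← add_assoc, add_sub_cancel]
  have heven : ∀ (g : GalQ) (k : ℕ), (g ^ (2 * k)) u = u := by
    intro g k
    induction k with
    | zero => rfl
    | succ k ih =>
      rw [mul_add, mul_one, pow_add, AlgEquiv.mul_apply, sq, AlgEquiv.mul_apply]
      rcases hsign g with h | h
      · rw [h, h, ih]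
      · rw [h, map_neg, h, neg_neg, ih]
  have hk : ∀ g ∈ A.inertiaSubgroupIn ℚ, ∀ x ∈ L, (g ^ (2 ^ (m + 1))) x = x := by
    intro g hg
    refine hfixN _ ⟨fun z hz => ?_, by rw [pow_succ']; exact heven g _⟩
    rw [hlin g hg z hz, pow_succ', mul_nsmul', nsmul_sub, hz,
      show 2 ^ m • g • z = 0 by
        rw [← show g • (2 ^ m • z) = 2 ^ m • g • z from
          map_nsmul (DistribSMul.toAddMonoidHom (JZero (M * q)) g) _ z, hz]
        exact smul_zero (A := JZero (M * q)) g,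
      sub_zero, nsmul_zero, add_zero]
  obtain ⟨σ, hσ, hgen, -⟩ := EIS.exists_tame_generator (k := m + 1) C.prime C.lies Nat.prime_two
    (Ne.symm hq2) L hL hζ hk
  have hσpow : ∀ g ∈ A.inertiaSubgroupIn ℚ, ∃ j : ℕ, g u = (σ ^ j) u ∧
      ∀ z : JZero (M * q), 2 ^ m • z = 0 → g • z = σ ^ j • z := by
    intro g hg
    obtain ⟨j, hj⟩ := hgen g hg
    have hmem : (σ ^ j)⁻¹ * g ∈ N := hmemN _ fun x hx => by
      rw [AlgEquiv.mul_apply, hj x hx]
      exact (σ ^ j).symm_apply_apply x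
    refine ⟨j, ?_, fun z hz => ?_⟩
    · have h := congrArg (σ ^ j) hmem.2
      rwa [← AlgEquiv.mul_apply, mul_inv_cancel_left] at h
    · have h := hmem.1 z hz
      rwa [mul_smul, inv_smul_eq_iff] at h
  obtain ⟨j, hju, hjz⟩ := hσpow τ hτ.1
  obtain ⟨t, ht⟩ : Odd j := by
    rw [← Nat.not_even_iff_odd]
    rintro ⟨i, rfl⟩
    exact hτ.2 u hu (by rw [hju, ← two_mul]; exact heven σ i)
  set w := σ • y - y with hw
  have hw0 : w = 0 := by
    have h1 := hjz y hm
    rw [hfix, hlin σ hσ y hm j] at h1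
    have h2 : j • w = 0 := add_left_cancel (a := y) (h1.symm.trans (add_zero y).symm)
    have h3 : 2 ^ m • w = 0 := by
      rw [hw, nsmul_sub, hm, ← show σ • (2 ^ m • y) = 2 ^ m • σ • y from
        map_nsmul (DistribSMul.toAddMonoidHom (JZero (M * q)) σ) _ y, hm, sub_zero]
      exact smul_zero (A := JZero (M * q)) σ
    have h4 : addOrderOf w ∣ Nat.gcd j (2 ^ m) := Nat.dvd_gcd
      (addOrderOf_dvd_iff_nsmul_eq_zero.mpr h2) (addOrderOf_dvd_iff_nsmul_eq_zero.mpr h3)
    rw [show Nat.gcd j (2 ^ m) = 1 from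
      Nat.Coprime.pow_right m (Nat.coprime_two_right.mpr ⟨t, ht⟩), Nat.dvd_one,
      AddMonoid.addOrderOf_eq_one_iff] at h4
    exact h4
  intro ρ hρ
  obtain ⟨i, -, hiz⟩ := hσpow ρ hρ
  rw [hiz y hm, hlin σ hσ y hm i, ← hw, hw0, nsmul_zero, add_zero]

end FLTAgent.R2.Desc

end
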