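import Fermat.Agent.R2.DescentCount
import Fermat.Agent.MLT.SquareToric

/-!
Area R2, parcel DESCENT, one level: the torsion classes at a place over `q`, by counting.
For `τ` in inertia moving `√q`, the monodromy `y ↦ τ y - y` maps onto the kernel of the two abelian
classes; these classes are arbitrary.
-/

set_option autoImplicit false
set_option linter.unusedSectionVars false
set_option linter.unusedVariables false
set_option linter.style.haveILetI false
set_option synthInstance.maxHeartbeats 400000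
set_option maxHeartbeats 1000000

noncomputable section

open ModularCurve AlgebraicCurve
open FLTAgent.Reduction (Qb FB Ctx)

namespace FLTAgent.R2.Desc

variable {M q : ℕ} [NeZero M] [NeZero q] {A : ValuationSubring Qb} (C : Ctx A M q)
include C

/-- inertia moves a class by one with trivial abelian classes -/
theorem inKer_sub {r : ℕ} (hr : r.Prime) (h11 : r % 12 = 11) (hrM : r ∣ M) (hq2 : q ≠ 2)
    {σ : Qb ≃ₐ[ℚ] Qb} (hσ : σ ∈ A.inertiaSubgroupIn ℚ) {y : JZero (M * q)}
    (hy : y ∈ tor (M * q)) : InKer C (σ • y - y) := by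
  obtain ⟨hf, h1⟩ := fst_inertia_sub C hq2 hσ hy
  obtain ⟨-, h2⟩ := fst_inertia_sub C hq2 hσ (wJ_mem_tor C hy)
  rw [← TOR.wJ_smul, ← map_sub] at h2
  exact ⟨sub_mem (smul_mem_tor σ hy) hy, hf, h1, h2⟩

/-- a fixed class, moved by `eta`, has abelian classes -/
theorem inDom_eta {r : ℕ} (hr : r.Prime) (h11 : r % 12 = 11) (hrM : r ∣ M) (hq2 : q ≠ 2)
    (l : Nat.Primes) (hl : ¬ (l : ℕ) ∣ M * q) {y : JZero (M * q)} (hy : y ∈ tor (M * q))
    (hfix : ∀ σ ∈ A.inertiaSubgroupIn ℚ, σ • y = y) : InDom C (eta (M * q) l y) := by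
  obtain ⟨m, hm⟩ := hy
  haveI : NeZero (l : ℕ) := ⟨l.2.ne_zero⟩
  refine inDom_of_flat C hq2 hr h11 hrM (m := m) ?_ (fun σ hσ => ?_) ?_
  · rw [← map_nsmul, hm, map_zero]
  · rw [← eta_smul, hfix σ hσ]
  · rw [eta_apply]
    exact flat_hecke_gen C (pow_pos two_pos m) l.2 hl hm hfix

/-- Frobenius after the Atkin–Lehner involution on classes with trivial abelian classes -/
theorem frobenius_inKer {r : ℕ} (hr : r.Prime) (h11 : r % 12 = 11) (hrM : r ∣ M) (hq2 : q ≠ 2)
    {σ : Qb ≃ₐ[ℚ] Qb} (hσ : A.IsFrobeniusAt σ q) {y : JZero (M * q)} (hy : InKer C y) :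
    σ • TOR.wJ C y = -(q • y) := by
  obtain ⟨⟨m, hm⟩, -, h1, h2⟩ := hy
  exact LL.frobenius_atkin_toric C (not_dvd_pow_two C.prime hq2 m) hσ
    (toric_of_inKer C hq2 hm h1 h2)

/-- there is an element of inertia moving the square roots of `q` -/
theorem exists_gen (hq2 : q ≠ 2) : ∃ τ, Gen A q τ :=
  exists_gen_aux C

/-- such an element has the fixed classes of all of inertia -/
theorem gen_fixed {r : ℕ} (hr : r.Prime) (h11 : r % 12 = 11) (hrM : r ∣ M) (hq2 : q ≠ 2)
    {τ : Qb ≃ₐ[ℚ] Qb} (hτ : Gen A q τ) {y : JZero (M * q)} (hy : y ∈ tor (M * q))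
    (hfix : τ • y = y) : ∀ σ ∈ A.inertiaSubgroupIn ℚ, σ • y = y :=
  gen_fixed_aux C hq2 hτ hy hfix

omit C in
theorem pow_mul_add_le (s k : ℕ) : s ^ k * (s + k) ≤ s * (s + 1) ^ k := by
  induction k with
  | zero => simp
  | succ k ih =>
    calc s ^ (k + 1) * (s + (k + 1)) ≤ (s + 1) * (s ^ k * (s + k)) := by
          rw [pow_succ]
          nlinarith [Nat.zero_le (s ^ k * k)]
      _ ≤ (s + 1) * (s * (s + 1) ^ k) := Nat.mul_le_mul_left _ ih
      _ = _ := by ring

omit C in
theorem le_of_pow_le_mul_pow {s T c : ℕ} (hs : 0 < s) (h : ∀ k, T ^ k ≤ c * s ^ k) : T ≤ s := by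
  by_contra hlt
  have h1 : (s + 1) ^ (c * s) ≤ c * s ^ (c * s) :=
    (Nat.pow_le_pow_left (by omega) _).trans (h _)
  have h2 := (pow_mul_add_le s (c * s)).trans (Nat.mul_le_mul_left s h1)
  have h3 : 0 < s ^ (c * s) := pow_pos hs _
  nlinarith [Nat.mul_pos h3 hs]

/-- its differences exhaust the classes with trivial abelian classes -/
theorem gen_surj {r : ℕ} (hr : r.Prime) (h11 : r % 12 = 11) (hrM : r ∣ M) (hq2 : q ≠ 2)
    {τ : Qb ≃ₐ[ℚ] Qb} (hτ : Gen A q τ) {y : JZero (M * q)} (hy : InKer C y) :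
    ∃ z ∈ tor (M * q), τ • z - z = y := by
  classical
  obtain ⟨t, ht, hg⟩ := exists_genus C hr h11 hrM
  let δ : tor (M * q) →+ JZero (M * q) :=
    AddMonoidHom.mk' (fun z => τ • (z : JZero (M * q)) - z) fun a b => by
      rw [AddSubgroup.coe_add, smul_add]
      abel
  let S : ℕ → AddSubgroup (JZero (M * q)) := fun k => δ.range ⊓ killed (M * q) k
  have hle : ∀ k, S k ≤ toricSub C hq2 k := by
    rintro k _ ⟨⟨z, rfl⟩, hk⟩
    exact ⟨inKer_sub C hr h11 hrM hq2 hτ.1 z.2, hk⟩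
  have hfin : ∀ k, Finite (S k) := fun k => by
    haveI := (finite_killed (M * q) k).1
    exact Finite.of_injective _
      (AddSubgroup.inclusion_injective (inf_le_right : S k ≤ killed (M * q) k))
  have hstep : ∀ k, Nat.card (S (k + 1)) = Nat.card (S k) * Nat.card (S 1) := fun k => by
    let f : S (k + 1) →+ S k := AddMonoidHom.mk'
      (fun x => ⟨2 • (x : JZero (M * q)), AddSubgroup.nsmul_mem _ x.2.1 2, by
        show 2 ^ k • (2 • (x : JZero (M * q))) = 0
        rw [← mul_nsmul', ← pow_succ]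
        exact x.2.2⟩)
      fun a b => Subtype.ext (nsmul_add _ _ 2)
    have hf : Function.Surjective f := by
      rintro ⟨_, ⟨z, rfl⟩, hk⟩
      obtain ⟨z', hz'⟩ := AJ.exists_nsmul_eq 2 two_pos (z : JZero (M * q))
      obtain ⟨m, hm⟩ := z.2
      have hz't : z' ∈ tor (M * q) := ⟨m + 1, by rw [pow_succ, mul_nsmul', hz']; exact hm⟩
      have h2 : 2 • (τ • z' - z') = δ z := by
        rw [nsmul_sub, ← show τ • (2 • z') = 2 • τ • z' from
          map_nsmul (DistribSMul.toAddMonoidHom (JZero (M * q)) τ) _ _, hz']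
        rfl
      refine ⟨⟨τ • z' - z', ⟨⟨z', hz't⟩, rfl⟩, ?_⟩, Subtype.ext h2⟩
      show 2 ^ (k + 1) • (τ • z' - z') = 0
      rw [pow_succ, mul_nsmul', h2]
      exact hk
    have hker : Nat.card f.ker = Nat.card (S 1) := by
      refine Nat.card_congr
        { toFun := fun x => ⟨x.1.1, x.1.2.1, by
            refine (mem_killed (N := M * q) (m := 1)).mpr ?_
            exact congrArg Subtype.val (x.2 : f x.1 = 0)⟩
          invFun := fun x => ⟨⟨x.1, x.2.1, by
            refine (mem_killed (N := M * q) (m := k + 1)).mpr ?_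
            have hx : 2 ^ 1 • (x : JZero (M * q)) = 0 := x.2.2
            rw [pow_succ, mul_nsmul', show 2 • (x : JZero (M * q)) = 0 from hx]
            exact nsmul_zero _⟩, Subtype.ext (show 2 • (x : JZero (M * q)) = 0 from x.2.2)⟩
          left_inv := fun _ => rfl
          right_inv := fun _ => rfl }
    rw [← hker, ← AddSubgroup.index_mul_card f.ker, AddSubgroup.index_ker,
      AddMonoidHom.range_eq_top.mpr hf, Nat.card_congr AddSubgroup.topEquiv.toEquiv]
  have hS : ∀ k, Nat.card (S k) = Nat.card (S 1) ^ k := fun k => by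
    induction k with
    | zero =>
      rw [pow_zero]
      haveI : Subsingleton (S 0) := ⟨fun a b => Subtype.ext (by
        have ha : (2 ^ 0) • (a : JZero (M * q)) = 0 := a.2.2
        have hb : (2 ^ 0) • (b : JZero (M * q)) = 0 := b.2.2
        rw [pow_zero, one_nsmul] at ha hb
        rw [ha, hb])⟩
      exact Nat.card_of_subsingleton 0
    | succ k ih => rw [hstep, ih, pow_succ]
  haveI := hfin
  have hpow : ∀ k, (2 ^ t) ^ k ≤ (t + 1) * Nat.card (S 1) ^ k := fun k => by
    obtain ⟨D, hD, hDr, hcard, -⟩ := exists_many C hq2 hr h11 hrM hτ ht hg k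
    have hDS : D ≤ S k := fun x hx => by
      obtain ⟨z, hz, he⟩ := hDr x hx
      exact ⟨⟨⟨z, hz⟩, he⟩, (hD hx).2⟩
    calc (2 ^ t) ^ k = (2 ^ k) ^ t := by rw [← pow_mul, ← pow_mul, mul_comm]
      _ ≤ (t + 1) * Nat.card D := hcard
      _ ≤ (t + 1) * Nat.card (S k) := Nat.mul_le_mul_left _ (Nat.card_le_card_of_injective _
          (AddSubgroup.inclusion_injective hDS))
      _ = _ := by rw [hS]
  have hT : 2 ^ t ≤ Nat.card (S 1) := le_of_pow_le_mul_pow Nat.card_pos hpow
  obtain ⟨m, hm⟩ := hy.1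
  haveI : Finite (toricSub C hq2 m) := by
    haveI := (finite_killed (M * q) m).1
    exact Finite.of_injective _ (AddSubgroup.inclusion_injective (toricSub_le C hq2 m))
  have hcard : Nat.card (toricSub C hq2 m) ≤ Nat.card (S m) := by
    refine (card_toric_le C hq2 m ht).trans ?_
    rw [hS, ← pow_mul, mul_comm, pow_mul]
    exact Nat.pow_le_pow_left hT m
  have hmem : y ∈ S m := by
    rw [AddSubgroup.eq_of_le_of_card_ge (hle m) hcard]
    exact ⟨hy, hm⟩
  obtain ⟨z, hz⟩ := hmem.1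
  exact ⟨z, z.2, hz⟩

/-- the abelian classes are arbitrary -/
theorem exists_inDom {r : ℕ} (hr : r.Prime) (h11 : r % 12 = 11) (hrM : r ∣ M) (hq2 : q ≠ 2)
    {a b : JZero M} (ha : a ∈ tor M) (hb : b ∈ tor M) :
    ∃ y, InDom C y ∧ Fst A y a ∧ Fst A (TOR.wJ C y) b := by
  classical
  obtain ⟨t, ht, hg⟩ := exists_genus C hr h11 hrM
  obtain ⟨τ, hτ⟩ := exists_gen C hq2
  obtain ⟨i, hi⟩ := ha
  obtain ⟨j, hj⟩ := hb
  obtain ⟨a', rfl⟩ := AJ.exists_nsmul_eq (2 ^ (t + 1)) (pow_pos two_pos _) a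
  obtain ⟨b', rfl⟩ := AJ.exists_nsmul_eq (2 ^ (t + 1)) (pow_pos two_pos _) b
  set N := i + j + (t + 1) with hN
  have ha' : a' ∈ killed M N := by
    show 2 ^ N • a' = 0
    rw [hN, show i + j + (t + 1) = j + (i + (t + 1)) by ring, pow_add, pow_add, mul_nsmul',
      mul_nsmul']
    rw [hi, nsmul_zero]
  have hb' : b' ∈ killed M N := by
    show 2 ^ N • b' = 0
    rw [hN, show i + j + (t + 1) = i + (j + (t + 1)) by ring, pow_add, pow_add, mul_nsmul',
      mul_nsmul']
    rw [hj, nsmul_zero]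
  obtain ⟨-, -, -, -, c, hc, hcard⟩ := exists_many C hq2 hr h11 hrM hτ ht hg N
  obtain ⟨hfinM, hM⟩ := finite_killed M N
  haveI := hfinM
  set g0 := genusFF Qb (FB M)
  have hG : Nat.card (killed M N × killed M N) = 2 ^ (N * (4 * g0)) := by
    rw [Nat.card_prod, hM, ← pow_add, ← pow_mul]
    congr 1
    ring
  have hidx : c.range.index * Nat.card c.range = 2 ^ (N * (4 * g0)) := by
    rw [AddSubgroup.index_mul_card, hG]
  obtain ⟨e, -, he⟩ := (Nat.dvd_prime_pow Nat.prime_two).mp (Dvd.intro _ hidx)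
  have hle : c.range.index ≤ t + 1 := by
    refine Nat.le_of_mul_le_mul_right ?_ (Nat.card_pos : 0 < Nat.card c.range)
    rw [hidx, pow_mul]
    exact hcard
  have het : e ≤ t + 1 :=
    (Nat.lt_two_pow_self (n := e)).le.trans (he ▸ hle)
  have hx : 2 ^ (t + 1) • ((⟨a', ha'⟩, ⟨b', hb'⟩) : killed M N × killed M N) ∈ c.range := by
    rw [← Nat.sub_add_cancel het, pow_add, mul_nsmul', ← he]
    exact AddSubgroup.nsmul_mem _ (AddSubgroup.nsmul_index_mem _ _) _
  obtain ⟨y, hy⟩ := hx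
  refine ⟨y, ((mem_domSub C).mp y.2).1, ?_, ?_⟩
  · have h := (hc y).1
    rw [hy] at h
    exact h
  · have h := (hc y).2
    rw [hy] at h
    exact h

end FLTAgent.R2.Desc

end
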