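import Fermat.Agent.R2.DescentDom
import Fermat.Agent.R2.DescentGeo

/-!
Area R2, parcel DESCENT: old classes at a place over a prime `q` outside the old primes, by
induction on the set of old primes. All statements are up to powers of `eta`.
-/

set_option autoImplicit false
set_option linter.unusedSectionVars false
set_option linter.unusedVariables false
set_option linter.style.haveILetI false
set_option synthInstance.maxHeartbeats 400000

noncomputable section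

open ModularCurve
open FLTAgent.Reduction (Qb Ctx)

namespace FLTAgent.R2.Desc

/-- the hypotheses on the level, the auxiliary prime `r = 11 mod 12` and the old primes -/
structure Slots (r : ℕ) (R : Finset ℕ) (L : ℕ) : Prop where
  sqf : Squarefree L
  prime : r.Prime
  mod : r % 12 = 11
  dvd : r ∣ L
  not_mem : r ∉ R
  slot : ∀ x ∈ R, x.Prime ∧ x ≠ 2 ∧ x ∣ L

theorem Slots.subset {r : ℕ} {R R' : Finset ℕ} {L : ℕ} (hS : Slots r R L) (h : R' ⊆ R) :
    Slots r R' L :=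
  ⟨hS.sqf, hS.prime, hS.mod, hS.dvd, fun e => hS.not_mem (h e), fun x hx => hS.slot x (h hx)⟩

theorem Slots.erase {r : ℕ} {R : Finset ℕ} {d x L : ℕ} (hS : Slots r R L) (hdx : d * x = L)
    (hx : x.Prime) (hxr : x ≠ r) (hxR : x ∉ R) : Slots r R d := by
  refine ⟨hS.sqf.squarefree_of_dvd ⟨x, hdx.symm⟩, hS.prime, hS.mod, ?_, hS.not_mem,
    fun y hy => ?_⟩
  · exact (hS.prime.dvd_mul.mp (hdx ▸ hS.dvd)).resolve_right fun h =>
      hxr ((Nat.prime_dvd_prime_iff_eq hS.prime hx).mp h).symm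
  · obtain ⟨hy1, hy2, hy3⟩ := hS.slot y hy
    exact ⟨hy1, hy2, (hy1.dvd_mul.mp (hdx ▸ hy3)).resolve_right fun h =>
      hxR ((Nat.prime_dvd_prime_iff_eq hy1 hx).mp h ▸ hy)⟩

theorem Slots.dvd_left {r : ℕ} {R : Finset ℕ} {M q : ℕ} (hS : Slots r R (M * q)) (hq : q.Prime)
    (hqr : q ≠ r) : r ∣ M :=
  (hS.prime.dvd_mul.mp hS.dvd).resolve_right fun h =>
    hqr ((Nat.prime_dvd_prime_iff_eq hS.prime hq).mp h).symm

/-- the statement of `old_classes` for one set of old primes -/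
def ClassesP (r : ℕ) (R : Finset ℕ) : Prop :=
  ∀ (M q : ℕ) [NeZero M] [NeZero q] (A : ValuationSubring Qb) (C : Ctx A M q),
    Slots r R (M * q) → q ≠ 2 → q ≠ r → q ∉ R →
    ∀ (l : Nat.Primes), ¬ (l : ℕ) ∣ M * q → (l : ℕ) ≠ 2 → ∀ y ∈ Old R (M * q),
      (∀ σ ∈ A.inertiaSubgroupIn ℚ, σ • y = y) →
      ∃ (c : ℕ) (a b : JZero M), a ∈ Old R M ∧ b ∈ Old R M ∧
        Fst A ((eta (M * q) l)^[c] y) a ∧ Fst A (TOR.wJ C ((eta (M * q) l)^[c] y)) b

/-- the statement of `old_monodromy` for one set of old primes -/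
def MonoP (r : ℕ) (R : Finset ℕ) : Prop :=
  ∀ (M q : ℕ) [NeZero M] [NeZero q] (A : ValuationSubring Qb) (C : Ctx A M q),
    Slots r R (M * q) → q ≠ 2 → q ≠ r → q ∉ R →
    ∀ (l : Nat.Primes), ¬ (l : ℕ) ∣ M * q → (l : ℕ) ≠ 2 → ∀ τ, Gen A q τ →
    ∀ z, InKer C z → z ∈ Old R (M * q) →
      ∃ (c : ℕ) (o : JZero (M * q)), o ∈ Old R (M * q) ∧ τ • o - o = (eta (M * q) l)^[c] z

theorem inj_of_classes {r : ℕ} {R : Finset ℕ} (hP : ClassesP r R) {d x L : ℕ} [NeZero d]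
    [NeZero L] (hS : Slots r R L) (hx : x.Prime) (hx2 : x ≠ 2) (hxr : x ≠ r) (hxR : x ∉ R)
    (hd : d ∣ L) (hdx : d * x = L) (l : Nat.Primes) (hl : ¬ (l : ℕ) ∣ L) (hl2 : (l : ℕ) ≠ 2)
    {a : JZero d} (ha : a ∈ tor d) (h : up hd a ∈ Old R L) :
    ∃ c, (eta d l)^[c] a ∈ Old R d := by
  subst hdx
  haveI : NeZero x := ⟨hx.ne_zero⟩
  have hxd : ¬ x ∣ d := by
    intro e
    exact hx.one_lt.ne' (Nat.isUnit_iff.mp (hS.sqf x (mul_dvd_mul_right e x)))
  obtain ⟨B, -, hB, -⟩ := Alg.exists_place_frobenius x hx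
  have C : Ctx B d x := ⟨hx, hxd, hB⟩
  obtain ⟨c, a', -, ha', -, h1, -⟩ := hP d x B C hS hx2 hxr hxR l hl hl2 _ h fun σ hσ => by
    rw [← up_smul, inertia_fix hx hx2 hxd hB hσ ha]
  refine ⟨c, ?_⟩
  rw [← up_eta_pow hd hl hl2 ha] at h1
  rwa [fst_unique C hx2 (fst_alpha C hx2 (eta_pow_mem_tor l ha c)) h1]

section Level

variable {M q : ℕ} [NeZero M] [NeZero q] {A : ValuationSubring Qb} (C : Ctx A M q)
  {r : ℕ} {R : Finset ℕ}
include C

theorem exists_lift_one (hS : Slots r R (M * q)) (hq2 : q ≠ 2) (hqr : q ≠ r) (hqR : q ∉ R)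
    {a : JZero M} (ha : a ∈ Old R M) :
    ∃ y ∈ Old R (M * q), InDom C y ∧ Fst A y a ∧ Fst A (TOR.wJ C y) 0 :=
  old_induction
    (P := fun a => ∃ y ∈ Old R (M * q), InDom C y ∧ Fst A y a ∧ Fst A (TOR.wJ C y) 0)
    (fun x hx d hd0 h a0 hdx ha0 => by
      obtain ⟨hxp, hx2, -⟩ := hS.slot x hx
      have C' : Ctx A d q := ⟨C.prime, fun e => C.not_dvd (e.trans h), C.lies⟩
      have hrd : r ∣ d := (hS.prime.dvd_mul.mp (hdx ▸ hS.dvd_left C.prime hqr)).resolve_right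
        fun e => hS.not_mem ((Nat.prime_dvd_prime_iff_eq hS.prime hxp).mp e ▸ hx)
      obtain ⟨y0, hy0, h1, h2⟩ := exists_inDom C' hS.prime hS.mod hrd hq2 ha0 (zero_mem _)
      have hdq : d * q ∣ M * q := mul_dvd_mul_right h q
      refine ⟨up hdq y0, up_mem_old hx (by rw [← hdx]; ring) hdq hy0.1,
        inDom_up C hq2 h hdq C' hy0, fst_up C h hdq hq2 C' h1, ?_⟩
      rw [wJ_up C h hdq C']
      have e := fst_up C h hdq hq2 C' h2
      rwa [map_zero] at e)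
    ⟨0, zero_mem _, inDom_zero C hq2, fst_zero C hq2, by rw [map_zero]; exact fst_zero C hq2⟩
    (fun _ _ ⟨y, hy, hd, h1, h2⟩ ⟨y', hy', hd', h1', h2'⟩ => ⟨y + y', add_mem hy hy',
      inDom_add C hq2 hd hd', fst_add C hq2 h1 h1', by
        rw [map_add]; simpa only [add_zero] using fst_add C hq2 h2 h2'⟩)
    (fun _ ⟨y, hy, hd, h1, h2⟩ => ⟨-y, neg_mem hy, inDom_neg C hq2 hd, fst_neg C hq2 h1, by
      rw [map_neg]; simpa only [neg_zero] using fst_neg C hq2 h2⟩) ha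

/-- old classes with arbitrary old components -/
theorem old_lift (hS : Slots r R (M * q)) (hq2 : q ≠ 2) (hqr : q ≠ r) (hqR : q ∉ R)
    {a b : JZero M} (ha : a ∈ Old R M) (hb : b ∈ Old R M) :
    ∃ y ∈ Old R (M * q), InDom C y ∧ Fst A y a ∧ Fst A (TOR.wJ C y) b := by
  obtain ⟨y, hy, hd, h1, h2⟩ := exists_lift_one C hS hq2 hqr hqR ha
  obtain ⟨y', hy', hd', h1', h2'⟩ := exists_lift_one C hS hq2 hqr hqR hb
  refine ⟨y + TOR.wJ C y', add_mem hy (wJ_old C (fun x hx => ⟨(hS.slot x hx).1,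
    fun e => hqR (e ▸ hx)⟩) hy'), inDom_add C hq2 hd (inDom_wJ C hd'), ?_, ?_⟩
  · simpa only [add_zero] using fst_add C hq2 h1 h2'
  · rw [map_add, TOR.wJ_wJ]
    simpa only [zero_add] using fst_add C hq2 h2 h1'

end Level

section Step

variable {d x q : ℕ} [NeZero d] [NeZero q] {M : ℕ} [NeZero M] {A : ValuationSubring Qb}
  (C : Ctx A M q) (C' : Ctx A d q) {r : ℕ} {R : Finset ℕ}
include C C'

theorem exists_adjust (hM : d * x = M) (hx : x.Prime) (hxR : x ∉ R) (hcl : ClassesP r R)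
    (hmo : MonoP r R) (hS : Slots r (insert x R) (M * q)) (hq2 : q ≠ 2) (hqr : q ≠ r)
    (hqR : q ∉ insert x R) (l : Nat.Primes) (hl : ¬ (l : ℕ) ∣ M * q) (hl2 : (l : ℕ) ≠ 2)
    (hdM : d ∣ M) (hdq : d * q ∣ M * q)
    {y : JZero (M * q)} (hy : y ∈ Old (insert x R) (M * q))
    (hfix : ∀ σ ∈ A.inertiaSubgroupIn ℚ, σ • y = y) :
    ∃ (c : ℕ) (a1 : JZero (d * q)) (b1 : JZero (M * q)), InDom C' a1 ∧ b1 ∈ Old R (M * q) ∧
      (∀ σ ∈ A.inertiaSubgroupIn ℚ, σ • b1 = b1) ∧ (eta (M * q) l)^[c] y = up hdq a1 + b1 := by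
  haveI : NeZero x := ⟨hx.ne_zero⟩
  have hxm : x ∈ insert x R := Finset.mem_insert_self x R
  have hx2 : x ≠ 2 := (hS.slot x hxm).2.1
  have hxr : x ≠ r := fun e => hS.not_mem (e ▸ hxm)
  have hSR : Slots r R (M * q) := hS.subset (Finset.subset_insert x R)
  have hdxL : d * q * x = M * q := by rw [← hM]; ring
  have hS' : Slots r R (d * q) := hSR.erase hdxL hx hxr hxR
  have hrd : r ∣ d := hS'.dvd_left C.prime hqr
  have hqR' : q ∉ R := fun e => hqR (Finset.mem_insert_of_mem e)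
  have hl' : ¬ (l : ℕ) ∣ d * q := fun e => hl (e.trans hdq)
  obtain ⟨a, ha, b, hb, hab⟩ := exists_split_insert hdq hx.ne_zero hdxL hy
  obtain ⟨τ, hτ⟩ := exists_gen C hq2
  have hup : up hdq (τ • a - a) ∈ Old R (M * q) := by
    have e : up hdq (τ • a - a) = b - τ • b := by
      rw [map_sub, up_smul, eq_sub_of_add_eq hab, smul_sub, hfix τ hτ.1]
      abel
    rw [e]
    exact sub_mem hb (old_smul τ hb)
  have hta : τ • a - a ∈ tor (d * q) := sub_mem (smul_mem_tor τ ha) ha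
  obtain ⟨c, hc⟩ := inj_of_classes hcl hSR hx hx2 hxr hxR hdq hdxL l hl hl2 hta hup
  rw [eta_pow_sub, eta_pow_smul] at hc
  have hac := eta_pow_mem_tor l ha c
  obtain ⟨c', o, ho, hoe⟩ := hmo d q A C' hS' hq2 hqr hqR' l hl' hl2 τ hτ _
    (inKer_sub C' hS.prime hS.mod hrd hq2 hτ.1 hac) hc
  rw [eta_pow_sub, eta_pow_smul, eta_pow_pow] at hoe
  set a0 := (eta (d * q) l)^[c' + c] a - o with ha0
  have ha0t : a0 ∈ tor (d * q) := sub_mem (eta_pow_mem_tor l ha _) (old_le_tor ho)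
  have ha0τ : τ • a0 = a0 := by
    rw [ha0, smul_sub, ← sub_eq_zero]
    have e : τ • (eta (d * q) l)^[c' + c] a - τ • o -
        ((eta (d * q) l)^[c' + c] a - o) =
        (τ • (eta (d * q) l)^[c' + c] a - (eta (d * q) l)^[c' + c] a) - (τ • o - o) := by abel
    rw [e, hoe, sub_self]
  have hdom : InDom C' (eta (d * q) l a0) := inDom_eta C' hS.prime hS.mod hrd hq2 l hl' ha0t
    (gen_fixed C' hS.prime hS.mod hrd hq2 hτ ha0t ha0τ)
  refine ⟨1 + (c' + c), _, (eta (M * q) l)^[1 + (c' + c)] y - up hdq (eta (d * q) l a0), hdom,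
    ?_, fun σ hσ => ?_, (add_sub_cancel _ _).symm⟩
  · have e : (eta (M * q) l)^[1 + (c' + c)] y - up hdq (eta (d * q) l a0) =
        (eta (M * q) l)^[1 + (c' + c)] b + up hdq (eta (d * q) l o) := by
      rw [up_eta hdq hl hl2 ha0t, ha0, map_sub (up hdq), up_eta_pow hdq hl hl2 ha, map_sub,
        ← Function.iterate_succ_apply' (eta (M * q) l) (c' + c), add_comm 1 (c' + c), ← hab,
        eta_pow_add, up_eta hdq hl hl2 (old_le_tor ho)]
      abel
    rw [e]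
    exact add_mem (old_eta_pow hl hl2 hb _) (up_old hdq hdxL (old_eta hl' hl2 ho))
  · rw [smul_sub, eta_pow_fixed C l hfix _ σ hσ, ← up_smul, hdom.2.1 σ hσ]

end Step

set_option maxHeartbeats 1000000 in
theorem classes_mono (r : ℕ) (R : Finset ℕ) : ClassesP r R ∧ MonoP r R := by
  induction R using Finset.induction with
  | empty =>
    refine ⟨fun M q _ _ A C _ hq2 _ _ l _ _ y hy _ => ?_,
      fun M q _ _ A C _ _ _ _ l _ _ τ _ z _ hz => ⟨0, 0, zero_mem _, ?_⟩⟩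
    · obtain rfl := eq_zero_of_mem_old_empty hy
      refine ⟨0, 0, 0, zero_mem _, zero_mem _, fst_zero C hq2, ?_⟩
      rw [eta_pow_zero, map_zero]
      exact fst_zero C hq2
    · rw [eq_zero_of_mem_old_empty hz, eta_pow_zero,
        show τ • (0 : JZero (M * q)) = 0 from smul_zero (A := JZero (M * q)) τ, sub_self]
  | @insert x R hxR ih =>
    obtain ⟨hcl, hmo⟩ := ih
    refine ⟨fun M q _ _ A C hS hq2 hqr hqR l hl hl2 y hy hfix => ?_,
      fun M q _ _ A C hS hq2 hqr hqR l hl hl2 τ hτ z hz hzo => ?_⟩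
    · have hxm : x ∈ insert x R := Finset.mem_insert_self x R
      obtain ⟨hx, hx2, hxd⟩ := hS.slot x hxm
      obtain ⟨d, rfl⟩ : x ∣ M := (hx.dvd_mul.mp hxd).resolve_right fun e =>
        hqR ((Nat.prime_dvd_prime_iff_eq hx C.prime).mp e ▸ hxm)
      haveI : NeZero d := ⟨fun e => NeZero.ne (x * d) (by rw [e, mul_zero])⟩
      have hdM : d ∣ x * d := dvd_mul_left d x
      have hdq : d * q ∣ x * d * q := mul_dvd_mul_right hdM q
      have C' : Ctx A d q := ⟨C.prime, fun e => C.not_dvd (e.trans hdM), C.lies⟩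
      have hqR' : q ∉ R := fun e => hqR (Finset.mem_insert_of_mem e)
      have hSR : Slots r R (x * d * q) := hS.subset (Finset.subset_insert x R)
      obtain ⟨c, a1, b1, hdom, hb1, hb1f, e⟩ := exists_adjust C C' (mul_comm d x) hx hxR hcl hmo
        hS hq2 hqr hqR l hl hl2 hdM hdq hy hfix
      obtain ⟨k, a', b', ha', hb', f1, f2⟩ :=
        hcl _ q A C hSR hq2 hqr hqR' l hl hl2 b1 hb1 hb1f
      obtain ⟨ha1, -, ⟨g1, hg1⟩, g2, hg2⟩ := hdom
      have hl' : ¬ (l : ℕ) ∣ d * q := fun h => hl (h.trans hdq)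
      have k1 := fst_up C hdM hdq hq2 C' (fst_eta_pow C' hq2 hl' hg1 k)
      have k2 := fst_up C hdM hdq hq2 C' (fst_eta_pow C' hq2 hl' hg2 k)
      rw [wJ_eta_pow C' hl' hl2 ha1, ← wJ_up C hdM hdq C', up_eta_pow hdq hl hl2 ha1] at k2
      rw [up_eta_pow hdq hl hl2 ha1] at k1
      refine ⟨k + c, _, _, add_mem (up_mem_old hxm (mul_comm d x) hdM
          (eta_pow_mem_tor l (fst_mem_tor hg1) k)) (old_mono (Finset.subset_insert x R) ha'),
        add_mem (up_mem_old hxm (mul_comm d x) hdM (eta_pow_mem_tor l (fst_mem_tor hg2) k))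
          (old_mono (Finset.subset_insert x R) hb'), ?_, ?_⟩
      · rw [← eta_pow_pow, e, eta_pow_add]
        exact fst_add C hq2 k1 f1
      · rw [← eta_pow_pow, e, eta_pow_add, map_add]
        exact fst_add C hq2 k2 f2
    · have hxm : x ∈ insert x R := Finset.mem_insert_self x R
      obtain ⟨hx, hx2, hxd⟩ := hS.slot x hxm
      haveI : NeZero x := ⟨hx.ne_zero⟩
      obtain ⟨d, rfl⟩ : x ∣ M := (hx.dvd_mul.mp hxd).resolve_right fun e =>
        hqR ((Nat.prime_dvd_prime_iff_eq hx C.prime).mp e ▸ hxm)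
      haveI : NeZero d := ⟨fun e => NeZero.ne (x * d) (by rw [e, mul_zero])⟩
      have hdM : d ∣ x * d := dvd_mul_left d x
      have hdq : d * q ∣ x * d * q := mul_dvd_mul_right hdM q
      have hdxL : d * q * x = x * d * q := by ring
      have C' : Ctx A d q := ⟨C.prime, fun e => C.not_dvd (e.trans hdM), C.lies⟩
      have hqR' : q ∉ R := fun e => hqR (Finset.mem_insert_of_mem e)
      have hxr : x ≠ r := fun e => hS.not_mem (e ▸ hxm)
      have hxq : x ≠ q := fun e => hqR (e ▸ hxm)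
      have hSR : Slots r R (x * d * q) := hS.subset (Finset.subset_insert x R)
      have hS' : Slots r R (d * q) := hSR.erase hdxL hx hxr hxR
      have hrd : r ∣ d := hS'.dvd_left C.prime hqr
      have hSM : Slots r R (x * d) := hSR.erase rfl C.prime hqr hqR'
      obtain ⟨c, a1, b1, hdom, hb1, hb1f, e⟩ := exists_adjust C C' (mul_comm d x) hx hxR hcl hmo
        hS hq2 hqr hqR l hl hl2 hdM hdq hzo hz.2.1
      obtain ⟨k, a', b', ha', hb', f1, f2⟩ :=
        hcl _ q A C hSR hq2 hqr hqR' l hl hl2 b1 hb1 hb1f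
      obtain ⟨ha1, ha1f, ⟨g1, hg1⟩, g2, hg2⟩ := hdom
      have hl' : ¬ (l : ℕ) ∣ d * q := fun h => hl (h.trans hdq)
      have hlM : ¬ (l : ℕ) ∣ x * d := fun h => hl (h.trans (dvd_mul_right _ q))
      have k1 := fst_up C hdM hdq hq2 C' (fst_eta_pow C' hq2 hl' hg1 k)
      have k2 := fst_up C hdM hdq hq2 C' (fst_eta_pow C' hq2 hl' hg2 k)
      rw [wJ_eta_pow C' hl' hl2 ha1, ← wJ_up C hdM hdq C', up_eta_pow hdq hl hl2 ha1] at k2
      rw [up_eta_pow hdq hl hl2 ha1] at k1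
      have hzk := inKer_eta_pow C hq2 hl hl2 hz (k + c)
      have hz1 := hzk.2.2.1
      have hz2 := hzk.2.2.2
      rw [← eta_pow_pow, e, eta_pow_add] at hz1 hz2
      rw [map_add] at hz2
      have e1 : up hdM ((eta d l)^[k] g1) = -a' :=
        eq_neg_of_add_eq_zero_left (fst_unique C hq2 (fst_add C hq2 k1 f1) hz1)
      have e2 : up hdM ((eta d l)^[k] g2) = -b' :=
        eq_neg_of_add_eq_zero_left (fst_unique C hq2 (fst_add C hq2 k2 f2) hz2)
      obtain ⟨c1, hc1⟩ := inj_of_classes hcl hSM hx hx2 hxr hxR hdM (mul_comm d x) l hlM hl2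
        (eta_pow_mem_tor l (fst_mem_tor hg1) k) (by rw [e1]; exact neg_mem ha')
      obtain ⟨c2, hc2⟩ := inj_of_classes hcl hSM hx hx2 hxr hxR hdM (mul_comm d x) l hlM hl2
        (eta_pow_mem_tor l (fst_mem_tor hg2) k) (by rw [e2]; exact neg_mem hb')
      have hld : ¬ (l : ℕ) ∣ d := fun h => hlM (h.trans hdM)
      have hc1' := old_eta_pow hld hl2 hc1 c2
      have hc2' := old_eta_pow hld hl2 hc2 c1
      rw [eta_pow_pow, eta_pow_pow] at hc1' hc2'
      rw [show c1 + c2 + k = c2 + c1 + k by ring] at hc2'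
      set n := c2 + c1 + k with hn
      obtain ⟨g, hg, hgd, hg1', hg2'⟩ := old_lift C' hS' hq2 hqr hqR' hc1' hc2'
      have ha2 : InKer C' ((eta (d * q) l)^[n] a1 - g) := by
        refine ⟨sub_mem (eta_pow_mem_tor l ha1 n) hgd.1, fun σ hσ => by
          rw [smul_sub, eta_pow_fixed C' l ha1f n σ hσ, hgd.2.1 σ hσ], ?_, ?_⟩
        · have := fst_sub C' hq2 (fst_eta_pow C' hq2 hl' hg1 n) hg1'
          rwa [sub_self] at this
        · have h2 := fst_eta_pow C' hq2 hl' hg2 n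
          rw [wJ_eta_pow C' hl' hl2 ha1] at h2
          have := fst_sub C' hq2 h2 hg2'
          rw [sub_self] at this
          rwa [map_sub]
      obtain ⟨w, hw, hwe⟩ := gen_surj C' hS.prime hS.mod hrd hq2 hτ ha2
      set z2 := (eta (x * d * q) l)^[n + c] z - up hdq ((eta (d * q) l)^[n] a1 - g) with hz2d
      have hz2k : InKer C z2 := inKer_sub' C hq2 (inKer_eta_pow C hq2 hl hl2 hz _)
        (inKer_up C hq2 hdM hdq C' ha2)
      have hz2o : z2 ∈ Old R (x * d * q) := by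
        have e' : z2 = (eta (x * d * q) l)^[n] b1 + up hdq g := by
          rw [hz2d, ← eta_pow_pow, e, eta_pow_add, map_sub, up_eta_pow hdq hl hl2 ha1]
          abel
        rw [e']
        exact add_mem (old_eta_pow hl hl2 hb1 n) (up_old hdq hdxL hg)
      obtain ⟨c5, o5, ho5, ho5e⟩ := hmo _ q A C hSR hq2 hqr hqR' l hl hl2 τ hτ z2 hz2k hz2o
      refine ⟨c5 + (n + c), (eta (x * d * q) l)^[c5] (up hdq w) + o5,
        add_mem (old_eta_pow hl hl2 (up_mem_old hxm hdxL hdq hw) c5)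
          (old_mono (Finset.subset_insert x R) ho5), ?_⟩
      rw [smul_add, add_sub_add_comm, ho5e, ← eta_pow_smul, ← eta_pow_sub, ← up_smul, ← map_sub,
        hwe, ← eta_pow_add, hz2d, add_sub_cancel, eta_pow_pow]

/-- pullback from a level prime to the old primes is injective modulo old classes -/
theorem old_inj {r : ℕ} {R : Finset ℕ} {d x L : ℕ} [NeZero d] [NeZero L] (hS : Slots r R L)
    (hx : x.Prime) (hx2 : x ≠ 2) (hxr : x ≠ r) (hxR : x ∉ R) (hd : d ∣ L) (hdx : d * x = L)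
    (l : Nat.Primes) (hl : ¬ (l : ℕ) ∣ L) (hl2 : (l : ℕ) ≠ 2) {a : JZero d} (ha : a ∈ tor d)
    (h : up hd a ∈ Old R L) :
    ∃ c, (eta d l)^[c] a ∈ Old R d :=
  inj_of_classes (classes_mono r R).1 hS hx hx2 hxr hxR hd hdx l hl hl2 ha h

variable {M q : ℕ} [NeZero M] [NeZero q] {A : ValuationSubring Qb} (C : Ctx A M q)
  {r : ℕ} {R : Finset ℕ}
include C

/-- the classes of a fixed old class are old -/
theorem old_classes (hS : Slots r R (M * q)) (hq2 : q ≠ 2) (hqr : q ≠ r) (hqR : q ∉ R)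
    (l : Nat.Primes) (hl : ¬ (l : ℕ) ∣ M * q) (hl2 : (l : ℕ) ≠ 2) {y : JZero (M * q)}
    (hy : y ∈ Old R (M * q)) (hfix : ∀ σ ∈ A.inertiaSubgroupIn ℚ, σ • y = y) :
    ∃ (c : ℕ) (a b : JZero M), a ∈ Old R M ∧ b ∈ Old R M ∧
      Fst A ((eta (M * q) l)^[c] y) a ∧ Fst A (TOR.wJ C ((eta (M * q) l)^[c] y)) b :=
  (classes_mono r R).1 M q A C hS hq2 hqr hqR l hl hl2 y hy hfix

/-- an old class with trivial abelian classes is a difference of an old class under inertia -/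
theorem old_monodromy (hS : Slots r R (M * q)) (hq2 : q ≠ 2) (hqr : q ≠ r) (hqR : q ∉ R)
    (l : Nat.Primes) (hl : ¬ (l : ℕ) ∣ M * q) (hl2 : (l : ℕ) ≠ 2) {τ : Qb ≃ₐ[ℚ] Qb}
    (hτ : Gen A q τ) {z : JZero (M * q)} (hz : InKer C z) (hzo : z ∈ Old R (M * q)) :
    ∃ (c : ℕ) (o : JZero (M * q)), o ∈ Old R (M * q) ∧
      τ • o - o = (eta (M * q) l)^[c] z :=
  (classes_mono r R).2 M q A C hS hq2 hqr hqR l hl hl2 τ hτ z hz hzo

/-- a class fixed modulo old classes by a generator of monodromy has abelian classes up to an old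
class -/
theorem fixed_split (hS : Slots r R (M * q)) (hq2 : q ≠ 2) (hqr : q ≠ r) (hqR : q ∉ R)
    (l : Nat.Primes) (hl : ¬ (l : ℕ) ∣ M * q) (hl2 : (l : ℕ) ≠ 2) {τ : Qb ≃ₐ[ℚ] Qb}
    (hτ : Gen A q τ) {y : JZero (M * q)} (hy : y ∈ tor (M * q))
    (hfix : τ • y - y ∈ Old R (M * q)) :
    ∃ (c : ℕ) (o : JZero (M * q)), o ∈ Old R (M * q) ∧
      InDom C ((eta (M * q) l)^[c] y - o) := by
  have hrM := hS.dvd_left C.prime hqr
  obtain ⟨c, o, ho, hoe⟩ := old_monodromy C hS hq2 hqr hqR l hl hl2 hτ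
    (inKer_sub C hS.prime hS.mod hrM hq2 hτ.1 hy) hfix
  rw [eta_pow_sub, eta_pow_smul] at hoe
  set y' := (eta (M * q) l)^[c] y - o with hy'
  have hy't : y' ∈ tor (M * q) := sub_mem (eta_pow_mem_tor l hy c) (old_le_tor ho)
  have hy'τ : τ • y' = y' := by
    rw [hy', smul_sub, ← sub_eq_zero]
    have e : τ • (eta (M * q) l)^[c] y - τ • o - ((eta (M * q) l)^[c] y - o) =
        (τ • (eta (M * q) l)^[c] y - (eta (M * q) l)^[c] y) - (τ • o - o) := by abel
    rw [e, hoe, sub_self]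
  refine ⟨c + 1, eta (M * q) l o, old_eta hl hl2 ho, ?_⟩
  rw [Function.iterate_succ_apply', ← map_sub]
  exact inDom_eta C hS.prime hS.mod hrM hq2 l hl hy't
    (gen_fixed C hS.prime hS.mod hrM hq2 hτ hy't hy'τ)

end FLTAgent.R2.Desc

end
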