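import Fermat.Agent.R2.PrimesGroup
import Mathlib.Tactic

/-!
Area R2, parcel D: crossed homomorphisms into the plane over `𝔽₂`, abstract part of the layer
lemma.
-/

set_option autoImplicit false

noncomputable section

open Matrix

namespace FLTAgent.R2.Layer

local notation "M₂" => Matrix (Fin 2) (Fin 2) (ZMod 2)
local notation "V₂" => Fin 2 → ZMod 2

theorem exists_three_cycle : ∃ g g' : M₂, g * g' = 1 ∧ (∀ v : V₂, g *ᵥ v = v → v = 0) ∧
    g * g ≠ g ∧ (∀ v : V₂, ∃ u : V₂, g *ᵥ u - u = v) ∧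
    ∀ h h' : M₂, h * h' = 1 → h * g * h' = g ∨ h * g * h' = g * g :=
  ⟨!![0, 1; 1, 1], !![1, 1; 1, 0], by decide, by decide, by decide, by decide, by decide⟩

set_option synthInstance.maxSize 1000 in
theorem fixed_unique : ∀ (C : M₂) (v u : V₂), C ≠ 1 → C *ᵥ v = v → C *ᵥ u = u →
    v ≠ 0 → u ≠ 0 → v = u := by decide

set_option synthInstance.maxSize 1000 in
theorem words_cover : ∀ t g : M₂, t * t = 1 → t ≠ 1 → g.det = 1 →
    (∃ v : V₂, t *ᵥ v = v ∧ v ≠ 0 ∧ g *ᵥ v ≠ v) → ∀ X : M₂, X.det = 1 →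
    X = 1 ∨ X = t ∨ X = g ∨ X = t * g ∨ X = g * t ∨ X = t * g * t ∨ X = g * g := by decide

theorem det_one {X X' : M₂} (h : X * X' = 1) : X.det = 1 := by
  have := congrArg Matrix.det h
  rw [Matrix.det_mul, Matrix.det_one] at this
  revert this
  generalize X.det = a
  generalize X'.det = b
  revert a b
  decide

theorem transposition_fixed : ∀ t : M₂, t * t = 1 → ∃ v : V₂, v ≠ 0 ∧ t *ᵥ v = v := by decide

section

variable {n : ℕ} {G : Type*} [Group G] (r2 : G →* M₂)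

theorem map_mul_map_inv (g : G) : r2 g * r2 g⁻¹ = 1 := by rw [← map_mul, mul_inv_cancel, map_one]

/-- onto `GL₂(𝔽₂)` from a transposition and the absence of fixed vectors -/
theorem surjective_of_transposition {t : G} (ht : r2 t * r2 t = 1) (ht1 : r2 t ≠ 1)
    (hirr : ∀ v : V₂, (∀ g, r2 g *ᵥ v = v) → v = 0) (X X' : M₂) (hX : X * X' = 1) :
    ∃ x, r2 x = X := by
  obtain ⟨v, hv0, hv⟩ := transposition_fixed _ ht
  obtain ⟨g, hg⟩ := not_forall.1 fun h => hv0 (hirr v h)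
  rcases words_cover (r2 t) (r2 g) ht ht1 (det_one (map_mul_map_inv r2 g))
    ⟨v, hv, hv0, hg⟩ X (det_one hX) with e | e | e | e | e | e | e
  · exact ⟨1, by rw [map_one, e]⟩
  · exact ⟨t, e.symm⟩
  · exact ⟨g, e.symm⟩
  · exact ⟨t * g, by rw [map_mul, e]⟩
  · exact ⟨g * t, by rw [map_mul, e]⟩
  · exact ⟨t * g * t, by rw [map_mul, map_mul, e]⟩
  · exact ⟨g * g, by rw [map_mul, e]⟩

variable {w : G → V₂} (hw : ∀ g h, w (g * h) = w g + r2 g *ᵥ w h)
include hw

theorem cocycle_one : w 1 = 0 := by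
  simpa using hw 1 1

theorem cocycle_inv (g : G) : r2 g *ᵥ w g⁻¹ = -w g := by
  have h := hw g g⁻¹
  rw [mul_inv_cancel, cocycle_one r2 hw] at h
  exact eq_neg_of_add_eq_zero_right h.symm

theorem cocycle_conj (g x : G) :
    w (g * x * g⁻¹) = w g + r2 g *ᵥ w x - r2 (g * x * g⁻¹) *ᵥ w g := by
  rw [hw, hw, show r2 (g * x) = r2 (g * x * g⁻¹) * r2 g by
    rw [← map_mul, inv_mul_cancel_right], ← Matrix.mulVec_mulVec, cocycle_inv r2 hw,
    Matrix.mulVec_neg, sub_eq_add_neg]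

/-- a class trivial on the kernel modulo two is trivial -/
theorem exists_coboundary (hsurj : ∀ X X' : M₂, X * X' = 1 → ∃ x, r2 x = X)
    (hker : ∀ h, r2 h = 1 → w h = 0) : ∃ m : V₂, ∀ g, w g = r2 g *ᵥ m - m := by
  obtain ⟨o, o', ho, hfix, -, hsol, hconj⟩ := exists_three_cycle
  obtain ⟨a, ha⟩ := hsurj o o' ho
  obtain ⟨m, hm⟩ := hsol (w a)
  refine ⟨m, fun g => ?_⟩
  set u : G → V₂ := fun x => w x - (r2 x *ᵥ m - m) with hu
  have hu' : ∀ x y, u (x * y) = u x + r2 x *ᵥ u y := fun x y => by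
    simp only [hu, hw, map_mul, ← Matrix.mulVec_mulVec, Matrix.mulVec_sub]
    abel
  have hua : u a = 0 := by simp only [hu, ha, hm, sub_self]
  have huk : ∀ h, r2 h = 1 → u h = 0 := fun h hh => by
    simp [hu, hker h hh, hh]
  have hex : r2 (g * a * g⁻¹) ≠ 1 ∧ u (g * a * g⁻¹) = 0 := by
    rcases hconj (r2 g) (r2 g⁻¹) (map_mul_map_inv r2 g) with e | e
    · have e' : r2 (g * a * g⁻¹) = o := by rw [map_mul, map_mul, ha, e]
      refine ⟨fun h => ?_, ?_⟩
      · have := hfix ![1, 0] (by rw [← e', h, Matrix.one_mulVec])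
        exact absurd this (by decide)
      · rw [show g * a * g⁻¹ = a * (a⁻¹ * (g * a * g⁻¹)) by group, hu', hua, zero_add,
          huk _ (by rw [map_mul, e', ← ha, ← map_mul, inv_mul_cancel, map_one]), Matrix.mulVec_zero]
    · have e' : r2 (g * a * g⁻¹) = o * o := by rw [map_mul, map_mul, ha, e]
      refine ⟨fun h => ?_, ?_⟩
      · have h2 : o *ᵥ (o *ᵥ ![1, 0]) = ![1, 0] := by
          rw [Matrix.mulVec_mulVec, ← e', h, Matrix.one_mulVec]
        have h3 := hfix (o *ᵥ ![1, 0] + ![1, 0]) (by rw [Matrix.mulVec_add, h2, add_comm])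
        rw [add_eq_zero_iff_eq_neg] at h3
        have := hfix ![1, 0] (h3.trans (by decide))
        exact absurd this (by decide)
      · rw [show g * a * g⁻¹ = a * a * ((a * a)⁻¹ * (g * a * g⁻¹)) by group, hu', hu', hua,
          huk _ (by rw [map_mul, e', ← ha, ← map_mul, ← map_mul, inv_mul_cancel, map_one]),
          Matrix.mulVec_zero, Matrix.mulVec_zero, add_zero, add_zero]
  have h0 := cocycle_conj r2 (w := u) hu' g a
  rw [hex.2, hua, Matrix.mulVec_zero, add_zero, eq_comm, sub_eq_zero] at h0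
  have hfix' : ∀ v : V₂, r2 (g * a * g⁻¹) *ᵥ v = v → v = 0 := fun v hv => by
    rcases hconj (r2 g) (r2 g⁻¹) (map_mul_map_inv r2 g) with e | e <;>
      rw [map_mul, map_mul, ha, e] at hv
    · exact hfix v hv
    · refine hfix v ?_
      rw [← Matrix.mulVec_mulVec] at hv
      have h3 := hfix (o *ᵥ v + v) (by rw [Matrix.mulVec_add, hv, add_comm])
      rw [add_eq_zero_iff_eq_neg] at h3
      exact h3.trans (funext fun i => CharTwo.neg_eq (v i))
  have := hfix' _ h0.symm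
  exact sub_eq_zero.1 this

/-- the layer lemma: a class seen at level `2^(n+1)` is seen on the kernel modulo two -/
theorem ker_two_of_ker_level (r : G →* Matrix (Fin 2) (Fin 2) (ZMod (2 ^ (n + 1))))
    (hr : ∀ g, (r g).map (modTwo n) = r2 g) {A : Type*} [CommGroup A] (χ : G →* A) {t : G}
    (hsurj : ∀ X X' : M₂, X * X' = 1 → ∃ x, r2 x = X)
    (hirr : ∀ v : V₂, (∀ g, r2 g *ᵥ v = v) → v = 0)
    (hdet : (r t).det = 1) (htr : ∃ b, (r t).trace = 2 * b ∧ modTwo n b = 1)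
    (hne : r2 t ≠ 1) (hχ : χ t = 1) (hwt : r2 t *ᵥ w t = w t)
    (hlev : ∀ h, r h = 1 → χ h = 1 → w h = 0) : ∀ h, r2 h = 1 → w h = 0 := by
  intro h hh
  refine hirr _ fun g => ?_
  set c := g * h * g⁻¹ * h⁻¹ with hc
  have hc2 : r2 c = 1 := by
    rw [hc, map_mul, map_mul, map_mul, hh, mul_one, map_mul_map_inv, one_mul]
    exact (one_mul _).symm.trans ((congrArg (· * r2 h⁻¹) hh.symm).trans (map_mul_map_inv r2 h))
  have hcd : (r c).det = 1 := by
    have e : ∀ x, (r x).det * (r x⁻¹).det = 1 := fun x => by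
      rw [← Matrix.det_mul, ← map_mul, mul_inv_cancel, map_one, Matrix.det_one]
    rw [hc, map_mul, map_mul, map_mul, Matrix.det_mul, Matrix.det_mul, Matrix.det_mul]
    linear_combination (r h).det * (r h⁻¹).det * e g + e h
  obtain ⟨s, hs, hrs⟩ := exists_eq_of_one_mod_two r
    (fun X X' hX => by obtain ⟨x, hx⟩ := hsurj X X' hX; exact ⟨x, (hr x).trans hx⟩)
    hdet htr (by rw [hr]; exact hne) hcd (by rw [hr, hc2])
  have ht2 : r2 (t * t) = 1 := by
    rw [← hr]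
    obtain ⟨b, hb, -⟩ := htr
    rw [map_mul, ch_two, hdet, hb, one_smul]
    ext i j
    rw [Matrix.map_apply, Matrix.sub_apply, map_sub, Matrix.smul_apply, smul_eq_mul, map_mul,
      map_mul, map_ofNat, show (2 : ZMod 2) = 0 from rfl, zero_mul, zero_mul, zero_sub,
      CharTwo.neg_eq, Matrix.one_apply, Matrix.one_apply, apply_ite (modTwo n), map_one, map_zero]
  let K : Subgroup G :=
    { carrier := {x | r2 x = 1 ∧ w x = 0 ∧ χ x = 1}
      one_mem' := ⟨map_one r2, cocycle_one r2 hw, map_one χ⟩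
      mul_mem' := fun {a b} ha hb => ⟨by rw [map_mul, ha.1, hb.1, mul_one],
        by rw [hw, ha.2.1, hb.2.1, Matrix.mulVec_zero, add_zero],
        by rw [map_mul, ha.2.2, hb.2.2, mul_one]⟩
      inv_mem' := fun {a} ha => by
        have e1 : r2 a⁻¹ = 1 := by simpa [ha.1] using map_mul_map_inv r2 a
        refine ⟨e1, ?_, by rw [map_inv, ha.2.2, inv_one]⟩
        simpa [ha.1, ha.2.1] using cocycle_inv r2 hw a }
  haveI : K.Normal := ⟨fun x hx g' => by
    have e1 : r2 (g' * x * g'⁻¹) = 1 := by rw [map_mul, map_mul, hx.1, mul_one, map_mul_map_inv]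
    refine ⟨e1, ?_, by rw [map_mul, map_mul, hx.2.2, mul_one, ← map_mul, mul_inv_cancel, map_one]⟩
    rw [cocycle_conj r2 hw, e1, hx.2.1, Matrix.mulVec_zero, add_zero, Matrix.one_mulVec, sub_self]⟩
  have hsK : s ∈ K := Subgroup.normalClosure_le_normal (N := K) (by
    rintro _ rfl
    refine ⟨ht2, ?_, by rw [map_mul, hχ, mul_one]⟩
    rw [hw, hwt]
    exact funext fun i => CharTwo.add_self_eq_zero _) hs
  have hk : w (s⁻¹ * c) = 0 := by
    refine hlev _ (by rw [map_mul, ← hrs, ← map_mul, inv_mul_cancel, map_one]) ?_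
    rw [map_mul, map_inv, hsK.2.2, inv_one, one_mul, hc, map_mul, map_mul, map_mul, map_inv,
      map_inv, mul_right_comm (χ g), mul_inv_cancel, one_mul, mul_inv_cancel]
  have hwc : w c = 0 := by
    rw [show c = s * (s⁻¹ * c) by group, hw, hsK.2.1, hk, Matrix.mulVec_zero, add_zero]
  have e1 : r2 (g * h * g⁻¹) = 1 := by rw [map_mul, map_mul, hh, mul_one, map_mul_map_inv]
  rw [hc, hw, cocycle_conj r2 hw, e1, Matrix.one_mulVec, Matrix.one_mulVec, add_sub_cancel_left]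
    at hwc
  have hi := cocycle_inv r2 hw h
  rw [hh, Matrix.one_mulVec] at hi
  rw [hi, ← sub_eq_add_neg, sub_eq_zero] at hwc
  exact hwc

/-- a nonzero class takes, on `c` times the kernel of level `2^(n+1)`, a value outside the fixed
line of the transposition `c` -/
theorem exists_outside (r : G →* Matrix (Fin 2) (Fin 2) (ZMod (2 ^ (n + 1))))
    (hr : ∀ g, (r g).map (modTwo n) = r2 g) {A : Type*} [CommGroup A] (χ : G →* A) {t : G}
    (hsurj : ∀ X X' : M₂, X * X' = 1 → ∃ x, r2 x = X)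
    (hirr : ∀ v : V₂, (∀ g, r2 g *ᵥ v = v) → v = 0)
    (hdet : (r t).det = 1) (htr : ∃ b, (r t).trace = 2 * b ∧ modTwo n b = 1)
    (hne : r2 t ≠ 1) (hχ : χ t = 1) (hwt : r2 t *ᵥ w t = w t)
    (hcob : ¬ ∃ m : V₂, ∀ g, w g = r2 g *ᵥ m - m) {c : G} (hc : r2 c ≠ 1) :
    ∃ h, r h = 1 ∧ χ h = 1 ∧ r2 (c * h) *ᵥ w (c * h) ≠ w (c * h) := by
  have hr2 : ∀ h, r h = 1 → r2 h = 1 := fun h hh => by
    rw [← hr, hh, Matrix.map_one _ (map_zero _) (map_one _)]
  by_cases h0 : r2 c *ᵥ w c = w c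
  swap
  · exact ⟨1, map_one r, map_one χ, by rwa [mul_one]⟩
  obtain ⟨h₁, hr₁, hχ₁, hw₁⟩ : ∃ h, r h = 1 ∧ χ h = 1 ∧ w h ≠ 0 := by
    by_contra hcon
    push Not at hcon
    exact hcob (exists_coboundary r2 hw hsurj
      (ker_two_of_ker_level r2 hw r hr χ hsurj hirr hdet htr hne hχ hwt hcon))
  obtain ⟨g, hg⟩ : ∃ g, r2 c *ᵥ (r2 g *ᵥ w h₁) ≠ r2 g *ᵥ w h₁ := by
    by_contra hcon
    push Not at hcon
    refine hw₁ (hirr _ fun g => ?_)
    have h1 : r2 c *ᵥ w h₁ = w h₁ := by simpa using hcon 1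
    refine fixed_unique (r2 c) _ _ hc (hcon g) h1 (fun e => hw₁ ?_) hw₁
    have := congrArg (r2 g⁻¹ *ᵥ ·) e
    simpa [Matrix.mulVec_mulVec, ← map_mul] using this
  have hrg : r (g * h₁ * g⁻¹) = 1 := by
    rw [map_mul, map_mul, hr₁, mul_one, ← map_mul, mul_inv_cancel, map_one]
  refine ⟨g * h₁ * g⁻¹, hrg, by rw [map_mul, map_mul, hχ₁, mul_one, ← map_mul, mul_inv_cancel,
    map_one], fun he => hg ?_⟩
  rw [map_mul, hr2 _ hrg, mul_one, hw, cocycle_conj r2 hw, hr2 _ hrg, Matrix.one_mulVec,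
    add_sub_cancel_left, Matrix.mulVec_add, h0, add_right_inj, Matrix.mulVec_mulVec] at he
  have h5 : r2 c * r2 c = 1 ∨ r2 c *ᵥ (r2 c *ᵥ (r2 g *ᵥ w h₁)) = r2 c *ᵥ (r2 g *ᵥ w h₁) :=
    Or.inr (by simpa [Matrix.mulVec_mulVec, mul_assoc] using he)
  rcases h5 with h5 | h5
  · have := congrArg (r2 c *ᵥ ·) he
    simpa [Matrix.mulVec_mulVec, ← mul_assoc, h5] using this
  · have := congrArg (r2 c⁻¹ *ᵥ ·) h5
    simpa [Matrix.mulVec_mulVec, ← mul_assoc, ← map_mul] using this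

end

end FLTAgent.R2.Layer

end
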