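import Fermat.Agent.S58.Semistable

/-!
Area R2, parcel D: at an odd prime of multiplicative reduction inertia fixes a point of exact
order four.
-/

set_option autoImplicit false
set_option linter.all false

noncomputable section

namespace FLTAgent.R2.Layer

open WeierstrassCurve IsLocalRing Polynomial FLTAgent.Local
open scoped WeierstrassCurve.Affine

section nodal

variable {K : Type*} [Field K] {A : ValuationSubring K} [DecidableEq K] [CharZero K]
  [IsAlgClosed K] [DecidableEq (ResidueField A)] {W0 : WeierstrassCurve A}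

/-- a point of exact order four on the zero component of a nodal model -/
theorem exists_four_inE0 (hW : Nodal W0) (hδ : A.valuation (W0.a₆ : K) ≠ 0)
    (h2 : A.valuation (2 : K) = 1) :
    ∃ P : (genFib W0).toAffine.Point, 4 • P = 0 ∧ 2 • P ≠ 0 ∧ InE0 P := by
  haveI : (genFib W0).IsElliptic :=
    ⟨isUnit_iff_ne_zero.2 fun e => hδ (by rw [← S58.val_Δ hW, e, map_zero])⟩
  set pA : A[X] := W0.preΨ' 4 with hpA
  set pK : K[X] := (genFib W0).preΨ' 4 with hpK
  have hmap : pK = pA.map A.subtype := by rw [hpK, hpA, ← map_preΨ']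
  have hlead : pK.leadingCoeff = (2 : K) := by
    rw [hpK, leadingCoeff_preΨ' _ (by norm_num : ((4 : ℕ) : K) ≠ 0), if_pos (by decide)]
    norm_num
  have hb : residue A W0.b₂ ≠ 0 := res_ne_zero.2 hW.b₂
  set z : A := ⟨-(W0.b₂ : K) / 2, (A.valuation_le_one_iff _).1 (by
    rw [map_div₀, Valuation.map_neg, hW.b₂, h2, div_one])⟩ with hzdef
  have hz2 : (2 : A) * z = -W0.b₂ := Subtype.ext (by
    show A.subtype ((2 : A) * z) = A.subtype (-W0.b₂)
    rw [map_mul, map_neg, map_ofNat, hzdef]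
    show (2 : K) * (-(W0.b₂ : K) / 2) = -(W0.b₂ : K)
    ring)
  have hr2 : (2 : ResidueField A) * residue A z = -residue A W0.b₂ := by
    rw [← map_ofNat (residue A) 2, ← map_mul, hz2, map_neg]
  have hz0 : residue A z ≠ 0 := fun e => hb (by rw [← neg_eq_zero, ← hr2, e, mul_zero])
  have h3 : residue A W0.a₃ = 0 := by rw [hW.a₃, map_zero]
  have h4 : residue A W0.a₄ = 0 := by rw [hW.a₄, map_zero]
  have h6 : residue A W0.a₆ = 0 := res_eq_zero.2 hW.a₆
  have hzero : residue A (pA.eval z) = 0 := by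
    rw [hpA, preΨ'_four, WeierstrassCurve.preΨ₄]
    have e4 : residue A W0.b₄ = 0 := by simp [WeierstrassCurve.b₄, h3, h4]
    have e6 : residue A W0.b₆ = 0 := by simp [WeierstrassCurve.b₆, h3, h6]
    have e8 : residue A W0.b₈ = 0 := by simp [WeierstrassCurve.b₈, h3, h4, h6]
    have c2 : residue A (2 : A) = (2 : ResidueField A) := map_ofNat (residue A) 2
    simp [e4, e6, e8, c2]
    linear_combination residue A z ^ 5 * hr2
  obtain ⟨x, hx, hxv⟩ : ∃ x ∈ pK.roots, A.valuation ((z : K) - x) < 1 := by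
    by_contra hcon
    push Not at hcon
    have e := (IsAlgClosed.splits pK).eval_eq_prod_roots (z : K)
    have hev : A.valuation (pK.eval (z : K)) < 1 := by
      rw [hmap, eval_map, show (z : K) = A.subtype z from rfl, eval₂_at_apply]
      exact (res_eq_zero (z := pA.eval z)).1 hzero
    rw [e, map_mul, hlead, h2, one_mul, map_multiset_prod, Multiset.map_map] at hev
    refine absurd hev (not_lt.2 (Multiset.one_le_prod fun v hv => ?_))
    obtain ⟨y, hy, rfl⟩ := Multiset.mem_map.1 hv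
    exact hcon y hy
  have hxA : x ∈ A := by
    have h : (z : K) - ((z : K) - x) ∈ A :=
      sub_mem z.2 ((A.valuation_le_one_iff _).1 hxv.le)
    simpa using h
  have hres : residue A ⟨x, hxA⟩ = residue A z := by
    refine (sub_eq_zero.1 ?_).symm
    rw [← map_sub]
    exact res_eq_zero.2 hxv
  obtain ⟨y, hy⟩ := Torsion.exists_nonsingular (genFib W0) x
  refine ⟨.some x y hy, (Torsion.nsmul_eq_zero_iff hy 4).2 ?_, ?_, ?_⟩
  · rw [WeierstrassCurve.ΨSq_ofNat, eval_mul, eval_pow,
      (isRoot_of_mem_roots hx : pK.eval x = 0), zero_pow two_ne_zero, zero_mul]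
  · rw [Ne, Torsion.nsmul_eq_zero_iff hy 2, Nat.cast_ofNat, ΨSq_two]
    intro h0
    have h0' : (W0.Ψ₂Sq).eval (⟨x, hxA⟩ : A) = 0 := by
      refine Subtype.ext ?_
      rw [show (genFib W0) = W0.map A.subtype from rfl, map_Ψ₂Sq, eval_map] at h0
      rw [show x = A.subtype ⟨x, hxA⟩ from rfl, eval₂_at_apply] at h0
      exact h0
    have h1 := congrArg (residue A) h0'
    have e4 : residue A W0.b₄ = 0 := by simp [WeierstrassCurve.b₄, h3, h4]
    have e6 : residue A W0.b₆ = 0 := by simp [WeierstrassCurve.b₆, h3, h6]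
    have c4 : residue A (4 : A) = (4 : ResidueField A) := map_ofNat (residue A) 4
    generalize hX : (⟨x, hxA⟩ : A) = X at h1
    rw [hX] at hres
    simp [WeierstrassCurve.Ψ₂Sq, e4, e6, hres, c4] at h1
    refine mul_ne_zero (pow_ne_zero 2 hz0) hb ?_
    linear_combination -h1 + 2 * residue A z ^ 2 * hr2
  · rw [hW.inE0_iff]
    simp only [dist1]
    split_ifs with hlt
    · exact absurd ((hres ▸ (res_eq_zero.2 (show A.valuation (((⟨x, hxA⟩ : A) : K)) < 1 from hlt)) : residue A z = 0)) hz0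
    · exact lt_irrefl 1

end nodal

local notation "Ω" => AlgebraicClosure ℚ

attribute [local instance] Classical.propDecidable

local instance decEqResidueR2 (A : ValuationSubring (AlgebraicClosure ℚ)) :
    DecidableEq (ResidueField A) := Classical.decEq _

/-- inertia at an odd prime of multiplicative reduction fixes a point of exact order four -/
theorem exists_four_fixed {W : WeierstrassCurve ℤ} {A : ValuationSubring Ω} {q : ℕ}
    (hA : A.LiesOverPrime q) (hq : q.Prime) (hq2 : q ≠ 2) (hd : (q : ℤ) ∣ W.Δ)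
    (hss : SemistableAt W q) (hΔ : W.Δ ≠ 0) :
    ∃ P : QPoint W, 4 • P = 0 ∧ 2 • P ≠ 0 ∧ ∀ σ ∈ A.inertiaSubgroupIn ℚ, σ • P = P := by
  obtain ⟨W1, φ, hN, hδ, hinj, h0, -, -⟩ := exists_nodal_model hA hq hd hss
  have hδ0 : A.valuation (W1.a₆ : Ω) ≠ 0 := by
    rw [hδ, Ne, map_eq_zero, Int.cast_eq_zero]; exact hΔ
  have hq4 : ¬ q ∣ 4 := fun h => hq2 ((Nat.prime_dvd_prime_iff_eq hq Nat.prime_two).1
    (hq.dvd_of_dvd_pow (show q ∣ 2 ^ 2 from h)))
  have h2v : A.valuation (2 : Ω) = 1 := by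
    have := valuation_natCast_of_not_dvd hA hq (m := 2)
      (fun h => hq2 ((Nat.prime_dvd_prime_iff_eq hq Nat.prime_two).1 h))
    exact_mod_cast this
  obtain ⟨Q, hQ4, hQ2, hQ0⟩ := exists_four_inE0 hN hδ0 h2v
  haveI : (genFib W1).IsElliptic :=
    ⟨isUnit_iff_ne_zero.2 fun e => hδ0 (by rw [← S58.val_Δ hN, e, map_zero])⟩
  let f : {P : QPoint W // 4 • P = 0} → {P : (genFib W1).toAffine.Point // 4 • P = 0} :=
    fun P => ⟨φ P.1, by rw [← map_nsmul, P.2, map_zero]⟩
  have hc1 := EllFrob.natCard_torsion (W := W) hΔ 4 (by norm_num)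
  have hc2 := Torsion.card_nsmul_kernel (genFib W1) 4 (by norm_num)
  haveI : Finite {P : QPoint W // 4 • P = 0} :=
    Nat.finite_of_card_ne_zero (by rw [hc1]; norm_num)
  haveI : Finite {P : (genFib W1).toAffine.Point // 4 • P = 0} :=
    Nat.finite_of_card_ne_zero (by rw [hc2]; norm_num)
  obtain ⟨P, hP⟩ := ((Nat.bijective_iff_injective_and_card f).2
    ⟨fun a b h => Subtype.ext (hinj (congrArg Subtype.val h)), by rw [hc1, hc2]⟩).2 ⟨Q, hQ4⟩
  have e : φ P.1 = Q := congrArg Subtype.val hP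
  have hPE : P.1 ∈ zeroComp W A := (h0 _).1 (by rw [e]; exact hQ0)
  refine ⟨P.1, P.2, fun h => hQ2 (by rw [← e, ← map_nsmul, h, map_zero]), fun σ hσ => ?_⟩
  rw [← sub_eq_zero]
  exact redKernel_torsion_eq_zero hA hq hq4 (inertia_sub_mem_redKernel hσ hPE)
    (by rw [nsmul_sub, smul_torsion P.2, P.2, sub_zero])

end FLTAgent.R2.Layer

end
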