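import Fermat.Agent.R2.Anchor
import Fermat.Agent.R2.PrimesLocal
import Fermat.Agent.R2.PrimesCocycle
import Fermat.Agent.MLT.PointTate
import Fermat.Agent.S58.Transfer
import Fermat.Agent.TH2.FieldTwo
import Fermat.Agent.TH2.FieldDisc

/-!
Area R2, parcel D: coordinates on the `2`-power torsion of an anchor and the three elements the
layer lemma needs (inertia at an odd bad prime, complex conjugation, all of `GL₂(𝔽₂)`).
-/

set_option autoImplicit false
set_option linter.style.haveILetI false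

noncomputable section

namespace FLTAgent.R2.Layer

open WeierstrassCurve Matrix
open FLTAgent.Torsion (Tors mkTors nsmul_tors curveBar isElliptic_curveBar)
open FLTAgent.Local (QPoint)
open FLTAgent.Attach (cyc)
open WeierstrassCurve.Affine.Point (galoisRepModuleEnd galoisRepModuleEnd_apply)
open scoped WeierstrassCurve.Affine

local notation "Ω" => AlgebraicClosure ℚ
local notation "GalQ" => AlgebraicClosure ℚ ≃ₐ[ℚ] AlgebraicClosure ℚ
local notation "M₂" => Matrix (Fin 2) (Fin 2) (ZMod 2)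
local notation "V₂" => Fin 2 → ZMod 2

variable {W : WeierstrassCurve ℤ} (T : MLT.TateBasis W 2) (hΔ : W.Δ ≠ 0)

/-- the action on the torsion killed by `2^(n+1)` in coordinates -/
def rep (n : ℕ) : GalQ →* Matrix (Fin 2) (Fin 2) (ZMod (2 ^ (n + 1))) where
  toFun := T.levelMat hΔ n
  map_one' := by rw [MLT.TateBasis.levelMat, map_one]; exact LinearMap.toMatrix_one _
  map_mul' σ τ := by
    rw [MLT.TateBasis.levelMat, map_mul]; exact LinearMap.toMatrix_mul _ _ _

theorem rep_eq_iff (n : ℕ) (σ τ : GalQ) :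
    rep T hΔ n σ = rep T hΔ n τ ↔ ∀ P : QPoint W, 2 ^ (n + 1) • P = 0 → σ • P = τ • P := by
  constructor
  · intro h P hP
    have h' := (LinearMap.toMatrix (T.basis hΔ n) (T.basis hΔ n)).injective
      (show T.levelMat hΔ n σ = T.levelMat hΔ n τ from h)
    exact congrArg Subtype.val (LinearMap.congr_fun h' (mkTors P hP))
  · intro h
    show T.levelMat hΔ n σ = T.levelMat hΔ n τ
    rw [MLT.TateBasis.levelMat, MLT.TateBasis.levelMat]
    congr 1
    exact LinearMap.ext fun x => Subtype.ext (h _ (nsmul_tors x))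

/-- the action modulo two -/
def red : GalQ →* M₂ := ((modTwo 0).mapMatrix (m := Fin 2)).toMonoidHom.comp (rep T hΔ 0)

theorem rep_map : ∀ (n : ℕ) (σ : GalQ), (rep T hΔ n σ).map (modTwo n) = red T hΔ σ := by
  intro n
  induction n with
  | zero => exact fun σ => rfl
  | succ n ih =>
    intro σ
    rw [← ih σ]
    show _ = (T.levelMat hΔ n σ).map (modTwo n)
    rw [← T.levelMat_cast hΔ n σ, Matrix.map_map]
    ext i j
    exact congrArg (fun f : ZMod (2 ^ (n + 1 + 1)) →+* ZMod 2 => f (T.levelMat hΔ (n + 1) σ i j))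
      (RingHom.ext_zmod (modTwo (n + 1)) ((modTwo n).comp (ZMod.castHom (pow_dvd_pow 2 n.succ.le_succ)
        (ZMod (2 ^ (n + 1))))))

/-- the two coordinate points of order two -/
def pts (v : V₂) : Tors W 2 :=
  mkTors ((v 0).val • T.pt 0 0 + (v 1).val • T.pt 1 0) (by
    have h : ∀ i, 2 • T.pt i 0 = 0 := fun i => by simpa using T.kill i 0
    rw [nsmul_add, ← mul_nsmul', ← mul_nsmul', mul_comm 2, mul_comm 2, mul_nsmul', mul_nsmul', h, h,
      nsmul_zero, nsmul_zero, add_zero])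

theorem val_add_nsmul {M : Type*} [AddCommMonoid M] {P : M} (hP : 2 • P = 0) :
    ∀ a b : ZMod 2, (a + b).val • P = a.val • P + b.val • P := by
  intro a b
  rw [ZMod.val_add, ← add_nsmul]
  conv_rhs => rw [← Nat.mod_add_div (a.val + b.val) 2, add_nsmul, mul_nsmul, hP, nsmul_zero,
    add_zero]

theorem pts_add (v u : V₂) : pts T (v + u) = pts T v + pts T u := by
  have h : ∀ i, 2 • T.pt i 0 = 0 := fun i => by simpa using T.kill i 0
  refine Subtype.ext ?_
  show (v 0 + u 0).val • T.pt 0 0 + (v 1 + u 1).val • T.pt 1 0 =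
    ((v 0).val • T.pt 0 0 + (v 1).val • T.pt 1 0) + ((u 0).val • T.pt 0 0 + (u 1).val • T.pt 1 0)
  rw [val_add_nsmul (h 0), val_add_nsmul (h 1)]
  abel

/-- coordinates on the two-torsion -/
def co : Tors W 2 ≃+ V₂ :=
  (AddEquiv.ofBijective (AddMonoidHom.mk' (pts T) (pts_add T)) (by
    haveI := isElliptic_curveBar hΔ
    haveI : Finite (Tors W 2) := Torsion.finite_torsionBy (curveBar W) 2 two_ne_zero
    refine (Nat.bijective_iff_injective_and_card _).2 ⟨?_, ?_⟩
    · rw [injective_iff_map_eq_zero]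
      intro v hv
      obtain ⟨h0, h1⟩ := T.indep _ _ (congrArg Subtype.val hv)
      funext i
      fin_cases i
      · exact (ZMod.val_eq_zero _).1 (Nat.eq_zero_of_dvd_of_lt h0 (ZMod.val_lt _))
      · exact (ZMod.val_eq_zero _).1 (Nat.eq_zero_of_dvd_of_lt h1 (ZMod.val_lt _))
    · rw [Nat.card_fun, Nat.card_zmod, Nat.card_fin,
        show Nat.card (Tors W 2) = 2 ^ 2 from Torsion.natCard_torsionBy (curveBar W) 2 two_ne_zero])).symm

theorem pts_mulVec (σ : GalQ) (v : V₂) : pts T (red T hΔ σ *ᵥ v) = σ • pts T v := by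
  have hcol : ∀ j : Fin 2, pts T (fun i => red T hΔ σ i j) =
      σ • pts T (Pi.single j 1) := by
    intro j
    refine Subtype.ext ?_
    have e : ∀ i, (red T hΔ σ i j).val = (T.levelMat hΔ 0 σ i j).val := fun i => by
      show (modTwo 0 (T.levelMat hΔ 0 σ i j)).val = _
      generalize T.levelMat hΔ 0 σ i j = a
      revert a
      decide
    show (red T hΔ σ 0 j).val • T.pt 0 0 + (red T hΔ σ 1 j).val • T.pt 1 0 =
      σ • (((Pi.single j 1 : V₂) 0).val • T.pt 0 0 + ((Pi.single j 1 : V₂) 1).val • T.pt 1 0)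
    rw [e, e, ← T.smul_pt hΔ 0 σ j]
    fin_cases j <;> simp [ZMod.val_one]
  set f : V₂ →+ Tors W 2 := AddMonoidHom.mk' (pts T) (pts_add T) with hf
  have hv : v = v 0 • (Pi.single 0 1 : V₂) + v 1 • (Pi.single 1 1 : V₂) := by
    funext i; fin_cases i <;> simp
  have hs : ∀ (a : ZMod 2) (j : Fin 2), f (red T hΔ σ *ᵥ (a • (Pi.single j 1 : V₂))) =
      σ • f (a • (Pi.single j 1 : V₂)) := by
    intro a j
    obtain rfl | rfl : a = 0 ∨ a = 1 := by revert a; decide
    · rw [zero_smul, Matrix.mulVec_zero, map_zero, smul_zero]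
    · rw [one_smul, Matrix.mulVec_single_one]
      exact hcol j
  show f _ = σ • f _
  rw [hv, Matrix.mulVec_add, map_add, map_add, smul_add, hs, hs]

theorem co_smul (σ : GalQ) (x : Tors W 2) :
    co T hΔ (σ • x) = red T hΔ σ *ᵥ co T hΔ x := by
  obtain ⟨v, rfl⟩ := (co T hΔ).symm.surjective x
  rw [AddEquiv.apply_symm_apply, ← AddEquiv.eq_symm_apply]
  exact (pts_mulVec T hΔ σ v).symm

theorem red_eq_one_iff (σ : GalQ) : red T hΔ σ = 1 ↔ TH2.FixesTwo W σ := by
  constructor
  · intro h P hP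
    have := co_smul T hΔ σ (mkTors P hP)
    rw [h, Matrix.one_mulVec] at this
    exact congrArg Subtype.val ((co T hΔ).injective this)
  · intro h
    refine Matrix.ext_of_mulVec_single fun j => ?_
    obtain ⟨x, hx⟩ := (co T hΔ).surjective (Pi.single j 1)
    rw [← hx, ← co_smul T hΔ, Matrix.one_mulVec,
      show σ • x = x from Subtype.ext (h _ (nsmul_tors x))]

theorem no_fixed (hirr : W.ModRepIsIrreducible 2) (v : V₂) (hv : ∀ σ, red T hΔ σ *ᵥ v = v) :
    v = 0 := by
  haveI : Fact (Nat.Prime 2) := ⟨Nat.prime_two⟩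
  obtain ⟨x, rfl⟩ := (co T hΔ).surjective v
  by_contra hx
  have hx0 : x ≠ 0 := fun e => hx (by rw [e, map_zero])
  have hfix : ∀ σ : GalQ, σ • x = x := fun σ => (co T hΔ).injective (by rw [co_smul, hv])
  have hN : Affine.Point.IsGaloisStable ℚ (Submodule.span (ZMod 2) {x}) := by
    intro σ z hz
    obtain ⟨c, rfl⟩ := Submodule.mem_span_singleton.mp hz
    rw [Torsion.smul_zmod_smul, hfix]
    exact hz
  obtain ⟨hfin, hrank⟩ := Torsion.finrank_tors hΔ 2
  rcases hirr.2 _ hN with e | e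
  · exact hx0 (Submodule.span_singleton_eq_bot.mp e)
  · have := finrank_span_singleton (K := ZMod 2) hx0
    rw [e, finrank_top] at this
    exact absurd (this.symm.trans hrank) (by decide)

/-- an element moving `√Δ` acts on the two-torsion as a transposition -/
theorem red_transposition {σ : GalQ} (hσ : σ (TH2.sqrtΔ W) ≠ TH2.sqrtΔ W) :
    red T hΔ σ * red T hΔ σ = 1 ∧ red T hΔ σ ≠ 1 := by
  obtain ⟨D⟩ := TH2.nonempty_trio hΔ
  have hs : Equiv.Perm.sign (D.perm σ) ≠ 1 := fun h => hσ ((D.fixes_sqrt_iff hΔ σ).2 h)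
  have hsq : D.perm σ * D.perm σ = 1 := by
    rcases TH2.perm_three_cases (D.perm σ) with e | e | e | e | e | e <;>
      rw [e] at hs ⊢ <;> revert hs <;> decide
  refine ⟨?_, fun h => hs ?_⟩
  · rw [← map_mul, red_eq_one_iff, D.fixesTwo_iff_perm hΔ, TH2.Trio.perm_mul, hsq]
  · rw [(D.fixesTwo_iff_perm hΔ σ).1 ((red_eq_one_iff T hΔ σ).1 h)]
    simp

/-- complex conjugation moves `√Δ` when `Δ < 0` -/
theorem conj_sqrt (hneg : W.Δ < 0) :
    complexConjugation (TH2.sqrtΔ W) ≠ TH2.sqrtΔ W := by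
  intro h
  have h1 := complexEmbedding_complexConjugation (TH2.sqrtΔ W)
  rw [h] at h1
  have h2 := congrArg complexEmbedding (TH2.sqrtΔ_sq W)
  rw [map_pow, map_intCast] at h2
  set z := complexEmbedding (TH2.sqrtΔ W)
  obtain ⟨x, hx⟩ := Complex.conj_eq_iff_real.1 h1.symm
  rw [hx] at h2
  have h3 : x ^ 2 = (W.Δ : ℝ) := by exact_mod_cast h2
  have : (W.Δ : ℝ) < 0 := by exact_mod_cast hneg
  nlinarith [sq_nonneg x]

/-- some inertia element at a prime where `Δ` has odd valuation moves `√Δ` -/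
theorem exists_inertia_sqrt {l : ℕ} (hl : l.Prime) {A : ValuationSubring Ω}
    (hA : A.LiesOverPrime l) (hΔ : W.Δ ≠ 0) (hodd : Odd (padicValInt l W.Δ)) :
    ∃ τ ∈ A.inertiaSubgroupIn ℚ, τ (TH2.sqrtΔ W) ≠ TH2.sqrtΔ W := by
  by_contra hno
  push Not at hno
  have hne : TH2.sqrtΔ W ≠ 0 := fun e => by
    have := TH2.sqrtΔ_sq W
    rw [e, zero_pow two_ne_zero] at this
    exact hΔ (Int.cast_eq_zero.1 this.symm)
  obtain ⟨i, hi⟩ := SS2.exists_zpow_valuation_T hl hA (SS2.mem_inertiaFixed.mpr hno) hne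
  have h := congrArg (· ^ 2) hi
  simp only [← map_pow, TH2.sqrtΔ_sq W] at h
  rw [Local.val_int_padic hA hl hΔ, ← zpow_natCast, ← zpow_natCast _ 2, ← _root_.zpow_mul] at h
  have h2 := (zpow_right_inj₀ (zero_lt_iff.mpr ((Valuation.ne_zero_iff _).mpr
    (Nat.cast_ne_zero.mpr hl.ne_zero))) (ne_of_lt hA)).mp h
  obtain ⟨j, hj⟩ := hodd
  omega

/-- every element satisfies a relation with constant term the cyclotomic character -/
theorem exists_rel (hΔ : W.Δ ≠ 0) (n : ℕ) [NeZero n] (σ : GalQ) :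
    ∃ a d : ℤ, (∀ P : QPoint W, n • P = 0 → σ • (σ • P) - a • (σ • P) + d • P = 0) ∧
      (d : ZMod n) = cyc n σ := by
  obtain ⟨L1, hL1, h1⟩ := EllFrob.exists_torsion_field hΔ n (NeZero.ne _)
  obtain ⟨L2, hL2, h2⟩ := Attach.exists_cyc_level n
  haveI := hL1; haveI := hL2
  obtain ⟨ℓ, A, τ, k, hℓ, hℓS, hA, hτ, hagree⟩ :=
    FLTAgent.Chebotarev.exists_frobenius_pow (L1 ⊔ L2) σ
      (n.primeFactors ∪ W.Δ.natAbs.primeFactors)
  simp only [Finset.mem_union, Nat.mem_primeFactors, not_or] at hℓS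
  obtain ⟨hℓn', hℓΔ⟩ := hℓS
  have hgood : ¬ (ℓ : ℤ) ∣ W.Δ := fun h => hℓΔ ⟨hℓ, Int.natCast_dvd.1 h, by simpa using hΔ⟩
  have hℓn : ¬ ℓ ∣ n := fun h => hℓn' ⟨hℓ, h, NeZero.ne _⟩
  refine ⟨FLTAgent.Attach.powerTrace (W.apOfModel ℓ) (ℓ : ℤ) k, (ℓ : ℤ) ^ k, fun P hP => ?_, ?_⟩
  · set F := galoisRepModuleEnd ℚ (K := Ω) (W.map (Int.castRingHom ℚ)) n
    have hrel : F τ * F τ - W.apOfModel ℓ • F τ + (ℓ : ℤ) • 1 = 0 := by
      refine LinearMap.ext fun x => Subtype.ext ?_
      simp only [LinearMap.add_apply, LinearMap.sub_apply, LinearMap.smul_apply,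
        Module.End.mul_apply, Module.End.one_apply, LinearMap.zero_apply, Submodule.coe_add,
        Submodule.coe_sub, Submodule.coe_smul_of_tower, ZeroMemClass.coe_zero, F,
        galoisRepModuleEnd_apply, Torsion.coe_smul]
      exact EllFrob.torsion_relation hℓ hgood hA hτ hℓn _ (nsmul_tors x)
    have hk := SS2.quadratic_pow hrel k
    rw [← map_pow] at hk
    have hx := congrArg (fun x : Tors W n => (x : QPoint W))
      (LinearMap.congr_fun hk (mkTors P hP))
    have hσ : ∀ x : Tors W n, τ ^ k • x = σ • x := fun x => h1 _ _ (fun z hz =>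
      hagree z (le_sup_left (a := L1) hz)) x
    simp only [LinearMap.add_apply, LinearMap.sub_apply, LinearMap.smul_apply,
      Module.End.mul_apply, Module.End.one_apply, LinearMap.zero_apply, Submodule.coe_add,
      Submodule.coe_sub, Submodule.coe_smul_of_tower, ZeroMemClass.coe_zero, F,
      galoisRepModuleEnd_apply, hσ, Torsion.coe_smul] at hx
    exact hx
  · have e : cyc n (τ ^ k) = cyc n σ := by
      have hfix : ∀ y ∈ L2, (σ⁻¹ * τ ^ k) y = y := fun y hy => by
        rw [AlgEquiv.mul_apply, hagree y (le_sup_right (a := L1) hy)]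
        exact σ.symm_apply_apply y
      calc cyc n (τ ^ k) = cyc n (σ * (σ⁻¹ * τ ^ k)) := by rw [mul_inv_cancel_left]
        _ = cyc n σ := by rw [Attach.cyc_mul, h2 _ hfix, mul_one]
    rw [← e, EllFrob.cyc_pow, Attach.cyc_frobenius hℓ hℓn hA hτ]
    push_cast
    rfl

/-- the determinant of an element that is not scalar modulo two is the cyclotomic character -/
theorem det_eq_cyc (n : ℕ) {σ : GalQ} (hσ : red T hΔ σ * red T hΔ σ = 1) (hne : red T hΔ σ ≠ 1) :
    (rep T hΔ n σ).det = cyc (2 ^ (n + 1)) σ := by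
  obtain ⟨a, d, hrel, hd⟩ := exists_rel hΔ (2 ^ (n + 1)) σ
  set M := rep T hΔ n σ with hM
  set E := MLT.levelEnd W 2 n σ with hE
  have hEq : E * E - a • E + d • (1 : Module.End _ _) = 0 :=
    LinearMap.ext fun x => Subtype.ext (by
      simp only [LinearMap.add_apply, LinearMap.sub_apply, LinearMap.smul_apply,
        Module.End.mul_apply, Module.End.one_apply, LinearMap.zero_apply, Submodule.coe_add,
        Submodule.coe_sub, Submodule.coe_smul_of_tower, ZeroMemClass.coe_zero, E,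
        galoisRepModuleEnd_apply, Torsion.coe_smul]
      exact hrel _ (nsmul_tors x))
  have hMeq : M * M - (a : ZMod (2 ^ (n + 1))) • M + (d : ZMod (2 ^ (n + 1))) • 1 = 0 := by
    have := congrArg (LinearMap.toMatrix (T.basis hΔ n) (T.basis hΔ n)) hEq
    rw [map_add, map_sub, map_zsmul, map_zsmul, map_zero, LinearMap.toMatrix_mul,
      LinearMap.toMatrix_one, ← Int.cast_smul_eq_zsmul (ZMod (2 ^ (n + 1))),
      ← Int.cast_smul_eq_zsmul (ZMod (2 ^ (n + 1)))] at this
    exact this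
  rw [ch_two] at hMeq
  have h2 : ((M.trace - a) • M + ((d : ZMod (2 ^ (n + 1))) - M.det) • (1 : Matrix _ _ _)) = 0 := by
    rw [← hMeq, sub_smul, sub_smul]; abel
  -- some off-diagonal entry or the difference of the diagonal is odd
  have hunit : ∀ x : ZMod (2 ^ (n + 1)), modTwo n x = 1 → IsUnit x := by
    intro x hx
    obtain ⟨k, rfl⟩ := ZMod.natCast_zmod_surjective x
    rw [ZMod.isUnit_iff_coprime]
    rw [map_natCast, ← Nat.cast_one, ZMod.natCast_eq_natCast_iff'] at hx
    exact Nat.Coprime.pow_right _ (Nat.coprime_comm.1 ((Nat.prime_two.coprime_iff_not_dvd).2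
      (by omega)))
  have hcases : M 0 1 = M 0 1 ∧ (modTwo n (M 0 1) = 1 ∨ modTwo n (M 1 0) = 1) := by
    refine ⟨rfl, ?_⟩
    have hm := rep_map T hΔ n σ
    have key : ∀ X : M₂, X * X = 1 → X ≠ 1 → X 0 1 = 1 ∨ X 1 0 = 1 := by decide
    have := key _ hσ hne
    rw [← hm] at this
    exact this
  have hta : M.trace - a = 0 := by
    rcases hcases.2 with h | h
    · have e := congrFun (congrFun h2 0) 1
      simp only [Matrix.add_apply, Matrix.smul_apply, smul_eq_mul, Matrix.one_apply_ne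
        (show (0 : Fin 2) ≠ 1 by decide), mul_zero, add_zero, Matrix.zero_apply] at e
      exact (hunit _ h).mul_left_eq_zero.1 e
    · have e := congrFun (congrFun h2 1) 0
      simp only [Matrix.add_apply, Matrix.smul_apply, smul_eq_mul, Matrix.one_apply_ne
        (show (1 : Fin 2) ≠ 0 by decide), mul_zero, add_zero, Matrix.zero_apply] at e
      exact (hunit _ h).mul_left_eq_zero.1 e
  have e := congrFun (congrFun h2 0) 0
  rw [hta, zero_smul, zero_add] at e
  simp only [Matrix.smul_apply, Matrix.one_apply_eq, smul_eq_mul, mul_one, Matrix.zero_apply,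
    sub_eq_zero] at e
  rw [← e, hd]

end FLTAgent.R2.Layer

end
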