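import Fermat.Agent.R2.DescentBasic
import Fermat.Agent.R2.DescentAlg
import Fermat.Agent.R2.Curve
import Fermat.Agent.R2.PrimesFrame
import Fermat.Agent.R2.JoinL0
import Fermat.Agent.MLT.SquareToricRed

/-!
Area R2, parcel DESCENT: the Galois module generated, modulo stable classes, by an eigenclass
satisfies the quadratic relations of the curve; consequences at a good prime.
-/

set_option autoImplicit false
set_option linter.unusedSectionVars false
set_option linter.unusedVariables false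
set_option linter.style.haveILetI false
set_option synthInstance.maxHeartbeats 400000
set_option maxHeartbeats 1000000

noncomputable section

open ModularCurve
open FLTAgent.Reduction (Qb)

namespace FLTAgent.R2.Desc

variable {L : ℕ} [NeZero L] {W : WeierstrassCurve ℤ}

/-- `z` is an eigenclass modulo `O` outside `S` -/
def EigOn (W : WeierstrassCurve ℤ) (O : AddSubgroup (JZero L)) (S : Finset ℕ) (z : JZero L) : Prop :=
  ∀ (l : ℕ) (hl : l.Prime), ¬ l ∣ L → l ∉ S →
    heckeOperatorBar L ⟨l, hl⟩ z - W.apOfModel l • z ∈ O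

theorem exists_rep (hW : IsAnchor W) (n : ℕ) (O : AddSubgroup (JZero L))
    (hO : ∀ (σ : GQ), ∀ x ∈ O, σ • x ∈ O) (S : Finset ℕ) {z : JZero L}
    (hz : 2 ^ (n + 1) • z = 0) (heig : EigOn W O S z) :
    ∃ (V : Type) (_ : AddCommGroup V) (_ : Module (ZMod (2 ^ (n + 1))) V)
      (ρ : GQ →* Module.End (ZMod (2 ^ (n + 1))) V) (e : V →+ JZero L ⧸ O) (v : V),
      Function.Injective e ∧ (∀ g, e (ρ g v) = QuotientAddGroup.mk (g • z)) ∧
      (∀ f f' : Module.End (ZMod (2 ^ (n + 1))) V, (∀ g, f (ρ g v) = f' (ρ g v)) → f = f') ∧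
      ∀ g, ρ g * ρ g = (Layer.rep (tate hW) hW.neg.ne n g).trace • ρ g -
        (Layer.rep (tate hW) hW.neg.ne n g).det • 1 := by
  classical
  let π : JZero L →+ JZero L ⧸ O := QuotientAddGroup.mk' O
  let act : GQ → (JZero L ⧸ O →+ JZero L ⧸ O) := fun g =>
    QuotientAddGroup.map O O (DistribSMul.toAddMonoidHom (JZero L) g) fun x hx => hO g x hx
  have hact : ∀ g x, act g (π x) = π (g • x) := fun g x => rfl
  have hgz : ∀ g : GQ, 2 ^ (n + 1) • (g • z) = 0 := fun g => by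
    refine ((map_nsmul (DistribSMul.toAddMonoidHom (JZero L) g) _ z).symm).trans ?_
    rw [hz]
    exact map_zero _
  have hone : ∀ x, act 1 x = x := fun x => by
    obtain ⟨y, rfl⟩ := QuotientAddGroup.mk_surjective x
    exact congrArg π (one_smul GQ y)
  have hmul : ∀ g h x, act (g * h) x = act g (act h x) := fun g h x => by
    obtain ⟨y, rfl⟩ := QuotientAddGroup.mk_surjective x
    exact congrArg π (mul_smul g h y)
  obtain ⟨V, i1, i2, ρ, e, v, he, hev, ext⟩ := exists_cyclic_rep act hone hmul (2 ^ (n + 1)) (π z)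
    (by rw [← map_nsmul, hz, map_zero])
  have hev' : ∀ g, e (ρ g v) = π (g • z) := fun g => (hev g).trans (hact g z)
  refine ⟨V, i1, i2, ρ, e, v, he, hev', ext, ?_⟩
  intro g
  set μ := Layer.rep (tate hW) hW.neg.ne n with hμ
  -- a field of definition
  obtain ⟨hfin, -⟩ := MLT.finite_card_killed L (n := 2 ^ (n + 1)) (pow_pos two_pos _)
  haveI := hfin
  choose Lz hLz hLzf using fun x : {x : JZero L // 2 ^ (n + 1) • x = 0} =>
    (Attach.galoisInputs L).exists_level x.1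
  haveI := hLz
  haveI : FiniteDimensional ℚ (⨆ x, Lz x : IntermediateField ℚ Qb) :=
    IntermediateField.finiteDimensional_iSup_of_finite
  obtain ⟨E₂, hE₂, hE₂f⟩ := (tate hW).exists_level hW.neg.ne n
  haveI := hE₂
  obtain ⟨l, B, φ, k, hl, hlS, hB, hφ, hk⟩ := Chebotarev.exists_frobenius_pow
    ((⨆ x, Lz x : IntermediateField ℚ Qb) ⊔ E₂) g
    (S ∪ {2} ∪ L.primeFactors ∪ W.Δ.natAbs.primeFactors)
  simp only [Finset.mem_union, Finset.mem_singleton, not_or, Nat.mem_primeFactors] at hlS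
  obtain ⟨⟨⟨hlS', hl2⟩, hlL⟩, hlΔ⟩ := hlS
  have hlL' : ¬ l ∣ L := fun h => hlL ⟨hl, h, NeZero.ne L⟩
  have hgood : ¬ (l : ℤ) ∣ W.Δ := fun h =>
    hlΔ ⟨hl, Int.natCast_dvd.1 h, Int.natAbs_ne_zero.2 hW.neg.ne⟩
  have hsame : ∀ x : JZero L, 2 ^ (n + 1) • x = 0 → (φ ^ k) • x = g • x := by
    intro x hx
    have h1 : (g⁻¹ * φ ^ k) • x = x := hLzf ⟨x, hx⟩ _ fun w hw => by
      rw [AlgEquiv.mul_apply, hk w ((le_iSup Lz ⟨x, hx⟩).trans le_sup_left hw), ← AlgEquiv.mul_apply,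
        inv_mul_cancel, AlgEquiv.one_apply]
    rwa [mul_smul, inv_smul_eq_iff] at h1
  have hμk : μ g = μ φ ^ k := by
    rw [← map_pow, hμ]
    exact (hE₂f (φ ^ k) g fun w hw => hk w (le_sup_right (a := ⨆ x, Lz x) hw)).symm
  have hρk : ρ g = ρ φ ^ k := by
    rw [← map_pow]
    refine ext _ _ fun h => ?_
    refine he ?_
    rw [← Module.End.mul_apply, ← Module.End.mul_apply, ← map_mul, ← map_mul, hev', hev', mul_smul,
      mul_smul, hsame _ (hgz h)]
  rw [hμk, hρk]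
  refine quadratic_pow (μ φ) (ρ φ) ?_ k
  have htr : (μ φ).trace = (W.apOfModel l : ZMod (2 ^ (n + 1))) := by
    have := trace_rE hW n hl hl2 hgood hB hφ
    rwa [rE_eq_levelMat] at this
  have hdet : (μ φ).det = (l : ZMod (2 ^ (n + 1))) := by
    have := det_rE hW n φ
    rw [rE_eq_levelMat] at this
    exact this.trans (Attach.cyc_frobenius hl (not_dvd_two_pow hl hl2 _) hB hφ)
  rw [htr, hdet]
  refine ext _ _ fun h => ?_
  simp only [LinearMap.sub_apply, LinearMap.smul_apply, Module.End.mul_apply, Module.End.one_apply,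
    Int.cast_smul_eq_zsmul, Nat.cast_smul_eq_nsmul]
  refine he ?_
  rw [map_sub, map_zsmul, map_nsmul]
  simp only [← Module.End.mul_apply, ← map_mul]
  rw [hev', hev', hev', ← map_zsmul, ← map_nsmul, ← map_sub]
  rw [eq_comm]
  refine (QuotientAddGroup.eq_iff_sub_mem).mpr ?_
  have hq := (Attach.galoisInputs L).frobenius_quadratic l hl hlL' B hB φ hφ (h • z)
    ⟨2 ^ (n + 1), pow_pos two_pos _, not_dvd_two_pow hl hl2 _, hgz h⟩
  rw [← mul_smul φ h z, ← (Attach.galoisInputs L).smul_hecke (φ * h) ⟨l, hl⟩ z] at hq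
  rw [mul_smul φ (φ * h) z, eq_sub_of_add_eq (show φ • (φ * h) • z + (l • h • z) =
    (φ * h) • heckeOperatorBar L ⟨l, hl⟩ z from sub_eq_zero.mp (by rw [← hq]; abel)),
    sub_sub_sub_cancel_right]
  have key := neg_mem (hO (φ * h) _ (heig l hl hlL' hlS'))
  have e1 : (φ * h) • (W.apOfModel l • z) = W.apOfModel l • (φ * h) • z :=
    map_zsmul (DistribSMul.toAddMonoidHom (JZero L) (φ * h)) _ z
  rw [smul_sub, e1, neg_sub] at key
  exact key

theorem isUnit_of_modTwo {n : ℕ} {x : ZMod (2 ^ (n + 1))} (h : Layer.modTwo n x = 1) : IsUnit x := by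
  obtain ⟨k, rfl⟩ := ZMod.natCast_zmod_surjective x
  rw [map_natCast] at h
  rw [ZMod.isUnit_iff_coprime]
  refine Nat.Coprime.pow_right _ (Nat.coprime_two_right.mpr ?_)
  exact (ZMod.natCast_eq_one_iff_odd).mp h

theorem two_dvd_of_modTwo {n : ℕ} {x : ZMod (2 ^ (n + 1))} (h : Layer.modTwo n x = 0) :
    (2 : ZMod (2 ^ (n + 1))) ∣ x :=
  Layer.exists_two_mul h

theorem red_det (hW : IsAnchor W) (σ : GQ) : (Layer.red (tate hW) hW.neg.ne σ).det = 1 := by
  refine det_eq_one_of_unit _ (IsUnit.of_mul_eq_one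
    (Layer.red (tate hW) hW.neg.ne σ⁻¹).det ?_)
  rw [← Matrix.det_mul, ← map_mul, mul_inv_cancel, map_one, Matrix.det_one]

theorem red_trace (hW : IsAnchor W) (n : ℕ) (σ : GQ) :
    (Layer.red (tate hW) hW.neg.ne σ).trace =
      Layer.modTwo n (Layer.rep (tate hW) hW.neg.ne n σ).trace := by
  rw [← Layer.rep_map (tate hW) hW.neg.ne n σ]
  exact (AddMonoidHom.map_trace (Layer.modTwo n).toAddMonoidHom _).symm

/-- an element of odd trace and, at a transposition prime, a transposition -/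
theorem exists_three (hW : IsAnchor W) {q : ℕ} (hq : TranspPrime W q) {A : ValuationSubring Qb}
    (hA : A.LiesOverPrime q) {σ : GQ} (hσ : A.IsFrobeniusAt σ q) :
    ∃ g : GQ, (Layer.red (tate hW) hW.neg.ne g).trace = 1 ∧
      (Layer.red (tate hW) hW.neg.ne σ).trace = 0 ∧
      (Layer.red (tate hW) hW.neg.ne (g * σ * g⁻¹ * σ⁻¹)).trace = 1 ∧
      (Layer.red (tate hW) hW.neg.ne (g * σ)).trace = 0 := by
  obtain ⟨hqp, hq2, hgood, hap, hmove⟩ := hq
  obtain ⟨l, hl, hl2, -, hlgood, hodd⟩ := Join.exists_l0 hW 1 {2}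
  obtain ⟨B, g, hB, hg⟩ := Alg.exists_place_frobenius l hl
  have hgood' : ¬ (q : ℤ) ∣ W.Δ := by exact hgood
  have h1 : ∀ {x : ℕ} {P : ValuationSubring Qb} {τ : GQ}, x.Prime → x ≠ 2 → ¬ (x : ℤ) ∣ W.Δ →
      P.LiesOverPrime x → P.IsFrobeniusAt τ x →
      (Layer.red (tate hW) hW.neg.ne τ).trace = (W.apOfModel x : ZMod 2) := by
    intro x P τ hx hx2 hxg hP hτ
    have := trace_rE hW 0 hx hx2 hxg hP hτ
    rw [rE_eq_levelMat] at this
    rw [red_trace hW 0 τ]
    exact (congrArg (Layer.modTwo 0) this).trans (map_intCast (Layer.modTwo 0) _)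
  have tg : (Layer.red (tate hW) hW.neg.ne g).trace = 1 := by
    rw [h1 hl (by simpa using hl2) hlgood hB hg]
    exact ZMod.intCast_eq_one_iff_odd.mpr hodd
  have tσ : (Layer.red (tate hW) hW.neg.ne σ).trace = 0 := by
    rw [h1 hqp hq2 hgood' hA hσ]
    exact (ZMod.intCast_zmod_eq_zero_iff_dvd _ 2).mpr hap
  have hne : Layer.red (tate hW) hW.neg.ne σ ≠ 1 := fun h => by
    obtain ⟨x, hx⟩ := hmove A hA σ hσ
    refine hx (Subtype.ext ?_)
    exact ((Layer.red_eq_one_iff (tate hW) hW.neg.ne σ).mp h) _ (Torsion.nsmul_tors x)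
  have hinv : ∀ τ : GQ, Layer.red (tate hW) hW.neg.ne τ⁻¹ =
      (Layer.red (tate hW) hW.neg.ne τ).adjugate := fun τ =>
    inv_eq_adjugate (by rw [← map_mul, mul_inv_cancel, map_one]) (red_det hW τ)
  obtain ⟨c1, c2⟩ := trace_commutator _ _ (red_det hW g) (red_det hW σ) tg tσ hne
  exact ⟨g, tg, tσ, by rw [map_mul, map_mul, map_mul, hinv, hinv]; exact c1,
    by rw [map_mul]; exact c2⟩

/-- inertia at a good transposition prime acts trivially modulo `O` on an eigenclass -/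
theorem inertia_mem (hW : IsAnchor W) (O : AddSubgroup (JZero L))
    (hO : ∀ (σ : GQ), ∀ x ∈ O, σ • x ∈ O) (S : Finset ℕ) {z : JZero L} (hz : z ∈ tor L)
    (heig : EigOn W O S z) {q : ℕ} (hq : TranspPrime W q) {A : ValuationSubring Qb}
    (hA : A.LiesOverPrime q) {τ : GQ} (hτ : τ ∈ A.inertiaSubgroupIn ℚ) : τ • z - z ∈ O := by
  obtain ⟨m, hm⟩ := hz
  obtain ⟨V, i1, i2, ρ, e, v, he, hev, -, hquad⟩ := exists_rep hW m O hO S
    (show 2 ^ (m + 1) • z = 0 by rw [pow_succ, mul_nsmul, hm, nsmul_zero]) heig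
  obtain ⟨B, A', hB, hA'⟩ := Alg.exists_place_frobenius q hq.1
  obtain ⟨g, -, -, hc, -⟩ := exists_three hW hq hB hA'
  have hτ1 : Layer.rep (tate hW) hW.neg.ne m τ = 1 := by
    have := rE_inertia_good hW m hq.1 hq.2.1 (by exact hq.2.2.1) hA hτ
    rwa [rE_eq_levelMat] at this
  have hu : IsUnit ((Layer.rep (tate hW) hW.neg.ne m (g * A' * g⁻¹ * A'⁻¹)).trace - 2) := by
    refine isUnit_of_modTwo ?_
    rw [map_sub, ← red_trace hW m, hc, map_ofNat]
    decide
  have h1 := eq_one_of_matrix_eq_one (Layer.rep (tate hW) hW.neg.ne m) ρ hquad hτ1 hu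
  have h2 := hev τ
  rw [h1, Module.End.one_apply, show v = ρ 1 v by rw [map_one, Module.End.one_apply],
    hev 1, one_smul] at h2
  exact (QuotientAddGroup.eq_iff_sub_mem).mp h2.symm

/-- a Frobenius at a transposition prime commuting with Galois on an eigenclass kills it -/
theorem central_mem (hW : IsAnchor W) (O : AddSubgroup (JZero L))
    (hO : ∀ (σ : GQ), ∀ x ∈ O, σ • x ∈ O) (S : Finset ℕ) {z : JZero L} (hz : z ∈ tor L)
    (heig : EigOn W O S z) {q : ℕ} (hq : TranspPrime W q) {A : ValuationSubring Qb}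
    (hA : A.LiesOverPrime q) {σ : GQ} (hσ : A.IsFrobeniusAt σ q)
    (hcomm : ∀ g h : GQ, σ • g • h • z - g • σ • h • z ∈ O) : z ∈ O := by
  obtain ⟨m, hm⟩ := hz
  obtain ⟨V, i1, i2, ρ, e, v, he, hev, hext, hquad⟩ := exists_rep hW m O hO S
    (show 2 ^ (m + 1) • z = 0 by rw [pow_succ, mul_nsmul, hm, nsmul_zero]) heig
  obtain ⟨g, tg, tσ, -, tgσ⟩ := exists_three hW hq hA hσ
  have hc : ρ g * ρ σ = ρ σ * ρ g := by
    refine hext _ _ fun h => he ?_
    simp only [← Module.End.mul_apply, ← map_mul, hev, mul_smul]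
    exact ((QuotientAddGroup.eq_iff_sub_mem).mpr (hcomm g h)).symm
  set μ := Layer.rep (tate hW) hW.neg.ne m
  have hmul : ∀ a b : GQ, ρ (a * b) = ρ a * ρ b := map_mul ρ
  have hdet : IsUnit (μ σ).det := IsUnit.of_mul_eq_one (μ σ⁻¹).det
    (by rw [← Matrix.det_mul, ← map_mul, mul_inv_cancel, map_one, Matrix.det_one])
  have hnil : IsNilpotent (2 : ZMod (2 ^ (m + 1))) :=
    ⟨m + 1, by exact_mod_cast ZMod.natCast_self (2 ^ (m + 1))⟩
  have hgu : IsUnit (ρ g) := ⟨⟨ρ g, ρ g⁻¹, by rw [← map_mul, mul_inv_cancel, map_one],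
    by rw [← map_mul, inv_mul_cancel, map_one]⟩, rfl⟩
  have egφ : ρ g * ρ σ * (ρ g * ρ σ) = (μ (g * σ)).trace • (ρ g * ρ σ) -
      ((μ g).det * (μ σ).det) • 1 := by
    have := hquad (g * σ)
    rwa [hmul, map_mul μ, Matrix.det_mul, ← map_mul μ] at this
  have := subsingleton_of_quadratic (A := Module.End (ZMod (2 ^ (m + 1))) V) hnil dvd_rfl hc hgu
    (hquad g) (hquad σ) egφ
    (isUnit_of_modTwo (by rw [← red_trace hW m]; exact tg)) hdet
    (two_dvd_of_modTwo (by rw [← red_trace hW m]; exact tσ))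
    (two_dvd_of_modTwo (by rw [← red_trace hW m]; exact tgσ))
  have h1 := hev 1
  rw [map_one, one_smul, Subsingleton.elim (1 : Module.End (ZMod (2 ^ (m + 1))) V) 0,
    LinearMap.zero_apply, map_zero] at h1
  exact (QuotientAddGroup.eq_zero_iff z).mp h1.symm

end FLTAgent.R2.Desc

end
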