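import Fermat.Agent.R2.DescentOld
import Fermat.Agent.R2.DescentRep

/-!
Area R2, parcel DESCENT: old classes up to powers of `eta`, and the classes at a place over `q` of
eigenclasses modulo them.
-/

set_option autoImplicit false
set_option linter.unusedSectionVars false
set_option linter.unusedVariables false
set_option linter.style.haveILetI false
set_option synthInstance.maxHeartbeats 400000

noncomputable section

open ModularCurve
open FLTAgent.Reduction (Qb Ctx)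

namespace FLTAgent.R2.Desc

/-- two-power torsion classes that are old after many applications of `eta` -/
def Sat (R : Finset ℕ) (L : ℕ) [NeZero L] (l : Nat.Primes) : AddSubgroup (JZero L) where
  carrier := {x | x ∈ tor L ∧ ∃ c, ∀ c', c ≤ c' → (eta L l)^[c'] x ∈ Old R L}
  zero_mem' := ⟨zero_mem _, 0, fun c' _ => by rw [eta_pow_zero]; exact zero_mem _⟩
  add_mem' := by
    rintro a b ⟨ha, c, hc⟩ ⟨hb, d, hd⟩
    refine ⟨add_mem ha hb, max c d, fun c' h => ?_⟩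
    rw [eta_pow_add]
    exact add_mem (hc c' ((le_max_left c d).trans h)) (hd c' ((le_max_right c d).trans h))
  neg_mem' := by
    rintro a ⟨ha, c, hc⟩
    refine ⟨neg_mem ha, c, fun c' h => ?_⟩
    rw [eta_pow_neg]
    exact neg_mem (hc c' h)

section Basic

variable {R : Finset ℕ} {L : ℕ} [NeZero L] {l : Nat.Primes}

theorem sat_le_tor : Sat R L l ≤ tor L := fun _ h => h.1

theorem sat_of_pow (hl : ¬ (l : ℕ) ∣ L) (hl2 : (l : ℕ) ≠ 2) {x : JZero L} (hx : x ∈ tor L) {c : ℕ}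
    (h : (eta L l)^[c] x ∈ Old R L) : x ∈ Sat R L l := by
  refine ⟨hx, c, fun c' hc => ?_⟩
  obtain ⟨d, rfl⟩ := Nat.exists_eq_add_of_le hc
  rw [add_comm, ← eta_pow_pow]
  exact old_eta_pow hl hl2 h d

theorem old_le_sat (hl : ¬ (l : ℕ) ∣ L) (hl2 : (l : ℕ) ≠ 2) : Old R L ≤ Sat R L l :=
  fun x hx => sat_of_pow hl hl2 (old_le_tor hx) (c := 0) hx

theorem sat_smul : ∀ (σ : GQ), ∀ x ∈ Sat R L l, σ • x ∈ Sat R L l := by
  rintro σ x ⟨hx, c, hc⟩
  refine ⟨smul_mem_tor σ hx, c, fun c' h => ?_⟩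
  rw [eta_pow_smul]
  exact old_smul σ (hc c' h)

theorem sat_of_eta (hl : ¬ (l : ℕ) ∣ L) (hl2 : (l : ℕ) ≠ 2) {x : JZero L} (hx : x ∈ tor L) {c : ℕ}
    (h : (eta L l)^[c] x ∈ Sat R L l) : x ∈ Sat R L l := by
  obtain ⟨-, d, hd⟩ := h
  refine sat_of_pow hl hl2 hx (c := d + c) ?_
  rw [← eta_pow_pow]
  exact hd d le_rfl

theorem sat_eta (hl : ¬ (l : ℕ) ∣ L) (hl2 : (l : ℕ) ≠ 2) {x : JZero L} (h : x ∈ Sat R L l) (c : ℕ) :
    (eta L l)^[c] x ∈ Sat R L l := by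
  obtain ⟨hx, d, hd⟩ := h
  refine sat_of_pow hl hl2 (eta_pow_mem_tor l hx c) (c := d) ?_
  rw [eta_pow_pow]
  exact hd _ (Nat.le_add_right d c)

theorem sat_mono {R' : Finset ℕ} (h : R' ⊆ R) : Sat R' L l ≤ Sat R L l :=
  fun x ⟨hx, c, hc⟩ => ⟨hx, c, fun c' h' => old_mono h (hc c' h')⟩

theorem hecke_eta (k : Nat.Primes) {x : JZero L} (hx : x ∈ tor L) :
    heckeOperatorBar L k (eta L l x) = eta L l (heckeOperatorBar L k x) := by
  obtain ⟨m, hm⟩ := hx
  rw [eta_apply, eta_apply, map_sub, map_nsmul]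
  exact congrArg (fun t => t - ((l : ℕ) + 1) • heckeOperatorBar L k x)
    (EIS.hecke_comm_tors L (pow_pos two_pos m) hm k l)

theorem hecke_eta_pow (k : Nat.Primes) {x : JZero L} (hx : x ∈ tor L) (c : ℕ) :
    heckeOperatorBar L k ((eta L l)^[c] x) = (eta L l)^[c] (heckeOperatorBar L k x) := by
  induction c with
  | zero => rfl
  | succ c ih =>
    rw [Function.iterate_succ_apply', Function.iterate_succ_apply',
      hecke_eta k (eta_pow_mem_tor l hx c), ih]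

theorem sat_hecke {k : Nat.Primes} (hk : ¬ (k : ℕ) ∣ L) (hk2 : (k : ℕ) ≠ 2) {x : JZero L}
    (h : x ∈ Sat R L l) : heckeOperatorBar L k x ∈ Sat R L l := by
  obtain ⟨hx, c, hc⟩ := h
  refine ⟨hecke_mem_tor k hx, c, fun c' h' => ?_⟩
  rw [← hecke_eta_pow k hx]
  exact old_hecke hk hk2 (hc c' h')

/-- uniformly on the classes of bounded order -/
theorem sat_uniform (hl : ¬ (l : ℕ) ∣ L) (hl2 : (l : ℕ) ≠ 2) (m : ℕ) :
    ∃ c, ∀ x ∈ Sat R L l, 2 ^ m • x = 0 → (eta L l)^[c] x ∈ Old R L := by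
  classical
  obtain ⟨hfin, -⟩ := MLT.finite_card_killed L (n := 2 ^ m) (pow_pos two_pos m)
  haveI := hfin
  haveI := Fintype.ofFinite {x : JZero L // 2 ^ m • x = 0}
  let f : {x : JZero L // 2 ^ m • x = 0} → ℕ := fun x =>
    if h : x.1 ∈ Sat R L l then h.2.choose else 0
  refine ⟨Finset.univ.sup f, fun x hx hm => ?_⟩
  refine hx.2.choose_spec _ ?_
  have h1 : f ⟨x, hm⟩ = hx.2.choose := dif_pos hx
  rw [← h1]
  exact Finset.le_sup (Finset.mem_univ _)

end Basic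

section Eig

variable {L : ℕ} [NeZero L] {W : WeierstrassCurve ℤ} {O : AddSubgroup (JZero L)} {S : Finset ℕ}

/-- the defect of being an eigenclass -/
def dev (W : WeierstrassCurve ℤ) (k : Nat.Primes) : JZero L →+ JZero L :=
  (heckeOperatorBar L k).toAddMonoidHom - W.apOfModel k • AddMonoidHom.id (JZero L)

theorem dev_apply (k : Nat.Primes) (x : JZero L) :
    dev W k x = heckeOperatorBar L k x - W.apOfModel k • x := rfl

theorem eigOn_iff {z : JZero L} : EigOn W O S z ↔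
    ∀ k : Nat.Primes, ¬ (k : ℕ) ∣ L → (k : ℕ) ∉ S → dev W k z ∈ O :=
  ⟨fun h k hk hk' => h k k.2 hk hk', fun h l hl hlL hlS => h ⟨l, hl⟩ hlL hlS⟩

theorem dev_smul (k : Nat.Primes) (σ : GQ) (x : JZero L) : dev W k (σ • x) = σ • dev W k x := by
  rw [dev_apply, dev_apply, smul_sub, (Attach.galoisInputs L).smul_hecke σ k x]
  exact congrArg₂ (· - ·) rfl (map_zsmul (DistribSMul.toAddMonoidHom (JZero L) σ) _ x).symm

theorem dev_eta_pow {l : Nat.Primes} (k : Nat.Primes) {x : JZero L} (hx : x ∈ tor L) (c : ℕ) :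
    dev W k ((eta L l)^[c] x) = (eta L l)^[c] (dev W k x) := by
  rw [dev_apply, dev_apply, hecke_eta_pow k hx, eta_pow_sub,
    show W.apOfModel k • (eta L l)^[c] x = (eta L l)^[c] (W.apOfModel k • x) from
      (iterate_map_zsmul (eta L l) c x _).symm]

theorem dev_sat {R : Finset ℕ} {l k : Nat.Primes} (hk : ¬ (k : ℕ) ∣ L) (hk2 : (k : ℕ) ≠ 2)
    {x : JZero L} (h : x ∈ Sat R L l) : dev W k x ∈ Sat R L l := by
  rw [dev_apply]
  exact sub_mem (sat_hecke hk hk2 h) (zsmul_mem h _)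

theorem eigOn_congr {R : Finset ℕ} {l : Nat.Primes} (h2 : 2 ∈ S) {z z' : JZero L}
    (h : EigOn W (Sat R L l) S z) (hd : z - z' ∈ Sat R L l) : EigOn W (Sat R L l) S z' := by
  rw [eigOn_iff] at h ⊢
  intro k hk hkS
  rw [show z' = z - (z - z') by abel, map_sub]
  exact sub_mem (h k hk hkS) (dev_sat hk (fun e => hkS (e ▸ h2)) hd)

theorem eigOn_eta {R : Finset ℕ} {l : Nat.Primes} (hl : ¬ (l : ℕ) ∣ L) (hl2 : (l : ℕ) ≠ 2)
    {z : JZero L} (hz : z ∈ tor L) (h : EigOn W (Sat R L l) S z) (c : ℕ) :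
    EigOn W (Sat R L l) S ((eta L l)^[c] z) := by
  rw [eigOn_iff] at h ⊢
  intro k hk hkS
  rw [dev_eta_pow k hz]
  exact sat_eta hl hl2 (h k hk hkS) c

theorem eigOn_nsmul {z : JZero L} (h : EigOn W O S z) (n : ℕ) : EigOn W O S (n • z) := by
  rw [eigOn_iff] at h ⊢
  intro k hk hkS
  rw [map_nsmul]
  exact nsmul_mem (h k hk hkS) n

theorem eigOn_smul (hO : ∀ (σ : GQ), ∀ x ∈ O, σ • x ∈ O) {z : JZero L} (h : EigOn W O S z) (σ : GQ) :
    EigOn W O S (σ • z) := by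
  rw [eigOn_iff] at h ⊢
  intro k hk hkS
  rw [dev_smul]
  exact hO σ _ (h k hk hkS)

end Eig

section Level

/-- the standing hypotheses at a place over `q` -/
structure Loc (r : ℕ) (R : Finset ℕ) (M q : ℕ) (l : Nat.Primes) : Prop where
  slots : Slots r R (M * q)
  ne_two : q ≠ 2
  ne_r : q ≠ r
  not_mem : q ∉ R
  not_dvd : ¬ (l : ℕ) ∣ M * q
  l_ne_two : (l : ℕ) ≠ 2

variable {M q : ℕ} [NeZero M] [NeZero q] {A : ValuationSubring Qb} (C : Ctx A M q)
  {r : ℕ} {R : Finset ℕ} {l : Nat.Primes} (H : Loc r R M q l)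
include C H

theorem not_dvd_M : ¬ (l : ℕ) ∣ M := fun e => H.not_dvd (e.trans (dvd_mul_right M q))

theorem fst_zsmul {y : JZero (M * q)} {a : JZero M} (h : Fst A y a) (n : ℤ) :
    Fst A (n • y) (n • a) := by
  obtain ⟨k, rfl | rfl⟩ := Int.eq_nat_or_neg n
  · rw [natCast_zsmul, natCast_zsmul]
    exact fst_nsmul C H.ne_two h k
  · rw [neg_smul, neg_smul, natCast_zsmul, natCast_zsmul]
    exact fst_neg C H.ne_two (fst_nsmul C H.ne_two h k)

theorem alpha_fixed {a : JZero M} (ha : a ∈ tor M) :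
    ∀ σ ∈ A.inertiaSubgroupIn ℚ, σ • up (dvd_mul_right M q) a = up (dvd_mul_right M q) a :=
  fun σ hσ => by rw [← up_smul, inertia_fix C.prime H.ne_two C.not_dvd C.lies hσ ha]

theorem up_sat {a : JZero M} (ha : a ∈ Sat R M l) :
    up (dvd_mul_right M q) a ∈ Sat R (M * q) l := by
  obtain ⟨hat, c, hc⟩ := ha
  refine sat_of_pow H.not_dvd H.l_ne_two (up_mem_tor _ hat) (c := c) ?_
  rw [← up_eta_pow (dvd_mul_right M q) H.not_dvd H.l_ne_two hat]
  exact up_old _ rfl (hc c le_rfl)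

theorem wJ_sat {x : JZero (M * q)} (h : x ∈ Sat R (M * q) l) :
    TOR.wJ C x ∈ Sat R (M * q) l := by
  obtain ⟨hx, c, hc⟩ := h
  refine ⟨wJ_mem_tor C hx, c, fun c' h' => ?_⟩
  rw [wJ_eta_pow C H.not_dvd H.l_ne_two hx]
  exact wJ_old C (fun x hx => ⟨(H.slots.slot x hx).1, fun e => H.not_mem (e ▸ hx)⟩) (hc c' h')

/-- the class of a fixed saturated old class -/
theorem fst_sat {x : JZero (M * q)} (hfix : ∀ σ ∈ A.inertiaSubgroupIn ℚ, σ • x = x)
    (h : x ∈ Sat R (M * q) l) {a : JZero M} (ha : Fst A x a) : a ∈ Sat R M l := by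
  obtain ⟨hx, c, hc⟩ := h
  obtain ⟨k, a', -, ha', -, h1, -⟩ := old_classes C H.slots H.ne_two H.ne_r H.not_mem l H.not_dvd
    H.l_ne_two (hc c le_rfl) (eta_pow_fixed C l hfix c)
  rw [eta_pow_pow] at h1
  refine sat_of_pow (not_dvd_M C H) H.l_ne_two (fst_mem_tor ha) (c := k + c) ?_
  rwa [fst_unique C H.ne_two (fst_eta_pow C H.ne_two H.not_dvd ha (k + c)) h1]

/-- a fixed class of the larger old group whose first class is old is old -/
theorem sat_of_first {x : JZero (M * q)} (hfix : ∀ σ ∈ A.inertiaSubgroupIn ℚ, σ • x = x)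
    (h : x ∈ Sat (insert q R) (M * q) l) {a : JZero M} (ha : Fst A x a) (hs : a ∈ Sat R M l) :
    x ∈ Sat R (M * q) l := by
  obtain ⟨hx, c, hc⟩ := h
  obtain ⟨a0, ha0, b0, hb0, e⟩ :=
    exists_split_insert (dvd_mul_right M q) C.prime.ne_zero rfl (hc c le_rfl)
  have hb0f : ∀ σ ∈ A.inertiaSubgroupIn ℚ, σ • b0 = b0 := fun σ hσ => by
    rw [← add_sub_cancel_left (up (dvd_mul_right M q) a0) b0, e, smul_sub,
      eta_pow_fixed C l hfix c σ hσ, alpha_fixed C H ha0 σ hσ]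
  obtain ⟨k, a', -, ha', -, h1, -⟩ := old_classes C H.slots H.ne_two H.ne_r H.not_mem l H.not_dvd
    H.l_ne_two hb0 hb0f
  have h2 := fst_add C H.ne_two (fst_alpha C H.ne_two (eta_pow_mem_tor l ha0 k)) h1
  rw [up_eta_pow (dvd_mul_right M q) H.not_dvd H.l_ne_two ha0, ← eta_pow_add, e, eta_pow_pow] at h2
  have h3 := fst_unique C H.ne_two (fst_eta_pow C H.ne_two H.not_dvd ha (k + c)) h2
  have hM := not_dvd_M C H
  have h4 : (eta M l)^[k] a0 ∈ Sat R M l := by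
    rw [show (eta M l)^[k] a0 = (eta M l)^[k + c] a - a' by rw [h3]; abel]
    exact sub_mem (sat_eta hM H.l_ne_two hs _) (old_le_sat hM H.l_ne_two ha')
  refine sat_of_eta H.not_dvd H.l_ne_two hx (c := k + c) ?_
  rw [← eta_pow_pow, ← e, eta_pow_add, ← up_eta_pow (dvd_mul_right M q) H.not_dvd H.l_ne_two ha0]
  exact add_mem (up_sat C H h4) (sat_eta H.not_dvd H.l_ne_two (old_le_sat H.not_dvd H.l_ne_two hb0) k)

/-- inertia moves no class outside the old classes away from `q` -/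
theorem monodromy_sat {τ : GQ} (hτ : τ ∈ A.inertiaSubgroupIn ℚ) {z : JZero (M * q)}
    (hz : z ∈ tor (M * q)) (h : τ • z - z ∈ Sat (insert q R) (M * q) l) :
    τ • z - z ∈ Sat R (M * q) l := by
  obtain ⟨-, hf, h1, -⟩ := inKer_sub C H.slots.prime H.slots.mod
    (H.slots.dvd_left C.prime H.ne_r) H.ne_two hτ hz
  exact sat_of_first C H hf h h1 (zero_mem _)

/-- up to old classes a class fixed modulo them has abelian classes -/
theorem split {τ : GQ} (hτ : Gen A q τ) {z : JZero (M * q)} (hz : z ∈ tor (M * q))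
    (h : τ • z - z ∈ Sat R (M * q) l) :
    ∃ (c : ℕ) (x : JZero (M * q)), InDom C x ∧ (eta (M * q) l)^[c] z - x ∈ Sat R (M * q) l := by
  obtain ⟨-, c, hc⟩ := h
  have h1 := hc c le_rfl
  rw [eta_pow_sub, eta_pow_smul] at h1
  obtain ⟨c', o, ho, hd⟩ := fixed_split C H.slots H.ne_two H.ne_r H.not_mem l H.not_dvd H.l_ne_two
    hτ (eta_pow_mem_tor l hz c) h1
  rw [eta_pow_pow] at hd
  exact ⟨c' + c, _, hd, by rw [sub_sub_cancel]; exact old_le_sat H.not_dvd H.l_ne_two ho⟩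

/-- a class with old abelian classes has, up to old classes, trivial ones -/
theorem inKer_adjust {x : JZero (M * q)} (hx : InDom C x) {a b : JZero M} (ha : Fst A x a)
    (hb : Fst A (TOR.wJ C x) b) (has : a ∈ Sat R M l) (hbs : b ∈ Sat R M l) :
    ∃ (c : ℕ) (k : JZero (M * q)), InKer C k ∧ (eta (M * q) l)^[c] x - k ∈ Sat R (M * q) l := by
  obtain ⟨-, c1, hc1⟩ := has
  obtain ⟨-, c2, hc2⟩ := hbs
  obtain ⟨g, hg, hgd, hga, hgb⟩ := old_lift C H.slots H.ne_two H.ne_r H.not_mem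
    (hc1 (c1 + c2) (Nat.le_add_right _ _)) (hc2 (c1 + c2) (Nat.le_add_left _ _))
  refine ⟨c1 + c2, (eta (M * q) l)^[c1 + c2] x - g, ⟨sub_mem (eta_pow_mem_tor l hx.1 _) hgd.1,
    fun σ hσ => by rw [smul_sub, eta_pow_fixed C l hx.2.1 _ σ hσ, hgd.2.1 σ hσ], ?_, ?_⟩, ?_⟩
  · simpa only [sub_self] using fst_sub C H.ne_two (fst_eta_pow C H.ne_two H.not_dvd ha (c1 + c2)) hga
  · have e := fst_eta_pow C H.ne_two H.not_dvd hb (c1 + c2)
    rw [wJ_eta_pow C H.not_dvd H.l_ne_two hx.1] at e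
    rw [map_sub]
    simpa only [sub_self] using fst_sub C H.ne_two e hgb
  · rw [sub_sub_cancel]
    exact old_le_sat H.not_dvd H.l_ne_two hg

variable {W : WeierstrassCurve ℤ} {S : Finset ℕ}

omit H in
theorem fst_dev (H : Loc r R M q l) {k : Nat.Primes} (hk : ¬ (k : ℕ) ∣ M * q)
    {y : JZero (M * q)} {a : JZero M} (h : Fst A y a) : Fst A (dev W k y) (dev W k a) := by
  rw [dev_apply, dev_apply]
  exact fst_sub C H.ne_two (fst_hecke C H.ne_two k.2 hk h) (fst_zsmul C H h _)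

theorem wJ_dev {k : Nat.Primes} (hk : ¬ (k : ℕ) ∣ M * q) (hk2 : (k : ℕ) ≠ 2)
    {y : JZero (M * q)} (hy : y ∈ tor (M * q)) :
    TOR.wJ C (dev W k y) = dev W k (TOR.wJ C y) := by
  rw [dev_apply, dev_apply, map_sub, map_zsmul, wJ_hecke C hk hk2 hy]

theorem dev_fixed (k : Nat.Primes) {y : JZero (M * q)}
    (hf : ∀ σ ∈ A.inertiaSubgroupIn ℚ, σ • y = y) :
    ∀ σ ∈ A.inertiaSubgroupIn ℚ, σ • dev W k y = dev W k y :=
  fun σ hσ => by rw [← dev_smul, hf σ hσ]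

/-- the classes of an eigenclass are eigenclasses -/
theorem eig_classes (h2 : 2 ∈ S) (hqS : q ∈ S) {x : JZero (M * q)} (hx : InDom C x)
    (he : EigOn W (Sat R (M * q) l) S x) {a b : JZero M} (ha : Fst A x a)
    (hb : Fst A (TOR.wJ C x) b) :
    EigOn W (Sat R M l) S a ∧ EigOn W (Sat R M l) S b := by
  have key : ∀ k : Nat.Primes, ¬ (k : ℕ) ∣ M → (k : ℕ) ∉ S →
      ¬ (k : ℕ) ∣ M * q ∧ (k : ℕ) ≠ 2 := fun k hk hkS =>
    ⟨fun e => (k.2.dvd_mul.mp e).elim hk fun e' =>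
      hkS ((Nat.prime_dvd_prime_iff_eq k.2 C.prime).mp e' ▸ hqS), fun e => hkS (e ▸ h2)⟩
  rw [eigOn_iff] at he ⊢
  rw [eigOn_iff]
  refine ⟨fun k hk hkS => ?_, fun k hk hkS => ?_⟩
  · obtain ⟨hk', -⟩ := key k hk hkS
    exact fst_sat C H (dev_fixed C H k hx.2.1) (he k hk' hkS) (fst_dev C H hk' ha)
  · obtain ⟨hk', hk2⟩ := key k hk hkS
    refine fst_sat C H (dev_fixed C H k (wJ_fixed C hx.2.1)) ?_ (fst_dev C H hk' hb)
    rw [← wJ_dev C H hk' hk2 hx.1]
    exact wJ_sat C H (he k hk' hkS)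

end Level

end FLTAgent.R2.Desc

end
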