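import Fermat.Agent.R2.DescentSat

/-!
Area R2, parcel DESCENT: removing one auxiliary prime.
-/

set_option autoImplicit false
set_option linter.unusedSectionVars false
set_option linter.unusedVariables false
set_option linter.style.haveILetI false
set_option synthInstance.maxHeartbeats 400000
set_option maxHeartbeats 1000000

noncomputable section

open ModularCurve
open FLTAgent.Reduction (Qb Ctx)

namespace FLTAgent.R2.Desc

variable {M q : ℕ} [NeZero M] [NeZero q] {A : ValuationSubring Qb} (C : Ctx A M q)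
  {r : ℕ} {R : Finset ℕ} {l : Nat.Primes} (H : Loc r R M q l) {W : WeierstrassCurve ℤ}
  {S : Finset ℕ}
include C H

theorem inKer_wJ {y : JZero (M * q)} (h : InKer C y) : InKer C (TOR.wJ C y) :=
  ⟨wJ_mem_tor C h.1, wJ_fixed C h.2.1, h.2.2.2, by rw [TOR.wJ_wJ]; exact h.2.2.1⟩

/-- Frobenius and the involution on classes that are, up to old classes, toric -/
theorem frobenius_sat {σ : GQ} (hσ : A.IsFrobeniusAt σ q) {z : JZero (M * q)}
    (hz : z ∈ tor (M * q)) {c : ℕ} {k : JZero (M * q)} (hk : InKer C k)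
    (h : (eta (M * q) l)^[c] z - k ∈ Sat R (M * q) l) :
    σ • z + q • TOR.wJ C z ∈ Sat R (M * q) l := by
  have h1 := frobenius_inKer C H.slots.prime H.slots.mod (H.slots.dvd_left C.prime H.ne_r)
    H.ne_two hσ (inKer_wJ C H hk)
  rw [TOR.wJ_wJ] at h1
  refine sat_of_eta H.not_dvd H.l_ne_two (c := c)
    (add_mem (smul_mem_tor σ hz) (nsmul_mem (wJ_mem_tor C hz) q)) ?_
  rw [eta_pow_add, eta_pow_smul, iterate_map_nsmul (eta (M * q) l),
    wJ_eta_pow C H.not_dvd H.l_ne_two hz]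
  set w := (eta (M * q) l)^[c] z
  have e : σ • w + q • TOR.wJ C w = σ • (w - k) + q • TOR.wJ C (w - k) := by
    rw [smul_sub, map_sub, nsmul_sub, h1]
    abel
  rw [e]
  exact add_mem (sat_smul σ _ h) (nsmul_mem (wJ_sat C H h) q)

theorem smul_nsmul' (g : GQ) (n : ℕ) (x : JZero (M * q)) : g • (n • x) = n • g • x :=
  map_nsmul (DistribSMul.toAddMonoidHom (JZero (M * q)) g) n x

theorem inDom_nsmul {x : JZero (M * q)} (h : InDom C x) (n : ℕ) : InDom C (n • x) := by
  induction n with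
  | zero => rw [zero_nsmul]; exact inDom_zero C H.ne_two
  | succ n ih => rw [succ_nsmul]; exact inDom_add C H.ne_two ih h

/-- an eigenclass whose `2 ^ i` multiples of the classes are old is, up to old classes, toric -/
theorem toric_of_killed (h2 : 2 ∈ S) (hqS : q ∈ S) (i : ℕ)
    (hno : ∀ h ∈ tor M, EigOn W (Sat R M l) S h → 2 ^ i • h ∈ Sat R M l)
    {x : JZero (M * q)} (hx : InDom C x) (he : EigOn W (Sat R (M * q) l) S x) :
    ∃ (c : ℕ) (k : JZero (M * q)), InKer C k ∧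
      (eta (M * q) l)^[c] (2 ^ i • x) - k ∈ Sat R (M * q) l := by
  obtain ⟨a, ha⟩ := hx.2.2.1
  obtain ⟨b, hb⟩ := hx.2.2.2
  obtain ⟨ea, eb⟩ := eig_classes C H h2 hqS hx he ha hb
  refine inKer_adjust C H (inDom_nsmul C H hx _) (fst_nsmul C H.ne_two ha _) ?_
    (hno a (fst_mem_tor ha) ea) (hno b (fst_mem_tor hb) eb)
  rw [map_nsmul]
  exact fst_nsmul C H.ne_two hb _

/-- one step of the descent -/
theorem exists_step (hW : IsAnchor W) (hq : TranspPrime W q) (h2 : 2 ∈ S) (hqS : q ∈ S) (i : ℕ)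
    {y : JZero (M * q)} (hy : y ∈ tor (M * q))
    (heig : EigOn W (Sat (insert q R) (M * q) l) S y)
    (hord : 2 ^ (i + i) • y ∉ Sat (insert q R) (M * q) l) :
    ∃ h ∈ tor M, EigOn W (Sat R M l) S h ∧ 2 ^ i • h ∉ Sat R M l := by
  classical
  by_contra hno'
  have hno : ∀ h ∈ tor M, EigOn W (Sat R M l) S h → 2 ^ i • h ∈ Sat R M l := fun h h1 h2 => by
    by_contra h3
    exact hno' ⟨h, h1, h2, h3⟩
  have hrM := H.slots.dvd_left C.prime H.ne_r
  have hl := H.not_dvd
  have hl2 := H.l_ne_two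
  have hsub : R ⊆ insert q R := Finset.subset_insert q R
  obtain ⟨τ, hτ⟩ := exists_gen C H.ne_two
  -- the class of `y`, with first class removed
  have hyτ := inertia_mem hW _ sat_smul S hy heig hq C.lies hτ.1
  obtain ⟨c, x0, hx0, hd0⟩ := split C H hτ hy (monodromy_sat C H hτ.1 hy hyτ)
  obtain ⟨g1, hg1⟩ := hx0.2.2.1
  have hg1t := fst_mem_tor hg1
  set Z := eta (M * q) l (x0 - up (dvd_mul_right M q) g1) with hZ
  have hfix : ∀ σ ∈ A.inertiaSubgroupIn ℚ,
      σ • (x0 - up (dvd_mul_right M q) g1) = x0 - up (dvd_mul_right M q) g1 :=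
    fun σ hσ => by rw [smul_sub, hx0.2.1 σ hσ, alpha_fixed C H hg1t σ hσ]
  have ht : x0 - up (dvd_mul_right M q) g1 ∈ tor (M * q) := sub_mem hx0.1 (up_mem_tor _ hg1t)
  have hZd : InDom C Z := inDom_eta C H.slots.prime H.slots.mod hrM H.ne_two l hl ht hfix
  have hZ1 : Fst A Z 0 := by
    have := fst_eta C H.ne_two hl (fst_sub C H.ne_two hg1 (fst_alpha C H.ne_two hg1t))
    rwa [sub_self, map_zero] at this
  have hupO : up (dvd_mul_right M q) g1 ∈ Sat (insert q R) (M * q) l :=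
    old_le_sat hl hl2 (up_mem_old (Finset.mem_insert_self q R) rfl _ hg1t)
  have hyZ : (eta (M * q) l)^[c + 1] y - Z ∈ Sat (insert q R) (M * q) l := by
    rw [hZ, Function.iterate_succ_apply', ← map_sub]
    refine sat_eta hl hl2 (c := 1) ?_
    rw [show (eta (M * q) l)^[c] y - (x0 - up (dvd_mul_right M q) g1) =
      ((eta (M * q) l)^[c] y - x0) + up (dvd_mul_right M q) g1 by abel]
    exact add_mem (sat_mono hsub hd0) hupO
  have heZ1 := eigOn_congr h2 (eigOn_eta hl hl2 hy heig (c + 1)) hyZ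
  have heZ : EigOn W (Sat R (M * q) l) S Z := by
    rw [eigOn_iff] at heZ1 ⊢
    intro k hk hkS
    refine sat_of_first C H (dev_fixed C H k hZd.2.1) (heZ1 k hk hkS)
      (a := dev W k (0 : JZero M)) (fst_dev C H hk hZ1) ?_
    rw [map_zero]
    exact zero_mem _
  obtain ⟨c1, k, hk, hdk⟩ := toric_of_killed C H h2 hqS i hno hZd heZ
  have hkt := hk.1
  have hek : EigOn W (Sat R (M * q) l) S k :=
    eigOn_congr h2 (eigOn_eta hl hl2 (nsmul_mem hZd.1 _) (eigOn_nsmul heZ _) c1) hdk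
  -- the translates of `k`
  obtain ⟨σ, hσ⟩ : ∃ σ, A.IsFrobeniusAt σ q := EIS.exists_frobenius_at C.prime C.lies
  have hE : ∀ g : GQ, σ • g • (2 ^ i • k) + q • TOR.wJ C (g • (2 ^ i • k)) ∈ Sat R (M * q) l := by
    intro g
    have hgt : g • k ∈ tor (M * q) := smul_mem_tor g hkt
    have hge := eigOn_smul sat_smul hek g
    obtain ⟨c2, x, hx, hdx⟩ := split C H hτ hgt (inertia_mem hW _ sat_smul S hgt hge hq C.lies hτ.1)
    obtain ⟨c3, kk, hkk, hdkk⟩ := toric_of_killed C H h2 hqS i hno hx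
      (eigOn_congr h2 (eigOn_eta hl hl2 hgt hge c2) hdx)
    rw [smul_nsmul' C H g]
    refine frobenius_sat C H hσ (nsmul_mem hgt _) hkk (c := c3 + c2) ?_
    rw [← eta_pow_pow, iterate_map_nsmul (eta (M * q) l) c2]
    rw [show (eta (M * q) l)^[c3] (2 ^ i • (eta (M * q) l)^[c2] (g • k)) - kk =
      (eta (M * q) l)^[c3] (2 ^ i • ((eta (M * q) l)^[c2] (g • k) - x)) +
        ((eta (M * q) l)^[c3] (2 ^ i • x) - kk) by
      rw [nsmul_sub, eta_pow_sub]; abel]
    exact add_mem (sat_eta hl hl2 (nsmul_mem hdx _) c3) hdkk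
  have hzt : 2 ^ i • k ∈ tor (M * q) := nsmul_mem hkt _
  have hcomm : ∀ g h : GQ, σ • g • h • (2 ^ i • k) - g • σ • h • (2 ^ i • k) ∈ Sat R (M * q) l := by
    intro g h
    have e1 := hE (g * h)
    rw [mul_smul] at e1
    have e2 := sat_smul g _ (hE h)
    rw [smul_add, smul_nsmul' C H g, ← TOR.wJ_smul] at e2
    rw [show σ • g • h • (2 ^ i • k) - g • σ • h • (2 ^ i • k) =
      (σ • g • h • (2 ^ i • k) + q • TOR.wJ C (g • h • (2 ^ i • k))) -
        (g • σ • h • (2 ^ i • k) + q • TOR.wJ C (g • h • (2 ^ i • k))) by abel]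
    exact sub_mem e1 e2
  have hkill := central_mem hW _ sat_smul S hzt (eigOn_nsmul hek _) hq C.lies hσ hcomm
  -- back to `y`
  refine hord (sat_of_eta hl hl2 (nsmul_mem hy _) (c := c1 + (c + 1)) ?_)
  rw [← eta_pow_pow, iterate_map_nsmul (eta (M * q) l) (c + 1), pow_add, mul_nsmul,
    iterate_map_nsmul (eta (M * q) l) c1]
  have e1 : (eta (M * q) l)^[c1] (2 ^ i • (eta (M * q) l)^[c + 1] y) =
      (eta (M * q) l)^[c1] (2 ^ i • ((eta (M * q) l)^[c + 1] y - Z)) +
        ((eta (M * q) l)^[c1] (2 ^ i • Z) - k) + k := by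
    rw [nsmul_sub, eta_pow_sub]; abel
  rw [e1, nsmul_add, nsmul_add]
  exact add_mem (add_mem (nsmul_mem (sat_eta hl hl2 (nsmul_mem hyZ _) c1) _)
    (nsmul_mem (sat_mono hsub hdk) _)) (sat_mono hsub hkill)

end FLTAgent.R2.Desc

end
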