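import Fermat.Agent.TOR.ToricGalois
import Fermat.Agent.LL.MazurSwap

/-!
Area R2, at the place over two: an automorphism exchanging the two components sends a class of order
two with a representative twist and `PushInput` to its opposite.

On either component the first residual error of the twist is `x ^ 2 + x`; at a double point the two
values of `x` differ by an element of `F₂`, which the exchange does not move, so the two `x` of the
sum of the class and its image glue and can be removed.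
-/

set_option autoImplicit false
set_option linter.unusedSectionVars false
set_option linter.style.haveILetI false
set_option synthInstance.maxHeartbeats 200000

noncomputable section

open AlgebraicCurve IsLocalRing
open FLTAgent.RR (Bd Pol)
open FLTAgent.Reduction (Val)
open FLTAgent.SS (Core Data Rep Arch)
open FLTAgent.TOR (gi mem_gi const_mem_gi IsPi PushInput DiscreteFields)
open FLTAgent.LL (Exchanges repSwap)

namespace FLTAgent.R2

variable {K : Type*} [Field K] [IsAlgClosed K] [CharZero K] {A : ValuationSubring K}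
  {F : Type*} [Field F] [Algebra K F] [RR.FnField K F]
  {Fs : Type*} [Field Fs] [Algebra (ResidueField A) Fs]

local notation "𝕜" => ResidueField A
local notation "ι'" => algebraMap K F

local instance fact_two_prime_exchange : Fact (Nat.Prime 2) := ⟨Nat.prime_two⟩

/-- `x ^ 2 + x` has poles twice as large as `x` -/
theorem bd_of_artinSchreier {k E : Type*} [Field k] [Field E] [Algebra k E] {Q : Place k E} {x : E}
    (h : Bd Q (x ^ 2 + x) 0) : Bd Q x 0 := by
  rcases eq_or_ne x 0 with rfl | hx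
  · exact RR.Bd.zero
  by_contra hc
  rw [RR.bd_iff_ord hx] at hc
  push Not at hc
  have h2 : Q.ord (x ^ 2) = 2 * Q.ord x := by rw [RR.ord_pow]; norm_num
  have hlt : Q.ord (x ^ 2) < Q.ord x := by omega
  obtain ⟨h0, he⟩ := RR.ord_add_eq Q (pow_ne_zero 2 hx) (Or.inr hlt)
  rw [RR.bd_iff_ord h0, he] at h
  omega

variable [CharP (ResidueField A) 2]

/-- the square roots of one to the order four -/
theorem exists_artinSchreier (C : Core K A F Fs) (b : Bool) {w : F} (hw : w ∈ C.G b) {x : F}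
    (hπ : IsPi A 2 (-2 : K)) (he : x ^ 2 = 1 + ι' ((-2) ^ 2) * w) :
    ∃ r : Fs, r ^ 2 + r = C.red b w := by
  haveI : CharP Fs 2 := charP_of_injective_algebraMap (algebraMap 𝕜 Fs).injective 2
  have hc : A.valuation ((-2 : K) ^ 2) < 1 := by
    rw [map_pow]; exact pow_lt_one₀ zero_le hπ.lt two_ne_zero
  have hcw : ι' ((-2) ^ 2) * w ∈ C.G b := C.const_mul_mem b (TOR.mem_of_val_le hc.le) hw
  have hx2 : x ^ 2 ∈ C.G b := he ▸ add_mem (one_mem _) hcw
  have hx : x ∈ C.G b := TOR.mem_of_pow_mem b two_ne_zero hx2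
  have hxr : C.red b x = 1 := by
    have h1 : C.red b x ^ 2 = 1 ^ 2 := by
      rw [← C.red_pow b hx, he, C.red_add b _ (one_mem _) _ hcw, C.red_one,
        TOR.red_const_mul_lt b hc hw, add_zero, one_pow]
    exact frobenius_inj Fs 2 h1
  obtain ⟨g, hg, hge, -⟩ := TOR.exists_eq_one_add (C := C) b hπ.p_lt hπ.ne
    (by simpa using hπ.eq) hx hw hxr he
  have hk : ι' ((-2 : K) ^ 2) ≠ 0 := (_root_.map_ne_zero _).mpr (pow_ne_zero _ hπ.ne)
  have hwg : w = g ^ 2 - g := by
    refine mul_left_cancel₀ hk ?_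
    have h1 : ι' (-2 : K) = -2 := by rw [map_neg, map_ofNat]
    rw [map_pow, h1] at he ⊢
    rw [hge, h1] at he
    linear_combination -he
  refine ⟨C.red b g, ?_⟩
  rw [hwg, C.red_sub b (pow_mem hg 2) hg, C.red_pow b hg, CharTwo.sub_eq_add]

variable {D : Data K A F Fs}

/-- on each component the residual error is `x ^ 2 + x` -/
theorem exists_error_root (R : Rep D.toCore 2) (hP : PushInput R) (hπ : IsPi A 2 (-2 : K))
    {s z : F} (hz : ∀ b, z ∈ D.G b) (he : s ^ 2 * R.f = 1 + ι' ((-2) ^ 2) * z) (b : Bool) :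
    ∃ r : Fs, r ^ 2 + r = D.red b z := by
  obtain ⟨r, e, t, -, -, hspec⟩ := hP 1 (fun _ => s) b
  obtain ⟨u, hu, hpow, hru⟩ := hspec (fun _ => 1) ((-2) ^ 2) z (pow_ne_zero _ hπ.ne)
    (by rw [map_pow]; exact pow_lt_one₀ zero_le hπ.lt two_ne_zero) hz (by simpa using he)
  obtain ⟨x, hx⟩ := exists_artinSchreier D.toCore b hu hπ hpow
  exact ⟨x, hx.trans hru⟩

/-- `z` with `x ^ 2 f = J ^ (2 k) + 4 z` is a section of twice the poles -/
theorem error_mem_rr (R : Rep D.toCore 2) {m k : ℕ} (hk : k ≤ m) {x z : F} (hx : x ∈ R.L m)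
    (he : x ^ 2 * R.f = D.J ^ (2 * k) + ι' ((-2) ^ 2) * z) :
    z ∈ riemannRochSpace ((2 * m) • Pol (K := K) D.J) := by
  have hc : ((-2 : K) ^ 2) ≠ 0 := by norm_num
  have e : z = ((-2 : K) ^ 2)⁻¹ • (x ^ 2 * R.f - D.J ^ (2 * k)) := by
    rw [Algebra.smul_def, he, add_sub_cancel_left, ← mul_assoc, ← map_mul, inv_mul_cancel₀ hc,
      map_one, one_mul]
  rw [e]
  refine Submodule.smul_mem _ _ (Submodule.sub_mem _ ?_ ?_)
  · intro P
    refine (((SS.mem_rr.mp hx P).pow 2).mul (SS.mem_rr.mp R.f_rr P)).mono (le_of_eq ?_)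
    simp only [Finsupp.add_apply, Finsupp.smul_apply, RR.Pol_apply, nsmul_eq_mul]
    push_cast
    simp [Finsupp.smul_apply]
    ring
  · intro P
    show Bd P (D.J ^ (2 * k)) _
    rw [RR.bd_iff_ord (pow_ne_zero _ D.toCore.J_ne_zero), RR.ord_pow, Finsupp.smul_apply,
      RR.Pol_apply, nsmul_eq_mul]
    have h1 : ((2 * k : ℕ) : ℤ) ≤ ((2 * m : ℕ) : ℤ) := by exact_mod_cast Nat.mul_le_mul_left 2 hk
    have h2 := mul_le_mul_of_nonneg_right h1 (le_max_right (-P.ord D.J) 0)
    have h3 := mul_le_mul_of_nonneg_left (le_max_left (-P.ord D.J) 0) (Int.natCast_nonneg (2 * k))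
    rw [mul_neg] at h3
    linarith

/-- regular where `Jbar` has no pole -/
theorem bd_fin_of_target {a : Fs} {m : ℕ} (ha : a ∈ SS.target (k := 𝕜) D.Jbar m)
    {Q : Place 𝕜 Fs} (hQ : 0 ≤ Q.ord D.Jbar) : Bd Q a 0 := by
  refine (SS.mem_target.mp ha Q).mono (le_of_eq ?_)
  rw [max_eq_right (by omega), mul_zero]

/-- the exchanged sum of a twist -/
def exchanged (R : Rep D.toCore 2) {g : SemilinearAut K F} {gs : Fs ≃+* Fs}
    (hg : Exchanges D.toCore g gs) : Rep D.toCore 2 :=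
  (repSwap R hg).mul R

section Exchange

variable (R : Rep D.toCore 2) {g : SemilinearAut K F} {gs : Fs ≃+* Fs}
  (hg : Exchanges D.toCore g gs)

theorem exchanged_mul {x : F} (b : Bool) :
    ι' ((exchanged R hg).α b) * (g • x * x) =
      g • (ι' (R.α (!b)) * x) * (ι' (R.α b) * x) := by
  show ι' (SemilinearAut.baseAut g (R.α (!b)) * R.α b) * (g • x * x) = _
  rw [smul_mul', SemilinearAut.smul_algebraMap, map_mul]
  ring

theorem exchanged_integ {x : F} (hx : R.Integ x) : (exchanged R hg).Integ (g • x * x) := fun b => by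
  rw [exchanged_mul]
  have h := hg.mem (!b) _ (hx (!b))
  rw [Bool.not_not] at h
  exact mul_mem h (hx b)

theorem exchanged_res {x : F} (hx : R.Integ x) (hxr : R.res x = 1) :
    (exchanged R hg).res (g • x * x) = 1 := funext fun b => by
  show D.red b (ι' ((exchanged R hg).α b) * (g • x * x)) * (gs (R.h (!b)) * R.h b) = 1
  have h := hg.mem (!b) _ (hx (!b))
  have h' := hg.red (!b) _ (hx (!b))
  rw [Bool.not_not] at h h'
  rw [exchanged_mul, D.red_mul b _ h _ (hx b), h', mul_mul_mul_comm, ← map_mul,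
    show D.red (!b) (ι' (R.α (!b)) * x) * R.h (!b) = 1 from congrFun hxr (!b),
    show D.red b (ι' (R.α b) * x) * R.h b = 1 from congrFun hxr b, map_one, one_mul]

theorem exchanged_eq {x : F} : (g • x * x) ^ 2 * (exchanged R hg).f
    = g • (x ^ 2 * R.f) * (x ^ 2 * R.f) := by
  show _ * (g • R.f * R.f) = _
  rw [smul_mul', smul_pow', mul_pow]
  ring

include hg in
theorem ord_J_exchange (P : Place K F) : P.ord D.J = (g⁻¹ • P).ord D.J := by
  have h := SemilinearAut.ord_smul g (g⁻¹ • P) D.J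
  rwa [smul_inv_smul, hg.J_eq] at h

include hg in
theorem exchanged_bd {x : F} {P : Place K F} {e e' : ℤ}
    (h : Bd (g⁻¹ • P) x e) (h' : Bd P x e') : Bd P (g • x * x) (e + e') := by
  refine RR.Bd.mul ?_ h'
  rw [RR.bd_iff]
  rcases eq_or_ne x 0 with rfl | hx
  · exact Or.inl (smul_zero _)
  refine Or.inr ?_
  have h2 := SemilinearAut.ord_smul g (g⁻¹ • P) x
  rw [smul_inv_smul] at h2
  rw [h2]
  exact (RR.bd_iff_ord hx).mp h

theorem exchanged_L {x : F} {m : ℕ} (hx : x ∈ R.L m) :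
    g • x * x ∈ (exchanged R hg).L (2 * m) := fun P => by
  refine (exchanged_bd hg (SS.mem_rr.mp hx (g⁻¹ • P)) (SS.mem_rr.mp hx P)).mono (le_of_eq ?_)
  simp only [exchanged, repSwap, SS.Rep.mul, Finsupp.add_apply, Finsupp.smul_apply,
    RR.Pol_apply, nsmul_eq_mul, SemilinearAut.divisor_smul_apply, ← ord_J_exchange hg P]
  push_cast
  ring

theorem exchanged_onInf {x : F} (hx : R.OnInf x) :
    (exchanged R hg).OnInf (g • x * x) := fun P hP => by
  refine (exchanged_bd hg (hx _ ((ord_J_exchange hg P) ▸ hP)) (hx P hP)).mono (le_of_eq ?_)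
  simp only [exchanged, repSwap, SS.Rep.mul, Finsupp.add_apply,
    SemilinearAut.divisor_smul_apply]

include hg in
/-- the product of a root to order four with its image -/
theorem exists_exchanged_error {x z : F} (hz : z ∈ gi D.toCore)
    (he : x ^ 2 * R.f = 1 + ι' ((-2) ^ 2) * z) (hbase : SemilinearAut.baseAut g (-2 : K) = -2)
    (hπ : IsPi A 2 (-2 : K)) :
    ∃ W ∈ gi D.toCore, (∀ b, D.red b W = gs (D.red (!b) z) + D.red b z) ∧
      (g • x * x) ^ 2 * (exchanged R hg).f = 1 + ι' ((-2) ^ 2) * W := by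
  have hc : A.valuation ((-2 : K) ^ 2) < 1 := by
    rw [map_pow]; exact pow_lt_one₀ zero_le hπ.lt two_ne_zero
  have hgz : ∀ b, g • z ∈ D.G b ∧ D.red b (g • z) = gs (D.red (!b) z) := fun b => by
    have h := hg.mem (!b) _ (mem_gi.mp hz (!b))
    have h' := hg.red (!b) _ (mem_gi.mp hz (!b))
    rw [Bool.not_not] at h h'
    exact ⟨h, h'⟩
  have hgzm : g • z ∈ gi D.toCore := mem_gi.mpr fun b => (hgz b).1
  have hcz : ι' ((-2) ^ 2) * (g • z * z) ∈ gi D.toCore :=
    mul_mem (const_mem_gi hc.le) (mul_mem hgzm hz)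
  refine ⟨g • z + z + ι' ((-2) ^ 2) * (g • z * z), add_mem (add_mem hgzm hz) hcz, fun b => ?_, ?_⟩
  · rw [D.red_add b _ (add_mem (hgz b).1 (mem_gi.mp hz b)) _ (mem_gi.mp hcz b),
      TOR.red_const_mul_lt b hc (mul_mem (hgz b).1 (mem_gi.mp hz b)), add_zero,
      D.red_add b _ (hgz b).1 _ (mem_gi.mp hz b), (hgz b).2]
  · rw [exchanged_eq, he, smul_add, smul_one, smul_mul', SemilinearAut.smul_algebraMap, map_pow,
      hbase]
    ring

end Exchange

set_option maxHeartbeats 3200000 in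
/-- `g • E + E` is principal when `g` exchanges the components and the branches by squaring -/
theorem principal_exchange (hS : D.Surj) (hA : Arch A) (hT : DiscreteFields A 2)
    (hπ : IsPi A 2 (-2 : K)) (R : Rep D.toCore 2) (hP : PushInput R)
    {g : SemilinearAut K F} {gs : Fs ≃+* Fs} (hg : Exchanges D.toCore g gs)
    (hpt : ∀ b s z c, Val (D.pt b s) z c → Val (D.pt (!b) s) (gs z) (c ^ 2)) :
    ∃ x : F, x ≠ 0 ∧ ∀ P : Place K F, (g • R.E + R.E) P = P.ord x := by
  haveI : CharP Fs 2 := charP_of_injective_algebraMap (algebraMap 𝕜 Fs).injective 2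
  set π : K := -2
  have hbase : SemilinearAut.baseAut g π = π := by simp only [π, map_neg, map_ofNat]
  obtain ⟨m0, hm0⟩ := Data.exists_jump (D := D) (n := 2) two_ne_zero hS
  have hW : D.W m0 ≤ R.T m0 := fun u hu => by
    obtain ⟨ζ, hζ1, -, hTm⟩ := hm0 R
    refine hTm m0 le_rfl u (D.W_le_P m0 hu) fun s c hc => ?_
    obtain ⟨c', hc'⟩ := hu.2 s
    rw [show ζ s = 1 from TOR.eq_of_pow_eq (k := 𝕜) 2 (by rw [hζ1 s, one_pow]), one_mul,
      hc.unique (hc' false)]
    exact hc' true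
  have hjbar : ∀ k, k ≤ m0 → (fun _ => D.Jbar ^ k) ∈ D.W m0 := fun k hk => by
    refine ⟨fun b => ?_, fun s => ?_⟩
    · show D.Jbar ^ k ∈ SS.target (k := 𝕜) D.Jbar m0
      have e : D.red b (D.J ^ k) = D.Jbar ^ k := by rw [D.toCore.red_pow b (D.J_mem b), D.red_J]
      rw [← e]
      refine D.pole_bound m0 (D.J ^ k) (fun P => ?_) (fun b => pow_mem (D.J_mem b) k) b
      show Bd P (D.J ^ k) _
      rw [RR.bd_iff_ord (pow_ne_zero _ D.toCore.J_ne_zero), RR.ord_pow, Finsupp.smul_apply,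
        RR.Pol_apply, nsmul_eq_mul]
      have h1 : (k : ℤ) ≤ m0 := by exact_mod_cast hk
      have h2 := mul_le_mul_of_nonneg_right h1 (le_max_right (-P.ord D.J) 0)
      have h3 := mul_le_mul_of_nonneg_left (le_max_left (-P.ord D.J) 0) (Int.natCast_nonneg k)
      rw [mul_neg] at h3
      linarith
    · obtain ⟨c, hc⟩ := D.glue k (D.J ^ k) (fun P => by
        show Bd P (D.J ^ k) _
        rw [RR.bd_iff_ord (pow_ne_zero _ D.toCore.J_ne_zero), RR.ord_pow, Finsupp.smul_apply,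
          RR.Pol_apply, nsmul_eq_mul, ← mul_neg]
        exact mul_le_mul_of_nonneg_left (neg_le.mp (le_max_left _ _)) (Int.natCast_nonneg _))
        (fun b => pow_mem (D.J_mem b) k) s
      exact ⟨c, fun b => by rw [← D.red_J b, ← D.toCore.red_pow b (D.J_mem b)]; exact hc b⟩
  obtain ⟨s0, hs0L, hs0I, hs0r, z0, hz0, hs0e⟩ := TOR.exists_level hπ.p_lt hπ.eq hT R hP
    hW (Nat.zero_le m0) (hjbar 0 (Nat.zero_le m0))
  obtain ⟨s1, hs1L, hs1I, hs1r, z1, hz1, hs1e⟩ := TOR.exists_level hπ.p_lt hπ.eq hT R hP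
    hW le_rfl (hjbar m0 le_rfl)
  have hz0rr : z0 ∈ riemannRochSpace ((2 * m0) • Pol (K := K) D.J) :=
    error_mem_rr R (Nat.zero_le m0) hs0L hs0e
  simp only [pow_zero, mul_zero] at hs0r hs0e
  -- the root at infinity
  set y := (D.J ^ m0)⁻¹ * s1
  have hyI : R.Integ y := fun b => by
    rw [mul_left_comm]; exact mul_mem (D.toCore.J_zpow_mem b m0).1 (hs1I b)
  have hyinf : R.OnInf y := (R.mem_L_iff.mp hs1L).2
  have hyr : R.res y = 1 := funext fun b => by
    show D.red b (ι' (R.α b) * y) * R.h b = 1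
    rw [mul_left_comm, D.red_mul b _ (D.toCore.J_zpow_mem b m0).1 _ (hs1I b),
      (D.toCore.J_zpow_mem b m0).2, mul_assoc,
      show D.red b (ι' (R.α b) * s1) * R.h b = D.Jbar ^ m0 from congrFun hs1r b,
      inv_mul_cancel₀ (pow_ne_zero _ D.toCore.Jbar_ne_zero)]
  have hzy : (D.J ^ (2 * m0))⁻¹ * z1 ∈ gi D.toCore :=
    mem_gi.mpr fun b => mul_mem (D.toCore.J_zpow_mem b _).1 (hz1 b)
  have hye : y ^ 2 * R.f = 1 + ι' (π ^ 2) * ((D.J ^ (2 * m0))⁻¹ * z1) := by
    rw [mul_pow, inv_pow, ← pow_mul, mul_comm m0 2, mul_assoc, hs1e, mul_add,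
      inv_mul_cancel₀ (pow_ne_zero _ D.toCore.J_ne_zero), mul_left_comm]
  have hz0' : z0 ∈ gi D.toCore := mem_gi.mpr hz0
  -- the twist
  obtain ⟨W0, hW0, hW0r, hW0e⟩ := exists_exchanged_error R hg hz0' hs0e hbase hπ
  obtain ⟨W1, hW1, -, hW1e⟩ := exists_exchanged_error R hg hzy hye hbase hπ
  set Rz := exchanged R hg
  set X := g • s0 * s0
  set Y := g • y * y
  have hXL : X ∈ Rz.L (2 * m0) := exchanged_L R hg hs0L
  have hXI : Rz.Integ X := exchanged_integ R hg hs0I
  have hXr : Rz.res X = 1 := exchanged_res R hg hs0I hs0r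
  have hYI : Rz.Integ Y := exchanged_integ R hg hyI
  have hYr : Rz.res Y = 1 := exchanged_res R hg hyI hyr
  have hYinf : Rz.OnInf Y := exchanged_onInf R hg hyinf
  -- the two roots of the error and their sum with the image
  choose r hr using exists_error_root R hP hπ hz0 hs0e
  set u : Bool → Fs := fun b => gs (r (!b)) + r b
  have hu : ∀ b, u b ^ 2 + u b = D.red b W0 := fun b => by
    rw [hW0r, ← hr (!b), ← hr b, map_add, map_pow]
    simp only [u]
    rw [CharTwo.add_sq]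
    ring
  have hW0rr : W0 ∈ riemannRochSpace ((2 * (2 * m0)) • Pol (K := K) D.J) :=
    error_mem_rr Rz (Nat.zero_le _) hXL (by rw [mul_zero, pow_zero]; exact hW0e)
  have hufin : ∀ b (Q : Place 𝕜 Fs), 0 ≤ Q.ord D.Jbar → Bd Q (u b) 0 := fun b Q hQ =>
    bd_of_artinSchreier (hu b ▸
      bd_fin_of_target (D.pole_bound _ W0 hW0rr (mem_gi.mp hW0) b) hQ)
  have huglue : ∀ s, ∃ c, ∀ b, Val (D.pt b s) (u b) c := fun s => by
    have hv : ∀ b, ∃ c, Val (D.pt b s) (r b) c := fun b =>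
      Reduction.exists_val (D.hasRes _) (bd_of_artinSchreier (hr b ▸
        bd_fin_of_target (D.pole_bound _ z0 hz0rr hz0 b)
          ((RR.bd_iff_ord D.toCore.Jbar_ne_zero).mp (D.pt_fin b s) |> fun h => by omega)))
    choose a ha using hv
    obtain ⟨c, hc⟩ := D.glue _ z0 hz0rr hz0 s
    have h1 : ∀ b, a b ^ 2 + a b = c := fun b => by
      have h2 := ((ha b).pow 2).add (ha b)
      rw [hr b] at h2
      exact h2.unique (hc b)
    have hb : ∀ b, Val (D.pt b s) (u b) (a (!b) ^ 2 + a b) := fun b => by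
      have h := hpt (!b) s _ _ (ha (!b))
      rw [Bool.not_not] at h
      exact h.add (ha b)
    refine ⟨a true ^ 2 + a false, fun b => ?_⟩
    cases b
    · exact hb false
    · have e := hb true
      haveI : CharP 𝕜 2 := inferInstance
      have : a false ^ 2 + a true = a true ^ 2 + a false := by
        have h3 : a false ^ 2 + a false = a true ^ 2 + a true := (h1 false).trans (h1 true).symm
        linear_combination h3 + (CharTwo.two_eq_zero (R := 𝕜)) * (a true - a false)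
      rwa [Bool.not_true, this] at e
  obtain ⟨U, hU, hUbd⟩ := D.lift_fin u hufin huglue
  have hπ1 : A.valuation π < 1 := hπ.lt
  have hUg : U ∈ gi D.toCore := mem_gi.mpr fun b => (hU b).1
  set X' := X * (1 + ι' π * U)
  obtain ⟨hX'I, hX'r⟩ : Rz.Integ X' ∧ Rz.res X' = 1 := by
    have h := TOR.res_mul_one_add hXI hπ1 hUg
    exact ⟨h.1, h.2.trans hXr⟩
  obtain ⟨m1, hX'L⟩ : ∃ m1, X' ∈ Rz.L m1 := by
    refine Rz.exists_L_of_onFin fun P hP => ?_
    have h1 : Bd P (1 + ι' π * U) 0 := by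
      have hone : Bd P (1 : F) 0 := by
        have := RR.Bd.of_algebraMap (v := P) (1 : K)
        rwa [map_one] at this
      refine hone.add ?_
      rw [← Algebra.smul_def]
      exact RR.Bd.smul (hUbd P hP) π
    simpa using ((Rz.mem_L_iff.mp hXL).1 P hP).mul h1
  have hk2 : ι' π = -2 := by simp only [π, map_neg, map_ofNat]
  -- its error vanishes on both components
  obtain ⟨W0', hW0', hW0'r, hW0'e⟩ : ∃ W ∈ gi D.toCore, (∀ b, D.red b W = 0) ∧
      X' ^ 2 * Rz.f = 1 + ι' (π ^ 2) * W := by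
    have hUU : U ^ 2 - U ∈ gi D.toCore := sub_mem (pow_mem hUg 2) hUg
    have hc : A.valuation (π ^ 2) < 1 := by rw [map_pow]; exact pow_lt_one₀ zero_le hπ1 two_ne_zero
    have hcW : ι' (π ^ 2) * (W0 * (U ^ 2 - U)) ∈ gi D.toCore :=
      mul_mem (const_mem_gi hc.le) (mul_mem hW0 hUU)
    refine ⟨W0 + (U ^ 2 - U) + ι' (π ^ 2) * (W0 * (U ^ 2 - U)),
      add_mem (add_mem hW0 hUU) hcW, fun b => ?_, ?_⟩
    · rw [D.red_add b _ (mem_gi.mp (add_mem hW0 hUU) b) _ (mem_gi.mp hcW b),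
        TOR.red_const_mul_lt b hc (mem_gi.mp (mul_mem hW0 hUU) b), add_zero,
        D.red_add b _ (mem_gi.mp hW0 b) _ (mem_gi.mp hUU b),
        D.toCore.red_sub b (pow_mem (hU b).1 2) (hU b).1, D.toCore.red_pow b (hU b).1, (hU b).2,
        CharTwo.sub_eq_add, hu b, CharTwo.add_self_eq_zero]
    · simp only [X']
      rw [mul_pow, mul_right_comm, hW0e, map_pow, hk2]
      ring
  -- the root at infinity is moved to it
  obtain ⟨H, hH, hHe, -⟩ := TOR.ratio hπ hX'I hX'r hYI hYr hW0' hW1 hW0'e hW1e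
  obtain ⟨mY, hmY⟩ := Rz.exists_L_of_onInf hYinf
  have hHW : ∀ b, D.red b H ^ 2 + D.red b H = D.red b W1 := fun b => by
    have hX0 : X' ≠ 0 := (TOR.div_mem_gi hX'I hX'r hX'I).1
    have hk : ι' (π ^ 2) ≠ 0 := (_root_.map_ne_zero _).mpr (pow_ne_zero _ hπ.ne)
    have hc : A.valuation (π ^ 2) < 1 := by rw [map_pow]; exact pow_lt_one₀ zero_le hπ1 two_ne_zero
    have hHH : H ^ 2 - H ∈ gi D.toCore := sub_mem (pow_mem hH 2) hH
    have e : W1 = W0' + (H ^ 2 - H) + ι' (π ^ 2) * (W0' * (H ^ 2 - H)) := by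
      refine mul_left_cancel₀ hk (add_left_cancel (a := (1 : F)) ?_)
      rw [← hW1e, hHe, mul_pow, mul_right_comm, hW0'e, map_pow, hk2]
      ring
    have hcW : ι' (π ^ 2) * (W0' * (H ^ 2 - H)) ∈ gi D.toCore :=
      mul_mem (const_mem_gi hc.le) (mul_mem hW0' hHH)
    rw [e, D.red_add b _ (mem_gi.mp (add_mem hW0' hHH) b) _ (mem_gi.mp hcW b),
      TOR.red_const_mul_lt b hc (mem_gi.mp (mul_mem hW0' hHH) b), add_zero,
      D.red_add b _ (mem_gi.mp hW0' b) _ (mem_gi.mp hHH b), hW0'r, zero_add,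
      D.toCore.red_sub b (mem_gi.mp (pow_mem hH 2) b) (mem_gi.mp hH b),
      D.toCore.red_pow b (mem_gi.mp hH b), CharTwo.sub_eq_add]
  set M := max mY m1
  set Y1 := D.J ^ M * Y
  have hY1 : Y1 ∈ Rz.L M := Rz.mem_L_iff.mpr ⟨by
    have h := (Rz.mem_L_iff.mp hmY).1
    intro P hP
    have hJ : Bd P (D.J ^ (M - mY)) 0 := (RR.bd_iff_ord (pow_ne_zero _ D.toCore.J_ne_zero)).mpr
      (by rw [RR.ord_pow, neg_zero]; positivity)
    have h2 := hJ.mul (h P hP)
    rw [← mul_assoc, ← pow_add, Nat.sub_add_cancel (le_max_left _ _), zero_add] at h2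
    exact h2, by
    simp only [Y1]
    rw [← mul_assoc, inv_mul_cancel₀ (pow_ne_zero _ D.toCore.J_ne_zero), one_mul]
    exact hYinf⟩
  have hW1rr : D.J ^ (2 * M) * W1 ∈ riemannRochSpace ((2 * M) • Pol (K := K) D.J) :=
    error_mem_rr Rz le_rfl hY1 (by
      simp only [Y1]
      rw [mul_pow, ← pow_mul, mul_comm M 2, mul_assoc, hW1e]
      ring)
  have hHinf : ∀ b (Q : Place 𝕜 Fs), Q.ord D.Jbar ≤ 0 → Bd Q (D.red b H) 0 := fun b Q hQ => by
    refine bd_of_artinSchreier ?_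
    rw [hHW b]
    have h1 := SS.mem_target.mp (D.pole_bound (2 * M) _ hW1rr
      (fun b => mul_mem (pow_mem (D.J_mem b) _) (mem_gi.mp hW1 b)) b) Q
    rw [D.red_mul b _ (pow_mem (D.J_mem b) _) _ (mem_gi.mp hW1 b), D.toCore.red_pow b (D.J_mem b),
      D.red_J, max_eq_left (by omega), mul_comm (D.Jbar ^ (2 * M)),
      RR.bd_mul_iff (pow_ne_zero _ D.toCore.Jbar_ne_zero), RR.ord_pow] at h1
    refine h1.mono (le_of_eq ?_)
    ring
  have hHglue : ∀ s, (∀ b, (D.pt b s).ord D.Jbar ≤ 0) →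
      ∃ c, ∀ b, Val (D.pt b s) (D.red b H) c := fun s hs => by
    have hv : ∀ b, ∃ c, Val (D.pt b s) (D.red b H) c := fun b =>
      Reduction.exists_val (D.hasRes _) (hHinf b _ (hs b))
    choose a ha using hv
    obtain ⟨j, hj⟩ := D.glue 1 D.J (fun P => by
      show Bd P D.J _
      rw [RR.bd_iff_ord D.toCore.J_ne_zero, Finsupp.smul_apply, RR.Pol_apply, one_nsmul]
      exact neg_le.mp (le_max_left _ _)) D.J_mem s
    have hjb : ∀ b, Val (D.pt b s) D.Jbar j := fun b => by have := hj b; rwa [D.red_J] at this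
    have hj0 : j ≠ 0 := by
      rintro rfl
      have := (hjb false).ord_pos D.toCore.Jbar_ne_zero
      have := hs false
      omega
    set T := D.J ^ M * (X' * H)
    have hTI : Rz.Integ T := fun b => by
      rw [mul_left_comm]; exact mul_mem (pow_mem (D.J_mem b) M) (TOR.integ_mul hX'I hH b)
    have hTres : ∀ b, Rz.res T b = D.Jbar ^ M * D.red b H := fun b => by
      show D.red b (ι' (Rz.α b) * (D.J ^ M * (X' * H))) * Rz.h b = _
      rw [mul_left_comm, D.red_mul b _ (pow_mem (D.J_mem b) M) _ (TOR.integ_mul hX'I hH b),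
        D.toCore.red_pow b (D.J_mem b), D.red_J, mul_assoc]
      congr 1
      have h := TOR.res_mul hX'I hH b
      rw [hX'r, Pi.one_apply, one_mul] at h
      exact h
    have hTL : T ∈ Rz.L (M + M) := by
      have e : T = π⁻¹ • (Y1 - D.J ^ M * X') := by
        simp only [T, Y1]
        rw [hHe, Algebra.smul_def, map_inv₀]
        field_simp [(_root_.map_ne_zero ι').mpr hπ.ne]
        ring
      rw [e]
      refine Submodule.smul_mem _ _ (Submodule.sub_mem _ (Rz.L_mono (Nat.le_add_right _ _) hY1) ?_)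
      intro P
      have h1 : Bd P (D.J ^ M) (M * max (-P.ord D.J) 0) := by
        rw [RR.bd_iff_ord (pow_ne_zero _ D.toCore.J_ne_zero), RR.ord_pow, ← mul_neg]
        exact mul_le_mul_of_nonneg_left (neg_le.mp (le_max_left _ _)) (Int.natCast_nonneg _)
      refine (h1.mul (SS.mem_rr.mp (Rz.L_mono (le_max_right mY m1) hX'L) P)).mono (le_of_eq ?_)
      simp only [Finsupp.add_apply, Finsupp.smul_apply, RR.Pol_apply, nsmul_eq_mul, M]
      push_cast
      ring
    have h2 : ∀ b, Val (D.pt b s) (Rz.res T b) (j ^ M * a b) := fun b => by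
      rw [hTres]; exact ((hjb b).pow M).mul (ha b)
    have h3 := Data.pow_value_eq two_ne_zero Rz hTL hTI (h2 false) (h2 true)
    have h4 : j ^ M * a false = j ^ M * a true := frobenius_inj 𝕜 2 h3
    exact ⟨a false, fun b => by
      cases b
      · exact ha false
      · rw [mul_left_cancel₀ (pow_ne_zero M hj0) h4]; exact ha true⟩
  obtain ⟨V, hV, hVbd⟩ := D.lift_inf (fun b => D.red b H) hHinf hHglue
  have hVg : V ∈ gi D.toCore := mem_gi.mpr fun b => (hV b).1
  set Y' := Y * (1 - ι' π * V)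
  obtain ⟨hY'I, hY'r⟩ : Rz.Integ Y' ∧ Rz.res Y' = 1 := by
    have h := TOR.res_mul_one_add hYI hπ1 (neg_mem hVg)
    rw [mul_neg, ← sub_eq_add_neg] at h
    exact ⟨h.1, h.2.trans hYr⟩
  have hY'inf : Rz.OnInf Y' := fun P hP => by
    have h1 : Bd P (1 - ι' π * V) 0 := by
      have hone : Bd P (1 : F) 0 := by
        have := RR.Bd.of_algebraMap (v := P) (1 : K)
        rwa [map_one] at this
      refine hone.sub ?_
      rw [← Algebra.smul_def]
      exact RR.Bd.smul (hVbd P hP) π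
    simpa using (hYinf P hP).mul h1
  -- the ratio of the new roots vanishes on both components
  set G := H - V - ι' π * (H * V)
  have hHV : H * V ∈ gi D.toCore := mul_mem hH hVg
  have hG : G ∈ gi D.toCore := sub_mem (sub_mem hH hVg) (mul_mem (const_mem_gi hπ1.le) hHV)
  have hG0 : ∀ b, D.red b G = 0 := fun b => by
    rw [D.toCore.red_sub b (mem_gi.mp (sub_mem hH hVg) b)
      (D.toCore.const_mul_mem b (TOR.mem_of_val_le hπ1.le) (mem_gi.mp hHV b)),
      D.toCore.red_sub b (mem_gi.mp hH b) (hV b).1, (hV b).2, sub_self,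
      TOR.red_const_mul_lt b hπ1 (mem_gi.mp hHV b), sub_zero]
  have hY'X : Y' = X' * (1 + ι' π * G) := by
    simp only [Y', G]
    rw [hHe]
    ring
  obtain ⟨W1', hW1', hW1'r, hW1'e⟩ : ∃ W ∈ gi D.toCore, (∀ b, D.red b W = 0) ∧
      Y' ^ 2 * Rz.f = 1 + ι' (π ^ 2) * W := by
    have hc : A.valuation (π ^ 2) < 1 := by rw [map_pow]; exact pow_lt_one₀ zero_le hπ1 two_ne_zero
    have hGG : G ^ 2 - G ∈ gi D.toCore := sub_mem (pow_mem hG 2) hG
    have hcW : ι' (π ^ 2) * (W0' * (G ^ 2 - G)) ∈ gi D.toCore :=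
      mul_mem (const_mem_gi hc.le) (mul_mem hW0' hGG)
    refine ⟨W0' + (G ^ 2 - G) + ι' (π ^ 2) * (W0' * (G ^ 2 - G)),
      add_mem (add_mem hW0' hGG) hcW, fun b => ?_, ?_⟩
    · rw [D.red_add b _ (mem_gi.mp (add_mem hW0' hGG) b) _ (mem_gi.mp hcW b),
        TOR.red_const_mul_lt b hc (mem_gi.mp (mul_mem hW0' hGG) b), add_zero,
        D.red_add b _ (mem_gi.mp hW0' b) _ (mem_gi.mp hGG b), hW0'r,
        D.toCore.red_sub b (mem_gi.mp (pow_mem hG 2) b) (mem_gi.mp hG b),
        D.toCore.red_pow b (mem_gi.mp hG b), hG0, zero_pow two_ne_zero, sub_self, add_zero]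
    · rw [hY'X, mul_pow, mul_right_comm, hW0'e, map_pow, hk2]
      ring
  -- a common precision
  obtain ⟨δ, hδ, hδ0, ⟨Z0, hZ0, hZ0d⟩, ⟨Z1, hZ1, hZ1d⟩⟩ : ∃ δ : K, A.valuation δ < 1 ∧ δ ≠ 0 ∧
      (∃ W' ∈ gi D.toCore, W0' = ι' δ * W') ∧ ∃ W' ∈ gi D.toCore, W1' = ι' δ * W' := by
    obtain ⟨d0, hd0, V0, hV0, e0⟩ := TOR.exists_small_gi hW0' hW0'r
    obtain ⟨d1, hd1, V1, hV1, e1⟩ := TOR.exists_small_gi hW1' hW1'r
    obtain ⟨δ, hδ, h0, h1, h2⟩ : ∃ δ : K, A.valuation δ < 1 ∧ A.valuation d0 ≤ A.valuation δ ∧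
        A.valuation d1 ≤ A.valuation δ ∧ A.valuation π ≤ A.valuation δ := by
      rcases le_total (A.valuation d0) (A.valuation d1) with h | h
      · rcases le_total (A.valuation d1) (A.valuation π) with h' | h'
        exacts [⟨π, hπ1, h.trans h', h', le_rfl⟩, ⟨d1, hd1, h, le_rfl, h'⟩]
      · rcases le_total (A.valuation d0) (A.valuation π) with h' | h'
        exacts [⟨π, hπ1, h', h.trans h', le_rfl⟩, ⟨d0, hd0, le_rfl, h, h'⟩]
    refine ⟨δ, hδ, ?_, TOR.mem_gi_of_le h0 hV0 e0, TOR.mem_gi_of_le h1 hV1 e1⟩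
    rintro rfl
    rw [map_zero, le_zero_iff, Valuation.zero_iff] at h2
    exact hπ.ne h2
  obtain ⟨G', hG', hG'e, hG'δ⟩ := TOR.ratio hπ hX'I hX'r hY'I hY'r hW0' hW1' hW0'e hW1'e
  have hGG' : G' = G := by
    have hX0 : X' ≠ 0 := (TOR.div_mem_gi hX'I hX'r hX'I).1
    refine mul_left_cancel₀ ((_root_.map_ne_zero ι').mpr hπ.ne) (add_left_cancel (a := (1 : F)) ?_)
    exact mul_left_cancel₀ hX0 (hG'e.symm.trans hY'X)
  obtain ⟨G'', hG'', hGd⟩ := hG'δ δ Z0 Z1 hδ hZ0 hZ1 hZ0d hZ1d (by rw [hGG']; exact hG0)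
  obtain ⟨ζ, -, hζ, hTM⟩ := hm0 Rz
  exact TOR.principal_of_state hπ le_rfl hA hζ (hTM (max m0 m1) (le_max_left _ _)) hδ hδ0
    (x := X') (y := Y')
    ⟨Rz.L_mono (le_max_right _ _) hX'L, hX'I, hX'r, hY'inf, hY'I, hY'r,
      ⟨Z0, hZ0, by rw [hW0'e, hZ0d, map_mul, mul_assoc]⟩,
      ⟨Z1, hZ1, by rw [hW1'e, hZ1d, map_mul, mul_assoc]⟩,
      G'', hG'', by rw [hG'e, hGd, map_mul, mul_assoc (ι' π)]⟩

end FLTAgent.R2
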