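import Fermat.Agent.TOR.MazurPhi
import Fermat.Agent.SS.Fibre
import Fermat.Agent.TOR.KerR
import Fermat.Agent.R2.TwoExchange

/-!
Area R2, at a place over a prime `q` exactly dividing the level: Frobenius composed with the
Atkin–Lehner involution moves a class killed by both pushforwards to its opposite up to a class with
a representative twist, and for `q = 2` it is the opposite on such classes of order two.
-/

set_option autoImplicit false
set_option linter.unusedSectionVars false
set_option synthInstance.maxHeartbeats 400000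
set_option linter.style.haveILetI false
set_option maxHeartbeats 1000000

noncomputable section

open ModularCurve AlgebraicCurve IsLocalRing
open FLTAgent.Reduction (Qb kA FB FS Ctx Val GR red cB)
open FLTAgent.TOR (wJ wJ_smul wJ_wJ atkinEquiv)
open FLTAgent.SS (galAut KilledByPush Compat IsRed)

namespace FLTAgent.R2

local notation "GalQ" => AlgebraicClosure ℚ ≃ₐ[ℚ] AlgebraicClosure ℚ

/-- classes with a representative twist are stable under what acts on the components -/
theorem kerR_smul {K : Type*} [Field K] [IsAlgClosed K] [CharZero K] {A : ValuationSubring K}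
    {F : Type*} [Field F] [Algebra K F] [RR.FnField K F]
    {Fs : Type*} [Field Fs] [Algebra (ResidueField A) Fs] {C : SS.Core K A F Fs} {n : ℕ}
    {y : Pic0 K F} (hy : y ∈ TOR.kerR C n) {g : SemilinearAut K F} {gs : Fs ≃+* Fs}
    (hg : Compat C g gs) : g • y ∈ TOR.kerR C n := by
  obtain ⟨R, rfl⟩ := hy
  refine ⟨R.map hg, ?_⟩
  rw [SemilinearAut.pic0_smul_mk]
  rfl

variable {M q : ℕ} [NeZero M] [NeZero q] {A : ValuationSubring Qb} (C : Ctx A M q)
include C

/-- Frobenius composed with the involution, on the function field -/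
def exchAut (σ : GalQ) : SemilinearAut Qb (FB (M * q)) :=
  galAut M q σ * SemilinearAut.ofAlgAut (atkinEquiv C)

theorem exchAut_smul (σ : GalQ) (y : JZero (M * q)) : exchAut C σ • y = σ • wJ C y := by
  rw [exchAut, mul_smul]
  rfl

theorem exchanges_exchAut {σ : GalQ} {gs : FS A M ≃+* FS A M}
    (hg : Compat (SS.fibreData C).toCore (galAut M q σ) gs) :
    LL.Exchanges (SS.fibreData C).toCore (exchAut C σ) gs := by
  set w := SemilinearAut.ofAlgAut (atkinEquiv C)
  have hw : ∀ b (x : FB (M * q)), SS.side M q (!b) (SS.atkinW M q x) = SS.side M q b x := fun b x => by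
    cases b
    · exact SS.atkinW_atkinW C x
    · rfl
  have hmem : ∀ b, ∀ x ∈ SS.GS M q A b,
      IsRed A (!b) (SS.atkinW M q x) (SS.redM M q A b x) :=
    fun b x hx => ⟨by rw [SS.mem_GS, hw]; exact hx, by rw [hw]; exact (SS.isRed_redM C hx).2⟩
  refine ⟨fun b x hx => ?_, fun b x hx => ?_, ?_⟩
  · rw [exchAut, mul_smul]
    exact hg.mem (!b) _ (hmem b x hx).1
  · rw [exchAut, mul_smul]
    refine (hg.red (!b) _ (hmem b x hx).1).trans (congrArg gs ?_)
    exact (hmem b x hx).eq
  · rw [exchAut, mul_smul,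
      show w • (SS.fibreData C).toCore.J = (SS.fibreData C).toCore.J from SS.atkinW_J C]
    exact hg.J_eq

/-- the residues on the two components of a trivialisation of a class killed by both
pushforwards: either one times the Frobenius of the other is an `n`th power -/
theorem residue_mul_swap {gs : FS A M ≃+* FS A M} (hgs : ∀ z, SS.Fr C (gs z) = z ^ q) {n : ℕ}
    (hn : n ≠ 0) (E : Divisor.degZero (K := Qb) (F := FB (M * q))) {f : FB (M * q)}
    (hE : KilledByPush M q (Pic0.mk E)) (hf : f ≠ 0)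
    (hord : ∀ P : Place Qb (FB (M * q)),
      (n : ℤ) * (E : Divisor Qb (FB (M * q))) P = P.ord f)
    {c : Bool → Qb} (hc : ∀ b, c b ≠ 0)
    (hmem : ∀ b, algebraMap Qb (FB (M * q)) (c b) * f ∈ SS.GS M q A b)
    (hne : ∀ b, SS.redM M q A b (algebraMap Qb (FB (M * q)) (c b) * f) ≠ 0) (b : Bool) :
    ∃ h : FS A M, h ≠ 0 ∧ gs (SS.redM M q A (!b) (algebraMap Qb (FB (M * q)) (c (!b)) * f)) *
      SS.redM M q A b (algebraMap Qb (FB (M * q)) (c b) * f) = h ^ n := by
  have hnorm : ∀ (φ : FB M →ₐ[Qb] FB (M * q)) (hφ : φ.toRingHom.IsIntegral),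
      (Divisor.pushforwardAlong φ hφ (E : Divisor Qb (FB (M * q)))).IsPrincipal →
      ∃ (g : FB M) (d : Qb), g ≠ 0 ∧
        (letI := algebraAlong φ; Algebra.norm (FB M) f) = algebraMap Qb (FB M) d * g ^ n := by
    intro φ hφ hp
    obtain ⟨g, hg, hgE⟩ := hp
    letI := algebraAlong φ
    haveI := isScalarTower_along φ
    haveI : Module.Finite (FB M) (FB (M * q)) := HeckeJ.finiteAlong φ
    have hN0 : Algebra.norm (FB M) f ≠ 0 := Algebra.norm_ne_zero_iff.mpr hf
    have h1 := HeckeJ.normFormulaAlong φ (HeckeJ.finiteAlong φ) f hf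
      (n • (E : Divisor Qb (FB (M * q)))) (fun w => by
        rw [← hord w, Finsupp.smul_apply, nsmul_eq_mul])
    obtain ⟨d, hd⟩ := SS2.exists_const_of_ord (N := M) (h := Algebra.norm (FB M) f * (g ^ n)⁻¹)
      fun v => by
        rw [v.ord_mul hN0 (inv_ne_zero (pow_ne_zero _ hg)), v.ord_inv, RR.ord_pow, ← h1 v, ← hgE v]
        show Divisor.pushforwardAlong φ hφ (n • (E : Divisor Qb (FB (M * q)))) v + _ = 0
        rw [map_nsmul, Finsupp.smul_apply, nsmul_eq_mul, add_neg_cancel]
    exact ⟨g, d, hg, by rw [← hd, inv_mul_cancel_right₀ (pow_ne_zero _ hg)]⟩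
  obtain ⟨hpa, hpb⟩ := hE (HeckeJ.isIntegralAlong _) (HeckeJ.isIntegralAlong _) E rfl
  obtain ⟨g, d, hg, hga⟩ := hnorm _ _ hpa
  obtain ⟨g', d', hg', hgb⟩ := hnorm _ _ hpb
  change SS.normA M q f = _ at hga
  change SS.normB M q f = _ at hgb
  set r := fun b => SS.redM M q A b (algebraMap Qb (FB (M * q)) (c b) * f)
  have he : ∀ b, f = algebraMap Qb (FB (M * q)) (c b)⁻¹ *
      (algebraMap Qb (FB (M * q)) (c b) * f) := fun b => by
    rw [← mul_assoc, ← map_mul, inv_mul_cancel₀ (hc b), map_one, one_mul]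
  have h₀ := SS.isRed_redM C (hmem false)
  have h₁ := SS.isRed_redM C (hmem true)
  have hd : ∀ b, (c b)⁻¹ ≠ 0 := fun b => inv_ne_zero (hc b)
  obtain ⟨w, hw, hwn, hwr⟩ := SS.norm_residue C hgs h₀ h₁ (hd false) (hd true) (he false) (he true)
  obtain ⟨a₀, ha₀⟩ := SS.exists_root_of_norm C hn (mul_ne_zero (hd false) (pow_ne_zero _ (hd true))) hw
    hwn hg hga
  obtain ⟨w', hw', hwn', hwr'⟩ := SS.norm_residue C hgs (x := SS.atkinW M q f)
    (u₀ := SS.atkinW M q (algebraMap Qb (FB (M * q)) (c true) * f))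
    (u₁ := SS.atkinW M q (algebraMap Qb (FB (M * q)) (c false) * f))
    (h₁.transport (b' := false) C) (h₀.transport (b' := true) C) (hd true) (hd false)
    (by conv_lhs => rw [he true]
        rw [map_mul, AlgHom.commutes])
    (by conv_lhs => rw [he false]
        rw [map_mul, AlgHom.commutes])
  rw [← SS.normB_eq C] at hwn'
  obtain ⟨a₁, ha₁⟩ := SS.exists_root_of_norm C hn (mul_ne_zero (hd true) (pow_ne_zero _ (hd false))) hw'
    hwn' hg' hgb
  have key : ∀ b, ∃ h : FS A M, gs (r (!b)) * r b = h ^ n := fun b => by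
    cases b
    · exact ⟨a₀, by rw [mul_comm]; exact hwr.symm.trans ha₀⟩
    · exact ⟨a₁, by rw [mul_comm]; exact hwr'.symm.trans ha₁⟩
  obtain ⟨h, hh⟩ := key b
  refine ⟨h, fun h0 => ?_, hh⟩
  rw [h0, zero_pow hn] at hh
  exact mul_ne_zero ((map_ne_zero_iff gs gs.injective).mpr (hne (!b))) (hne b) hh

/-- Frobenius composed with the involution is `-1` modulo the classes with a representative twist -/
theorem frob_atkin_add_mem_kerR {σ : GalQ} (hσ : A.IsFrobeniusAt σ q) {n : ℕ} (hn : n ≠ 0)
    {y : JZero (M * q)} (hy : n • y = 0) (hpush : KilledByPush M q y) :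
    σ • wJ C y + y ∈ TOR.kerR (SS.fibreData C).toCore n := by
  obtain ⟨gs, hg, hgs⟩ := SS.compat_frobenius C hσ
  have hex := exchanges_exchAut C hg
  set D := (SS.fibreData C).toCore
  rw [← exchAut_smul]
  obtain ⟨E, rfl⟩ := Pic0.mk_surjective y
  obtain ⟨f, hf, hord⟩ := TOR.exists_trivialisation hy
  choose c hc hu hur using fun b => D.exists_scale b f hf
  choose h hh hgh using residue_mul_swap C hgs hn E hpush hf hord hc hu hur
  set g := exchAut C σ
  choose α hα using fun b =>
    IsAlgClosed.exists_pow_nat_eq (SemilinearAut.baseAut g (c (!b)) * c b)⁻¹ (Nat.pos_of_ne_zero hn)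
  have hgc : ∀ b, SemilinearAut.baseAut g (c b) ≠ 0 := fun b => (_root_.map_ne_zero _).mpr (hc b)
  have hgf : g • f ≠ 0 := (smul_ne_zero_iff_ne g).mpr hf
  set κ := algebraMap Qb (FB (M * q))
  have hq : ∀ b, (κ (α b ^ n))⁻¹ * (g • f * f) =
      (g • (κ (c (!b)) * f)) * (κ (c b) * f) := by
    intro b
    rw [hα, map_inv₀, inv_inv, map_mul, smul_mul', SemilinearAut.smul_algebraMap]
    ring
  have hgm : ∀ b, g • (κ (c (!b)) * f) ∈ D.G b ∧
      D.red b (g • (κ (c (!b)) * f)) = gs (D.red (!b) (κ (c (!b)) * f)) := fun b => by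
    have h1 := hex.mem (!b) _ (hu (!b))
    have h2 := hex.red (!b) _ (hu (!b))
    rw [Bool.not_not] at h1 h2
    exact ⟨h1, h2⟩
  refine ⟨
    { E := g • (E : Divisor Qb (FB (M * q))) + (E : Divisor Qb (FB (M * q)))
      f := g • f * f
      α := α
      h := h
      degree_E := by rw [map_add, SemilinearAut.degree_smul, Divisor.mem_degZero.mp E.2, add_zero]
      f_ne := mul_ne_zero hgf hf
      ord_f := fun P => by
        have h1 := SemilinearAut.ord_smul g (g⁻¹ • P) f
        rw [smul_inv_smul] at h1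
        rw [P.ord_mul hgf hf, h1, ← hord, ← hord P, Finsupp.add_apply,
          SemilinearAut.divisor_smul_apply]
        ring
      α_ne := fun b h0 => by
        have := hα b
        rw [h0, zero_pow hn, eq_comm, inv_eq_zero] at this
        exact mul_ne_zero (hgc _) (hc b) this
      h_ne := hh
      mem := fun b => by
        rw [hq b]
        exact mul_mem (hgm b).1 (hu b)
      red_eq := fun b => by
        rw [hq b, D.red_mul b _ (hgm b).1 _ (hu b), (hgm b).2]
        exact hgh b }, ?_⟩
  rw [SemilinearAut.pic0_smul_mk]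
  exact map_add (QuotientAddGroup.mk'
    ((Divisor.principal (K := Qb) (F := FB (M * q))).addSubgroupOf
      (Divisor.degZero (K := Qb) (F := FB (M * q))))) (SemilinearAut.degZeroSMulHom g E) E

end FLTAgent.R2

namespace FLTAgent.R2

open FLTAgent.TOR (IsPi)

/-- `-2` has the valuation of `ζ₂ - 1` -/
theorem isPi_neg_two {A : ValuationSubring Qb} (hA : A.LiesOverPrime 2) :
    IsPi A 2 (-2 : Qb) := by
  have h := TOR.isPi_zeta_sub_one (A := A) Nat.prime_two hA
    (IsPrimitiveRoot.neg_one 0 (by norm_num) : IsPrimitiveRoot (-1 : Qb) 2)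
  norm_num at h
  exact h

variable {M : ℕ} [NeZero M] {A : ValuationSubring Qb} (C : Ctx A M 2)
include C

/-- on killed classes of order two with a representative twist, Frobenius composed with the
involution is the identity -/
theorem frob_atkin_two {σ : AlgebraicClosure ℚ ≃ₐ[ℚ] AlgebraicClosure ℚ}
    (hσ : A.IsFrobeniusAt σ 2) {y : JZero (M * 2)}
    (hker : y ∈ TOR.kerR (SS.fibreData C).toCore 2) (hpush : KilledByPush M 2 y) :
    σ • wJ C y + y = 0 := by
  haveI := Fact.mk Nat.prime_two
  haveI := Reduction.charP_residue A C.prime C.lies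
  obtain ⟨gs, hg, hgs⟩ := SS.compat_frobenius C hσ
  have hex := exchanges_exchAut C hg
  rw [← exchAut_smul]
  obtain ⟨R, hR⟩ := hker
  have hpr : ∀ b, ∀ hφ : (TOR.sideMap (M := M) (p := 2) b).toRingHom.IsIntegral,
      (Divisor.pushforwardAlong (TOR.sideMap b) hφ R.E).IsPrincipal := fun b hφ => by
    have h := hpush (HeckeJ.heckeAlphaBarIntegral M 2) (HeckeJ.heckeBetaBarIntegral M 2)
      ⟨R.E, Divisor.mem_degZero.mpr R.degree_E⟩ hR
    cases b
    exacts [h.1, h.2]
  have hP : TOR.PushInput R := TOR.pushInput C R hpr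
  obtain ⟨x, hx, hdiv⟩ := principal_exchange (SS.fibreData C).exists_surj (SS.arch C.prime C.lies)
    (TOR.discreteFields C.prime C.lies) (isPi_neg_two C.lies) R hP hex
    (fun b s z c hv => LL.val_gs C hgs b s z c hv)
  set E : Divisor.degZero (K := Qb) (F := FB (M * 2)) :=
    ⟨R.E, Divisor.mem_degZero.mpr R.degree_E⟩
  have h0 : (Pic0.mk (SemilinearAut.degZeroSMulHom (exchAut C σ) E + E) : JZero (M * 2)) = 0 := by
    show (QuotientAddGroup.mk' _) _ = 0
    rw [QuotientAddGroup.mk'_apply, QuotientAddGroup.eq_zero_iff, AddSubgroup.mem_addSubgroupOf]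
    refine ⟨x, hx, fun P => ?_⟩
    rw [← hdiv P]
    simp [E, SemilinearAut.coe_degZeroSMulHom]
  rw [← hR]
  exact h0

end FLTAgent.R2
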