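import Fermat.Agent.MLT.RepStrictVec
import Fermat.Agent.R2.TwoFrob

/-!
Area R2, at a place over two exactly dividing the level: the vectors of the lattice all whose points
have a representative twist, Galois on them, and the reduction of `Frobenius + w` on vectors killed
by both pushforwards on which the involution is the scalar `w`.
-/

set_option autoImplicit false
set_option linter.unusedSectionVars false
set_option linter.style.haveILetI false
set_option maxHeartbeats 1000000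

noncomputable section

open scoped MatrixGroups TensorProduct Matrix
open Matrix IsLocalRing ModularCurve AlgebraicCurve

namespace FLTAgent.R2

open FLTAgent.Attach (HeckeLattice GalQ)
open FLTAgent.Reduction (Qb Ctx)
open FLTAgent.MLT (KilledVec exists_vec_coord coord_liftP char_eq_of_sub_mem)

variable {O : Type} [CommRing O] [IsDomain O] [IsDiscreteValuationRing O]
  [IsAdicComplete (maximalIdeal O) O] [CharZero O] {M : ℕ} [NeZero M]
  {A : ValuationSubring Qb} (C : Ctx A M 2) (D : HeckeLattice (M * 2))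

local notation "bL" => Module.Free.chooseBasis ℤ D.Lam

/-- every point of two-power order given by the vector has a representative twist -/
def KerVec (x : D.Idx → O) : Prop :=
  ∀ (k : ℕ) (ψ : O →+ ZMod (2 ^ k)) (v : D.Lam),
    (∀ l, (((bL).repr v l : ℤ) : ZMod (2 ^ k)) = ψ (x l)) →
      D.tors (2 ^ k) v ∈ TOR.kerR (SS.fibreData C).toCore (2 ^ k)

/-- the involution is the scalar `w` on the points given by the vector -/
def AtkinVec (w : ℤ) (x : D.Idx → O) : Prop :=
  ∀ (k : ℕ) (ψ : O →+ ZMod (2 ^ k)) (v : D.Lam),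
    (∀ l, (((bL).repr v l : ℤ) : ZMod (2 ^ k)) = ψ (x l)) →
      TOR.wJ C (D.tors (2 ^ k) v) = w • D.tors (2 ^ k) v

theorem KerVec.zero : KerVec C D (0 : D.Idx → O) := by
  intro k ψ v hv
  rw [SS2.tors_eq_of_coord D (pow_pos two_pos k) (w := 0) fun l => by
    rw [hv, Pi.zero_apply, map_zero ψ, map_zero (bL).repr, Finsupp.zero_apply, Int.cast_zero],
    map_zero]
  exact zero_mem _

theorem KerVec.add {x y : D.Idx → O} (hx : KerVec C D x) (hy : KerVec C D y) :
    KerVec C D (x + y) := by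
  intro k ψ v hv
  haveI : NeZero (2 ^ k) := ⟨pow_ne_zero k two_ne_zero⟩
  obtain ⟨u, hu⟩ := exists_vec_coord D fun l => ψ (x l)
  obtain ⟨w, hw⟩ := exists_vec_coord D fun l => ψ (y l)
  rw [SS2.tors_eq_of_coord D (pow_pos two_pos k) (w := u + w) fun l => by
    rw [hv, Pi.add_apply, map_add ψ, map_add (bL).repr,
      Finsupp.add_apply, Int.cast_add, hu, hw], map_add]
  exact add_mem (hx k ψ u hu) (hy k ψ w hw)

theorem KerVec.smul (a : O) {x : D.Idx → O} (hx : KerVec C D x) : KerVec C D (a • x) :=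
  fun k ψ v hv => hx k (ψ.comp (AddMonoidHom.mulLeft a)) v fun l => by rw [hv]; rfl

/-- the vectors all whose points have a representative twist -/
def kerVecSub : Submodule O (D.Idx → O) where
  carrier := {x | KerVec C D x}
  zero_mem' := KerVec.zero C D
  add_mem' := fun hx hy => hx.add C D hy
  smul_mem' := fun a _ hx => hx.smul C D a

theorem mem_kerVecSub {x : D.Idx → O} : x ∈ kerVecSub C D ↔ KerVec C D x := Iff.rfl

variable (hO : ((2 : ℕ) : O) ∈ maximalIdeal O)

/-- the points given by a translate are translates of the points given by the vector -/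
theorem exists_point (σ : GalQ) (x : D.Idx → O) (k : ℕ) (ψ : O →+ ZMod (2 ^ k)) (v : D.Lam)
    (hv : ∀ l, (((bL).repr v l : ℤ) : ZMod (2 ^ k)) = ψ ((D.galMat Nat.prime_two hO σ *ᵥ x) l)) :
    ∃ u : D.Lam, (∀ l, (((bL).repr u l : ℤ) : ZMod (2 ^ k)) = ψ (x l)) ∧
      D.tors (2 ^ k) v = σ • D.tors (2 ^ k) u := by
  haveI : NeZero (2 ^ k) := ⟨pow_ne_zero k two_ne_zero⟩
  obtain ⟨j, hj⟩ := SS2.exists_pow_le (O := O)
    (pow_ne_zero k (Nat.cast_ne_zero.2 two_ne_zero : ((2 : ℕ) : O) ≠ 0))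
  obtain ⟨u, hu⟩ := exists_vec_coord D fun l => ψ (x l)
  refine ⟨u, hu, ?_⟩
  rw [SS2.tors_eq_of_coord D (pow_pos two_pos k) (w := D.liftP Nat.prime_two (k + j) σ u) fun l => by
    rw [hv, coord_liftP Nat.prime_two hO D ψ hj σ u x hu], SS2.tors_liftP_le D Nat.prime_two k j σ]

/-- stable under what acts on both components -/
theorem KerVec.galois {σ : GalQ} {gs : Reduction.FS A M ≃+* Reduction.FS A M}
    (hσ : SS.Compat (SS.fibreData C).toCore (SS.galAut M 2 σ) gs) {x : D.Idx → O}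
    (hx : KerVec C D x) : KerVec C D (D.galMat Nat.prime_two hO σ *ᵥ x) := by
  intro k ψ v hv
  obtain ⟨u, hu, e⟩ := exists_point D hO σ x k ψ v hv
  rw [e]
  exact kerR_smul (hx k ψ u hu) hσ

/-- inertia moves every vector by such a vector -/
theorem kerVec_inertia_sub {σ : GalQ} (hσ : σ ∈ A.inertiaSubgroupIn ℚ) (x : D.Idx → O) :
    KerVec C D (D.galMat Nat.prime_two hO σ *ᵥ x - x) := by
  intro k ψ v hv
  haveI : NeZero (2 ^ k) := ⟨pow_ne_zero k two_ne_zero⟩
  obtain ⟨u, hu⟩ := exists_vec_coord D fun l => ψ (x l)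
  obtain ⟨t, ht⟩ := exists_vec_coord D fun l => ψ ((D.galMat Nat.prime_two hO σ *ᵥ x) l)
  obtain ⟨u', hu', e⟩ := exists_point D hO σ x k ψ t ht
  rw [SS2.tors_eq_of_coord D (pow_pos two_pos k) (w := t - u) fun l => by
    rw [hv, Pi.sub_apply, map_sub ψ, map_sub (bL).repr, Finsupp.sub_apply, Int.cast_sub, ht, hu],
    map_sub, e, SS2.tors_eq_of_coord D (pow_pos two_pos k) (v := u') (w := u) fun l => by
      rw [hu', hu]]
  exact TOR.smul_sub_mem_kerR _ (pow_ne_zero k two_ne_zero)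
    (D.nsmul_tors (pow_pos two_pos k) u) (SS.compat_inertia C σ hσ)

/-- Frobenius plus `w` moves killed vectors to such vectors -/
theorem kerVec_frob_add {φ : GalQ} (hφ : A.IsFrobeniusAt φ 2) {w : ℤ} (hw : w * w = 1)
    {x : D.Idx → O} (hx : KilledVec D x) (hwx : AtkinVec C D w x) :
    KerVec C D (D.galMat Nat.prime_two hO φ *ᵥ x + (w : O) • x) := by
  intro k ψ v hv
  haveI : NeZero (2 ^ k) := ⟨pow_ne_zero k two_ne_zero⟩
  obtain ⟨u, hu⟩ := exists_vec_coord D fun l => ψ (x l)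
  obtain ⟨t, ht⟩ := exists_vec_coord D fun l => ψ ((D.galMat Nat.prime_two hO φ *ᵥ x) l)
  obtain ⟨u', hu', e⟩ := exists_point D hO φ x k ψ t ht
  set y := D.tors (2 ^ k) u
  have hv' : D.tors (2 ^ k) v = φ • y + w • y := by
    rw [SS2.tors_eq_of_coord D (pow_pos two_pos k) (w := t + w • u) fun l => by
      rw [hv, Pi.add_apply, Pi.smul_apply, smul_eq_mul, ← zsmul_eq_mul, map_add ψ, map_zsmul ψ,
        map_add (bL).repr, map_zsmul (bL).repr, Finsupp.add_apply, Finsupp.smul_apply, smul_eq_mul,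
        Int.cast_add, Int.cast_mul, ht, hu, zsmul_eq_mul],
      map_add, map_zsmul, e, SS2.tors_eq_of_coord D (pow_pos two_pos k) (v := u') (w := u) fun l => by
        rw [hu', hu]]
  have hcomm : φ • (w • y) = w • (φ • y) :=
    map_zsmul (DistribSMul.toAddMonoidHom (JZero (M * 2)) φ) w y
  have key : φ • y + w • y = w • (φ • TOR.wJ C y + y) := by
    rw [hwx k ψ u hu, hcomm, zsmul_add, ← mul_zsmul, hw, one_zsmul]
  rw [hv', key]
  exact zsmul_mem (frob_atkin_add_mem_kerR C hφ (pow_ne_zero k two_ne_zero)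
    (D.nsmul_tors (pow_pos two_pos k) u) (hx k ψ u hu)) w

/-- if a nonzero multiple of a killed vector is such a vector, `Frobenius + w` kills it modulo two -/
theorem frob_add_mem_two {φ : GalQ} (hφ : A.IsFrobeniusAt φ 2) {w : ℤ} (hw : w * w = 1)
    {x : D.Idx → O} (hx : KilledVec D x) (hwx : AtkinVec C D w x) {c : O} (hc : c ≠ 0)
    (hcx : KerVec C D (c • x)) (i : D.Idx) :
    (2 : O) ∣ (D.galMat Nat.prime_two hO φ *ᵥ x + (w : O) • x) i := by
  haveI := Fact.mk Nat.prime_two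
  haveI := Reduction.charP_residue A C.prime C.lies
  -- a power of two multiple is such a vector
  obtain ⟨e, he⟩ := SS2.exists_pow_le (O := O) hc
  obtain ⟨d, hd⟩ := Ideal.mem_span_singleton'.mp (he (Ideal.pow_mem_pow hO e))
  have hex : KerVec C D ((((2 : ℕ) : O) ^ e) • x) := by
    rw [← hd, mul_smul]
    exact hcx.smul C D d
  set a := (D.galMat Nat.prime_two hO φ *ᵥ x + (w : O) • x) i with ha
  by_contra hdiv
  -- a character of level `2 ^ (e + 1)` seeing it
  set I := Ideal.span {((2 : ℕ) : O) ^ (e + 1)} with hI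
  have hne : Ideal.Quotient.mk I (((2 : ℕ) : O) ^ e * a) ≠ 0 := by
    rw [Ne, Ideal.Quotient.eq_zero_iff_mem, hI, Ideal.mem_span_singleton]
    rintro ⟨b, hb⟩
    refine hdiv ⟨b, mul_left_cancel₀ (pow_ne_zero e (Nat.cast_ne_zero.2 two_ne_zero :
      ((2 : ℕ) : O) ≠ 0)) ?_⟩
    rw [hb, pow_succ, mul_assoc, Nat.cast_two]
  obtain ⟨ψ₀, hψ₀⟩ := SS2.exists_zmod_char (A := O ⧸ I) (pow_pos two_pos (e + 1)) (fun b => by
    obtain ⟨b, rfl⟩ := Ideal.Quotient.mk_surjective b
    rw [← map_nsmul, Ideal.Quotient.eq_zero_iff_mem, nsmul_eq_mul, Nat.cast_pow]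
    exact Ideal.mul_mem_right _ _ (Ideal.mem_span_singleton_self _)) hne
  let ψ' : O →+ ZMod (2 ^ (e + 1)) := ψ₀.comp (Ideal.Quotient.mk I).toAddMonoidHom
  have hψ'a : (2 ^ e : ℕ) • ψ' a ≠ 0 := by
    rw [← map_nsmul ψ', nsmul_eq_mul, Nat.cast_pow]
    exact hψ₀
  let cst : ZMod (2 ^ (e + 1)) →+* ZMod (2 ^ 1) :=
    ZMod.castHom (pow_dvd_pow 2 (Nat.le_add_left 1 e)) _
  let ψ : O →+ ZMod (2 ^ 1) := cst.toAddMonoidHom.comp ψ'
  have hψa : ψ a ≠ 0 := by
    intro h0
    apply hψ'a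
    have h1 : ((ψ' a).val : ZMod (2 ^ 1)) = 0 := by
      rw [← map_natCast cst, ZMod.natCast_zmod_val]; exact h0
    rw [ZMod.natCast_eq_zero_iff, pow_one] at h1
    obtain ⟨d', hd'⟩ := h1
    have h2 : ψ' a = ((2 * d' : ℕ) : ZMod (2 ^ (e + 1))) := by rw [← hd', ZMod.natCast_zmod_val]
    rw [h2, nsmul_eq_mul, ← Nat.cast_mul, ← mul_assoc, ← pow_succ, Nat.cast_mul,
      ZMod.natCast_self, zero_mul]
  haveI : NeZero (2 ^ 1) := ⟨by norm_num⟩
  haveI : NeZero (2 ^ (e + 1)) := ⟨pow_ne_zero _ two_ne_zero⟩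
  -- the point of order two has a representative twist
  obtain ⟨u, hu⟩ := exists_vec_coord D fun l => ψ' (x l)
  have hu1 : ∀ l, (((bL).repr u l : ℤ) : ZMod (2 ^ 1)) = ψ (x l) := fun l => by
    show _ = cst (ψ' (x l))
    rw [← hu l, map_intCast]
  set y := D.tors (2 ^ 1) u
  have hy2 : 2 • y = 0 := by
    have := D.nsmul_tors (pow_pos two_pos 1) u
    rwa [pow_one] at this
  have hyR : y ∈ TOR.kerR (SS.fibreData C).toCore 2 := by
    have h := hex (e + 1) ψ' ((2 ^ e : ℕ) • u) fun l => by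
      rw [map_nsmul, Finsupp.smul_apply, nsmul_eq_mul, Int.cast_mul, hu, Pi.smul_apply, smul_eq_mul,
        ← Nat.cast_pow, ← nsmul_eq_mul, map_nsmul, nsmul_eq_mul, Int.cast_natCast]
    have e' : D.tors (2 ^ (e + 1)) ((2 ^ e : ℕ) • u) = y := by
      have h2 := D.tors_mul (2 ^ 1) (2 ^ e) (pow_pos two_pos 1) (pow_pos two_pos e) u
      rw [← pow_add, add_comm 1 e] at h2
      rw [map_nsmul, h2]
    rw [e'] at h
    exact TOR.kerR_descend Nat.prime_two _ e h hy2
  have hyK : SS.KilledByPush M 2 y := hx 1 ψ u hu1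
  have h0 := frob_atkin_two C hφ hyR hyK
  -- read it on the coordinate
  obtain ⟨t, ht⟩ := exists_vec_coord D fun l => ψ ((D.galMat Nat.prime_two hO φ *ᵥ x) l)
  obtain ⟨u', hu', e''⟩ := exists_point D hO φ x 1 ψ t ht
  have hz : D.tors (2 ^ 1) (t + w • u) = 0 := by
    rw [map_add, map_zsmul, e'', SS2.tors_eq_of_coord D (pow_pos two_pos 1) (v := u') (w := u)
      fun l => by rw [hu', hu1]]
    have hw1 : TOR.wJ C y = w • y := hwx 1 ψ u hu1
    rw [hw1, show φ • (w • y) = w • (φ • y) from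
      map_zsmul (DistribSMul.toAddMonoidHom (JZero (M * 2)) φ) w y] at h0
    have h3 := congrArg (fun z => w • z) h0
    simp only [zsmul_add, ← mul_zsmul, hw, one_zsmul, zsmul_zero] at h3
    exact h3
  have h4 := SS2.coord_of_tors_eq_zero D (pow_pos two_pos 1) hz i
  refine hψa ?_
  rw [map_add (bL).repr, map_zsmul (bL).repr, Finsupp.add_apply, Finsupp.smul_apply, smul_eq_mul,
    Int.cast_add, Int.cast_mul, ht, hu1] at h4
  rw [ha, Pi.add_apply, Pi.smul_apply, smul_eq_mul, ← zsmul_eq_mul, map_add ψ, map_zsmul ψ,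
    zsmul_eq_mul]
  exact h4

end FLTAgent.R2

end
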