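import Fermat.Agent.TOR.MazurPhi
import Fermat.Agent.LR.Lattice
import Fermat.Agent.LL.KillInertia
import Fermat.Agent.R2.TwoVec

/-!
Area R2, parcel G3: the Atkin–Lehner involution at a prime `q` exactly dividing the level, on the
torsion of `J₀(M q)` and on the lattice of parabolic homomorphisms.

`evH (atkinW f) = evH f ∘ W` with `W` the matrix of `LR.WC`, hence the point of `φ` goes to the point
of `Wop φ`; lattice vectors fixed up to the scalar `w` by `Wop` give points on which the involution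
is `w`.
-/

set_option autoImplicit false
set_option linter.unusedSectionVars false
set_option linter.style.haveILetI false

noncomputable section

open UpperHalfPlane ModularCurve CongruenceSubgroup AlgebraicCurve Matrix.SpecialLinearGroup
open scoped MatrixGroups TensorProduct

namespace FLTAgent.R2

open FLTAgent.JTors (MeroH ofH pull pullSL evH wGL wElt conjW expChar IsTors det_pos_mul det_pos_SL
  det_wGL_pos det_diag_pos pull_mul pull_congr)
open FLTAgent.Reduction (Qb FB Ctx)
open scoped FLTAgent.Genus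

/-- a matrix acting trivially pulls back trivially -/
theorem pull_of_trivial {g : GL (Fin 2) ℝ} (hg : 0 < g.det.val) (h : ∀ τ : ℍ, g • τ = τ)
    (x : MeroH) : pull g hg x = x := by
  obtain ⟨a, b, hb, rfl⟩ := JTors.exists_ofH_div x
  rw [map_div₀, JTors.pull_ofH, JTors.pull_ofH]
  congr 2 <;> exact Subtype.ext (funext fun τ => congrArg _ (h τ))

/-- the entries of an integral matrix over the reals -/
theorem val_mapGL (γ : SL(2, ℤ)) : ((mapGL ℝ γ : GL (Fin 2) ℝ) : Matrix (Fin 2) (Fin 2) ℝ) =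
    !![(((γ : Matrix (Fin 2) (Fin 2) ℤ) 0 0 : ℤ) : ℝ), (((γ : Matrix (Fin 2) (Fin 2) ℤ) 0 1 : ℤ) : ℝ);
      (((γ : Matrix (Fin 2) (Fin 2) ℤ) 1 0 : ℤ) : ℝ), (((γ : Matrix (Fin 2) (Fin 2) ℤ) 1 1 : ℤ) : ℝ)] := by
  rw [mapGL_coe_matrix]
  ext i j
  fin_cases i <;> fin_cases j <;> simp

variable (M q : ℕ) [NeZero M] [NeZero q]

/-- the matrix of the involution -/
def wMat : GL (Fin 2) ℝ := LR.toR (LR.wQ M q)

variable {M q} (hq : q.Prime) (hqM : ¬ q ∣ M)

include hq hqM in
theorem val_wMat : (wMat M q : Matrix (Fin 2) (Fin 2) ℝ) =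
    !![(q : ℝ) * LR.bx M q, LR.byy M q; (M : ℝ) * q, q] := by
  rw [wMat, LR.wQ, LR.toR_gm (by rw [LR.det_wQ hq hqM]; exact Nat.cast_ne_zero.mpr hq.ne_zero)]
  push_cast
  rfl

include hq hqM in
theorem bezoutR : (LR.bx M q : ℝ) * q - LR.byy M q * M = 1 := by
  exact_mod_cast LR.bezout_bxy M q hq hqM

include hq hqM in
theorem det_wMat_pos : 0 < (wMat M q).det.val := by
  rw [Matrix.GeneralLinearGroup.val_det_apply, val_wMat hq hqM, Matrix.det_fin_two_of]
  have h := bezoutR hq hqM
  have hq0 : (0 : ℝ) < q := Nat.cast_pos.mpr hq.pos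
  linear_combination (hq0 : (0 : ℝ) < q) + (q : ℝ) * h.ge

include hq hqM in
theorem wMat_eq : wMat M q =
    mapGL ℝ (LR.gam0 hq hqM : SL(2, ℤ)) * ModularForm.heckeDiagMatrix q := by
  rw [wMat, LR.wQ_eq hq hqM, map_mul, LR.embG_apply, LR.toR_emb]
  refine congrArg _ (Units.ext ?_)
  rw [LR.Dg, LR.toR_gm (by simpa using hq.ne_zero), ModularForm.val_heckeDiagMatrix hq.ne_zero]
  simp

include hq hqM in
/-- `diag (q, 1) W` is a scalar times an element of `Γ₀(M)` -/
theorem diag_mul_wMat_smul (γ : SL(2, ℤ))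
    (hγ : (γ : Matrix (Fin 2) (Fin 2) ℤ) = !![q * LR.bx M q, LR.byy M q; (M : ℤ), 1]) (τ : ℍ) :
    (ModularForm.heckeDiagMatrix q * wMat M q * (mapGL ℝ γ)⁻¹) • τ = τ := by
  have hq0 : (0 : ℝ) < q := Nat.cast_pos.mpr hq.pos
  have e : ((ModularForm.heckeDiagMatrix q * wMat M q : GL (Fin 2) ℝ) : Matrix (Fin 2) (Fin 2) ℝ) =
      (!![(q : ℝ), 0; 0, q] * (mapGL ℝ γ : GL (Fin 2) ℝ) : Matrix (Fin 2) (Fin 2) ℝ) := by
    rw [Units.val_mul, ModularForm.val_heckeDiagMatrix hq.ne_zero, val_wMat hq hqM,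
      val_mapGL, hγ]
    ext i j
    fin_cases i <;> fin_cases j <;> simp [Matrix.mul_apply, Fin.sum_univ_two] <;> ring
  let c : GL (Fin 2) ℝ := Matrix.GeneralLinearGroup.mkOfDetNeZero !![(q : ℝ), 0; 0, q]
    (by simp [Matrix.det_fin_two_of, hq.ne_zero])
  have e' : ModularForm.heckeDiagMatrix q * wMat M q * (mapGL ℝ γ)⁻¹ = c := by
    rw [mul_inv_eq_iff_eq_mul]
    exact Units.ext e
  rw [e']
  have hc : 0 < c.det.val := by
    simp [c, Matrix.det_fin_two_of, mul_self_pos, hq.ne_zero]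
  refine UpperHalfPlane.ext ?_
  rw [coe_smul_of_det_pos hc]
  simp [c, UpperHalfPlane.num, UpperHalfPlane.denom, mul_div_cancel_left₀, hq.ne_zero]

include hq hqM in
/-- the involution on functions is the pull back by its matrix -/
theorem evH_atkinW {A : ValuationSubring Qb} (C : Ctx A M q) (x : FB (M * q)) :
    evH (M * q) (SS.atkinW M q x) = pull (wMat M q) (det_wMat_pos hq hqM) (evH (M * q) x) := by
  have h1 : ∀ f : FB M, pull (wMat M q) (det_wMat_pos hq hqM) (evH M f) =
      pull (ModularForm.heckeDiagMatrix q) (det_diag_pos q) (evH M f) := fun f => by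
    rw [pull_congr (det_wMat_pos hq hqM) (det_pos_mul (det_pos_SL _) (det_diag_pos q))
      (wMat_eq hq hqM), pull_mul (det_pos_SL _) (det_diag_pos q)]
    exact congrArg _ (JTors.evH_invariant (LR.gam0 hq hqM).2 f)
  let γ : SL(2, ℤ) := LR.sl (q * LR.bx M q) (LR.byy M q) M 1
    (by linear_combination LR.bezout_bxy M q hq hqM)
  have h2 : ∀ f : FB M, pull (wMat M q) (det_wMat_pos hq hqM)
      (pull (ModularForm.heckeDiagMatrix q) (det_diag_pos q) (evH M f)) = evH M f := fun f => by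
    have hd := det_pos_mul (det_diag_pos q) (det_wMat_pos hq hqM)
    have hs : 0 < (ModularForm.heckeDiagMatrix q * wMat M q * (mapGL ℝ γ)⁻¹).det.val := by
      rw [← map_inv]
      exact det_pos_mul hd (det_pos_SL γ⁻¹)
    rw [← pull_mul (det_diag_pos q) (det_wMat_pos hq hqM), pull_congr hd
        (det_pos_mul hs (det_pos_SL γ)) (by rw [inv_mul_cancel_right]),
      pull_mul hs (det_pos_SL γ),
      pull_of_trivial hs (diag_mul_wMat_smul hq hqM γ rfl)]
    exact JTors.evH_invariant (by rw [CongruenceSubgroup.Gamma0_mem]; simp [γ, LR.sl]) f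
  have h : (evH (M * q)).comp (SS.atkinW M q) =
      ((pull (wMat M q) (det_wMat_pos hq hqM)).restrictScalars Qb).comp (evH (M * q)) := by
    refine Genus.algHom_ext fun d => ?_
    show evH (M * q) (SS.atkinW M q _) =
      pull (wMat M q) (det_wMat_pos hq hqM) (evH (M * q) _)
    obtain ⟨f, hf | hf⟩ := SS.exists_preimage_gen C d <;> rw [← hf]
    · rw [SS.atkinW_i1 C, JTors.evH_beta, JTors.evH_alpha, h1]
    · rw [SS.atkinW_i2 C, JTors.evH_beta, JTors.evH_alpha, h2]
  exact DFunLike.congr_fun h x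

include hq hqM in
set_option maxHeartbeats 800000 in
/-- the Fricke conjugate of the involution -/
theorem exists_wGL_conj : ∃ g : Gamma0 (M * q), wGL (M * q) * wMat M q =
    mapGL ℝ (g : SL(2, ℤ)) * (wMat M q * wGL (M * q)) := by
  have h := LR.bezout_bxy M q hq hqM
  refine ⟨⟨LR.sl (q + M) (-(LR.bx M q + LR.byy M q))
    (-((M : ℤ) * q * (LR.bx M q + LR.byy M q))) (M * LR.byy M q ^ 2 + q * LR.bx M q ^ 2)
    (by linear_combination ((LR.bx M q : ℤ) * q - LR.byy M q * M + 1) * h), ?_⟩, Units.ext ?_⟩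
  · rw [CongruenceSubgroup.Gamma0_mem, ZMod.intCast_zmod_eq_zero_iff_dvd]
    exact (Dvd.intro (-(LR.bx M q + LR.byy M q)) (by simp [LR.sl]; ring))
  · have hR := bezoutR hq hqM
    rw [Units.val_mul, Units.val_mul, Units.val_mul, val_mapGL, JTors.val_wGL,
      val_wMat hq hqM]
    ext i j
    fin_cases i <;> fin_cases j <;>
      simp [LR.sl, Matrix.mul_apply, Fin.sum_univ_two]
    · linear_combination ((M : ℝ) * q) * hR
    · linear_combination (q : ℝ) * hR
    · linear_combination (-(M : ℝ) * q * q * LR.bx M q) * hR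
    · linear_combination (-(M : ℝ) * q * LR.byy M q) * hR

include hq hqM in
theorem trace_conj_wQ {γ g : Gamma0 (M * q)}
    (h : LR.wQ M q * LR.embG γ = LR.embG g * LR.wQ M q) :
    ((g : SL(2, ℤ)) : Matrix (Fin 2) (Fin 2) ℤ).trace =
      ((γ : SL(2, ℤ)) : Matrix (Fin 2) (Fin 2) ℤ).trace := by
  have e := congrArg (fun z : LR.GQ => (z : Matrix (Fin 2) (Fin 2) ℚ).trace)
    (mul_inv_eq_iff_eq_mul.mpr h)
  rw [Units.val_mul, Units.val_mul, Matrix.trace_mul_comm, ← Matrix.mul_assoc, ← Units.val_mul,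
    inv_mul_cancel, Units.val_one, Matrix.one_mul, LR.embG_apply, LR.embG_apply, LR.emb_eq,
    LR.emb_eq, LR.val_gm ?_, LR.val_gm ?_] at e
  · simp only [Matrix.trace_fin_two, Matrix.of_apply, Matrix.cons_val', Matrix.cons_val_zero,
      Matrix.cons_val_one, Matrix.empty_val', Matrix.cons_val_fin_one] at e ⊢
    exact_mod_cast e.symm
  all_goals rw [LR.det_SL_cast]; norm_num

/-- the involution on the lattice -/
def wLam (hq : q.Prime) (hqM : ¬ q ∣ M) : Module.End ℤ (JTors.Lam (M * q)) :=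
  AddMonoidHom.toIntLinearMap
    { toFun := fun φ => ⟨LR.Wop hq hqM φ.1, fun γ hγ => by
        obtain ⟨σ, g, hg⟩ := (LR.WC hq hqM).exists_rel γ
        have h : LR.wQ M q * LR.embG γ = LR.embG (g ()) * LR.wQ M q := hg ()
        rw [LR.Wop, (LR.WC hq hqM).op_apply hg, Fintype.sum_unique]
        exact φ.2 _ (by rw [trace_conj_wQ hq hqM h]; exact hγ)⟩
      map_zero' := Subtype.ext (map_zero _)
      map_add' := fun φ ψ => Subtype.ext (map_add _ φ.1 ψ.1) }

theorem coe_wLam (φ : JTors.Lam (M * q)) : (wLam hq hqM φ).1 = LR.Wop hq hqM φ.1 := rfl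

variable {A : ValuationSubring Qb} (C : Ctx A M q)

include hq hqM in
/-- the point of `φ` goes to the point of `Wop φ` -/
theorem isTors_atkin {n : ℕ} {φ : JTors.Lam (M * q)} {x : JZero (M * q)}
    (hx : IsTors n (conjW φ) x) : IsTors n (conjW (wLam hq hqM φ)) (TOR.wJ C x) := by
  obtain ⟨f, D, hf, ⟨ψ, hψ, hc⟩, hD, rfl⟩ := hx
  refine ⟨SS.atkinW M q f, SemilinearAut.degZeroSMulHom
    (SemilinearAut.ofAlgAut (TOR.atkinEquiv C)) D, (map_ne_zero _).mpr hf,
    ⟨pull (wMat M q) (det_wMat_pos hq hqM) ψ, ?_, fun γ => ?_⟩, fun v => ?_, ?_⟩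
  · rw [← map_pow, hψ, evH_atkinW hq hqM C]
  · obtain ⟨σ, g, hg⟩ := (LR.WC hq hqM).exists_rel γ
    obtain ⟨σ₂, g₂, hg₂⟩ := (LR.WC hq hqM).exists_rel (wElt γ)
    have h : wMat M q * mapGL ℝ (γ : SL(2, ℤ)) = mapGL ℝ (g () : SL(2, ℤ)) * wMat M q := by
      have e := congrArg LR.toR (hg ())
      rwa [map_mul, map_mul, LR.embG_apply, LR.embG_apply, LR.toR_emb, LR.toR_emb] at e
    have h₂ : wMat M q * mapGL ℝ (wElt γ : SL(2, ℤ)) = mapGL ℝ (g₂ () : SL(2, ℤ)) * wMat M q := by
      have e := congrArg LR.toR (hg₂ ())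
      rwa [map_mul, map_mul, LR.embG_apply, LR.embG_apply, LR.toR_emb, LR.toR_emb] at e
    obtain ⟨g₀, hg₀⟩ := exists_wGL_conj hq hqM
    -- the two multipliers are conjugate
    have hconj : wElt (g ()) * g₀ = g₀ * g₂ () := by
      refine Subtype.ext ((mapGL_injective (R := ℤ) (S := ℝ) (n := Fin 2))
        (mul_right_cancel (b := wMat M q * wGL (M * q)) ?_))
      rw [Subgroup.coe_mul, Subgroup.coe_mul, map_mul, map_mul, mul_assoc, ← hg₀, ← mul_assoc,
        JTors.mapGL_wElt, mul_assoc, ← h, ← mul_assoc, hg₀, mul_assoc, mul_assoc,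
        ← JTors.mapGL_wElt, ← mul_assoc (wMat M q), h₂, mul_assoc, mul_assoc]
    have hval : φ.1 (Additive.ofMul (wElt (g ()))) = φ.1 (Additive.ofMul (g₂ ())) := by
      have e := congrArg (fun z => φ.1 (Additive.ofMul z)) hconj
      simp only [ofMul_mul, map_add] at e
      linarith
    rw [pullSL, ← pull_mul (det_wMat_pos hq hqM) (det_pos_SL _),
      pull_congr _ (det_pos_mul (det_pos_SL _) (det_wMat_pos hq hqM)) h,
      pull_mul (det_pos_SL _) (det_wMat_pos hq hqM)]
    show pull (wMat M q) _ (pullSL (g () : SL(2, ℤ)) ψ) = _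
    rw [hc, map_mul, AlgHom.commutes]
    refine congrArg (fun z => algebraMap ℂ MeroH z * _) ?_
    rw [JTors.expChar_apply, JTors.expChar_apply, JTors.conjW_apply, JTors.conjW_apply, hval,
      coe_wLam, LR.Wop, (LR.WC hq hqM).op_apply hg₂, Fintype.sum_unique]
  · set g := SemilinearAut.ofAlgAut (TOR.atkinEquiv C)
    have h1 := SemilinearAut.ord_smul g (g⁻¹ • v) f
    rw [smul_inv_smul] at h1
    rw [show SS.atkinW M q f = g • f from rfl, h1, SemilinearAut.coe_degZeroSMulHom,
      SemilinearAut.divisor_smul_apply, hD]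
  · exact SemilinearAut.pic0_smul_mk _ _

/-- the involution on the torsion of the lattice -/
theorem wJ_tors (LD : JTors.LatticeData (M * q)) {n : ℕ} (hn : 0 < n) (v : JTors.Lam (M * q)) :
    TOR.wJ C ((LL.latticeOf LD).tors n v) =
      (LL.latticeOf LD).tors n (wLam C.prime C.not_dvd v) := by
  rw [LL.latticeOf_tors, LL.latticeOf_tors]
  exact ((isTors_atkin C.prime C.not_dvd C (JTors.isTors_torsMap hn (conjW v))).eq_torsMap hn).symm

section Vectors

variable {O : Type} [CommRing O]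

include hq hqM in
/-- the matrix of the involution, read in `O ⊗ Lam` -/
theorem lamCast_vecOf_wLam (LD : JTors.LatticeData (M * q)) (x : (LL.latticeOf LD).Idx → O) :
    LL.lamCast O (M * q) (LL.vecOf LD
        (((LL.latticeOf LD).mat (wLam hq hqM) : Matrix _ _ O).mulVec x)) =
      LR.Wop hq hqM (LL.lamCast O (M * q) (LL.vecOf LD x)) := by
  classical
  refine AddMonoidHom.ext fun a => ?_
  obtain ⟨γ, rfl⟩ := Additive.ofMul.surjective a
  obtain ⟨σ, g, hg⟩ := (LR.WC hq hqM).exists_rel γ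
  rw [LR.Wop, (LR.WC hq hqM).op_apply hg, Fintype.sum_unique (ι := Unit), LL.lamCast_vecOf,
    LL.lamCast_vecOf]
  let WL : Module.End ℤ (LL.latticeOf LD).Lam := wLam hq hqM
  let b := Module.Free.chooseBasis ℤ (LL.latticeOf LD).Lam
  have key : ∀ i, ((LL.basisVec LD i).1 (Additive.ofMul (g default)) : ℤ) =
      ∑ j, (b.repr (WL (b i)) j) *
        (LL.basisVec LD j).1 (Additive.ofMul γ) := by
    intro i
    have e := congrArg (fun φ : JTors.Lam (M * q) => φ.1 (Additive.ofMul γ))
      (b.sum_repr (WL (b i)))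
    have e2 : (wLam hq hqM (LL.basisVec LD i)).1 (Additive.ofMul γ) =
        (LL.basisVec LD i).1 (Additive.ofMul (g default)) := by
      rw [coe_wLam, LR.Wop, (LR.WC hq hqM).op_apply hg, Fintype.sum_unique (ι := Unit)]
    rw [← e2]
    refine e.symm.trans ?_
    refine (congrArg (fun z : Additive (Gamma0 (M * q)) →+ ℤ => z (Additive.ofMul γ))
      (map_sum (Submodule.subtype _) _ Finset.univ)).trans ?_
    rw [AddMonoidHom.finsetSum_apply]
    exact Finset.sum_congr rfl fun j _ => rfl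
  change ∑ i, (((LL.latticeOf LD).mat WL : Matrix _ _ O).mulVec x) i * _ = _
  calc ∑ i, (((LL.latticeOf LD).mat WL : Matrix _ _ O).mulVec x) i *
        (((LL.basisVec LD i).1 (Additive.ofMul γ) : ℤ) : O)
      = ∑ i, ∑ j, ((b.repr (WL (b j)) i : ℤ) : O) * x j *
          (((LL.basisVec LD i).1 (Additive.ofMul γ) : ℤ) : O) := by
        refine Finset.sum_congr rfl fun i _ => ?_
        simp only [Matrix.mulVec, dotProduct, Finset.sum_mul,
          SS2.mat_entry (LL.latticeOf LD)]
        rfl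
    _ = ∑ j, x j * (((LL.basisVec LD j).1 (Additive.ofMul (g default)) : ℤ) : O) := by
        rw [Finset.sum_comm]
        refine Finset.sum_congr rfl fun j _ => ?_
        rw [key, Int.cast_sum, Finset.mul_sum]
        exact Finset.sum_congr rfl fun i _ => by rw [Int.cast_mul]; ring

variable [IsDomain O] [CharZero O]

/-- lattice vectors on which `Wop` is the scalar `w` give points on which the involution is `w` -/
theorem wJ_point_of_wop (LD : JTors.LatticeData (M * q)) {p : ℕ} (hp : p.Prime) (w : ℤ)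
    (x : (LL.latticeOf LD).Idx → O)
    (hx : LR.Wop C.prime C.not_dvd (LL.lamCast O (M * q) (LL.vecOf LD x)) =
      (w : O) • LL.lamCast O (M * q) (LL.vecOf LD x))
    (k : ℕ) (ψ : O →+ ZMod (p ^ k)) (v : (LL.latticeOf LD).Lam)
    (hv : ∀ l, (((Module.Free.chooseBasis ℤ (LL.latticeOf LD).Lam).repr v l : ℤ) :
      ZMod (p ^ k)) = ψ (x l)) :
    TOR.wJ C ((LL.latticeOf LD).tors (p ^ k) v) = w • (LL.latticeOf LD).tors (p ^ k) v := by
  classical
  have hcoord : ∀ y : (LL.latticeOf LD).Idx → O, LL.vecOf LD y =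
      (((Module.Free.chooseBasis ℤ (LL.latticeOf LD).Lam).baseChange O).equivFun).symm y := fun y => by
    rw [Module.Basis.equivFun_symm_apply]
    refine Finset.sum_congr rfl fun j _ => ?_
    rw [Module.Basis.baseChange_apply]
    exact ((TensorProduct.smul_tmul' _ _ _).trans (by rw [smul_eq_mul, mul_one]; rfl)).symm
  have hvec : ((LL.latticeOf LD).mat (wLam C.prime C.not_dvd) : Matrix _ _ O).mulVec x =
      (w : O) • x := by
    have hinj : Function.Injective fun y : (LL.latticeOf LD).Idx → O =>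
        LL.lamCast O (M * q) (LL.vecOf LD y) := fun y z h => by
      have h' := LL.lamCast_injective h
      rw [hcoord, hcoord] at h'
      exact LinearEquiv.injective _ h'
    refine hinj ?_
    show LL.lamCast O (M * q) (LL.vecOf LD _) = LL.lamCast O (M * q) (LL.vecOf LD _)
    rw [lamCast_vecOf_wLam, hx, ← map_smul]
    refine congrArg _ ?_
    rw [LL.vecOf, LL.vecOf, Finset.smul_sum]
    exact Finset.sum_congr rfl fun j _ => by
      rw [Pi.smul_apply, smul_eq_mul, TensorProduct.smul_tmul', smul_eq_mul]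
  refine ((wJ_tors C LD (pow_pos hp.pos k) v).trans ?_).trans (map_zsmul _ w v)
  let WL : Module.End ℤ (LL.latticeOf LD).Lam := wLam C.prime C.not_dvd
  change (LL.latticeOf LD).tors (p ^ k) (WL v) = (LL.latticeOf LD).tors (p ^ k) (w • v)
  change ((LL.latticeOf LD).mat WL : Matrix _ _ O).mulVec x = _ at hvec
  refine SS2.tors_eq_of_coord (LL.latticeOf LD) (pow_pos hp.pos k) fun l => ?_
  rw [SS2.coord_apply, funext hv, SS2.mulVec_char (LL.latticeOf LD) ψ, hvec, map_zsmul
    (Module.Free.chooseBasis ℤ (LL.latticeOf LD).Lam).repr, Finsupp.smul_apply, smul_eq_mul,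
    Int.cast_mul, hv, Pi.smul_apply, smul_eq_mul, ← zsmul_eq_mul, map_zsmul ψ, zsmul_eq_mul]

end Vectors

/-- the form used by the shape at two -/
theorem atkinVec_of_wop {O : Type} [CommRing O] [IsDomain O] [IsDiscreteValuationRing O]
    [IsAdicComplete (IsLocalRing.maximalIdeal O) O] [CharZero O] {M : ℕ} [NeZero M]
    {A : ValuationSubring Qb} (C : Ctx A M 2) (LD : JTors.LatticeData (M * 2)) (w : ℤ)
    (x : (LL.latticeOf LD).Idx → O)
    (hx : LR.Wop C.prime C.not_dvd (LL.lamCast O (M * 2) (LL.vecOf LD x)) =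
      (w : O) • LL.lamCast O (M * 2) (LL.vecOf LD x)) :
    AtkinVec C (LL.latticeOf LD) w x :=
  fun k ψ v hv => wJ_point_of_wop C LD Nat.prime_two w x hx k ψ v hv

end FLTAgent.R2

end
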