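import Fermat.Agent.R2.TwoShape
import Fermat.Agent.LL.LevelRepAux
import Fermat.Agent.LL.KillVec

/-!
Area R2, parcel G3: the representation on a module of lattice vectors at a prime `q` exactly
dividing the level, away from the residue characteristic.

* inertia satisfies `(ρ σ - 1)² = 0`;
* on vectors with vanishing sums to level `M` the trace of a Frobenius has square `(1 + q)²`, so `0`
  when `q = -1` in the target ring.
-/

set_option autoImplicit false
set_option linter.unusedSectionVars false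
set_option linter.style.haveILetI false

noncomputable section

open scoped Matrix
open Matrix IsLocalRing ModularCurve

namespace FLTAgent.R2

open FLTAgent.Attach (HeckeLattice GalQ cycR)
open FLTAgent.Reduction (Qb Ctx)

variable {O : Type} [CommRing O] [IsDomain O] [IsDiscreteValuationRing O]
  [IsAdicComplete (maximalIdeal O) O] [CharZero O] {p : ℕ} (hp : p.Prime)
  (hpO : (p : O) ∈ maximalIdeal O) {M q : ℕ} [NeZero M] [NeZero q] (hq : q.Prime) (hqM : ¬ q ∣ M)
  (hqp : q ≠ p) {A : ValuationSubring Qb} (hA : A.LiesOverPrime q)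

include hq hqM hqp hA in
/-- inertia satisfies `σ + σ⁻¹ = 2` on the vectors -/
theorem galMat_inertia_quadratic (D : HeckeLattice (M * q)) {σ : GalQ}
    (hσ : σ ∈ A.inertiaSubgroupIn ℚ) :
    D.galMat hp hpO σ + D.galMat hp hpO σ⁻¹ = (2 : Matrix D.Idx D.Idx O) := by
  classical
  have hF := SS.fibreInputs (A := A) (M := M) (q := q) ⟨hq, hqM, hA⟩
  refine HeckeLattice.eq_of_congrMod fun k => ?_
  have h0 : ∀ τ : GalQ, D.CongrMod k (D.galMat hp hpO τ) (D.mat (D.liftP hp k τ)) :=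
    fun τ i j => D.galMat_spec hp hpO τ k i j
  have h1 := (h0 σ).add (h0 σ⁻¹)
  set U : Module.End ℤ D.Lam := D.liftP hp k σ + D.liftP hp k σ⁻¹
  have hn : 0 < p ^ k := pow_pos hp.pos k
  have hqn : ¬ q ∣ p ^ k := fun h =>
    hqp ((Nat.prime_dvd_prime_iff_eq hq hp).1 (hq.dvd_of_dvd_pow h))
  have htwo : ∀ v, D.tors (p ^ k) (U v) = D.tors (p ^ k) ((2 : Module.End ℤ D.Lam) v) := by
    intro v
    rw [show (2 : Module.End ℤ D.Lam) = ((2 : ℕ) : Module.End ℤ D.Lam) from rfl,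
      Module.End.natCast_apply, map_nsmul, LinearMap.add_apply, map_add, D.tors_liftP hp,
      D.tors_liftP hp]
    exact SS.inertia_quadratic hq hA hF hσ hqn _ (D.nsmul_tors hn v)
  intro i j
  have h2 := D.mat_sub_mem (R := O) hpO hn (u := U) (w := 2) htwo i j
  have h3 := add_mem (h1 i j) h2
  rw [map_add, map_ofNat] at h3
  convert h3 using 1
  ring

variable {T : Type} [CommRing T] [Algebra O T]

/-- the square of inertia minus one -/
theorem inertia_sq (D : HeckeLattice (M * q)) (W : Submodule O (D.Idx → O))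
    (Θ : Matrix (Fin 2) (Fin 2) T →ₐ[O] Module.End O W) (ρ : GalQ →* Matrix (Fin 2) (Fin 2) T)
    (hgal : ∀ (σ : GalQ) (x : W), ((Θ (ρ σ) x : W) : D.Idx → O) =
      D.galMat hp hpO σ *ᵥ (x : D.Idx → O))
    (hq : q.Prime) (hqM : ¬ q ∣ M) (hqp : q ≠ p) (hA : A.LiesOverPrime q)
    {σ : GalQ} (hσ : σ ∈ A.inertiaSubgroupIn ℚ)
    {R : Type} [CommRing R] (ψ : T →+* R)
    (hψ : ∀ t : T, Θ (Matrix.scalar (Fin 2) t) = 0 → ψ t = 0) :
    ((ρ σ).map ψ - 1) * ((ρ σ).map ψ - 1) = 0 := by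
  classical
  have h := galMat_inertia_quadratic hp hpO hq hqM hqp hA D hσ
  have h0 : Θ (ρ σ + ρ σ⁻¹ - 2) = 0 := by
    refine LinearMap.ext fun x => Subtype.ext ?_
    rw [map_sub, map_add, map_ofNat, LinearMap.sub_apply, LinearMap.add_apply,
      show ((2 : Module.End O W)) = ((2 : ℕ) : Module.End O W) from rfl, Module.End.natCast_apply,
      LinearMap.zero_apply, Submodule.coe_sub, Submodule.coe_add, hgal, hgal, ← Matrix.add_mulVec, h,
      Submodule.coe_zero, two_nsmul, Submodule.coe_add,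
      show (2 : Matrix D.Idx D.Idx O) = 1 + 1 from one_add_one_eq_two.symm,
      Matrix.add_mulVec, Matrix.one_mulVec, sub_self]
  have h1 : Θ ((ρ σ - 1) * (ρ σ - 1)) = 0 := by
    have e : (ρ σ - 1) * (ρ σ - 1) = ρ σ * (ρ σ + ρ σ⁻¹ - 2) := by
      have hi : ρ σ * ρ σ⁻¹ = 1 := by rw [← map_mul, mul_inv_cancel, map_one]
      calc (ρ σ - 1) * (ρ σ - 1) = ρ σ * ρ σ + 1 - 2 * ρ σ := by noncomm_ring
        _ = ρ σ * ρ σ + ρ σ * ρ σ⁻¹ - 2 * ρ σ := by rw [hi]
        _ = _ := by noncomm_ring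
    rw [e, map_mul, h0, mul_zero]
  have e : ((ρ σ).map ψ - 1) * ((ρ σ).map ψ - 1) = ((ρ σ - 1) * (ρ σ - 1)).map ψ := by
    rw [Matrix.map_mul, Matrix.map_sub _ (map_sub ψ), Matrix.map_one _ (map_zero ψ) (map_one ψ)]
  rw [e]
  ext i j
  exact hψ _ (entries_eq_zero Θ h1 i j)

/-- the square of the trace at a killing prime -/
theorem trace_sq_killing (LD : JTors.LatticeData (M * q))
    (W : Submodule O ((LL.latticeOf LD).Idx → O))
    (Θ : Matrix (Fin 2) (Fin 2) T →ₐ[O] Module.End O W) (ρ : GalQ →* Matrix (Fin 2) (Fin 2) T)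
    (hgal : ∀ (σ : GalQ) (x : W), ((Θ (ρ σ) x : W) : (LL.latticeOf LD).Idx → O) =
      (LL.latticeOf LD).galMat hp hpO σ *ᵥ (x : (LL.latticeOf LD).Idx → O))
    (hdet : ∀ σ, (ρ σ).det = algebraMap O T (cycR hp hpO σ))
    (hq : q.Prime) (hqM : ¬ q ∣ M) (hqp : q ≠ p) (hA : A.LiesOverPrime q)
    (hsum : ∀ x ∈ W, LL.SumsZero M q (LL.lamCast O (M * q) (LL.vecOf LD x)))
    {φ : GalQ} (hφ : A.IsFrobeniusAt φ q)
    {R : Type} [CommRing R] (ψ : T →+* R)
    (hψ : ∀ t : T, Θ (Matrix.scalar (Fin 2) t) = 0 → ψ t = 0) :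
    ((ρ φ).map ψ).trace ^ 2 = (1 + (q : R)) ^ 2 := by
  classical
  have h0 : Θ (Matrix.scalar (Fin 2) ((ρ φ).trace ^ 2 - (1 + (q : T)) ^ 2)) = 0 := by
    refine LinearMap.ext fun x => ?_
    rw [LinearMap.zero_apply]
    refine LL.scalar_of_quartic Θ q (ρ φ) (ρ φ⁻¹) ?_ ?_ x (Subtype.ext ?_)
    · rw [← map_mul, inv_mul_cancel, map_one]
    · rw [hdet, Attach.cycR_frobenius hp hpO hq hqp hA hφ, map_natCast]
    · have hF : ∀ v : W, ((Θ (ρ φ * ρ φ) v : W) : (LL.latticeOf LD).Idx → O) =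
          (LL.latticeOf LD).galMat hp hpO (φ * φ) *ᵥ (v : (LL.latticeOf LD).Idx → O) := fun v => by
        rw [← map_mul ρ]
        exact hgal _ v
      have h3 := LL.quartic_mulVec hp hpO hq hqM hqp hA hφ LD _ (hsum x x.2)
      rw [LL.quartic_eq_nsmul, Matrix.add_mulVec, Matrix.sub_mulVec, ← Matrix.mulVec_mulVec,
        Matrix.smul_mulVec, Matrix.smul_mulVec, Matrix.one_mulVec] at h3
      rw [LL.quartic_eq_nsmul, map_add, map_sub, map_nsmul, map_nsmul, map_one,
        map_mul Θ (ρ φ * ρ φ) (ρ φ * ρ φ)]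
      simp only [LinearMap.add_apply, LinearMap.sub_apply, LinearMap.smul_apply,
        Module.End.one_apply, Module.End.mul_apply, Submodule.coe_add, Submodule.coe_sub,
        Submodule.coe_smul_of_tower, hF, Submodule.coe_zero]
      exact h3
  have h := hψ _ h0
  rw [map_sub, sub_eq_zero, map_pow, map_pow, map_add, map_one, map_natCast, Matrix.trace,
    map_sum] at h
  exact h

/-- the trace squares to zero when `q = -1` -/
theorem trace_sq_killing_zero (LD : JTors.LatticeData (M * q))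
    (W : Submodule O ((LL.latticeOf LD).Idx → O))
    (Θ : Matrix (Fin 2) (Fin 2) T →ₐ[O] Module.End O W) (ρ : GalQ →* Matrix (Fin 2) (Fin 2) T)
    (hgal : ∀ (σ : GalQ) (x : W), ((Θ (ρ σ) x : W) : (LL.latticeOf LD).Idx → O) =
      (LL.latticeOf LD).galMat hp hpO σ *ᵥ (x : (LL.latticeOf LD).Idx → O))
    (hdet : ∀ σ, (ρ σ).det = algebraMap O T (cycR hp hpO σ))
    (hq : q.Prime) (hqM : ¬ q ∣ M) (hqp : q ≠ p) (hA : A.LiesOverPrime q)
    (hsum : ∀ x ∈ W, LL.SumsZero M q (LL.lamCast O (M * q) (LL.vecOf LD x)))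
    {φ : GalQ} (hφ : A.IsFrobeniusAt φ q)
    {R : Type} [CommRing R] (ψ : T →+* R)
    (hψ : ∀ t : T, Θ (Matrix.scalar (Fin 2) t) = 0 → ψ t = 0) (hR : (q : R) = -1) :
    ((ρ φ).map ψ).trace ^ 2 = 0 := by
  rw [trace_sq_killing hp hpO LD W Θ ρ hgal hdet hq hqM hqp hA hsum hφ ψ hψ, hR, add_neg_cancel,
    zero_pow two_ne_zero]

end FLTAgent.R2

end
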