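import Fermat.Agent.R2.EvalBad
import Fermat.Agent.R2.EvalAtkin
import Fermat.Agent.LL.LamHecke
import Fermat.Agent.LL.Fitting

/-!
Area R2, parcel G3: the representation acting on the part of the lattice, evaluated at one vector.

* at a killing prime, a vector with vanishing sums is killed by `tr² - (1 + q)²`;
* at two, a vector with vanishing sums on whose points the involution is `w` is killed by the entries
  of `(ρ g - λ g det ρ g) (ρ h - λ h)` on the decomposition group.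

The second is `twoShape` on the module of all such vectors of the part; it is saturated as characters
to `ℤ/2ᵏ` lift to `ℤ/2ᵏ⁺¹`.
-/

set_option autoImplicit false
set_option linter.unusedSectionVars false
set_option linter.style.haveILetI false
set_option maxHeartbeats 1000000

noncomputable section

open scoped TensorProduct Matrix
open Matrix IsLocalRing ModularCurve

namespace FLTAgent.R2

open FLTAgent.Attach (HeckeLattice GalQ cycR)
open FLTAgent.Reduction (Qb Ctx)
open FLTAgent.MLT (KilledVec exists_vec_coord)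

/-- a character to `ℤ/2ᵏ` lifts to `ℤ/2ᵏ⁺¹` -/
theorem exists_char_lift {O : Type} [CommRing O] [IsDomain O] [CharZero O] (k : ℕ)
    (ψ : O →+ ZMod (2 ^ k)) : ∃ ψ' : O →+ ZMod (2 ^ (k + 1)), ∀ a,
      ZMod.castHom (pow_dvd_pow 2 k.le_succ) (ZMod (2 ^ k)) (ψ' a) = ψ a := by
  classical
  let C := AddCircle (1 : ℚ)
  let f : ℕ → ℤ →+ C := fun n => zmultiplesHom _ ((((2 : ℚ) ^ n)⁻¹ : ℚ) : C)
  have hf : ∀ (n : ℕ) (m : ℤ), f n m = (((m : ℚ) / (2 : ℚ) ^ n : ℚ) : C) := fun n m => by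
    simp only [f, C, zmultiplesHom_apply, ← AddCircle.coe_zsmul, zsmul_eq_mul, div_eq_mul_inv]
  have hker : ∀ (n : ℕ) (m : ℤ), f n m = 0 ↔ (m : ZMod (2 ^ n)) = 0 := fun n m => by
    rw [hf, AddCircle.coe_eq_zero_iff, ZMod.intCast_zmod_eq_zero_iff_dvd]
    simp only [zsmul_eq_mul, mul_one]
    constructor
    · rintro ⟨j, hj⟩
      rw [eq_div_iff (pow_ne_zero n two_ne_zero)] at hj
      exact ⟨j, by rw [mul_comm]; push_cast; exact_mod_cast hj.symm⟩
    · rintro ⟨j, rfl⟩
      exact ⟨j, by push_cast; field_simp⟩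
  let ι : ∀ n : ℕ, ZMod (2 ^ n) →+ C := fun n =>
    ZMod.lift (2 ^ n) ⟨f n, (hker n _).2 (ZMod.intCast_zmod_eq_zero_iff_dvd _ _ |>.2 dvd_rfl)⟩
  have hι : ∀ n, Function.Injective (ι n) := fun n =>
    (ZMod.lift_injective _).2 fun m hm => (hker n m).1 hm
  have hιc : ∀ (n : ℕ) (m : ℤ), ι n (m : ZMod (2 ^ n)) = f n m := fun n m => ZMod.lift_coe _ _ _
  -- halve
  have hinj : Function.Injective ((2 : ℤ) • (LinearMap.id : O →ₗ[ℤ] O)) := fun a b h => by
    have h' : (2 : O) * a = 2 * b := by simpa [zsmul_eq_mul] using h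
    exact mul_left_cancel₀ two_ne_zero h'
  obtain ⟨χ, hχ⟩ := CharacterModule.dual_surjective_of_injective _ hinj ((ι k).comp ψ)
  have hχ2 : ∀ a : O, (2 : ℕ) • χ a = ι k (ψ a) := fun a => by
    have h := congrArg (fun c : CharacterModule O => c a) hχ
    have h' : χ ((2 : ℤ) • a) = ι k (ψ a) := h
    rw [map_zsmul χ] at h'
    rw [← natCast_zsmul]
    exact h'
  have hsurj : ∀ a, ∃ z, ι (k + 1) z = χ a := fun a => by
    obtain ⟨r, hr⟩ := QuotientAddGroup.mk_surjective (χ a)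
    have h0 : ((((2 ^ (k + 1) : ℕ) : ℤ) • r : ℚ) : C) = 0 := by
      rw [AddCircle.coe_zsmul, natCast_zsmul]
      refine (congrArg ((2 ^ (k + 1) : ℕ) • ·) hr).trans ?_
      rw [pow_succ, mul_nsmul', hχ2, ← map_nsmul, nsmul_eq_mul, ZMod.natCast_self, zero_mul,
        map_zero]
    obtain ⟨j, hj⟩ := AddCircle.coe_eq_zero_iff _ |>.1 h0
    simp only [zsmul_eq_mul, mul_one] at hj
    refine ⟨(j : ZMod (2 ^ (k + 1))), ?_⟩
    rw [hιc, hf, ← hr, hj]
    push_cast
    rw [mul_div_cancel_left₀ _ (pow_ne_zero _ two_ne_zero)]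
  choose ψ' hψ' using hsurj
  refine ⟨AddMonoidHom.mk' ψ' fun x y => hι _ (by rw [map_add, hψ', hψ', hψ', map_add]),
    fun a => hι k ?_⟩
  obtain ⟨m, hm⟩ := ZMod.intCast_surjective (ψ' a)
  show ι k (ZMod.castHom _ _ (ψ' a)) = _
  rw [← hm, map_intCast, hιc, ← hχ2, ← hψ', ← hm, hιc, hf, hf, ← natCast_zsmul,
    ← AddCircle.coe_zsmul]
  congr 1
  rw [zsmul_eq_mul]
  push_cast
  rw [pow_succ]
  field_simp

variable {O : Type} [CommRing O] [IsDomain O] [IsDiscreteValuationRing O]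
  [IsAdicComplete (maximalIdeal O) O] [CharZero O] {M : ℕ} [NeZero M]

section Lift

variable {N : ℕ} [NeZero N] (D : HeckeLattice N)

/-- the points of `x` are among the points of `2 x` -/
theorem exists_point_double {x : D.Idx → O} (k : ℕ) (ψ : O →+ ZMod (2 ^ k)) (v : D.Lam)
    (hv : ∀ l, (((Module.Free.chooseBasis ℤ D.Lam).repr v l : ℤ) : ZMod (2 ^ k)) = ψ (x l)) :
    ∃ (ψ' : O →+ ZMod (2 ^ (k + 1))) (u : D.Lam),
      (∀ l, (((Module.Free.chooseBasis ℤ D.Lam).repr u l : ℤ) : ZMod (2 ^ (k + 1))) =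
        ψ' (((2 : O) • x) l)) ∧ D.tors (2 ^ (k + 1)) u = D.tors (2 ^ k) v := by
  haveI : NeZero (2 ^ (k + 1)) := ⟨pow_ne_zero _ two_ne_zero⟩
  obtain ⟨ψ', hψ'⟩ := exists_char_lift k ψ
  obtain ⟨u, hu⟩ := exists_vec_coord D fun l => ψ' (x l)
  refine ⟨ψ', 2 • u, fun l => ?_, ?_⟩
  · rw [map_nsmul, Finsupp.smul_apply, nsmul_eq_mul, Int.cast_mul, hu, Pi.smul_apply, smul_eq_mul,
      show (2 : O) * x l = (2 : ℕ) • x l by rw [nsmul_eq_mul, Nat.cast_ofNat], map_nsmul ψ',
      nsmul_eq_mul, Int.cast_natCast]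
  · rw [map_nsmul, pow_succ, D.tors_mul _ _ (pow_pos two_pos k) two_pos]
    refine SS2.tors_eq_of_coord D (pow_pos two_pos k) fun l => ?_
    rw [hv, ← hψ', ← hu, map_intCast]

end Lift

variable {A : ValuationSubring Qb} (C : Ctx A M 2) (D : HeckeLattice (M * 2))
  (hO : ((2 : ℕ) : O) ∈ maximalIdeal O)

theorem killedVec_of_double {x : D.Idx → O} (hx : KilledVec D ((2 : O) • x)) :
    KilledVec D x := by
  intro k ψ v hv
  obtain ⟨ψ', u, hu, e⟩ := exists_point_double D k ψ v hv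
  rw [← e]
  exact hx (k + 1) ψ' u hu

theorem atkinVec_of_double {w : ℤ} {x : D.Idx → O} (hx : AtkinVec C D w ((2 : O) • x)) :
    AtkinVec C D w x := by
  intro k ψ v hv
  obtain ⟨ψ', u, hu, e⟩ := exists_point_double D k ψ v hv
  rw [← e]
  exact hx (k + 1) ψ' u hu

theorem atkinVec_zero (w : ℤ) : AtkinVec C D w (0 : D.Idx → O) := by
  intro k ψ v hv
  rw [SS2.tors_eq_of_coord D (pow_pos two_pos k) (w := 0) fun l => by
    rw [hv, Pi.zero_apply, map_zero ψ, map_zero (Module.Free.chooseBasis ℤ D.Lam).repr,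
      Finsupp.zero_apply, Int.cast_zero], map_zero, map_zero, zsmul_zero]

theorem AtkinVec.add {w : ℤ} {x y : D.Idx → O} (hx : AtkinVec C D w x) (hy : AtkinVec C D w y) :
    AtkinVec C D w (x + y) := by
  intro k ψ v hv
  haveI : NeZero (2 ^ k) := ⟨pow_ne_zero k two_ne_zero⟩
  obtain ⟨u, hu⟩ := exists_vec_coord D fun l => ψ (x l)
  obtain ⟨t, ht⟩ := exists_vec_coord D fun l => ψ (y l)
  rw [SS2.tors_eq_of_coord D (pow_pos two_pos k) (w := u + t) fun l => by
    rw [hv, Pi.add_apply, map_add ψ, map_add (Module.Free.chooseBasis ℤ D.Lam).repr,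
      Finsupp.add_apply, Int.cast_add, hu, ht], map_add, map_add, zsmul_add,
    hx k ψ u hu, hy k ψ t ht]

theorem AtkinVec.smul {w : ℤ} (a : O) {x : D.Idx → O} (hx : AtkinVec C D w x) :
    AtkinVec C D w (a • x) :=
  fun k ψ v hv => hx k (ψ.comp (AddMonoidHom.mulLeft a)) v fun l => by rw [hv]; rfl

theorem AtkinVec.galois {w : ℤ} (σ : GalQ) {x : D.Idx → O} (hx : AtkinVec C D w x) :
    AtkinVec C D w (D.galMat Nat.prime_two hO σ *ᵥ x) := by
  intro k ψ v hv
  obtain ⟨u, hu, e⟩ := exists_point D hO σ x k ψ v hv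
  rw [e, TOR.wJ_smul, hx k ψ u hu]
  exact map_zsmul (DistribSMul.toAddMonoidHom (JZero (M * 2)) σ) w _

/-- the vectors with vanishing sums at two on which the involution is `w` -/
def twoVecSub (w : ℤ) : Submodule O (D.Idx → O) where
  carrier := {x | KilledVec D x ∧ AtkinVec C D w x}
  zero_mem' := ⟨KilledVec.zero Nat.prime_two D, atkinVec_zero C D w⟩
  add_mem' := fun hx hy => ⟨hx.1.add Nat.prime_two D hy.1, hx.2.add C D hy.2⟩
  smul_mem' := fun a _ hx => ⟨hx.1.smul D a, hx.2.smul C D a⟩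

theorem mem_twoVecSub {w : ℤ} {x : D.Idx → O} :
    x ∈ twoVecSub C D w ↔ KilledVec D x ∧ AtkinVec C D w x := Iff.rfl

section Part

variable {M₀ L : ℕ} [NeZero L] (LD : JTors.LatticeData L) (s : LL.Sys M₀ O)

/-- a part of a torsion free module where an endomorphism is invertible or nilpotent is saturated -/
theorem mem_of_smul_mem {H : Type} [AddCommGroup H] [Module O H] [Module.IsTorsionFree O H]
    {p q : Submodule O H} (h : IsCompl p q) {c : O} (hc : c ≠ 0) {x : H} (hx : c • x ∈ p) :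
    x ∈ p := by
  obtain ⟨a, ha, b, hb, rfl⟩ := Submodule.mem_sup.mp (h.sup_eq_top ▸ Submodule.mem_top (x := x))
  have h0 : c • b = 0 := by
    refine Submodule.disjoint_def.mp h.disjoint _ ?_ (q.smul_mem c hb)
    rw [smul_add] at hx
    simpa using sub_mem hx (p.smul_mem c ha)
  rw [(smul_eq_zero.mp h0).resolve_left hc, add_zero]
  exact ha

/-- the part is saturated -/
theorem mem_lamPart_of_smul {c : O} (hc : c ≠ 0) {x : O ⊗[ℤ] JTors.Lam L}
    (hx : c • x ∈ LL.lamPart LD s) : x ∈ LL.lamPart LD s := by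
  haveI := JTors.lam_free (N := L)
  haveI := JTors.lam_finite (N := L)
  rw [LL.mem_lamPart_iff] at hx ⊢
  exact ⟨mem_of_smul_mem (LL.Fitting.isCompl _) hc hx.1,
    fun l hl hlM hb => mem_of_smul_mem (LL.Fitting.isCompl _).symm hc (hx.2 l hl hlM hb)⟩

end Part

section Shape

variable {T : Type} [CommRing T] [Algebra O T]

/-- one vector with vanishing sums at a killing prime -/
theorem killing_apply {M₀ M₁ q : ℕ} [NeZero M₁] [NeZero q] (LD : JTors.LatticeData (M₁ * q))
    (s : LL.Sys M₀ O) {p : ℕ} (hp : p.Prime) (hpO : (p : O) ∈ maximalIdeal O)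
    (Θ : Matrix (Fin 2) (Fin 2) T →ₐ[O] Module.End O (LL.lamPart LD s))
    (ρ : GalQ →* Matrix (Fin 2) (Fin 2) T)
    (hgal : ∀ (σ : GalQ) (x : LL.lamPart LD s),
      ((Θ (ρ σ) x : LL.lamPart LD s) : O ⊗[ℤ] JTors.Lam (M₁ * q)) = LL.galLam LD hp hpO σ x.1)
    (hdet : ∀ σ, (ρ σ).det = algebraMap O T (cycR hp hpO σ))
    (hq : q.Prime) (hqM : ¬ q ∣ M₁) (hqp : q ≠ p) {P : ValuationSubring Qb}
    (hP : P.LiesOverPrime q) {φ : GalQ} (hφ : P.IsFrobeniusAt φ q) (x : LL.lamPart LD s)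
    (hsum : LL.SumsZero M₁ q (LL.lamCast O (M₁ * q) (x : O ⊗[ℤ] JTors.Lam (M₁ * q)))) :
    Θ (Matrix.scalar (Fin 2) ((ρ φ).trace ^ 2 - (1 + (q : T)) ^ 2)) x = 0 := by
  classical
  refine LL.scalar_of_quartic Θ q (ρ φ) (ρ φ⁻¹) ?_ ?_ x
    (Subtype.ext (LL.coordOf_injective LD ?_))
  · rw [← map_mul, inv_mul_cancel, map_one]
  · rw [hdet, Attach.cycR_frobenius hp hpO hq hqp hP hφ, map_natCast]
  · have hF : ∀ v : LL.lamPart LD s,
        LL.coordOf LD ((Θ (ρ φ * ρ φ) v : LL.lamPart LD s) : O ⊗[ℤ] JTors.Lam (M₁ * q)) =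
          (LL.latticeOf LD).galMat hp hpO (φ * φ) *ᵥ
            LL.coordOf LD (v : O ⊗[ℤ] JTors.Lam (M₁ * q)) := fun v => by
      rw [← map_mul ρ, hgal, LL.coordOf_galLam]
    have hz : LL.coordOf LD (((0 : LL.lamPart LD s)) : O ⊗[ℤ] JTors.Lam (M₁ * q)) = 0 :=
      _root_.map_zero _
    rw [hz, LL.quartic_eq_nsmul, map_add, map_sub, map_nsmul, map_nsmul, map_one,
      map_mul Θ (ρ φ * ρ φ) (ρ φ * ρ φ)]
    simp only [LinearMap.add_apply, LinearMap.sub_apply, LinearMap.smul_apply,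
      Module.End.one_apply, Module.End.mul_apply, Submodule.coe_add, Submodule.coe_sub,
      Submodule.coe_smul_of_tower]
    let E := AddMonoidHom.mk' (LL.coordOf (O := O) LD) (fun a b => LinearEquiv.map_add _ a b)
    have hlin : ∀ (u v : O ⊗[ℤ] JTors.Lam (M₁ * q)) (n m : ℕ) (w : O ⊗[ℤ] JTors.Lam (M₁ * q)),
        LL.coordOf LD (u - n • v + m • w) =
          LL.coordOf LD u - n • LL.coordOf LD v + m • LL.coordOf LD w := fun u v n m w => by
      show E (u - n • v + m • w) = E u - n • E v + m • E w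
      rw [map_add E, map_sub E, map_nsmul E, map_nsmul E]
    rw [hlin, hF, hF]
    have h3 := LL.quartic_mulVec hp hpO hq hqM hqp hP hφ LD (LL.coordOf LD x.1)
      (by rwa [LL.vecOf_coordOf])
    rw [LL.quartic_eq_nsmul, Matrix.add_mulVec, Matrix.sub_mulVec, ← Matrix.mulVec_mulVec,
      Matrix.smul_mulVec, Matrix.smul_mulVec, Matrix.one_mulVec] at h3
    exact h3

variable (LD : JTors.LatticeData (M * 2)) {M₀ : ℕ} (s : LL.Sys M₀ O)
  (Θ : Matrix (Fin 2) (Fin 2) T →ₐ[O] Module.End O (LL.lamPart LD s))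
  (ρ : GalQ →* Matrix (Fin 2) (Fin 2) T)

/-- the coordinates as a linear equivalence -/
def coordEquiv {L : ℕ} [NeZero L] (LD : JTors.LatticeData L) :
    (O ⊗[ℤ] JTors.Lam L) ≃ₗ[O] ((LL.latticeOf LD).Idx → O) :=
  ((Module.Free.chooseBasis ℤ (LL.latticeOf LD).Lam).baseChange O).equivFun

theorem coordEquiv_apply {L : ℕ} [NeZero L] (LD : JTors.LatticeData L) (y : O ⊗[ℤ] JTors.Lam L) :
    coordEquiv LD y = LL.coordOf LD y := rfl

theorem coordEquiv_symm (x : (LL.latticeOf LD).Idx → O) :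
    (coordEquiv LD).symm x = LL.vecOf LD x := by
  refine (coordEquiv LD).injective ?_
  rw [LinearEquiv.apply_symm_apply, coordEquiv_apply]
  obtain ⟨t, rfl⟩ := (coordEquiv (O := O) LD).surjective x
  rw [coordEquiv_apply, LL.vecOf_coordOf]

/-- the part inside the coordinates, cut out by the two conditions -/
def twoPart (w : ℤ) : Submodule O ((LL.latticeOf LD).Idx → O) :=
  (LL.lamPart LD s).comap (coordEquiv LD).symm.toLinearMap ⊓ twoVecSub C (LL.latticeOf LD) w

theorem mem_twoPart {w : ℤ} {x : (LL.latticeOf LD).Idx → O} :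
    x ∈ twoPart C LD s w ↔ (coordEquiv LD).symm x ∈ LL.lamPart LD s ∧
      KilledVec (LL.latticeOf LD) x ∧ AtkinVec C (LL.latticeOf LD) w x := Iff.rfl

/-- the part is stable under the matrices -/
theorem twoPart_stable (w : ℤ)
    (hgal : ∀ (σ : GalQ) (x : LL.lamPart LD s), ((Θ (ρ σ) x : LL.lamPart LD s) :
      O ⊗[ℤ] JTors.Lam (M * 2)) = LL.galLam LD Nat.prime_two hO σ x.1)
    (hspan : Algebra.adjoin O (Set.range ρ) = ⊤) (Y : Matrix (Fin 2) (Fin 2) T) :
    ∀ (v : (LL.latticeOf LD).Idx → O) (hv : v ∈ twoPart C LD s w),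
      coordEquiv LD (Θ Y ⟨(coordEquiv LD).symm v, hv.1⟩).1 ∈ twoPart C LD s w := by
  have hY : Y ∈ Algebra.adjoin O (Set.range ρ) := by rw [hspan]; trivial
  induction hY using Algebra.adjoin_induction with
  | mem Y hY =>
    obtain ⟨σ, rfl⟩ := hY
    intro v hv
    have e : coordEquiv LD (Θ (ρ σ) ⟨(coordEquiv LD).symm v, hv.1⟩).1 =
        (LL.latticeOf LD).galMat Nat.prime_two hO σ *ᵥ v := by
      rw [hgal, coordEquiv_apply, LL.coordOf_galLam, ← coordEquiv_apply,
        LinearEquiv.apply_symm_apply]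
    refine (mem_twoPart C LD s).mpr ⟨?_, ?_, ?_⟩
    · rw [LinearEquiv.symm_apply_apply]; exact Subtype.prop _
    · rw [e]; exact hv.2.1.galois Nat.prime_two hO _ σ
    · rw [e]; exact hv.2.2.galois C _ hO σ
  | algebraMap r =>
    intro v hv
    rw [AlgHom.commutes, Module.algebraMap_end_apply, Submodule.coe_smul, map_smul (coordEquiv LD),
      LinearEquiv.apply_symm_apply]
    exact Submodule.smul_mem _ r hv
  | add Y Z _ _ hY hZ =>
    intro v hv
    rw [map_add Θ, LinearMap.add_apply, Submodule.coe_add, map_add (coordEquiv LD)]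
    exact add_mem (hY v hv) (hZ v hv)
  | mul Y Z _ _ hY hZ =>
    intro v hv
    have e : Θ (Y * Z) ⟨(coordEquiv LD).symm v, hv.1⟩ =
        Θ Y ⟨(coordEquiv LD).symm (coordEquiv LD (Θ Z ⟨(coordEquiv LD).symm v, hv.1⟩).1),
          (hZ v hv).1⟩ := by
      rw [map_mul Θ, Module.End.mul_apply]
      exact congrArg (Θ Y) (Subtype.ext (LinearEquiv.symm_apply_apply _ _).symm)
    rw [e]
    exact hY _ (hZ v hv)

/-- an action on a bigger module restricts to a stable submodule -/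
theorem exists_restrict {H V : Type} [AddCommGroup H] [Module O H] [AddCommGroup V] [Module O V]
    (Θ : Matrix (Fin 2) (Fin 2) T →ₐ[O] Module.End O H) (ι : V →ₗ[O] H)
    (hι : Function.Injective ι) (hst : ∀ Y v, ∃ v', ι v' = Θ Y (ι v)) :
    ∃ Θ' : Matrix (Fin 2) (Fin 2) T →ₐ[O] Module.End O V,
      ∀ Y v, ι (Θ' Y v) = Θ Y (ι v) := by
  choose f hf using hst
  let g : Matrix (Fin 2) (Fin 2) T → Module.End O V := fun Y =>
    { toFun := f Y
      map_add' := fun u v => hι (by rw [hf, map_add ι, map_add (Θ Y), map_add ι, hf, hf])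
      map_smul' := fun r v => hι (by
        rw [hf, map_smul ι, map_smul (Θ Y), RingHom.id_apply, map_smul ι, hf]) }
  have hg : ∀ Y v, ι (g Y v) = Θ Y (ι v) := hf
  refine ⟨{ toFun := g
            map_one' := LinearMap.ext fun v => hι (by rw [hg, map_one]; rfl)
            map_mul' := fun Y Z => LinearMap.ext fun v => hι (by
              rw [hg, map_mul, Module.End.mul_apply, Module.End.mul_apply, hg, hg])
            map_zero' := LinearMap.ext fun v => hι (by
              rw [hg, map_zero]; exact (map_zero ι).symm)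
            map_add' := fun Y Z => LinearMap.ext fun v => hι (by
              rw [hg, map_add, LinearMap.add_apply, LinearMap.add_apply, map_add ι, hg, hg])
            commutes' := fun r => LinearMap.ext fun v => hι (by
              rw [hg, AlgHom.commutes, Module.algebraMap_end_apply, Module.algebraMap_end_apply,
                map_smul ι]) }, hg⟩

/-- the shape in every quotient modulo the annihilator and a power of two gives zero -/
theorem eq_zero_of_mem_span {V : Type} [AddCommGroup V] [Module O V] [Module.Finite O V]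
    (hO : ((2 : ℕ) : O) ∈ maximalIdeal O)
    (Θ : Matrix (Fin 2) (Fin 2) T →ₐ[O] Module.End O V) (t : T)
    (h : ∀ m : ℕ, ∃ u c : T, Θ (Matrix.scalar (Fin 2) u) = 0 ∧ t = u + c * (2 : T) ^ m) (v : V) :
    Θ (Matrix.scalar (Fin 2) t) v = 0 := by
  rw [← Submodule.mem_bot (R := O),
    ← Ideal.iInf_pow_smul_eq_bot_of_isLocalRing (M := V) (maximalIdeal O)
      (IsLocalRing.maximalIdeal.isMaximal O).ne_top, Submodule.mem_iInf]
  intro m
  obtain ⟨u, c, hu, rfl⟩ := h m
  have htwo : Matrix.scalar (Fin 2) ((2 : T) ^ m) =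
      algebraMap O (Matrix (Fin 2) (Fin 2) T) ((2 : O) ^ m) := by
    ext k l
    simp [Matrix.scalar, Matrix.algebraMap_matrix_apply, Matrix.diagonal, map_ofNat]
  rw [map_add (Matrix.scalar (Fin 2)), map_mul (Matrix.scalar (Fin 2)), htwo, map_add, hu,
    zero_add, ← Algebra.commutes, map_mul, AlgHom.commutes, Module.End.mul_apply,
    Module.algebraMap_end_apply]
  have h2 : (2 : O) ∈ maximalIdeal O := by simpa using hO
  exact Submodule.smul_mem_smul (Ideal.pow_mem_pow h2 m) Submodule.mem_top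

/-- the shape at two, at one vector with vanishing sums on whose points the involution is `w` -/
theorem two_apply
    (hgal : ∀ (σ : GalQ) (x : LL.lamPart LD s), ((Θ (ρ σ) x : LL.lamPart LD s) :
      O ⊗[ℤ] JTors.Lam (M * 2)) = LL.galLam LD Nat.prime_two hO σ x.1)
    (hdet : ∀ σ, (ρ σ).det = algebraMap O T (cycR Nat.prime_two hO σ))
    (hspan : Algebra.adjoin O (Set.range ρ) = ⊤)
    (hlev : ∀ m : ℕ, Deform.FinLevel fun σ =>
      (ρ σ).map (Ideal.Quotient.mk (Ideal.span {(2 : T) ^ m})))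
    (w : ℤˣ) {φ : GalQ} (hφ : A.IsFrobeniusAt φ 2) {i j : Fin 2}
    (hunit : IsUnit ((ρ φ + ((w : ℤ) : T) • 1) i j))
    (x : LL.lamPart LD s) (hsum : LL.SumsZero M 2 (LL.lamCast O (M * 2) x.1))
    (hw : AtkinVec C (LL.latticeOf LD) w (LL.coordOf LD x.1))
    {g h : GalQ} (hg : g ∈ A.decompositionSubgroup ℚ) (hh : h ∈ A.decompositionSubgroup ℚ)
    (a b : Fin 2) :
    Θ (Matrix.scalar (Fin 2)
      (((ρ g - (((lamTwo w g : ℤ) : T) * (ρ g).det) • (1 : Matrix (Fin 2) (Fin 2) T)) *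
        (ρ h - ((lamTwo w h : ℤ) : T) • 1)) a b)) x = 0 := by
  classical
  let ι : twoPart C LD s (w : ℤ) →ₗ[O] LL.lamPart LD s :=
    ((coordEquiv LD).symm.toLinearMap ∘ₗ (twoPart C LD s (w : ℤ)).subtype).codRestrict _
      fun v => v.2.1
  have hιinj : Function.Injective ι := fun u v e =>
    Subtype.ext ((coordEquiv LD).symm.injective (congrArg Subtype.val e))
  obtain ⟨Θ', hΘ'⟩ := exists_restrict Θ ι hιinj fun Y v =>
    ⟨⟨_, twoPart_stable C hO LD s Θ ρ w hgal hspan Y v.1 v.2⟩,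
      Subtype.ext (LinearEquiv.symm_apply_apply _ _)⟩
  have hgal' : ∀ (σ : GalQ) (v : twoPart C LD s (w : ℤ)),
      ((Θ' (ρ σ) v : twoPart C LD s (w : ℤ)) : (LL.latticeOf LD).Idx → O) =
        (LL.latticeOf LD).galMat Nat.prime_two hO σ *ᵥ (v : (LL.latticeOf LD).Idx → O) := by
    intro σ v
    have e := congrArg Subtype.val (hΘ' (ρ σ) v)
    rw [hgal] at e
    refine (coordEquiv LD).symm.injective (e.trans ?_)
    rw [← LinearEquiv.symm_apply_apply (coordEquiv LD) (LL.galLam LD Nat.prime_two hO σ _),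
      coordEquiv_apply, LL.coordOf_galLam, ← coordEquiv_apply]
    exact congrArg (fun z => (coordEquiv LD).symm (_ *ᵥ z)) (LinearEquiv.apply_symm_apply _ _)
  have hsat : ∀ v : (LL.latticeOf LD).Idx → O,
      (2 : O) • v ∈ twoPart C LD s (w : ℤ) → v ∈ twoPart C LD s (w : ℤ) := by
    intro v hv
    refine (mem_twoPart C LD s).mpr ⟨mem_lamPart_of_smul LD s two_ne_zero ?_,
      killedVec_of_double _ hv.2.1, atkinVec_of_double C _ hv.2.2⟩
    rw [← map_smul]
    exact hv.1
  have hxW : coordEquiv LD x.1 ∈ twoPart C LD s (w : ℤ) := (mem_twoPart C LD s).mpr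
    ⟨by rw [LinearEquiv.symm_apply_apply]; exact x.2, MLT.killedVec_of_sumsZero Nat.prime_two LD _
      (by rw [coordEquiv_apply, LL.vecOf_coordOf]; exact hsum), hw⟩
  have hy : ι ⟨_, hxW⟩ = x := Subtype.ext (LinearEquiv.symm_apply_apply _ _)
  set t := ((ρ g - (((lamTwo w g : ℤ) : T) * (ρ g).det) • (1 : Matrix (Fin 2) (Fin 2) T)) *
    (ρ h - ((lamTwo w h : ℤ) : T) • 1)) a b
  haveI : Module.Finite O (twoPart C LD s (w : ℤ)) :=
    Module.Finite.iff_fg.mpr (IsNoetherian.noetherian _)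
  have hall : ∀ m : ℕ, ∃ u c : T, Θ' (Matrix.scalar (Fin 2) u) = 0 ∧
      t = u + c * (2 : T) ^ m := by
    intro m
    let K : Ideal T := RingHom.ker ((Θ'.toRingHom).comp (Matrix.scalar (Fin 2) : T →+* _))
    let J : Ideal T := K ⊔ Ideal.span {(2 : T) ^ m}
    have hψ : ∀ u : T, Θ' (Matrix.scalar (Fin 2) u) = 0 → Ideal.Quotient.mk J u = 0 := fun u hu =>
      Ideal.Quotient.eq_zero_iff_mem.mpr (Ideal.mem_sup_left hu)
    have hfin : Deform.FinLevel fun σ => (ρ σ).map (Ideal.Quotient.mk J) := by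
      obtain ⟨F, hF, hfix⟩ := hlev m
      refine ⟨F, hF, fun σ hσ => ?_⟩
      let π : T ⧸ Ideal.span {(2 : T) ^ m} →+* T ⧸ J :=
        Ideal.Quotient.factor (le_sup_right : Ideal.span {(2 : T) ^ m} ≤ J)
      have e := congrArg (fun Y => Y.map π) (hfix σ hσ)
      simp only [Matrix.map_map, Matrix.map_one _ (map_zero π) (map_one π)] at e
      exact e
    have key := twoShape C (LL.latticeOf LD) hO (twoPart C LD s (w : ℤ)) Θ' ρ hdet hgal'
      (fun v hv => hv.2.1) w (fun v hv => hv.2.2) hsat hφ hunit (Ideal.Quotient.mk J) hψ hfin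
      hg hh
    have e := congrFun₂ key a b
    have hmap : ∀ (σ : GalQ) (u : T), (ρ σ).map (Ideal.Quotient.mk J) -
        Ideal.Quotient.mk J u • (1 : Matrix (Fin 2) (Fin 2) (T ⧸ J)) =
          (ρ σ - u • 1).map (Ideal.Quotient.mk J) := fun σ u => by
      ext k l
      simp [Matrix.map_apply, Matrix.one_apply, apply_ite (Ideal.Quotient.mk J)]
    rw [← RingHom.mapMatrix_apply, ← RingHom.map_det, ← map_intCast (Ideal.Quotient.mk J),
      ← map_intCast (Ideal.Quotient.mk J), ← map_mul, RingHom.mapMatrix_apply,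
      hmap, hmap, ← Matrix.map_mul, Matrix.map_apply,
      Matrix.zero_apply, Ideal.Quotient.eq_zero_iff_mem] at e
    obtain ⟨u, hu, v, hv, huv⟩ := Submodule.mem_sup.mp e
    obtain ⟨c, rfl⟩ := Ideal.mem_span_singleton'.mp hv
    exact ⟨u, c, hu, huv.symm⟩
  have h1 := congrArg ι (eq_zero_of_mem_span hO Θ' t hall ⟨_, hxW⟩)
  rw [map_zero ι, hΘ', hy] at h1
  exact h1

end Shape

/-- matrices with residually full span generate -/
theorem adjoin_range_eq_top {T : Type} [CommRing T] [IsLocalRing T] [Algebra O T]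
    {Γ : Type*} [Group Γ] (ρ : Γ →* Matrix (Fin 2) (Fin 2) T)
    (hgen : Algebra.adjoin O (Set.range fun σ => (ρ σ).trace) = ⊤)
    (hdet : ∀ σ, (ρ σ).det ∈ (algebraMap O T).range)
    (hres : Submodule.span (ResidueField T) (Set.range fun σ => (ρ σ).map (residue T)) = ⊤) :
    Algebra.adjoin O (Set.range ρ) = ⊤ := by
  classical
  set S := Algebra.adjoin O (Set.range ρ)
  have hρ : ∀ σ, ρ σ ∈ S := fun σ => Algebra.subset_adjoin ⟨σ, rfl⟩
  -- the scalars
  have htr : ∀ σ, Matrix.scalar (Fin 2) (ρ σ).trace ∈ S := by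
    intro σ
    obtain ⟨c, hc⟩ := hdet σ
    have hi : ρ σ * ρ σ⁻¹ = 1 := by rw [← map_mul, mul_inv_cancel, map_one]
    have hadj : (ρ σ).adjugate = (ρ σ).det • ρ σ⁻¹ := by
      conv_lhs => rw [← mul_one (ρ σ).adjugate, ← hi, ← Matrix.mul_assoc, Matrix.adjugate_mul]
      rw [Matrix.smul_mul, Matrix.one_mul]
    have e : Matrix.scalar (Fin 2) (ρ σ).trace = ρ σ + (ρ σ).det • ρ σ⁻¹ := by
      rw [← hadj]
      ext k l
      fin_cases k <;> fin_cases l <;>
        simp [Matrix.adjugate_fin_two, Matrix.trace_fin_two, Matrix.scalar, Matrix.diagonal,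
          add_comm]
    rw [e, ← hc, algebraMap_smul]
    exact add_mem (hρ σ) (Subalgebra.smul_mem _ (hρ _) c)
  have hscal : ∀ t : T, Matrix.scalar (Fin 2) t ∈ S := by
    intro t
    have ht : t ∈ Algebra.adjoin O (Set.range fun σ => (ρ σ).trace) := by rw [hgen]; trivial
    induction ht using Algebra.adjoin_induction with
    | mem t ht => obtain ⟨σ, rfl⟩ := ht; exact htr σ
    | algebraMap r =>
      rw [show Matrix.scalar (Fin 2) (algebraMap O T r) =
        algebraMap O (Matrix (Fin 2) (Fin 2) T) r by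
          ext k l; simp [Matrix.scalar, Matrix.algebraMap_matrix_apply, Matrix.diagonal]]
      exact Subalgebra.algebraMap_mem _ r
    | add a b _ _ ha hb => rw [map_add]; exact add_mem ha hb
    | mul a b _ _ ha hb => rw [map_mul]; exact mul_mem ha hb
  let V : Submodule T (Matrix (Fin 2) (Fin 2) T) :=
    { carrier := {Y | Y ∈ S}
      zero_mem' := zero_mem S
      add_mem' := fun ha hb => S.add_mem ha hb
      smul_mem' := fun t Y hY => by
        show t • Y ∈ S
        rw [show t • Y = Matrix.scalar (Fin 2) t * Y from (Matrix.smul_eq_diagonal_mul Y t)]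
        exact mul_mem (hscal t) hY }
  have hV : V = ⊤ := by
    refine IsLocalRing.map_mkQ_eq_top.mp (eq_top_iff.mpr fun z _ => ?_)
    obtain ⟨Y, rfl⟩ := Submodule.mkQ_surjective _ z
    have hY : Y.map (residue T) ∈ Submodule.span (ResidueField T)
        (Set.range fun σ => (ρ σ).map (residue T)) := by rw [hres]; trivial
    obtain ⟨c, hc⟩ := Finsupp.mem_span_range_iff_exists_finsupp.mp hY
    choose d hd using fun σ => residue_surjective (R := T) (c σ)
    refine ⟨∑ σ ∈ c.support, d σ • ρ σ, Submodule.sum_mem _ fun σ _ => V.smul_mem _ (hρ σ), ?_⟩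
    rw [Submodule.mkQ_apply, Submodule.mkQ_apply, Submodule.Quotient.eq,
      show (∑ σ ∈ c.support, d σ • ρ σ) - Y =
        ∑ k, ∑ l, ((∑ σ ∈ c.support, d σ • ρ σ) - Y) k l • Matrix.single k l (1 : T) from by
          conv_lhs => rw [Matrix.matrix_eq_sum_single ((∑ σ ∈ c.support, d σ • ρ σ) - Y)]
          exact Finset.sum_congr rfl fun k _ => Finset.sum_congr rfl fun l _ => by
            rw [Matrix.smul_single, smul_eq_mul, mul_one]]
    refine Submodule.sum_mem _ fun k _ => Submodule.sum_mem _ fun l _ =>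
      Submodule.smul_mem_smul ?_ Submodule.mem_top
    rw [← residue_eq_zero_iff, Matrix.sub_apply, map_sub, sub_eq_zero, Matrix.sum_apply, map_sum]
    have e := congrFun₂ hc k l
    rw [Finsupp.sum, Matrix.sum_apply, Matrix.map_apply] at e
    rw [← e]
    exact Finset.sum_congr rfl fun σ _ => by
      rw [Matrix.smul_apply, Matrix.smul_apply, Matrix.map_apply, smul_eq_mul, smul_eq_mul,
        map_mul, hd]
  exact eq_top_iff.mpr fun Y _ => show Y ∈ V by rw [hV]; trivial

end FLTAgent.R2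

end
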