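import Fermat.Agent.R2.EvalTwo

/-!
Area R2, parcel G3: the clauses at two and at a killing prime on one twist of a class of a level
with diamonds, in the lattice data of `LevelRho`.

`two_twist` gives the entries of `(χ R₀ g - cyc g t ^ m) (χ R₀ h - t ^ m')` and `quartic_twist` the
scalar `tr² - (1 + q)²`, both killing the twist of a class new at the prime.
-/

set_option autoImplicit false
set_option linter.style.haveILetI false
set_option linter.unusedSectionVars false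
set_option maxHeartbeats 1000000
set_option synthInstance.maxHeartbeats 100000

noncomputable section

open scoped TensorProduct MatrixGroups
open Matrix IsLocalRing

namespace FLTAgent.R2

open FLTAgent.Attach (GalQ)

local notation "M2" => Matrix (Fin 2) (Fin 2)

namespace LevelRho

/-- congruent to one modulo a principal ideal -/
theorem map_mk_eq_one {T : Type} [CommRing T] {d : T} (X : M2 T)
    (h : ∀ a b, d ∣ (X - 1) a b) : X.map (Ideal.Quotient.mk (Ideal.span {d})) = 1 := by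
  have h0 : (X - 1).map (Ideal.Quotient.mk (Ideal.span {d})) = 0 := by
    ext a b
    exact Ideal.Quotient.eq_zero_iff_mem.2 (Ideal.mem_span_singleton.2 (h a b))
  rwa [Matrix.map_sub _ (map_sub (Ideal.Quotient.mk (Ideal.span {d}))),
    Matrix.map_one _ (map_zero (Ideal.Quotient.mk (Ideal.span {d})))
      (map_one (Ideal.Quotient.mk (Ideal.span {d}))), sub_eq_zero] at h0

variable {M r : ℕ} [NeZero M] {D : Coh.AuxData M r} (s : LL.Sys M ℤ_[2])
  {O : Type} [CommRing O] [IsDomain O] [IsDiscreteValuationRing O]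
  [IsAdicComplete (maximalIdeal O) O] [Finite (ResidueField O)] [CharZero O] [Algebra ℤ_[2] O]
  [Module.Finite ℤ_[2] O] [IsLocalHom (algebraMap ℤ_[2] O)]
  {L : ℕ} [NeZero L] (LD : JTors.LatticeData L) {S : Finset ℕ}
  (R₀ : GalQ →* M2 (TL s O LD S))
  (Θ : M2 (TL s O LD S) →ₐ[O] Module.End O (LL.lamPart LD (Coh.sysMap O s)))

/-- the traces generate the Hecke algebra of the part -/
theorem adjoin_trace_R₀ (hpS : 2 ∈ S) (hNS : ∀ q : ℕ, q.Prime → q ∣ L → q ∈ S)
    (hΘt : ∀ t : TL s O LD S, Θ (Matrix.scalar (Fin 2) t) =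
      (t : Module.End O (LL.lamPart LD (Coh.sysMap O s))))
    (hΘgal : ∀ (σ : GalQ) (x : LL.lamPart LD (Coh.sysMap O s)),
      ((Θ (R₀ σ) x : LL.lamPart LD (Coh.sysMap O s)) : O ⊗[ℤ] JTors.Lam L) =
        LL.galLam LD Nat.prime_two two_mem_O σ x.1)
    (hdetR : ∀ σ : GalQ, (R₀ σ).det =
      algebraMap O (TL s O LD S) (Attach.cycR Nat.prime_two two_mem_O σ)) :
    Algebra.adjoin O (Set.range fun σ => (R₀ σ).trace) = ⊤ := by
  rw [eq_top_iff]
  rintro ⟨t, ht⟩ -
  induction ht using Algebra.adjoin_induction with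
  | mem u hu =>
    obtain ⟨ℓ, hℓS, rfl⟩ := hu
    obtain ⟨P, τ, hP, hτ⟩ := Alg.exists_place_frobenius (ℓ : ℕ) ℓ.2
    exact Algebra.subset_adjoin ⟨τ, Subtype.ext (trace_frob s LD S R₀ Θ hΘt hΘgal hdetR ℓ.2
      (fun h => hℓS (hNS _ ℓ.2 h)) (fun h => hℓS (h ▸ hpS)) hP hτ)⟩
  | algebraMap a => exact Subalgebra.algebraMap_mem _ a
  | add v v' hv hv' h h' => exact add_mem h h'
  | mul v v' hv hv' h h' => exact mul_mem h h'

/-- congruences in the form of a finite level -/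
theorem finLevel_R₀ (hΘinj : Function.Injective Θ)
    (hΘgal : ∀ (σ : GalQ) (x : LL.lamPart LD (Coh.sysMap O s)),
      ((Θ (R₀ σ) x : LL.lamPart LD (Coh.sysMap O s)) : O ⊗[ℤ] JTors.Lam L) =
        LL.galLam LD Nat.prime_two two_mem_O σ x.1) (n : ℕ) :
    Deform.FinLevel fun σ =>
      (R₀ σ).map (Ideal.Quotient.mk (Ideal.span {(2 : TL s O LD S) ^ n})) := by
  obtain ⟨E, hE, h⟩ := exists_level_R₀ s LD S R₀ Θ hΘinj hΘgal n
  exact ⟨E, hE, fun σ hσ => map_mk_eq_one _ (h σ hσ)⟩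

variable [IsLocalRing (TL s O LD S)] [IsLocalHom (algebraMap ℤ_[2] (TL s O LD S))]
  (rb : GalQ →* M2 (ZMod 2))
  (hres : ∀ σ : GalQ, (R₀ σ).trace -
    algebraMap ℤ_[2] (TL s O LD S) ((rb σ).trace.val : ℤ_[2]) ∈ maximalIdeal (TL s O LD S))
  (hfull : Submodule.span (ZMod 2) (Set.range rb) = ⊤)

include hres hfull in
/-- full residual span, and `R₀ ± 1` is not residually zero where `rb` is not one -/
theorem residual_R₀ :
    Submodule.span (ResidueField (TL s O LD S))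
        (Set.range fun σ => (R₀ σ).map (residue (TL s O LD S))) = ⊤ ∧
      ∀ φ, rb φ ≠ 1 → ∀ w : ℤˣ, ∃ i j,
        IsUnit ((R₀ φ + ((w : ℤ) : TL s O LD S) • 1) i j) := by
  classical
  obtain ⟨ι, hι⟩ := exists_iota (TL s O LD S)
  let k := ResidueField (TL s O LD S)
  let R : GalQ →* M2 k :=
    (residue (TL s O LD S)).mapMatrix.toMonoidHom.comp R₀
  have htr : ∀ σ, (R σ).trace = ι (rb σ).trace := fun σ => by
    have e : residue (TL s O LD S) (R₀ σ).trace =
        residue (TL s O LD S) (algebraMap ℤ_[2] (TL s O LD S) ((rb σ).trace.val : ℤ_[2])) := by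
      rw [← sub_eq_zero, ← map_sub, residue_eq_zero_iff]
      exact hres σ
    rw [← hι, map_natCast (PadicInt.toZMod (p := 2)), ZMod.natCast_zmod_val] at e
    exact (AddMonoidHom.map_trace (residue (TL s O LD S)) _).symm.trans e
  refine ⟨span_eq_top_of_trace ι rb R hfull htr, fun φ hφ w => ?_⟩
  by_contra hno
  push Not at hno
  refine ne_one_of_trace ι rb R hfull htr hφ ?_
  have h2 : (2 : k) = 0 := two_eq_zero ι
  ext i j
  have e := hno i j
  rw [← mem_nonunits_iff, ← mem_maximalIdeal, ← residue_eq_zero_iff, Matrix.add_apply,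
    map_add, Matrix.smul_apply, smul_eq_mul, map_mul, map_intCast] at e
  show residue (TL s O LD S) (R₀ φ i j) = (1 : M2 k) i j
  rw [eq_neg_of_add_eq_zero_left e]
  have hneg : ∀ y : k, -y = y := fun y => by linear_combination (-y) * h2
  rw [hneg, Matrix.one_apply, Matrix.one_apply, apply_ite (residue (TL s O LD S)), map_one,
    map_zero]
  rcases Int.units_eq_one_or w with rfl | rfl
  · rw [Units.val_one, Int.cast_one, one_mul]
  · rw [Units.val_neg, Units.val_one, Int.cast_neg, Int.cast_one, neg_one_mul, hneg]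

include hres hfull in
/-- the matrices generate -/
theorem adjoin_R₀ (hgen : Algebra.adjoin O (Set.range fun σ => (R₀ σ).trace) = ⊤)
    (hdetR : ∀ σ : GalQ, (R₀ σ).det =
      algebraMap O (TL s O LD S) (Attach.cycR Nat.prime_two two_mem_O σ)) :
    Algebra.adjoin O (Set.range R₀) = ⊤ :=
  adjoin_range_eq_top R₀ hgen (fun σ => ⟨_, (hdetR σ).symm⟩)
    (residual_R₀ s LD R₀ rb hres hfull).1

include hres hfull in
/-- the shape at two on the twist of a class new at two on which `WX` is `-t` -/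
theorem two_twist (x : Lv.Exact D 2) (hL : L = D.N0 * D.tw.R ^ 2) (hpS : 2 ∈ S)
    (hNS : ∀ q : ℕ, q.Prime → q ∣ L → q ∈ S)
    (hΘinj : Function.Injective Θ)
    (hΘt : ∀ t : TL s O LD S, Θ (Matrix.scalar (Fin 2) t) =
      (t : Module.End O (LL.lamPart LD (Coh.sysMap O s))))
    (hΘgal : ∀ (σ : GalQ) (x : LL.lamPart LD (Coh.sysMap O s)),
      ((Θ (R₀ σ) x : LL.lamPart LD (Coh.sysMap O s)) : O ⊗[ℤ] JTors.Lam L) =
        LL.galLam LD Nat.prime_two two_mem_O σ x.1)
    (hdetR : ∀ σ : GalQ, (R₀ σ).det =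
      algebraMap O (TL s O LD S) (Attach.cycR Nat.prime_two two_mem_O σ))
    {φ : GalQ} (hφ : placeTwo.IsFrobeniusAt φ 2) (hne : rb φ ≠ 1)
    (c : D.Choice O) (hχ : ∀ a, c.chi a - 1 ∈ maximalIdeal O) {e : ℕ}
    (hidx : ∀ i, (D.H i).index ∣ 2 ^ e) (t : TL s O LD S) (z z' : Mod D s)
    (hz : x.NewAt ℤ_[2] z.1) (hz' : x.WX ℤ_[2] z.1 = -z'.1)
    (ht : twist s O hL LD c hχ z' =
      (t : Module.End O (LL.lamPart LD (Coh.sysMap O s))) (twist s O hL LD c hχ z))
    {g h : GalQ} (hg : g ∈ placeTwo.decompositionSubgroup ℚ)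
    (hh : h ∈ placeTwo.decompositionSubgroup ℚ) {m m' : ℕ}
    (hm : Attach.cyc (Lv.mers e) g = 2 ^ m) (hm' : Attach.cyc (Lv.mers e) h = 2 ^ m')
    (a b : Fin 2) :
    (((c.chi (cycU M g) • R₀ g -
          (algebraMap O (TL s O LD S) (Attach.cycR Nat.prime_two two_mem_O g) * t ^ m) •
            (1 : M2 (TL s O LD S))) *
        (c.chi (cycU M h) • R₀ h - t ^ m' • (1 : M2 (TL s O LD S)))) a b :
        Module.End O (LL.lamPart LD (Coh.sysMap O s))) (twist s O hL LD c hχ z) = 0 := by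
  obtain rfl : L = x.lev * 2 := hL.trans x.lev_mul.symm
  haveI : NeZero D.tw.R :=
    ⟨Finset.prod_ne_zero_iff.2 fun i _ => (D.prime i).ne_zero⟩
  haveI : NeZero x.lev := ⟨fun h0 => NeZero.ne (x.lev * 2) (by rw [h0, zero_mul])⟩
  have hspan := adjoin_R₀ s LD R₀ rb hres hfull
    (adjoin_trace_R₀ s LD R₀ Θ hpS hNS hΘt hΘgal hdetR) hdetR
  have hodd : ∀ i, D.Q i ≠ 2 := x.ne_Q
  simp only [chi_cyc_two c hodd hidx hg hm, chi_cyc_two c hodd hidx hh hm']
  refine two_vec (A := placeTwo) ⟨Nat.prime_two, x.not_dvd_lev, placeTwo_lies⟩ two_mem_O LD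
    (Coh.sysMap O s) S Θ R₀ (fun l hl h => hl (hNS _ l.2 h)) hΘt hΘgal hdetR hspan
    (finLevel_R₀ s LD R₀ Θ hΘinj hΘgal) hφ ((residual_R₀ s LD R₀ rb hres hfull).2 φ hne)
    (twist s O hL LD c hχ z) t _ (x.chiP_unit c) (x.be1_twist s hL LD c hχ hz).1
    (x.be1_twist s hL LD c hχ hz).2 ?_ hg hh (fun w => lamTwo_eq w hm) (fun w => lamTwo_eq w hm')
    a b
  rw [← x.lamCast_twist_WX s hL LD c hχ (z := z) (z' := -z') hz'.symm, ← ht, map_neg,
    Submodule.coe_neg, map_neg]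

/-- the quartic on the twist of a class new at an odd prime -/
theorem quartic_twist {q : ℕ} (x : Lv.Exact D q) (hL : L = D.N0 * D.tw.R ^ 2) (hq2 : q ≠ 2)
    (hΘt : ∀ t : TL s O LD S, Θ (Matrix.scalar (Fin 2) t) =
      (t : Module.End O (LL.lamPart LD (Coh.sysMap O s))))
    (hΘgal : ∀ (σ : GalQ) (x : LL.lamPart LD (Coh.sysMap O s)),
      ((Θ (R₀ σ) x : LL.lamPart LD (Coh.sysMap O s)) : O ⊗[ℤ] JTors.Lam L) =
        LL.galLam LD Nat.prime_two two_mem_O σ x.1)
    (hdetR : ∀ σ : GalQ, (R₀ σ).det =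
      algebraMap O (TL s O LD S) (Attach.cycR Nat.prime_two two_mem_O σ))
    (c : D.Choice O) (hχ : ∀ a, c.chi a - 1 ∈ maximalIdeal O) (z : Mod D s)
    (hz : x.NewAt ℤ_[2] z.1) {P : ValuationSubring (AlgebraicClosure ℚ)} (hP : P.LiesOverPrime q)
    {τ : GalQ} (hτ : P.IsFrobeniusAt τ q) :
    (((R₀ τ).trace ^ 2 - (1 + (q : TL s O LD S)) ^ 2 : TL s O LD S) :
      Module.End O (LL.lamPart LD (Coh.sysMap O s))) (twist s O hL LD c hχ z) = 0 := by
  obtain rfl : L = x.lev * q := hL.trans x.lev_mul.symm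
  haveI : NeZero q := ⟨x.split.prime.ne_zero⟩
  haveI : NeZero D.tw.R :=
    ⟨Finset.prod_ne_zero_iff.2 fun i _ => (D.prime i).ne_zero⟩
  haveI : NeZero x.lev := ⟨fun h0 => NeZero.ne (x.lev * q) (by rw [h0, zero_mul])⟩
  rw [← hΘt]
  exact killing_apply LD (Coh.sysMap O s) Nat.prime_two two_mem_O Θ R₀ hΘgal hdetR x.split.prime
    x.not_dvd_lev hq2 hP hτ _ (x.sumsZero_twist s hL LD c hχ hz)

end LevelRho

end FLTAgent.R2

end
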