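import Fermat.Agent.R2.CohTorsor
import Fermat.Agent.R2.CohTwist
import Fermat.Agent.LL.TWRank
import Fermat.Agent.LL.TWCrt
import Fermat.Agent.Genus.Cosets

/-!
Area R2, parcel G5: reindexing coefficient modules.

`P1(ab) = P1(a) × P1(b)` for coprime `a, b`; the set of an auxiliary level split at a prime exactly
dividing `N0` (`lower`, `lineEquiv`); currying of functions with values in a representation.
-/

set_option autoImplicit false
set_option linter.style.haveILetI false
set_option linter.unusedSectionVars false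

noncomputable section

open scoped MatrixGroups
open Matrix

namespace FLTAgent.R2.Lv

open FLTAgent.LL FLTAgent.R2.Coh

section Lines

variable {M : ℕ} [NeZero M] {a b N : ℕ} (hN : N ∣ M) (e : N = a * b)

/-- the lines of a product level -/
def p1Prod (x : P1 M N) : P1 M a × P1 M b :=
  (P1.proj M ⟨b, e⟩ x, P1.proj M ⟨a, e.trans (mul_comm _ _)⟩ x)

theorem p1Prod_smul (g : GL (Fin 2) (ZMod M)) (x : P1 M N) :
    p1Prod e (g • x) = g • p1Prod e x :=
  Prod.ext (P1.proj_smul (N := N) ⟨b, e⟩ g x)
    (P1.proj_smul (N := N) ⟨a, e.trans (mul_comm _ _)⟩ g x)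

include hN in
theorem p1Prod_bijective (hab : a.Coprime b) : Function.Bijective (p1Prod (M := M) e) := by
  classical
  haveI : NeZero N := ⟨fun h => NeZero.ne M (Nat.eq_zero_of_zero_dvd (h ▸ hN))⟩
  have ha : a ∣ M := (Dvd.intro b e.symm).trans hN
  have hb : b ∣ M := (Dvd.intro_left a e.symm).trans hN
  haveI : NeZero a := ⟨fun h => NeZero.ne M (Nat.eq_zero_of_zero_dvd (h ▸ ha))⟩
  haveI : NeZero b := ⟨fun h => NeZero.ne M (Nat.eq_zero_of_zero_dvd (h ▸ hb))⟩
  refine (Nat.bijective_iff_injective_and_card _).2 ⟨fun x y h => ?_, ?_⟩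
  · obtain ⟨g, rfl⟩ := QuotientGroup.mk_surjective x
    obtain ⟨g', rfl⟩ := QuotientGroup.mk_surjective y
    obtain ⟨k, hk⟩ := ZMod.intCast_surjective ((g⁻¹ * g').1 1 0)
    have h1 : (QuotientGroup.mk g : P1 M a) = QuotientGroup.mk g' := congrArg Prod.fst h
    have h2 : (QuotientGroup.mk g : P1 M b) = QuotientGroup.mk g' := congrArg Prod.snd h
    rw [QuotientGroup.eq, mem_B0_iff_int ha hk] at h1
    rw [QuotientGroup.eq, mem_B0_iff_int hb hk] at h2
    rw [QuotientGroup.eq, mem_B0_iff_int hN hk, e, Nat.cast_mul]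
    exact IsCoprime.mul_dvd (Int.isCoprime_iff_nat_coprime.2 (by simpa using hab)) h1 h2
  · rw [Nat.card_prod, card_P1 hN, card_P1 ha, card_P1 hb, e, Genus.dedekindPsi_mul hab]

/-- the lines of a product level, as an equivalence -/
def p1Equiv (hab : a.Coprime b) : P1 M N ≃ P1 M a × P1 M b :=
  Equiv.ofBijective _ (p1Prod_bijective hN e hab)

end Lines

section Lower

variable {M r : ℕ}

/-- the auxiliary data without a divisor of `N0` -/
def lower (D : AuxData M r) (N' : ℕ) (h : N' ∣ D.N0) : AuxData M r :=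
  { D with N0 := N', dvd0 := h.trans D.dvd0, ndvd := fun i hi => D.ndvd i (hi.trans h) }

variable [NeZero M] (D : AuxData M r) {a b : ℕ} (e : D.N0 = a * b)

/-- the set of the level split at `a` -/
def lineEquiv (hab : a.Coprime b) :
    D.X ≃ P1 M a × (lower D b (Dvd.intro_left a e.symm)).X :=
  ((p1Equiv D.dvd0 e hab).prodCongr (Equiv.refl _)).trans (Equiv.prodAssoc _ _ _)

theorem lineEquiv_smul (hab : a.Coprime b) (g : GL (Fin 2) (ZMod M)) (x : D.X) :
    lineEquiv D e hab (g • x) = g • lineEquiv D e hab x :=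
  show ((p1Prod e (g • x.1)).1, (p1Prod e (g • x.1)).2, g • x.2) =
      g • ((p1Prod e x.1).1, (p1Prod e x.1).2, x.2) by
    rw [p1Prod_smul]; rfl

theorem lineEquiv_act (hab : a.Coprime b) (u : D.Del) (x : D.X) :
    lineEquiv D e hab (D.torsor.act u x) =
      ((lineEquiv D e hab x).1,
        (lower D b (Dvd.intro_left a e.symm)).torsor.act u (lineEquiv D e hab x).2) := rfl

end Lower

section Reindex

variable {M : ℕ} {A : Type*} [CommRing A] {V : Type*} [AddCommGroup V] [Module A V]
  (τ : Representation A (GL (Fin 2) (ZMod M)) V)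
variable {X Y : Type*} [MulAction (GL (Fin 2) (ZMod M)) X] [MulAction (GL (Fin 2) (ZMod M)) Y]

/-- functions on a product as functions with function values -/
def curryV : (X × Y → V) →ₗ[A] (X → Y → V) where
  toFun F x y := F (x, y)
  map_add' _ _ := rfl
  map_smul' _ _ := rfl

/-- functions with function values as functions on a product -/
def uncurryV : (X → Y → V) →ₗ[A] (X × Y → V) where
  toFun F z := F z.1 z.2
  map_add' _ _ := rfl
  map_smul' _ _ := rfl

theorem isTwist_curryV :
    IsTwist (funTensor τ (X × Y)) (funTensor (funTensor τ Y) X) 1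
      (curryV (A := A) (V := V)) := fun g F => by
  rw [MonoidHom.one_apply, one_smul]
  rfl

theorem isTwist_uncurryV :
    IsTwist (funTensor (funTensor τ Y) X) (funTensor τ (X × Y)) 1
      (uncurryV (A := A) (V := V)) := fun g F => by
  rw [MonoidHom.one_apply, one_smul]
  rfl

/-- functions with scalar function values as functions on a product -/
theorem isTwist_curry_funRep :
    IsTwist (funRep A (X × Y) (M := M)) (funTensor (funRep A Y (M := M)) X) 1
      (curryV (A := A) (V := A)) := fun g F => by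
  rw [MonoidHom.one_apply, one_smul]
  rfl

theorem isTwist_uncurry_funRep :
    IsTwist (funTensor (funRep A Y (M := M)) X) (funRep A (X × Y) (M := M)) 1
      (uncurryV (A := A) (V := A)) := fun g F => by
  rw [MonoidHom.one_apply, one_smul]
  rfl

theorem isTwist_compLeft {V' : Type*} [AddCommGroup V'] [Module A V']
    {τ' : Representation A (GL (Fin 2) (ZMod M)) V'} {Φ : V →ₗ[A] V'} (h : IsTwist τ τ' 1 Φ) :
    IsTwist (funTensor τ X) (funTensor τ' X) 1 (Φ.compLeft X) := fun g F => by
  rw [MonoidHom.one_apply, one_smul]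
  funext x
  show Φ (τ g (F (g⁻¹ • x))) = τ' g (Φ (F (g⁻¹ • x)))
  rw [h, MonoidHom.one_apply, one_smul]

end Reindex

end FLTAgent.R2.Lv

end
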