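import Fermat.Agent.R2.LevelCorr
import Fermat.Agent.R2.LevelIso

/-!
Area R2, parcel G5: a prime `p` exactly dividing the modulus and `N0`, seen on the cohomology with
coefficients in functions on the set of the level.

`toLine` reads `D.X` as `P¹(p)` times the set of the lower level; `pushX` is the sum along the lines,
`WX` the operator `Wp`.
-/

set_option autoImplicit false
set_option linter.style.haveILetI false
set_option linter.unusedSectionVars false

noncomputable section

open scoped MatrixGroups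
open Matrix

namespace FLTAgent.R2.Lv

open FLTAgent.LL FLTAgent.R2.Coh

section Trivial

variable {M M' : ℕ} [NeZero M] [NeZero M'] (hM : M' ∣ M)

/-- an element congruent to one fixes the lines of a smaller level -/
theorem smul_p1_of_gl_one {d : ℕ} (hd : d ∣ M') {g : GL (Fin 2) (ZMod M)} (hg : gl hM g = 1)
    (x : P1 M d) : g • x = x := by
  induction x using QuotientGroup.induction_on with | H k =>
  rw [MulAction.Quotient.smul_mk, QuotientGroup.eq, smul_eq_mul]
  obtain ⟨a, ha⟩ := ZMod.intCast_surjective (((g * k)⁻¹ * k).1 1 0)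
  rw [mem_B0_iff_int (hd.trans hM) ha]
  have e : gl hM ((g * k)⁻¹ * k) = 1 := by
    rw [map_mul, map_inv, map_mul, hg, one_mul, inv_mul_cancel]
  generalize (g * k)⁻¹ * k = c at e ha ⊢
  have e' : ZMod.castHom hM (ZMod M') (c.1 1 0) = 0 := by
    have := congrArg (fun u : GL (Fin 2) (ZMod M') => u.1 1 0) e
    exact this.trans (Matrix.one_apply_ne (by decide))
  rw [← ha, map_intCast, ZMod.intCast_zmod_eq_zero_iff_dvd] at e'
  exact (Int.natCast_dvd_natCast.2 hd).trans e'

/-- an element congruent to one fixes the vectors at a prime of the smaller modulus -/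
theorem smul_xq_of_gl_one {q : ℕ} (hq : q ∣ M') (hqM : q ∣ M) (H : Subgroup (ZMod q)ˣ)
    {g : GL (Fin 2) (ZMod M)} (hg : gl hM g = 1) (x : Xq hqM H) : g • x = x := by
  induction x using QuotientGroup.induction_on with | H k =>
  rw [MulAction.Quotient.smul_mk, QuotientGroup.eq, smul_eq_mul]
  have e : gl hM ((g * k)⁻¹ * k) = 1 := by
    rw [map_mul, map_inv, map_mul, hg, one_mul, inv_mul_cancel]
  generalize (g * k)⁻¹ * k = c at e
  have e' : ∀ i j, (cq hqM c).1 i j = (1 : Matrix (Fin 2) (Fin 2) (ZMod q)) i j := fun i j => by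
    have h1 : ZMod.castHom hM (ZMod M') (c.1 i j) = (1 : Matrix (Fin 2) (Fin 2) (ZMod M')) i j := by
      exact congrArg (fun u : GL (Fin 2) (ZMod M') => u.1 i j) e
    obtain ⟨a, ha⟩ := ZMod.intCast_surjective (c.1 i j)
    rw [cq_apply, ← ha, map_intCast]
    rw [← ha, map_intCast] at h1
    have h2 := congrArg (ZMod.castHom hq (ZMod q)) h1
    rw [map_intCast, Matrix.one_apply, apply_ite (ZMod.castHom hq (ZMod q)), map_one, map_zero] at h2
    rw [h2, Matrix.one_apply]
  exact ⟨by rw [e']; simp, 1, one_mem H, by rw [e']; simp⟩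

end Trivial

variable {M r : ℕ}

/-- `p` divides both the modulus and `N0` exactly -/
structure Exact (D : AuxData M r) (p : ℕ) : Type where
  b : ℕ
  eq : D.N0 = p * b
  M' : ℕ
  split : Split M p M'
  ne_Q : ∀ i, D.Q i ≠ p
  cop : p.Coprime b

namespace Exact

variable [NeZero M] {D : AuxData M r} {p : ℕ} (x : Exact D p)

instance neZero_M' : NeZero x.M' :=
  ⟨fun h => NeZero.ne M (by rw [x.split.eq, h, mul_zero])⟩

/-- the lower data -/
abbrev low : AuxData M r := lower D x.b (Dvd.intro_left p x.eq.symm)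

theorem b_dvd : x.b ∣ x.M' := by
  have h : p * x.b ∣ p * x.M' := by rw [← x.eq, ← x.split.eq]; exact D.dvd0
  exact Nat.dvd_of_mul_dvd_mul_left x.split.prime.pos h

theorem Q_dvd (i : Fin r) : D.Q i ∣ x.M' := by
  have h : D.Q i ∣ p * x.M' := x.split.eq ▸ D.dvd i
  refine ((D.prime i).dvd_mul.1 h).resolve_left fun hd => x.ne_Q i ?_
  exact (Nat.prime_dvd_prime_iff_eq (D.prime i) x.split.prime).1 hd

variable (A : Type*) [CommRing A]

/-- the lower coefficients -/
abbrev lowRep : Representation A (GL (Fin 2) (ZMod M)) (x.low.X → A) := funRep A x.low.X (M := M)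

theorem fac : Fac x.split (x.lowRep A) := fun g hg => by
  refine LinearMap.ext fun F => funext fun z => ?_
  rw [funRep_apply, Module.End.one_apply]
  refine congrArg F (inv_smul_eq_iff.2 (Prod.ext ?_ (funext fun i => ?_)).symm)
  · exact smul_p1_of_gl_one x.split.dvd' x.b_dvd hg z.1
  · exact smul_xq_of_gl_one x.split.dvd' (x.Q_dvd i) (D.dvd i) (D.H i) hg (z.2 i)

/-- the set of the level split at `p` -/
abbrev equivX : D.X ≃ P1 M p × x.low.X := lineEquiv D x.eq x.cop

/-- functions of the level as functions on the lines -/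
def toL : (D.X → A) →ₗ[A] (P1 M p → x.low.X → A) :=
  curryV ∘ₗ funPull A x.equivX.symm

theorem isTwist_toL : IsTwist (funRep A D.X (M := M)) (pRep (p := p) (x.lowRep A)) 1 (x.toL A) := by
  have h := (isTwist_funPull (A := A) (M := M) x.equivX.symm fun g z => by
    rw [Equiv.symm_apply_eq, lineEquiv_smul, Equiv.apply_symm_apply]).comp
      (isTwist_curry_funRep (A := A) (M := M) (X := P1 M p) (Y := x.low.X))
  rwa [one_mul] at h

/-- functions on the lines as functions of the level -/
def ofL : (P1 M p → x.low.X → A) →ₗ[A] (D.X → A) :=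
  funPull A x.equivX ∘ₗ uncurryV

theorem isTwist_ofL : IsTwist (pRep (p := p) (x.lowRep A)) (funRep A D.X (M := M)) 1 (x.ofL A) := by
  have h := (isTwist_uncurry_funRep (A := A) (M := M) (X := P1 M p) (Y := x.low.X)).comp
    (isTwist_funPull (A := A) (M := M) x.equivX fun g z => lineEquiv_smul D x.eq x.cop g z)
  rwa [one_mul] at h

/-- classes of the level on the lines -/
def toLine : H1 (funRep A D.X (M := M)) →ₗ[A] H1 (pRep (p := p) (x.lowRep A)) :=
  map (x.isTwist_toL A)

/-- classes on the lines at the level -/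
def ofLine : H1 (pRep (p := p) (x.lowRep A)) →ₗ[A] H1 (funRep A D.X (M := M)) :=
  map (x.isTwist_ofL A)

theorem ofLine_toLine (z : H1 (funRep A D.X (M := M))) : x.ofLine A (x.toLine A z) = z := by
  obtain ⟨f, rfl⟩ := Submodule.mkQ_surjective _ z
  refine congrArg (fun w => H1.mk (funRep A D.X (M := M)) w)
    (Subtype.ext (funext fun γ => funext fun y => ?_))
  show f.1 γ (x.equivX.symm (x.equivX y)) = f.1 γ y
  rw [Equiv.symm_apply_apply]

theorem toLine_ofLine (z : H1 (pRep (p := p) (x.lowRep A))) :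
    x.toLine A (x.ofLine A z) = z := by
  obtain ⟨f, rfl⟩ := Submodule.mkQ_surjective _ z
  refine congrArg (fun w => H1.mk (pRep (p := p) (x.lowRep A)) w)
    (Subtype.ext (funext fun γ => funext fun a => funext fun y => ?_))
  show f.1 γ (x.equivX (x.equivX.symm (a, y))).1 (x.equivX (x.equivX.symm (a, y))).2 = f.1 γ a y
  rw [Equiv.apply_symm_apply]

/-- the sum along the lines at `p` -/
def pushX : H1 (funRep A D.X (M := M)) →ₗ[A] H1 (x.lowRep A) :=
  map (isTwist_pushPt (p := p) (x.lowRep A)) ∘ₗ x.toLine A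

/-- the pull back along the lines at `p` -/
def pullX : H1 (x.lowRep A) →ₗ[A] H1 (funRep A D.X (M := M)) :=
  x.ofLine A ∘ₗ map (isTwist_pullPt (p := p) (x.lowRep A))

/-- the operator at `p` -/
def WX : Module.End A (H1 (funRep A D.X (M := M))) :=
  x.ofLine A ∘ₗ Wp x.split (x.lowRep A) (x.fac A) ∘ₗ x.toLine A

/-- both sums at `p` vanish -/
def NewAt (z : H1 (funRep A D.X (M := M))) : Prop :=
  x.pushX A z = 0 ∧ x.pushX A (x.WX A z) = 0

end Exact

end FLTAgent.R2.Lv

end
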