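import Fermat.Agent.R2.LevelSys
import Fermat.Agent.R2.LevelLoc
import Fermat.Agent.R2.CohTwistLattice
import Fermat.Agent.R2.CohChoice
import Fermat.Agent.R2.CohRoots

/-!
Area R2, parcel G1, statement of: the representation over the two-adic Hecke algebra of the localised cohomology
with coefficients in functions on `P¹(N0)` times vectors modulo `H`.

`T` is generated by the traces, its elements act faithfully, the trace of a Frobenius is the Hecke
operator, the determinant is the cyclotomic character times the inverse of the diamond of the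
cyclotomic classes, and on the classes fixed by the diamonds at one auxiliary prime the inertia of
that prime acts trivially.
-/

set_option autoImplicit false
set_option linter.style.haveILetI false

noncomputable section

open Matrix IsLocalRing

namespace FLTAgent.R2.Lv

open FLTAgent.LL FLTAgent.R2.Coh

variable {W : WeierstrassCurve ℤ} {hW : IsAnchor W} {M r : ℕ}

/-- what the auxiliary data must satisfy -/
structure Good (d : SysData hW M) (D : AuxData M r) : Prop where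
  sqfree : Squarefree D.N0
  bad_dvd : ∀ l ∈ badOdd W, l ∣ D.N0
  good_Q : ∀ i, ¬ (D.Q i : ℤ) ∣ W.Δ
  mod4_Q : ∀ i, D.Q i % 4 = 1
  odd_Q : ∀ i, Odd (W.apOfModel (D.Q i))
  index : ∀ i, ∃ e, (D.H i).index = 2 ^ e
  sq_Q : ∀ i, ¬ D.Q i * D.Q i ∣ M

variable [NeZero M]

/-- functions on the set of the level, over the two-adic integers -/
abbrev lrRep (D : AuxData M r) : Representation Z2 (GL (Fin 2) (ZMod M)) (D.X → Z2) :=
  funRep Z2 D.X (M := M)

theorem isTwist_act (A : Type*) [CommRing A] (D : AuxData M r) (u : D.Del) :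
    IsTwist (funRep A D.X (M := M)) (funRep A D.X (M := M)) 1
      (LinearMap.funLeft A A (D.torsor.act u)) := fun g F => by
  rw [MonoidHom.one_apply, one_smul]
  funext x
  show F (g⁻¹ • D.torsor.act u x) = F (D.torsor.act u (g⁻¹ • x))
  rw [D.torsor.act_smul]

/-- a diamond on the part of the system -/
def diaLam (d : SysData hW M) (D : AuxData M r) (u : D.Del) :
    Module.End Z2 ((d.sys Z2).E (lrRep D)) :=
  (LL.map (isTwist_act Z2 D u)).restrict fun _ hx =>
    (d.sys Z2).map_mem_E (isTwist_act Z2 D u) (fun a => by simp) hx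

/-- a modulus at which the powers of `2` have order `2 ^ (e + 1)` -/
def mers (e : ℕ) : ℕ := 2 ^ 2 ^ (e + 1) - 1

instance neZero_mers (e : ℕ) : NeZero (mers e) :=
  ⟨Nat.sub_ne_zero_of_lt (Nat.one_lt_two_pow (pow_ne_zero _ two_ne_zero))⟩

/-- the representation on the part of the system -/
structure Rho (d : SysData hW M) (D : AuxData M r) : Type 1 where
  T : Type
  [commRing : CommRing T]
  [isLocalRing : IsLocalRing T]
  [algebra : Algebra Z2 T]
  [finite : Module.Finite Z2 T]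
  ρ : GQ →* Matrix (Fin 2) (Fin 2) T
  φ : T →ₐ[Z2] Module.End Z2 ((d.sys Z2).E (lrRep D))
  φ_injective : Function.Injective φ
  gen : Algebra.adjoin Z2 (Set.range fun σ => (ρ σ).trace) = ⊤
  level : ∀ m : ℕ, Deform.FinLevel fun σ =>
    (ρ σ).map (Ideal.Quotient.mk (Ideal.span {(2 : T) ^ m}))
  res : ∀ σ a b, ρ σ a b - (((rb hW σ) a b).val : T) ∈ maximalIdeal T
  trace : ∀ (l : ℕ) (hl : l.Prime) (hlM : ¬ l ∣ M), l ≠ 2 → ¬ (l : ℤ) ∣ W.Δ →
    ∀ (P : ValuationSubring (AlgebraicClosure ℚ)), P.LiesOverPrime l →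
    ∀ τ : GQ, P.IsFrobeniusAt τ l → ∀ x : (d.sys Z2).E (lrRep D),
      (φ (ρ τ).trace x).1 = LL.T (lrRep D) hl hlM x.1
  det : ∀ (σ : GQ) (h2 : (2 : Z2) ∈ maximalIdeal Z2) (a : ∀ i, (ZMod (D.Q i))ˣ),
    (∀ i, haveI : NeZero (D.Q i) := ⟨(D.prime i).ne_zero⟩
      (a i : ZMod (D.Q i)) = Attach.cyc (D.Q i) σ) →
      φ (ρ σ).det = Attach.cycR Nat.prime_two h2 σ •
        diaLam d D (fun i => QuotientGroup.mk (a i)⁻¹)
  unr : ∀ q : ℕ, q.Prime → q ≠ 2 → ¬ q ∣ D.N0 → (∀ i, D.Q i ≠ q) →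
    ∀ P : ValuationSubring (AlgebraicClosure ℚ), P.LiesOverPrime q →
      ∀ σ ∈ P.inertiaSubgroupIn ℚ, ρ σ = 1
  bad : ∀ q : ℕ, q.Prime → q ≠ 2 → q ∣ D.N0 →
    ∀ P : ValuationSubring (AlgebraicClosure ℚ), P.LiesOverPrime q →
      ∀ σ ∈ P.inertiaSubgroupIn ℚ, (ρ σ - 1) * (ρ σ - 1) = 0
  fixed_unr : ∀ (i : Fin r) (z : (d.sys Z2).E (lrRep D)),
    (∀ v, diaLam d D (Pi.mulSingle i v) z = z) →
    ∀ P : ValuationSubring (AlgebraicClosure ℚ), P.LiesOverPrime (D.Q i) →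
      ∀ σ ∈ P.inertiaSubgroupIn ℚ, ∀ a b, φ ((ρ σ - 1) a b) z = 0
  quartic : ∀ (q : ℕ) (x : Exact D q), q ≠ 2 → ∀ z : (d.sys Z2).E (lrRep D), x.NewAt Z2 z.1 →
    ∀ (P : ValuationSubring (AlgebraicClosure ℚ)), P.LiesOverPrime q →
    ∀ τ : GQ, P.IsFrobeniusAt τ q →
      φ ((q : T) * (ρ τ).trace ^ 2) z = φ ((1 + (q : T)) ^ 2 * (ρ τ).det) z
  two : ∀ (x : Exact D 2) (h2 : (2 : Z2) ∈ maximalIdeal Z2) (e : ℕ),
    (∀ i, (D.H i).index ∣ 2 ^ e) → ∀ (t : T) (z : (d.sys Z2).E (lrRep D)), x.NewAt Z2 z.1 →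
    x.WX Z2 z.1 = -(φ t z).1 →
    ∀ g ∈ placeTwo.decompositionSubgroup ℚ, ∀ h ∈ placeTwo.decompositionSubgroup ℚ,
    ∀ m m' : ℕ, Attach.cyc (mers e) g = 2 ^ m → Attach.cyc (mers e) h = 2 ^ m' → ∀ a b,
      φ (((ρ g - (algebraMap Z2 T (Attach.cycR Nat.prime_two h2 g) * t ^ m) •
          (1 : Matrix (Fin 2) (Fin 2) T)) *
        (ρ h - t ^ m' • (1 : Matrix (Fin 2) (Fin 2) T))) a b) z = 0

attribute [instance] Rho.commRing Rho.isLocalRing Rho.algebra Rho.finite

end FLTAgent.R2.Lv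

end
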