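import Fermat.Agent.R2.LevelRhoBase

/-!
Area R2, parcel G1: the representation over the away Hecke algebra of the lattice of level `L`, for
a residual representation to `GL₂(𝔽₂)` with full span: residual traces, traces of Frobenius at every good prime,
continuity for the powers of two and triviality on inertia away from `2 L`.
-/

set_option autoImplicit false
set_option linter.style.haveILetI false
set_option linter.unusedSectionVars false
set_option maxHeartbeats 1000000
set_option synthInstance.maxHeartbeats 100000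

noncomputable section

open scoped TensorProduct MatrixGroups
open Matrix IsLocalRing

namespace FLTAgent.R2

open FLTAgent.Attach (GalQ)

local notation "M2" => Matrix (Fin 2) (Fin 2)

namespace LevelRho

/-- `GL₂(𝔽₂)` has determinant one -/
theorem det_eq_one (rb : GalQ →* M2 (ZMod 2)) (σ : GalQ) : (rb σ).det = 1 := by
  have h : (rb σ).det * (rb σ⁻¹).det = 1 := by
    rw [← Matrix.det_mul, ← map_mul, mul_inv_cancel, map_one, Matrix.det_one]
  revert h
  generalize (rb σ).det = a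
  generalize (rb σ⁻¹).det = b
  revert a b
  decide

section Residual

variable {k : Type} [Field k] (ι : ZMod 2 →+* k) (rb : GalQ →* M2 (ZMod 2))

include ι in
theorem two_eq_zero : (2 : k) = 0 := by
  rw [← map_ofNat ι 2]
  exact (congrArg ι (show (2 : ZMod 2) = 0 from rfl)).trans (map_zero ι)

/-- the residual representation with values in `k` -/
def resGL : GalQ →* GL (Fin 2) k :=
  MonoidHom.toHomUnits ((ι.mapMatrix (m := Fin 2)).toMonoidHom.comp rb)

theorem resGL_val (σ : GalQ) : (resGL ι rb σ : M2 k) = (rb σ).map ι := rfl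

theorem trace_resGL (σ : GalQ) : (resGL ι rb σ : M2 k).trace = ι (rb σ).trace := by
  rw [resGL_val, AddMonoidHom.map_trace ι]

theorem det_resGL (σ : GalQ) : (resGL ι rb σ : M2 k).det = 1 := by
  rw [resGL_val, ← RingHom.mapMatrix_apply, ← RingHom.map_det, det_eq_one, map_one]

theorem finLevel_resGL (h : Deform.FinLevel fun σ => rb σ) :
    Deform.FinLevel fun σ => (resGL ι rb σ : M2 k) := by
  obtain ⟨E, hE, h⟩ := h
  refine ⟨E, hE, fun σ hσ => ?_⟩
  show (resGL ι rb σ : M2 k) = 1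
  rw [resGL_val, show rb σ = 1 from h σ hσ, Matrix.map_one _ (map_zero _) (map_one _)]

/-- an element of order three has two eigenvalues -/
theorem charpoly_resGL {σ₀ : GalQ} (hσ₀ : (rb σ₀).trace = 1) {w : k} (hw1 : w ≠ 1)
    (hw2 : w ^ 2 + w + 1 = 0) :
    w ≠ w ^ 2 ∧ (resGL ι rb σ₀ : M2 k).charpoly =
      (Polynomial.X - Polynomial.C w) * (Polynomial.X - Polynomial.C (w ^ 2)) := by
  have hw0 : w ≠ 0 := fun h => by simp [h] at hw2
  refine ⟨fun h => hw1 (mul_left_cancel₀ hw0 (by rw [mul_one, ← sq]; exact h.symm)), ?_⟩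
  have e1 : w + w ^ 2 = 1 := by linear_combination hw2 - two_eq_zero ι
  have e2 : w * w ^ 2 = 1 := by linear_combination (w - 1) * hw2
  rw [Matrix.charpoly_fin_two, trace_resGL, hσ₀, map_one, det_resGL]
  calc _ = Polynomial.X ^ 2 - Polynomial.C (w + w ^ 2) * Polynomial.X +
        Polynomial.C (w * w ^ 2) := by rw [e1, e2]
    _ = _ := by rw [map_add, map_mul]; ring

/-- full span gives irreducibility -/
theorem irr_resGL (hfull : Submodule.span (ZMod 2) (Set.range rb) = ⊤) :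
    ∀ v : Fin 2 → k, v ≠ 0 → ∃ σ, ∀ a : k, (resGL ι rb σ : M2 k).mulVec v ≠ a • v := by
  intro v hv
  by_contra h
  push Not at h
  have key : ∀ z : M2 (ZMod 2), ∃ a : k, (z.map ι).mulVec v = a • v := fun z => by
    have hz : z ∈ Submodule.span (ZMod 2) (Set.range rb) := hfull ▸ Submodule.mem_top
    induction hz using Submodule.span_induction with
    | mem z hz => obtain ⟨σ, rfl⟩ := hz; exact h σ
    | zero => exact ⟨0, by simp⟩
    | add z z' _ _ h1 h2 =>
      obtain ⟨a, ha⟩ := h1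
      obtain ⟨b, hb⟩ := h2
      exact ⟨a + b, by rw [Matrix.map_add _ (map_add ι), Matrix.add_mulVec, ha, hb, add_smul]⟩
    | smul c z _ h1 =>
      obtain ⟨a, ha⟩ := h1
      refine ⟨ι c * a, ?_⟩
      rw [mul_smul, ← ha, ← Matrix.smul_mulVec]
      congr 1
      ext i j
      simp
  obtain ⟨a, ha⟩ := key !![0, 1; 0, 0]
  obtain ⟨b, hb⟩ := key !![0, 0; 1, 0]
  have ha0 : v 1 = a * v 0 := by
    simpa [Matrix.mulVec, dotProduct, Fin.sum_univ_two] using congrFun ha 0
  have ha1 : 0 = a * v 1 := by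
    simpa [Matrix.mulVec, dotProduct, Fin.sum_univ_two] using congrFun ha 1
  have hb0 : 0 = b * v 0 := by
    simpa [Matrix.mulVec, dotProduct, Fin.sum_univ_two] using congrFun hb 0
  have hb1 : v 0 = b * v 1 := by
    simpa [Matrix.mulVec, dotProduct, Fin.sum_univ_two] using congrFun hb 1
  refine hv (funext fun i => ?_)
  have h1 : v 1 = 0 := by
    rcases mul_eq_zero.1 ha1.symm with h | h
    · rw [ha0, h, zero_mul]
    · exact h
  have h0 : v 0 = 0 := by rw [hb1, h1, mul_zero]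
  fin_cases i <;> assumption

end Residual

/-- the residue field receives `𝔽₂` -/
theorem exists_iota (O : Type) [CommRing O] [IsLocalRing O] [Algebra ℤ_[2] O]
    [IsLocalHom (algebraMap ℤ_[2] O)] :
    ∃ ι : ZMod 2 →+* ResidueField O,
      ∀ a, ι (PadicInt.toZMod a) = residue O (algebraMap ℤ_[2] O a) :=
  ⟨(PadicInt.toZMod (p := 2)).liftOfSurjective (ZMod.ringHom_surjective _)
      ⟨(residue O).comp (algebraMap ℤ_[2] O), fun a ha => by
        rw [PadicInt.ker_toZMod] at ha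
        rw [RingHom.mem_ker, RingHom.comp_apply, residue_eq_zero_iff]
        exact map_nonunit _ _ ha⟩,
    fun a => RingHom.liftOfRightInverse_comp_apply _ _ _ _ a⟩

/-- from the relation of Frobenius to the trace -/
theorem eq_trace_of_frobRel {A V T : Type} [CommRing A] [AddCommGroup V] [Module A V] [CommRing T]
    [Algebra A T] (Θ : M2 T →ₐ[A] Module.End A V) (R R' : M2 T) (hR : R * R' = 1) (n : ℕ)
    (hdet : R.det = (n : T)) (u : Module.End A V)
    (h : Θ R * Θ R + (n : Module.End A V) = u * Θ R) :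
    Θ (Matrix.scalar (Fin 2) R.trace) = u := by
  have e : R * R = Matrix.scalar (Fin 2) R.trace * R - (n : M2 T) := by
    rw [Attach.sq_fin_two, hdet, Matrix.scalar_apply, ← Matrix.smul_eq_diagonal_mul,
      Nat.cast_smul_eq_nsmul, nsmul_one]
  have e2 : Θ (Matrix.scalar (Fin 2) R.trace) * Θ R = u * Θ R := by
    rw [← h, ← map_mul Θ R R, e, map_sub, map_mul, map_natCast, sub_add_cancel]
  calc Θ (Matrix.scalar (Fin 2) R.trace)
      = Θ (Matrix.scalar (Fin 2) R.trace) * (Θ R * Θ R') := by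
        rw [← map_mul, hR, map_one, mul_one]
    _ = u := by rw [← mul_assoc, e2, mul_assoc, ← map_mul, hR, map_one, mul_one]

/-- a trace congruent to `z ∈ 𝔽₂` stays so after a twist by a character congruent to one -/
theorem smul_sub_mem {A T : Type} [CommRing A] [IsLocalRing A] [CommRing T] [IsLocalRing T]
    [Algebra ℤ_[2] A] [Algebra A T] [Algebra ℤ_[2] T] [IsScalarTower ℤ_[2] A T]
    [IsLocalHom (algebraMap A T)] {ι : ZMod 2 →+* ResidueField A}
    (hι : ∀ a, ι (PadicInt.toZMod a) = residue A (algebraMap ℤ_[2] A a)) {c : A}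
    (hc : c - 1 ∈ maximalIdeal A) {t : T} {z : ZMod 2}
    (ht : residue T t = ResidueField.map (algebraMap A T) (ι z)) :
    c • t - algebraMap ℤ_[2] T (z.val : ℤ_[2]) ∈ maximalIdeal T := by
  have hc1 : residue A c = 1 := by
    rw [← sub_eq_zero, ← map_one (residue A), ← map_sub, residue_eq_zero_iff]
    exact hc
  rw [← residue_eq_zero_iff, map_sub, sub_eq_zero, Algebra.smul_def, map_mul, ht,
    IsScalarTower.algebraMap_apply ℤ_[2] A T, ← ResidueField.map_residue,
    ← ResidueField.map_residue, hc1, map_one, one_mul, ← hι,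
    map_natCast (PadicInt.toZMod (p := 2)), ZMod.natCast_zmod_val]

/-- divisibility by a power of two from a power of the maximal ideal -/
theorem dvd_of_mem_smul_top {A T : Type} [CommRing A] [IsLocalRing A] [CommRing T] [Algebra A T]
    {n j : ℕ} (hj : maximalIdeal A ^ j ≤ Ideal.span {(2 : A) ^ n}) {x : T}
    (hx : x ∈ (maximalIdeal A ^ j) • (⊤ : Submodule A T)) : (2 : T) ^ n ∣ x := by
  refine Submodule.smul_induction_on hx (fun z hz y _ => ?_) fun y z hy hz => dvd_add hy hz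
  obtain ⟨e, rfl⟩ := Ideal.mem_span_singleton'.mp (hj hz)
  rw [Algebra.smul_def, map_mul, map_pow, map_ofNat]
  exact dvd_mul_of_dvd_left (dvd_mul_left _ _) _

variable {M r : ℕ} [NeZero M] {D : Coh.AuxData M r} (s : LL.Sys M ℤ_[2])
  {O : Type} [CommRing O] [IsDomain O] [IsDiscreteValuationRing O]
  [IsAdicComplete (maximalIdeal O) O] [Finite (ResidueField O)] [CharZero O] [Algebra ℤ_[2] O]
  [Module.Finite ℤ_[2] O] [IsLocalHom (algebraMap ℤ_[2] O)]
  {L : ℕ} [NeZero L] (LD : JTors.LatticeData L) (S : Finset ℕ)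

theorem finite_TL : Module.Finite ℤ_[2] (TL s O LD S) := Module.Finite.trans O _

theorem isLocalHom_TL [IsLocalRing (TL s O LD S)] [IsLocalHom (algebraMap O (TL s O LD S))] :
    IsLocalHom (algebraMap ℤ_[2] (TL s O LD S)) :=
  ⟨fun a ha => by
    rw [IsScalarTower.algebraMap_apply ℤ_[2] O (TL s O LD S)] at ha
    exact isUnit_of_map_unit _ _ (isUnit_of_map_unit _ _ ha)⟩

set_option maxHeartbeats 8000000 in
/-- the representation on the lattice -/
theorem exists_latticeRep (hpS : 2 ∈ S) (hNS : ∀ q : ℕ, q.Prime → q ∣ L → q ∈ S)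
    (hS : ∀ l : ℕ, l.Prime → (l ∉ S ↔ ¬ l ∣ M ∧ l ∉ s.bad)) (hl0 : s.l0 ∉ S)
    (rb : GalQ →* M2 (ZMod 2)) (hlev : Deform.FinLevel fun σ => rb σ)
    (hfull : Submodule.span (ZMod 2) (Set.range rb) = ⊤)
    (hfrob : ∀ l : ℕ, l.Prime → l ∉ S → ∀ P : ValuationSubring (AlgebraicClosure ℚ),
      P.LiesOverPrime l → ∀ σ : GalQ, P.IsFrobeniusAt σ l →
        (rb σ).trace = PadicInt.toZMod (s.eig l))
    (σ₀ : GalQ) (hσ₀ : (rb σ₀).trace = 1)
    (hw : ∃ w : ResidueField O, w ≠ 1 ∧ w ^ 2 + w + 1 = 0)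
    (hbot : LL.lamPart LD (Coh.sysMap O s) ≠ ⊥) :
    ∃ (_ : IsLocalRing (TL s O LD S)) (_ : IsLocalHom (algebraMap ℤ_[2] (TL s O LD S)))
      (R₀ : GalQ →* M2 (TL s O LD S))
      (Θ : M2 (TL s O LD S) →ₐ[O] Module.End O (LL.lamPart LD (Coh.sysMap O s))),
      Function.Injective Θ ∧
      (∀ t : TL s O LD S, Θ (Matrix.scalar (Fin 2) t) =
        (t : Module.End O (LL.lamPart LD (Coh.sysMap O s)))) ∧
      (∀ (σ : GalQ) (x : LL.lamPart LD (Coh.sysMap O s)),
        ((Θ (R₀ σ) x : LL.lamPart LD (Coh.sysMap O s)) : O ⊗[ℤ] JTors.Lam L) =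
          LL.galLam LD Nat.prime_two two_mem_O σ x.1) ∧
      (∀ σ : GalQ, (R₀ σ).det =
        algebraMap O (TL s O LD S) (Attach.cycR Nat.prime_two two_mem_O σ)) ∧
      (∀ σ : GalQ, ∀ c : O, c - 1 ∈ maximalIdeal O →
        c • (R₀ σ).trace - algebraMap ℤ_[2] (TL s O LD S) ((rb σ).trace.val : ℤ_[2]) ∈
          maximalIdeal (TL s O LD S)) := by
  classical
  obtain ⟨w, hw1, hw2⟩ := hw
  obtain ⟨ι, hι⟩ := exists_iota O
  obtain ⟨hαβ, hchar⟩ := charpoly_resGL ι rb hσ₀ hw1 hw2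
  obtain ⟨iL, iN, iC, iH, iF, iFr, θ, -, H, hπ, b, Θ, hΘinj, hΘt, hΘgal, hdet, hres⟩ :=
    LL.exists_lamDatum Nat.prime_two (two_mem_O (O := O)) LD (Coh.sysMap O s) S hpS hNS hS hl0 hbot
      (resGL ι rb) (finLevel_resGL ι rb hlev)
      (fun l hl hlS P hP τ hτ => ⟨by
        rw [trace_resGL, hfrob l hl hlS P hP τ hτ, hι]; rfl, by
        have h2 : ((l : ℕ) : ZMod 2) = 1 := ZMod.natCast_eq_one_iff_odd.2
          (hl.odd_of_ne_two fun h => hlS (h ▸ hpS))
        rw [det_resGL, ← map_natCast ι, h2, map_one]⟩)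
      σ₀ hαβ hchar (irr_resGL ι rb hfull)
  refine ⟨iL, isLocalHom_TL s LD S, (LinearMap.toMatrixAlgEquiv b).toMonoidHom.comp H.ρ.ρ, Θ,
    hΘinj, hΘt, hΘgal, fun σ => (LinearMap.det_toMatrix b _).trans (hdet σ), fun σ c hc => ?_⟩
  refine smul_sub_mem hι hc ((congrArg (residue (TL s O LD S))
    (LinearMap.trace_eq_matrix_trace _ b (H.ρ.ρ σ)).symm).trans ((hres σ).trans ?_))
  rw [trace_resGL]

/-- the trace of a Frobenius is the Hecke operator, also at the excluded good primes -/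
theorem trace_frob (R₀ : GalQ →* M2 (TL s O LD S))
    (Θ : M2 (TL s O LD S) →ₐ[O] Module.End O (LL.lamPart LD (Coh.sysMap O s)))
    (hΘt : ∀ t : TL s O LD S, Θ (Matrix.scalar (Fin 2) t) =
      (t : Module.End O (LL.lamPart LD (Coh.sysMap O s))))
    (hΘgal : ∀ (σ : GalQ) (x : LL.lamPart LD (Coh.sysMap O s)),
      ((Θ (R₀ σ) x : LL.lamPart LD (Coh.sysMap O s)) : O ⊗[ℤ] JTors.Lam L) =
        LL.galLam LD Nat.prime_two two_mem_O σ x.1)
    (hdetR : ∀ σ : GalQ, (R₀ σ).det =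
      algebraMap O (TL s O LD S) (Attach.cycR Nat.prime_two two_mem_O σ))
    {l : ℕ} (hl : l.Prime) (hlL : ¬ l ∣ L) (hl2 : l ≠ 2)
    {P : ValuationSubring (AlgebraicClosure ℚ)} (hP : P.LiesOverPrime l) {τ : GalQ}
    (hτ : P.IsFrobeniusAt τ l) :
    (((R₀ τ).trace : TL s O LD S) : Module.End O (LL.lamPart LD (Coh.sysMap O s))) =
      LL.lamT LD (Coh.sysMap O s) ⟨l, hl⟩ :=
  (hΘt _).symm.trans (eq_trace_of_frobRel Θ (R₀ τ) (R₀ τ⁻¹)
    (by rw [← map_mul, mul_inv_cancel, map_one]) l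
    (by rw [hdetR, Attach.cycR_frobenius _ _ hl hl2 hP hτ, map_natCast]) _
    (LL.LamAlg.restrict_frobenius (hΘgal τ) (LL.lamT_apply LD (Coh.sysMap O s) ⟨l, hl⟩)
      (LL.galLam_frobenius LD Nat.prime_two two_mem_O hl hlL hl2 hP hτ)))

/-- continuity of the representation on the lattice -/
theorem exists_level_R₀ (R₀ : GalQ →* M2 (TL s O LD S))
    (Θ : M2 (TL s O LD S) →ₐ[O] Module.End O (LL.lamPart LD (Coh.sysMap O s)))
    (hΘinj : Function.Injective Θ)
    (hΘgal : ∀ (σ : GalQ) (x : LL.lamPart LD (Coh.sysMap O s)),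
      ((Θ (R₀ σ) x : LL.lamPart LD (Coh.sysMap O s)) : O ⊗[ℤ] JTors.Lam L) =
        LL.galLam LD Nat.prime_two two_mem_O σ x.1) (n : ℕ) :
    ∃ E : IntermediateField ℚ (AlgebraicClosure ℚ), FiniteDimensional ℚ E ∧
      ∀ σ : GalQ, (∀ x ∈ E, σ x = x) → ∀ a b, (2 : TL s O LD S) ^ n ∣ (R₀ σ - 1) a b := by
  obtain ⟨j, hj⟩ := SS2.exists_pow_le (O := O) (pow_ne_zero n (two_ne_zero : (2 : O) ≠ 0))
  obtain ⟨c, hc⟩ := LL.LamAlg.exists_shift_range Θ.toLinearMap hΘinj
  obtain ⟨E, hE, h⟩ :=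
    LL.LamPart.galW_levelRel LD (Coh.sysMap O s) Nat.prime_two two_mem_O (j + c)
  refine ⟨E, hE, fun σ hσ a b' => ?_⟩
  have hG : Θ (R₀ σ) = LL.LamPart.galW LD (Coh.sysMap O s) Nat.prime_two two_mem_O σ :=
    LinearMap.ext fun x => Subtype.ext
      ((hΘgal σ x).trans (LL.LamPart.galW_apply LD _ Nat.prime_two two_mem_O σ x).symm)
  have hX := hc j (R₀ σ - 1) fun y => by
    rw [AlgHom.toLinearMap_apply, map_sub, map_one, hG, LinearMap.sub_apply,
      Module.End.one_apply]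
    exact h σ hσ y
  have h2 := LL.Fitting.map_mem_pow_smul _ j
    ({ toFun := fun X => X a b', map_add' := fun _ _ => rfl, map_smul' := fun _ _ => rfl } :
      M2 (TL s O LD S) →ₗ[O] TL s O LD S) hX
  exact dvd_of_mem_smul_top hj h2

/-- the representation on the lattice is unramified away from `2 L` -/
theorem R₀_eq_one (R₀ : GalQ →* M2 (TL s O LD S))
    (Θ : M2 (TL s O LD S) →ₐ[O] Module.End O (LL.lamPart LD (Coh.sysMap O s)))
    (hΘinj : Function.Injective Θ)
    (hΘgal : ∀ (σ : GalQ) (x : LL.lamPart LD (Coh.sysMap O s)),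
      ((Θ (R₀ σ) x : LL.lamPart LD (Coh.sysMap O s)) : O ⊗[ℤ] JTors.Lam L) =
        LL.galLam LD Nat.prime_two two_mem_O σ x.1)
    {q : ℕ} (hq : q.Prime) (hqL : ¬ q ∣ L) (hq2 : q ≠ 2)
    {P : ValuationSubring (AlgebraicClosure ℚ)} (hP : P.LiesOverPrime q) {σ : GalQ}
    (hσ : σ ∈ P.inertiaSubgroupIn ℚ) : R₀ σ = 1 :=
  hΘinj (LinearMap.ext fun v => Subtype.ext (by
    refine (hΘgal σ v).trans (LL.coordOf_injective LD ?_)
    rw [LL.coordOf_galLam, (LL.latticeOf LD).galMat_inertia Nat.prime_two two_mem_O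
      (Attach.galoisInputs L) hq hqL hq2 hP hσ, Matrix.one_mulVec, map_one]
    rfl))

end LevelRho

end FLTAgent.R2

end
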