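import Fermat.Agent.R2.SelmerCurve

/-!
R2, parcel C: the vanishing of the Selmer space, tested at the standard places only.
-/

set_option autoImplicit false
set_option linter.style.haveILetI false

noncomputable section

namespace FLTAgent.R2

open Matrix
open scoped Pointwise

local notation "Ω" => AlgebraicClosure ℚ
local notation "V₂" => Fin 2 → ZMod 2

/-- inertia is the stabiliser acting trivially on the residues -/
theorem mem_inertia_of_residue {A : ValuationSubring Ω} {σ : GQ}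
    (hd : σ ∈ A.decompositionSubgroup ℚ) (h : ∀ x ∈ A, A.valuation (σ x - x) < 1) :
    σ ∈ A.inertiaSubgroupIn ℚ := by
  refine Subgroup.mem_map.2 ⟨⟨σ, hd⟩, MonoidHom.mem_ker.2 ?_, rfl⟩
  refine RingEquiv.ext fun y => ?_
  obtain ⟨⟨x, hx⟩, rfl⟩ := IsLocalRing.residue_surjective y
  show (⟨σ, hd⟩ : A.decompositionSubgroup ℚ) • IsLocalRing.residue A ⟨x, hx⟩ =
    IsLocalRing.residue A ⟨x, hx⟩
  rw [← IsLocalRing.ResidueField.residue_smul, ← sub_eq_zero, ← map_sub,
    IsLocalRing.residue_eq_zero_iff]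
  exact (A.valuation_lt_one_iff _).mpr (h x hx)

/-- inertia groups of conjugate places -/
theorem inertia_transport {A B : ValuationSubring Ω} {x σ : GQ} (hx : ∀ y, y ∈ A ↔ x y ∈ B)
    (hσ : σ ∈ A.inertiaSubgroupIn ℚ) : x * σ * x⁻¹ ∈ B.inertiaSubgroupIn ℚ := by
  have hxA : x • A = B := SetLike.ext fun w => by
    rw [ValuationSubring.mem_smul_pointwise_iff_exists]
    exact ⟨fun ⟨y, hy, hyw⟩ => hyw ▸ (hx y).1 hy, fun hw => ⟨x⁻¹ w, (hx _).2 (by
      rwa [show x (x⁻¹ w) = w from x.apply_symm_apply w]), x.apply_symm_apply w⟩⟩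
  have hd := Local.inertia_mem_decomposition hσ
  refine mem_inertia_of_residue (show (x * σ * x⁻¹) • B = B by
    rw [← hxA, mul_smul, inv_smul_smul, mul_smul, show σ • A = A from hd]) fun y hy => ?_
  have hy' : x⁻¹ y ∈ A := (hx _).2 (by rwa [show x (x⁻¹ y) = y from x.apply_symm_apply y])
  have h1 := TOR.inertia_sub_lt hσ hy'
  have h2 : σ (x⁻¹ y) - x⁻¹ y ∈ A.nonunits := (A.mem_nonunits_iff).2 h1
  rw [PT.nonunits_iff (σ := x.toRingEquiv) (fun z => hx z)] at h2
  refine (B.mem_nonunits_iff).1 ?_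
  convert h2 using 1
  show x (σ (x⁻¹ y)) - y = x (σ (x⁻¹ y) - x⁻¹ y)
  rw [map_sub, show x (x⁻¹ y) = y from x.apply_symm_apply y]

variable {W : WeierstrassCurve ℤ}

/-- a cocycle satisfying the conditions at the standard places is a coboundary -/
theorem coboundary_of_standard (hW : IsAnchor W) {S : Finset ℕ}
    (hS : ∀ q ∈ insert 2 (badOdd W), q ∈ S) (hX : SelmerZero hW S) {z : GQ → V₂}
    (hz : ∀ g h, z (g * h) = r2 hW g *ᵥ z h + z g)
    (hlev : ∃ L : IntermediateField ℚ Ω, FiniteDimensional ℚ L ∧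
      ∀ g : GQ, (∀ x ∈ L, g x = x) → z g = 0)
    (hunr : ∀ v : Nat.Primes, (v : ℕ) ∉ S →
      ∀ τ ∈ (PT.plc v).inertiaSubgroupIn ℚ, z τ = 0)
    (hline : ∀ v : Nat.Primes, (v : ℕ) ∈ S → ∀ d ∈ (PT.plc v).decompositionSubgroup ℚ,
      ∀ e ∈ (PT.plc v).decompositionSubgroup ℚ, r2 hW e *ᵥ z d = z d)
    (hprime : ∀ q ∈ S, q.Prime) :
    ∃ m : V₂, ∀ g, z g = r2 hW g *ᵥ m + m := by
  have hz1 : z 1 = 0 := by
    have h := hz 1 1
    rw [one_mul, map_one, Matrix.one_mulVec] at h
    exact left_eq_add.1 h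
  obtain ⟨v, hv⟩ := hX z
    { cocycle := fun g h => by
        rw [hz, r2_eq_rb]; exact add_comm _ _
      level := by
        obtain ⟨L, hL, h⟩ := hlev
        exact ⟨L, hL, fun g s hs => by rw [hz, h s hs, Matrix.mulVec_zero, zero_add]⟩
      unr := by
        intro q hq hqS A hA σ hσ
        obtain ⟨x, hx⟩ := PT.exists_conj hq hA (PT.lies_plc ⟨q, hq⟩)
        have hgood : q ≠ 2 ∧ ¬(q : ℤ) ∣ W.Δ := by
          refine ⟨fun e => hqS (e ▸ hS 2 (Finset.mem_insert_self _ _)), fun hd => hqS (hS q ?_)⟩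
          refine Finset.mem_insert.2 ((em (q = 2)).imp id fun h2 => ?_)
          rw [badOdd, Finset.mem_filter, Nat.mem_primeFactors]
          exact ⟨⟨hq, Int.natCast_dvd.1 hd, Int.natAbs_ne_zero.2 hW.neg.ne⟩, h2⟩
        have hr : r2 hW σ = 1 := inertia_r2_good hW hq hgood.1 hgood.2 hA hσ
        have hmem := inertia_transport hx hσ
        have h0 := hunr ⟨q, hq⟩ hqS _ hmem
        have hrc : r2 hW (x * σ * x⁻¹) = 1 := by
          rw [map_mul, map_mul, hr, mul_one, ← map_mul, mul_inv_cancel, map_one]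
        have h1 : z (x * σ) = z x := by
          have := hz (x * σ * x⁻¹) x
          rwa [show x * σ * x⁻¹ * x = x * σ by group, hrc, Matrix.one_mulVec, h0, add_zero] at this
        rw [hz] at h1
        have h2 := congrArg (r2 hW x⁻¹ *ᵥ ·) (add_eq_right.1 h1)
        simpa only [Matrix.mulVec_mulVec, ← map_mul, inv_mul_cancel, map_one, Matrix.one_mulVec,
          Matrix.mulVec_zero] using h2
      line := by
        intro q hqS A hA
        set v : Nat.Primes := ⟨q, hprime q hqS⟩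
        obtain ⟨x, hx⟩ := PT.exists_conj (hprime q hqS) hA (PT.lies_plc v)
        have hxA : x • A = PT.plc v := SetLike.ext fun w => by
          rw [ValuationSubring.mem_smul_pointwise_iff_exists]
          exact ⟨fun ⟨y, hy, hyw⟩ => hyw ▸ (hx y).1 hy, fun hw => ⟨x⁻¹ w, (hx _).2 (by
            rwa [show x (x⁻¹ w) = w from x.apply_symm_apply w]), x.apply_symm_apply w⟩⟩
        have hdec : ∀ g ∈ A.decompositionSubgroup ℚ,
            x * g * x⁻¹ ∈ (PT.plc v).decompositionSubgroup ℚ := fun g hg => by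
          show (x * g * x⁻¹) • PT.plc v = PT.plc v
          rw [← hxA, mul_smul, inv_smul_smul, mul_smul, show g • A = A from hg]
        have key : ∀ g, z g - (r2 hW g *ᵥ z x⁻¹ - z x⁻¹) = r2 hW x⁻¹ *ᵥ z (x * g * x⁻¹) := by
          intro g
          have e1 := hz x⁻¹ (x * g * x⁻¹)
          have e2 := hz g x⁻¹
          rw [show x⁻¹ * (x * g * x⁻¹) = g * x⁻¹ by group] at e1
          rw [eq_sub_of_add_eq e1.symm, e2]
          generalize r2 hW g *ᵥ z x⁻¹ = a
          generalize z x⁻¹ = b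
          generalize z g = c
          revert a b c
          decide
        refine ⟨z x⁻¹, fun g hg h hh => ?_⟩
        rw [← r2_eq_rb, ← r2_eq_rb]
        refine (congrArg (fun u : V₂ => r2 hW h *ᵥ u) (key g)).trans (Eq.trans ?_ (key g).symm)
        conv_lhs => rw [show h = x⁻¹ * (x * h * x⁻¹) * x by group]
        rw [map_mul (r2 hW), map_mul (r2 hW), Matrix.mulVec_mulVec, mul_assoc, ← map_mul (r2 hW) x,
          mul_inv_cancel, map_one, mul_one, ← Matrix.mulVec_mulVec,
          hline v hqS _ (hdec g hg) _ (hdec h hh)] }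
  refine ⟨v, fun g => ?_⟩
  rw [hv g, ← r2_eq_rb]
  exact funext fun i => CharTwo.sub_eq_add _ _

/-- Frobenius at a killing prime acts as a transposition -/
theorem r2_eq_conj (hW : IsAnchor W) {N : ℕ} {σ : GQ}
    (h : ∀ P : Local.QPoint W, 2 ^ (N + 1) • P = 0 → σ • P = complexConjugation • P) :
    rb hW σ = rb hW complexConjugation ∧ rb hW σ ≠ 1 := by
  have hσc : r2 hW σ = r2 hW complexConjugation := by
    refine Matrix.ext_of_mulVec_single fun j => ?_
    obtain ⟨x, hx⟩ := (Layer.co (tate hW) hW.neg.ne).surjective (Pi.single j 1)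
    rw [← hx, ← Layer.co_smul, ← Layer.co_smul]
    refine congrArg _ (Subtype.ext (h _ ?_))
    rw [pow_succ, mul_nsmul', Torsion.nsmul_tors x, nsmul_zero]
  rw [← r2_eq_rb, ← r2_eq_rb]
  exact ⟨hσc, fun e => (isPlane_r2 hW).inf (hσc ▸ e)⟩

end FLTAgent.R2

end
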