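import Fermat.Agent.R2.EvalWX
import Fermat.Agent.R2.EvalLatt
import Fermat.Agent.R2.LevelRhoLattice
import Fermat.Agent.R2.LevelRhoDefs
import Fermat.Agent.R2.SelmerStd
import Fermat.Agent.R2.Curve

/-!
Area R2, parcel G3: the clauses at two and at a killing prime on one twisted class.

For a class new at two with `WX z = - t z` the twist `x` satisfies `χ(2) W x = - t x`.  The
involution commutes with the Hecke algebra, so `t` is `∓ χ(2)` on `x ± W x`, where the shape at two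
applies, and the entries of `(χ R g - cyc g t ^ m) (χ R h - t ^ m')` kill `x`.
-/

set_option autoImplicit false
set_option linter.style.haveILetI false
set_option linter.unusedSectionVars false
set_option maxHeartbeats 1000000
set_option synthInstance.maxHeartbeats 100000

noncomputable section

open scoped TensorProduct MatrixGroups
open Matrix IsLocalRing CongruenceSubgroup
open scoped Pointwise

namespace FLTAgent.R2

open FLTAgent.Attach (GalQ)
open FLTAgent.Reduction (Qb Ctx)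

local notation "M2" => Matrix (Fin 2) (Fin 2)

section Commute

variable {N q : ℕ} [NeZero N] [NeZero q] {A : Type} [CommRing A]

theorem wop_smul (hq : q.Prime) (hqN : ¬ q ∣ N) (a : A) (φ : LR.HomG (N * q) A) :
    LR.Wop hq hqN (a • φ) = a • LR.Wop hq hqN φ :=
  (congrArg (LR.Wop hq hqN) (AddMonoidHom.ext fun _ => rfl :
    a • φ = (AddMonoidHom.mulLeft a).comp φ)).trans <|
  ((LR.WC hq hqN).op_comp (AddMonoidHom.mulLeft a) φ).trans (AddMonoidHom.ext fun _ => rfl)

theorem lamCast_tmul_eq {L : ℕ} [NeZero L] (a : A) (ψ : JTors.Lam L) :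
    LL.lamCast A L (a ⊗ₜ ψ) = ((AddMonoidHom.mulLeft a).comp (Int.castAddHom A)).comp ψ.1 :=
  AddMonoidHom.ext fun γ => LL.lamCast_tmul A L a ψ γ

theorem lamCast_lamOp {L : ℕ} [NeZero L] (LD : JTors.LatticeData L) {l : ℕ} [NeZero l]
    (hl : l.Prime) (hlL : ¬ l ∣ L) (v : A ⊗[ℤ] JTors.Lam L) :
    LL.lamCast A L (LL.lamOp LD A ⟨l, hl⟩ v) =
      (LR.TC L L l hl dvd_rfl hlL).op (LL.lamCast A L v) := by
  induction v using TensorProduct.induction_on with
  | zero => rw [map_zero, map_zero, map_zero]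
  | tmul a ψ =>
    rw [LinearMap.baseChange_tmul, lamCast_tmul_eq, lamCast_tmul_eq, LR.Corr.op_comp,
      LR.lattice_TH LD hl hlL ψ]
    rfl
  | add u v hu hv => rw [map_add, map_add, map_add, map_add, hu, hv]

variable [IsLocalRing A] {M : ℕ} (s : LL.Sys M A) (LD : JTors.LatticeData (N * q))
  (hq : q.Prime) (hqN : ¬ q ∣ N) {S : Finset ℕ}

/-- the involution commutes with the Hecke algebra of the part -/
theorem wop_lamHecke (hS : ∀ l : Nat.Primes, (l : ℕ) ∉ S → ¬ (l : ℕ) ∣ N * q)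
    (t : Module.End A (LL.lamPart LD s)) (ht : t ∈ LL.lamHecke LD s S) (v w : LL.lamPart LD s)
    (h : LR.Wop hq hqN (LL.lamCast A (N * q) v.1) = LL.lamCast A (N * q) w.1) :
    LR.Wop hq hqN (LL.lamCast A (N * q) (t v).1) = LL.lamCast A (N * q) (t w).1 := by
  induction ht using Algebra.adjoin_induction generalizing v w with
  | mem t ht =>
    obtain ⟨ℓ, hlS, rfl⟩ := ht
    haveI : NeZero (ℓ : ℕ) := ⟨ℓ.2.ne_zero⟩
    have hlL : ¬ (ℓ : ℕ) ∣ N * q := hS ℓ hlS
    have e : ∀ u : LL.lamPart LD s, LL.lamCast A (N * q) (LL.lamT LD s ℓ u).1 =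
        (LR.TC (N * q) (N * q) (ℓ : ℕ) ℓ.2 dvd_rfl hlL).op (LL.lamCast A (N * q) u.1) := fun u =>
      (congrArg (LL.lamCast A (N * q)) (LL.lamT_apply LD s ℓ u)).trans
        (lamCast_lamOp LD ℓ.2 hlL u.1)
    rw [e, e, LR.Wop_TC hq hqN ℓ.2 hlL, h]
  | algebraMap r =>
    rw [Module.algebraMap_end_apply, Module.algebraMap_end_apply, Submodule.coe_smul,
      Submodule.coe_smul, map_smul (LL.lamCast A (N * q)), map_smul (LL.lamCast A (N * q)),
      wop_smul, h]
  | add a b _ _ ha hb =>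
    rw [LinearMap.add_apply, LinearMap.add_apply, Submodule.coe_add, Submodule.coe_add,
      map_add, map_add, map_add, ha v w h, hb v w h]
  | mul a b _ _ ha hb => exact ha _ _ (hb v w h)

end Commute

section Residual

variable {k : Type} [Field k] (ι : ZMod 2 →+* k) {G : Type*} [Group G]
  (r : G →* M2 (ZMod 2)) (R : G →* M2 k) (hfull : Submodule.span (ZMod 2) (Set.range r) = ⊤)
  (htr : ∀ σ, (R σ).trace = ι (r σ).trace)

include hfull in
theorem span_map_eq_top : Submodule.span k (Set.range fun σ => (r σ).map ι) = ⊤ := by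
  have key : ∀ z : M2 (ZMod 2),
      z.map ι ∈ Submodule.span k (Set.range fun σ => (r σ).map ι) := fun z => by
    have hz : z ∈ Submodule.span (ZMod 2) (Set.range r) := hfull ▸ Submodule.mem_top
    induction hz using Submodule.span_induction with
    | mem z hz => obtain ⟨σ, rfl⟩ := hz; exact Submodule.subset_span ⟨σ, rfl⟩
    | zero => rw [Matrix.map_zero _ (map_zero ι)]; exact zero_mem _
    | add z z' _ _ h1 h2 => rw [Matrix.map_add _ (map_add ι)]; exact add_mem h1 h2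
    | smul c z _ h1 =>
      have e : (c • z).map ι = ι c • z.map ι := by
        ext i j
        simp
      rw [e]
      exact Submodule.smul_mem _ _ h1
  refine eq_top_iff.2 fun Y _ => ?_
  rw [Matrix.matrix_eq_sum_single Y]
  refine Submodule.sum_mem _ fun a _ => Submodule.sum_mem _ fun b _ => ?_
  have e : Matrix.single a b (Y a b) = Y a b • (Matrix.single a b (1 : ZMod 2)).map ι := by
    ext i j
    simp [Matrix.single, apply_ite ι]
  rw [e]
  exact Submodule.smul_mem _ _ (key _)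

include hfull in
/-- the trace form is nondegenerate -/
theorem eq_zero_of_trace {X : M2 k} (h : ∀ σ, (X * (r σ).map ι).trace = 0) : X = 0 := by
  have key : ∀ Y : M2 k, (X * Y).trace = 0 := fun Y => by
    have hY : Y ∈ Submodule.span k (Set.range fun σ => (r σ).map ι) :=
      span_map_eq_top ι r hfull ▸ Submodule.mem_top
    induction hY using Submodule.span_induction with
    | mem Y hY => obtain ⟨σ, rfl⟩ := hY; exact h σ
    | zero => rw [mul_zero, Matrix.trace_zero]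
    | add a b _ _ ha hb => rw [mul_add, Matrix.trace_add, ha, hb, add_zero]
    | smul c a _ ha => rw [Matrix.mul_smul, Matrix.trace_smul, ha, smul_zero]
  ext a b
  simpa [Matrix.trace_fin_two, Matrix.mul_apply, Fin.sum_univ_two, Matrix.single]
    using (show X a b = (X * Matrix.single b a (1 : k)).trace by
      fin_cases a <;> fin_cases b <;>
        simp [Matrix.trace_fin_two, Matrix.mul_apply, Fin.sum_univ_two, Matrix.single]).trans
      (key _)

include hfull htr in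
/-- equal traces to a representation with full span give full span -/
theorem span_eq_top_of_trace : Submodule.span k (Set.range R) = ⊤ := by
  let E := Finsupp.linearCombination k (fun σ => R σ)
  let E' := Finsupp.linearCombination k (fun σ => (r σ).map ι)
  have hmul : ∀ σ τ, (R σ * R τ).trace = ((r σ).map ι * (r τ).map ι).trace := fun σ τ => by
    rw [← map_mul, htr, ← Matrix.map_mul, ← map_mul, AddMonoidHom.map_trace ι]
  have hker : LinearMap.ker E ≤ LinearMap.ker E' := fun f hf => by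
    rw [LinearMap.mem_ker] at hf ⊢
    refine eq_zero_of_trace ι r hfull fun τ => ?_
    have e : (E f * R τ).trace = 0 := by rw [hf, zero_mul, Matrix.trace_zero]
    simp only [E, E', Finsupp.linearCombination_apply, Finsupp.sum, Finset.sum_mul,
      Matrix.trace_sum, Matrix.smul_mul, Matrix.trace_smul, hmul] at e ⊢
    exact e
  let g : LinearMap.range E →ₗ[k] M2 k :=
    (LinearMap.ker E).liftQ E' hker ∘ₗ E.quotKerEquivRange.symm.toLinearMap
  have hg : Function.Surjective g := fun Y => by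
    have hY : Y ∈ LinearMap.range E' := by
      rw [Finsupp.range_linearCombination, span_map_eq_top ι r hfull]
      trivial
    obtain ⟨f, rfl⟩ := hY
    refine ⟨E.quotKerEquivRange (Submodule.Quotient.mk f), ?_⟩
    show (LinearMap.ker E).liftQ E' hker
      (E.quotKerEquivRange.symm (E.quotKerEquivRange (Submodule.Quotient.mk f))) = _
    rw [LinearEquiv.symm_apply_apply, Submodule.liftQ_apply]
  rw [← Finsupp.range_linearCombination]
  exact Submodule.eq_top_of_finrank_eq (le_antisymm (Submodule.finrank_le _)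
    (LinearMap.finrank_le_finrank_of_surjective hg))

include hfull htr in
/-- equal traces keep an element away from one -/
theorem ne_one_of_trace {σ : G} (h : r σ ≠ 1) : R σ ≠ 1 := by
  intro e
  refine h (Matrix.map_injective ι.injective ?_)
  show (r σ).map ι = (1 : M2 (ZMod 2)).map ι
  rw [Matrix.map_one _ (map_zero ι) (map_one ι), ← sub_eq_zero]
  refine eq_zero_of_trace ι r hfull fun τ => ?_
  have e2 : (R σ * R τ).trace = (R τ).trace := by rw [e, one_mul]
  rw [← map_mul, htr, htr, map_mul] at e2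
  rw [sub_mul, one_mul, Matrix.trace_sub, ← Matrix.map_mul, ← AddMonoidHom.map_trace ι,
    ← AddMonoidHom.map_trace ι, sub_eq_zero]
  exact e2

end Residual

section Frobenius

theorem isFrobeniusAt_mul_inertia {A : ValuationSubring Qb} {φ s : GalQ} {q : ℕ}
    (hφ : A.IsFrobeniusAt φ q) (hs : s ∈ A.inertiaSubgroupIn ℚ) : A.IsFrobeniusAt (φ * s) q := by
  obtain ⟨⟨s', hs'⟩, hk, rfl⟩ := Subgroup.mem_map.1 hs
  obtain ⟨hd, h⟩ := hφ
  refine ⟨mul_mem hd hs', fun x => ?_⟩
  show (⟨φ, hd⟩ * ⟨s', hs'⟩ : A.decompositionSubgroup ℚ) • x = _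
  rw [mul_smul, show (⟨s', hs'⟩ : A.decompositionSubgroup ℚ) • x = x from
    RingEquiv.congr_fun (MonoidHom.mem_ker.1 hk) x, h]

variable {W : WeierstrassCurve ℤ}

/-- some Frobenius at two moves the two-torsion -/
theorem exists_frobTwo_ne_one (hW : IsAnchor W) :
    ∃ φ : GQ, placeTwo.IsFrobeniusAt φ 2 ∧ rb hW φ ≠ 1 := by
  by_contra hno
  push Not at hno
  have hφ : rb hW frobTwo = 1 := hno _ frobTwo_spec
  have hin : ∀ s ∈ placeTwo.inertiaSubgroupIn ℚ, rb hW s = 1 := fun s hs => by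
    have := hno _ (isFrobeniusAt_mul_inertia frobTwo_spec hs)
    rwa [map_mul, hφ, one_mul] at this
  obtain ⟨L, hL, hlev⟩ := rE_finLevel hW 0
  have hdec : ∀ d ∈ placeTwo.decompositionSubgroup ℚ, rb hW d = 1 := fun d hd => by
    haveI := hL
    haveI := FLTAgent.Common.isGalois_qbar
    let K := IntermediateField.normalClosure ℚ L (AlgebraicClosure ℚ)
    haveI : Normal ℚ K := normalClosure.normal ℚ L _
    haveI : IsGalois ℚ K := { }
    obtain ⟨m, s, hs, hsK⟩ :=
      PT.exists_pow_frob_inertia Nat.prime_two placeTwo_lies frobTwo_spec hd K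
    have h1 : rb hW ((frobTwo ^ m * s)⁻¹ * d) = 1 := hlev _ fun x hx => by
      rw [_root_.mul_inv_rev, mul_assoc, AlgEquiv.mul_apply,
        ← hsK x (L.le_normalClosure hx), ← AlgEquiv.mul_apply, inv_mul_cancel, AlgEquiv.one_apply]
    have h2 : rb hW (frobTwo ^ m * s) = 1 := by rw [map_mul, map_pow, hφ, one_pow, hin s hs, one_mul]
    calc rb hW d = rb hW (frobTwo ^ m * s * ((frobTwo ^ m * s)⁻¹ * d)) := by
          rw [mul_inv_cancel_left]
      _ = 1 := by rw [map_mul, h1, h2, one_mul]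
  obtain ⟨g, hg⟩ := exists_moves_two hW
  obtain ⟨x, hx⟩ := PT.exists_conj Nat.prime_two placeTwo_lies (PT.lies_plc Recip.two')
  refine hg ?_
  have hmem : PT.loc Recip.two' g ∈ (PT.plc Recip.two').decompositionSubgroup ℚ := by
    rw [← PT.range_loc]; exact ⟨g, rfl⟩
  have hxA : x • placeTwo = PT.plc Recip.two' := SetLike.ext fun w => by
    rw [ValuationSubring.mem_smul_pointwise_iff_exists]
    exact ⟨fun ⟨y, hy, hyw⟩ => hyw ▸ (hx y).1 hy, fun hw => ⟨x⁻¹ w, (hx _).2 (by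
      rwa [show x (x⁻¹ w) = w from x.apply_symm_apply w]), x.apply_symm_apply w⟩⟩
  set d := PT.loc Recip.two' g
  have hd : x⁻¹ * d * x ∈ placeTwo.decompositionSubgroup ℚ := by
    show (x⁻¹ * d * x) • placeTwo = placeTwo
    rw [mul_smul, hxA, mul_smul, show d • PT.plc Recip.two' = PT.plc Recip.two' from hmem, ← hxA,
      inv_smul_smul]
  have e : r2 hW (x⁻¹ * d * x) = 1 := (r2_eq_rb hW _).trans (hdec _ hd)
  rw [show d = x * (x⁻¹ * d * x) * x⁻¹ by group, map_mul, map_mul, e, mul_one, ← map_mul,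
    mul_inv_cancel, map_one]

end Frobenius

section Powers

theorem two_pow_sub_one_lt {N a : ℕ} (hN : 2 ≤ N) (ha : a < N) : 2 ^ a < 2 ^ N - 1 := by
  have h1 : 2 * 2 ^ a ≤ 2 ^ N := by
    rw [← pow_succ']; exact Nat.pow_le_pow_right two_pos ha
  have h2 : 2 ^ 2 ≤ 2 ^ N := Nat.pow_le_pow_right two_pos hN
  omega

/-- powers of two modulo `mers e` determine the exponent -/
theorem mod_eq_of_mers {e a b : ℕ} (h : (2 : ZMod (Lv.mers e)) ^ a = 2 ^ b) :
    a % 2 ^ (e + 1) = b % 2 ^ (e + 1) := by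
  have hn : 2 ≤ 2 ^ (e + 1) := Nat.le_self_pow e.succ_ne_zero 2
  have h1 : (2 : ZMod (Lv.mers e)) ^ 2 ^ (e + 1) = 1 := by
    have e1 : ((2 ^ 2 ^ (e + 1) : ℕ) : ZMod (Lv.mers e)) = ((Lv.mers e + 1 : ℕ) : ZMod (Lv.mers e)) :=
      congrArg _ (Nat.sub_add_cancel Nat.one_le_two_pow).symm
    rw [Nat.cast_pow, Nat.cast_add, ZMod.natCast_self, zero_add, Nat.cast_one, Nat.cast_ofNat] at e1
    exact e1
  rw [pow_eq_pow_mod a h1, pow_eq_pow_mod b h1] at h
  have h2 : ((2 ^ (a % 2 ^ (e + 1)) : ℕ) : ZMod (Lv.mers e)) =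
      ((2 ^ (b % 2 ^ (e + 1)) : ℕ) : ZMod (Lv.mers e)) := by
    push_cast
    exact h
  have hlt : ∀ c, 2 ^ (c % 2 ^ (e + 1)) < Lv.mers e := fun c =>
    two_pow_sub_one_lt hn (Nat.mod_lt _ (by positivity))
  have h3 := congrArg ZMod.val h2
  rw [ZMod.val_cast_of_lt (hlt a), ZMod.val_cast_of_lt (hlt b)] at h3
  exact Nat.pow_right_injective le_rfl h3

theorem three_dvd_mers (e : ℕ) : 3 ∣ Lv.mers e := by
  have h1 : (((2 ^ 2 ^ (e + 1) : ℕ)) : ZMod 3) = 1 := by
    rw [Nat.cast_pow, pow_succ', pow_mul, Nat.cast_ofNat, show (2 : ZMod 3) ^ 2 = 1 by decide,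
      one_pow]
  have h2 : ((Lv.mers e : ℕ) : ZMod 3) = 0 := by
    rw [Lv.mers, Nat.cast_sub Nat.one_le_two_pow, h1, Nat.cast_one, sub_self]
  exact (ZMod.natCast_eq_zero_iff _ _).1 h2

theorem odd_mers (e : ℕ) : ¬ 2 ∣ Lv.mers e := by
  intro h
  have h2 : 2 ∣ 2 ^ 2 ^ (e + 1) := dvd_pow_self 2 (by positivity)
  have h3 : 1 ≤ 2 ^ 2 ^ (e + 1) := Nat.one_le_two_pow
  rw [Lv.mers] at h
  omega

/-- the sign of a power of Frobenius at two -/
theorem lamTwo_eq {e : ℕ} (w : ℤˣ) {g : GalQ} {m : ℕ}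
    (hm : Attach.cyc (Lv.mers e) g = 2 ^ m) : lamTwo (w : ℤ) g = (-(w : ℤ)) ^ m := by
  have h3 : Attach.cyc 3 g = (2 : ZMod 3) ^ m := by
    rw [← Attach.cyc_cast (three_dvd_mers e), hm, map_pow, map_ofNat]
  have hww : (-(w : ℤ)) ^ 2 = 1 := by
    rw [neg_sq, sq, ← Units.val_mul, Int.units_mul_self, Units.val_one]
  rw [lamTwo, h3]
  rcases Nat.even_or_odd m with ⟨r, rfl⟩ | ⟨r, rfl⟩
  · rw [← two_mul, pow_mul, pow_mul, hww, one_pow,
      show ((2 : ZMod 3) ^ 2) = 1 by decide, one_pow, if_pos rfl]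
  · rw [pow_add, pow_mul, pow_add, pow_mul, hww, one_pow, one_mul, pow_one, pow_one,
      show ((2 : ZMod 3) ^ 2) = 1 by decide, one_pow, one_mul,
      if_neg (show (2 : ZMod 3) ≠ 1 by decide)]

variable {M r : ℕ} [NeZero M] {D : Coh.AuxData M r} {O : Type} [CommRing O] (c : D.Choice O)

/-- on the decomposition group at two the twisting character is a power of its value at two -/
theorem chi_cyc_two (hodd : ∀ i, D.Q i ≠ 2) {e : ℕ} (hidx : ∀ i, (D.H i).index ∣ 2 ^ e) {g : GQ}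
    (hg : g ∈ placeTwo.decompositionSubgroup ℚ) {m : ℕ}
    (hm : Attach.cyc (Lv.mers e) g = 2 ^ m) :
    c.chi (LevelRho.cycU M g) = Lv.Exact.chiP c 2 ^ m := by
  classical
  show (∏ i, c.ψ i (ZMod.unitsMap (D.dvd i) (LevelRho.cycU M g) : ZMod (D.Q i))) =
    (∏ i, c.ψ i ((2 : ℕ) : ZMod (D.Q i))) ^ m
  refine Eq.trans ?_ (Finset.prod_pow ..)
  refine Finset.prod_congr rfl fun i _ => ?_
  haveI := D.fact_prime i
  haveI : NeZero (D.Q i) := ⟨(D.prime i).ne_zero⟩
  set n := D.Q i * Lv.mers e with hn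
  haveI : NeZero n := ⟨mul_ne_zero (D.prime i).ne_zero (NeZero.ne _)⟩
  have hn2 : ¬ 2 ∣ n := fun h => (Nat.prime_two.dvd_mul.1 h).elim
    (fun h => hodd i ((Nat.prime_dvd_prime_iff_eq Nat.prime_two (D.prime i)).1 h).symm)
    (odd_mers e)
  obtain ⟨ζ, hζ⟩ := HasEnoughRootsOfUnity.exists_primitiveRoot (AlgebraicClosure ℚ) n
  haveI : FiniteDimensional ℚ
      (IntermediateField.adjoin ℚ {ζ} : IntermediateField ℚ (AlgebraicClosure ℚ)) :=
    IntermediateField.adjoin.finiteDimensional (Alg.qb_isAlgebraic.isAlgebraic ζ).isIntegral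
  haveI := FLTAgent.Common.isGalois_qbar
  let L : IntermediateField ℚ (AlgebraicClosure ℚ) := IntermediateField.adjoin ℚ {ζ}
  let K := IntermediateField.normalClosure ℚ L (AlgebraicClosure ℚ)
  haveI : Normal ℚ K := normalClosure.normal ℚ L _
  haveI : IsGalois ℚ K := { }
  obtain ⟨m', s, hs, hsK⟩ :=
    PT.exists_pow_frob_inertia Nat.prime_two placeTwo_lies frobTwo_spec hg K
  have eζ : g ζ = (frobTwo ^ m' * s) ζ := by
    rw [AlgEquiv.mul_apply, hsK ζ (L.le_normalClosure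
      (IntermediateField.mem_adjoin_simple_self ℚ ζ)), ← AlgEquiv.mul_apply, mul_inv_cancel_left]
  have hc : Attach.cyc n g = 2 ^ m' := by
    have hc : Attach.cyc n g = Attach.cyc n (frobTwo ^ m' * s) := by
      rw [Attach.cyc_spec g hζ.pow_eq_one, Attach.cyc_spec _ hζ.pow_eq_one] at eζ
      exact ZMod.val_injective n (hζ.pow_inj (ZMod.val_lt _) (ZMod.val_lt _) eζ)
    rw [hc, Attach.cyc_mul, Attach.cyc_inertia Nat.prime_two hn2 placeTwo_lies hs, mul_one,
      ← LevelRho.cycU_val, map_pow, Units.val_pow_eq_pow_val, LevelRho.cycU_val,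
      Attach.cyc_frobenius Nat.prime_two hn2 placeTwo_lies frobTwo_spec, Nat.cast_ofNat]
  have hmod : m' % 2 ^ (e + 1) = m % 2 ^ (e + 1) := mod_eq_of_mers (by
    rw [← hm, ← Attach.cyc_cast (dvd_mul_left (Lv.mers e) (D.Q i)) g, hc, map_pow, map_ofNat])
  have hQ : ((ZMod.unitsMap (D.dvd i) (LevelRho.cycU M g) : (ZMod (D.Q i))ˣ) : ZMod (D.Q i)) =
      (2 : ZMod (D.Q i)) ^ m' := by
    show ZMod.castHom (D.dvd i) (ZMod (D.Q i)) (Attach.cyc M g) = _
    rw [Attach.cyc_cast, ← Attach.cyc_cast (dvd_mul_right (D.Q i) (Lv.mers e)) g, hc, map_pow,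
      map_ofNat]
  have hone : c.ψ i ((2 : ℕ) : ZMod (D.Q i)) ^ 2 ^ (e + 1) = 1 := by
    obtain ⟨u, hu⟩ : IsUnit ((2 : ℕ) : ZMod (D.Q i)) :=
      (ZMod.isUnit_iff_coprime _ _).mpr
        ((Nat.coprime_primes Nat.prime_two (D.prime i)).2 (hodd i).symm)
    obtain ⟨j, hj⟩ := hidx i
    have hmem : u ^ 2 ^ e ∈ D.H i := by
      rw [hj, pow_mul]
      exact Subgroup.pow_mem _ (Subgroup.pow_index_mem (D.H i) u) j
    rw [← hu, pow_succ, pow_mul, ← map_pow, ← Units.val_pow_eq_pow_val, sq]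
    exact c.sq i _ hmem
  rw [hQ, map_pow, ← Nat.cast_ofNat (R := ZMod (D.Q i)), pow_eq_pow_mod m' hone,
    pow_eq_pow_mod m hone, hmod]

end Powers

section Shape

variable {M₀ N : ℕ} [NeZero N] {O : Type} [CommRing O] [IsDomain O] [IsDiscreteValuationRing O]
  [IsAdicComplete (maximalIdeal O) O] [CharZero O]

theorem be1_smul {q : ℕ} [NeZero q] (hq : q.Prime) (hqN : ¬ q ∣ N) (c : O)
    (ψ : LR.HomG (N * q) O) : LR.be1 hq hqN (c • ψ) = c • LR.be1 hq hqN ψ :=
  (congrArg (LR.be1 hq hqN) (AddMonoidHom.ext fun _ => rfl :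
    c • ψ = (AddMonoidHom.mulLeft c).comp ψ)).trans <|
  ((LR.epsC hq hqN).op_comp (AddMonoidHom.mulLeft c) ψ).trans (AddMonoidHom.ext fun _ => rfl)

variable {A : ValuationSubring Qb} (C : Ctx A N 2) (hO : ((2 : ℕ) : O) ∈ maximalIdeal O)
  (LD : JTors.LatticeData (N * 2)) (s : LL.Sys M₀ O) (S : Finset ℕ)

/-- `x = x₊ + x₋` up to two, with the involution `±1` and `t` the scalar `∓ χ` on the halves -/
theorem two_halves (hS : ∀ l : Nat.Primes, (l : ℕ) ∉ S → ¬ (l : ℕ) ∣ N * 2)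
    (tE : Module.End O (LL.lamPart LD s)) (ht : tE ∈ LL.lamHecke LD s S) (x : LL.lamPart LD s)
    (χ : O) (hχ : IsUnit χ)
    (hb : LR.be1 C.prime C.not_dvd (LL.lamCast O (N * 2) x.1) = 0)
    (hbW : LR.be1 C.prime C.not_dvd
      (LR.Wop C.prime C.not_dvd (LL.lamCast O (N * 2) x.1)) = 0)
    (hW : χ • LR.Wop C.prime C.not_dvd (LL.lamCast O (N * 2) x.1) =
      -LL.lamCast O (N * 2) (tE x).1) :
    ∃ y : ℤˣ → LL.lamPart LD s, (2 : O) • x = y 1 + y (-1) ∧
      ∀ w : ℤˣ, tE (y w) = (-((w : ℤ) : O) * χ) • y w ∧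
        LL.SumsZero N 2 (LL.lamCast O (N * 2) (y w).1) ∧
        AtkinVec C (LL.latticeOf LD) (w : ℤ) (LL.coordOf LD (y w).1) := by
  obtain ⟨u, hu⟩ := hχ.exists_left_inv
  have lcinj := LL.lamCast_injective (A := O) (N := N * 2)
  obtain ⟨w₀, hw₀⟩ : ∃ w₀, w₀ = -(u • tE x) := ⟨_, rfl⟩
  obtain ⟨W, hWdef⟩ : ∃ W, W = LR.Wop (V := O) C.prime C.not_dvd := ⟨_, rfl⟩
  have hWs : ∀ (c : O) (ψ : LR.HomG (N * 2) O), W (c • ψ) = c • W ψ := fun c ψ => by
    rw [hWdef, wop_smul]
  rw [← hWdef] at hbW hW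
  have hWx : W (LL.lamCast O (N * 2) x.1) = LL.lamCast O (N * 2) w₀.1 := by
    have e := congrArg (u • ·) hW
    simp only [smul_smul, hu, one_smul, smul_neg] at e
    rw [e, hw₀, Submodule.coe_neg, Submodule.coe_smul, map_neg, map_smul]
  have hWw : W (LL.lamCast O (N * 2) w₀.1) = LL.lamCast O (N * 2) x.1 := by
    rw [← hWx, hWdef]; exact LR.Wop_Wop C.prime C.not_dvd _
  have htw : tE w₀ = -(χ • x) := by
    refine Subtype.ext (lcinj ?_)
    rw [← wop_lamHecke s LD C.prime C.not_dvd hS tE ht x w₀ (by rw [← hWdef]; exact hWx),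
      ← hWdef, show LL.lamCast O (N * 2) (tE x).1 = -(χ • W (LL.lamCast O (N * 2) x.1)) by
        rw [hW, neg_neg],
      map_neg, hWs, hWx, hWw, Submodule.coe_neg, Submodule.coe_smul, map_neg, map_smul]
  have htx : tE x = -(χ • w₀) := by
    rw [hw₀, smul_neg, smul_smul, mul_comm χ, hu, one_smul, neg_neg]
  refine ⟨fun w => x + ((w : ℤ) : O) • w₀, ?_, fun w => ?_⟩
  · beta_reduce
    simp only [Units.val_one, Units.val_neg, Int.cast_one, Int.cast_neg, Int.reduceNeg]
    module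
  obtain ⟨y, hy⟩ : ∃ y, y = x + ((w : ℤ) : O) • w₀ := ⟨_, rfl⟩
  beta_reduce
  rw [← hy]
  have hw2 : ((w : ℤ) : O) * ((w : ℤ) : O) = 1 := by
    rw [← Int.cast_mul, ← Units.val_mul, Int.units_mul_self, Units.val_one, Int.cast_one]
  have hWy : W (LL.lamCast O (N * 2) y.1) = ((w : ℤ) : O) • LL.lamCast O (N * 2) y.1 := by
    rw [hy, Submodule.coe_add, Submodule.coe_smul, map_add, map_smul, map_add W, hWs, hWx, hWw,
      smul_add, smul_smul, hw2, one_smul, add_comm]
  have hby : LR.be1 C.prime C.not_dvd (LL.lamCast O (N * 2) y.1) = 0 := by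
    rw [hy, Submodule.coe_add, Submodule.coe_smul, map_add, map_smul,
      map_add (LR.be1 C.prime C.not_dvd), be1_smul, ← hWx, hb, hbW, smul_zero, add_zero]
  refine ⟨?_, Lv.sumsZero_of_be C.prime C.not_dvd _ hby ?_, atkinVec_of_wop C LD _ _ ?_⟩
  · rw [hy, map_add, map_smul, htx, htw, smul_add, smul_smul, smul_neg, smul_smul,
      show -((w : ℤ) : O) * χ * ((w : ℤ) : O) = -χ by linear_combination (-χ) * hw2]
    module
  · rw [← hWdef, hWy, be1_smul, hby, smul_zero]
  · rw [LL.vecOf_coordOf, ← hWdef]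
    exact hWy

/-- the elements killing a vector -/
def killIdeal (y : LL.lamPart LD s) : Ideal (LL.lamHecke LD s S) where
  carrier := {v | (v : Module.End O (LL.lamPart LD s)) y = 0}
  zero_mem' := by simp
  add_mem' := fun {v v'} hv hv' => by
    show ((v + v' : LL.lamHecke LD s S) : Module.End O (LL.lamPart LD s)) y = 0
    rw [AddMemClass.coe_add, LinearMap.add_apply, hv, hv', add_zero]
  smul_mem' := fun c v hv => by
    show ((c * v : LL.lamHecke LD s S) : Module.End O (LL.lamPart LD s)) y = 0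
    rw [MulMemClass.coe_mul, Module.End.mul_apply, hv, map_zero]

/-- evaluating the shape at a scalar -/
theorem shape_mem_of_eigen {T : Type} [CommRing T] [Algebra O T] (I : Ideal T) (R R' : M2 T)
    (c δ : T) (hδ : R.det = δ) (t : T) (χ : O) (z lg lh : ℤ) (m m' : ℕ) (hlg : lg = z ^ m)
    (hlh : lh = z ^ m')
    (ht : t - algebraMap O T ((z : O) * χ) ∈ I) (a b : Fin 2)
    (hc : c = δ)
    (h : ((R - ((lg : T) * R.det) • (1 : M2 T)) *
      (R' - (lh : T) • (1 : M2 T))) a b ∈ I) :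
    ((χ ^ m • R - (c * t ^ m) • (1 : M2 T)) * (χ ^ m' • R' - t ^ m' • (1 : M2 T))) a b ∈ I := by
  rw [← Ideal.Quotient.eq] at ht
  rw [← Ideal.Quotient.eq_zero_iff_mem] at h ⊢
  subst hc hlg hlh
  simp only [Matrix.mul_apply, Fin.sum_univ_two, Matrix.sub_apply, Matrix.smul_apply, map_add,
    map_mul, map_sub, map_pow, smul_eq_mul, hδ, Int.cast_pow, map_intCast] at h
  simp only [Matrix.mul_apply, Fin.sum_univ_two, Matrix.sub_apply, Matrix.smul_apply]
  simp only [map_add, map_mul, map_sub, map_pow, smul_eq_mul, Algebra.smul_def, ht, map_intCast,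
    mul_pow]
  linear_combination (Ideal.Quotient.mk I (algebraMap O T χ) ^ m *
    Ideal.Quotient.mk I (algebraMap O T χ) ^ m') * h

variable (Θ : M2 (LL.lamHecke LD s S) →ₐ[O] Module.End O (LL.lamPart LD s))
  (ρ : GalQ →* M2 (LL.lamHecke LD s S))

/-- the shape at two on a vector on which the involution is a scalar times a Hecke element -/
theorem two_vec (hS : ∀ l : Nat.Primes, (l : ℕ) ∉ S → ¬ (l : ℕ) ∣ N * 2)
    (hΘt : ∀ t : LL.lamHecke LD s S, Θ (Matrix.scalar (Fin 2) t) =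
      (t : Module.End O (LL.lamPart LD s)))
    (hgal : ∀ (σ : GalQ) (x : LL.lamPart LD s), ((Θ (ρ σ) x : LL.lamPart LD s) :
      O ⊗[ℤ] JTors.Lam (N * 2)) = LL.galLam LD Nat.prime_two hO σ x.1)
    (hdet : ∀ σ, (ρ σ).det =
      algebraMap O (LL.lamHecke LD s S) (Attach.cycR Nat.prime_two hO σ))
    (hspan : Algebra.adjoin O (Set.range ρ) = ⊤)
    (hlev : ∀ n : ℕ, Deform.FinLevel fun σ =>
      (ρ σ).map (Ideal.Quotient.mk (Ideal.span {(2 : LL.lamHecke LD s S) ^ n})))
    {φ : GalQ} (hφ : A.IsFrobeniusAt φ 2)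
    (hunit : ∀ w : ℤˣ, ∃ i j,
      IsUnit ((ρ φ + ((w : ℤ) : LL.lamHecke LD s S) • 1) i j))
    (x : LL.lamPart LD s) (t : LL.lamHecke LD s S) (χ : O) (hχ : IsUnit χ)
    (hb : LR.be1 C.prime C.not_dvd (LL.lamCast O (N * 2) x.1) = 0)
    (hbW : LR.be1 C.prime C.not_dvd
      (LR.Wop C.prime C.not_dvd (LL.lamCast O (N * 2) x.1)) = 0)
    (hW : χ • LR.Wop C.prime C.not_dvd (LL.lamCast O (N * 2) x.1) =
      -LL.lamCast O (N * 2) ((t : Module.End O (LL.lamPart LD s)) x).1)
    {g h : GalQ} (hg : g ∈ A.decompositionSubgroup ℚ) (hh : h ∈ A.decompositionSubgroup ℚ)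
    {m m' : ℕ} (hgm : ∀ w : ℤˣ, lamTwo (w : ℤ) g = (-(w : ℤ)) ^ m)
    (hhm : ∀ w : ℤˣ, lamTwo (w : ℤ) h = (-(w : ℤ)) ^ m') (a b : Fin 2) :
    (((χ ^ m • ρ g - (algebraMap O (LL.lamHecke LD s S) (Attach.cycR Nat.prime_two hO g) * t ^ m) •
        (1 : M2 (LL.lamHecke LD s S))) *
      (χ ^ m' • ρ h - t ^ m' • (1 : M2 (LL.lamHecke LD s S)))) a b :
        Module.End O (LL.lamPart LD s)) x = 0 := by
  generalize hK : ((χ ^ m • ρ g -
      (algebraMap O (LL.lamHecke LD s S) (Attach.cycR Nat.prime_two hO g) * t ^ m) •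
        (1 : M2 (LL.lamHecke LD s S))) *
      (χ ^ m' • ρ h - t ^ m' • (1 : M2 (LL.lamHecke LD s S)))) a b = K
  obtain ⟨y, hxy, hy⟩ := two_halves C LD s S hS _ t.2 x χ hχ hb hbW hW
  have main : ∀ w : ℤˣ, (K : Module.End O (LL.lamPart LD s)) (y w) = 0 := by
    intro w
    obtain ⟨hty, hsum, hat⟩ := hy w
    obtain ⟨i, j, hij⟩ := hunit w
    have key := two_apply C hO LD s Θ ρ hgal hdet hspan hlev w hφ hij (y w) hsum hat hg hh a b
    show K ∈ killIdeal LD s S (y w)
    rw [← hK]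
    refine shape_mem_of_eigen (killIdeal LD s S (y w)) (ρ g) (ρ h) _ _ (hdet g) t χ (-(w : ℤ))
      _ _ m m' (hgm w) (hhm w) ?_ a b rfl ((LinearMap.congr_fun (hΘt _) (y w)).symm.trans key)
    show (LL.lamHecke LD s S).val (t - algebraMap O (LL.lamHecke LD s S) _) (y w) = 0
    rw [map_sub, AlgHom.commutes, LinearMap.sub_apply, Subalgebra.coe_val,
      Module.algebraMap_end_apply, Int.cast_neg, hty, sub_self]
  have h3 : (2 : O) • (K : Module.End O (LL.lamPart LD s)) x = 0 := by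
    rw [← map_smul, hxy, map_add, main, main, add_zero]
  exact Subtype.ext ((smul_eq_zero.1 (congrArg Subtype.val h3)).resolve_left two_ne_zero)

end Shape

end FLTAgent.R2

end
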