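import Fermat.Agent.R2.LevelRhoAlg
import Fermat.Agent.R2.CohTwistLattice
import Fermat.Agent.R2.CohExt
import Fermat.Agent.LL.LevelRep

/-!
Area R2, parcel G1: the twists of the classes in the functions on `X` with values in `ℤ₂` into the
lattice of level `N0 R²`, the families of Hecke elements compatible with them, and the twisted
representations as one over the product.
-/

set_option autoImplicit false
set_option linter.style.haveILetI false
set_option linter.unusedSectionVars false
set_option maxHeartbeats 1000000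
set_option synthInstance.maxHeartbeats 100000

noncomputable section

open scoped TensorProduct MatrixGroups
open Matrix IsLocalRing

namespace FLTAgent.R2

open FLTAgent.Attach (GalQ)

local notation "M2" => Matrix (Fin 2) (Fin 2)

namespace Coh.AuxData

variable {M r : ℕ} (D : AuxData M r)

/-- the diamond of a unit -/
def cls : (ZMod M)ˣ →* D.Del :=
  Pi.monoidHom fun i => (QuotientGroup.mk' (D.H i)).comp (ZMod.unitsMap (D.dvd i))

variable {D}

theorem Choice.delta_cls {A : Type*} [CommRing A] (c : D.Choice A) (a : (ZMod M)ˣ) :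
    c.delta (D.cls a) = c.chi a⁻¹ * c.chi a⁻¹ := by
  show (∏ i, c.delta1 i (D.cls a i)) =
    (∏ i, c.ψ i (ZMod.unitsMap (D.dvd i) a⁻¹ : ZMod (D.Q i))) * ∏ i, c.ψ i _
  rw [← Finset.prod_mul_distrib]
  refine Finset.prod_congr rfl fun i _ => ?_
  rw [map_inv]
  exact c.delta1_mk i _

end Coh.AuxData

namespace LevelRho

/-- the cyclotomic character as a unit -/
def cycU (M : ℕ) [NeZero M] : GalQ →* (ZMod M)ˣ :=
  MonoidHom.toHomUnits
    { toFun := Attach.cyc M
      map_one' := Attach.cyc_one M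
      map_mul' := Attach.cyc_mul M }

theorem cycU_val {M : ℕ} [NeZero M] (σ : GalQ) : (cycU M σ : ZMod M) = Attach.cyc M σ := rfl

section Twisted

variable {G O R κ : Type*} [Monoid G] [CommRing O] [CommRing R] [Algebra O R]

/-- a representation twisted by a family of characters, as one over the product -/
def twistedRep (χ : κ → G →* O) (R₀ : G →* M2 R) : G →* M2 (κ → R) where
  toFun σ := Matrix.of fun a b k => χ k σ • R₀ σ a b
  map_one' := by
    ext a b k : 3
    rw [Matrix.of_apply, map_one, map_one, one_smul]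
    rcases eq_or_ne a b with rfl | h
    · rw [Matrix.one_apply_eq, Matrix.one_apply_eq, Pi.one_apply]
    · rw [Matrix.one_apply_ne h, Matrix.one_apply_ne h, Pi.zero_apply]
  map_mul' σ τ := by
    ext a b k : 3
    simp only [Matrix.mul_apply, Fin.sum_univ_two, Pi.add_apply, Pi.mul_apply, Matrix.of_apply]
    rw [map_mul (χ k), map_mul R₀, Matrix.mul_apply, Fin.sum_univ_two, smul_add,
      smul_mul_smul_comm, smul_mul_smul_comm]

theorem twistedRep_apply (χ : κ → G →* O) (R₀ : G →* M2 R) (σ : G) (a b : Fin 2) (k : κ) :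
    twistedRep χ R₀ σ a b k = χ k σ • R₀ σ a b := rfl

theorem trace_twistedRep (χ : κ → G →* O) (R₀ : G →* M2 R) (σ : G) (k : κ) :
    (twistedRep χ R₀ σ).trace k = χ k σ • (R₀ σ).trace := by
  simp [Matrix.trace_fin_two, twistedRep_apply, smul_add]

theorem det_twistedRep (χ : κ → G →* O) (R₀ : G →* M2 R) (σ : G) (k : κ) :
    (twistedRep χ R₀ σ).det k = algebraMap O R (χ k σ * χ k σ) * (R₀ σ).det := by
  simp [Matrix.det_fin_two, twistedRep_apply, Algebra.smul_def, map_mul]
  ring

/-- where the character and the representation are trivial, so is the twist -/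
theorem twistedRep_eq_one (χ : κ → G →* O) (R₀ : G →* M2 R) {σ : G} (hχ : ∀ k, χ k σ = 1)
    (h : R₀ σ = 1) : twistedRep χ R₀ σ = 1 := by
  ext a b k : 3
  rw [twistedRep_apply, hχ, one_smul, h]
  rcases eq_or_ne a b with rfl | h
  · rw [Matrix.one_apply_eq, Matrix.one_apply_eq, Pi.one_apply]
  · rw [Matrix.one_apply_ne h, Matrix.one_apply_ne h, Pi.zero_apply]

/-- congruences pass to the twist -/
theorem dvd_twistedRep_sub_one (χ : κ → G →* O) (R₀ : G →* M2 R) {σ : G} (hχ : ∀ k, χ k σ = 1)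
    (d : R) (h : ∀ a b, d ∣ (R₀ σ - 1) a b) (a b : Fin 2) :
    (fun _ => d : κ → R) ∣ (twistedRep χ R₀ σ - 1) a b := by
  obtain ⟨c, hc⟩ := h a b
  refine ⟨fun _ => c, funext fun k => ?_⟩
  rw [Matrix.sub_apply, Pi.sub_apply, twistedRep_apply, hχ, one_smul, Pi.mul_apply, ← hc,
    Matrix.sub_apply]
  congr 1
  rcases eq_or_ne a b with rfl | h
  · rw [Matrix.one_apply_eq, Matrix.one_apply_eq, Pi.one_apply]
  · rw [Matrix.one_apply_ne h, Matrix.one_apply_ne h, Pi.zero_apply]

end Twisted

section Base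

variable {O : Type} [CommRing O] [IsLocalRing O] [CharZero O] [Algebra ℤ_[2] O]

theorem algebraMap_injective : Function.Injective (algebraMap ℤ_[2] O) := by
  refine (injective_iff_map_eq_zero _).2 fun a ha => ?_
  by_contra h
  rw [PadicInt.unitCoeff_spec h, map_mul, map_pow, map_natCast,
    ((PadicInt.unitCoeff h).isUnit.map _).mul_right_eq_zero] at ha
  rw [← Nat.cast_pow, Nat.cast_eq_zero] at ha
  exact pow_ne_zero _ two_ne_zero ha

variable [IsAdicComplete (maximalIdeal O) O] [IsLocalHom (algebraMap ℤ_[2] O)]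

theorem two_mem : ((2 : ℕ) : ℤ_[2]) ∈ maximalIdeal ℤ_[2] := by
  rw [PadicInt.maximalIdeal_eq_span_p]
  exact Ideal.mem_span_singleton_self _

theorem two_mem_O : ((2 : ℕ) : O) ∈ maximalIdeal O := by
  rw [← map_natCast (algebraMap ℤ_[2] O)]
  exact map_nonunit _ _ two_mem

theorem cycR_map (σ : GalQ) :
    Attach.cycR Nat.prime_two (two_mem_O (O := O)) σ =
      algebraMap ℤ_[2] O (Attach.cycR Nat.prime_two two_mem σ) := by
  refine Attach.cycR_eq_of_forall Nat.prime_two two_mem_O
    (a := fun n => haveI : NeZero (2 ^ n) := ⟨pow_ne_zero n two_ne_zero⟩; (Attach.cyc (2 ^ n) σ).val)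
    (fun n => ?_) fun n _ => (ZMod.natCast_zmod_val _).symm
  haveI : NeZero (2 ^ n) := ⟨pow_ne_zero n two_ne_zero⟩
  have h := Ideal.mem_map_of_mem (algebraMap ℤ_[2] O)
    (Attach.cycR_spec Nat.prime_two two_mem σ n)
  rw [map_sub, map_natCast, Ideal.map_pow] at h
  exact Ideal.pow_right_mono (((IsLocalRing.local_hom_TFAE (algebraMap ℤ_[2] O)).out 0 2 :).1
    inferInstance) n h

end Base

variable {M r : ℕ} [NeZero M] {D : Coh.AuxData M r} (s : LL.Sys M ℤ_[2])

variable (D) in
theorem isTwist_act (A : Type*) [CommRing A] (u : D.Del) :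
    LL.IsTwist (LL.funRep A D.X (M := M)) (LL.funRep A D.X (M := M)) 1
      (LinearMap.funLeft A A (D.torsor.act u)) := fun g F => by
  rw [MonoidHom.one_apply, one_smul]
  funext x
  rw [LinearMap.funLeft_apply, LL.funRep_apply, LL.funRep_apply, LinearMap.funLeft_apply,
    D.torsor.act_smul]

variable (D) in
/-- the part of the system in the functions on `X` -/
abbrev Mod : Type := s.E (LL.funRep ℤ_[2] D.X (M := M))

variable (D) in
/-- `T l` on the module -/
def hOp {l : ℕ} (hl : l.Prime) (hlM : ¬ l ∣ M) : Module.End ℤ_[2] (Mod D s) :=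
  (LL.T (LL.funRep ℤ_[2] D.X (M := M)) hl hlM).restrict fun _ hx => s.T_mem_E hl hlM hx

variable (D) in
/-- a diamond on the module -/
def actE (u : D.Del) : Module.End ℤ_[2] (Mod D s) :=
  (LL.map (isTwist_act D ℤ_[2] u)).restrict fun _ hx => s.map_mem_E _ (fun _ => by simp) hx

theorem actE_val (u : D.Del) (x : Mod D s) :
    (actE D s u x).1 = LL.map (isTwist_act D ℤ_[2] u) x.1 := rfl

variable (D) (O : Type) [CommRing O] [IsDomain O] [IsDiscreteValuationRing O]
  [IsAdicComplete (maximalIdeal O) O] [Finite (ResidueField O)] [CharZero O] [Algebra ℤ_[2] O]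
  [Module.Finite ℤ_[2] O] [IsLocalHom (algebraMap ℤ_[2] O)]

/-- extension of scalars -/
def extE : Mod D s →ₗ[ℤ_[2]] (Coh.sysMap O s).E (LL.funRep O D.X (M := M)) where
  toFun x := ⟨Coh.extH _ (Coh.isTwist_funExt (M := M) ℤ_[2] O D.X) x.1,
    Coh.extH_mem_E _ _ s x.2⟩
  map_add' x y := Subtype.ext (map_add _ x.1 y.1)
  map_smul' a x := Subtype.ext (map_smul _ a x.1)

theorem extE_injective : Function.Injective (extE D s O) := by
  refine (injective_iff_map_eq_zero _).2 fun x hx => Subtype.ext ?_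
  refine s.eq_zero_of_map_eq_zero (Coh.isTwist_funExt (M := M) ℤ_[2] O D.X)
    (fun F G h => funext fun z => algebraMap_injective (congrFun h z)) x.2 ?_
  exact (Coh.resH (A := ℤ_[2]) (LL.funRep O D.X (M := M))).injective
    ((congrArg Subtype.val hx).trans (map_zero _).symm)

theorem extE_hOp {l : ℕ} (hl : l.Prime) (hlM : ¬ l ∣ M) (x : Mod D s) :
    (extE D s O (hOp D s hl hlM x)).1 =
      LL.T (LL.funRep O D.X (M := M)) hl hlM (extE D s O x).1 :=
  Coh.extH_T _ _ hl hlM x.1

theorem extE_actE (u : D.Del) (x : Mod D s) :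
    (extE D s O (actE D s u x)).1 = LL.map (isTwist_act D O u) (extE D s O x).1 := by
  obtain ⟨f, hf⟩ := Submodule.mkQ_surjective _ x.1
  show Coh.extH (LL.funRep O D.X (M := M)) (Coh.isTwist_funExt (M := M) ℤ_[2] O D.X)
      (LL.map (isTwist_act D ℤ_[2] u) x.1) =
    LL.map (isTwist_act D O u) (Coh.extH (LL.funRep O D.X (M := M))
      (Coh.isTwist_funExt (M := M) ℤ_[2] O D.X) x.1)
  rw [← hf]
  rfl

variable {D}
variable {L : ℕ} [NeZero L] (hL : L = D.N0 * D.tw.R ^ 2) (LD : JTors.LatticeData L)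

/-- the twist into the lattice -/
def twist (c : D.Choice O) (hχ : ∀ a, c.chi a - 1 ∈ maximalIdeal O) :
    Mod D s →ₗ[ℤ_[2]] LL.lamPart LD (Coh.sysMap O s) :=
  (((c.toLam (Coh.sysMap O s) hL hχ).codRestrict _
    fun x => c.toLam_mem_lamPart (Coh.sysMap O s) hL hχ LD x).restrictScalars ℤ_[2]) ∘ₗ extE D s O

variable {O}

theorem twist_hOp (c : D.Choice O) (hχ : ∀ a, c.chi a - 1 ∈ maximalIdeal O) {l : ℕ}
    (hl : l.Prime) (hlM : ¬ l ∣ M) (x : Mod D s) :
    twist s O hL LD c hχ (hOp D s hl hlM x) =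
      c.chi (ZMod.unitOfCoprime l ((hl.coprime_iff_not_dvd).mpr hlM)) •
        LL.lamT LD (Coh.sysMap O s) ⟨l, hl⟩ (twist s O hL LD c hχ x) := by
  refine Subtype.ext ?_
  refine Eq.trans ?_ (c.toLam_T (Coh.sysMap O s) hL hχ LD hl hlM (extE D s O x))
  exact congrArg (c.toLam (Coh.sysMap O s) hL hχ) (Subtype.ext (extE_hOp D s O hl hlM x))

theorem twist_actE (c : D.Choice O) (hχ : ∀ a, c.chi a - 1 ∈ maximalIdeal O) (u : D.Del)
    (x : Mod D s) :
    twist s O hL LD c hχ (actE D s u x) = c.delta u • twist s O hL LD c hχ x :=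
  Subtype.ext (c.toLam_act (Coh.sysMap O s) hL hχ u (extE D s O x) _ (isTwist_act D O u)
    (extE_actE D s O u x))

theorem eq_zero_of_twist {κ : Type} [Fintype κ] [Nonempty κ] (cs : κ → D.Choice O)
    (hχ : ∀ k a, (cs k).chi a - 1 ∈ maximalIdeal O)
    (hsum : ∀ u : D.Del, u ≠ 1 → ∑ k, (cs k).delta u = 0) {x : Mod D s}
    (h0 : ∀ k, twist s O hL LD (cs k) (hχ k) x = 0) : x = 0 := by
  refine extE_injective D s O ?_
  rw [map_zero]
  exact Coh.AuxData.eq_zero_of_toLam (Coh.sysMap O s) hL cs hχ hsum Fintype.card_ne_zero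
    fun k => congrArg Subtype.val (h0 k)

variable (O) in
/-- the Hecke algebra of the lattice -/
abbrev TL (S : Finset ℕ) : Type := LL.lamHecke LD (Coh.sysMap O s) S

variable (S : Finset ℕ) {κ : Type} [Fintype κ] [Nonempty κ] (cs : κ → D.Choice O)
  (hχ : ∀ k a, (cs k).chi a - 1 ∈ maximalIdeal O)

theorem algebraMap_TL_apply (a : ℤ_[2]) (z : LL.lamPart LD (Coh.sysMap O s)) :
    ((algebraMap ℤ_[2] (TL s O LD S) a : TL s O LD S) :
        Module.End O (LL.lamPart LD (Coh.sysMap O s))) z = a • z := by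
  rw [IsScalarTower.algebraMap_apply ℤ_[2] O (TL s O LD S)]
  exact algebraMap_smul O a z

/-- the families acting on the module compatibly with the twists -/
def interAlg : Subalgebra ℤ_[2] (κ → TL s O LD S) where
  carrier := {t | ∃ u : Module.End ℤ_[2] (Mod D s), ∀ k x,
    twist s O hL LD (cs k) (hχ k) (u x) =
      (t k : Module.End O (LL.lamPart LD (Coh.sysMap O s))) (twist s O hL LD (cs k) (hχ k) x)}
  algebraMap_mem' a := ⟨algebraMap _ _ a, fun k x => by
    rw [Pi.algebraMap_apply, algebraMap_TL_apply, Module.algebraMap_end_apply, map_smul]⟩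
  add_mem' := fun {t t'} ⟨u, hu⟩ ⟨u', hu'⟩ => ⟨u + u', fun k x => by
    rw [LinearMap.add_apply, map_add, hu, hu', Pi.add_apply, AddMemClass.coe_add,
      LinearMap.add_apply]⟩
  mul_mem' := fun {t t'} ⟨u, hu⟩ ⟨u', hu'⟩ => ⟨u * u', fun k x => by
    rw [Module.End.mul_apply, hu, hu', Pi.mul_apply, MulMemClass.coe_mul, Module.End.mul_apply]⟩

variable {S}

/-- the twisted representations, as one over the product -/
abbrev rhoB (R₀ : GalQ →* M2 (TL s O LD S)) : GalQ →* M2 (κ → TL s O LD S) :=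
  twistedRep (fun k => ((cs k).chi).comp (cycU M)) R₀

end LevelRho

end FLTAgent.R2

end
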