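import Fermat.Agent.R2.EvalWp
import Fermat.Agent.R2.LevelLoc
import Fermat.Agent.R2.LevelRhoBase

/-!
Area R2, parcel G3: the twist of a class to the lattice and `WX`, at an exact prime `p` of `N0`.

With `M₀ = (N0 / p) R²` the twist of `WX z` is `∏ ψ i p` times the involution of `Γ₀(M₀ p)` applied
to the twist of `z`, and a class new at `p` twists to a vector with vanishing sums at `p`.
-/

set_option autoImplicit false
set_option linter.style.haveILetI false
set_option linter.unusedSectionVars false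

noncomputable section

open scoped MatrixGroups TensorProduct
open Matrix CongruenceSubgroup IsLocalRing

namespace FLTAgent.R2.Lv

open FLTAgent.LL FLTAgent.R2.Coh

theorem gl_one_of_dvd {M M' q : ℕ} [NeZero M] [NeZero M'] (hM : M' ∣ M) (hq : q ∣ M')
    (hqM : q ∣ M) {g : GL (Fin 2) (ZMod M)} (hg : gl hM g = 1) (a b : Fin 2) :
    ZMod.castHom hqM (ZMod q) (g.1 a b) = (1 : Matrix (Fin 2) (Fin 2) (ZMod q)) a b := by
  obtain ⟨k, hk⟩ := ZMod.intCast_surjective (g.1 a b)
  have h1 : ZMod.castHom hM (ZMod M') (g.1 a b) =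
      (1 : Matrix (Fin 2) (Fin 2) (ZMod M')) a b :=
    congrArg (fun u : GL (Fin 2) (ZMod M') => u.1 a b) hg
  rw [← hk, map_intCast] at h1
  have h2 := congrArg (ZMod.castHom hq (ZMod q)) h1
  rw [map_intCast, Matrix.one_apply, apply_ite (ZMod.castHom hq (ZMod q)), _root_.map_one,
    _root_.map_zero] at h2
  rw [← hk, map_intCast, h2, Matrix.one_apply]

namespace Exact

variable {M r p : ℕ} [NeZero M] {D : AuxData M r} (x : Exact D p)

/-- the level without `p` -/
abbrev lev : ℕ := x.b * D.tw.R ^ 2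

theorem R_dvd_lev : D.tw.R ∣ x.lev := (dvd_pow_self D.tw.R two_ne_zero).mul_left _

theorem lev_mul : x.lev * p = D.N0 * D.tw.R ^ 2 := by rw [lev, x.eq]; ring

instance neZero_b : NeZero x.b := ⟨fun h => NeZero.ne x.M' (Nat.eq_zero_of_zero_dvd (h ▸ x.b_dvd))⟩

theorem not_dvd_lev : ¬ p ∣ x.lev := by
  intro h
  rcases x.split.prime.dvd_mul.1 h with h | h
  · exact (x.split.prime.coprime_iff_not_dvd.1 x.cop) h
  · obtain ⟨i, -, hi⟩ := (x.split.prime.prime.dvd_finsetProd_iff _).1
      (x.split.prime.dvd_of_dvd_pow h)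
    exact x.ne_Q i ((Nat.prime_dvd_prime_iff_eq x.split.prime (D.prime i)).1 hi).symm

theorem conjHom_mem_stab_low [NeZero D.tw.R] (γ : Gamma0 x.lev) :
    conjHom x.R_dvd_lev γ ∈ stab M (x.low.tw.basePD 1) :=
  x.low.tw.conj_mem_stab (L := x.lev) rfl 1 γ

theorem fac_low (A : Type*) [CommRing A] : Fac x.split (funRep A x.low.tw.PD (M := M)) := by
  intro g hg
  refine LinearMap.ext fun F => funext fun z => ?_
  rw [funRep_apply, Module.End.one_apply]
  refine congrArg F (inv_smul_eq_iff.2 (Prod.ext (Prod.ext ?_ (funext fun i => ?_))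
    (Subsingleton.elim (α := x.low.tw.Del) _ _)).symm)
  · exact smul_p1_of_gl_one x.split.dvd' x.b_dvd hg z.1.1
  · show g • z.1.2 i = z.1.2 i
    obtain ⟨k, hk⟩ := QuotientGroup.mk_surjective (z.1.2 i)
    rw [← hk, MulAction.Quotient.smul_mk, QuotientGroup.eq, smul_eq_mul]
    have e : gl x.split.dvd' ((g * k)⁻¹ * k) = 1 := by
      rw [_root_.map_mul, _root_.map_inv, _root_.map_mul, hg, one_mul, inv_mul_cancel]
    have e' := fun a b => gl_one_of_dvd x.split.dvd' (x.Q_dvd i) (D.dvd i) e a b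
    exact ⟨(e' 1 0).trans (Matrix.one_apply_ne (by decide)),
      (e' 0 1).trans (Matrix.one_apply_ne (by decide))⟩

theorem smul_basePD_low [NeZero p] [NeZero D.tw.R] (g : GL (Fin 2) (ZMod M))
    (hg : gl x.split.dvd' g = redGL x.M' (mStar x.lev p D.tw.R).adjugate) :
    g • x.low.tw.basePD 1 = x.low.tw.basePD 1 := by
  have hdet := det_mStar x.split x.R_dvd_lev x.not_dvd_lev
  have hu : IsUnit (((mStar x.lev p D.tw.R).adjugate.det : ℤ) : ZMod x.M') :=
    isUnit_det_adjugate (isUnit_det_of_coprime hdet x.split.coprime)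
  have he : ∀ a b, ZMod.castHom x.split.dvd' (ZMod x.M') (g.1 a b) =
      (((mStar x.lev p D.tw.R).adjugate a b : ℤ) : ZMod x.M') := fun a b => by
    have e := congrArg (fun u : GL (Fin 2) (ZMod x.M') => u.1 a b) hg
    rw [coe_redGL x.M' hu] at e
    exact e
  have hq : ∀ {q : ℕ} (h : q ∣ x.M') (a b : Fin 2),
      (q : ℤ) ∣ (mStar x.lev p D.tw.R).adjugate a b →
      ZMod.castHom (h.trans x.split.dvd') (ZMod q) (g.1 a b) = 0 := by
    intro q h a b hd
    rw [← RingHom.ext_zmod ((ZMod.castHom h (ZMod q)).comp (ZMod.castHom x.split.dvd' (ZMod x.M')))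
      (ZMod.castHom (h.trans x.split.dvd') (ZMod q)), RingHom.comp_apply, he, map_intCast,
      ZMod.intCast_zmod_eq_zero_iff_dvd]
    exact hd
  have hdiv : x.lev / D.tw.R = x.b * D.tw.R := by
    rw [lev, pow_two, ← mul_assoc, Nat.mul_div_cancel _ (Nat.pos_of_ne_zero (NeZero.ne D.tw.R))]
  have h10 : (mStar x.lev p D.tw.R).adjugate 1 0 = -(((x.b * D.tw.R : ℕ) : ℤ) * p) := by
    rw [Matrix.adjugate_fin_two]
    simp [mStar, hdiv]
  have h01 : (mStar x.lev p D.tw.R).adjugate 0 1 = -((D.tw.R : ℤ) * LR.byy x.lev p) := by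
    rw [Matrix.adjugate_fin_two]
    simp [mStar]
  refine Prod.ext (Prod.ext ?_ (funext fun i => ?_)) (Subsingleton.elim (α := x.low.tw.Del) _ _)
  · show g • P1.base M x.b = P1.base M x.b
    rw [P1.smul_base_eq]
    haveI : NeZero x.b := x.neZero_b
    obtain ⟨k, hk⟩ := ZMod.intCast_surjective (g.1 1 0)
    rw [mem_B0_iff_int (x.b_dvd.trans x.split.dvd') hk]
    have e := hq x.b_dvd 1 0 (by
      rw [h10, Nat.cast_mul]; exact ((dvd_mul_right _ _).mul_right _).neg_right)
    rwa [← hk, map_intCast, ZMod.intCast_zmod_eq_zero_iff_dvd] at e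
  · show g • (QuotientGroup.mk 1 : GL (Fin 2) (ZMod M) ⧸ x.low.tw.CQ i) = QuotientGroup.mk 1
    rw [MulAction.Quotient.smul_mk, QuotientGroup.eq, smul_eq_mul, mul_one, mul_one]
    refine inv_mem ⟨?_, ?_⟩
    · exact hq (x.Q_dvd i) 1 0 (by
        rw [h10, Nat.cast_mul]
        exact ((dvd_mul_of_dvd_right (Int.natCast_dvd_natCast.2 (D.tw.Q_dvd_R i)) _).mul_right
          _).neg_right)
    · exact hq (x.Q_dvd i) 0 1 (by
        rw [h01]
        exact ((Int.natCast_dvd_natCast.2 (D.tw.Q_dvd_R i)).mul_right _).neg_right)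

/-- a unit congruent to `p` modulo `M'` and to one modulo `p` -/
theorem exists_unitP : ∃ u : (ZMod M)ˣ,
    ZMod.castHom x.split.dvd' (ZMod x.M') (u : ZMod M) = (p : ZMod x.M') ∧
      ZMod.castHom x.split.dvdP (ZMod p) (u : ZMod M) = 1 := by
  have hd : (!![(p : ℤ), 0; 0, 1] : Matrix (Fin 2) (Fin 2) ℤ).det = p := by
    simp [Matrix.det_fin_two_of]
  obtain ⟨g, hg1, hg2⟩ := x.split.exists_gl_pair 1 (redGL x.M' !![(p : ℤ), 0; 0, 1])
  refine ⟨Matrix.GeneralLinearGroup.det g, ?_, ?_⟩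
  · rw [Matrix.GeneralLinearGroup.val_det_apply, RingHom.map_det]
    show (gl x.split.dvd' g).1.det = _
    rw [hg2, coe_redGL x.M' (by rw [hd]; exact x.split.isUnit_cast)]
    simp [Matrix.det_fin_two]
  · rw [Matrix.GeneralLinearGroup.val_det_apply, RingHom.map_det]
    show (gl x.split.dvdP g).1.det = _
    rw [hg1, Units.val_one, Matrix.det_one]

variable {A : Type} [CommRing A] (c : D.Choice A)

/-- the scalar by which the twist changes `WX` -/
def chiP (p : ℕ) : A := ∏ i, c.ψ i (p : ZMod (D.Q i))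

include x in
theorem chiP_unit : IsUnit (chiP c p) :=
  Finset.prod_induction _ IsUnit (fun _ _ => IsUnit.mul) isUnit_one fun i _ => IsUnit.map (c.ψ i) (by
    haveI := D.fact_prime i
    refine (ZMod.isUnit_iff_coprime _ _).mpr ?_
    exact (Nat.coprime_primes x.split.prime (D.prime i)).2 fun h => x.ne_Q i h.symm)

/-- the same characters at the lower level -/
def lowChoice : x.low.Choice A := ⟨c.ψ, c.sq, c.adm⟩

theorem chi_unitP {u : (ZMod M)ˣ}
    (hu : ZMod.castHom x.split.dvd' (ZMod x.M') (u : ZMod M) = (p : ZMod x.M')) :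
    (x.lowChoice c).chi u = chiP c p := by
  show (∏ i, c.ψ i (ZMod.unitsMap (D.dvd i) u : ZMod (D.Q i))) = chiP c p
  refine Finset.prod_congr rfl fun i _ => congrArg (c.ψ i) ?_
  show ZMod.castHom (D.dvd i) (ZMod (D.Q i)) (u : ZMod M) = _
  rw [← RingHom.ext_zmod ((ZMod.castHom (x.Q_dvd i) (ZMod (D.Q i))).comp
    (ZMod.castHom x.split.dvd' (ZMod x.M'))) (ZMod.castHom (D.dvd i) (ZMod (D.Q i))),
    RingHom.comp_apply, hu, map_natCast]

variable [NeZero p] [NeZero D.tw.R]

/-- the twist on the lines at `p`, evaluated at the base point -/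
def evalX : H1 (funRep A D.X (M := M)) →ₗ[A] LR.HomG (x.lev * p) A :=
  haveI : NeZero x.lev := ⟨mul_ne_zero (NeZero.ne x.b) (pow_ne_zero 2 (NeZero.ne D.tw.R))⟩
  evalP x.split x.R_dvd_lev (x.low.tw.basePD 1) x.conjHom_mem_stab_low x.not_dvd_lev ∘ₗ
    map (isTwist_postcomp_twist (x.lowRep A) (x.lowChoice c).isTwist) ∘ₗ x.toLine A

theorem equivX_base (a : P1 M p) (y : x.low.X) :
    (x.equivX.symm (a, y)).1 = P1.base M D.N0 ↔ a = P1.base M p ∧ y.1 = P1.base M x.b := by
  set w := x.equivX.symm (a, y) with hw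
  have e : x.equivX w = (a, y) := x.equivX.apply_symm_apply (a, y)
  have e1 : (p1Prod x.eq w.1).1 = a := congrArg Prod.fst e
  have e2 : (p1Prod x.eq w.1).2 = y.1 := congrArg (fun z => z.2.1) e
  constructor
  · intro h
    rw [h] at e1 e2
    exact ⟨e1.symm, e2.symm⟩
  · rintro ⟨rfl, h⟩
    exact (p1Prod_bijective D.dvd0 x.eq x.cop).1 (Prod.ext e1 (e2.trans h))

/-- `evalX` is the twist of the level at `Γ₀(N0 R²)` -/
theorem evalX_eq (z : H1 (funRep A D.X (M := M))) :
    x.evalX c z = D.tw.evalPD A (L := x.lev * p) x.lev_mul 1 (map c.isTwist z) := by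
  classical
  haveI : NeZero x.lev := ⟨mul_ne_zero (NeZero.ne x.b) (pow_ne_zero 2 (NeZero.ne D.tw.R))⟩
  obtain ⟨f, rfl⟩ := Submodule.mkQ_surjective _ z
  refine AddMonoidHom.ext fun a => ?_
  obtain ⟨γ, rfl⟩ := Additive.ofMul.surjective a
  show (x.lowChoice c).Φ (fun y => f.1 (conjHom _ γ) (x.equivX.symm (P1.base M p, y)))
      (x.low.tw.basePD 1) = c.Φ (f.1 (conjHom _ γ)) (D.tw.basePD 1)
  rw [AuxData.Choice.Φ, AuxData.Choice.Φ, funKer_apply, funKer_apply]
  refine Eq.trans ?_ (Equiv.sum_comp x.equivX.symm _)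
  rw [Fintype.sum_prod_type, Finset.sum_eq_single (P1.base M p)]
  · refine Finset.sum_congr rfl fun y _ => ?_
    refine congrArg (· * _) (congrArg₂ (· * ·) (if_congr ?_ rfl rfl) rfl)
    show P1.base M x.b = y.1 ↔ P1.base M D.N0 = _
    rw [eq_comm (a := P1.base M D.N0), x.equivX_base]
    exact ⟨fun h => ⟨rfl, h.symm⟩, fun h => h.2.symm⟩
  · intro a _ ha
    refine Finset.sum_eq_zero fun y _ => ?_
    rw [AuxData.Choice.ker, if_neg, zero_mul, zero_mul]
    exact fun h => ha ((x.equivX_base a y).1 h.symm).1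
  · exact fun h => absurd (Finset.mem_univ _) h

/-- the twist turns `WX` into `chiP` times the involution -/
theorem evalX_WX (z : H1 (funRep A D.X (M := M))) :
    x.evalX c (x.WX A z) =
      chiP c p • LR.Wop x.split.prime x.not_dvd_lev (x.evalX c z) := by
  haveI : NeZero x.lev := ⟨mul_ne_zero (NeZero.ne x.b) (pow_ne_zero 2 (NeZero.ne D.tw.R))⟩
  obtain ⟨u, hu', hu⟩ := x.exists_unitP
  simp only [evalX, WX, LinearMap.comp_apply]
  rw [x.toLine_ofLine A, map_Wp x.split (x.lowRep A) (x.fac A) (x.fac_low A)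
    (x.lowChoice c).isTwist u hu' hu, _root_.map_smul,
    evalP_Wp x.split x.R_dvd_lev (x.low.tw.basePD 1) x.conjHom_mem_stab_low x.not_dvd_lev
      (x.fac_low A) x.smul_basePD_low, x.chi_unitP c hu']

theorem map_pushPt_postcomp {V V' : Type*} [AddCommGroup V] [Module A V] [AddCommGroup V']
    [Module A V'] {τ : Representation A (GL (Fin 2) (ZMod M)) V}
    {τ' : Representation A (GL (Fin 2) (ZMod M)) V'} {χ : (ZMod M)ˣ →* A} {Φ : V →ₗ[A] V'}
    (hΦ : IsTwist τ τ' χ Φ) (y : H1 (pRep (p := p) τ)) :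
    map (isTwist_pushPt τ') (map (isTwist_postcomp_twist τ hΦ) y) =
      map hΦ (map (isTwist_pushPt τ) y) := by
  classical
  haveI : Fintype (P1 M p) := Fintype.ofFinite _
  obtain ⟨f, rfl⟩ := Submodule.mkQ_surjective _ y
  simp only [map_mk]
  refine congrArg (H1.mk τ') (Subtype.ext (funext fun g => ?_))
  simp only [mapZ_apply, pushPt_apply, _root_.map_sum]
  rfl

/-- both traces of the twist of a class new at `p` vanish -/
theorem be1_evalX {z : H1 (funRep A D.X (M := M))} (h : x.NewAt A z) :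
    LR.be1 x.split.prime x.not_dvd_lev (x.evalX c z) = 0 ∧
      LR.be1 x.split.prime x.not_dvd_lev (LR.Wop x.split.prime x.not_dvd_lev (x.evalX c z)) = 0 := by
  haveI : NeZero x.lev := ⟨mul_ne_zero (NeZero.ne x.b) (pow_ne_zero 2 (NeZero.ne D.tw.R))⟩
  have h1 : map (isTwist_pushPt (x.lowRep A)) (x.toLine A z) = 0 := h.1
  have h2 : map (isTwist_pushPt (x.lowRep A)) (Wp x.split (x.lowRep A) (x.fac A) (x.toLine A z)) =
      0 := by
    have e := h.2
    rw [pushX, WX, LinearMap.comp_apply, LinearMap.comp_apply, LinearMap.comp_apply,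
      x.toLine_ofLine A] at e
    exact e
  obtain ⟨u, hu', hu⟩ := x.exists_unitP
  constructor
  · rw [evalX, LinearMap.comp_apply, LinearMap.comp_apply, be1_evalP,
      map_pushPt_postcomp (x.lowChoice c).isTwist, h1, _root_.map_zero, _root_.map_zero]
  · rw [evalX, LinearMap.comp_apply, LinearMap.comp_apply, ← evalP_Wp x.split x.R_dvd_lev
      (x.low.tw.basePD 1) x.conjHom_mem_stab_low x.not_dvd_lev (x.fac_low A) x.smul_basePD_low,
      be1_evalP]
    have e := map_Wp x.split (x.lowRep A) (x.fac A) (x.fac_low A) (x.lowChoice c).isTwist u hu' hu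
      (x.toLine A z)
    have e2 := congrArg (map (isTwist_pushPt (p := p) (funRep A x.low.tw.PD (M := M)))) e
    rw [map_pushPt_postcomp (x.lowChoice c).isTwist, h2, _root_.map_zero, _root_.map_smul,
      x.chi_unitP c hu'] at e2
    rw [(IsUnit.smul_eq_zero (x.chiP_unit c)).1 e2.symm, _root_.map_zero]

/-- a class new at `p` twists to vanishing sums at `p` -/
theorem sumsZero_evalX {z : H1 (funRep A D.X (M := M))} (h : x.NewAt A z) :
    SumsZero x.lev p (x.evalX c z) :=
  haveI : NeZero x.lev := ⟨mul_ne_zero (NeZero.ne x.b) (pow_ne_zero 2 (NeZero.ne D.tw.R))⟩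
  sumsZero_of_be x.split.prime x.not_dvd_lev _ (x.be1_evalX c h).1 (x.be1_evalX c h).2

section Lattice

variable [IsDomain A] [CharZero A] [IsLocalRing A] [IsNoetherianRing A]
  [IsAdicComplete (maximalIdeal A) A] [NeZero (x.lev * p)] (s : Sys M A)
  (hL : x.lev * p = D.N0 * D.tw.R ^ 2) (hχ : ∀ a, c.chi a - 1 ∈ maximalIdeal A)

theorem lamCast_toLam (z : s.E (funRep A D.X (M := M))) :
    lamCast A (x.lev * p) (c.toLam s hL hχ z) = x.evalX c z.1 :=
  (AuxData.lamCast_toLamE s hL _).trans (x.evalX_eq c z.1).symm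

/-- the twist of `WX z` in the lattice -/
theorem lamCast_toLam_WX (z z' : s.E (funRep A D.X (M := M))) (hz : z'.1 = x.WX A z.1) :
    lamCast A (x.lev * p) (c.toLam s hL hχ z') =
      chiP c p • LR.Wop x.split.prime x.not_dvd_lev
        (lamCast A (x.lev * p) (c.toLam s hL hχ z)) := by
  rw [x.lamCast_toLam c s hL hχ, x.lamCast_toLam c s hL hχ, hz, x.evalX_WX]

/-- a class new at `p` gives a vector with vanishing sums -/
theorem sumsZero_toLam {z : s.E (funRep A D.X (M := M))} (h : x.NewAt A z.1) :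
    SumsZero x.lev p (lamCast A (x.lev * p) (c.toLam s hL hχ z)) := by
  rw [x.lamCast_toLam c s hL hχ]
  exact x.sumsZero_evalX c h

end Lattice

section Ext

variable {A' : Type} [CommRing A'] [Algebra A A'] [IsLocalRing A] [IsLocalRing A']

/-- the classes with extended scalars -/
abbrev extX : H1 (funRep A D.X (M := M)) →ₗ[A] H1 (funRep A' D.X (M := M)) :=
  extH _ (isTwist_funExt (M := M) A A' D.X)

/-- the lower classes with extended scalars -/
abbrev extLow : H1 (x.lowRep A) →ₗ[A] H1 (x.lowRep A') :=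
  extH _ (isTwist_funExt (M := M) A A' x.low.X)

theorem extX_pushX (z : H1 (funRep A D.X (M := M))) :
    x.pushX A' (extX (A' := A') z) = x.extLow (x.pushX A z) := by
  classical
  haveI : Fintype (P1 M p) := Fintype.ofFinite _
  obtain ⟨f, rfl⟩ := Submodule.mkQ_surjective _ z
  refine congrArg (H1.mk (x.lowRep A')) (Subtype.ext (funext fun g => funext fun y => ?_))
  show pushPt (A := A') (fun a w => algebraMap A A' (f.1 g (x.equivX.symm (a, w)))) y =
    algebraMap A A' (pushPt (A := A) (fun a w => f.1 g (x.equivX.symm (a, w))) y)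
  simp only [pushPt_apply, Finset.sum_apply, _root_.map_sum]

theorem extX_WX (z : H1 (funRep A D.X (M := M))) :
    x.WX A' (extX (A' := A') z) = extX (A' := A') (x.WX A z) := by
  classical
  obtain ⟨f, rfl⟩ := Submodule.mkQ_surjective _ z
  simp only [WX, LinearMap.comp_apply, Wp_eq]
  refine congrArg (H1.mk (funRep A' D.X (M := M))) (Subtype.ext (funext fun g => funext fun w => ?_))
  show (∑ i, kerW x.split (x.lowRep A') _ (fun a y => algebraMap A A' (f.1 _ _)))
      (x.equivX w).1 (x.equivX w).2 =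
    algebraMap A A' ((∑ i, kerW x.split (x.lowRep A) _ (fun a y => f.1 _ _))
      (x.equivX w).1 (x.equivX w).2)
  simp only [Finset.sum_apply, _root_.map_sum, kerW_apply]
  refine Finset.sum_congr rfl fun i _ => ?_
  split_ifs
  · rfl
  · rw [Pi.zero_apply, Pi.zero_apply, _root_.map_zero]

theorem newAt_extX {z : H1 (funRep A D.X (M := M))} (h : x.NewAt A z) :
    x.NewAt A' (extX (A' := A') z) := by
  refine ⟨?_, ?_⟩
  · rw [x.extX_pushX, h.1, _root_.map_zero]
  · rw [x.extX_WX, x.extX_pushX, h.2, _root_.map_zero]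

end Ext

section Twist

variable {O : Type} [CommRing O] [IsDomain O] [IsDiscreteValuationRing O]
  [IsAdicComplete (maximalIdeal O) O] [Finite (ResidueField O)] [CharZero O] [Algebra ℤ_[2] O]
  [Module.Finite ℤ_[2] O] [IsLocalHom (algebraMap ℤ_[2] O)]
  [NeZero (x.lev * p)] (s : Sys M ℤ_[2]) (hL : x.lev * p = D.N0 * D.tw.R ^ 2)
  (LD : JTors.LatticeData (x.lev * p)) (c : D.Choice O) (hχ : ∀ a, c.chi a - 1 ∈ maximalIdeal O)

/-- a class new at `p` twists to a vector with vanishing sums -/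
theorem sumsZero_twist {z : LevelRho.Mod D s} (h : x.NewAt ℤ_[2] z.1) :
    SumsZero x.lev p (lamCast O (x.lev * p)
      (LevelRho.twist s O hL LD c hχ z : O ⊗[ℤ] JTors.Lam (x.lev * p))) :=
  x.sumsZero_toLam c (sysMap O s) hL hχ (z := LevelRho.extE D s O z) (x.newAt_extX h)

/-- both traces of the twist of a class new at `p` vanish -/
theorem be1_twist {z : LevelRho.Mod D s} (h : x.NewAt ℤ_[2] z.1) :
    LR.be1 x.split.prime x.not_dvd_lev (lamCast O (x.lev * p)
        (LevelRho.twist s O hL LD c hχ z : O ⊗[ℤ] JTors.Lam (x.lev * p))) = 0 ∧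
      LR.be1 x.split.prime x.not_dvd_lev (LR.Wop x.split.prime x.not_dvd_lev
        (lamCast O (x.lev * p)
          (LevelRho.twist s O hL LD c hχ z : O ⊗[ℤ] JTors.Lam (x.lev * p)))) = 0 := by
  show LR.be1 x.split.prime x.not_dvd_lev (lamCast O (x.lev * p)
      (c.toLam (sysMap O s) hL hχ (LevelRho.extE D s O z))) = 0 ∧
    LR.be1 x.split.prime x.not_dvd_lev (LR.Wop x.split.prime x.not_dvd_lev (lamCast O (x.lev * p)
      (c.toLam (sysMap O s) hL hχ (LevelRho.extE D s O z)))) = 0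
  rw [x.lamCast_toLam c (sysMap O s) hL hχ]
  exact x.be1_evalX c (x.newAt_extX (A' := O) h)

/-- the twist turns `WX` into `chiP` times the involution -/
theorem lamCast_twist_WX {z z' : LevelRho.Mod D s} (hz : z'.1 = x.WX ℤ_[2] z.1) :
    lamCast O (x.lev * p)
        (LevelRho.twist s O hL LD c hχ z' : O ⊗[ℤ] JTors.Lam (x.lev * p)) =
      chiP c p • LR.Wop x.split.prime x.not_dvd_lev (lamCast O (x.lev * p)
        (LevelRho.twist s O hL LD c hχ z : O ⊗[ℤ] JTors.Lam (x.lev * p))) :=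
  x.lamCast_toLam_WX c (sysMap O s) hL hχ (LevelRho.extE D s O z) (LevelRho.extE D s O z') <| by
    show extX (A' := O) z'.1 = x.WX O (extX (A' := O) z.1)
    rw [hz, x.extX_WX]

end Twist

end Exact

end FLTAgent.R2.Lv

end
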