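import Fermat.Agent.R2.LevelCorr
import Fermat.Agent.LR.Lattice
import Fermat.Agent.LL.TWSums
import Fermat.Agent.LL.TWMod
import Fermat.Agent.LL.TWRank

/-!
Area R2, parcel G3: `Wp` evaluated at the base point, and vanishing sums.

On `Γ₀(M₀ p)` the evaluation at `(base, z₀)` turns `Wp` into the involution and the sum along
`P¹(p)` into the trace to `Γ₀(M₀)`.  A class killed by the sum and by the sum after `Wp` therefore
has vanishing sums at `p`.
-/

set_option autoImplicit false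
set_option linter.style.haveILetI false
set_option linter.unusedSectionVars false

noncomputable section

open scoped MatrixGroups
open Matrix CongruenceSubgroup OnePoint

namespace FLTAgent.R2.Lv

open FLTAgent.LL FLTAgent.R2.Coh

section Sums

variable {N q : ℕ} [NeZero N] [NeZero q] (hq : q.Prime) (hqN : ¬ q ∣ N)

/-- `k₀` with `wQ = diag (1, q) k₀` -/
def wFac : Gamma0 N :=
  ⟨LR.sl (q * LR.bx N q) (LR.byy N q) N 1
    (by linear_combination LR.bezout_bxy N q hq hqN), LR.mem_Gamma0_iff.mpr (by simp [LR.sl])⟩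

/-- the trace after the involution as one correspondence -/
def wEpsC : LR.Corr (N * q) N (OnePoint (ZMod q)) where
  rep i := LR.wQ N q * LR.emb (LR.epsSL N q i)
  sep i j g h := by
    obtain ⟨g', hg'⟩ := LR.wQ_conj_inv hq hqN g
    refine (LR.epsC hq hqN).sep i j g' (mul_left_cancel (a := LR.wQ N q) ?_)
    show LR.wQ N q * LR.emb (LR.epsSL N q i) =
      LR.wQ N q * (LR.embG g' * LR.emb (LR.epsSL N q j))
    rw [h, ← mul_assoc, hg', mul_assoc]
  step γ i := by
    obtain ⟨j, g, hg⟩ := (LR.epsC hq hqN).step γ i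
    obtain ⟨⟨⟩, g', hg'⟩ := (LR.WC hq hqN).step g ()
    change LR.emb (LR.epsSL N q i) * _ = LR.embG g * LR.emb (LR.epsSL N q j) at hg
    change LR.wQ N q * LR.embG g = LR.embG g' * LR.wQ N q at hg'
    exact ⟨j, g', by rw [mul_assoc, hg, ← mul_assoc, hg', mul_assoc]⟩

theorem wEpsC_op {A : Type} [AddCommGroup A] (φ : LR.HomG (N * q) A) :
    (wEpsC hq hqN).op φ = LR.be1 hq hqN (LR.Wop hq hqN φ) :=
  ((LR.WC hq hqN).op_op (LR.epsC hq hqN) (wEpsC hq hqN) (Equiv.prodPUnit _) (fun _ => 1)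
    one_ne_zero (fun k _ => by
      show LR.wQ N q * LR.emb (LR.epsSL N q k) = _ * (_ * (LR.wQ N q * LR.emb (LR.epsSL N q k)))
      rw [LR.gm_id, map_one, one_mul, one_mul]) φ).symm

theorem toR_injective : Function.Injective LR.toR := fun a b h => Units.ext
  (Matrix.map_injective (algebraMap ℚ ℝ).injective (congrArg Units.val h))

include hq hqN in
/-- both traces vanishing gives vanishing sums -/
theorem sumsZero_of_be {A : Type} [CommRing A] (φ : LR.HomG (N * q) A)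
    (h1 : LR.be1 hq hqN φ = 0) (h2 : LR.be1 hq hqN (LR.Wop hq hqN φ) = 0) :
    SumsZero N q φ := by
  haveI : Fact q.Prime := ⟨hq⟩
  refine ⟨OnePoint (ZMod q), inferInstance, fun i => LR.epsG i,
    fun i => wFac hq hqN * LR.epsG i, fun i j hij => ?_, fun i j hij => ?_, ?_,
    fun γ σ g hg => ?_, fun γ σ g hg => ?_⟩
  · exact LR.eps_sep hq hqN ((Int.natCast_dvd_natCast.mpr (dvd_mul_left q N)).trans
      (LR.mem_Gamma0_iff.mp hij))
  · refine LR.eps_sep hq hqN ?_
    set X := LR.epsSL N q i * (LR.epsSL N q j)⁻¹ with hX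
    set k0 := (wFac hq hqN : SL(2, ℤ)) with hk0
    have e : ((wFac hq hqN * LR.epsG i : Gamma0 N) : SL(2, ℤ)) *
        ((wFac hq hqN * LR.epsG j : Gamma0 N) : SL(2, ℤ))⁻¹ = k0 * X * k0⁻¹ := by
      simp only [Subgroup.coe_mul, hX, k0, _root_.mul_inv_rev, mul_assoc]
      rfl
    rw [e] at hij
    have hb := LR.bezout_bxy N q hq hqN
    have hy : IsCoprime (q : ℤ) (LR.byy N q) :=
      ⟨LR.bx N q, -(N : ℤ), by linear_combination hb⟩
    have e01 : ∀ Y : SL(2, ℤ), (k0 * Y * k0⁻¹) 0 1 =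
        (q : ℤ) * LR.bx N q * (-(LR.byy N q) * Y 0 0 + q * LR.bx N q * Y 0 1) +
          LR.byy N q * (-(LR.byy N q) * Y 1 0 + q * LR.bx N q * Y 1 1) := fun Y => by
      simp only [LR.mul_apply_SL, Matrix.SpecialLinearGroup.coe_inv, Matrix.adjugate_fin_two]
      simp [k0, wFac, LR.sl]
      ring
    rw [e01 X] at hij
    obtain ⟨t, ht⟩ := hij
    refine hy.dvd_of_dvd_mul_left (hy.dvd_of_dvd_mul_left
      ⟨LR.bx N q * (-(LR.byy N q) * X 0 0 + q * LR.bx N q * X 0 1) +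
        LR.byy N q * LR.bx N q * X 1 1 - t, ?_⟩)
    linear_combination -ht
  · rw [JTors.dedekindPsi_mul_prime hq N (NeZero.ne N)]
    rw [if_neg hqN, show Fintype.card (OnePoint (ZMod q)) = q + 1 from
      (Fintype.card_option (α := ZMod q)).trans (by rw [ZMod.card]), mul_comm]
  · have e := DFunLike.congr_fun h1 (Additive.ofMul γ)
    refine Eq.trans (Eq.symm ?_) e
    exact (LR.epsC hq hqN).op_apply (fun i => by
      show LR.emb _ * LR.emb _ = LR.emb _ * LR.emb _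
      rw [← map_mul, ← map_mul]
      exact congrArg _ (hg i)) φ
  · have e := DFunLike.congr_fun ((wEpsC_op hq hqN φ).trans h2) (Additive.ofMul γ)
    refine Eq.trans (Eq.symm ?_) e
    have hw : LR.toR (LR.wQ N q) =
        ModularForm.heckeMatrix q 0 *
          Matrix.SpecialLinearGroup.mapGL ℝ (wFac hq hqN : SL(2, ℤ)) := by
      refine Units.ext ?_
      rw [LR.wQ, LR.toR_gm (by rw [LR.det_wQ hq hqN]; exact Nat.cast_ne_zero.mpr hq.ne_zero),
        Units.val_mul, ModularForm.val_heckeMatrix hq.ne_zero,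
        show ((Matrix.SpecialLinearGroup.mapGL ℝ (wFac hq hqN : SL(2, ℤ)) : GL (Fin 2) ℝ) :
            Matrix (Fin 2) (Fin 2) ℝ) = (wFac hq hqN : SL(2, ℤ)).1.map (Int.cast : ℤ → ℝ) from rfl]
      ext a b
      fin_cases a <;> fin_cases b <;>
        simp [wFac, LR.sl, Matrix.mul_apply, Fin.sum_univ_two, mul_comm]
    refine (wEpsC hq hqN).op_apply (σ := σ) (g := g) (fun i => toR_injective ?_) φ
    show LR.toR (LR.wQ N q * LR.emb (LR.epsSL N q i) * LR.emb (γ : SL(2, ℤ))) =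
      LR.toR (LR.emb (g i : SL(2, ℤ)) * (LR.wQ N q * LR.emb (LR.epsSL N q (σ i))))
    have h := hg i
    simp only [Subgroup.coe_mul, map_mul] at h
    simp only [map_mul, LR.toR_emb, hw]
    simp only [mul_assoc] at h ⊢
    exact h

end Sums

section Eval

variable {M p M' M₀ R : ℕ} [NeZero M] [NeZero M'] [NeZero M₀] [NeZero p] [NeZero R]
  (h : Split M p M') {A : Type} [CommRing A] {Z : Type} [MulAction (GL (Fin 2) (ZMod M)) Z]

/-- functions on `P¹(p)` with values in functions are functions of the pairs -/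
def uncurryP : (P1 M p → Z → A) →ₗ[A] (P1 M p × Z → A) where
  toFun F w := F w.1 w.2
  map_add' _ _ := rfl
  map_smul' _ _ := rfl

theorem isTwist_uncurryP :
    IsTwist (pRep (p := p) (funRep A Z (M := M))) (funRep A (P1 M p × Z) (M := M)) 1
      (uncurryP (M := M) (p := p) (A := A) (Z := Z)) := fun g F => by
  rw [MonoidHom.one_apply, one_smul]
  rfl

variable (hR : R ∣ M₀) (z₀ : Z) (hst : ∀ γ : Gamma0 M₀, conjHom hR γ ∈ stab M z₀)

include h hst in
theorem conjHom_mem_stab_pair (hp : ¬ p ∣ M₀) (γ : Gamma0 (M₀ * p)) :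
    conjHom (hR.trans (dvd_mul_right M₀ p)) γ ∈ stab M ((P1.base M p, z₀) : P1 M p × Z) := by
  have h1 : conjHom (hR.trans (dvd_mul_right M₀ p)) γ ∈ stab M z₀ :=
    hst ⟨γ, LR.Gamma0_le_of_dvd (dvd_mul_right M₀ p) γ.2⟩
  have h2 : conjHom (hR.trans (dvd_mul_right M₀ p)) γ ∈ stab M (P1.base M p) := by
    refine Gamma0_le_stab M p (LR.mem_Gamma0_iff.mpr ?_)
    have hpR : ¬ (p : ℤ) ∣ (R : ℤ) := fun hd => hp ((Int.natCast_dvd_natCast.mp hd).trans hR)
    have hd : (p : ℤ) ∣ (γ : SL(2, ℤ)).1 1 0 :=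
      (Int.natCast_dvd_natCast.mpr (dvd_mul_left p M₀)).trans (LR.mem_Gamma0_iff.mp γ.2)
    rw [← Int.ediv_mul_cancel (dvd_gamma0 (hR.trans (dvd_mul_right M₀ p)) γ)] at hd
    exact ((Nat.prime_iff_prime_int.mp h.prime).dvd_or_dvd hd).resolve_right hpR
  rw [mem_stab] at h1 h2 ⊢
  exact Prod.ext h2 h1

/-- evaluation at `(base, z₀)` -/
def evalP (hp : ¬ p ∣ M₀) :
    H1 (pRep (p := p) (funRep A Z (M := M))) →ₗ[A] LR.HomG (M₀ * p) A :=
  evalConj A (hR.trans (dvd_mul_right M₀ p)) ((P1.base M p, z₀) : P1 M p × Z)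
    (conjHom_mem_stab_pair h hR z₀ hst hp) ∘ₗ map isTwist_uncurryP

variable (hp : ¬ p ∣ M₀)

theorem evalP_mk (f : Z1 (pRep (p := p) (funRep A Z (M := M)))) (γ : Gamma0 (M₀ * p)) :
    evalP h hR z₀ hst hp (H1.mk (pRep (p := p) (funRep A Z (M := M))) f) (Additive.ofMul γ) =
      f.1 (conjHom (hR.trans (dvd_mul_right M₀ p)) γ) (P1.base M p) z₀ := rfl

/-- `diag (R, 1) W diag (R, 1)⁻¹` for the involution `W` of `Γ₀(M₀ p)` -/
def mStar (M₀ p R : ℕ) : Matrix (Fin 2) (Fin 2) ℤ :=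
  !![(p : ℤ) * LR.bx M₀ p, (R : ℤ) * LR.byy M₀ p; ((M₀ / R : ℕ) : ℤ) * p, (p : ℤ)]

include h hR hp in
theorem det_mStar : (mStar M₀ p R).det = p := by
  obtain ⟨k, hk⟩ := hR
  have hd : M₀ / R = k := by rw [hk, Nat.mul_div_cancel_left k (Nat.pos_of_ne_zero (NeZero.ne R))]
  rw [mStar, Matrix.det_fin_two_of, hd]
  have hb := LR.bezout_bxy M₀ p h.prime hp
  have hk' : (M₀ : ℤ) = R * k := by exact_mod_cast hk
  linear_combination (p : ℤ) * hb + (p : ℤ) * LR.byy M₀ p * hk'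

theorem exists_colP_base :
    ∃ c : ZMod p, c ≠ 0 ∧ colP h.dvdP (P1.base M p) = c • ![1, 0] := by
  haveI : Fact p.Prime := ⟨h.prime⟩
  obtain ⟨c, hc, e⟩ := exists_colP h.dvdP (1 : GL (Fin 2) (ZMod M))
  refine ⟨c, hc, e.trans (congrArg (c • ·) (funext fun a => ?_))⟩
  rw [map_one]
  fin_cases a <;> simp

include hR hp in
theorem kerPt_mStar : kerPt h.dvdP (mStar M₀ p R) = P1.base M p ∧
    imPt h.dvdP (mStar M₀ p R) = P1.base M p := by
  haveI : Fact p.Prime := ⟨h.prime⟩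
  obtain ⟨c, -, hc⟩ := exists_colP_base h
  have hm := rkOne_of_det (det_mStar h hR hp) dvd_rfl (not_sq_dvd h.prime)
  constructor
  · rw [hm.kerPt_eq_iff, hc, Matrix.mulVec_smul]
    refine smul_eq_zero_of_right c (funext fun a => ?_)
    fin_cases a <;> simp [modP, mStar, Matrix.mulVec, dotProduct, Fin.sum_univ_two]
  · rw [imPt_eq_kerPt h.dvdP hm, hm.adjugate.kerPt_eq_iff, hc, Matrix.mulVec_smul]
    refine smul_eq_zero_of_right c (funext fun a => ?_)
    fin_cases a <;>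
      simp [modP, mStar, Matrix.adjugate_fin_two, Matrix.mulVec, dotProduct, Fin.sum_univ_two]

/-- `Wp` is the involution at the base point -/
theorem evalP_Wp (hτ : Fac h (funRep A Z (M := M)))
    (hz : ∀ g : GL (Fin 2) (ZMod M),
      gl h.dvd' g = redGL M' (mStar M₀ p R).adjugate → g • z₀ = z₀)
    (y : H1 (pRep (p := p) (funRep A Z (M := M)))) :
    evalP h hR z₀ hst hp (Wp h _ hτ y) = LR.Wop h.prime hp (evalP h hR z₀ hst hp y) := by
  classical
  haveI : Fact p.Prime := ⟨h.prime⟩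
  obtain ⟨f, rfl⟩ := Submodule.mkQ_surjective _ y
  refine AddMonoidHom.ext fun a => ?_
  obtain ⟨γ, rfl⟩ := Additive.ofMul.surjective a
  set hR' := hR.trans (dvd_mul_right M₀ p)
  obtain ⟨i₀, u, hu⟩ := (stdReps p).exists_rep (mStar M₀ p R) (det_mStar h hR hp)
  have hR0 : RkOne p ((stdReps p).rep i₀) :=
    rkOne_of_det ((stdReps p).det_rep i₀) dvd_rfl (not_sq_dvd h.prime)
  obtain ⟨hker, him⟩ := kerPt_mStar h hR hp
  rw [hu, kerPt_mul_left h.dvdP hR0 (isUnit_det_coe p u)] at hker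
  rw [hu, imPt_mul_left h.dvdP hR0 (adjOf_red h.dvdP u), inv_smul_eq_iff] at him
  have hpt : (adU h ((stdReps p).rep i₀))⁻¹ • z₀ = red M u⁻¹ • z₀ := by
    rw [inv_smul_eq_iff, ← mul_smul]
    refine (hz _ ?_).symm
    rw [_root_.map_mul, (adU_spec h _).1, gl_red h.dvd', hu, redGL_adjugate_mul
      (isUnit_det_coe M' u) (isUnit_det_of_coprime ((stdReps p).det_rep i₀) h.coprime),
      redGL_adjugate_coe]
  -- the multiplier
  have hr := (LR.WC h.prime hp).rel_mult γ ()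
  set g' := (LR.WC h.prime hp).mult γ () with hg'
  change LR.wQ M₀ p * LR.embG γ = LR.embG g' * LR.wQ M₀ p at hr
  let Wi : Matrix (Fin 2) (Fin 2) ℤ :=
    !![(p : ℤ) * LR.bx M₀ p, LR.byy M₀ p; ((M₀ * p : ℕ) : ℤ), (p : ℤ)]
  have hint : Wi * ((γ : SL(2, ℤ)) : Matrix (Fin 2) (Fin 2) ℤ) =
      ((g' : SL(2, ℤ)) : Matrix (Fin 2) (Fin 2) ℤ) * Wi := by
    refine Matrix.map_injective (Int.cast_injective (α := ℚ)) ?_
    have e := congrArg Units.val hr
    rw [Units.val_mul, Units.val_mul, LR.wQ, LR.val_gm (by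
      rw [LR.det_wQ h.prime hp]; exact Nat.cast_ne_zero.mpr h.prime.ne_zero)] at e
    have hW : Wi.map (Int.cast : ℤ → ℚ) = !![((p * LR.bx M₀ p : ℤ) : ℚ), (LR.byy M₀ p : ℚ);
        ((M₀ * p : ℕ) : ℚ), (p : ℚ)] := by
      ext a b
      fin_cases a <;> fin_cases b <;> simp [Wi]
    show (Int.castRingHom ℚ).mapMatrix _ = (Int.castRingHom ℚ).mapMatrix _
    rw [_root_.map_mul, _root_.map_mul]
    show Wi.map (Int.cast : ℤ → ℚ) * _ = _ * Wi.map (Int.cast : ℤ → ℚ)
    rw [hW]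
    exact e
  have hmW : mStar M₀ p R * alphaMat R = alphaMat R * Wi := by
    obtain ⟨k, hk⟩ := hR
    have hd : M₀ / R = k := by
      rw [hk, Nat.mul_div_cancel_left k (Nat.pos_of_ne_zero (NeZero.ne R))]
    have hk' : (M₀ : ℤ) = R * k := by exact_mod_cast hk
    ext a b
    fin_cases a <;> fin_cases b <;>
      simp [mStar, alphaMat, Wi, hd, hk', Matrix.mul_apply, Fin.sum_univ_two] <;> ring
  have hconj : mStar M₀ p R * (conjHom hR' γ : Matrix (Fin 2) (Fin 2) ℤ) =
      (conjHom hR' g' : Matrix (Fin 2) (Fin 2) ℤ) * mStar M₀ p R := by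
    refine eq_of_mul_alphaMat (NeZero.ne R) ?_
    rw [mul_assoc, conjHom_mul_alphaMat, ← mul_assoc, hmW, mul_assoc, hint, ← mul_assoc,
      ← conjHom_mul_alphaMat, mul_assoc, ← hmW, ← mul_assoc]
  have helt : (stdReps p).elt (conjHom hR' γ) i₀ = u⁻¹ * conjHom hR' g' * u := by
    refine ((stdReps p).elt_idx_eq (j := i₀) ?_).1
    rw [hu, mul_assoc] at hconj
    have h2 := congrArg ((((u⁻¹ : SL(2, ℤ)) : Matrix (Fin 2) (Fin 2) ℤ)) * ·) hconj
    simp only [← mul_assoc] at h2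
    rw [← Matrix.SpecialLinearGroup.coe_mul, inv_mul_cancel, Matrix.SpecialLinearGroup.coe_one,
      one_mul] at h2
    rw [h2, Matrix.SpecialLinearGroup.coe_mul, Matrix.SpecialLinearGroup.coe_mul]
  set pt : P1 M p × Z := (P1.base M p, z₀) with hptd
  have hh : (red M (conjHom hR' g'))⁻¹ • pt = pt :=
    inv_smul_of_mem_stab (conjHom_mem_stab_pair h hR z₀ hst hp g')
  -- the value
  set G := mapZ (isTwist_uncurryP (M := M) (p := p) (A := A) (Z := Z)) f with hG
  have hGa : ∀ (g : SL(2, ℤ)) (w : P1 M p × Z), G.1 g w = f.1 g w.1 w.2 := fun g w => rfl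
  have hGm : ∀ (g g₂ : SL(2, ℤ)) (w : P1 M p × Z),
      G.1 (g * g₂) w = G.1 g w + G.1 g₂ ((red M g)⁻¹ • w) := fun g g₂ w =>
    congrFun (Z1_apply_mul (funRep A (P1 M p × Z) (M := M)) G.2 g g₂) w
  rw [LR.Wop]
  rw [(LR.WC h.prime hp).op_apply ((LR.WC h.prime hp).rel_mult γ), Fintype.sum_unique,
    Wp_eq h _ hτ, opH_mk, evalP_mk]
  show _ = f.1 (conjHom hR' g') (P1.base M p) z₀
  rw [opZ_apply, Finset.sum_apply, Finset.sum_apply, Finset.sum_eq_single i₀]
  · show kerW h _ ((stdReps p).rep i₀) (f.1 ((stdReps p).elt (conjHom hR' γ) i₀)) _ z₀ = _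
    rw [kerW_apply, if_pos hker, funRep_apply, hpt, him, helt,
      show f.1 (u⁻¹ * conjHom hR' g' * u) (red M u⁻¹ • P1.base M p) (red M u⁻¹ • z₀)
        = G.1 (u⁻¹ * (conjHom hR' g' * u)) (red M u⁻¹ • pt) from by rw [mul_assoc, hGa]; rfl,
      show f.1 (conjHom hR' g') (P1.base M p) z₀ = G.1 (conjHom hR' g') pt from rfl,
      hGm, inv_smul_smul, hGm, hh]
    have h0 := hGm u⁻¹ u (red M u⁻¹ • pt)
    rw [inv_smul_smul, inv_mul_cancel, Z1_apply_one _ G.2, Pi.zero_apply] at h0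
    linear_combination -h0
  · intro i _ hi
    show kerW h (funRep A Z (M := M)) ((stdReps p).rep i)
      (f.1 ((stdReps p).elt (conjHom hR' γ) i)) (P1.base M p) z₀ = 0
    rw [kerW_apply, if_neg fun e => hi ((kerPt_stdMat_bijective h.dvdP).1 (e.trans hker.symm)),
      Pi.zero_apply]
  · intro hi
    exact absurd (Finset.mem_univ _) hi

/-- evaluation at `z₀` -/
def evalD : H1 (funRep A Z (M := M)) →ₗ[A] LR.HomG M₀ A := evalConj A hR z₀ hst

/-- the trace to `Γ₀(M₀)` is the sum along `P¹(p)` -/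
theorem be1_evalP (y : H1 (pRep (p := p) (funRep A Z (M := M)))) :
    LR.be1 h.prime hp (evalP h hR z₀ hst hp y) =
      evalD hR z₀ hst (map (isTwist_pushPt (funRep A Z (M := M))) y) := by
  classical
  haveI : Fact p.Prime := ⟨h.prime⟩
  haveI : Fintype (P1 M p) := Fintype.ofEquiv _ (Equiv.ofBijective _
    (kerPt_stdMat_bijective (p := p) h.dvdP))
  obtain ⟨f, rfl⟩ := Submodule.mkQ_surjective _ y
  refine AddMonoidHom.ext fun a => ?_
  obtain ⟨γ, rfl⟩ := Additive.ofMul.surjective a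
  set hR' := hR.trans (dvd_mul_right M₀ p)
  have hr := (LR.epsC h.prime hp).rel_mult γ
  set σ := (LR.epsC h.prime hp).perm γ
  set g := (LR.epsC h.prime hp).mult γ
  let k : OnePoint (ZMod p) → SL(2, ℤ) := fun i => conjHom hR (LR.epsG i)
  have hg : ∀ i, k i * conjHom hR γ = conjHom hR' (g i) * k (σ i) := by
    intro i
    have e : (LR.epsG i : Gamma0 M₀) * γ =
        (⟨g i, LR.Gamma0_le_of_dvd (dvd_mul_right M₀ p) (g i).2⟩ : Gamma0 M₀) *
          LR.epsG (σ i) := by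
      refine LR.embG_injective ?_
      rw [_root_.map_mul, _root_.map_mul]
      exact hr i
    have e2 := congrArg (conjHom hR) e
    rw [_root_.map_mul, _root_.map_mul] at e2
    exact e2
  have hbij : Function.Bijective fun i => (red M (k i))⁻¹ • P1.base M p := by
    rw [Fintype.bijective_iff_injective_and_card]
    refine ⟨fun i j e => LR.eps_sep h.prime hp ?_, ?_⟩
    · have hs : k i * (k j)⁻¹ ∈ stab M (P1.base M p) := by
        rw [mem_stab, _root_.map_mul, _root_.map_inv, mul_smul]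
        exact (congrArg (red M (k i) • ·) e).symm.trans (smul_inv_smul _ _)
      have h10 := LR.mem_Gamma0_iff.mp ((stab_base (M := M) h.dvdP).le hs)
      rw [show k i * (k j)⁻¹ = conjHom hR (LR.epsG i * (LR.epsG j)⁻¹) by
        rw [_root_.map_mul, _root_.map_inv]] at h10
      have h2 := Int.ediv_mul_cancel (dvd_gamma0 hR (LR.epsG i * (LR.epsG j)⁻¹ : Gamma0 M₀))
      exact h2 ▸ h10.mul_right _
    · exact Fintype.card_congr (Equiv.ofBijective _
        (kerPt_stdMat_bijective (M := M) (p := p) h.dvdP))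
  set pt : P1 M p × Z := (P1.base M p, z₀)
  obtain ⟨e, -⟩ := sum_transfer (mapZ (isTwist_uncurryP (M := M) (p := p) (A := A) (Z := Z)) f)
    pt k (conjHom hR γ) σ (fun i => conjHom hR' (g i)) hg
    fun i => conjHom_mem_stab_pair h hR z₀ hst hp (g i)
  show (LR.epsC h.prime hp).op _ _ = _
  rw [(LR.epsC h.prime hp).op_apply hr, map_mk, evalD, evalConj_mk, mapZ_apply, pushPt_apply,
    Finset.sum_apply, ← Fintype.sum_bijective _ hbij _ _ fun i => rfl]
  refine e.trans (Finset.sum_congr rfl fun i _ => ?_)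
  show f.1 (conjHom hR γ) ((red M (k i))⁻¹ • P1.base M p) ((red M (k i))⁻¹ • z₀) = _
  rw [inv_smul_of_mem_stab (hst (LR.epsG i))]

/-- a class killed by both sums has vanishing sums -/
theorem sumsZero_evalP (hτ : Fac h (funRep A Z (M := M)))
    (hz : ∀ g : GL (Fin 2) (ZMod M),
      gl h.dvd' g = redGL M' (mStar M₀ p R).adjugate → g • z₀ = z₀)
    (y : H1 (pRep (p := p) (funRep A Z (M := M))))
    (h1 : map (isTwist_pushPt (funRep A Z (M := M))) y = 0)
    (h2 : map (isTwist_pushPt (funRep A Z (M := M))) (Wp h _ hτ y) = 0) :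
    SumsZero M₀ p (evalP h hR z₀ hst hp y) := by
  refine sumsZero_of_be h.prime hp _ ?_ ?_
  · rw [be1_evalP, h1, _root_.map_zero]
  · rw [← evalP_Wp h hR z₀ hst hp hτ hz, be1_evalP, h2, _root_.map_zero]

end Eval

end FLTAgent.R2.Lv

end
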