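import Fermat.Agent.R2.CohFree

/-!
Area R2, parcel JOIN: maps of cohomology along additive maps of coefficients (the rings may differ),
lifting along them, boundary values of `T l - (1 + l)` for `l ≡ 1 (mod M)`.
-/

set_option autoImplicit false
set_option linter.style.haveILetI false
set_option linter.unusedSectionVars false

noncomputable section

open scoped MatrixGroups
open Matrix

namespace FLTAgent.R2.Join

open FLTAgent.LL

variable {M : ℕ} [NeZero M]
variable {A : Type*} [CommRing A] {V : Type*} [AddCommGroup V] [Module A V]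
  {ρ : Representation A (GL (Fin 2) (ZMod M)) V}
variable {A' : Type*} [CommRing A'] {V' : Type*} [AddCommGroup V'] [Module A' V']
  {ρ' : Representation A' (GL (Fin 2) (ZMod M)) V'}

variable (ρ ρ') in
/-- an additive map commuting with the action -/
structure AddEquiv' (Ψ : V →+ V') : Prop where
  comm : ∀ g v, Ψ (ρ g v) = ρ' g (Ψ v)

variable {Ψ : V →+ V'}

/-- crossed homomorphisms along an additive map -/
def mapZ' (h : AddEquiv' ρ ρ' Ψ) : Z1 ρ →+ Z1 ρ' :=
  AddMonoidHom.mk' (fun f => ⟨fun g => Ψ (f.1 g), fun g g' => by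
      show Ψ (f.1 (g * g')) = Ψ (f.1 g) + ρ' (red M g) (Ψ (f.1 g'))
      rw [f.2 g g', _root_.map_add, h.comm]⟩)
    fun f f' => Subtype.ext (funext fun g => _root_.map_add Ψ _ _)

theorem mapZ'_apply (h : AddEquiv' ρ ρ' Ψ) (f : Z1 ρ) (g : SL(2, ℤ)) :
    (mapZ' h f).1 g = Ψ (f.1 g) := rfl

theorem mapZ'_coboundary (h : AddEquiv' ρ ρ' Ψ) (v : V) :
    mapZ' h (coboundary ρ v) = coboundary ρ' (Ψ v) := by
  refine Subtype.ext (funext fun g => ?_)
  rw [mapZ'_apply, coboundary_apply, coboundary_apply, map_sub, h.comm]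

/-- classes along an additive map -/
def mapH' (h : AddEquiv' ρ ρ' Ψ) : H1 ρ →+ H1 ρ' :=
  QuotientAddGroup.lift (B1 ρ).toAddSubgroup ((H1.mk ρ').toAddMonoidHom.comp (mapZ' h)) (by
    rintro _ ⟨v, rfl⟩
    rw [AddMonoidHom.mem_ker, AddMonoidHom.comp_apply, mapZ'_coboundary]
    exact (Submodule.Quotient.mk_eq_zero _).2 ⟨_, rfl⟩)

theorem mapH'_mk (h : AddEquiv' ρ ρ' Ψ) (f : Z1 ρ) :
    mapH' h (H1.mk ρ f) = H1.mk ρ' (mapZ' h f) := rfl

theorem mapH'_T (h : AddEquiv' ρ ρ' Ψ) {l : ℕ} (hl : l.Prime) (hlM : ¬ l ∣ M) (x : H1 ρ) :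
    mapH' h (T ρ hl hlM x) = T ρ' hl hlM (mapH' h x) := by
  haveI : Fact l.Prime := ⟨hl⟩
  obtain ⟨f, rfl⟩ := Submodule.Quotient.mk_surjective _ x
  change mapH' h (heckeH ρ (stdReps l) _ (H1.mk ρ f)) =
    heckeH ρ' (stdReps l) _ (mapH' h (H1.mk ρ f))
  rw [heckeH_mk, mapH'_mk, mapH'_mk, heckeH_mk]
  congr 1
  refine Subtype.ext (funext fun g => ?_)
  rw [mapZ'_apply, heckeZ_apply, heckeZ_apply, map_sum]
  exact Finset.sum_congr rfl fun i _ => h.comm _ _

/-- scalars go along an additive map if they do on the coefficients -/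
theorem mapH'_smul (h : AddEquiv' ρ ρ' Ψ) {c : A} {c' : A'} (hc : ∀ v, Ψ (c • v) = c' • Ψ v)
    (x : H1 ρ) : mapH' h (c • x) = c' • mapH' h x := by
  obtain ⟨f, rfl⟩ := Submodule.Quotient.mk_surjective _ x
  change mapH' h (c • H1.mk ρ f) = c' • mapH' h (H1.mk ρ f)
  rw [← map_smul, mapH'_mk, mapH'_mk, ← map_smul]
  congr 1
  exact Subtype.ext (funext fun g => hc _)

/-- a crossed homomorphism with values in the image lifts, if `S` has a splitting there -/
theorem exists_lift (h : AddEquiv' ρ ρ' Ψ) (hneg : ρ (red M (-1)) = 1) (h3 : IsUnit (3 : A))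
    (e : V → V) (he : ∀ v, Ψ (e v) + Ψ (ρ (red M ModularGroup.S) (e (ρ (red M ModularGroup.S) v))) = Ψ v)
    (hs : ∀ (c : A) (v : V), Ψ v = 0 → Ψ (c • v) = 0)
    (hk : ∀ v w, Ψ v = Ψ w → Ψ (e v) = Ψ (e w)) (hen : ∀ v, Ψ (e (-v)) = -Ψ (e v))
    (f' : Z1 ρ') (h1 : f'.1 (-1) = 0) (hrange : ∀ g, ∃ v, Ψ v = f'.1 g) :
    ∃ f : Z1 ρ, mapZ' h f = f' := by
  set S' := ρ (red M ModularGroup.S) with hS'
  set U' := ρ (red M Periods.eltU) with hU'
  obtain ⟨a0, ha0⟩ := hrange ModularGroup.S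
  obtain ⟨b0, hb0⟩ := hrange Periods.eltU
  obtain ⟨i3, hi3⟩ := h3.exists_left_inv
  have hSS : ∀ v, S' (S' v) = v := Coh.S_S hneg
  set a := e a0 - S' (e a0)
  have ha : a + S' a = 0 := by
    simp only [a, map_sub, hSS]
    abel
  have hΨa : Ψ a = f'.1 ModularGroup.S := by
    have e0 := Z1_apply_mul ρ' f'.2 ModularGroup.S ModularGroup.S
    rw [Periods.S_mul_S, h1] at e0
    have e1 : Ψ (S' a0) = Ψ (-a0) := by
      rw [hS', h.comm, map_neg, ha0]
      exact eq_neg_of_add_eq_zero_right e0.symm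
    have e2 : Ψ (S' (e (S' a0))) = -Ψ (S' (e a0)) := by
      rw [hS', h.comm, hk _ _ e1, hen, map_neg, ← h.comm]
    have e3 := he a0
    rw [e2, ha0] at e3
    rw [map_sub, sub_eq_add_neg, e3]
  set k := b0 + U' b0 + U' (U' b0) with hkdef
  have hΨk : Ψ k = 0 := by
    have e0 := Z1_apply_mul ρ' f'.2 Periods.eltU (Periods.eltU * Periods.eltU)
    rw [Periods.eltU_pow_three, h1, Z1_apply_mul ρ' f'.2, _root_.map_add] at e0
    simp only [k, U', _root_.map_add, h.comm, hb0]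
    rw [add_assoc]
    exact e0.symm
  have hUk : U' k = k := by
    simp only [k, U', _root_.map_add, Coh.U_U_U hneg]
    abel
  set b := b0 - i3 • k with hbdef
  have hb : b + U' b + U' (U' b) = 0 := by
    have e3 : i3 • k + i3 • k + i3 • k = k := by
      rw [← add_smul, ← add_smul, show i3 + i3 + i3 = i3 * 3 by ring, hi3, one_smul]
    rw [hbdef, map_sub, map_sub, map_smul, map_smul, hUk, hUk]
    linear_combination (norm := abel) hkdef.symm - e3
  have hΨb : Ψ b = f'.1 Periods.eltU := by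
    rw [hbdef, map_sub, hs _ _ hΨk, sub_zero, hb0]
  obtain ⟨f, hfS, hfU⟩ := exists_Z1 hneg a b ha hb
  exact ⟨f, Z1_ext (by rw [mapZ'_apply, hfS, hΨa]) (by rw [mapZ'_apply, hfU, hΨb])⟩

/-- on the torsion free coefficients every crossed homomorphism vanishes at `-1` -/
theorem apply_neg_one (hneg : ρ (red M (-1)) = 1) (htf : ∀ v : V, v + v = 0 → v = 0) (f : Z1 ρ) :
    f.1 (-1) = 0 := by
  have h := Z1_apply_mul ρ f.2 (-1) (-1)
  rw [hneg, Module.End.one_apply, neg_mul_neg, one_mul, Z1_apply_one ρ f.2] at h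
  exact htf _ h.symm

/-- a torsion class is killed by `T l - (1 + l)` -/
theorem T_sub_eq_zero {l : ℕ} (hl : l.Prime) (hlM : ¬ l ∣ M) (hl1 : (l : ZMod M) = 1) {c : A}
    (hc : ∀ v : V, c • v = 0 → v = 0) {x : H1 ρ} (hx : c • x = 0) :
    T ρ hl hlM x = ((1 + l : ℕ) : A) • x := by
  haveI : Fact l.Prime := ⟨hl⟩
  haveI : NeZero l := ⟨hl.ne_zero⟩
  have hn : l.Coprime M := (hl.coprime_iff_not_dvd).mpr hlM
  obtain ⟨f, rfl⟩ := Submodule.Quotient.mk_surjective _ x
  obtain ⟨v, hv⟩ := (Submodule.Quotient.mk_eq_zero (B1 ρ)).1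
    (show Submodule.Quotient.mk (c • f) = 0 from hx)
  have hv' : ∀ γ, ρ (red M γ) v - v = c • f.1 γ := fun γ => congrFun (congrArg Subtype.val hv) γ
  set R := stdReps l
  have hdet : ∀ i, Matrix.GeneralLinearGroup.det (R.adjRed M i) = 1 := fun i => by
    ext
    rw [Matrix.GeneralLinearGroup.val_det_apply, Reps.adjRed,
      coe_redGL M (R.isUnit_det_adjugate hn i)]
    have e := (RingHom.map_det (Int.castRingHom (ZMod M)) (R.rep i).adjugate).symm
    rw [Matrix.det_adjugate, R.det_rep] at e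
    simpa [hl1] using e
  choose γ hγ using fun i => exists_red_eq (hdet i)
  refine (Submodule.Quotient.eq _).2 ⟨∑ i, f.1 (γ i), Subtype.ext (funext fun g => ?_)⟩
  refine sub_eq_zero.1 (hc _ ?_)
  have key : ∀ i, ρ (R.adjRed M i) v = v + c • f.1 (γ i) := fun i => by
    rw [← hγ, ← hv', add_sub_cancel]
  have h1 : c • (heckeZ ρ R hn f).1 g =
      ρ (red M g) (∑ i, ρ (R.adjRed M i) v) - ∑ i, ρ (R.adjRed M i) v := by
    rw [← Pi.smul_apply, ← Submodule.coe_smul, ← map_smul]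
    have e : c • f = coboundary ρ v := hv.symm
    rw [e, heckeZ_coboundary, coboundary_apply]
  have hsum : ∑ i, ρ (R.adjRed M i) v = ((1 + l : ℕ) : A) • v + c • ∑ i, f.1 (γ i) := by
    rw [Finset.sum_congr rfl fun i _ => key i, Finset.sum_add_distrib, Finset.sum_const,
      Finset.card_univ, Fintype.card_option, ZMod.card, ← Nat.cast_smul_eq_nsmul A,
      ← Finset.smul_sum, add_comm l 1]
  rw [hsum, _root_.map_add, map_smul, map_smul] at h1
  simp only [Submodule.coe_sub, Submodule.coe_smul, Pi.sub_apply, Pi.smul_apply, coboundary_apply,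
    smul_sub, smul_comm c ((1 + l : ℕ) : A)]
  change _ - (c • (heckeZ ρ R hn f).1 g - _) = 0
  rw [h1, ← hv' g, smul_sub]
  abel

/-- `T l - (1 + l)` kills the values at the cusps -/
theorem exists_apply_eq_sub {l : ℕ} (hl : l.Prime) (hlM : ¬ l ∣ M) (hl1 : (l : ZMod M) = 1)
    (hneg : ρ (red M (-1)) = 1) (htf : ∀ v : V, v + v = 0 → v = 0) (g : Z1 ρ) (γ : SL(2, ℤ))
    (htr : (γ : Matrix (Fin 2) (Fin 2) ℤ).trace ^ 2 = 4) :
    haveI : Fact l.Prime := ⟨hl⟩
    ∃ v : V, (heckeZ ρ (stdReps l) ((hl.coprime_iff_not_dvd).mpr hlM) g).1 γ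
      - ((1 + l : ℕ) : A) • g.1 γ = ρ (red M γ) v - v := by
  classical
  haveI : Fact l.Prime := ⟨hl⟩
  haveI : NeZero l := ⟨hl.ne_zero⟩
  have hn : l.Coprime M := (hl.coprime_iff_not_dvd).mpr hlM
  set R := stdReps l
  set f : Z1 ρ := heckeZ ρ R hn g - ((1 + l : ℕ) : A) • g with hf
  change ∃ v, f.1 γ = _
  have helt := elt_T (l := l)
  have hadj : ∀ i, (i = none ∨ i = some (-1)) → R.adjRed M i = 1 :=
    fun i hi => adjRed_eq_one hn hl1 i hi
  have hT : (heckeZ ρ R hn g).1 ModularGroup.T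
      = g.1 (ModularGroup.T ^ (l : ℤ)) + g.1 ModularGroup.T := by
    rw [heckeZ_apply, Fintype.sum_option, helt, if_pos rfl, hadj none (Or.inl rfl), map_one,
      Module.End.one_apply]
    congr 1
    rw [Finset.sum_eq_single (-1 : ZMod l)]
    · rw [helt, if_neg (Option.some_ne_none _), if_pos rfl, hadj _ (Or.inr rfl), map_one,
        Module.End.one_apply]
    · intro b _ hb
      rw [helt, if_neg (Option.some_ne_none _), if_neg (by simpa using hb), Z1_apply_one ρ g.2,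
        map_zero]
    · exact fun h => absurd (Finset.mem_univ _) h
  have hpow : ∀ k : ℕ, ∃ w, g.1 (ModularGroup.T ^ (k : ℤ))
      - (k : A) • g.1 ModularGroup.T = ρ (red M ModularGroup.T) w - w := by
    intro k
    induction k with
    | zero => exact ⟨0, by simp [Z1_apply_one ρ g.2]⟩
    | succ k ih =>
      obtain ⟨w, hw⟩ := ih
      refine ⟨g.1 (ModularGroup.T ^ (k : ℤ)) + w, ?_⟩
      rw [Nat.cast_succ, Nat.cast_succ, add_comm (k : ℤ) 1, _root_.zpow_add, zpow_one,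
        Z1_apply_mul ρ g.2, add_smul, one_smul, _root_.map_add]
      linear_combination (norm := abel) hw
  obtain ⟨w, hw⟩ := hpow l
  have hfT : f.1 ModularGroup.T = ρ (red M ModularGroup.T) w - w := by
    rw [hf, Submodule.coe_sub, Submodule.coe_smul, Pi.sub_apply, Pi.smul_apply, hT, Nat.cast_add,
      Nat.cast_one, add_smul, one_smul]
    linear_combination (norm := abel) hw
  let K : Subgroup SL(2, ℤ) :=
    { carrier := {x | f.1 x = ρ (red M x) w - w}
      one_mem' := by simp [Z1_apply_one ρ f.2]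
      mul_mem' := fun {a b} (ha : f.1 a = _) (hb : f.1 b = _) => by
        show f.1 (a * b) = _
        rw [Z1_apply_mul ρ f.2, ha, hb, map_mul, map_mul, Module.End.mul_apply, map_sub]
        abel
      inv_mem' := fun {a} (ha : f.1 a = _) => by
        show f.1 a⁻¹ = _
        rw [Z1_apply_inv ρ f.2, ha, map_sub, ← Module.End.mul_apply, ← map_mul, ← map_mul,
          inv_mul_cancel, map_one, map_one, Module.End.one_apply]
        abel }
  have hconj : ∀ (δ : SL(2, ℤ)) (m : ℤ), ∃ v,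
      f.1 (δ * ModularGroup.T ^ m * δ⁻¹) = ρ (red M (δ * ModularGroup.T ^ m * δ⁻¹)) v - v := by
    intro δ m
    refine ⟨ρ (red M δ) w - f.1 δ, ?_⟩
    have hd : ρ (red M δ⁻¹) (ρ (red M δ) w) = w := by
      rw [← Module.End.mul_apply, ← map_mul, ← map_mul, inv_mul_cancel, map_one, map_one]
      rfl
    rw [Z1_apply_mul ρ f.2, Z1_apply_mul ρ f.2, Z1_apply_inv ρ f.2,
      (K.zpow_mem hfT m : f.1 (ModularGroup.T ^ m) = _)]
    simp only [map_mul, Module.End.mul_apply, map_sub, map_neg, hd]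
    abel
  obtain ⟨δ, m, rfl | rfl⟩ := Periods.exists_conj_T_zpow htr
  · exact hconj δ m
  · obtain ⟨v, hv⟩ := hconj δ m
    refine ⟨v, ?_⟩
    rw [← neg_one_mul (δ * ModularGroup.T ^ m * δ⁻¹), Z1_apply_mul ρ f.2,
      apply_neg_one hneg htf f, zero_add, map_mul (red M), map_mul ρ, hneg, one_mul,
      Module.End.one_apply]
    exact hv

/-- an eigenclass with eigenvalue away from `1 + l` vanishes at `-1` -/
theorem apply_neg_one_of_eigen {l : ℕ} (hl : l.Prime) (hlM : ¬ l ∣ M) (hl1 : (l : ZMod M) = 1)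
    (hneg : ρ (red M (-1)) = 1) {c : A} (hc : IsUnit (c - ((1 + l : ℕ) : A))) (f : Z1 ρ)
    (hf : T ρ hl hlM (H1.mk ρ f) = c • H1.mk ρ f) : f.1 (-1) = 0 := by
  haveI : Fact l.Prime := ⟨hl⟩
  haveI : NeZero l := ⟨hl.ne_zero⟩
  have hn : l.Coprime M := (hl.coprime_iff_not_dvd).mpr hlM
  obtain ⟨v, hv⟩ := (Submodule.Quotient.eq _).1
    (show Submodule.Quotient.mk (heckeZ ρ (stdReps l) hn f) = Submodule.Quotient.mk (c • f) from hf)
  have hv' : (heckeZ ρ (stdReps l) hn f).1 (-1) - c • f.1 (-1) = ρ (red M (-1)) v - v :=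
    (congrArg (fun F : Z1 ρ => F.1 (-1)) hv).symm
  rw [hneg, Module.End.one_apply, sub_self] at hv'
  have hinv : f.1 (-1) ∈ inv ρ := fun γ => by
    have e1 := Z1_apply_mul ρ f.2 γ (-1)
    have e2 := Z1_apply_mul ρ f.2 (-1) γ
    rw [mul_neg_one, ← neg_one_mul, e2, hneg, Module.End.one_apply, add_comm] at e1
    exact (add_left_cancel e1).symm
  have helt : ∀ i, (stdReps l).elt (-1) i = -1 := fun i =>
    ((stdReps l).elt_idx_eq (g := -1) (γ := -1) (i := i) (j := i)
      (by simp [Matrix.SpecialLinearGroup.coe_neg])).1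
  rw [heckeZ_apply, Finset.sum_congr rfl fun i _ => by rw [helt], sum_adjRed_inv hl1 hinv,
    ← sub_smul] at hv'
  have := neg_eq_zero.2 hv'
  rw [← neg_smul, neg_sub, add_comm l 1] at this
  exact (hc.smul_eq_zero).mp this

end FLTAgent.R2.Join

end
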