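import Fermat.Agent.R2.JoinSat

/-!
Area R2, parcel JOIN: classes with values in functions of `P¹(ℤ/M)` modulo `2 ^ n` and the functions
of the lower levels come from two-adic classes; what is lost is `2 ^ n` times a class and the classes
of the lower levels, and torsion modulo those is killed by `T l - (1 + l)`.
-/

set_option autoImplicit false
set_option linter.style.haveILetI false
set_option linter.unusedSectionVars false
set_option synthInstance.maxHeartbeats 200000

noncomputable section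

open scoped MatrixGroups
open Matrix

namespace FLTAgent.R2.Join

open FLTAgent.LL

local instance factPrimeTwo : Fact (Nat.Prime 2) := ⟨Nat.prime_two⟩

/-- the two-adic integers -/
abbrev Z2 : Type := ℤ_[2]

variable {M : ℕ} [NeZero M] {ι : Type} (n : ℕ) (d : ι → ℕ) (hd : ∀ i, d i ∣ M)

/-- reduction -/
abbrev red2 : Z2 →+* ZMod (2 ^ n) := PadicInt.toZModPow n

theorem red2_surjective : Function.Surjective (red2 n) :=
  ZMod.ringHom_surjective _

theorem red2_eq_zero_iff (x : Z2) : red2 n x = 0 ↔ (2 : Z2) ^ n ∣ x := by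
  rw [← RingHom.mem_ker, PadicInt.ker_toZModPow, Ideal.mem_span_singleton]
  norm_num

variable (M) in
/-- two-adic functions -/
abbrev zRep (N : ℕ) : Representation Z2 (GL (Fin 2) (ZMod M)) (P1 M N → Z2) :=
  funRep Z2 (P1 M N) (M := M)

/-- functions modulo `2 ^ n` and the lower levels -/
abbrev botOf : Representation (ZMod (2 ^ n)) (GL (Fin 2) (ZMod M))
    ((P1 M M → ZMod (2 ^ n)) ⧸ oldFun (ZMod (2 ^ n)) d hd) :=
  (funRep (ZMod (2 ^ n)) (P1 M M) (M := M)).quotient (oldFun (ZMod (2 ^ n)) d hd)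
    (oldFun_stable (ZMod (2 ^ n)) d hd)

/-- two-adic functions modulo the lower levels -/
abbrev qRep : Representation Z2 (GL (Fin 2) (ZMod M)) ((P1 M M → Z2) ⧸ oldFun Z2 d hd) :=
  (zRep M M).quotient (oldFun Z2 d hd) (oldFun_stable Z2 d hd)

/-- reduction of functions modulo the lower levels -/
def pi : (P1 M M → Z2) →+ (P1 M M → ZMod (2 ^ n)) ⧸ oldFun (ZMod (2 ^ n)) d hd :=
  (Submodule.mkQ (oldFun (ZMod (2 ^ n)) d hd)).toAddMonoidHom.comp
    ((red2 n).toAddMonoidHom.compLeft (P1 M M))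

theorem pi_apply (F : P1 M M → Z2) :
    pi n d hd F = Submodule.Quotient.mk fun x => red2 n (F x) := rfl

theorem pi_eq_zero_iff (F : P1 M M → Z2) :
    pi n d hd F = 0 ↔ (fun x => red2 n (F x)) ∈ oldFun (ZMod (2 ^ n)) d hd :=
  Submodule.Quotient.mk_eq_zero _

theorem pi_smul (c : Z2) (F : P1 M M → Z2) : pi n d hd (c • F) = red2 n c • pi n d hd F := by
  rw [pi_apply, pi_apply, ← Submodule.Quotient.mk_smul]
  congr 1
  funext x
  simp

theorem pi_surjective : Function.Surjective (pi n d hd) := fun y => by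
  obtain ⟨F, rfl⟩ := Submodule.Quotient.mk_surjective _ y
  choose G hG using fun x => red2_surjective n (F x)
  exact ⟨G, by rw [pi_apply]; exact congrArg _ (funext hG)⟩

theorem pi_comm : AddEquiv' (zRep M M) (botOf n d hd) (pi n d hd) :=
  ⟨fun _ _ => rfl⟩

/-- the classes of `H¹` modulo `2 ^ n` of the class -/
def piH : H1 (zRep M M) →+ H1 (botOf n d hd) := mapH' (pi_comm n d hd)

theorem piH_T {l : ℕ} (hl : l.Prime) (hlM : ¬ l ∣ M) (x : H1 (zRep M M)) :
    piH n d hd (T (zRep M M) hl hlM x) = T (botOf n d hd) hl hlM (piH n d hd x) :=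
  mapH'_T _ hl hlM x

theorem piH_smul (c : Z2) (x : H1 (zRep M M)) :
    piH n d hd (c • x) = red2 n c • piH n d hd x :=
  mapH'_smul _ (pi_smul n d hd c) x

theorem zRep_neg_one (N : ℕ) : zRep M N (red M (-1)) = 1 :=
  funRep_neg_one P1.red_neg_one_smul

theorem zRep_add_self {N : ℕ} (v : P1 M N → Z2) (h : v + v = 0) : v = 0 := funext fun x => by
  have h' : (2 : Z2) * v x = 0 := by rw [two_mul]; exact congrFun h x
  exact (mul_eq_zero.1 h').resolve_left two_ne_zero

theorem isUnit_three_Z2 : IsUnit (3 : Z2) :=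
  Coh.isUnit_three (by
    rw [PadicInt.maximalIdeal_eq_span_p, Ideal.mem_span_singleton]
    norm_num)

theorem botOf_neg_one : botOf n d hd (red M (-1)) = 1 := by
  refine LinearMap.ext fun v => ?_
  obtain ⟨F, rfl⟩ := pi_surjective n d hd v
  rw [← (pi_comm n d hd).comm, zRep_neg_one]
  rfl

variable [Fintype ι] {r : ℕ} (hr : r.Prime) (hr4 : r % 4 = 3) (hrd : ∀ i, r ∣ d i)
  (hrM : r ∣ M)

include hr hr4 hrd hrM in
/-- an eigenclass with eigenvalue away from `1 + l` lifts -/
theorem exists_piH_eq {l : ℕ} (hl : l.Prime) (hlM : ¬ l ∣ M) (hl1 : (l : ZMod M) = 1)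
    {c : ZMod (2 ^ n)} (hc : IsUnit (c - ((1 + l : ℕ) : ZMod (2 ^ n))))
    {x : H1 (botOf n d hd)} (hx : T (botOf n d hd) hl hlM x = c • x) :
    ∃ h : H1 (zRep M M), piH n d hd h = x := by
  obtain ⟨f, rfl⟩ := Submodule.Quotient.mk_surjective _ x
  obtain ⟨u, hu⟩ := exists_indicator Z2 hr hr4 hrM
  have h1 : f.1 (-1) = 0 :=
    apply_neg_one_of_eigen hl hlM hl1 (botOf_neg_one n d hd) hc f hx
  obtain ⟨F, hF⟩ := exists_lift (pi_comm n d hd) (zRep_neg_one M) isUnit_three_Z2
    (fun v => mulInd Z2 hrM u v) (fun v => by rw [← _root_.map_add, mulInd_split Z2 hrM hu])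
    (fun c v hv => by rw [pi_smul, hv, smul_zero])
    (fun v w hvw => by
      rw [← sub_eq_zero, ← map_sub, ← map_sub, pi_eq_zero_iff]
      have h0 : pi n d hd (v - w) = 0 := by rw [map_sub, hvw, sub_self]
      rw [pi_eq_zero_iff] at h0
      convert mulInd_mem_oldFun (ZMod (2 ^ n)) d hd hrd hrM (fun y => red2 n (u y)) h0 using 1
      funext y
      rw [mulInd_apply, mulInd_apply, map_mul])
    (fun v => by rw [map_neg, map_neg]) f h1 fun g => pi_surjective n d hd _
  exact ⟨H1.mk (zRep M M) F, by rw [piH, mapH'_mk, hF]; rfl⟩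

/-- pullback of two-adic classes from a lower level -/
def pullH {N e : ℕ} (he : e ∣ N) : H1 (zRep M e) →ₗ[Z2] H1 (zRep M N) :=
  LL.map (isTwist_funPull (P1.proj M he) (P1.proj_smul he))

theorem pullH_T {N e : ℕ} (he : e ∣ N) {l : ℕ} (hl : l.Prime) (hlM : ¬ l ∣ M)
    (x : H1 (zRep M e)) : pullH he (T (zRep M e) hl hlM x) = T (zRep M N) hl hlM (pullH he x) :=
  map_T_one _ hl hlM x

/-- the sources of what reduction forgets -/
abbrev srcRep : Representation Z2 (GL (Fin 2) (ZMod M))
    ((P1 M M → Z2) × ∀ i, P1 M (d i) → Z2) where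
  toFun g := (zRep M M g).prodMap (LinearMap.piMap fun i => zRep M (d i) g)
  map_one' := by
    refine LinearMap.ext fun v => Prod.ext ?_ (funext fun i => ?_) <;> simp
  map_mul' g h := by
    refine LinearMap.ext fun v => Prod.ext ?_ (funext fun i => ?_) <;> simp

/-- `(G, G_i) ↦ 2 ^ n G + ∑ G_i` -/
def src : ((P1 M M → Z2) × ∀ i, P1 M (d i) → Z2) →ₗ[Z2] (P1 M M → Z2) :=
  ((2 : Z2) ^ n • LinearMap.fst Z2 _ _) +
    ∑ i, (funPull Z2 (P1.proj M (hd i))) ∘ₗ (LinearMap.proj i) ∘ₗ LinearMap.snd Z2 _ _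

theorem src_apply (v : (P1 M M → Z2) × ∀ i, P1 M (d i) → Z2) :
    src n d hd v = (2 : Z2) ^ n • v.1 + ∑ i, funPull Z2 (P1.proj M (hd i)) (v.2 i) := by
  simp [src]

theorem src_comm : AddEquiv' (srcRep d) (zRep M M) (src n d hd).toAddMonoidHom := by
  refine ⟨fun g v => ?_⟩
  show src n d hd (srcRep d g v) = zRep M M g (src n d hd v)
  rw [src_apply, src_apply, _root_.map_add, map_smul, map_sum]
  congr 1
  refine Finset.sum_congr rfl fun i _ => funext fun x => ?_
  show funRep Z2 (P1 M (d i)) g (v.2 i) (P1.proj M (hd i) x) = _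
  rw [funRep_apply, funRep_apply, funPull_apply, P1.proj_smul]

theorem exists_src_eq {F : P1 M M → Z2} (hF : pi n d hd F = 0) : ∃ v, src n d hd v = F := by
  classical
  rw [pi_eq_zero_iff] at hF
  obtain ⟨G, hG⟩ : ∃ G : ∀ i, P1 M (d i) → ZMod (2 ^ n),
      (fun x => red2 n (F x)) = ∑ i, funPull (ZMod (2 ^ n)) (P1.proj M (hd i)) (G i) := by
    refine Submodule.iSup_induction _ (motive := fun x : P1 M M → ZMod (2 ^ n) =>
      ∃ G : ∀ i, P1 M (d i) → ZMod (2 ^ n), x = ∑ i, funPull (ZMod (2 ^ n)) (P1.proj M (hd i)) (G i))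
      hF (fun i x hx => ?_) ⟨0, by simp⟩ fun x y hx hy => ?_
    · obtain ⟨G, rfl⟩ := hx
      refine ⟨Pi.single i G, ?_⟩
      rw [Finset.sum_eq_single i (fun j _ hj => by rw [Pi.single_eq_of_ne hj, map_zero])
        (fun h => absurd (Finset.mem_univ i) h), Pi.single_eq_same]
    · obtain ⟨G, rfl⟩ := hx
      obtain ⟨H, rfl⟩ := hy
      exact ⟨G + H, by rw [← Finset.sum_add_distrib]; simp⟩
  choose G' hG' using fun i y => red2_surjective n (G i y)
  have hval : ∀ x, (2 : Z2) ^ n ∣ F x - ∑ i, G' i (P1.proj M (hd i) x) := fun x => by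
    rw [← red2_eq_zero_iff, _root_.map_sub, map_sum]
    have e := congrFun hG x
    rw [Finset.sum_apply] at e
    simp only [funPull_apply] at e
    simp only [hG', e, sub_self]
  choose H hH using hval
  refine ⟨(H, G'), funext fun x => ?_⟩
  rw [src_apply, Pi.add_apply, Finset.sum_apply, Pi.smul_apply, smul_eq_mul, ← hH]
  simp [funPull_apply]

include hr hr4 hrd hrM in
/-- what reduction forgets -/
theorem exists_of_piH_eq_zero {y : H1 (zRep M M)} (hy : piH n d hd y = 0) :
    ∃ (g : H1 (zRep M M)) (gi : ∀ i, H1 (zRep M (d i))),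
      y = (2 : Z2) ^ n • g + ∑ i, pullH (hd i) (gi i) := by
  obtain ⟨f, rfl⟩ := Submodule.Quotient.mk_surjective _ y
  obtain ⟨v', hv'⟩ := (Submodule.Quotient.mk_eq_zero (B1 (botOf n d hd))).1
    (show Submodule.Quotient.mk (mapZ' (pi_comm n d hd) f) = 0 from hy)
  obtain ⟨v, rfl⟩ := pi_surjective n d hd v'
  rw [← mapZ'_coboundary (pi_comm n d hd)] at hv'
  have hker : ∀ g, ∃ w, src n d hd w = (f - coboundary (zRep M M) v).1 g := fun g =>
    exists_src_eq n d hd (by
      rw [Submodule.coe_sub, Pi.sub_apply, _root_.map_sub, sub_eq_zero]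
      exact (congrFun (congrArg Subtype.val hv') g).symm)
  obtain ⟨u, hu⟩ := exists_indicator Z2 hr hr4 hrM
  have hneg : srcRep d (red M (-1)) = 1 := by
    refine LinearMap.ext fun w => Prod.ext ?_ (funext fun i => ?_)
    · show zRep M M (red M (-1)) w.1 = w.1
      rw [zRep_neg_one]; rfl
    · show zRep M (d i) (red M (-1)) (w.2 i) = w.2 i
      rw [zRep_neg_one]; rfl
  let e : ((P1 M M → Z2) × ∀ i, P1 M (d i) → Z2) →ₗ[Z2] ((P1 M M → Z2) × ∀ i, P1 M (d i) → Z2) :=
    (mulInd Z2 hrM u).prodMap (LinearMap.piMap fun i => mulInd Z2 (hrd i) u)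
  have hcomm : ∀ w, src n d hd (e w) = mulInd Z2 hrM u (src n d hd w) := fun w => by
    rw [src_apply, src_apply, _root_.map_add, map_smul, map_sum]
    congr 1
    refine Finset.sum_congr rfl fun i _ => ?_
    rw [show hrM = (hrd i).trans (hd i) from rfl, mulInd_pull Z2 (hrd i) (hd i)]
    rfl
  obtain ⟨F, hF⟩ := exists_lift (src_comm n d hd) hneg isUnit_three_Z2 e
    (fun w => by
      show src n d hd (e w) + src n d hd (srcRep d (red M ModularGroup.S)
        (e (srcRep d (red M ModularGroup.S) w))) = src n d hd w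
      rw [← _root_.map_add]
      refine congrArg _ (Prod.ext ?_ (funext fun i => ?_))
      · exact mulInd_split Z2 hrM hu w.1
      · exact mulInd_split Z2 (hrd i) hu (w.2 i))
    (fun c w (hw : src n d hd w = 0) => by
      show src n d hd (c • w) = 0
      rw [map_smul, hw, smul_zero])
    (fun w w' (h : src n d hd w = src n d hd w') => by
      show src n d hd (e w) = src n d hd (e w')
      rw [hcomm, hcomm, h])
    (fun w => by
      show src n d hd (e (-w)) = -src n d hd (e w)
      rw [map_neg, map_neg])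
    (f - coboundary (zRep M M) v) (apply_neg_one (zRep_neg_one M) zRep_add_self _) hker
  let F0 : Z1 (zRep M M) := ⟨fun g => (F.1 g).1, fun g g' => congrArg Prod.fst (F.2 g g')⟩
  let Fi : ∀ i, Z1 (zRep M (d i)) := fun i =>
    ⟨fun g => (F.1 g).2 i, fun g g' => congrFun (congrArg Prod.snd (F.2 g g')) i⟩
  refine ⟨H1.mk (zRep M M) F0, fun i => H1.mk (zRep M (d i)) (Fi i), ?_⟩
  have key : f - coboundary (zRep M M) v =
      (2 : Z2) ^ n • F0 + ∑ i, mapZ (isTwist_funPull (P1.proj M (hd i)) (P1.proj_smul (hd i))) (Fi i) := by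
    rw [← hF]
    refine Subtype.ext (funext fun g => ?_)
    rw [mapZ'_apply, Submodule.coe_add, Submodule.coe_smul, Submodule.coe_sum, Pi.add_apply,
      Pi.smul_apply, Finset.sum_apply]
    exact src_apply n d hd (F.1 g)
  show H1.mk (zRep M M) f = _
  rw [show f = (f - coboundary (zRep M M) v) + coboundary (zRep M M) v from
    (sub_add_cancel _ _).symm, _root_.map_add, key, _root_.map_add, map_smul, map_sum,
    show H1.mk (zRep M M) (coboundary (zRep M M) v) = 0 from
      (Submodule.Quotient.mk_eq_zero _).2 ⟨v, rfl⟩, add_zero]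
  rfl

/-- torsion modulo the lower levels is killed by `T l - (1 + l)`, after reduction -/
theorem piH_T_eq_of_torsion (q : ι → ℕ) (hq : ∀ i, d i * q i = M) (hc : ∀ i, (d i).Coprime (q i))
    {a : ℕ} {y : H1 (zRep M M)} {gi : ∀ i, H1 (zRep M (d i))}
    (hy : (2 : Z2) ^ a • y = ∑ i, pullH (hd i) (gi i))
    {l : ℕ} (hl : l.Prime) (hlM : ¬ l ∣ M) (hl1 : (l : ZMod M) = 1) :
    T (botOf n d hd) hl hlM (piH n d hd y) =
      ((1 + l : ℕ) : ZMod (2 ^ n)) • piH n d hd y := by
  have hmk : IsTwist (zRep M M) (qRep d hd) 1 (Submodule.mkQ (oldFun Z2 d hd)) := fun g v => by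
    rw [MonoidHom.one_apply, one_smul]
    rfl
  have hle : oldFun Z2 d hd ≤ ({ carrier := {F | pi n d hd F = 0}
                                 zero_mem' := map_zero _
                                 add_mem' := fun {F G} (hF : pi n d hd F = 0) (hG : pi n d hd G = 0) =>
                                   show pi n d hd (F + G) = 0 by rw [_root_.map_add, hF, hG, add_zero]
                                 smul_mem' := fun c F (hF : pi n d hd F = 0) =>
                                   show pi n d hd (c • F) = 0 by rw [pi_smul, hF, smul_zero] } :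
        Submodule Z2 (P1 M M → Z2)) := iSup_le fun i => by
    rintro _ ⟨G, rfl⟩
    show pi n d hd _ = 0
    rw [pi_eq_zero_iff]
    exact pull_mem_oldFun (ZMod (2 ^ n)) d hd i fun x => red2 n (G x)
  let piQ : ((P1 M M → Z2) ⧸ oldFun Z2 d hd) →+ (P1 M M → ZMod (2 ^ n)) ⧸ oldFun (ZMod (2 ^ n)) d hd :=
    QuotientAddGroup.lift (oldFun Z2 d hd).toAddSubgroup (pi n d hd) fun F hF => hle hF
  have hQ : AddEquiv' (qRep d hd) (botOf n d hd) piQ := ⟨fun g v => by
    obtain ⟨F, rfl⟩ := Submodule.Quotient.mk_surjective _ v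
    rfl⟩
  have hfac : ∀ z, mapH' hQ (LL.map hmk z) = piH n d hd z := fun z => by
    obtain ⟨f, rfl⟩ := Submodule.Quotient.mk_surjective _ z
    rfl
  have hz : (2 : Z2) ^ a • LL.map hmk y = 0 := by
    rw [← map_smul, hy, map_sum]
    refine Finset.sum_eq_zero fun i _ => ?_
    obtain ⟨f, hf⟩ := Submodule.Quotient.mk_surjective _ (gi i)
    rw [← hf]
    refine (Submodule.Quotient.mk_eq_zero _).2 ?_
    have : mapZ hmk (mapZ (isTwist_funPull (P1.proj M (hd i)) (P1.proj_smul (hd i))) f) = 0 :=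
      Subtype.ext (funext fun g => (Submodule.Quotient.mk_eq_zero _).2
        (pull_mem_oldFun Z2 d hd i (f.1 g)))
    rw [this]
    exact zero_mem _
  have htf : ∀ v : (P1 M M → Z2) ⧸ oldFun Z2 d hd, (2 : Z2) ^ a • v = 0 → v = 0 := fun v hv => by
    obtain ⟨F, rfl⟩ := Submodule.Quotient.mk_surjective _ v
    rw [← Submodule.Quotient.mk_smul, Submodule.Quotient.mk_eq_zero] at hv
    refine (Submodule.Quotient.mk_eq_zero _).2 (mem_oldFun_of_smul Z2 d hd q hq hc ?_ hv)
    exact fun b hb => (mul_eq_zero.1 hb).resolve_left (pow_ne_zero _ two_ne_zero)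
  have h := congrArg (mapH' hQ) (T_sub_eq_zero hl hlM hl1 htf hz)
  have hsmul : ∀ (c : Z2) (w : H1 (qRep d hd)), mapH' hQ (c • w) = red2 n c • mapH' hQ w :=
    fun c w => mapH'_smul hQ (fun v => by
      obtain ⟨F, rfl⟩ := Submodule.Quotient.mk_surjective _ v
      exact pi_smul n d hd c F) w
  rw [mapH'_T, hsmul, hfac, map_natCast] at h
  exact h

end FLTAgent.R2.Join

end
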