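import Fermat.Agent.R2.JoinCoh

/-!
Area R2, parcel JOIN: the functions from lower levels.

* `oldFun`: sums of functions pulled back from the levels `d i`; it is saturated when each
  `d i` has a coprime complement in `M` (idempotents of `ℤ/M` give compatible sections);
* multiplication by an indicator of level `r` splits `S` and preserves `oldFun` when `r ∣ d i`.
-/

set_option autoImplicit false
set_option linter.style.haveILetI false
set_option linter.unusedSectionVars false

noncomputable section

open scoped MatrixGroups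
open Matrix

namespace FLTAgent.R2.Join

open FLTAgent.LL

variable {M : ℕ}

theorem proj_proj {N d r : ℕ} (h : r ∣ d) (h' : d ∣ N) (x : P1 M N) :
    P1.proj M h (P1.proj M h' x) = P1.proj M (h.trans h') x := by
  induction x using QuotientGroup.induction_on with | H g => rfl

section Idem

/-- `g ↦ e g + (1 - e)` -/
def idemMat {e : ZMod M} (he : e * e = e) :
    Matrix (Fin 2) (Fin 2) (ZMod M) →* Matrix (Fin 2) (Fin 2) (ZMod M) where
  toFun g := e • g + (1 - e) • 1
  map_one' := by rw [← add_smul]; simp
  map_mul' g h := by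
    simp only [add_mul, mul_add, smul_mul_assoc, mul_smul_comm, one_mul, mul_one, smul_add,
      smul_smul, he]
    have h0 : e * (1 - e) = 0 := by rw [mul_sub, mul_one, he, sub_self]
    have h1 : (1 - e) * (1 - e) = 1 - e := by rw [sub_mul, one_mul, h0, sub_zero]
    rw [mul_comm (1 - e) e, h0, h1, zero_smul, zero_smul, add_zero, zero_add]

/-- the same on invertible matrices -/
def idemGL {e : ZMod M} (he : e * e = e) : GL (Fin 2) (ZMod M) →* GL (Fin 2) (ZMod M) :=
  Units.map (idemMat he)

theorem idemGL_apply {e : ZMod M} (he : e * e = e) (g : GL (Fin 2) (ZMod M)) :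
    (idemGL he g).1 1 0 = e * g.1 1 0 := by
  show (e • g.1 + (1 - e) • (1 : Matrix (Fin 2) (Fin 2) (ZMod M))) 1 0 = _
  simp

theorem idemGL_mem {e : ZMod M} (he : e * e = e) {d : ℕ} {g : GL (Fin 2) (ZMod M)}
    (hg : g ∈ B0 M d) : idemGL he g ∈ B0 M d := by
  rw [mem_B0, idemGL_apply]
  exact hg.mul_left e

/-- the retraction of a projective line given by an idempotent -/
def kap {e : ZMod M} (he : e * e = e) (d : ℕ) : P1 M d → P1 M d :=
  Quotient.map' (idemGL he) fun a b h => by
    rw [QuotientGroup.leftRel_apply] at h ⊢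
    rw [← map_inv, ← map_mul]
    exact idemGL_mem he h

theorem kap_mk {e : ZMod M} (he : e * e = e) (d : ℕ) (g : GL (Fin 2) (ZMod M)) :
    kap he d (QuotientGroup.mk g) = QuotientGroup.mk (idemGL he g) := rfl

theorem proj_kap {e : ZMod M} (he : e * e = e) {d N : ℕ} (h : d ∣ N) (x : P1 M N) :
    P1.proj M h (kap he N x) = kap he d (P1.proj M h x) := by
  induction x using QuotientGroup.induction_on with | H g => rfl

/-- at a level where the idempotent is one the retraction is the identity -/
theorem kap_eq_self {e : ZMod M} (he : e * e = e) {d : ℕ} (h : (d : ZMod M) ∣ 1 - e) (x : P1 M d) :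
    kap he d x = x := by
  induction x using QuotientGroup.induction_on with | H g =>
  rw [kap_mk, QuotientGroup.eq, ← map_inv, mem_B0]
  have hval : ((idemGL he g⁻¹ * g : GL (Fin 2) (ZMod M))).1 =
      e • (1 : Matrix (Fin 2) (Fin 2) (ZMod M)) + (1 - e) • g.1 := by
    rw [Units.val_mul]
    show (e • (g⁻¹).1 + (1 - e) • (1 : Matrix (Fin 2) (Fin 2) (ZMod M))) * g.1 = _
    rw [add_mul, smul_mul_assoc, smul_mul_assoc, one_mul, ← Units.val_mul, inv_mul_cancel,
      Units.val_one]
  rw [hval]
  simpa using h.mul_right (g.1 1 0)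

/-- if the idempotent kills `d` the retraction factors through level `d` -/
theorem kap_factor {e : ZMod M} (he : e * e = e) {d : ℕ} (hd : d ∣ M) (h : e * (d : ZMod M) = 0) :
    ∃ σ : P1 M d → P1 M M, ∀ x, kap he M x = σ (P1.proj M hd x) := by
  refine ⟨fun y => Quotient.liftOn' y (fun g => (QuotientGroup.mk (idemGL he g) : P1 M M))
    fun a b hab => ?_, fun x => ?_⟩
  · rw [QuotientGroup.leftRel_apply, mem_B0] at hab
    rw [QuotientGroup.eq, ← map_inv, ← map_mul, mem_B0, idemGL_apply]
    obtain ⟨k, hk⟩ := hab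
    rw [hk, ← mul_assoc, h, zero_mul]
    exact dvd_zero _
  · induction x using QuotientGroup.induction_on with | H g => rfl

theorem exists_idem {d q : ℕ} (hM : d * q = M) (hc : d.Coprime q) :
    ∃ e : ZMod M, e * e = e ∧ e * (d : ZMod M) = 0 ∧ (d : ZMod M) ∣ 1 - e := by
  obtain ⟨u, w, huw⟩ := Int.isCoprime_iff_nat_coprime.2 (by simpa using hc : (d : ℤ).natAbs.Coprime (q : ℤ).natAbs)
  have h0 : (d : ZMod M) * (q : ZMod M) = 0 := by rw [← Nat.cast_mul, hM, ZMod.natCast_self]
  have h1 : (u : ZMod M) * d + w * q = 1 := by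
    have := congrArg (Int.cast : ℤ → ZMod M) huw
    simpa using this
  refine ⟨(w : ZMod M) * q, ?_, ?_, ⟨(u : ZMod M), ?_⟩⟩
  · linear_combination ((w : ZMod M) * q) * h1 - ((u : ZMod M) * w) * h0
  · linear_combination (w : ZMod M) * h0
  · linear_combination -h1

end Idem

variable (A : Type*) [CommRing A] {ι : Type*} (d : ι → ℕ) (hd : ∀ i, d i ∣ M)

/-- functions from the lower levels -/
def oldFun : Submodule A (P1 M M → A) :=
  ⨆ i, LinearMap.range (funPull A (P1.proj M (hd i)))

theorem pull_mem_oldFun (i : ι) (G : P1 M (d i) → A) :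
    funPull A (P1.proj M (hd i)) G ∈ oldFun A d hd :=
  Submodule.mem_iSup_of_mem i ⟨G, rfl⟩

theorem oldFun_stable (g : GL (Fin 2) (ZMod M)) :
    oldFun A d hd ≤ (oldFun A d hd).comap (funRep A (P1 M M) (M := M) g) := by
  refine iSup_le fun i => ?_
  rintro _ ⟨F, rfl⟩
  rw [Submodule.mem_comap]
  refine Submodule.mem_iSup_of_mem i ⟨funRep A _ (M := M) g F, ?_⟩
  funext x
  simp only [funPull_apply, funRep_apply]
  induction x using QuotientGroup.induction_on with | H a => rfl

/-- the functions from lower levels are the kernel of a product of complements -/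
theorem exists_complement [Fintype ι] (q : ι → ℕ) (hM : ∀ i, d i * q i = M)
    (hc : ∀ i, (d i).Coprime (q i)) :
    ∃ P : Module.End A (P1 M M → A), (∀ F, F - P F ∈ oldFun A d hd) ∧
      ∀ F ∈ oldFun A d hd, P F = 0 := by
  classical
  choose e he he0 he1 using fun i => exists_idem (hM i) (hc i)
  let E : ι → Module.End A (P1 M M → A) := fun i => funPull A (kap (he i) M)
  have hEF : ∀ i F, E i F ∈ oldFun A d hd := fun i F => by
    obtain ⟨σ, hσ⟩ := kap_factor (he i) (hd i) (he0 i)
    have : E i F = funPull A (P1.proj M (hd i)) fun y => F (σ y) := funext fun x => congrArg F (hσ x)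
    rw [this]
    exact pull_mem_oldFun A d hd i _
  have hEpull : ∀ i j G, E i (funPull A (P1.proj M (hd j)) G) =
      funPull A (P1.proj M (hd j)) fun y => G (kap (he i) (d j) y) := fun i j G =>
    funext fun x => congrArg G (proj_kap (he i) (hd j) x)
  have hEid : ∀ i G, E i (funPull A (P1.proj M (hd i)) G) = funPull A (P1.proj M (hd i)) G :=
    fun i G => by
      rw [hEpull]
      exact funext fun x => congrArg G (kap_eq_self (he i) (he1 i) _)
  suffices h : ∀ s : Finset ι, ∃ P : Module.End A (P1 M M → A), (∀ F, F - P F ∈ oldFun A d hd) ∧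
      (∀ j G, ∃ G', P (funPull A (P1.proj M (hd j)) G) = funPull A (P1.proj M (hd j)) G') ∧
      ∀ j ∈ s, ∀ G, P (funPull A (P1.proj M (hd j)) G) = 0 by
    obtain ⟨P, h1, -, h3⟩ := h Finset.univ
    refine ⟨P, h1, fun F hF => ?_⟩
    have : oldFun A d hd ≤ LinearMap.ker P := iSup_le fun i => by
      rintro _ ⟨G, rfl⟩
      exact h3 i (Finset.mem_univ i) G
    exact this hF
  intro s
  induction s using Finset.induction_on with
  | empty => exact ⟨1, fun F => by simp, fun j G => ⟨G, rfl⟩, fun j hj => absurd hj (by simp)⟩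
  | insert i s hi ih =>
    obtain ⟨P, h1, h2, h3⟩ := ih
    refine ⟨(1 - E i) * P, fun F => ?_, fun j G => ?_, fun j hj G => ?_⟩
    · have e : F - ((1 - E i) * P) F = (F - P F) + E i (P F) := by
        simp only [sub_mul, one_mul, LinearMap.sub_apply, Module.End.mul_apply]
        abel
      rw [e]
      exact add_mem (h1 F) (hEF _ _)
    · obtain ⟨G', hG'⟩ := h2 j G
      refine ⟨G' - fun y => G' (kap (he i) (d j) y), ?_⟩
      rw [Module.End.mul_apply, LinearMap.sub_apply, Module.End.one_apply, hG', hEpull, map_sub]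
    · rw [Module.End.mul_apply]
      rcases Finset.mem_insert.1 hj with rfl | hj
      · obtain ⟨G', hG'⟩ := h2 j G
        rw [hG', LinearMap.sub_apply, Module.End.one_apply, hEid, sub_self]
      · rw [h3 j hj G, map_zero]

/-- the functions from lower levels are saturated -/
theorem mem_oldFun_of_smul [Fintype ι] (q : ι → ℕ) (hM : ∀ i, d i * q i = M)
    (hc : ∀ i, (d i).Coprime (q i)) {c : A} (hreg : ∀ a : A, c * a = 0 → a = 0)
    {F : P1 M M → A} (hF : c • F ∈ oldFun A d hd) : F ∈ oldFun A d hd := by
  obtain ⟨P, h1, h2⟩ := exists_complement A d hd q hM hc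
  have h0 := h2 _ hF
  rw [map_smul] at h0
  have : P F = 0 := funext fun x => hreg _ (congrFun h0 x)
  simpa [this] using h1 F

variable [NeZero M] {r : ℕ} (hr : r.Prime) (hr4 : r % 4 = 3) (hrM : r ∣ M)

include hr hr4 hrM in
/-- an indicator of level `r` splitting `S` -/
theorem exists_indicator :
    ∃ u : P1 M r → A, ∀ x, u x + u (red M ModularGroup.S • x) = 1 := by
  classical
  letI : LinearOrder (P1 M r) := linearOrderOfSTO WellOrderingRel
  refine ⟨fun x => if x < red M ModularGroup.S • x then 1 else 0, fun x => ?_⟩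
  have hxx : red M ModularGroup.S • red M ModularGroup.S • x = x := by
    rw [smul_smul, ← map_mul, Periods.S_mul_S, LL.P1.red_neg_one_smul]
  simp only [hxx]
  rcases lt_or_gt_of_ne (Coh.S_smul_ne_P1 hr hr4 dvd_rfl hrM x) with h | h
  · rw [if_neg (not_lt.2 h.le), if_pos h, zero_add]
  · rw [if_pos h, if_neg (not_lt.2 h.le), add_zero]

/-- multiplication by a function of level `r` -/
def mulInd {N : ℕ} (h : r ∣ N) (u : P1 M r → A) : Module.End A (P1 M N → A) where
  toFun F x := u (P1.proj M h x) * F x
  map_add' F G := funext fun x => mul_add _ _ _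
  map_smul' c F := funext fun x => by simp only [Pi.smul_apply, smul_eq_mul, RingHom.id_apply]; ring

theorem mulInd_apply {N : ℕ} (h : r ∣ N) (u : P1 M r → A) (F : P1 M N → A) (x : P1 M N) :
    mulInd A h u F x = u (P1.proj M h x) * F x := rfl

theorem mulInd_pull {N e : ℕ} (h : r ∣ e) (he : e ∣ N) (u : P1 M r → A) (G : P1 M e → A) :
    mulInd A (h.trans he) u (funPull A (P1.proj M he) G) =
      funPull A (P1.proj M he) (mulInd A h u G) := by
  funext x
  rw [mulInd_apply, funPull_apply, funPull_apply, mulInd_apply, proj_proj h he]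

theorem mulInd_mem_oldFun (h : ∀ i, r ∣ d i) (hrM' : r ∣ M) (u : P1 M r → A) {F : P1 M M → A}
    (hF : F ∈ oldFun A d hd) : mulInd A hrM' u F ∈ oldFun A d hd := by
  have : oldFun A d hd ≤ (oldFun A d hd).comap (mulInd A hrM' u) := iSup_le fun i => by
    rintro _ ⟨G, rfl⟩
    rw [Submodule.mem_comap, show hrM' = (h i).trans (hd i) from rfl, mulInd_pull A (h i) (hd i)]
    exact pull_mem_oldFun A d hd i _
  exact this hF

/-- the splitting identity -/
theorem mulInd_split {N : ℕ} (h : r ∣ N) {u : P1 M r → A}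
    (hu : ∀ x, u x + u (red M ModularGroup.S • x) = 1) (F : P1 M N → A) :
    mulInd A h u F + funRep A (P1 M N) (red M ModularGroup.S)
      (mulInd A h u (funRep A (P1 M N) (red M ModularGroup.S) F)) = F := by
  funext x
  have e : (red M ModularGroup.S)⁻¹ • x = red M ModularGroup.S • x := by
    rw [inv_smul_eq_iff, smul_smul, ← map_mul, Periods.S_mul_S, LL.P1.red_neg_one_smul]
  have e2 : red M ModularGroup.S • red M ModularGroup.S • x = x := by
    rw [smul_smul, ← map_mul, Periods.S_mul_S, LL.P1.red_neg_one_smul]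
  have e3 : (red M ModularGroup.S)⁻¹ • red M ModularGroup.S • x = x := inv_smul_smul _ _
  rw [Pi.add_apply, funRep_apply, mulInd_apply, mulInd_apply, funRep_apply, e, e3,
    P1.proj_smul h, ← add_mul, hu, one_mul]

end FLTAgent.R2.Join

end
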