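import Fermat.Agent.R2.Defs

/-!
Area R2, parcels A, F, G: the module of a level.

`M` is the dual of the part, cut out by the sign at two, of the localised cohomology of level
`2 · D · r` with the coefficients at the killing primes and the auxiliary primes; `T` its trace
algebra with the representation.  Its invariant functionals map into the cohomology of level `K.lev`
modulo the old functions.
-/

set_option autoImplicit false
set_option linter.style.haveILetI false

noncomputable section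

open Matrix

namespace FLTAgent.R2

variable {W : WeierstrassCurve ℤ} {hW : IsAnchor W} {B : Base W} {N : ℕ}

/-- the product of powers of the diamond generators -/
def diaProd {R : Type} [CommRing R] {n : ℕ} {K : Aux hW B N} (D : TW K n)
    (ρ : GQ →* Matrix (Fin 2) (Fin 2) R) (u : Fin (rk W) → Fin (2 ^ (n + 1))) : R :=
  ∏ i, (ρ (D.tau i)).det ^ (u i : ℕ)

/-- the functionals invariant under the diamonds -/
def invDual {R M : Type} [CommRing R] [Algebra (Lam N) R] [AddCommGroup M] [Module (Lam N) M]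
    {n : ℕ} {K : Aux hW B N} (D : TW K n) (ρ : GQ →* Matrix (Fin 2) (Fin 2) R)
    (φ : R →ₐ[Lam N] Module.End (Lam N) M) : Submodule (Lam N) (M →ₗ[Lam N] Lam N) where
  carrier := {ψ | ∀ i x, ψ (φ (ρ (D.tau i)).det x) = ψ x}
  zero_mem' := fun i x => rfl
  add_mem' := fun {ψ ψ'} h h' i x => by simp [h i x, h' i x]
  smul_mem' := fun c ψ h i x => by simp [h i x]

/-- the module of a level -/
structure Lev (ε : ℤˣ) (K : Aux hW B N) {n : ℕ} (D : TW K n) (d : ℕ) : Type 1 where
  R : Type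
  [commRing : CommRing R]
  [isLocalRing : IsLocalRing R]
  [finite : Finite R]
  [algebra : Algebra (Lam N) R]
  ρ : GQ →* Matrix (Fin 2) (Fin 2) R
  cond : Cond ε D ρ
  gen : Algebra.adjoin (Lam N) (Set.range fun σ => (ρ σ).trace) = ⊤
  M : Type
  [addCommGroup : AddCommGroup M]
  [module : Module (Lam N) M]
  φ : R →ₐ[Lam N] Module.End (Lam N) M
  pow_dia : ∀ i, φ ((ρ (D.tau i)).det ^ 2 ^ (n + 1)) = 1
  coinv : ∀ i, ∀ σ ∈ (D.place i).inertiaSubgroupIn ℚ, ∀ a b x,
    φ ((ρ σ - 1) a b) x ∈ LinearMap.range (φ (ρ (D.tau i)).det - 1)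
  basis : ∃ e : Fin d → M, Function.Bijective
    fun c : Fin d → (Fin (rk W) → Fin (2 ^ (n + 1))) → Lam N =>
      ∑ j, ∑ u, c j u • φ (diaProd D ρ u) (e j)
  m : ℕ
  down : Fin m → (invDual D ρ φ →ₗ[Lam N] LL.H1 (botRep K))
  down_inj : ∀ ψ : invDual D ρ φ, (∀ j, down j ψ = 0) → ψ = 0
  down_T : ∀ (l : ℕ) (hl : l.Prime) (hlK : ¬ l ∣ K.lev), ¬ (l : ℤ) ∣ W.Δ → l ∉ D.aux →
    ∀ (P : ValuationSubring (AlgebraicClosure ℚ)), P.LiesOverPrime l →
    ∀ τ : GQ, P.IsFrobeniusAt τ l → ∀ ψ ψ' : invDual D ρ φ,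
      (∀ x, ψ'.1 x = ψ.1 (φ (ρ τ).trace x)) →
        ∀ j, down j ψ' = LL.T (botRep K) hl hlK (down j ψ)

attribute [instance] Lev.commRing Lev.isLocalRing Lev.finite Lev.algebra Lev.addCommGroup
  Lev.module

end FLTAgent.R2

end
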