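import Fermat.Agent.R2.LevelRho
import Fermat.Agent.R2.LevelRhoBase
import Fermat.Agent.R2.Curve
import Fermat.Agent.MLT.Mk.AtPOpFacts

/-!
Area R2, parcel G5: the good Hecke operators on the part of the system of an anchor.

They are congruent to their eigenvalues, hence the part does not depend on the auxiliary prime and
the excluded primes of the system; and `T l ^ 2 - (1 + l) ^ 2 ⟨l⟩` is injective.
-/

set_option autoImplicit false
set_option linter.style.haveILetI false
set_option linter.unusedSectionVars false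
set_option maxHeartbeats 1000000
set_option synthInstance.maxHeartbeats 100000

noncomputable section

open Matrix IsLocalRing

namespace FLTAgent.R2.Lv

open FLTAgent.LL FLTAgent.R2.Coh

theorem natCast_mem_Z2 : ((2 : ℕ) : Z2) ∈ maximalIdeal Z2 := LevelRho.two_mem

theorem two_mem_maximalIdeal {T : Type*} [CommRing T] [IsLocalRing T] [Algebra Z2 T]
    [Module.Finite Z2 T] : (2 : T) ∈ maximalIdeal T := by
  rw [mem_maximalIdeal]
  rintro ⟨v, hv⟩
  have hle : (⊤ : Submodule Z2 T) ≤ maximalIdeal Z2 • (⊤ : Submodule Z2 T) := fun x _ => by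
    have h := Submodule.smul_mem_smul natCast_mem_Z2
      (Submodule.mem_top : (v.inv * x : T) ∈ (⊤ : Submodule Z2 T))
    rwa [show ((2 : ℕ) : Z2) • (v.inv * x : T) = x by
      rw [Algebra.smul_def, map_natCast, Nat.cast_ofNat, ← mul_assoc, ← hv, v.val_inv, one_mul]] at h
  have h := Submodule.eq_bot_of_le_smul_of_le_jacobson_bot (maximalIdeal Z2) (⊤ : Submodule Z2 T)
    Module.Finite.fg_top hle (IsLocalRing.maximalIdeal_le_jacobson ⊥)
  exact one_ne_zero ((Submodule.mem_bot Z2).mp (h ▸ Submodule.mem_top : (1 : T) ∈ (⊥ : Submodule Z2 T)))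

/-- the maximal ideal of a finite local algebra is topologically nilpotent -/
theorem exists_pow_dvd {T : Type*} [CommRing T] [IsLocalRing T] [Algebra Z2 T] [Module.Finite Z2 T]
    {x : T} (hx : x ∈ maximalIdeal T) (n : ℕ) : ∃ k, (2 : T) ^ n ∣ x ^ k := by
  classical
  set I : Ideal T := Ideal.span {(2 : T)}
  have hI : (Ideal.Quotient.mk I) 2 = 0 :=
    Ideal.Quotient.eq_zero_iff_mem.mpr (Ideal.mem_span_singleton_self _)
  obtain ⟨k, g, hg⟩ := Module.Finite.exists_fin (R := Z2) (M := T)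
  let f : (Fin k → ZMod 2) → T ⧸ I := fun v =>
    Ideal.Quotient.mk I (∑ i, ((v i).val : T) * g i)
  have hsurj : Function.Surjective f := by
    intro z
    obtain ⟨t, rfl⟩ := Ideal.Quotient.mk_surjective z
    obtain ⟨c, hc⟩ := (Submodule.mem_span_range_iff_exists_fun Z2).mp
      (hg.symm ▸ Submodule.mem_top : t ∈ Submodule.span Z2 (Set.range g))
    refine ⟨fun i => PadicInt.toZMod (c i), ?_⟩
    rw [← hc]
    simp only [f, _root_.map_sum, _root_.map_mul, Algebra.smul_def]
    refine Finset.sum_congr rfl fun i _ => congrArg (· * _) ?_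
    have h := PadicInt.toZMod_spec (c i)
    rw [PadicInt.maximalIdeal_eq_span_p, Ideal.mem_span_singleton] at h
    obtain ⟨e, he⟩ := h
    have h' : c i = (((PadicInt.toZMod (c i)).val : ℕ) : Z2) + ((2 : ℕ) : Z2) * e := by
      rw [ZMod.natCast_val, ← he]; ring
    conv_rhs => rw [h']
    simp only [_root_.map_add, _root_.map_mul, _root_.map_natCast, Nat.cast_ofNat, _root_.map_ofNat]
    rw [show (2 : T ⧸ I) = 0 from (_root_.map_ofNat (Ideal.Quotient.mk I) 2).symm.trans hI,
      zero_mul, add_zero]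
  haveI : Finite (T ⧸ I) := Finite.of_surjective f hsurj
  obtain ⟨i, j, hne, hij⟩ := Finite.exists_ne_map_eq_of_infinite
    (fun i : ℕ => Ideal.Quotient.mk I (x ^ i))
  wlog hlt : i < j generalizing i j
  · exact this j i hne.symm hij.symm (by omega)
  obtain ⟨c, rfl⟩ := Nat.exists_eq_add_of_lt hlt
  have hu : IsUnit (1 - x ^ (c + 1)) := IsLocalRing.notMem_maximalIdeal.mp fun h =>
    (maximalIdeal.isMaximal T).ne_top ((Ideal.eq_top_iff_one _).mpr (by
      simpa using add_mem h (Ideal.pow_mem_of_mem _ hx (c + 1) c.succ_pos)))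
  have hd : (2 : T) ∣ x ^ i := by
    rw [← hu.dvd_mul_right, mul_sub, mul_one, ← pow_add, ← add_assoc, ← Ideal.mem_span_singleton]
    exact Ideal.Quotient.eq.mp hij
  exact ⟨i * n, by rw [pow_mul]; exact pow_dvd_pow_of_dvd hd n⟩

variable {W : WeierstrassCurve ℤ} {hW : IsAnchor W} {M r : ℕ} [NeZero M] (d : SysData hW M)
  (D : AuxData M r) (hD : Good d D)

include hD in
/-- `T l - a l` is topologically nilpotent -/
theorem T_sub_pow_mem {l : ℕ} (hl : l.Prime) (hlM : ¬ l ∣ M) (hl2 : l ≠ 2)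
    (hlW : ¬ (l : ℤ) ∣ W.Δ) {z : H1 (lrRep D)} (hz : z ∈ (d.sys Z2).E (lrRep D)) (n : ℕ) :
    ∃ k, ∃ w ∈ (d.sys Z2).E (lrRep D),
      ((T (lrRep D) hl hlM - (W.apOfModel l : Z2) • (1 : Module.End Z2 (H1 (lrRep D)))) ^ k) z = ((2 : Z2) ^ n) • w := by
  by_cases hne : (d.sys Z2).E (lrRep D) = ⊥
  · have h0 : z = 0 := (Submodule.mem_bot Z2).mp (hne ▸ hz : z ∈ (⊥ : Submodule Z2 (H1 (lrRep D))))
    exact ⟨0, 0, zero_mem _, by rw [h0, map_zero, smul_zero]⟩
  obtain ⟨R⟩ := nonempty_rho d D hD hne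
  obtain ⟨P, τ, hP, hτ⟩ := Alg.exists_place_frobenius l hl
  set a : ℤ := W.apOfModel l
  have h2T : (2 : R.T) ∈ maximalIdeal R.T := two_mem_maximalIdeal
  have hb : ((rb hW τ) 0 0).val + ((rb hW τ) 1 1).val ≡ a [ZMOD 2] := by
    have h := trace_rE hW 0 hl hl2 hlW hP hτ
    rw [show rE hW 0 τ = rb hW τ from rfl, Matrix.trace_fin_two] at h
    refine (ZMod.intCast_eq_intCast_iff _ _ 2).mp ?_
    push_cast
    rw [ZMod.natCast_val, ZMod.natCast_val, ZMod.cast_id, ZMod.cast_id]
    exact h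
  have hx : (R.ρ τ).trace - (a : R.T) ∈ maximalIdeal R.T := by
    obtain ⟨c, hc⟩ := Int.modEq_iff_dvd.mp hb
    have hc' : (a : R.T) = ((((rb hW τ) 0 0).val : R.T) + (((rb hW τ) 1 1).val : R.T)) + 2 * c := by
      have := congrArg (fun m : ℤ => (m : R.T)) hc
      push_cast at this
      linear_combination this
    rw [Matrix.trace_fin_two, hc', show ∀ u v u' v' w : R.T,
      u + v - (u' + v' + w) = (u - u') + (v - v') - w from fun _ _ _ _ _ => by ring]
    exact sub_mem (add_mem (R.res τ 0 0) (R.res τ 1 1)) (Ideal.mul_mem_right _ _ h2T)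
  obtain ⟨k, t, ht⟩ := exists_pow_dvd hx n
  set u := T (lrRep D) hl hlM - (a : Z2) • (1 : Module.End Z2 (H1 (lrRep D)))
  have hu : ∀ (j : ℕ) (x : (d.sys Z2).E (lrRep D)),
      (R.φ (((R.ρ τ).trace - (a : R.T)) ^ j) x).1 = (u ^ j) x.1 := by
    intro j
    induction j with
    | zero => intro x; rw [pow_zero, pow_zero, map_one]; rfl
    | succ j ih =>
      intro x
      rw [pow_succ, pow_succ, map_mul, Module.End.mul_apply, ih, Module.End.mul_apply]
      refine congrArg (u ^ j) ?_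
      rw [_root_.map_sub, ← _root_.map_intCast (algebraMap Z2 R.T) a, AlgHom.commutes,
        LinearMap.sub_apply, AddSubgroupClass.coe_sub, R.trace l hl hlM hl2 hlW P hP τ hτ x,
        Module.algebraMap_end_apply, SetLike.val_smul]
      simp only [u, LinearMap.sub_apply, LinearMap.smul_apply, Module.End.one_apply]
  refine ⟨k, (R.φ t ⟨z, hz⟩).1, (R.φ t ⟨z, hz⟩).2, ?_⟩
  rw [← hu k ⟨z, hz⟩, ht, show (2 : R.T) ^ n * t = ((2 : Z2) ^ n) • t by
    rw [Algebra.smul_def, map_pow, map_ofNat], map_smul]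
  rfl

include hD in
theorem sys_E_le (d' : SysData hW M) (h2 : d'.l0 ≠ 2) :
    (d.sys Z2).E (lrRep D) ≤ (d'.sys Z2).E (lrRep D) := by
  intro z hz
  rw [Sys.mem_E_iff]
  refine ⟨?_, fun l hl hlM hb => ?_⟩
  · haveI : Fact (Nat.Prime d'.l0) := ⟨d'.prime⟩
    set E := (d.sys Z2).E (lrRep D)
    haveI : Module.Finite Z2 E := (d.sys Z2).E_finite
    set u := (d'.sys Z2).eta (lrRep D) with hu_def
    have hlM : ¬ d'.l0 ∣ M := (d'.sys Z2).not_dvd_l0
    set N := T (lrRep D) d'.prime hlM - (W.apOfModel d'.l0 : Z2) • (1 : Module.End Z2 (H1 (lrRep D)))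
    set c : Z2 := (W.apOfModel d'.l0 : Z2) - ((1 + d'.l0 : ℕ) : Z2)
    have huN : u = N + c • 1 := by
      show T (lrRep D) d'.prime hlM - ((1 + d'.l0 : ℕ) : Z2) • (1 : Module.End Z2 (H1 (lrRep D))) =
        (T (lrRep D) d'.prime hlM - (W.apOfModel d'.l0 : Z2) • (1 : Module.End Z2 (H1 (lrRep D)))) +
          ((W.apOfModel d'.l0 : Z2) - ((1 + d'.l0 : ℕ) : Z2)) • (1 : Module.End Z2 (H1 (lrRep D)))
      refine LinearMap.ext fun x => ?_
      simp only [LinearMap.sub_apply, LinearMap.add_apply, LinearMap.smul_apply, Module.End.one_apply]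
      rw [sub_smul]
      abel
    have hc : IsUnit c := by
      obtain ⟨j, hj⟩ := d'.odd_ap
      obtain ⟨i, hi⟩ := d'.prime.odd_of_ne_two h2
      refine (IsLocalRing.notMem_maximalIdeal).mp fun h => ?_
      have h2m : (2 : Z2) * ((j : Z2) - (i + 1 : ℕ)) ∈ maximalIdeal Z2 :=
        Ideal.mul_mem_right _ _ (by exact_mod_cast natCast_mem_Z2)
      refine (maximalIdeal.isMaximal Z2).ne_top ((Ideal.eq_top_iff_one _).mpr ?_)
      rw [show (1 : Z2) = c - 2 * ((j : Z2) - (i + 1 : ℕ)) by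
        simp only [c]; rw [hj, hi]; push_cast; ring]
      exact sub_mem h h2m
    have hNE : ∀ x ∈ E, N x ∈ E := fun x hx => by
      simp only [N, LinearMap.sub_apply, LinearMap.smul_apply, Module.End.one_apply]
      exact sub_mem ((d.sys Z2).T_mem_E d'.prime hlM hx) (Submodule.smul_mem _ _ hx)
    have huE : ∀ x ∈ E, u x ∈ E := fun x hx => by
      rw [huN, LinearMap.add_apply, LinearMap.smul_apply, Module.End.one_apply]
      exact add_mem (hNE x hx) (Submodule.smul_mem _ _ hx)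
    have hmap : E ≤ Submodule.map u E := by
      refine Submodule.le_of_le_smul_of_le_jacobson_bot (Module.Finite.iff_fg.mp inferInstance)
        (IsLocalRing.maximalIdeal_le_jacobson ⊥) fun x hx => ?_
      obtain ⟨k, w, hw, hk⟩ := T_sub_pow_mem d D hD d'.prime hlM h2 d'.good hx 1
      have key : ∀ j, ∀ y ∈ E, c ^ j • y - (-1 : Z2) ^ j • (N ^ j) y ∈ Submodule.map u E := by
        intro j
        induction j with
        | zero => intro y _; simp
        | succ j ih =>
          intro y hy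
          have hj := ih _ (hNE y hy)
          have e : c ^ (j + 1) • y - (-1 : Z2) ^ (j + 1) • (N ^ (j + 1)) y =
              u (c ^ j • y) - (c ^ j • N y - (-1 : Z2) ^ j • (N ^ j) (N y)) := by
            rw [map_smul, huN, LinearMap.add_apply, LinearMap.smul_apply, Module.End.one_apply,
              pow_succ N, Module.End.mul_apply, pow_succ c, pow_succ (-1 : Z2), smul_add,
              mul_smul, mul_smul, neg_smul, one_smul, smul_neg]
            abel
          rw [e]
          exact sub_mem (Submodule.mem_map_of_mem (Submodule.smul_mem _ _ hy)) hj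
      have hkx := key k x hx
      rw [show (N ^ k) x = ((2 : Z2) ^ 1) • w from hk, pow_one, smul_comm] at hkx
      obtain ⟨v, hv⟩ := hc.pow k
      have hxe : x = (↑v⁻¹ : Z2) • (c ^ k • x - (2 : Z2) • ((-1 : Z2) ^ k • w)) +
          (↑v⁻¹ : Z2) • (2 : Z2) • ((-1 : Z2) ^ k • w) := by
        rw [← smul_add, sub_add_cancel, ← hv, smul_smul, v.inv_mul, one_smul]
      rw [hxe]
      refine Submodule.add_mem_sup (Submodule.smul_mem _ _ hkx) (Submodule.smul_mem _ _ ?_)
      exact Submodule.smul_mem_smul (by exact_mod_cast natCast_mem_Z2) (Submodule.smul_mem _ _ hw)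
    refine (Submodule.mem_iInf _).mpr fun k => ?_
    suffices h : ∀ k, ∀ x ∈ E, ∃ y ∈ E, (u ^ k) y = x by
      obtain ⟨y, -, hy⟩ := h k z hz
      exact ⟨y, hy⟩
    intro k
    induction k with
    | zero => exact fun x hx => ⟨x, hx, by rw [pow_zero, Module.End.one_apply]⟩
    | succ k ih =>
      intro x hx
      obtain ⟨y, hy, rfl⟩ := ih x hx
      obtain ⟨y', hy', rfl⟩ := hmap hy
      exact ⟨y', hy', by rw [pow_succ, Module.End.mul_apply]⟩
  · simp only [SysData.sys, Set.mem_setOf_eq, not_or] at hb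
    intro n
    obtain ⟨k, w, -, hk⟩ := T_sub_pow_mem d D hD hl hlM hb.1 hb.2.1 hz n
    exact ⟨k, (LevelRho.mem_pow_smul_top_iff n).2 ⟨w, hk.symm⟩⟩

include hD in
/-- the part does not depend on the data of the system -/
theorem sys_E_eq (d' : SysData hW M) (h2 : d'.l0 ≠ 2) (h2' : d.l0 ≠ 2) :
    (d'.sys Z2).E (lrRep D) = (d.sys Z2).E (lrRep D) :=
  le_antisymm (sys_E_le d' D ⟨hD.sqfree, hD.bad_dvd, hD.good_Q, hD.mod4_Q, hD.odd_Q, hD.index, hD.sq_Q⟩ d h2')
    (sys_E_le d D hD d' h2)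

include hD in
/-- no eigenvalue of `T l` has square `(1 + l) ^ 2` times the diamond of `l` -/
theorem Tsq_injective {l : ℕ} (hl : l.Prime) (hlM : ¬ l ∣ M) (u : D.Del)
    (hu : ∀ i, ∀ a : (ZMod (D.Q i))ˣ, (a : ZMod (D.Q i)) = l → u i = QuotientGroup.mk a)
    {z : H1 (lrRep D)} (hz : z ∈ (d.sys Z2).E (lrRep D))
    (h : T (lrRep D) hl hlM (T (lrRep D) hl hlM z) =
      ((1 + (l : Z2)) ^ 2) • map (isTwist_act Z2 D u⁻¹) z) : z = 0 := by
  choose ei hei using hD.index
  obtain ⟨O, hO1, hO2, hO3, hO4, hO5, hO6, hO7, hO8, hO9, -, h2O, hroots, -⟩ :=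
    exists_roots_ring (∑ i, (ei i + 1))
  haveI : ∀ i, NeZero (D.H i).index := fun i => ⟨by rw [hei i]; exact pow_ne_zero _ two_ne_zero⟩
  obtain ⟨cs, hχ, hsum⟩ := D.exists_choices (A := O)
    (fun i e => by have := hD.mod4_Q i; omega) h2O hD.index fun i => by
      rw [hei i, ← pow_succ']
      exact hroots _ (Finset.single_le_sum (fun j _ => Nat.zero_le (ei j + 1)) (Finset.mem_univ i))
  obtain ⟨L, hL⟩ : ∃ L, L = D.N0 * D.tw.R ^ 2 := ⟨_, rfl⟩
  haveI : NeZero L := ⟨hL ▸ mul_ne_zero D.tw.N0_ne_zero (pow_ne_zero 2 D.tw.R_ne_zero)⟩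
  obtain ⟨LD⟩ := JTors.exists_latticeData L
  have hlL : ¬ l ∣ L := by
    rw [hL]
    intro hdvd
    rcases hl.dvd_mul.mp hdvd with h0 | hR
    · exact hlM (h0.trans D.dvd0)
    · obtain ⟨i, -, hi⟩ := (hl.prime.dvd_finsetProd_iff _).mp (hl.dvd_of_dvd_pow hR)
      exact hlM (hi.trans (D.dvd i))
  set s := d.sys Z2
  set a := ZMod.unitOfCoprime l ((hl.coprime_iff_not_dvd).mpr hlM)
  have hua : u⁻¹ = D.cls a⁻¹ := by
    rw [map_inv]
    refine congrArg (·⁻¹) (funext fun i => ?_)
    exact hu i _ (by simp [a, ZMod.unitsMap_def, ZMod.coe_unitOfCoprime])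
  let x : LevelRho.Mod D s := ⟨z, hz⟩
  have hx : LevelRho.hOp D s hl hlM (LevelRho.hOp D s hl hlM x) =
      ((1 + (l : Z2)) ^ 2) • LevelRho.actE D s u⁻¹ x := Subtype.ext h
  refine congrArg Subtype.val (LevelRho.eq_zero_of_twist s hL LD cs hχ hsum (x := x) fun k => ?_)
  have e := congrArg (LevelRho.twist s O hL LD (cs k) (hχ k)) hx
  rw [LevelRho.twist_hOp, LevelRho.twist_hOp, map_smul, map_smul, LevelRho.twist_actE, hua,
    AuxData.Choice.delta_cls, inv_inv, smul_smul, ← algebraMap_smul O ((1 + (l : Z2)) ^ 2), smul_smul,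
    mul_comm ((algebraMap Z2 O) _), ← smul_smul] at e
  rw [_root_.map_pow, _root_.map_add, _root_.map_one, _root_.map_natCast] at e
  have hunit : IsUnit ((cs k).chi a * (cs k).chi a) :=
    ((Group.isUnit a).map (cs k).chi).mul
      ((Group.isUnit a).map (cs k).chi)
  rw [← mul_smul, mul_smul ((cs k).chi a * (cs k).chi a)] at e
  have e2 := hunit.smul_left_cancel.mp e
  refine Subtype.ext (MLT.lamT_sq_injective LD hl hlL _ ?_)
  exact congrArg Subtype.val e2

end FLTAgent.R2.Lv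

end
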