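import Fermat.Agent.R2.LevelRhoLattice
import Fermat.Agent.R2.Carayol

/-!
Area R2, parcel G1: the Galois representation of a level with diamonds of two-power order, over the
`ℤ₂`-algebra generated by the twisted traces, with its action on the part of the system in the
functions on `X` with values in `ℤ₂`.

For a complete family of choices `cs` over `O`, `twist k` sends a class to the lattice of level
`L = N0 R²` with coefficients `O`.  With `TL` the away Hecke algebra there and `R₀` its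
representation, `rhoB σ = (χ_k(σ) R₀(σ))_k`.  `LevelRho` packages the algebra `T ⊆ κ → TL` of the
traces of `rhoB`, a representation over it congruent to the residual one and inner to `rhoB`
(`map_ρ`: every matrix identity of the `χ_k R₀` passes to `ρ`), and the action `φ` compatible with
all the twists.
-/

set_option autoImplicit false
set_option linter.style.haveILetI false
set_option linter.unusedSectionVars false
set_option maxHeartbeats 1000000
set_option synthInstance.maxHeartbeats 100000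

noncomputable section

open scoped TensorProduct MatrixGroups
open Matrix IsLocalRing

namespace FLTAgent.R2

open FLTAgent.Attach (GalQ)

local notation "M2" => Matrix (Fin 2) (Fin 2)

namespace LevelRho

/-- congruences of a representation pass to the traces -/
theorem dvd_trace_sub {C G : Type*} [CommRing C] [Monoid G] (ρ : G →* M2 C) (g h : G) (d : C)
    (hd : ∀ a b, d ∣ (ρ h - 1) a b) : d ∣ (ρ g).trace - (ρ (g * h)).trace := by
  have h1 : ∀ a b, d ∣ (ρ (g * h) - ρ g) a b := fun a b => by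
    rw [map_mul, ← mul_sub_one, Matrix.mul_apply]
    exact Finset.dvd_sum fun i _ => dvd_mul_of_dvd_right (hd i b) _
  rw [← neg_sub, dvd_neg, ← Matrix.trace_sub, Matrix.trace_fin_two]
  exact dvd_add (h1 0 0) (h1 1 1)

/-- a subalgebra with the invariants of Frobenius contains all traces -/
theorem trace_mem {C : Type} [CommRing C] [Algebra ℤ_[2] C] [Module.Finite ℤ_[2] C]
    (W : Subalgebra ℤ_[2] C) (ρ : GalQ →* M2 C)
    (hlev : ∀ n : ℕ, ∃ E : IntermediateField ℚ (AlgebraicClosure ℚ), FiniteDimensional ℚ E ∧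
      ∀ σ : GalQ, (∀ x ∈ E, σ x = x) → ∀ a b, (2 : C) ^ n ∣ (ρ σ - 1) a b)
    (S : Finset ℕ)
    (hfrob : ∀ (l : ℕ), l.Prime → l ∉ S → ∀ P : ValuationSubring (AlgebraicClosure ℚ),
      P.LiesOverPrime l → ∀ τ : GalQ, P.IsFrobeniusAt τ l →
        (ρ τ).trace ∈ W ∧ (ρ τ).det ∈ W) (σ : GalQ) : (ρ σ).trace ∈ W := by
  refine mem_of_approx (Subalgebra.toSubmodule W) fun n => ?_
  obtain ⟨E, hE, hn⟩ := hlev n
  haveI := hE
  obtain ⟨l, P, τ, j, hl, hlS, hP, hτ, hag⟩ := Chebotarev.exists_frobenius_pow E σ S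
  obtain ⟨htr, hdet⟩ := hfrob l hl hlS P hP τ hτ
  refine ⟨(ρ (τ ^ j)).trace, ?_, ?_⟩
  · show (ρ (τ ^ j)).trace ∈ W
    rw [map_pow, trace_pow_eq, show Attach.powerTrace (ρ τ).trace (ρ τ).det j =
      ((Attach.powerTrace (⟨_, htr⟩ : W) ⟨_, hdet⟩ j : W) : C) from
      (Attach.map_powerTrace W.val.toRingHom ⟨_, htr⟩ ⟨_, hdet⟩ j).symm]
    exact SetLike.coe_mem _
  · rw [← dvd_iff_mem]
    have e : τ ^ j = σ * (σ⁻¹ * τ ^ j) := (mul_inv_cancel_left σ _).symm
    rw [e]
    exact dvd_trace_sub ρ σ _ _ (hn _ fun x hx => by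
      rw [AlgEquiv.mul_apply, hag x hx]
      exact σ.symm_apply_apply x)

/-- congruences pass through an inner map to a subalgebra -/
theorem exists_level {C : Type} [CommRing C] [Algebra ℤ_[2] C] [Module.Finite ℤ_[2] C]
    (T : Subalgebra ℤ_[2] C) (ρB : GalQ →* M2 C) (ρ : GalQ →* M2 T) (F : M2 C →ₐ[C] M2 C)
    (hρF : ∀ σ, (ρ σ).map (algebraMap T C) = F (ρB σ))
    (hlev : ∀ n : ℕ, ∃ E : IntermediateField ℚ (AlgebraicClosure ℚ), FiniteDimensional ℚ E ∧
      ∀ σ : GalQ, (∀ x ∈ E, σ x = x) → ∀ a b, (2 : C) ^ n ∣ (ρB σ - 1) a b) (n : ℕ) :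
    ∃ E : IntermediateField ℚ (AlgebraicClosure ℚ), FiniteDimensional ℚ E ∧
      ∀ σ : GalQ, (∀ x ∈ E, σ x = x) → ∀ a b, (2 : T) ^ n ∣ (ρ σ - 1) a b := by
  obtain ⟨c, hc⟩ := exists_shift_pow T
  obtain ⟨E, hE, h⟩ := hlev (n + c)
  refine ⟨E, hE, fun σ hσ a b' => hc n _ ?_⟩
  choose Y hY using h σ hσ
  have e : ρB σ - 1 = (2 : C) ^ (n + c) • Matrix.of Y := by
    ext i j : 2
    exact hY i j
  refine ⟨F (Matrix.of Y) a b', ?_⟩
  have h1 : (ρ σ - 1).map (algebraMap T C) = (2 : C) ^ (n + c) • F (Matrix.of Y) := by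
    rw [Matrix.map_sub _ (map_sub _), Matrix.map_one _ (map_zero _) (map_one _), hρF,
      ← map_one F, ← map_sub, e, map_smul]
  exact congrFun (congrFun h1 a) b'

/-- what is killed by the representation over the product is killed over the subalgebra -/
theorem eq_one_of_map {C : Type} [CommRing C] [Algebra ℤ_[2] C] (T : Subalgebra ℤ_[2] C)
    (ρB : GalQ →* M2 C) (ρ : GalQ →* M2 T) (F : M2 C →ₐ[C] M2 C)
    (hρF : ∀ σ, (ρ σ).map (algebraMap T C) = F (ρB σ)) {σ : GalQ} (h : ρB σ = 1) : ρ σ = 1 := by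
  refine Matrix.map_injective (show Function.Injective (algebraMap T C) from Subtype.val_injective) ?_
  show (ρ σ).map (algebraMap T C) = (1 : M2 T).map (algebraMap T C)
  rw [hρF, h, map_one, Matrix.map_one _ (map_zero _) (map_one _)]

/-- the trace algebra -/
theorem adjoin_trace_eq_top {C : Type} [CommRing C] [Algebra ℤ_[2] C] (f : GalQ → C)
    (g : GalQ → Algebra.adjoin ℤ_[2] (Set.range f)) (hg : ∀ σ, (g σ : C) = f σ) :
    Algebra.adjoin ℤ_[2] (Set.range g) = ⊤ := by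
  rw [eq_top_iff]
  rintro ⟨t, ht⟩ -
  induction ht using Algebra.adjoin_induction with
  | mem v hv =>
    obtain ⟨σ, rfl⟩ := hv
    exact Algebra.subset_adjoin ⟨σ, Subtype.ext (hg σ)⟩
  | algebraMap a => exact Subalgebra.algebraMap_mem _ a
  | add v v' hv hv' h h' => exact add_mem h h'
  | mul v v' hv hv' h h' => exact mul_mem h h'

/-- compatible families act -/
theorem exists_act {A R U V κ : Type} [CommRing A] [CommRing R] [Algebra A R] [AddCommGroup V]
    [Module A V] [AddCommGroup U] [Module A U] (act : R →ₐ[A] Module.End A U)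
    (tw : κ → V →ₗ[A] U) (hinj : ∀ x, (∀ k, tw k x = 0) → x = 0) (T : Subalgebra A (κ → R))
    (hT : ∀ t : T, ∃ u : Module.End A V, ∀ k x, tw k (u x) = act ((t : κ → R) k) (tw k x)) :
    ∃ φ : T →ₐ[A] Module.End A V,
      (∀ k (t : T) x, tw k (φ t x) = act ((t : κ → R) k) (tw k x)) ∧
      ∀ (t : T) (v : Module.End A V),
        (∀ k x, tw k (v x) = act ((t : κ → R) k) (tw k x)) → φ t = v := by
  choose u hu using hT
  have huniq : ∀ (t : T) (v : Module.End A V),
      (∀ k x, tw k (v x) = act ((t : κ → R) k) (tw k x)) → u t = v :=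
    fun t v hv => LinearMap.ext fun x => sub_eq_zero.mp (hinj _
      fun k => by rw [map_sub, hv, hu, sub_self])
  exact ⟨{ toFun := u
           map_one' := huniq 1 1 fun k x => by simp
           map_mul' := fun t t' => huniq _ _ fun k x => by
             rw [Module.End.mul_apply, hu, hu, MulMemClass.coe_mul, Pi.mul_apply, map_mul,
               Module.End.mul_apply]
           map_zero' := huniq 0 0 fun k x => by simp
           map_add' := fun t t' => huniq _ _ fun k x => by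
             rw [LinearMap.add_apply, map_add, hu, hu, AddMemClass.coe_add, Pi.add_apply,
               map_add, LinearMap.add_apply]
           commutes' := fun a => huniq _ _ fun k x => by
             rw [Module.algebraMap_end_apply, map_smul, Subalgebra.coe_algebraMap,
               Pi.algebraMap_apply, AlgHom.commutes, Module.algebraMap_end_apply] },
    fun k t x => hu t k x, huniq⟩

variable {M r : ℕ} [NeZero M] {D : Coh.AuxData M r} (s : LL.Sys M ℤ_[2])
  {O : Type} [CommRing O] [IsDomain O] [IsDiscreteValuationRing O]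
  [IsAdicComplete (maximalIdeal O) O] [Finite (ResidueField O)] [CharZero O] [Algebra ℤ_[2] O]
  [Module.Finite ℤ_[2] O] [IsLocalHom (algebraMap ℤ_[2] O)]
  {L : ℕ} [NeZero L] (hL : L = D.N0 * D.tw.R ^ 2) (LD : JTors.LatticeData L) (S : Finset ℕ)
  {κ : Type} [Fintype κ] [Nonempty κ] (cs : κ → D.Choice O)
  (hχ : ∀ k a, (cs k).chi a - 1 ∈ maximalIdeal O)

/-- compatible families act -/
theorem exists_phi (T : Subalgebra ℤ_[2] (κ → TL s O LD S))
    (hT : T ≤ interAlg s hL LD S cs hχ)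
    (hsum : ∀ u : D.Del, u ≠ 1 → ∑ k, (cs k).delta u = 0) :
    ∃ φ : T →ₐ[ℤ_[2]] Module.End ℤ_[2] (Mod D s),
      (∀ (k : κ) (t : T) (x : Mod D s), twist s O hL LD (cs k) (hχ k) (φ t x) =
        ((t : κ → TL s O LD S) k : Module.End O (LL.lamPart LD (Coh.sysMap O s)))
          (twist s O hL LD (cs k) (hχ k) x)) ∧
      ∀ (t : T) (v : Module.End ℤ_[2] (Mod D s)),
        (∀ k x, twist s O hL LD (cs k) (hχ k) (v x) =
          ((t : κ → TL s O LD S) k : Module.End O (LL.lamPart LD (Coh.sysMap O s)))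
            (twist s O hL LD (cs k) (hχ k) x)) → φ t = v := by
  let act : TL s O LD S →ₐ[ℤ_[2]] Module.End ℤ_[2] (LL.lamPart LD (Coh.sysMap O s)) :=
    { toFun := fun t => (t : Module.End O (LL.lamPart LD (Coh.sysMap O s))).restrictScalars ℤ_[2]
      map_one' := rfl
      map_mul' := fun _ _ => rfl
      map_zero' := rfl
      map_add' := fun _ _ => rfl
      commutes' := fun a => LinearMap.ext fun z => algebraMap_TL_apply s LD S a z }
  exact exists_act act (fun k => twist s O hL LD (cs k) (hχ k))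
    (fun x => eq_zero_of_twist s hL LD cs hχ hsum) T fun t => hT t.2

variable (R₀ : GalQ →* M2 (TL s O LD S))

/-- the invariants of Frobenius act -/
theorem frob_mem_interAlg
    (hdetR : ∀ σ : GalQ, (R₀ σ).det =
      algebraMap O (TL s O LD S) (Attach.cycR Nat.prime_two two_mem_O σ))
    (hfr : ∀ (l : ℕ) (hl : l.Prime), ¬ l ∣ M → l ≠ 2 →
      ∀ P : ValuationSubring (AlgebraicClosure ℚ), P.LiesOverPrime l →
      ∀ τ : GalQ, P.IsFrobeniusAt τ l →
        (((R₀ τ).trace : TL s O LD S) : Module.End O (LL.lamPart LD (Coh.sysMap O s))) =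
          LL.lamT LD (Coh.sysMap O s) ⟨l, hl⟩)
    (l : ℕ) (hl : l.Prime) (hlS : l ∉ insert 2 M.primeFactors)
    (P : ValuationSubring (AlgebraicClosure ℚ))
    (hP : P.LiesOverPrime l) (τ : GalQ) (hτ : P.IsFrobeniusAt τ l) :
    (rhoB s LD cs R₀ τ).trace ∈ interAlg s hL LD S cs hχ ∧
      (rhoB s LD cs R₀ τ).det ∈ interAlg s hL LD S cs hχ := by
  rw [Finset.mem_insert, not_or, Nat.mem_primeFactors] at hlS
  obtain ⟨hl2, hlM'⟩ := hlS
  have hlM : ¬ l ∣ M := fun h => hlM' ⟨hl, h, NeZero.ne M⟩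
  have hu : cycU M τ = ZMod.unitOfCoprime l ((hl.coprime_iff_not_dvd).mpr hlM) :=
    Units.ext (by rw [cycU_val, Attach.cyc_frobenius hl hlM hP hτ, ZMod.coe_unitOfCoprime])
  constructor
  · refine ⟨hOp D s hl hlM, fun k x => ?_⟩
    rw [trace_twistedRep, MonoidHom.comp_apply, hu, twist_hOp,
      ← hfr l hl hlM hl2 P hP τ hτ]
    rfl
  · refine ⟨(l : ℕ) • actE D s (D.cls (cycU M τ)⁻¹), fun k x => ?_⟩
    rw [det_twistedRep, MonoidHom.comp_apply, hdetR,
      Attach.cycR_frobenius _ _ hl hl2 hP hτ, mul_comm, LinearMap.smul_apply, map_nsmul,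
      twist_actE, Coh.AuxData.Choice.delta_cls, inv_inv, map_natCast, ← nsmul_eq_mul]
    rfl

/-- the determinant acts by the cyclotomic character and a diamond -/
theorem twist_det (hdetR : ∀ σ : GalQ, (R₀ σ).det =
      algebraMap O (TL s O LD S) (Attach.cycR Nat.prime_two two_mem_O σ))
    (σ : GalQ) (k : κ) (x : Mod D s) :
    twist s O hL LD (cs k) (hχ k)
        ((Attach.cycR Nat.prime_two two_mem σ • actE D s (D.cls (cycU M σ)⁻¹)) x) =
      ((rhoB s LD cs R₀ σ).det k : Module.End O (LL.lamPart LD (Coh.sysMap O s)))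
        (twist s O hL LD (cs k) (hχ k) x) := by
  rw [det_twistedRep, MonoidHom.comp_apply, hdetR, cycR_map (O := O), ← map_mul,
    LinearMap.smul_apply, map_smul, twist_actE, Coh.AuxData.Choice.delta_cls, inv_inv,
    ← algebraMap_smul O (Attach.cycR Nat.prime_two two_mem σ), smul_smul]
  rw [mul_comm (algebraMap ℤ_[2] O _)]
  rfl

end LevelRho

open LevelRho

variable {M r : ℕ} [NeZero M] {D : Coh.AuxData M r} (s : LL.Sys M ℤ_[2])
  {O : Type} [CommRing O] [IsDomain O] [IsDiscreteValuationRing O]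
  [IsAdicComplete (maximalIdeal O) O] [Finite (ResidueField O)] [CharZero O] [Algebra ℤ_[2] O]
  [Module.Finite ℤ_[2] O] [IsLocalHom (algebraMap ℤ_[2] O)]
  {L : ℕ} [NeZero L] (hL : L = D.N0 * D.tw.R ^ 2) (LD : JTors.LatticeData L) (S : Finset ℕ)
  {κ : Type} [Fintype κ] [Nonempty κ] (cs : κ → D.Choice O)
  (hχ : ∀ k a, (cs k).chi a - 1 ∈ maximalIdeal O)

/-- the representation of a level with diamonds -/
structure LevelRho (rb : GalQ →* M2 (ZMod 2)) : Type where
  T : Subalgebra ℤ_[2] (κ → TL s O LD S)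
  [isLocalRing : IsLocalRing T]
  [isLocalHom : IsLocalHom (algebraMap ℤ_[2] T)]
  [finite : Module.Finite ℤ_[2] T]
  [complete : IsAdicComplete (maximalIdeal T) T]
  π : T →+* ZMod 2
  π_surjective : Function.Surjective π
  ker_π : RingHom.ker π = maximalIdeal T
  ρ : GalQ →* M2 T
  res : ∀ σ, (ρ σ).map π = rb σ
  gen : Algebra.adjoin ℤ_[2] (Set.range fun σ => (ρ σ).trace) = ⊤
  level : ∀ n : ℕ, ∃ E : IntermediateField ℚ (AlgebraicClosure ℚ), FiniteDimensional ℚ E ∧
    ∀ σ : GalQ, (∀ x ∈ E, σ x = x) → ∀ a b, (2 : T) ^ n ∣ (ρ σ - 1) a b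
  φ : T →ₐ[ℤ_[2]] Module.End ℤ_[2] (Mod D s)
  twist_φ : ∀ (k : κ) (t : T) (x : Mod D s), twist s O hL LD (cs k) (hχ k) (φ t x) =
    ((t : κ → TL s O LD S) k : Module.End O (LL.lamPart LD (Coh.sysMap O s)))
      (twist s O hL LD (cs k) (hχ k) x)
  twist_injective : ∀ x : Mod D s, (∀ k, twist s O hL LD (cs k) (hχ k) x = 0) → x = 0
  frob : ∀ (l : ℕ) (hl : l.Prime) (hlM : ¬ l ∣ M) (_ : l ≠ 2)
    (P : ValuationSubring (AlgebraicClosure ℚ)), P.LiesOverPrime l →
    ∀ τ : GalQ, P.IsFrobeniusAt τ l → φ (ρ τ).trace = hOp D s hl hlM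
  φ_det : ∀ σ : GalQ, φ (ρ σ).det =
    Attach.cycR Nat.prime_two two_mem σ • actE D s (D.cls (cycU M σ)⁻¹)
  unr : ∀ q : ℕ, q.Prime → q ≠ 2 → ¬ q ∣ D.N0 → (∀ i, D.Q i ≠ q) →
    ∀ P : ValuationSubring (AlgebraicClosure ℚ), P.LiesOverPrime q →
      ∀ σ ∈ P.inertiaSubgroupIn ℚ, ρ σ = 1
  R₀ : GalQ →* M2 (TL s O LD S)
  Θ : M2 (TL s O LD S) →ₐ[O] Module.End O (LL.lamPart LD (Coh.sysMap O s))
  Θ_injective : Function.Injective Θ
  Θ_scalar : ∀ t : TL s O LD S, Θ (Matrix.scalar (Fin 2) t) =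
    (t : Module.End O (LL.lamPart LD (Coh.sysMap O s)))
  Θ_gal : ∀ (σ : GalQ) (x : LL.lamPart LD (Coh.sysMap O s)),
    ((Θ (R₀ σ) x : LL.lamPart LD (Coh.sysMap O s)) : O ⊗[ℤ] JTors.Lam L) =
      LL.galLam LD Nat.prime_two two_mem_O σ x.1
  det_R₀ : ∀ σ : GalQ, (R₀ σ).det =
    algebraMap O (TL s O LD S) (Attach.cycR Nat.prime_two two_mem_O σ)
  [isLocalRingTL : IsLocalRing (TL s O LD S)]
  [isLocalHomTL : IsLocalHom (algebraMap ℤ_[2] (TL s O LD S))]
  res_R₀ : ∀ σ : GalQ, (R₀ σ).trace -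
    algebraMap ℤ_[2] (TL s O LD S) ((rb σ).trace.val : ℤ_[2]) ∈ maximalIdeal (TL s O LD S)
  two_mem_S : 2 ∈ S
  mem_S : ∀ q : ℕ, q.Prime → q ∣ L → q ∈ S
  F : M2 (κ → TL s O LD S) →ₐ[κ → TL s O LD S] M2 (κ → TL s O LD S)
  map_ρ : ∀ σ, (ρ σ).map Subtype.val = F (rhoB s LD cs R₀ σ)
  trace_ρ : ∀ σ, ((ρ σ).trace : κ → TL s O LD S) = (rhoB s LD cs R₀ σ).trace
  det_ρ : ∀ σ, ((ρ σ).det : κ → TL s O LD S) = (rhoB s LD cs R₀ σ).det

attribute [instance] LevelRho.isLocalRing LevelRho.isLocalHom LevelRho.finite LevelRho.complete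

set_option maxHeartbeats 8000000 in
/-- levels with diamonds have representations -/
theorem exists_levelRho (hsum : ∀ u : D.Del, u ≠ 1 → ∑ k, (cs k).delta u = 0)
    (hpS : 2 ∈ S) (hS : ∀ l : ℕ, l.Prime → (l ∉ S ↔ ¬ l ∣ M ∧ l ∉ s.bad)) (hl0 : s.l0 ∉ S)
    (rb : GalQ →* M2 (ZMod 2)) (hlev : Deform.FinLevel fun σ => rb σ)
    (hfull : Submodule.span (ZMod 2) (Set.range rb) = ⊤)
    (hfrob : ∀ l : ℕ, l.Prime → l ∉ S → ∀ P : ValuationSubring (AlgebraicClosure ℚ),
      P.LiesOverPrime l → ∀ σ : GalQ, P.IsFrobeniusAt σ l →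
        (rb σ).trace = PadicInt.toZMod (s.eig l))
    (σ₀ : GalQ) (hσ₀ : (rb σ₀).trace = 1)
    (hw : ∃ w : ResidueField O, w ≠ 1 ∧ w ^ 2 + w + 1 = 0)
    (hne : s.E (LL.funRep ℤ_[2] D.X (M := M)) ≠ ⊥) :
    Nonempty (LevelRho s hL LD S cs hχ rb) := by
  classical
  haveI : Fact (Nat.Prime 2) := ⟨Nat.prime_two⟩
  have hbot : LL.lamPart LD (Coh.sysMap O s) ≠ ⊥ := fun h => hne <| by
    rw [Submodule.eq_bot_iff]
    intro x hx
    refine congrArg Subtype.val (eq_zero_of_twist s hL LD cs hχ hsum (x := ⟨x, hx⟩) fun k => ?_)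
    refine Subtype.ext ((Submodule.mem_bot O).1 ?_)
    rw [← h]
    exact (twist s O hL LD (cs k) (hχ k) ⟨x, hx⟩).2
  have hdivL : ∀ q : ℕ, q.Prime → q ∣ L → q ∣ D.N0 ∨ ∃ i, q = D.Q i := by
    intro q hq h
    rw [hL] at h
    rcases hq.dvd_mul.mp h with h | h
    · exact Or.inl h
    · obtain ⟨i, -, hi⟩ := (Prime.dvd_finsetProd_iff hq.prime _).mp (hq.dvd_of_dvd_pow h)
      exact Or.inr ⟨i, (Nat.prime_dvd_prime_iff_eq hq (D.prime i)).mp hi⟩
  have hNS : ∀ q : ℕ, q.Prime → q ∣ L → q ∈ S := fun q hq h => by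
    by_contra h'
    rcases hdivL q hq h with h | ⟨i, rfl⟩
    · exact ((hS q hq).1 h').1 (h.trans D.dvd0)
    · exact ((hS _ hq).1 h').1 (D.dvd i)
  obtain ⟨iL, iH, R₀, Θ, hΘinj, hΘt, hΘgal, hdetR, hres⟩ :=
    exists_latticeRep s LD S hpS hNS hS hl0 rb hlev hfull hfrob σ₀ hσ₀ hw hbot
  have hfr : ∀ (l : ℕ) (hl : l.Prime), ¬ l ∣ M → l ≠ 2 →
      ∀ P : ValuationSubring (AlgebraicClosure ℚ), P.LiesOverPrime l →
      ∀ τ : GalQ, P.IsFrobeniusAt τ l →
        (((R₀ τ).trace : TL s O LD S) : Module.End O (LL.lamPart LD (Coh.sysMap O s))) =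
          LL.lamT LD (Coh.sysMap O s) ⟨l, hl⟩ := fun l hl hlM hl2 P hP τ hτ =>
    trace_frob s LD S R₀ Θ hΘt hΘgal hdetR hl (fun h => hlM (by
      rcases hdivL l hl h with h | ⟨i, rfl⟩
      · exact h.trans D.dvd0
      · exact D.dvd i)) hl2 hP hτ
  haveI := finite_TL s LD S (O := O)
  haveI : Module.Finite ℤ_[2] (κ → TL s O LD S) := Module.Finite.pi
  let ρB := rhoB s LD cs R₀
  have hlevB : ∀ n : ℕ, ∃ E : IntermediateField ℚ (AlgebraicClosure ℚ), FiniteDimensional ℚ E ∧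
      ∀ σ : GalQ, (∀ x ∈ E, σ x = x) →
        ∀ a b, (2 : κ → TL s O LD S) ^ n ∣ (ρB σ - 1) a b := by
    intro n
    obtain ⟨E₁, hE₁, h₁⟩ := exists_level_R₀ s LD S R₀ Θ hΘinj hΘgal n
    obtain ⟨E₂, hE₂, h₂⟩ := Attach.exists_cyc_level M
    haveI := hE₁; haveI := hE₂
    refine ⟨E₁ ⊔ E₂, inferInstance, fun σ hσ a b' => ?_⟩
    have hc : cycU M σ = 1 := Units.ext (h₂ σ fun x hx => hσ x (le_sup_right (a := E₁) hx))
    exact dvd_twistedRep_sub_one _ R₀ (fun k => by rw [MonoidHom.comp_apply, hc, map_one]) _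
      (h₁ σ fun x hx => hσ x (le_sup_left (b := E₂) hx)) a b'
  have hresA : ∀ σ, ∀ k, (ρB σ).trace k -
      algebraMap ℤ_[2] (TL s O LD S) ((rb σ).trace.val : ℤ_[2]) ∈
        maximalIdeal (TL s O LD S) := fun σ k => by
    rw [trace_twistedRep, MonoidHom.comp_apply]
    exact hres σ _ (hχ k _)
  let T : Subalgebra ℤ_[2] (κ → TL s O LD S) :=
    Algebra.adjoin ℤ_[2] (Set.range fun σ => (ρB σ).trace)
  have hTr : T ≤ resAlg κ (TL s O LD S) :=
    Algebra.adjoin_le (Set.range_subset_iff.2 fun σ => ⟨_, hresA σ⟩)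
  have hTi : T ≤ interAlg s hL LD S cs hχ :=
    Algebra.adjoin_le (Set.range_subset_iff.2 (trace_mem _ ρB hlevB (insert 2 M.primeFactors)
      (frob_mem_interAlg s hL LD S cs hχ R₀ hdetR hfr)))
  obtain ⟨iT, iTh, iTf, iTc, iTH, π, hπs, hπk, hπv⟩ := exists_local T hTr
  let tr : GalQ → T := fun σ => ⟨(ρB σ).trace, Algebra.subset_adjoin ⟨σ, rfl⟩⟩
  obtain ⟨ρ, hρt, hρd, hρr, F, hρF⟩ := Carayol.exists_rep (T := T) Subtype.val_injective ρB π hπs
    rb tr (fun σ => rfl)
    (fun σ => by rw [hπv (tr σ) _ (hresA σ), map_natCast, ZMod.natCast_zmod_val]) hfull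
  obtain ⟨φ, hφ, huniq⟩ := exists_phi s hL LD S cs hχ T hTi hsum
  refine ⟨{ T := T
            π := π
            π_surjective := hπs
            ker_π := hπk
            ρ := ρ
            res := hρr
            gen := adjoin_trace_eq_top (fun σ => (ρB σ).trace) _
              fun σ => congrArg Subtype.val (hρt σ)
            level := exists_level T ρB ρ F hρF hlevB
            φ := φ
            twist_φ := hφ
            twist_injective := fun x => eq_zero_of_twist s hL LD cs hχ hsum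
            frob := ?frob
            φ_det := ?phidet
            unr := ?unr
            R₀ := R₀
            Θ := Θ
            Θ_injective := hΘinj
            Θ_scalar := hΘt
            Θ_gal := hΘgal
            det_R₀ := hdetR
            isLocalRingTL := iL
            isLocalHomTL := iH
            res_R₀ := fun σ => by
              have e := hres σ 1 (by rw [sub_self]; exact zero_mem _)
              rwa [one_smul] at e
            two_mem_S := hpS
            mem_S := hNS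
            F := F
            map_ρ := hρF
            trace_ρ := fun σ => congrArg Subtype.val (hρt σ)
            det_ρ := hρd }⟩
  case frob =>
    intro l hl hlM hl2 P hP τ hτ
    refine huniq _ _ fun k x => ?_
    have hu' : cycU M τ = ZMod.unitOfCoprime l ((hl.coprime_iff_not_dvd).mpr hlM) :=
      Units.ext (by rw [cycU_val, Attach.cyc_frobenius hl hlM hP hτ, ZMod.coe_unitOfCoprime])
    rw [hρt, show (tr τ : κ → TL s O LD S) k = (ρB τ).trace k from rfl, trace_twistedRep,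
      MonoidHom.comp_apply, hu', twist_hOp, ← hfr l hl hlM hl2 P hP τ hτ]
    rfl
  case phidet =>
    intro σ
    refine huniq _ _ fun k x => ?_
    rw [show ((ρ σ).det : κ → TL s O LD S) k = (ρB σ).det k from congrFun (hρd σ) k]
    exact twist_det s hL LD S cs hχ R₀ hdetR σ k x
  case unr =>
    intro q hq hq2 hqN hqQ P hP σ hσ
    have hqL : ¬ q ∣ L := fun h => by
      rcases hdivL q hq h with h | ⟨i, rfl⟩
      · exact hqN h
      · exact hqQ i rfl
    have hc : ∀ k, ((cs k).chi.comp (cycU M)) σ = 1 := fun k => by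
      show ∏ i, (cs k).ψ i (ZMod.unitsMap (D.dvd i) (cycU M σ) : ZMod (D.Q i)) = 1
      refine Finset.prod_eq_one fun i _ => ?_
      haveI : NeZero (D.Q i) := ⟨(D.prime i).ne_zero⟩
      rw [show ((ZMod.unitsMap (D.dvd i) (cycU M σ) : (ZMod (D.Q i))ˣ) : ZMod (D.Q i)) = 1 from
        (Attach.cyc_cast (D.dvd i) σ).trans (Attach.cyc_inertia hq
          (fun h => hqQ i ((Nat.prime_dvd_prime_iff_eq hq (D.prime i)).mp h).symm) hP hσ), map_one]
    have h1 : ρB σ = 1 :=
      twistedRep_eq_one _ R₀ hc (R₀_eq_one s LD S R₀ Θ hΘinj hΘgal hq hqL hq2 hP hσ)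
    exact eq_one_of_map T ρB ρ F hρF h1

end FLTAgent.R2

end
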