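import Fermat.Agent.R2.LevelSplit
import Fermat.Agent.R2.LevelNilp
import Fermat.Agent.R2.LevelRhoCore

/-!
Area R2, parcel G5: the quartic at a killing prime on classes with vanishing sum.

With `c` the sum of `W z` and `G = T² - (1 + q)² ⟨q⟩` (injective below), `φ (q tr² - (1 + q)² det) z`
is `q (pull back of T c) - q (1 + q) (W of the pull back of c)`: if `G G' = k ≠ 0` then `k z` minus
the old class of `(T G' c, -(1 + q) G' c)` has both sums zero, so the quartic kills it, and the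
traces of the two levels are intertwined by the degeneracy maps by Chebotarev.
-/

set_option autoImplicit false
set_option linter.style.haveILetI false
set_option linter.unusedSectionVars false
set_option synthInstance.maxHeartbeats 100000

noncomputable section

open scoped MatrixGroups
open Matrix IsLocalRing

namespace FLTAgent.R2.Lv

open FLTAgent.LL FLTAgent.R2.Coh

section Intertwine

theorem exists_dvd_level {T : Type} [CommRing T] (ρ : GQ →* Matrix (Fin 2) (Fin 2) T)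
    (hlev : ∀ m : ℕ, Deform.FinLevel fun σ =>
      (ρ σ).map (Ideal.Quotient.mk (Ideal.span {(2 : T) ^ m}))) (n : ℕ) :
    ∃ E : IntermediateField ℚ (AlgebraicClosure ℚ), FiniteDimensional ℚ E ∧
      ∀ σ : GQ, (∀ x ∈ E, σ x = x) → ∀ a b, (2 : T) ^ n ∣ (ρ σ - 1) a b := by
  obtain ⟨L, hL, h⟩ := hlev n
  refine ⟨L, hL, fun σ hσ a b => ?_⟩
  have e := congrFun (congrFun (h σ hσ) a) b
  rw [← Ideal.mem_span_singleton, ← Ideal.Quotient.eq_zero_iff_mem, Matrix.sub_apply, _root_.map_sub,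
    sub_eq_zero]
  simp only [Matrix.map_apply] at e
  rw [e, Matrix.one_apply, Matrix.one_apply, apply_ite (Ideal.Quotient.mk _), map_one, map_zero]

/-- Frobenius determines which linear maps intertwine the traces -/
theorem intertwine_trace {T T' : Type} [CommRing T] [Algebra Z2 T] [Module.Finite Z2 T]
    [CommRing T'] [Algebra Z2 T'] [Module.Finite Z2 T'] {V V' : Type} [AddCommGroup V]
    [Module Z2 V] [AddCommGroup V'] [Module Z2 V'] (φ : T →ₐ[Z2] Module.End Z2 V)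
    (φ' : T' →ₐ[Z2] Module.End Z2 V') (ψ : V' →ₗ[Z2] V)
    (ρ : GQ →* Matrix (Fin 2) (Fin 2) T) (ρ' : GQ →* Matrix (Fin 2) (Fin 2) T')
    (hlev : ∀ n : ℕ, ∃ E : IntermediateField ℚ (AlgebraicClosure ℚ), FiniteDimensional ℚ E ∧
      ∀ σ : GQ, (∀ x ∈ E, σ x = x) → ∀ a b, (2 : T) ^ n ∣ (ρ σ - 1) a b)
    (hlev' : ∀ n : ℕ, ∃ E : IntermediateField ℚ (AlgebraicClosure ℚ), FiniteDimensional ℚ E ∧
      ∀ σ : GQ, (∀ x ∈ E, σ x = x) → ∀ a b, (2 : T') ^ n ∣ (ρ' σ - 1) a b)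
    (S : Finset ℕ)
    (hfrob : ∀ (l : ℕ), l.Prime → l ∉ S → ∀ P : ValuationSubring (AlgebraicClosure ℚ),
      P.LiesOverPrime l → ∀ τ : GQ, P.IsFrobeniusAt τ l →
        (∀ v, ψ (φ' (ρ' τ).trace v) = φ (ρ τ).trace (ψ v)) ∧
          ∀ v, ψ (φ' (ρ' τ).det v) = φ (ρ τ).det (ψ v))
    (σ : GQ) (v : V') : ψ (φ' (ρ' σ).trace v) = φ (ρ σ).trace (ψ v) := by
  let W : Subalgebra Z2 (T × T') :=
    { carrier := {t | ∀ v, ψ (φ' t.2 v) = φ t.1 (ψ v)}
      mul_mem' := fun {s t} hs ht v => by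
        rw [Prod.fst_mul, Prod.snd_mul, map_mul, map_mul, Module.End.mul_apply,
          Module.End.mul_apply, hs, ht]
      add_mem' := fun {s t} hs ht v => by
        rw [Prod.fst_add, Prod.snd_add, _root_.map_add, _root_.map_add, LinearMap.add_apply,
          LinearMap.add_apply, _root_.map_add, hs, ht]
      algebraMap_mem' := fun c v => by
        rw [Prod.algebraMap_apply, AlgHom.commutes, AlgHom.commutes, Module.algebraMap_end_apply,
          Module.algebraMap_end_apply, map_smul] }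
  let r : GQ →* Matrix (Fin 2) (Fin 2) (T × T') :=
    { toFun := fun σ => Matrix.of fun a b => (ρ σ a b, ρ' σ a b)
      map_one' := by
        ext a b
        · rw [Matrix.of_apply, map_one]
          fin_cases a <;> fin_cases b <;> simp
        · rw [Matrix.of_apply, map_one ρ']
          fin_cases a <;> fin_cases b <;> simp
      map_mul' := fun g g' => by
        ext a b <;>
        simp [map_mul, Matrix.mul_apply, Fin.sum_univ_two] }
  have htr : ∀ σ, (r σ).trace = ((ρ σ).trace, (ρ' σ).trace) := fun σ => by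
    simp [r, Matrix.trace_fin_two]
  have hdet : ∀ σ, (r σ).det = ((ρ σ).det, (ρ' σ).det) := fun σ => by
    simp [r, Matrix.det_fin_two]
  have key := LevelRho.trace_mem W r (fun n => ?_) S (fun l hl hlS P hP τ hτ => ?_) σ
  · rw [htr] at key
    exact key v
  · obtain ⟨E, hE, h⟩ := hlev n
    obtain ⟨E', hE', h'⟩ := hlev' n
    haveI := hE
    haveI := hE'
    refine ⟨E ⊔ E', inferInstance, fun σ hσ a b => ?_⟩
    obtain ⟨c, hc⟩ := h σ (fun x hx => hσ x ((le_sup_left : E ≤ E ⊔ E') hx)) a b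
    obtain ⟨c', hc'⟩ := h' σ (fun x hx => hσ x ((le_sup_right : E' ≤ E ⊔ E') hx)) a b
    refine ⟨(c, c'), Prod.ext ?_ ?_⟩
    · refine Eq.trans ?_ hc
      rw [Matrix.sub_apply, Matrix.sub_apply, Prod.fst_sub]
      fin_cases a <;> fin_cases b <;> simp [r]
    · refine Eq.trans ?_ hc'
      rw [Matrix.sub_apply, Matrix.sub_apply, Prod.snd_sub]
      fin_cases a <;> fin_cases b <;> simp [r]
  · rw [htr, hdet]
    exact hfrob l hl hlS P hP τ hτ

/-- an injective endomorphism of a finite free module divides a non-zero scalar -/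
theorem exists_mul_eq_smul {V : Type} [AddCommGroup V] [Module Z2 V] [Module.Finite Z2 V]
    [Module.Free Z2 V] (G : Module.End Z2 V) (hG : ∀ v, G v = 0 → v = 0) :
    ∃ (k : Z2) (G' : Module.End Z2 V), k ≠ 0 ∧ ∀ v, G (G' v) = k • v := by
  classical
  let b := Module.Free.chooseBasis Z2 V
  let m := LinearMap.toMatrix b b G
  refine ⟨m.det, Matrix.toLin b b m.adjugate, fun h0 => ?_, fun v => ?_⟩
  · obtain ⟨w, hw, hmw⟩ := Matrix.exists_mulVec_eq_zero_iff.2 h0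
    refine hw (funext fun i => ?_)
    have hv := hG (b.equivFun.symm w) (b.equivFun.injective (by
      rw [map_zero, Module.Basis.equivFun_apply, ← LinearMap.toMatrix_mulVec_repr b b G,
        ← Module.Basis.equivFun_apply, LinearEquiv.apply_symm_apply]
      exact hmw))
    exact congrFun ((LinearEquiv.map_eq_zero_iff _).1 hv) i
  · have e : G ∘ₗ Matrix.toLin b b m.adjugate = m.det • LinearMap.id := by
      conv_lhs => rw [← Matrix.toLin_toMatrix b b G]
      rw [← Matrix.toLin_mul, Matrix.mul_adjugate, map_smul, Matrix.toLin_one]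
    exact LinearMap.congr_fun e v

/-- if what is new is killed by `tH² - s² dH`, a class with no first sum gives an old class -/
theorem old_of_quartic {V V' : Type} [AddCommGroup V] [Module Z2 V] [AddCommGroup V']
    [Module Z2 V'] [Module.IsTorsionFree Z2 V] [Module.Finite Z2 V'] [Module.Free Z2 V']
    (tH dH : Module.End Z2 V) (tL dL : Module.End Z2 V') (ψ₁ ψ₂ : V' →ₗ[Z2] V)
    (p₁ p₂ : V →ₗ[Z2] V') (s : Z2) (hcomm : ∀ v, tL (dL v) = dL (tL v))
    (ht₁ : ∀ v, tH (ψ₁ v) = ψ₁ (tL v)) (ht₂ : ∀ v, tH (ψ₂ v) = ψ₂ (tL v))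
    (hd₁ : ∀ v, dH (ψ₁ v) = ψ₁ (dL v)) (hd₂ : ∀ v, dH (ψ₂ v) = ψ₂ (dL v))
    (h11 : ∀ v, p₁ (ψ₁ v) = s • v) (h12 : ∀ v, p₁ (ψ₂ v) = tL v)
    (h21 : ∀ v, p₂ (ψ₁ v) = tL v) (h22 : ∀ v, p₂ (ψ₂ v) = s • dL v)
    (hG : ∀ v, tL (tL v) = s ^ 2 • dL v → v = 0)
    (hnew : ∀ v, p₁ v = 0 → p₂ v = 0 → tH (tH v) - s ^ 2 • dH v = 0)
    {z : V} (hz : p₁ z = 0) :
    tH (tH z) - s ^ 2 • dH z = ψ₁ (tL (p₂ z)) + ψ₂ (-(s • p₂ z)) := by
  let G : Module.End Z2 V' := tL * tL - s ^ 2 • dL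
  have hGv : ∀ v, G v = tL (tL v) - s ^ 2 • dL v := fun v => rfl
  obtain ⟨k, G', hk, hGG'⟩ := exists_mul_eq_smul G fun v hv =>
    hG v (sub_eq_zero.1 ((hGv v).symm.trans hv))
  have hGt : ∀ v, G (tL v) = tL (G v) := fun v => by
    rw [hGv, hGv, _root_.map_sub, map_smul, hcomm]
  obtain ⟨y, hy⟩ : ∃ y, y = ψ₁ (tL (G' (p₂ z))) + ψ₂ (-(s • G' (p₂ z))) := ⟨_, rfl⟩
  obtain ⟨Op, hOp⟩ : ∃ Op : Module.End Z2 V, Op = tH * tH - s ^ 2 • dH := ⟨_, rfl⟩
  have hOpv : ∀ v, Op v = tH (tH v) - s ^ 2 • dH v := fun v => by rw [hOp]; rfl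
  have hO₁ : ∀ v, Op (ψ₁ v) = ψ₁ (G v) := fun v => by
    rw [hOpv, ht₁, ht₁, hd₁, hGv, _root_.map_sub, map_smul]
  have hO₂ : ∀ v, Op (ψ₂ v) = ψ₂ (G v) := fun v => by
    rw [hOpv, ht₂, ht₂, hd₂, hGv, _root_.map_sub, map_smul]
  have h1 : p₁ y = 0 := by
    rw [hy, _root_.map_add, h11, h12, map_neg, map_smul, add_neg_cancel]
  have h2 : p₂ y = k • p₂ z := by
    rw [hy, _root_.map_add, h21, h22, ← hGG', hGv, map_neg, map_smul, smul_neg, smul_smul, sq,
      ← sub_eq_add_neg]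
  have hOy : Op y = k • (ψ₁ (tL (p₂ z)) + ψ₂ (-(s • p₂ z))) := by
    rw [hy, _root_.map_add, hO₁, hO₂, hGt, map_neg, map_smul, hGG']
    simp only [map_smul, map_neg, smul_add, smul_neg, smul_comm k s]
  have h0 : Op (k • z - y) = 0 := by
    rw [hOpv]
    refine hnew _ ?_ ?_
    · rw [_root_.map_sub, map_smul, hz, h1, smul_zero, sub_zero]
    · rw [_root_.map_sub, map_smul, h2, sub_self]
  rw [_root_.map_sub, map_smul, hOy, sub_eq_zero] at h0
  rw [← hOpv]
  exact smul_right_injective V hk h0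

end Intertwine

set_option maxHeartbeats 400000

variable {W : WeierstrassCurve ℤ} {hW : IsAnchor W} {B : Base W} {N : ℕ} {K : Aux hW B N} {n : ℕ}
  (D : TW K n)

theorem q_good (i : Fin K.k) : ¬ (K.q i : ℤ) ∣ W.Δ := fun h =>
  K.ndvd i ((Finset.dvd_prod_of_mem _ ((badOdd_spec hW).2 ⟨K.prime i, two_ne_q i, h⟩)).trans
    (dvd_mul_of_dvd_left (dvd_mul_left _ 2) _))

theorem good_red (d : SysData hW (bigM D)) (i : Fin K.k) :
    Good (d.red (exactKill D i).split.dvd') (exactKill D i).red where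
  sqfree := (squarefree_bigM D).squarefree_of_dvd
    (((exactKill D i).b_dvd).trans (exactKill D i).split.dvd')
  bad_dvd l hl := dvd_mul_of_dvd_left ((Finset.dvd_prod_of_mem _ hl).trans (dvd_mul_left _ 2)) _
  good_Q := (xData D).good_Q
  mod4_Q := (xData D).mod4_Q
  odd_Q := (xData D).odd_Q
  index j := ⟨_, index_auxH D j⟩
  sq_Q j h := ((dataF D).prime j).ne_one (Nat.isUnit_iff.mp
    (squarefree_bigM D _ (h.trans (exactKill D i).split.dvd')))

theorem free_E_lrRep {M r : ℕ} [NeZero M] (d : SysData hW M) (D : AuxData M r) :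
    Module.Free Z2 ((d.sys Z2).E (lrRep D)) :=
  (d.sys Z2).E_free (ρ := lrRep D) fun a F hF => by
    rcases eq_or_ne a 0 with ha | ha
    · exact Or.inl ha
    · refine Or.inr (funext fun x => ?_)
      have := congrFun hF x
      rw [Pi.smul_apply, smul_eq_mul, Pi.zero_apply] at this
      exact (mul_eq_zero.mp this).resolve_left ha

theorem det_frobenius {M r : ℕ} [NeZero M] {d : SysData hW M} {D : AuxData M r} (R : Rho d D)
    {l : ℕ} (hl : l.Prime) (h2 : l ≠ 2) (hlQ : ∀ i, D.Q i ≠ l)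
    {P : ValuationSubring (AlgebraicClosure ℚ)} (hP : P.LiesOverPrime l) {τ : GQ}
    (hτ : P.IsFrobeniusAt τ l) :
    R.φ (R.ρ τ).det = (l : Z2) • diaLam d D (fun i => QuotientGroup.mk
      (ZMod.unitOfCoprime l ((Nat.coprime_primes hl (D.prime i)).2 (hlQ i).symm))⁻¹) := by
  have h2m : (2 : Z2) ∈ maximalIdeal Z2 := by exact_mod_cast natCast_mem_Z2
  have key := R.det τ h2m
    (fun i => ZMod.unitOfCoprime l ((Nat.coprime_primes hl (D.prime i)).2 (hlQ i).symm)) fun i => by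
    haveI : NeZero (D.Q i) := ⟨(D.prime i).ne_zero⟩
    rw [ZMod.coe_unitOfCoprime, Attach.cyc_frobenius hl (fun hd => hlQ i
      ((Nat.prime_dvd_prime_iff_eq hl (D.prime i)).1 hd).symm) hP hτ]
  rwa [Attach.cycR_frobenius Nat.prime_two h2m hl h2 hP hτ] at key

/-- the traces are intertwined by whatever intertwines diamonds and Hecke operators -/
theorem intertwine_rho {M M' r : ℕ} [NeZero M] [NeZero M'] {d : SysData hW M} {d' : SysData hW M'}
    {D : AuxData M r} {D' : AuxData M' r} (hM' : M' ∣ M) (R : Rho d D) (R' : Rho d' D')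
    (ψ : (d'.sys Z2).E (lrRep D') →ₗ[Z2] (d.sys Z2).E (lrRep D))
    (hd : ∀ (l : ℕ) (hl : l.Prime), ¬ l ∣ M → ∀ (hQ : ∀ i, D.Q i ≠ l) (hQ' : ∀ i, D'.Q i ≠ l) v,
      ψ (diaLam d' D' (fun i => QuotientGroup.mk
        (ZMod.unitOfCoprime l ((Nat.coprime_primes hl (D'.prime i)).2 (hQ' i).symm))⁻¹) v) =
      diaLam d D (fun i => QuotientGroup.mk
        (ZMod.unitOfCoprime l ((Nat.coprime_primes hl (D.prime i)).2 (hQ i).symm))⁻¹) (ψ v))
    (hT : ∀ (l : ℕ) (hl : l.Prime) (hlM : ¬ l ∣ M) (v w : (d'.sys Z2).E (lrRep D')),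
      T (lrRep D') hl (fun h => hlM (h.trans hM')) v.1 = w.1 →
        T (lrRep D) hl hlM (ψ v).1 = (ψ w).1) (σ : GQ) (v : (d'.sys Z2).E (lrRep D')) :
    R.φ (R.ρ σ).trace (ψ v) = ψ (R'.φ (R'.ρ σ).trace v) := by
  refine (intertwine_trace R.φ R'.φ ψ R.ρ R'.ρ (exists_dvd_level R.ρ R.level)
    (exists_dvd_level R'.ρ R'.level)
    (M.primeFactors ∪ insert 2 (W.Δ.natAbs.primeFactors)) (fun l hl hlS Q hQ φl hφl => ?_) σ v).symm
  simp only [Finset.mem_union, Finset.mem_insert, Nat.mem_primeFactors, not_or, not_and] at hlS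
  obtain ⟨hlM', hl2, hlW'⟩ := hlS
  have hlM : ¬ l ∣ M := fun hh => hlM' hl hh (NeZero.ne _)
  have hlW : ¬ (l : ℤ) ∣ W.Δ := fun hh =>
    hlW' hl (Int.natCast_dvd.1 hh) (Int.natAbs_ne_zero.2 hW.neg.ne)
  have hlQ : ∀ j, D.Q j ≠ l := fun j hj => hlM (hj ▸ D.dvd j)
  have hlQ' : ∀ j, D'.Q j ≠ l := fun j hj => hlM ((hj ▸ D'.dvd j).trans hM')
  refine ⟨fun v => Subtype.ext ?_, fun v => ?_⟩
  · rw [R.trace l hl hlM hl2 hlW Q hQ φl hφl (ψ v)]
    exact (hT l hl hlM v _ (R'.trace l hl _ hl2 hlW Q hQ φl hφl v).symm).symm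
  · rw [det_frobenius R hl hl2 hlQ hQ hφl, det_frobenius R' hl hl2 hlQ' hQ hφl,
      LinearMap.smul_apply, LinearMap.smul_apply, map_smul, hd l hl hlM hlQ hlQ']

theorem quartic_eq {M r : ℕ} [NeZero M] {d : SysData hW M} {D : AuxData M r} (R : Rho d D)
    {q : ℕ} (x : Exact D q) (hq2 : q ≠ 2)
    {P : ValuationSubring (AlgebraicClosure ℚ)} (hP : P.LiesOverPrime q) {τ : GQ}
    (hτ : P.IsFrobeniusAt τ q) (v : (d.sys Z2).E (lrRep D)) :
    R.φ ((q : R.T) * (R.ρ τ).trace ^ 2 - (1 + (q : R.T)) ^ 2 * (R.ρ τ).det) v =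
      (q : Z2) • (R.φ (R.ρ τ).trace (R.φ (R.ρ τ).trace v) -
        (1 + (q : Z2)) ^ 2 • diaLam d D x.cls⁻¹ v) := by
  have hdet : R.φ (R.ρ τ).det = (q : Z2) • diaLam d D x.cls⁻¹ := by
    rw [det_frobenius R x.split.prime hq2 x.ne_Q hP hτ]
    rfl
  rw [show (q : R.T) * (R.ρ τ).trace ^ 2 - (1 + (q : R.T)) ^ 2 * (R.ρ τ).det =
    (q : Z2) • ((R.ρ τ).trace * (R.ρ τ).trace) - ((1 + (q : Z2)) ^ 2) • (R.ρ τ).det by
      rw [Algebra.smul_def, Algebra.smul_def, map_pow, _root_.map_add, map_one, map_natCast]; ring,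
    _root_.map_sub, map_smul, map_smul, map_mul, hdet, smul_sub, LinearMap.sub_apply,
    LinearMap.smul_apply, LinearMap.smul_apply, LinearMap.smul_apply, Module.End.mul_apply,
    smul_comm ((1 + (q : Z2)) ^ 2)]

/-- the general form: an exact level at a prime -/
theorem quartic_mem_old_aux {M r : ℕ} [NeZero M] {d : SysData hW M} {D : AuxData M r} (R : Rho d D)
    {q : ℕ} (x : Exact D q) (hq2 : q ≠ 2) (hqW : ¬ (q : ℤ) ∣ W.Δ) (hbad : q ∈ (d.sys Z2).bad)
    (hgr : Good (d.red x.split.dvd') x.red)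
    {z : (d.sys Z2).E (lrRep D)} (hz : x.pushX Z2 z.1 = 0)
    (P : ValuationSubring (AlgebraicClosure ℚ)) (hP : P.LiesOverPrime q)
    (τ : GQ) (hτ : P.IsFrobeniusAt τ q) :
    ∃ a b : H1 (x.lowRep Z2),
      (R.φ ((q : R.T) * (R.ρ τ).trace ^ 2 - (1 + (q : R.T)) ^ 2 * (R.ρ τ).det) z).1 =
        x.pullX Z2 a + (1 + (q : Z2)) • x.WX Z2 (x.pullX Z2 b) := by
  haveI : Module.Finite Z2 ((d.sys Z2).E (lrRep D)) := (d.sys Z2).E_finite
  haveI := free_E_lrRep d D
  haveI : Module.Finite Z2 (((d.red x.split.dvd').sys Z2).E (lrRep x.red)) :=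
    ((d.red x.split.dvd').sys Z2).E_finite
  haveI := free_E_lrRep (d.red x.split.dvd') x.red
  obtain ⟨e, heT, heA, heW, heE⟩ := x.exists_lowEquiv Z2
  have hmem : ∀ v : ((d.red x.split.dvd').sys Z2).E (lrRep x.red),
      e.symm v.1 ∈ (d.sys Z2).E (x.lowRep Z2) := fun v =>
    (heE (d.sys Z2) hbad _).1 (by rw [e.apply_symm_apply]; exact v.2)
  let ψ₁ : ((d.red x.split.dvd').sys Z2).E (lrRep x.red) →ₗ[Z2] (d.sys Z2).E (lrRep D) :=
    ((x.pullX Z2 ∘ₗ e.symm.toLinearMap) ∘ₗ Submodule.subtype _).codRestrict _ fun v =>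
      x.pullX_mem_E Z2 _ (hmem v)
  let ψ₂ : ((d.red x.split.dvd').sys Z2).E (lrRep x.red) →ₗ[Z2] (d.sys Z2).E (lrRep D) :=
    ((x.WX Z2 ∘ₗ x.pullX Z2 ∘ₗ e.symm.toLinearMap) ∘ₗ Submodule.subtype _).codRestrict _ fun v =>
      x.WX_mem_E Z2 _ (x.pullX_mem_E Z2 _ (hmem v))
  let p₁ : (d.sys Z2).E (lrRep D) →ₗ[Z2] ((d.red x.split.dvd').sys Z2).E (lrRep x.red) :=
    ((e.toLinearMap ∘ₗ x.pushX Z2) ∘ₗ Submodule.subtype _).codRestrict _ fun v =>
      (heE (d.sys Z2) hbad _).2 (x.pushX_mem_E Z2 _ v.2)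
  let p₂ : (d.sys Z2).E (lrRep D) →ₗ[Z2] ((d.red x.split.dvd').sys Z2).E (lrRep x.red) :=
    ((e.toLinearMap ∘ₗ x.pushX Z2 ∘ₗ x.WX Z2) ∘ₗ Submodule.subtype _).codRestrict _ fun v =>
      (heE (d.sys Z2) hbad _).2 (x.pushX_mem_E Z2 _ (x.WX_mem_E Z2 _ v.2))
  have hψ₁ : ∀ v, (ψ₁ v).1 = x.pullX Z2 (e.symm v.1) := fun v => rfl
  have hψ₂ : ∀ v, (ψ₂ v).1 = x.WX Z2 (x.pullX Z2 (e.symm v.1)) := fun v => rfl
  have hp₁ : ∀ v, (p₁ v).1 = e (x.pushX Z2 v.1) := fun v => rfl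
  have hp₂ : ∀ v, (p₂ v).1 = e (x.pushX Z2 (x.WX Z2 v.1)) := fun v => rfl
  have hnew : ∀ v, p₁ v = 0 → p₂ v = 0 → x.NewAt Z2 v.1 := fun v h1 h2 => by
    constructor
    · exact e.injective (((hp₁ v).symm.trans (congrArg Subtype.val h1)).trans (map_zero e).symm)
    · exact e.injective (((hp₂ v).symm.trans (congrArg Subtype.val h2)).trans (map_zero e).symm)
  have hq0 : (q : Z2) ≠ 0 := Nat.cast_ne_zero.2 x.split.prime.ne_zero
  by_cases hne : ((d.red x.split.dvd').sys Z2).E (lrRep x.red) = ⊥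
  · -- nothing below
    haveI : Subsingleton (((d.red x.split.dvd').sys Z2).E (lrRep x.red)) :=
      ⟨fun a b => Subtype.ext ((((Submodule.eq_bot_iff _).1 hne) _ a.2).trans
        (((Submodule.eq_bot_iff _).1 hne) _ b.2).symm)⟩
    have hk := R.quartic q x hq2 z (hnew z (Subsingleton.elim _ _) (Subsingleton.elim _ _)) P hP τ hτ
    refine ⟨0, 0, ?_⟩
    simp only [_root_.map_zero, smul_zero, add_zero]
    rw [_root_.map_sub, LinearMap.sub_apply, hk, sub_self]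
    rfl
  obtain ⟨R'⟩ := nonempty_rho (d.red x.split.dvd') x.red hgr hne
  have hdia : ∀ (u : D.Del) (v : ((d.red x.split.dvd').sys Z2).E (lrRep x.red)),
      (diaLam (d.red x.split.dvd') x.red u v).1 = map (isTwist_act Z2 x.red u) v.1 := fun u v => rfl
  have hdiaH : ∀ (u : D.Del) (v : (d.sys Z2).E (lrRep D)),
      (diaLam d D u v).1 = map (isTwist_act Z2 D u) v.1 := fun u v => rfl
  have hesA : ∀ (u : D.Del) y, e.symm (map (isTwist_act Z2 x.red u) y) =
      map (isTwist_act Z2 x.low u) (e.symm y) := fun u y =>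
    e.injective (by rw [e.apply_symm_apply, heA, e.apply_symm_apply])
  have hψd₁ : ∀ (u : D.Del) v,
      ψ₁ (diaLam (d.red x.split.dvd') x.red u v) = diaLam d D u (ψ₁ v) := fun u v => Subtype.ext (by
    rw [hψ₁, hdia, hesA, hdiaH, hψ₁]
    exact x.pullX_act Z2 u _)
  have hψd₂ : ∀ (u : D.Del) v,
      ψ₂ (diaLam (d.red x.split.dvd') x.red u v) = diaLam d D u (ψ₂ v) := fun u v => Subtype.ext (by
    rw [hψ₂, hdia, hesA, hdiaH, hψ₂]
    exact (congrArg (x.WX Z2) (x.pullX_act Z2 u _)).trans (x.WX_act Z2 u _))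
  have hesT : ∀ (l : ℕ) (hl : l.Prime) (hlM : ¬ l ∣ M)
      (v w : ((d.red x.split.dvd').sys Z2).E (lrRep x.red)),
      T (lrRep x.red) hl (fun h => hlM (h.trans x.split.dvd')) v.1 = w.1 →
        T (x.lowRep Z2) hl hlM (e.symm v.1) = e.symm w.1 := fun l hl hlM v w h =>
    e.injective (by rw [heT, e.apply_symm_apply, e.apply_symm_apply]; exact h)
  have hI₁ := intertwine_rho x.split.dvd' R R' ψ₁ (fun l hl _ hQ hQ' v => hψd₁ _ v)
    (fun l hl hlM v w h => by rw [hψ₁, hψ₁, ← hesT l hl hlM v w h, x.pullX_T]) τ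
  have hI₂ := intertwine_rho x.split.dvd' R R' ψ₂ (fun l hl _ hQ hQ' v => hψd₂ _ v)
    (fun l hl hlM v w h => by rw [hψ₂, hψ₂, ← hesT l hl hlM v w h, x.pullX_T, x.WX_T]) τ
  have hTq : ∀ v, (R'.φ (R'.ρ τ).trace v).1 = T (lrRep x.red) x.split.prime x.not_dvd_M' v.1 :=
    fun v => R'.trace q x.split.prime x.not_dvd_M' hq2 hqW P hP τ hτ v
  have hTW : ∀ y, e (x.pushX Z2 (x.WX Z2 (x.pullX Z2 y))) =
      T (lrRep x.red) x.split.prime x.not_dvd_M' (e y) := fun y => heW y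
  have hq1 : ((q + 1 : ℕ) : Z2) = 1 + (q : Z2) := by push_cast; ring
  have key := old_of_quartic (R.φ (R.ρ τ).trace) (diaLam d D x.cls⁻¹) (R'.φ (R'.ρ τ).trace)
    (diaLam (d.red x.split.dvd') x.red x.cls⁻¹) ψ₁ ψ₂ p₁ p₂ (1 + (q : Z2))
    (fun v => Subtype.ext (by
      rw [hTq, hdia, hdia, hTq]
      exact (map_T_one (isTwist_act Z2 x.red _) x.split.prime x.not_dvd_M' v.1).symm))
    hI₁ hI₂ (fun v => (hψd₁ _ v).symm) (fun v => (hψd₂ _ v).symm)
    (fun v => Subtype.ext (by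
      rw [hp₁, hψ₁, x.pushX_pullX, hq1, map_smul, e.apply_symm_apply, SetLike.val_smul]))
    (fun v => Subtype.ext (by rw [hp₁, hψ₂, hTW, e.apply_symm_apply, hTq]))
    (fun v => Subtype.ext (by rw [hp₂, hψ₁, hTW, e.apply_symm_apply, hTq]))
    (fun v => Subtype.ext (by
      rw [hp₂, hψ₂, x.WX_WX, x.pushX_act, x.pushX_pullX, map_smul, map_smul, heA,
        e.apply_symm_apply, hq1, SetLike.val_smul, hdia]))
    (fun v hv => by
      refine Subtype.ext (Tsq_injective (d.red x.split.dvd') x.red hgr x.split.prime x.not_dvd_M'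
        x.cls (fun j a ha => ?_) v.2 ?_)
      · show QuotientGroup.mk _ = QuotientGroup.mk a
        exact congrArg QuotientGroup.mk (Units.ext (by rw [ZMod.coe_unitOfCoprime, ha]))
      · have h2 := congrArg Subtype.val hv
        rw [hTq, hTq, SetLike.val_smul, hdia] at h2
        exact h2)
    (fun v h1 h2 => by
      have hk := R.quartic q x hq2 v (hnew v h1 h2) P hP τ hτ
      have e0 : R.φ ((q : R.T) * (R.ρ τ).trace ^ 2 -
          (1 + (q : R.T)) ^ 2 * (R.ρ τ).det) v = 0 := by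
        rw [_root_.map_sub, LinearMap.sub_apply, hk, sub_self]
      rw [quartic_eq R x hq2 hP hτ v] at e0
      exact (smul_eq_zero.1 e0).resolve_left hq0)
    (z := z) (Subtype.ext ((hp₁ z).trans (by rw [hz, map_zero]; rfl)))
  refine ⟨(q : Z2) • e.symm (R'.φ (R'.ρ τ).trace (p₂ z)).1, -((q : Z2) • e.symm (p₂ z).1), ?_⟩
  rw [quartic_eq R x hq2 hP hτ z, key]
  simp only [SetLike.val_smul, Submodule.coe_add, hψ₁, hψ₂, Submodule.coe_neg, map_neg, map_smul,
    smul_add, smul_neg, smul_comm (q : Z2) (1 + (q : Z2))]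

/-- the quartic at a killing prime sends classes with vanishing sum to old classes, the second
component a multiple of `1 + q` -/
theorem quartic_mem_old {d : SysData hW (bigM D)} (hd : SysGood d) (R : Rho d (dataF D))
    (i : Fin K.k) {z : (d.sys Z2).E (lrRep (dataF D))} (hz : (exactKill D i).pushX Z2 z.1 = 0)
    (P : ValuationSubring (AlgebraicClosure ℚ)) (hP : P.LiesOverPrime (K.q i))
    (τ : GQ) (hτ : P.IsFrobeniusAt τ (K.q i)) :
    ∃ a b : H1 ((exactKill D i).lowRep Z2),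
      (R.φ ((K.q i : R.T) * (R.ρ τ).trace ^ 2 - (1 + (K.q i : R.T)) ^ 2 * (R.ρ τ).det) z).1 =
        (exactKill D i).pullX Z2 a +
          (1 + (K.q i : Z2)) • (exactKill D i).WX Z2 ((exactKill D i).pullX Z2 b) := by
  refine quartic_mem_old_aux R (exactKill D i) (two_ne_q i) (q_good i)
    (Or.inr (Or.inr (hd.mem (K.q i) (K.prime i) ((K.q_dvd_lev i).trans (lev_dvd_bigM D)))))
    (good_red D d i) hz P hP τ hτ

end FLTAgent.R2.Lv

end
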