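import Fermat.Agent.R2.LevelLift
import Fermat.Agent.R2.LevelAuxTr

/-!
Area R2, parcel G5: the action of the trace algebra on the sign part.

The elements of the algebra sending lifts of classes of the sign part to lifts of classes of the sign
part form a closed subalgebra; it contains trace and determinant of almost all Frobenius elements
(Hecke operators and diamonds), hence all traces, hence is everything.
-/

set_option autoImplicit false
set_option linter.style.haveILetI false
set_option linter.unusedSectionVars false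
set_option maxHeartbeats 800000
set_option synthInstance.maxHeartbeats 200000

noncomputable section

open scoped MatrixGroups
open Matrix IsLocalRing

namespace FLTAgent.R2.Lv

open FLTAgent.LL FLTAgent.R2.Coh

variable {W : WeierstrassCurve ℤ} {hW : IsAnchor W} {B : Base W} {N : ℕ} {K : Aux hW B N} {n : ℕ}
  (D : TW K n) {d : SysData hW (bigM D)} (hd : SysGood d) (I : TopIso D d)
  (R : Rho d (dataF D)) (ε : ℤˣ) (d₀ : SysData hW K.lev) (hd₀ : SysGood d₀)

/-- scalars of `Z2` on the classes modulo `2 ^ (N + 1)` -/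
theorem iotaW_smul (c : Z2) (x : HX D) :
    iotaW D (algebraMap Z2 (Lam N) c • x) = c • iotaW D x :=
  (map_smul (iotaW D) _ x).trans (algebraMap_smul (Lam N) c (iotaW D x))

/-- the elements sending lifts to lifts of the sign part -/
def actAlg : Subalgebra Z2 R.T where
  carrier := {t | ∀ x ∈ signPart D d ε, ∃ y ∈ signPart D d ε, ∀ z : (d.sys Z2).E (lrRep (dataF D)),
    psiF D I z.1 = iotaW D x → psiF D I (R.φ t z).1 = iotaW D y}
  algebraMap_mem' c x hx := ⟨algebraMap Z2 (Lam N) c • x, Submodule.smul_mem _ _ hx, fun z hz => by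
    rw [AlgHom.commutes, Module.algebraMap_end_apply, SetLike.val_smul, map_smul, hz, iotaW_smul]⟩
  add_mem' := fun {t t'} ht ht' x hx => by
    obtain ⟨y, hy, h⟩ := ht x hx
    obtain ⟨y', hy', h'⟩ := ht' x hx
    refine ⟨y + y', add_mem hy hy', fun z hz => ?_⟩
    rw [_root_.map_add, LinearMap.add_apply, Submodule.coe_add, _root_.map_add, _root_.map_add,
      h z hz, h' z hz]
  mul_mem' := fun {t t'} ht ht' x hx => by
    obtain ⟨y, hy, h⟩ := ht' x hx
    obtain ⟨y', hy', h'⟩ := ht y hy
    refine ⟨y', hy', fun z hz => ?_⟩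
    rw [_root_.map_mul, Module.End.mul_apply]
    exact h' _ (h z hz)

theorem trace_det_mem {l : ℕ} (hl : l.Prime) (hlM : ¬ l ∣ bigM D) (h2 : l ≠ 2)
    (hlW : ¬ (l : ℤ) ∣ W.Δ) {P : ValuationSubring (AlgebraicClosure ℚ)} (hP : P.LiesOverPrime l)
    {τ : GQ} (hτ : P.IsFrobeniusAt τ l) :
    (R.ρ τ).trace ∈ actAlg D I R ε ∧ (R.ρ τ).det ∈ actAlg D I R ε := by
  have hlQ : ∀ i, (dataF D).Q i ≠ l := fun i hi => hlM (hi ▸ (dataF D).dvd i)
  refine ⟨fun x hx => ⟨_, T_mem_signPart D d ε hl hlM hx, fun z hz => ?_⟩, fun x hx => ?_⟩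
  · rw [R.trace l hl hlM h2 hlW P hP τ hτ z, psiF_T, hz, iotaW_T]
  · let u : (dataX D).Del := fun i => QuotientGroup.mk
      (ZMod.unitOfCoprime l ((Nat.coprime_primes hl ((dataF D).prime i)).2 (hlQ i).symm))⁻¹
    refine ⟨algebraMap Z2 (Lam N) (l : Z2) • diaT' D u x,
      Submodule.smul_mem _ _ (dia_mem_signPart D d ε u hx), fun z hz => ?_⟩
    rw [det_frobenius R hl h2 hlQ hP hτ, LinearMap.smul_apply, SetLike.val_smul, map_smul,
      iotaW_smul]
    exact congrArg ((l : Z2) • ·) (psiF_act D I hz u)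

/-- the algebra is everything -/
theorem actAlg_eq_top : actAlg D I R ε = ⊤ := by
  rw [eq_top_iff, ← R.gen, Algebra.adjoin_le_iff]
  rintro _ ⟨σ, rfl⟩
  refine LevelRho.trace_mem (actAlg D I R ε) R.ρ (exists_dvd_level R.ρ R.level)
    ((bigM D).primeFactors ∪ insert 2 W.Δ.natAbs.primeFactors) (fun l hl hlS P hP τ hτ => ?_) σ
  simp only [Finset.mem_union, Finset.mem_insert, Nat.mem_primeFactors, not_or, not_and] at hlS
  obtain ⟨hlM', hl2, hlW'⟩ := hlS
  exact trace_det_mem D I R ε hl (fun hh => hlM' hl hh (NeZero.ne _)) hl2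
    (fun hh => hlW' hl (Int.natCast_dvd.1 hh) (Int.natAbs_ne_zero.2 hW.neg.ne)) hP hτ

include hd in
theorem sign_eq {x y : HX D} (hx : x ∈ signPart D d ε) (hy : y ∈ signPart D d ε)
    (h : iotaW D x = iotaW D y) : x = y :=
  sub_eq_zero.1 (iotaW_injOn D hd
    (x := x - y) ((mem_newPart _ _ _).1 ((mem_signPart D d ε).1 (sub_mem hx hy)).1).1
    (by rw [_root_.map_sub, h, sub_self]))

section Generic

variable {A R' T E H S : Type*} [CommRing A] [CommRing R'] [CommRing T] [Algebra A T]
  [AddCommGroup E] [Module A E] [AddCommGroup H] [Module A H] [AddCommGroup S] [Module R' S]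

/-- endomorphisms defined through lifts form an action -/
theorem exists_theta_gen (σ : A →+* R') (hσ : Function.Surjective σ) (φ : T →ₐ[A] Module.End A E)
    (P : E →ₗ[A] H) (ι : S →+ H) (hι : Function.Injective ι)
    (hsmul : ∀ (c : A) (x : S), ι (σ c • x) = c • ι x) (hlift : ∀ x, ∃ z, P z = ι x)
    (hmem : ∀ t x, ∃ y, ∀ z, P z = ι x → P (φ t z) = ι y) :
    ∃ θ : T →+* Module.End R' S, (∀ c : A, θ (algebraMap A T c) = σ c • 1) ∧
      ∀ t x z, P z = ι x → P (φ t z) = ι (θ t x) := by
  choose θ hθ using hmem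
  have huniq : ∀ t x y z, P z = ι x → P (φ t z) = ι y → θ t x = y := fun t x y z hz h =>
    hι ((hθ t x z hz).symm.trans h)
  let Θ : T → Module.End R' S := fun t =>
    { toFun := θ t
      map_add' := fun x x' => by
        obtain ⟨z, hz⟩ := hlift x
        obtain ⟨z', hz'⟩ := hlift x'
        refine huniq t _ _ (z + z') ?_ ?_
        · rw [_root_.map_add, _root_.map_add, hz, hz']
        · rw [_root_.map_add, _root_.map_add, _root_.map_add, hθ t x z hz, hθ t x' z' hz']
      map_smul' := fun c x => by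
        obtain ⟨c, rfl⟩ := hσ c
        obtain ⟨z, hz⟩ := hlift x
        refine huniq t _ _ (c • z) ?_ ?_
        · rw [map_smul, hz, hsmul]
        · rw [map_smul, map_smul, RingHom.id_apply, hsmul, hθ t x z hz] }
  refine ⟨{ toFun := Θ, map_one' := ?_, map_mul' := ?_, map_zero' := ?_, map_add' := ?_ },
    fun c => LinearMap.ext fun x => ?_, fun t x z hz => hθ t x z hz⟩
  · refine LinearMap.ext fun x => ?_
    obtain ⟨z, hz⟩ := hlift x
    exact huniq 1 x x z hz (by rw [_root_.map_one, Module.End.one_apply, hz])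
  · intro t t'
    refine LinearMap.ext fun x => ?_
    obtain ⟨z, hz⟩ := hlift x
    exact huniq _ x _ z hz (by
      rw [_root_.map_mul, Module.End.mul_apply]; exact hθ t _ _ (hθ t' x z hz))
  · refine LinearMap.ext fun x => ?_
    obtain ⟨z, hz⟩ := hlift x
    exact huniq 0 x 0 z hz (by
      rw [_root_.map_zero, LinearMap.zero_apply, _root_.map_zero, _root_.map_zero])
  · intro t t'
    refine LinearMap.ext fun x => ?_
    obtain ⟨z, hz⟩ := hlift x
    exact huniq _ x _ z hz (by
      rw [_root_.map_add, LinearMap.add_apply, _root_.map_add, hθ t x z hz, hθ t' x z hz,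
        ← _root_.map_add]
      rfl)
  · obtain ⟨z, hz⟩ := hlift x
    refine huniq _ x _ z hz ?_
    rw [AlgHom.commutes, Module.algebraMap_end_apply, map_smul, hz, LinearMap.smul_apply,
      Module.End.one_apply, hsmul]

end Generic

include hd hd₀ in
/-- the trace algebra acts on the sign part through lifts -/
theorem exists_theta :
    ∃ θ : R.T →+* Module.End (Lam N) (signPart D d ε),
      (∀ c : Z2, θ (algebraMap Z2 R.T c) = algebraMap Z2 (Lam N) c • 1) ∧
      ∀ (t : R.T) (x : signPart D d ε) (z : (d.sys Z2).E (lrRep (dataF D))),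
        psiF D I z.1 = iotaW D x.1 → psiF D I (R.φ t z).1 = iotaW D (θ t x).1 :=
  exists_theta_gen (S := signPart D d ε) (algebraMap Z2 (Lam N)) (algebraMap_surjective N) R.φ
    (psiF D I ∘ₗ ((d.sys Z2).E (lrRep (dataF D))).subtype)
    ((iotaW D).toAddMonoidHom.comp (signPart D d ε).subtype.toAddMonoidHom)
    (fun x y h => Subtype.ext (sign_eq D hd ε x.2 y.2 h))
    (fun c x => iotaW_smul D c x.1)
    (fun x => by
      obtain ⟨z, hz, h, -⟩ := exists_lift_sign D hd I ε d₀ hd₀ x.2
      exact ⟨⟨z, hz⟩, h⟩)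
    (fun t x => by
      have ht : t ∈ actAlg D I R ε := by rw [actAlg_eq_top]; trivial
      obtain ⟨y, hy, h⟩ := ht x.1 x.2
      exact ⟨⟨y, hy⟩, h⟩)

end FLTAgent.R2.Lv

end
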