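import Fermat.Agent.R2.LevelCoeff
import Fermat.Agent.R2.CohInflate
import Fermat.Agent.R2.Defs
import Fermat.Agent.LL.TWCrt

/-!
Area R2, parcel G5: the new coefficient module at the killing primes embeds in the functions of
level `K.lev` modulo the old ones.
-/

set_option autoImplicit false
set_option linter.style.haveILetI false
set_option linter.unusedSectionVars false

noncomputable section

open scoped MatrixGroups
open Matrix

namespace FLTAgent.R2.Lv

open FLTAgent.LL FLTAgent.R2.Coh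

variable {W : WeierstrassCurve ℤ} {hW : IsAnchor W} {B : Base W} {N : ℕ} (K : Aux hW B N)
  {M : ℕ} [NeZero M] (hM : K.lev ∣ M)

/-- the killing primes at the modulus -/
def kset : KSet M where
  k := K.k
  q := K.q
  prime := K.prime
  dvd i := (K.q_dvd_lev i).trans hM

theorem kset_cong (i : Fin K.k) : (((kset K hM).q i + 1 : ℕ) : Lam N) = 0 := by
  show ((K.q i + 1 : ℕ) : Lam N) = 0
  rw [Nat.cast_add, Nat.cast_one, K.cong, neg_add_cancel]

/-- the lines of the level of the base -/
abbrev ZB (B : Base W) (M : ℕ) : Type := P1 M B.lev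

/-- the killing primes as auxiliary primes without diamonds -/
def killData : TWData M 3 K.k where
  N0 := B.lev
  dvd0 := (dvd_mul_right _ _).trans hM
  Q := K.q
  prime := K.prime
  inj := K.inj
  dvd := fun i => (K.q_dvd_lev i).trans hM
  ndvd := K.ndvd
  H _ := ⊤
  prime_p := Nat.prime_three
  p_ne_two := by decide
  index _ := ⟨0, by simp⟩

/-- `P¹(lev)` to the lines at each part -/
def splitLev (x : P1 M K.lev) : ZB B M × (kset K hM).YY :=
  (P1.proj M (dvd_mul_right _ _) x, fun i => P1.proj M (K.q_dvd_lev i) x)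

theorem splitLev_smul (g : GL (Fin 2) (ZMod M)) (x : P1 M K.lev) :
    splitLev K hM (g • x) = g • splitLev K hM x :=
  Prod.ext (P1.proj_smul (dvd_mul_right _ _) g x) (funext fun i => P1.proj_smul (K.q_dvd_lev i) g x)

theorem dvd_div_iff (i : Fin K.k) {a : ℤ} :
    ((K.lev / K.q i : ℕ) : ℤ) ∣ a ↔ (B.lev : ℤ) ∣ a ∧ ∀ j, j ≠ i → (K.q j : ℤ) ∣ a := by
  classical
  have e : K.lev / K.q i = B.lev * ∏ j ∈ Finset.univ.erase i, K.q j := by
    refine Nat.div_eq_of_eq_mul_left (K.prime i).pos ?_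
    rw [mul_assoc, Finset.prod_erase_mul _ _ (Finset.mem_univ i), Aux.lev]
  rw [e, Nat.cast_mul, Nat.cast_prod]
  refine ⟨fun h => ⟨(dvd_mul_right _ _).trans h, fun j hj => ?_⟩, fun h => ?_⟩
  · exact ((Finset.dvd_prod_of_mem (fun j => (K.q j : ℤ))
      (Finset.mem_erase.2 ⟨hj, Finset.mem_univ j⟩)).trans (dvd_mul_left _ _)).trans h
  · refine IsCoprime.mul_dvd ?_ h.1 (Finset.prod_dvd_of_coprime (fun a _ b _ hab => ?_)
      fun j hj => h.2 j (Finset.mem_erase.1 hj).1)
    · exact IsCoprime.prod_right fun j _ => Int.isCoprime_iff_nat_coprime.2 (by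
        simpa using ((K.prime j).coprime_iff_not_dvd.2 (K.ndvd j)).symm)
    · exact Int.isCoprime_iff_nat_coprime.2 (by
        simpa using (Nat.coprime_primes (K.prime a) (K.prime b)).2 fun h' => hab (K.inj h'))

include hM in
theorem proj_eq_iff {d : ℕ} (hd : d ∣ K.lev) (g g' : GL (Fin 2) (ZMod M)) {a : ℤ}
    (ha : (a : ZMod M) = (g⁻¹ * g').1 1 0) :
    P1.proj M hd (QuotientGroup.mk g : P1 M K.lev) = P1.proj M hd (QuotientGroup.mk g') ↔
      (d : ℤ) ∣ a := by
  show (QuotientGroup.mk g : P1 M d) = QuotientGroup.mk g' ↔ _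
  rw [QuotientGroup.eq, mem_B0_iff_int (hd.trans hM) ha]

include hM in
theorem projDiv_eq_iff (i : Fin K.k) (x y : P1 M K.lev) :
    P1.proj M (Nat.div_dvd_of_dvd (K.q_dvd_lev i)) x =
        P1.proj M (Nat.div_dvd_of_dvd (K.q_dvd_lev i)) y ↔
      (splitLev K hM x).1 = (splitLev K hM y).1 ∧
        ∀ j, j ≠ i → (splitLev K hM x).2 j = (splitLev K hM y).2 j := by
  obtain ⟨g, rfl⟩ := QuotientGroup.mk_surjective x
  obtain ⟨g', rfl⟩ := QuotientGroup.mk_surjective y
  obtain ⟨a, ha⟩ := ZMod.intCast_surjective ((g⁻¹ * g').1 1 0)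
  rw [proj_eq_iff K hM (Nat.div_dvd_of_dvd (K.q_dvd_lev i)) g g' ha, dvd_div_iff K i]
  exact and_congr (proj_eq_iff K hM (dvd_mul_right _ _) g g' ha).symm
    (forall₂_congr fun j _ => (proj_eq_iff K hM (K.q_dvd_lev j) g g' ha).symm)

theorem splitLev_injective : Function.Injective (splitLev K hM) := by
  intro x y h
  obtain ⟨g, rfl⟩ := QuotientGroup.mk_surjective x
  obtain ⟨g', rfl⟩ := QuotientGroup.mk_surjective y
  obtain ⟨a, ha⟩ := ZMod.intCast_surjective ((g⁻¹ * g').1 1 0)
  rw [QuotientGroup.eq, mem_B0_iff_int hM ha]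
  have h0 := (proj_eq_iff K hM (dvd_mul_right _ _) g g' ha).1 (congrArg Prod.fst h)
  have hj : ∀ j, (K.q j : ℤ) ∣ a := fun j =>
    (proj_eq_iff K hM (K.q_dvd_lev j) g g' ha).1 (congrFun (congrArg Prod.snd h) j)
  exact (killData K hM).N0R_dvd_int h0 hj

theorem splitLev_surjective : Function.Surjective (splitLev K hM) := fun y => by
  obtain ⟨z, hz⟩ := (killData K hM).projPY_surjective y
  obtain ⟨γ, hγ⟩ := (killData K hM).exists_red_smul_baseP z
  refine ⟨red M γ • P1.base M K.lev, ?_⟩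
  rw [splitLev_smul]
  exact (((killData K hM).projPY_smul _ _).symm.trans
    (congrArg (killData K hM).projPY hγ)).trans hz

/-- a point of the level, split into the lines at the larger modulus -/
def splitBot (x : P1 K.lev K.lev) : ZB B M × (kset K hM).YY :=
  splitLev K hM ((Equiv.ofBijective _ (p1Map_bijective hM (dvd_refl K.lev))).symm x)

theorem splitBot_p1Map (x : P1 M K.lev) : splitBot K hM (p1Map hM x) = splitLev K hM x :=
  congrArg (splitLev K hM) ((Equiv.ofBijective _ (p1Map_bijective hM (dvd_refl K.lev))).symm_apply_apply x)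

theorem projDiv_p1Map (i : Fin K.k) (x : P1 M K.lev) :
    P1.proj K.lev (Nat.div_dvd_of_dvd (K.q_dvd_lev i)) (p1Map hM x) =
      p1Map hM (P1.proj M (Nat.div_dvd_of_dvd (K.q_dvd_lev i)) x) := by
  induction x using QuotientGroup.induction_on with | H g => rfl

variable [Fintype (ZB B M)] [DecidableEq (ZB B M)]

theorem mem_oldSub_iff (F : ZB B M × (kset K hM).YY → Lam N) :
    F ∘ splitBot K hM ∈ oldSub K ↔ F ∈ ⨆ i, (kset K hM).indep (Lam N) (ZB B M) i := by
  classical
  have hsurj : ∀ z, ∃ x : P1 M K.lev, splitLev K hM x = z := splitLev_surjective K hM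
  have hb := p1Map_bijective hM (dvd_refl K.lev)
  constructor
  · intro h
    let f : (P1 K.lev K.lev → Lam N) →ₗ[Lam N] (ZB B M × (kset K hM).YY → Lam N) :=
      funPull (Lam N) fun z => p1Map hM (hsurj z).choose
    have hf : f (F ∘ splitBot K hM) = F := funext fun z => by
      show F (splitBot K hM (p1Map hM (hsurj z).choose)) = F z
      rw [splitBot_p1Map, (hsurj z).choose_spec]
    rw [← hf]
    have hle : (oldSub K).map f ≤ ⨆ i, (kset K hM).indep (Lam N) (ZB B M) i := by
      rw [oldSub, Submodule.map_iSup]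
      refine iSup_mono fun (i : Fin K.k) => ?_
      rintro _ ⟨_, ⟨G, rfl⟩, rfl⟩ z w h1 h2
      show G _ = G _
      rw [projDiv_p1Map, projDiv_p1Map, (projDiv_eq_iff K hM i _ _).2 ⟨?_, ?_⟩]
      · rw [(hsurj z).choose_spec, (hsurj w).choose_spec]
        exact h1
      · intro j hj
        rw [(hsurj z).choose_spec, (hsurj w).choose_spec]
        exact h2 j hj
    exact hle ⟨_, h, rfl⟩
  · intro h
    let f : (ZB B M × (kset K hM).YY → Lam N) →ₗ[Lam N] (P1 K.lev K.lev → Lam N) :=
      funPull (Lam N) (splitBot K hM)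
    have hle : (⨆ i, (kset K hM).indep (Lam N) (ZB B M) i).map f ≤ oldSub K := by
      rw [oldSub, Submodule.map_iSup]
      refine iSup_mono fun (i : Fin K.k) => ?_
      rintro _ ⟨G, hG, rfl⟩
      obtain ⟨s, hs⟩ : ∃ s : P1 K.lev (K.lev / K.q i) → P1 K.lev K.lev,
          ∀ y, P1.proj K.lev (Nat.div_dvd_of_dvd (K.q_dvd_lev i)) (s y) = y :=
        ⟨fun y => QuotientGroup.mk y.out, fun y => QuotientGroup.out_eq' y⟩
      refine ⟨fun y => G (splitBot K hM (s y)), funext fun x => ?_⟩
      show G _ = G _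
      obtain ⟨u, hu⟩ := hb.2 (s (P1.proj K.lev (Nat.div_dvd_of_dvd (K.q_dvd_lev i)) x))
      obtain ⟨v, hv⟩ := hb.2 x
      have he := hs (P1.proj K.lev (Nat.div_dvd_of_dvd (K.q_dvd_lev i)) x)
      rw [← hu, ← hv, splitBot_p1Map, splitBot_p1Map]
      rw [← hu, ← hv, projDiv_p1Map, projDiv_p1Map] at he
      have hinj := (p1Map_bijective hM (Nat.div_dvd_of_dvd (K.q_dvd_lev i))).1 he
      exact hG _ _ ((projDiv_eq_iff K hM i u v).1 hinj).1 ((projDiv_eq_iff K hM i u v).1 hinj).2
    exact hle ⟨_, h, rfl⟩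

/-- functions on the split lines, modulo the old ones -/
def botQ : (ZB B M × (kset K hM).YY → Lam N) →ₗ[Lam N]
    (P1 K.lev K.lev → Lam N) ⧸ oldSub K :=
  (oldSub K).mkQ ∘ₗ funPull (Lam N) (splitBot K hM)

theorem ker_botQ : LinearMap.ker (botQ K hM) =
    LinearMap.ker ((kset K hM).jT (Lam N) (ZB B M)) := by
  ext F
  rw [LinearMap.mem_ker, KSet.ker_jT, ← mem_oldSub_iff K hM]
  exact Submodule.Quotient.mk_eq_zero _

theorem splitBot_smul (g : GL (Fin 2) (ZMod M)) (x : P1 K.lev K.lev) :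
    splitBot K hM (gl hM g • x) = g • splitBot K hM x := by
  obtain ⟨u, rfl⟩ := (p1Map_bijective hM (dvd_refl K.lev)).2 x
  rw [← p1Map_smul, splitBot_p1Map, splitBot_p1Map, splitLev_smul]

theorem isTwist_botQ : IsTwist (funRep (Lam N) (ZB B M × (kset K hM).YY) (M := M))
    (inflate hM (botRep K)) 1 (botQ K hM) := fun g F => by
  rw [MonoidHom.one_apply, one_smul]
  refine congrArg (oldSub K).mkQ (funext fun x => ?_)
  show F (g⁻¹ • splitBot K hM x) = F (splitBot K hM ((gl hM g)⁻¹ • x))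
  rw [← map_inv, splitBot_smul]

/-- the image of `j` inside the functions modulo the old ones -/
def botJ : LinearMap.range ((kset K hM).jT (Lam N) (ZB B M)) →ₗ[Lam N]
    (P1 K.lev K.lev → Lam N) ⧸ oldSub K :=
  ((LinearMap.ker ((kset K hM).jT (Lam N) (ZB B M))).liftQ (botQ K hM) (ker_botQ K hM).ge) ∘ₗ
    ((kset K hM).jT (Lam N) (ZB B M)).quotKerEquivRange.symm.toLinearMap

theorem botJ_apply (F : ZB B M × (kset K hM).YY → Lam N) :
    botJ K hM ⟨(kset K hM).jT (Lam N) (ZB B M) F, LinearMap.mem_range_self _ F⟩ =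
      botQ K hM F := by
  rw [botJ, LinearMap.comp_apply, LinearEquiv.coe_coe,
    LinearMap.quotKerEquivRange_symm_apply_image _ F (LinearMap.mem_range_self _ F)]
  rfl

/-- the new coefficient module inside the functions modulo the old ones -/
def botW : LinearMap.range ((kset K hM).jpT (Lam N) (ZB B M)) →ₗ[Lam N]
    (P1 K.lev K.lev → Lam N) ⧸ oldSub K :=
  botJ K hM ∘ₗ Submodule.inclusion (LinearMap.range_comp_le_range _ _)

theorem botW_injective : Function.Injective (botW K hM) := by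
  refine Function.Injective.comp (g := botJ K hM) ?_ (Submodule.inclusion_injective _)
  refine (injective_iff_map_eq_zero _).2 ?_
  rintro ⟨_, F, rfl⟩ h
  rw [botJ_apply, ← LinearMap.mem_ker, ker_botQ, LinearMap.mem_ker] at h
  exact Subtype.ext h

theorem isTwist_botW :
    IsTwist ((kset K hM).WRep (Lam N) (ZB B M)) (inflate hM (botRep K)) 1 (botW K hM) := by
  intro g v
  obtain ⟨_, G, rfl⟩ := v
  rw [MonoidHom.one_apply, one_smul]
  have happ : ∀ G, botW K hM ⟨(kset K hM).jpT (Lam N) (ZB B M) G, LinearMap.mem_range_self _ G⟩ =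
      botQ K hM ((kset K hM).pT (Lam N) (ZB B M) G) := fun G => botJ_apply K hM _
  have hj := isTwist_rangeRestrict ((kset K hM).isTwist_jpT (Lam N) (ZB B M)) g G
  have hp := (kset K hM).isTwist_pT (Lam N) (ZB B M) g G
  have hq := isTwist_botQ K hM g ((kset K hM).pT (Lam N) (ZB B M) G)
  rw [MonoidHom.one_apply, one_smul] at hj hp hq
  refine (congrArg (botW K hM) hj.symm).trans ?_
  exact ((happ _).trans ((congrArg (botQ K hM) hp).trans hq)).trans
    (congrArg _ (happ G).symm)

end FLTAgent.R2.Lv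

end
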