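import Fermat.Agent.R2.Defs
import Fermat.Agent.R2.CohInflate
import Fermat.Agent.R2.CohExt
import Fermat.Agent.R2.JoinL0

/-!
Area R2, parcel G: the systems of eigenvalues of an anchor at the moduli of the levels, over the
two-adic integers and over `Lam N`.
-/

set_option autoImplicit false
set_option linter.style.haveILetI false

noncomputable section

namespace FLTAgent.R2.Lv

open FLTAgent.LL FLTAgent.R2.Coh IsLocalRing

instance fact_two : Fact (Nat.Prime 2) := ⟨Nat.prime_two⟩

/-- the two-adic integers -/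
abbrev Z2 : Type := ℤ_[2]

instance algebra_lam (N : ℕ) : Algebra Z2 (Lam N) := (PadicInt.toZModPow (N + 1)).toAlgebra

theorem algebraMap_surjective (N : ℕ) : Function.Surjective (algebraMap Z2 (Lam N)) :=
  ZMod.ringHom_surjective _

variable {W : WeierstrassCurve ℤ}

/-- the auxiliary prime and the excluded primes of a system -/
structure SysData (hW : IsAnchor W) (M : ℕ) : Type where
  l0 : ℕ
  prime : l0.Prime
  one : (l0 : ZMod M) = 1
  good : ¬ (l0 : ℤ) ∣ W.Δ
  odd_ap : Odd (W.apOfModel l0)
  S : Finset ℕ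
  notMem : l0 ∉ S

theorem nonempty_sysData (hW : IsAnchor W) (M : ℕ) [NeZero M] (S : Finset ℕ) :
    ∃ d : SysData hW M, d.S = S ∧ d.l0 ≠ 2 := by
  obtain ⟨l, hl, hlS, h1, hg, hodd⟩ := Join.exists_l0 hW M (S ∪ {2})
  rw [Finset.mem_union, Finset.mem_singleton, not_or] at hlS
  exact ⟨⟨l, hl, h1, hg, hodd, S, hlS.1⟩, rfl, hlS.2⟩

namespace SysData

variable {hW : IsAnchor W} {M : ℕ} (d : SysData hW M)

/-- the same data at a smaller modulus -/
def red {M' : ℕ} (h : M' ∣ M) : SysData hW M' where
  l0 := d.l0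
  prime := d.prime
  one := by
    have e := congrArg (ZMod.castHom h (ZMod M')) d.one
    rwa [map_natCast, map_one] at e
  good := d.good
  odd_ap := d.odd_ap
  S := d.S
  notMem := d.notMem

/-- the system: eigenvalue `a_l` at the good odd primes outside the excluded set -/
def sys (A : Type*) [CommRing A] : Sys M A where
  l0 := d.l0
  prime_l0 := d.prime
  l0_eq_one := d.one
  bad := {l | l = 2 ∨ (l : ℤ) ∣ W.Δ ∨ l ∈ d.S}
  eig l := (W.apOfModel l : A)

theorem sysRed_sys {M' : ℕ} (h : M' ∣ M) (A : Type*) [CommRing A] :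
    sysRed h (d.sys A) = (d.red h).sys A := rfl

theorem sysMap_sys (A A' : Type*) [CommRing A] [CommRing A'] [Algebra A A'] :
    sysMap A' (d.sys A) = d.sys A' := by
  unfold sysMap sys
  simp only [map_intCast]

end SysData

end FLTAgent.R2.Lv

end
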