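import Fermat.Agent.R2.LevelTop
import Fermat.Agent.R2.LevelBot
import Fermat.Agent.R2.LevelSys
import Fermat.Agent.R2.CohExt

/-!
Area R2, parcel G5: the three coefficient modules at the killing primes, functions on lines, on pairs
of lines and the new module, inside functions on a set with values in them.
-/

set_option autoImplicit false
set_option linter.style.haveILetI false
set_option linter.unusedSectionVars false

noncomputable section

open scoped MatrixGroups
open Matrix IsLocalRing

namespace FLTAgent.R2.Lv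

open FLTAgent.LL FLTAgent.R2.Coh

section Fix

variable {M M' : ℕ} [NeZero M] [NeZero M'] (hM : M' ∣ M)

/-- an element congruent to one fixes the pairs of lines at a prime of the smaller modulus -/
theorem smul_pq_of_gl_one {q : ℕ} [Fact q.Prime] (hq : q ∣ M') (hqM : q ∣ M)
    {g : GL (Fin 2) (ZMod M)} (hg : gl hM g = 1) (z : Pq hqM) : g • z = z :=
  pq_ext hqM (by rw [fstq_smul, smul_p1_of_gl_one hM hq hg])
    (by rw [sndq_smul, smul_p1_of_gl_one hM hq hg])

end Fix

variable {W : WeierstrassCurve ℤ} {hW : IsAnchor W} {B : Base W} {N : ℕ} (K : Aux hW B N)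
  {M : ℕ} [NeZero M] (hM : K.lev ∣ M)

/-- functions on lines at the killing primes -/
abbrev tY (A : Type*) [CommRing A] :
    Representation A (GL (Fin 2) (ZMod M)) (PUnit.{1} × (kset K hM).YY → A) :=
  funRep A (PUnit.{1} × (kset K hM).YY) (M := M)

/-- functions on pairs of lines at the killing primes -/
abbrev tP (A : Type*) [CommRing A] :
    Representation A (GL (Fin 2) (ZMod M)) (PUnit.{1} × (kset K hM).PP → A) :=
  funRep A (PUnit.{1} × (kset K hM).PP) (M := M)

/-- the values of the new coefficient module -/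
abbrev WCar : Submodule (Lam N) (PUnit.{1} × (kset K hM).PP → Lam N) :=
  LinearMap.range ((kset K hM).jpT (Lam N) PUnit.{1})

/-- the new coefficient module -/
abbrev tW : Representation (Lam N) (GL (Fin 2) (ZMod M)) (WCar K hM) :=
  (kset K hM).WRep (Lam N) PUnit.{1}

theorem neg_one_tY (A : Type*) [CommRing A] : tY K hM A (red M (-1)) = 1 :=
  funRep_neg_one fun x => Prod.ext rfl (funext fun i => P1.red_neg_one_smul (x.2 i))

theorem neg_one_tP (A : Type*) [CommRing A] : tP K hM A (red M (-1)) = 1 :=
  funRep_neg_one ((kset K hM).neg_one_smul PUnit.{1} fun _ => rfl)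

theorem neg_one_tW : tW K hM (red M (-1)) = 1 :=
  LinearMap.ext fun v => Subtype.ext (LinearMap.congr_fun (neg_one_tP K hM (Lam N)) v.1)

/-- a prime exactly dividing the modulus apart from the killing primes -/
theorem q_dvd_of_split {p M' : ℕ} (h : Split M p M') (hp : ∀ i, K.q i ≠ p) (i : Fin K.k) :
    (kset K hM).q i ∣ M' := by
  have hd : (kset K hM).q i ∣ p * M' := h.eq ▸ (kset K hM).dvd i
  refine ((K.prime i).dvd_mul.1 hd).resolve_left fun hd' => hp i ?_
  exact (Nat.prime_dvd_prime_iff_eq (K.prime i) h.prime).1 hd'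

variable {p M' : ℕ} [NeZero M'] (h : Split M p M') (hp : ∀ i, K.q i ≠ p)

include hp in
theorem fac_tY (A : Type*) [CommRing A] : Fac h (tY K hM A) := fun g hg => by
  refine LinearMap.ext fun F => funext fun z => ?_
  rw [funRep_apply, Module.End.one_apply]
  refine congrArg F (inv_smul_eq_iff.2
    (show g • z = z from Prod.ext rfl (funext fun i => ?_)).symm)
  exact smul_p1_of_gl_one h.dvd' (q_dvd_of_split K hM h hp i) hg (z.2 i)

include hp in
theorem fac_tP (A : Type*) [CommRing A] : Fac h (tP K hM A) := fun g hg => by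
  refine LinearMap.ext fun F => funext fun z => ?_
  rw [funRep_apply, Module.End.one_apply]
  refine congrArg F (inv_smul_eq_iff.2
    (show g • z = z from Prod.ext rfl (funext fun i => ?_)).symm)
  exact smul_pq_of_gl_one h.dvd' (q_dvd_of_split K hM h hp i) ((kset K hM).dvd i) hg (z.2 i)

include hp in
theorem fac_tW : Fac h (tW K hM) := fun g hg =>
  LinearMap.ext fun v => Subtype.ext (LinearMap.congr_fun (fac_tP K hM h hp (Lam N) g hg) v.1)

theorem isTwist_incW : IsTwist (tW K hM) (tP K hM (Lam N)) 1 (WCar K hM).subtype :=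
  isTwist_rangeSubtype _

/-- reduction followed by `j` on the values -/
def redJVal : (PUnit.{1} × (kset K hM).YY → Z2) →ₗ[Z2] (PUnit.{1} × (kset K hM).PP → Lam N) :=
  ((kset K hM).jT (Lam N) PUnit.{1}).restrictScalars Z2 ∘ₗ
    funExt Z2 (Lam N) (PUnit.{1} × (kset K hM).YY)

theorem isTwist_redJVal :
    IsTwist (tY K hM Z2) (resRep (A := Z2) (tP K hM (Lam N))) 1 (redJVal K hM) := fun g F => by
  rw [MonoidHom.one_apply, one_smul]
  have e : funExt Z2 (Lam N) (PUnit.{1} × (kset K hM).YY) (tY K hM Z2 g F) =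
      tY K hM (Lam N) g (funExt Z2 (Lam N) _ F) := rfl
  have h2 := (kset K hM).isTwist_jT (Lam N) PUnit.{1} g (funExt Z2 (Lam N) _ F)
  rw [MonoidHom.one_apply, one_smul] at h2
  show (kset K hM).jT (Lam N) PUnit.{1} (funExt Z2 (Lam N) _ (tY K hM Z2 g F)) = _
  rw [e, h2]
  rfl

variable (X : Type) [MulAction (GL (Fin 2) (ZMod M)) X] (p)

theorem isTwist_redJTop :
    IsTwist (pRep (p := p) (funTensor (tY K hM Z2) X))
      (resRep (A := Z2) (pRep (p := p) (funTensor (tP K hM (Lam N)) X))) 1
      (((redJVal K hM).compLeft X).compLeft (P1 M p)) := fun g F => by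
  rw [MonoidHom.one_apply, one_smul]
  funext a y
  have h2 := isTwist_redJVal K hM g (F (g⁻¹ • a) (g⁻¹ • y))
  rw [MonoidHom.one_apply, one_smul] at h2
  exact h2

/-- reduction followed by `j` at the top -/
def redJ : H1 (pRep (p := p) (funTensor (tY K hM Z2) X)) →ₗ[Z2]
    H1 (pRep (p := p) (funTensor (tP K hM (Lam N)) X)) :=
  extH (pRep (p := p) (funTensor (tP K hM (Lam N)) X)) (isTwist_redJTop K hM p X)

/-- the new module inside the functions on pairs, at the top -/
def incW : H1 (pRep (p := p) (funTensor (tW K hM) X)) →ₗ[Lam N]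
    H1 (pRep (p := p) (funTensor (tP K hM (Lam N)) X)) :=
  LL.map (isTwist_postcomp (funTensor (tW K hM) X) (isTwist_compLeft (tW K hM) (isTwist_incW K hM)))

theorem isTwist_pTop :
    IsTwist (pRep (p := p) (funTensor (tP K hM Z2) X)) (pRep (p := p) (funTensor (tY K hM Z2) X)) 1
      ((((kset K hM).pT Z2 PUnit.{1}).compLeft X).compLeft (P1 M p)) :=
  isTwist_postcomp _ (isTwist_compLeft _ ((kset K hM).isTwist_pT Z2 PUnit.{1}))

end FLTAgent.R2.Lv

end
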