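import Fermat.Agent.R2.CohAux
import Fermat.Agent.LL.TWRank
import Fermat.Agent.Genus.Cosets

/-!
Area R2, parcel G5: the new coefficient module at primes `q ≡ -1`.

On functions on pairs of lines at the primes, `jp` is the composite of `δ(a, b) ↦ δa - δb` and
`F ↦ ((a, b) ↦ F a - F b)`, at every prime, times the identity on a further set.  Its image is a
direct summand, a quotient of the functions on pairs and, being contained in the image of the
second map, embedded in functions on lines modulo the old ones (`ker_jT`).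
-/

set_option autoImplicit false
set_option linter.style.haveILetI false
set_option linter.unusedSectionVars false

noncomputable section

open scoped MatrixGroups
open Matrix

namespace FLTAgent.R2.Lv

open FLTAgent.LL FLTAgent.R2.Coh

section Range

variable {M : ℕ} {A : Type*} [CommRing A] {V V' : Type*} [AddCommGroup V] [Module A V]
  [AddCommGroup V'] [Module A V'] {ρ : Representation A (GL (Fin 2) (ZMod M)) V}
  {ρ' : Representation A (GL (Fin 2) (ZMod M)) V'} {Φ : V →ₗ[A] V'}

/-- the representation on the image of an equivariant map -/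
def rangeRep (h : IsTwist ρ ρ' 1 Φ) :
    Representation A (GL (Fin 2) (ZMod M)) (LinearMap.range Φ) where
  toFun g := (ρ' g).restrict fun v hv => by
    obtain ⟨w, rfl⟩ := hv
    exact ⟨ρ g w, by rw [h, MonoidHom.one_apply, one_smul]⟩
  map_one' := LinearMap.ext fun v => Subtype.ext (by simp)
  map_mul' g g' := LinearMap.ext fun v => Subtype.ext (by simp)

theorem isTwist_rangeRestrict (h : IsTwist ρ ρ' 1 Φ) :
    IsTwist ρ (rangeRep h) 1 Φ.rangeRestrict := fun g v => by
  rw [MonoidHom.one_apply, one_smul]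
  refine Subtype.ext ?_
  show Φ (ρ g v) = ρ' g (Φ v)
  rw [h, MonoidHom.one_apply, one_smul]

theorem isTwist_rangeSubtype (h : IsTwist ρ ρ' 1 Φ) :
    IsTwist (rangeRep h) ρ' 1 (LinearMap.range Φ).subtype := fun g v => by
  rw [MonoidHom.one_apply, one_smul]
  rfl

end Range

section Kernels

variable {A : Type*} [CommRing A]

theorem funKer_comp {X Y Z : Type*} [Fintype X] [Fintype Y] (K : Z → Y → A) (L : Y → X → A) :
    funKer K ∘ₗ funKer L = funKer fun z x => ∑ y, K z y * L y x := by
  ext F z
  simp only [LinearMap.comp_apply, funKer_apply, Finset.mul_sum, Finset.sum_mul, mul_assoc]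
  exact Finset.sum_comm

theorem funKer_inj {X Z : Type*} [Fintype X] {K L : Z → X → A} (h : funKer K = funKer L) :
    K = L := by
  classical
  funext z x
  simpa [funKer_apply, Pi.single_apply] using congrFun (LinearMap.congr_fun h (Pi.single x 1)) z

variable {ι : Type*} [Fintype ι] {B C E : ι → Type*} (Z : Type*) [Fintype Z] [DecidableEq Z]

/-- the product of kernels, times the identity on `Z` -/
def tens (K : ∀ i, B i → C i → A) : (Z × ∀ i, B i) → (Z × ∀ i, C i) → A := fun z x =>
  (if z.1 = x.1 then 1 else 0) * ∏ i, K i (z.2 i) (x.2 i)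

theorem tens_comp [DecidableEq ι] [∀ i, Fintype (C i)] (K : ∀ i, B i → C i → A) (L : ∀ i, C i → E i → A) :
    (fun z x => ∑ y, tens Z K z y * tens Z L y x) =
      tens Z fun i b e => ∑ c, K i b c * L i c e := by
  classical
  funext z x
  rw [Fintype.sum_prod_type, Finset.sum_eq_single z.1]
  · simp only [tens, if_true, one_mul, mul_left_comm (∏ i, K i _ _), ← Finset.prod_mul_distrib]
    rw [Fintype.prod_sum, Finset.mul_sum]
  · intro b _ hb
    simp [tens, if_neg hb.symm]
  · exact fun h => absurd (Finset.mem_univ _) h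

theorem tens_id [∀ i, DecidableEq (C i)] [Fintype (∀ i, C i)] (F : (Z × ∀ i, C i) → A) :
    funKer (tens Z fun i (b c : C i) => if b = c then (1 : A) else 0) F = F := by
  classical
  funext x
  rw [funKer_apply, Finset.sum_eq_single x]
  · simp [tens]
  · intro y _ hy
    rw [tens]
    by_cases h1 : x.1 = y.1
    · obtain ⟨i, hi⟩ : ∃ i, x.2 i ≠ y.2 i := by
        by_contra hcon
        push Not at hcon
        exact hy (Prod.ext h1.symm (funext hcon).symm)
      rw [Finset.prod_eq_zero (Finset.mem_univ i) (if_neg hi), mul_zero, zero_mul]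
    · rw [if_neg h1, zero_mul, zero_mul]
  · exact fun h => absurd (Finset.mem_univ _) h

theorem tens_smul {M : ℕ} [MulAction (GL (Fin 2) (ZMod M)) Z]
    [∀ i, MulAction (GL (Fin 2) (ZMod M)) (B i)] [∀ i, MulAction (GL (Fin 2) (ZMod M)) (C i)]
    (K : ∀ i, B i → C i → A)
    (hK : ∀ i (g : GL (Fin 2) (ZMod M)) b c, K i (g • b) (g • c) = K i b c)
    (g : GL (Fin 2) (ZMod M)) (z : Z × ∀ i, B i) (x : Z × ∀ i, C i) :
    tens Z K (g • z) (g • x) = tens Z K z x := by
  simp only [tens, Prod.smul_fst, Prod.smul_snd, Pi.smul_apply, hK, smul_left_cancel_iff]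

end Kernels

section Pairs

variable {M q : ℕ} [NeZero M] [Fact q.Prime] (hq : q ∣ M)

theorem mem_B0_iff_cq {g : GL (Fin 2) (ZMod M)} : g ∈ B0 M q ↔ (cq hq g).1 1 0 = 0 := by
  obtain ⟨a, ha⟩ := ZMod.intCast_surjective (g.1 1 0)
  rw [mem_B0_iff_int hq ha, cq_apply, ← ha, map_intCast, ZMod.intCast_zmod_eq_zero_iff_dvd]

/-- exchanging the coordinates -/
def wsw (M : ℕ) : GL (Fin 2) (ZMod M) :=
  ⟨!![0, 1; 1, 0], !![0, 1; 1, 0], by ext i j; fin_cases i <;> fin_cases j <;> simp,
    by ext i j; fin_cases i <;> fin_cases j <;> simp⟩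

theorem cq_wsw : (cq hq (wsw M)).1 = !![0, 1; 1, 0] := by
  ext i j
  rw [cq_apply]
  fin_cases i <;> fin_cases j <;> simp [wsw, -ZMod.castHom_apply]

/-- first line -/
def fstq : Pq hq → P1 M q :=
  Subgroup.quotientMapOfLE fun g (hg : g ∈ CQq hq) => (mem_B0_iff_cq hq).2 hg.1

/-- second line -/
def sndq : Pq hq → P1 M q :=
  Quotient.map' (· * wsw M) fun a b h => by
    rw [QuotientGroup.leftRel_apply] at h ⊢
    rw [mem_B0_iff_cq hq]
    rw [show (a * wsw M)⁻¹ * (b * wsw M) = (wsw M)⁻¹ * (a⁻¹ * b) * wsw M by group]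
    generalize a⁻¹ * b = c at h ⊢
    rw [map_mul, map_mul, Units.val_mul, Units.val_mul, show (wsw M)⁻¹ = wsw M from rfl, cq_wsw]
    simp [Matrix.mul_apply, Matrix.vecMul, dotProduct, Fin.sum_univ_two, show (cq hq c).1 0 1 = 0 from h.2]

theorem sndq_mk (g : GL (Fin 2) (ZMod M)) :
    sndq hq (QuotientGroup.mk g) = QuotientGroup.mk (g * wsw M) := rfl

theorem fstq_mk (g : GL (Fin 2) (ZMod M)) :
    fstq hq (QuotientGroup.mk g) = QuotientGroup.mk g := rfl

theorem fstq_smul (g : GL (Fin 2) (ZMod M)) (z : Pq hq) : fstq hq (g • z) = g • fstq hq z := by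
  induction z using QuotientGroup.induction_on with | H h => rfl

theorem sndq_smul (g : GL (Fin 2) (ZMod M)) (z : Pq hq) : sndq hq (g • z) = g • sndq hq z := by
  induction z using QuotientGroup.induction_on with | H h =>
  show (QuotientGroup.mk (g * h * wsw M) : P1 M q) = QuotientGroup.mk (g * (h * wsw M))
  rw [mul_assoc]

theorem fstq_ne_sndq (z : Pq hq) : fstq hq z ≠ sndq hq z := by
  induction z using QuotientGroup.induction_on with | H h =>
  rw [fstq_mk, sndq_mk]
  intro e
  rw [QuotientGroup.eq, inv_mul_cancel_left, mem_B0_iff_cq hq, cq_wsw] at e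
  simp at e

theorem pq_ext {z z' : Pq hq} (h1 : fstq hq z = fstq hq z') (h2 : sndq hq z = sndq hq z') :
    z = z' := by
  induction z using QuotientGroup.induction_on with | H g =>
  induction z' using QuotientGroup.induction_on with | H g' =>
  rw [fstq_mk, fstq_mk, QuotientGroup.eq, mem_B0_iff_cq hq] at h1
  rw [sndq_mk, sndq_mk, QuotientGroup.eq, mem_B0_iff_cq hq,
    show (g * wsw M)⁻¹ * (g' * wsw M) = (wsw M)⁻¹ * (g⁻¹ * g') * wsw M by group] at h2
  rw [QuotientGroup.eq]
  generalize g⁻¹ * g' = c at h1 h2 ⊢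
  rw [map_mul, map_mul, Units.val_mul, Units.val_mul, show (wsw M)⁻¹ = wsw M from rfl,
    cq_wsw] at h2
  exact ⟨h1, by simpa [Matrix.mul_apply, Matrix.vecMul, dotProduct, Fin.sum_univ_two] using h2⟩

theorem exists_pair {a b : P1 M q} (h : a ≠ b) : ∃ z : Pq hq, fstq hq z = a ∧ sndq hq z = b := by
  induction a using QuotientGroup.induction_on with | H g =>
  induction b using QuotientGroup.induction_on with | H g' =>
  rw [Ne, QuotientGroup.eq, mem_B0_iff_cq hq] at h
  obtain ⟨k, hk⟩ : ∃ k, g⁻¹ * g' = k := ⟨_, rfl⟩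
  rw [hk] at h
  obtain ⟨t, ht⟩ :=
    ZMod.ringHom_surjective (ZMod.castHom hq (ZMod q)) ((cq hq k).1 0 0 / (cq hq k).1 1 0)
  let u : GL (Fin 2) (ZMod M) := ⟨!![1, t; 0, 1], !![1, -t; 0, 1],
    by ext i j; fin_cases i <;> fin_cases j <;> simp,
    by ext i j; fin_cases i <;> fin_cases j <;> simp⟩
  refine ⟨QuotientGroup.mk (g * u), ?_, ?_⟩
  · rw [fstq_mk, QuotientGroup.eq, show (g * u)⁻¹ * g = u⁻¹ by group, mem_B0_iff_cq hq, cq_apply]
    exact map_zero _
  · rw [sndq_mk, QuotientGroup.eq,
      show (g * u * wsw M)⁻¹ * g' = (wsw M)⁻¹ * (u⁻¹ * k) by rw [← hk]; group, mem_B0_iff_cq hq,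
      map_mul, map_mul, Units.val_mul, Units.val_mul, show (wsw M)⁻¹ = wsw M from rfl, cq_wsw]
    have e : (cq hq u⁻¹).1 = !![1, -((cq hq k).1 0 0 / (cq hq k).1 1 0); 0, 1] := by
      ext i j
      rw [cq_apply, ← ht]
      fin_cases i <;> fin_cases j <;> simp [u, -ZMod.castHom_apply]
    rw [e]
    simp only [Matrix.mul_apply, Fin.sum_univ_two, Matrix.of_apply, Matrix.cons_val',
      Matrix.cons_val_zero, Matrix.cons_val_one, Matrix.empty_val', Matrix.cons_val_fin_one]
    field_simp
    ring

variable (A : Type*) [CommRing A]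

open Classical in
/-- `F ↦ ((a, b) ↦ F a - F b)` -/
def jK (z : Pq hq) (y : P1 M q) : A :=
  (if fstq hq z = y then 1 else 0) - (if sndq hq z = y then 1 else 0)

/-- `δ(a, b) ↦ δa - δb` -/
def pK (y : P1 M q) (z : Pq hq) : A := jK hq A z y

theorem jK_smul (g : GL (Fin 2) (ZMod M)) (z : Pq hq) (y : P1 M q) :
    jK hq A (g • z) (g • y) = jK hq A z y := by
  classical
  simp only [jK, fstq_smul, sndq_smul, smul_left_cancel_iff]

open Classical in
/-- `F - F base` -/
def piK (a y : P1 M q) : A :=
  (if a = y then 1 else 0) - (if P1.base M q = y then 1 else 0)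

open Classical in
/-- `G ↦ (a ↦ G (a, base))` -/
def secK (a : P1 M q) (z : Pq hq) : A :=
  if fstq hq z = a ∧ sndq hq z = P1.base M q then 1 else 0

/-- the lift of functions vanishing at the base point -/
def lK (z : Pq hq) (a : P1 M q) : A := secK hq A a z

variable {A} [Fintype (P1 M q)]

theorem funKer_jK (F : P1 M q → A) (z : Pq hq) :
    funKer (jK hq A) F z = F (fstq hq z) - F (sndq hq z) := by
  classical
  simp [funKer_apply, jK, sub_mul, Finset.sum_sub_distrib]

theorem funKer_piK (F : P1 M q → A) (a : P1 M q) :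
    funKer (piK A) F a = F a - F (P1.base M q) := by
  classical
  simp [funKer_apply, piK, sub_mul, Finset.sum_sub_distrib]

variable [Fintype (Pq hq)]

theorem secK_jK : (fun a y => ∑ z, secK hq A a z * jK hq A z y) = piK A := by
  classical
  refine funKer_inj ?_
  rw [← funKer_comp]
  refine LinearMap.ext fun F => funext fun a => ?_
  rw [LinearMap.comp_apply, funKer_piK, funKer_apply]
  by_cases ha : a = P1.base M q
  · subst ha
    rw [sub_self]
    refine Finset.sum_eq_zero fun z _ => ?_
    rw [secK, if_neg fun e => fstq_ne_sndq hq z (e.1.trans e.2.symm), zero_mul]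
  · obtain ⟨w, hw1, hw2⟩ := exists_pair hq ha
    rw [Finset.sum_eq_single w]
    · rw [secK, if_pos ⟨hw1, hw2⟩, one_mul, funKer_jK, hw1, hw2]
    · intro z _ hz
      rw [secK, if_neg fun e => hz (pq_ext hq (e.1.trans hw1.symm) (e.2.trans hw2.symm)), zero_mul]
    · exact fun h => absurd (Finset.mem_univ _) h

open Classical in
theorem funKer_lK (H : P1 M q → A) (z : Pq hq) :
    funKer (lK hq A) H z = if sndq hq z = P1.base M q then H (fstq hq z) else 0 := by
  rw [funKer_apply, Finset.sum_eq_single (fstq hq z)]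
  · by_cases h : sndq hq z = P1.base M q <;> simp [lK, secK, h]
  · intro a _ ha
    rw [lK, secK, if_neg fun e => ha e.1.symm, zero_mul]
  · exact fun h => absurd (Finset.mem_univ _) h

open Classical in
theorem pK_lK (H : P1 M q → A) (h0 : H (P1.base M q) = 0) (y : P1 M q) :
    funKer (pK hq A) (funKer (lK hq A) H) y =
      H y - (if P1.base M q = y then ∑ a, H a else 0) := by
  rw [funKer_apply]
  simp only [funKer_lK, mul_ite, mul_zero, pK]
  rw [← Finset.sum_filter]
  have e : ∀ a, a ≠ P1.base M q → ∃ z : Pq hq, fstq hq z = a ∧ sndq hq z = P1.base M q :=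
    fun a ha => exists_pair hq ha
  choose w hw1 hw2 using e
  rw [Finset.sum_bij' (fun z _ => fstq hq z) (fun a (ha : a ∈ Finset.univ.erase (P1.base M q)) =>
      w a (Finset.mem_erase.1 ha).1)
    (g := fun a => ((if a = y then 1 else 0) - (if P1.base M q = y then 1 else 0)) * H a)
    (fun z hz => Finset.mem_erase.2 ⟨fun e => fstq_ne_sndq hq z
      (e.trans (Finset.mem_filter.1 hz).2.symm), Finset.mem_univ _⟩)
    (fun a ha => Finset.mem_filter.2 ⟨Finset.mem_univ _, hw2 _ _⟩)
    (fun z hz => pq_ext hq (hw1 _ _) ((hw2 _ _).trans (Finset.mem_filter.1 hz).2.symm))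
    (fun a ha => hw1 _ _)
    (fun z hz => by rw [jK, (Finset.mem_filter.1 hz).2])]
  rw [Finset.sum_erase _ (by rw [h0, mul_zero])]
  simp [sub_mul, Finset.sum_sub_distrib]

theorem sum_funKer_pK (G : Pq hq → A) : ∑ y, funKer (pK hq A) G y = 0 := by
  classical
  simp only [funKer_apply, pK, jK]
  rw [Finset.sum_comm]
  simp [sub_mul, Finset.sum_sub_distrib]

/-- `jp` and its splitting, when the number of lines is zero -/
theorem jp_split (hcard : (Fintype.card (P1 M q) : A) = 0) (G : Pq hq → A) :
    funKer (jK hq A) (funKer (pK hq A) (funKer (lK hq A) (funKer (secK hq A)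
      (funKer (jK hq A) (funKer (pK hq A) G))))) = funKer (jK hq A) (funKer (pK hq A) G) := by
  obtain ⟨F, hF⟩ : ∃ F, funKer (pK hq A) G = F := ⟨_, rfl⟩
  have hsum : ∑ y, F y = 0 := hF ▸ sum_funKer_pK hq G
  rw [hF]
  have hH : funKer (secK hq A) (funKer (jK hq A) F) = fun a => F a - F (P1.base M q) := by
    rw [← LinearMap.comp_apply, funKer_comp, secK_jK]
    exact funext (funKer_piK F)
  have h0 : ∑ a, (F a - F (P1.base M q)) = 0 := by
    rw [Finset.sum_sub_distrib, hsum, Finset.sum_const, Finset.card_univ, ← Nat.cast_smul_eq_nsmul A,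
      hcard, zero_smul, sub_zero]
  rw [hH]
  funext z
  rw [funKer_jK, funKer_jK, pK_lK hq _ (sub_self _), pK_lK hq _ (sub_self _), h0]
  simp

end Pairs

/-- finitely many primes dividing the modulus -/
structure KSet (M : ℕ) where
  k : ℕ
  q : Fin k → ℕ
  prime : ∀ i, (q i).Prime
  dvd : ∀ i, q i ∣ M

namespace KSet

variable {M : ℕ} [NeZero M] (S : KSet M)

instance fact_prime (i : Fin S.k) : Fact (S.q i).Prime := ⟨S.prime i⟩

/-- pairs of lines -/
abbrev PP : Type := ∀ i, Pq (S.dvd i)

/-- lines -/
abbrev YY : Type := ∀ i, P1 M (S.q i)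

instance fintype_pq (i : Fin S.k) : Fintype (Pq (S.dvd i)) := Fintype.ofFinite _

instance fintype_p1 (i : Fin S.k) : Fintype (P1 M (S.q i)) := Fintype.ofFinite _

theorem card_p1 (i : Fin S.k) : Fintype.card (P1 M (S.q i)) = S.q i + 1 := by
  rw [← Nat.card_eq_fintype_card, card_P1 (S.dvd i)]
  simpa using Genus.dedekindPsi_prime_pow (S.prime i) one_pos

variable (A : Type*) [CommRing A] (Z : Type*) [Fintype Z] [DecidableEq Z]
  [MulAction (GL (Fin 2) (ZMod M)) Z]

/-- `j` at every prime -/
def jT : (Z × S.YY → A) →ₗ[A] (Z × S.PP → A) :=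
  funKer (tens Z fun i => jK (S.dvd i) A)

/-- `p` at every prime -/
def pT : (Z × S.PP → A) →ₗ[A] (Z × S.YY → A) :=
  funKer (tens Z fun i => pK (S.dvd i) A)

/-- the splitting -/
def thT : (Z × S.PP → A) →ₗ[A] (Z × S.PP → A) :=
  funKer (tens Z fun i => lK (S.dvd i) A) ∘ₗ funKer (tens Z fun i => secK (S.dvd i) A)

/-- `jp` at every prime -/
def jpT : (Z × S.PP → A) →ₗ[A] (Z × S.PP → A) := S.jT A Z ∘ₗ S.pT A Z

theorem isTwist_jT : IsTwist (funRep A (Z × S.YY) (M := M)) (funRep A (Z × S.PP) (M := M)) 1
    (S.jT A Z) :=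
  isTwist_funKer _ (tens_smul Z _ fun i => jK_smul (S.dvd i) A)

theorem isTwist_pT : IsTwist (funRep A (Z × S.PP) (M := M)) (funRep A (Z × S.YY) (M := M)) 1
    (S.pT A Z) :=
  isTwist_funKer _ (tens_smul Z _ fun i g y z => jK_smul (S.dvd i) A g z y)

theorem isTwist_jpT : IsTwist (funRep A (Z × S.PP) (M := M)) (funRep A (Z × S.PP) (M := M)) 1
    (S.jpT A Z) := by
  intro g F
  rw [MonoidHom.one_apply, one_smul, jpT, LinearMap.comp_apply, LinearMap.comp_apply]
  have h1 := S.isTwist_pT A Z g F
  rw [MonoidHom.one_apply, one_smul] at h1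
  rw [h1, S.isTwist_jT A Z, MonoidHom.one_apply, one_smul]

/-- the new coefficient module -/
abbrev WRep : Representation A (GL (Fin 2) (ZMod M)) (LinearMap.range (S.jpT A Z)) :=
  rangeRep (S.isTwist_jpT A Z)

variable (hcong : ∀ i, ((S.q i + 1 : ℕ) : A) = 0)

include hcong in
theorem jpT_th_jpT (F : Z × S.PP → A) :
    S.jpT A Z (S.thT A Z (S.jpT A Z F)) = S.jpT A Z F := by
  classical
  simp only [jpT, jT, pT, thT, LinearMap.comp_apply]
  simp only [← LinearMap.comp_apply (funKer _) (funKer _), funKer_comp, tens_comp]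
  refine congrArg (fun K => funKer (tens Z K) F) (funext fun i => funKer_inj ?_)
  simp only [← funKer_comp]
  exact LinearMap.ext fun G => jp_split (S.dvd i) (by rw [S.card_p1 i]; exact hcong i) G

include hcong in
/-- the idempotent onto the new coefficient module -/
theorem jpT_th_of_mem {F : Z × S.PP → A} (hF : F ∈ LinearMap.range (S.jpT A Z)) :
    S.jpT A Z (S.thT A Z F) = F := by
  obtain ⟨G, rfl⟩ := hF
  exact S.jpT_th_jpT A Z hcong G

include hcong in
/-- the kernels of scalars on the new coefficient module are the images -/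
theorem smul_eq_zero_iff (a b : A) (hab : ∀ x : A, a * x = 0 ↔ ∃ y, b * y = x)
    (v : LinearMap.range (S.jpT A Z)) : a • v = 0 ↔ ∃ w, b • w = v := by
  refine ⟨fun h => ?_, ?_⟩
  · choose w hw using fun x => (hab (v.1 x)).1 (congrFun (congrArg Subtype.val h) x)
    refine ⟨⟨S.jpT A Z (S.thT A Z w), LinearMap.mem_range_self _ _⟩, Subtype.ext ?_⟩
    show b • S.jpT A Z (S.thT A Z w) = v.1
    rw [← map_smul, ← map_smul, show b • w = v.1 from funext hw]
    exact S.jpT_th_of_mem A Z hcong v.2
  · rintro ⟨w, rfl⟩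
    refine Subtype.ext (funext fun x => ?_)
    exact (hab _).2 ⟨_, rfl⟩

theorem neg_one_smul (hZ : ∀ z : Z, red M (-1) • z = z) (x : Z × S.PP) :
    red M (-1) • x = x := by
  refine Prod.ext (hZ x.1) (funext fun i => pq_ext (S.dvd i) ?_ ?_) <;>
    simp only [Prod.smul_snd, Pi.smul_apply, fstq_smul, sndq_smul, P1.red_neg_one_smul]

/-- the new coefficient module is free relative to `S` -/
theorem sFree_WRep (hZ : ∀ z : Z, red M (-1) • z = z)
    (hS : ∀ z : Z, red M ModularGroup.S • z ≠ z) : SFree (S.WRep A Z) := by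
  classical
  letI : LinearOrder Z := linearOrderOfSTO WellOrderingRel
  set g := red M ModularGroup.S
  have hgg : ∀ x : Z × S.PP, g • g • x = x := fun x => by
    rw [smul_smul, ← map_mul, Periods.S_mul_S, S.neg_one_smul Z hZ]
  let e : Module.End A (Z × S.PP → A) :=
    { toFun := fun F x => if x.1 < g • x.1 then F x else 0
      map_add' := fun F F' => funext fun x => by simp only [Pi.add_apply]; split_ifs <;> simp
      map_smul' := fun c F => funext fun x => by simp }
  have he : ∀ F, e F + funRep A (Z × S.PP) (M := M) g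
      (e (funRep A (Z × S.PP) (M := M) g F)) = F := fun F => funext fun x => by
    rw [Pi.add_apply, funRep_apply, inv_smul_eq_iff.2 (hgg x).symm]
    show (if x.1 < g • x.1 then F x else 0) +
      (if (g • x).1 < g • (g • x).1 then funRep A (Z × S.PP) (M := M) g F (g • x) else 0) = F x
    rw [funRep_apply, inv_smul_smul]
    show (if x.1 < g • x.1 then F x else 0) + (if g • x.1 < g • g • x.1 then F x else 0) = F x
    rw [show g • g • x.1 = x.1 from congrArg Prod.fst (hgg x)]
    rcases lt_or_gt_of_ne (hS x.1) with hlt | hlt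
    · rw [if_neg (not_lt.2 hlt.le), if_pos hlt, zero_add]
    · rw [if_pos hlt, if_neg (not_lt.2 hlt.le), add_zero]
  have hcomm : ∀ F, S.jpT A Z (e F) = e (S.jpT A Z F) := fun F => funext fun x => by
    show funKer _ (funKer _ (e F)) x = if x.1 < g • x.1 then funKer _ (funKer _ F) x else 0
    simp only [funKer_apply, Finset.mul_sum, e, LinearMap.coe_mk, AddHom.coe_mk]
    split_ifs with h
    · refine Finset.sum_congr rfl fun y _ => Finset.sum_congr rfl fun z _ => ?_
      by_cases h1 : x.1 = y.1
      · by_cases h2 : y.1 = z.1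
        · rw [if_pos (h2 ▸ h1 ▸ h)]
        · simp [tens, if_neg h2]
      · simp [tens, if_neg h1]
    · refine Finset.sum_eq_zero fun y _ => Finset.sum_eq_zero fun z _ => ?_
      by_cases h1 : x.1 = y.1
      · by_cases h2 : y.1 = z.1
        · rw [if_neg (h2 ▸ h1 ▸ h), mul_zero, mul_zero]
        · simp [tens, if_neg h2]
      · simp [tens, if_neg h1]
  refine SFree.of_surjective (isTwist_rangeRestrict (S.isTwist_jpT A Z))
    (LinearMap.surjective_rangeRestrict _) he fun v hv => Subtype.ext ?_
  show S.jpT A Z (e v) = 0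
  rw [hcomm, show S.jpT A Z v = 0 from congrArg Subtype.val hv, map_zero]

/-- functions not depending on one coordinate -/
def indep (i : Fin S.k) : Submodule A (Z × S.YY → A) where
  carrier := {F | ∀ x y : Z × S.YY, x.1 = y.1 → (∀ j, j ≠ i → x.2 j = y.2 j) → F x = F y}
  zero_mem' := fun _ _ _ _ => rfl
  add_mem' := fun {F F'} hF hF' x y h h' => by simp [hF x y h h', hF' x y h h']
  smul_mem' := fun c F hF x y h h' => by simp [hF x y h h']

/-- the kernel of `j` consists of the old functions -/
theorem ker_jT : LinearMap.ker (S.jT A Z) = ⨆ i, S.indep A Z i := by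
  classical
  refine le_antisymm (fun F hF => ?_) (iSup_le fun i F hF => ?_)
  · have hpi : funKer (tens Z fun i => piK (M := M) (q := S.q i) A) F = 0 := by
      have e : funKer (tens Z fun i => secK (S.dvd i) A) (S.jT A Z F) = 0 := by
        rw [LinearMap.mem_ker.1 hF, map_zero]
      rw [jT, ← LinearMap.comp_apply, funKer_comp, tens_comp] at e
      rw [show (fun i b c => ∑ z, secK (S.dvd i) A b z * jK (S.dvd i) A z c) =
        fun i => piK (M := M) (q := S.q i) A from funext fun i => secK_jK _] at e
      exact e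
    let sub : Finset (Fin S.k) → Z × S.YY → Z × S.YY := fun t x =>
      (x.1, fun i => if i ∈ t then P1.base M (S.q i) else x.2 i)
    have hexp : ∀ x, funKer (tens Z fun i => piK (M := M) (q := S.q i) A) F x =
        ∑ t ∈ (Finset.univ : Finset (Fin S.k)).powerset, (-1 : A) ^ t.card * F (sub t x) := by
      intro x
      rw [funKer_apply]
      have e : ∀ y : Z × S.YY, tens Z (fun i => piK (M := M) (q := S.q i) A) x y =
          ∑ t ∈ (Finset.univ : Finset (Fin S.k)).powerset,
            (-1 : A) ^ t.card * (if sub t x = y then 1 else 0) := by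
        intro y
        simp only [tens, piK, sub_eq_neg_add, Finset.prod_add, Finset.mul_sum]
        refine Finset.sum_congr rfl fun t _ => ?_
        rw [Finset.prod_neg, mul_assoc, mul_left_comm]
        refine congrArg (HMul.hMul _) ?_
        by_cases h : sub t x = y
        · subst h
          rw [if_pos rfl, if_pos rfl, one_mul, Finset.prod_eq_one, Finset.prod_eq_one, one_mul]
          · intro i hi
            rw [if_pos (by simp [sub, (Finset.mem_sdiff.1 hi).2])]
          · intro i hi
            rw [if_pos (by simp [sub, hi])]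
        · rw [if_neg h]
          by_cases h1 : x.1 = y.1
          · obtain ⟨i, hi⟩ : ∃ i, (if i ∈ t then P1.base M (S.q i) else x.2 i) ≠ y.2 i := by
              by_contra hcon
              push Not at hcon
              exact h (Prod.ext h1 (funext hcon))
            by_cases hit : i ∈ t
            · rw [if_pos hit] at hi
              rw [Finset.prod_eq_zero (i := i) hit (if_neg hi), zero_mul, mul_zero]
            · rw [if_neg hit] at hi
              rw [Finset.prod_eq_zero (s := Finset.univ \ t) (i := i) (by simp [hit]) (if_neg hi),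
                mul_zero, mul_zero]
          · rw [if_neg h1, zero_mul]
      simp only [e, Finset.sum_mul]
      rw [Finset.sum_comm]
      refine Finset.sum_congr rfl fun t _ => ?_
      simp
    have hF' : F = - ∑ t ∈ ((Finset.univ : Finset (Fin S.k)).powerset.erase ∅),
        (-1 : A) ^ t.card • fun x => F (sub t x) := by
      funext x
      have h0 := (hexp x).symm.trans (congrFun hpi x)
      rw [← Finset.add_sum_erase _ _ (Finset.empty_mem_powerset _)] at h0
      have hsub : sub ∅ x = x := by simp [sub]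
      rw [hsub, Finset.card_empty, pow_zero, one_mul] at h0
      simp only [Pi.neg_apply, Finset.sum_apply, Pi.smul_apply, smul_eq_mul]
      exact eq_neg_of_add_eq_zero_left h0
    rw [hF']
    refine neg_mem (sum_mem fun t ht => Submodule.smul_mem _ _ ?_)
    obtain ⟨i, hi⟩ := Finset.nonempty_iff_ne_empty.2 (Finset.mem_erase.1 ht).1
    refine Submodule.mem_iSup_of_mem i fun x y h h' => congrArg F (Prod.ext h (funext fun j => ?_))
    by_cases hj : j ∈ t
    · simp [sub, hj]
    · simp only [sub, if_neg hj]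
      exact h' j fun e => hj (e ▸ hi)
  · refine LinearMap.mem_ker.2 (funext fun z => ?_)
    rw [Pi.zero_apply, jT, funKer_apply]
    refine Finset.sum_involution (fun y _ => (y.1, Function.update y.2 i
      (Equiv.swap (fstq (S.dvd i) (z.2 i)) (sndq (S.dvd i) (z.2 i)) (y.2 i)))) (fun y _ => ?_)
      (fun y _ hy => ?_) (fun y _ => Finset.mem_univ _) fun y _ => ?_
    · rw [hF (y.1, Function.update y.2 i _) y rfl fun j hj => Function.update_of_ne hj _ _,
        ← add_mul]
      refine mul_eq_zero_of_left ?_ _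
      simp only [tens, ← mul_add]
      refine mul_eq_zero_of_right _ ?_
      rw [← Finset.mul_prod_erase _ _ (Finset.mem_univ i),
        ← Finset.mul_prod_erase _ _ (Finset.mem_univ i),
        Finset.prod_congr rfl fun j (hj : j ∈ Finset.univ.erase i) =>
          show jK (S.dvd j) A (z.2 j) (Function.update y.2 i _ j) = jK (S.dvd j) A (z.2 j) (y.2 j) by
            rw [Function.update_of_ne (Finset.mem_erase.1 hj).1],
        ← add_mul]
      refine mul_eq_zero_of_left ?_ _
      rw [Function.update_self]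
      simp only [jK, ← Equiv.symm_apply_eq, Equiv.symm_swap, Equiv.swap_apply_left,
        Equiv.swap_apply_right]
      ring
    · intro e
      have e' := congrFun (congrArg Prod.snd e) i
      dsimp only at e'
      rw [Function.update_self] at e'
      refine hy (mul_eq_zero_of_left (mul_eq_zero_of_right _
        (Finset.prod_eq_zero (Finset.mem_univ i) ?_)) _)
      have hn := fun h => Equiv.swap_apply_ne_self_iff.2 ⟨fstq_ne_sndq (S.dvd i) (z.2 i), h⟩ e'
      simp only [jK]
      rw [if_neg fun h => hn (Or.inl h.symm), if_neg fun h => hn (Or.inr h.symm), sub_zero]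
    · refine Prod.ext rfl ?_
      dsimp only
      rw [Function.update_self, Equiv.swap_apply_self, Function.update_idem, Function.update_eq_self]

end KSet

end FLTAgent.R2.Lv

end
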