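import Fermat.Agent.R2.LevelKerW

/-!
Area R2, parcel G2: the operators `Wp` at two primes commute: both composites are the
correspondence of one kernel on matrices of determinant `p q`.
-/

set_option autoImplicit false
set_option linter.style.haveILetI false
set_option linter.unusedSectionVars false

noncomputable section

open scoped MatrixGroups
open Matrix

namespace FLTAgent.R2.Lv

open FLTAgent.LL FLTAgent.R2.Coh

section TwoPrimes

variable {M p q M₁ M₂ : ℕ} [NeZero M] [NeZero M₁] [NeZero M₂] (h₁ : Split M p M₁)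
  (h₂ : Split M q M₂)
  {A : Type*} [CommRing A] {V : Type*} [AddCommGroup V] [Module A V]
  (τ : Representation A (GL (Fin 2) (ZMod M)) V)

/-- exchanging two primes -/
def swapPt : (P1 M p → P1 M q → V) →ₗ[A] (P1 M q → P1 M p → V) :=
  LinearMap.pi fun y => LinearMap.pi fun x => LinearMap.proj y ∘ₗ LinearMap.proj x

theorem isTwist_swapPt :
    IsTwist (pRep (p := p) (pRep (p := q) τ)) (pRep (p := q) (pRep (p := p) τ)) 1
      (swapPt (A := A)) := fun g F => by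
  rw [MonoidHom.one_apply, one_smul]
  rfl

include h₁ h₂ in
theorem dvd_of_ne (hpq : p ≠ q) : q ∣ M₁ :=
  ((Nat.coprime_primes h₂.prime h₁.prime).mpr hpq.symm).dvd_of_dvd_mul_left (h₁.eq ▸ h₂.dvdP)

include h₁ h₂ in
theorem fac_pRep (hpq : p ≠ q) (hτ₁ : Fac h₁ τ) : Fac h₁ (pRep (p := q) τ) := by
  intro g hg
  haveI : Fact q.Prime := ⟨h₂.prime⟩
  haveI := h₂.neZero
  have hgq : gl h₂.dvdP g = 1 := by
    rw [← gl_gl h₁.dvd' (dvd_of_ne h₁ h₂ hpq), hg, _root_.map_one]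
  refine LinearMap.ext fun F => funext fun y => ?_
  rw [funTensor_apply, hτ₁ g hg, inv_smul_eq_iff.mpr (Eq.symm ?_)]
  · rfl
  · refine eq_of_par h₂.dvdP ?_
    obtain ⟨c, -, e⟩ := exists_colP_smul h₂.dvdP g y
    rw [e, hgq, Units.val_one, Matrix.one_mulVec]
    show _ * _ = _ * _
    simp only [Pi.smul_apply, smul_eq_mul]
    ring

include h₁ h₂ in
/-- the modulus away from both primes -/
theorem exists_split (hpq : p ≠ q) :
    ∃ M₀, NeZero M₀ ∧ Split M₁ q M₀ ∧ Split M₂ p M₀ := by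
  obtain ⟨M₀, hM₀⟩ := dvd_of_ne h₁ h₂ hpq
  have e2 : M₂ = p * M₀ := Nat.eq_of_mul_eq_mul_left h₂.prime.pos
    (h₂.eq.symm.trans (by rw [h₁.eq, hM₀, mul_left_comm]))
  exact ⟨M₀, ⟨fun h0 => NeZero.ne M₁ (by rw [hM₀, h0, mul_zero])⟩,
    ⟨h₂.prime, hM₀, h₂.coprime.coprime_dvd_right ⟨p, e2.trans (mul_comm _ _)⟩⟩,
    ⟨h₁.prime, e2, h₁.coprime.coprime_dvd_right ⟨q, hM₀.trans (mul_comm _ _)⟩⟩⟩

section Both

variable {M₀ : ℕ} [NeZero M₀] (k₁ : Split M₁ q M₀) (k₂ : Split M₂ p M₀)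

/-- an element reducing to `adj m` away from both primes -/
def adU0 (m : Matrix (Fin 2) (Fin 2) ℤ) : GL (Fin 2) (ZMod M) :=
  Classical.epsilon fun g => gl (k₁.dvd'.trans h₁.dvd') g = redGL M₀ m.adjugate

theorem adU0_spec (m : Matrix (Fin 2) (Fin 2) ℤ) :
    gl (k₁.dvd'.trans h₁.dvd') (adU0 h₁ k₁ m) = redGL M₀ m.adjugate :=
  Classical.epsilon_spec (p := fun g => gl (k₁.dvd'.trans h₁.dvd') g = redGL M₀ m.adjugate) <| by
    haveI := k₁.neZero
    haveI := h₁.neZero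
    obtain ⟨g₁, -, e₁⟩ := k₁.exists_gl_pair 1 (redGL M₀ m.adjugate)
    obtain ⟨g, -, e⟩ := h₁.exists_gl_pair 1 g₁
    exact ⟨g, by rw [← gl_gl h₁.dvd' k₁.dvd', e, e₁]⟩

include h₂ k₂ in
theorem eq_of_gl_eq (hτ₁ : Fac h₁ τ) (hτ₂ : Fac h₂ τ) {g g' : GL (Fin 2) (ZMod M)}
    (e : gl (k₁.dvd'.trans h₁.dvd') g = gl (k₁.dvd'.trans h₁.dvd') g') : τ g = τ g' := by
  haveI := h₁.neZero
  suffices key : ∀ g, gl (k₁.dvd'.trans h₁.dvd') g = 1 → τ g = 1 by
    calc τ g = τ (g * g'⁻¹ * g') := by rw [inv_mul_cancel_right]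
      _ = τ g' := by
        rw [_root_.map_mul, key _ (by rw [_root_.map_mul, _root_.map_inv, e, mul_inv_cancel]), one_mul]
  intro g hg
  obtain ⟨a, ha, ha'⟩ := h₁.exists_gl_pair (gl h₁.dvdP g) 1
  have hb : τ (a⁻¹ * g) = 1 := hτ₂ _ <| by
    refine k₂.gl_ext ?_ ?_
    · rw [gl_gl, _root_.map_mul, _root_.map_inv, ha, inv_mul_cancel, _root_.map_one]
    · rw [gl_gl, _root_.map_mul, _root_.map_inv, hg, ← gl_gl h₁.dvd' k₁.dvd', ha']
      simp
  calc τ g = τ (a * (a⁻¹ * g)) := by rw [mul_inv_cancel_left]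
    _ = 1 := by rw [_root_.map_mul, hb, mul_one, hτ₁ a ha']

open Classical in
/-- the kernel of the two operators -/
def kerW2 (m : Matrix (Fin 2) (Fin 2) ℤ) : (P1 M p → P1 M q → V) →ₗ[A] (P1 M q → P1 M p → V) :=
  LinearMap.pi fun y => LinearMap.pi fun x =>
    if kerPt h₂.dvdP m = y ∧ kerPt h₁.dvdP m = x then
      τ (adU0 h₁ k₁ m) ∘ₗ LinearMap.proj (imPt h₂.dvdP m) ∘ₗ LinearMap.proj (imPt h₁.dvdP m)
    else 0

open Classical in
theorem kerW2_apply (m : Matrix (Fin 2) (Fin 2) ℤ) (F : P1 M p → P1 M q → V) (y : P1 M q)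
    (x : P1 M p) : kerW2 h₁ h₂ τ k₁ m F y x =
      if kerPt h₂.dvdP m = y ∧ kerPt h₁.dvdP m = x then
        τ (adU0 h₁ k₁ m) (F (imPt h₁.dvdP m) (imPt h₂.dvdP m)) else 0 := by
  unfold kerW2
  rw [LinearMap.pi_apply, LinearMap.pi_apply]
  split_ifs <;> rfl

include k₂ in
theorem isMatKer_kerW2 (hpq : p ≠ q) (hτ₁ : Fac h₁ τ) (hτ₂ : Fac h₂ τ) :
    IsMatKer (pRep (p := p) (pRep (p := q) τ)) (pRep (p := q) (pRep (p := p) τ)) (p * q)
      (kerW2 h₁ h₂ τ k₁) := by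
  classical
  haveI : Fact p.Prime := ⟨h₁.prime⟩
  haveI : Fact q.Prime := ⟨h₂.prime⟩
  have hn1 : ¬ p ^ 2 ∣ p * q := fun hd => hpq ((Nat.prime_dvd_prime_iff_eq h₁.prime h₂.prime).mp
    (Nat.dvd_of_mul_dvd_mul_left h₁.prime.pos (by rwa [pow_two] at hd)))
  have hn2 : ¬ q ^ 2 ∣ p * q := fun hd => hpq.symm ((Nat.prime_dvd_prime_iff_eq h₂.prime h₁.prime).mp
    (Nat.dvd_of_mul_dvd_mul_left h₂.prime.pos (by rwa [pow_two, mul_comm p] at hd)))
  have hu : (p * q).Coprime M₀ := Nat.Coprime.mul_left k₂.coprime k₁.coprime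
  refine ⟨fun u m hm v => funext fun y => funext fun x => ?_,
    fun g m hm v => funext fun y => funext fun x => ?_⟩
  · have hR := rkOne_of_det hm (dvd_mul_right p q) hn1
    have hR' := rkOne_of_det hm (dvd_mul_left q p) hn2
    rw [kerW2_apply, kerW2_apply, kerPt_mul_left h₁.dvdP hR (isUnit_det_coe p u),
      kerPt_mul_left h₂.dvdP hR' (isUnit_det_coe q u),
      imPt_mul_left h₁.dvdP hR (adjOf_red h₁.dvdP u), imPt_mul_left h₂.dvdP hR' (adjOf_red h₂.dvdP u),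
      ← _root_.map_inv, inv_inv, funTensor_apply, inv_smul_smul, funTensor_apply, inv_smul_smul,
      ← Module.End.mul_apply, ← _root_.map_mul]
    refine if_congr Iff.rfl (LinearMap.congr_fun (eq_of_gl_eq h₁ h₂ τ k₁ k₂ hτ₁ hτ₂ ?_) _) rfl
    rw [_root_.map_mul, adU0_spec, adU0_spec, redGL_adjugate_mul (isUnit_det_coe M₀ u)
      (isUnit_det_of_coprime hm hu), redGL_adjugate_coe, gl_red, mul_assoc, ← _root_.map_mul,
      inv_mul_cancel, _root_.map_one, mul_one]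
  · have hR := rkOne_of_det hm (dvd_mul_right p q) hn1
    have hR' := rkOne_of_det hm (dvd_mul_left q p) hn2
    rw [funTensor_apply, funTensor_apply, kerW2_apply, kerW2_apply,
      kerPt_mul_right h₁.dvdP hR (adjOf_red h₁.dvdP g), kerPt_mul_right h₂.dvdP hR' (adjOf_red h₂.dvdP g),
      imPt_mul_right h₁.dvdP hR (isUnit_det_coe p g), imPt_mul_right h₂.dvdP hR' (isUnit_det_coe q g),
      _root_.map_inv, apply_ite (τ (red M g)), _root_.map_zero, ← Module.End.mul_apply,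
      ← _root_.map_mul]
    refine if_congr (and_congr (smul_left_cancel_iff _) (smul_left_cancel_iff _))
      (LinearMap.congr_fun (eq_of_gl_eq h₁ h₂ τ k₁ k₂ hτ₁ hτ₂ ?_) _) rfl
    rw [_root_.map_mul, adU0_spec, adU0_spec, redGL_adjugate_mul (isUnit_det_of_coprime hm hu)
      (isUnit_det_coe M₀ g), redGL_adjugate_coe, gl_red, ← mul_assoc, ← _root_.map_mul,
      mul_inv_cancel, _root_.map_one, one_mul]

end Both

include h₁ h₂ in
theorem adjOf_adU (hpq : p ≠ q) {b : Matrix (Fin 2) (Fin 2) ℤ} (hb : b.det = p) :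
    haveI : Fact q.Prime := ⟨h₂.prime⟩
    AdjOf h₂.dvdP b (adU h₁ b) := by
  haveI : Fact q.Prime := ⟨h₂.prime⟩
  haveI := h₂.neZero
  have hd := dvd_of_ne h₁ h₂ hpq
  have hu : IsUnit ((b.det : ℤ) : ZMod M₁) := isUnit_det_of_coprime hb h₁.coprime
  refine ⟨by simpa using hu.map (ZMod.castHom hd (ZMod q)), ?_⟩
  rw [← gl_gl h₁.dvd' hd, (adU_spec h₁ b).1]
  exact (adjOf_redGL hd hu).2

/-- the operators at two primes commute -/
theorem Wp_Wq (hpq : p ≠ q) (hτ₁ : Fac h₁ τ) (hτ₂ : Fac h₂ τ)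
    (x : H1 (pRep (p := p) (pRep (p := q) τ))) :
    Wp h₂ _ (fac_pRep h₂ h₁ τ hpq.symm hτ₂)
        (map (isTwist_swapPt τ) (Wp h₁ _ (fac_pRep h₁ h₂ τ hpq hτ₁) x)) =
      map (isTwist_swapPt τ) (Wp h₁ _ (fac_pRep h₁ h₂ τ hpq hτ₁)
        (map (isTwist_swapPt τ) (Wp h₂ _ (fac_pRep h₂ h₁ τ hpq.symm hτ₂)
          (map (isTwist_swapPt τ) x)))) := by
  classical
  haveI : Fact p.Prime := ⟨h₁.prime⟩
  haveI : Fact q.Prime := ⟨h₂.prime⟩
  obtain ⟨M₀, hne, k₁, k₂⟩ := exists_split h₁ h₂ hpq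
  have hW := isMatKer_kerW2 h₁ h₂ τ k₁ k₂ hpq hτ₁ hτ₂
  have hKp := (isMatKer_kerW h₁ _ (fac_pRep h₁ h₂ τ hpq hτ₁) dvd_rfl (not_sq_dvd h₁.prime)
    h₁.coprime).isKer (Fam.ofReps (stdReps p)) (stdReps p).det_rep
  have hKq := (isMatKer_kerW h₂ _ (fac_pRep h₂ h₁ τ hpq.symm hτ₂) dvd_rfl (not_sq_dvd h₂.prime)
    h₂.coprime).isKer (Fam.ofReps (stdReps q)) (stdReps q).det_rep
  have hRp : ∀ i, RkOne p (stdMat p i) := fun i =>
    rkOne_of_det (det_stdMat p i) dvd_rfl (not_sq_dvd h₁.prime)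
  have hRq : ∀ i, RkOne q (stdMat q i) := fun i =>
    rkOne_of_det (det_stdMat q i) dvd_rfl (not_sq_dvd h₂.prime)
  have hA : ∀ i, AdjOf h₂.dvdP (stdMat p i) (adU h₁ (stdMat p i)) := fun i =>
    adjOf_adU h₁ h₂ hpq (det_stdMat p i)
  have hA' : ∀ i, AdjOf h₁.dvdP (stdMat q i) (adU h₂ (stdMat q i)) := fun i =>
    adjOf_adU h₂ h₁ hpq.symm (det_stdMat q i)
  have hup : ∀ i, IsUnit (((stdMat p i).det : ℤ) : ZMod M₀) := fun i =>
    isUnit_det_of_coprime (det_stdMat p i) k₂.coprime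
  have huq : ∀ i, IsUnit (((stdMat q i).det : ℤ) : ZMod M₀) := fun i =>
    isUnit_det_of_coprime (det_stdMat q i) k₁.coprime
  have g1 : ∀ i, gl (k₁.dvd'.trans h₁.dvd') (adU h₁ (stdMat p i)) =
      redGL M₀ (stdMat p i).adjugate := fun i => by
    rw [← gl_gl h₁.dvd' k₁.dvd', (adU_spec h₁ _).1,
      gl_redGL k₁.dvd' (isUnit_det_adjugate (isUnit_det_of_coprime (det_stdMat p i) h₁.coprime))]
  have g2 : ∀ i, gl (k₁.dvd'.trans h₁.dvd') (adU h₂ (stdMat q i)) =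
      redGL M₀ (stdMat q i).adjugate := fun i => by
    rw [show gl (k₁.dvd'.trans h₁.dvd') = gl (k₂.dvd'.trans h₂.dvd') from rfl,
      ← gl_gl h₂.dvd' k₂.dvd', (adU_spec h₂ _).1,
      gl_redGL k₂.dvd' (isUnit_det_adjugate (isUnit_det_of_coprime (det_stdMat q i) h₂.coprime))]
  let R1 : Reps (p * q) (Option (ZMod p) × Option (ZMod q)) :=
    HeckeAlg.prodReps q p hpq.symm rfl
  let R2' : Reps (p * q) (Option (ZMod q) × Option (ZMod p)) :=
    HeckeAlg.prodReps p q hpq (mul_comm p q)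
  have hL : IsKer _ _ (Fam.ofReps (stdReps p)) _ := hKp.map_left (isTwist_swapPt τ)
  have hR : IsKer _ _ (Fam.ofReps (stdReps q)) _ :=
    (IsKer.map_right (isTwist_swapPt (p := p) (q := q) τ) hKq).map_left (isTwist_swapPt τ)
  have e1 : opH (hL.comp hKq) = corrH hW R1 := by
    refine (opH_congr (hL.comp hKq) (hW.isKer ((Fam.ofReps (stdReps p)).comp (Fam.ofReps (stdReps q)))
      R1.det_rep) fun ij v => funext fun y => funext fun z => ?_).trans
        (opH_eq_corrH hW _ R1.det_rep R1.rep_inj R1.exists_rep R1)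
    obtain ⟨i, j⟩ := ij
    show kerW h₂ _ (stdMat q j) (swapPt (A := A) (kerW h₁ _ (stdMat p i) v)) y z =
      kerW2 h₁ h₂ τ k₁ (stdMat p i * stdMat q j) v y z
    rw [kerW_apply, kerW2_apply, kerPt_mul_left h₂.dvdP (hRq j) (hA i).1,
      kerPt_mul_right h₁.dvdP (hRp i) (hA' j), imPt_mul_left h₂.dvdP (hRq j) (hA i),
      imPt_mul_right h₁.dvdP (hRp i) (hA' j).1]
    by_cases hy : kerPt h₂.dvdP (stdMat q j) = y
    swap
    · rw [if_neg hy, if_neg fun hh => hy hh.1]; rfl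
    rw [if_pos hy, funTensor_apply]
    show τ _ (kerW h₁ _ (stdMat p i) v _ _) = _
    rw [kerW_apply]
    by_cases hz : adU h₂ (stdMat q j) • kerPt h₁.dvdP (stdMat p i) = z
    swap
    · rw [if_neg fun hh => hz (eq_inv_smul_iff.mp hh), if_neg fun hh => hz hh.2]
      exact _root_.map_zero _
    rw [if_pos (eq_inv_smul_iff.mpr hz), if_pos ⟨hy, hz⟩, funTensor_apply, ← Module.End.mul_apply,
      ← _root_.map_mul]
    refine LinearMap.congr_fun (eq_of_gl_eq h₁ h₂ τ k₁ k₂ hτ₁ hτ₂ ?_) _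
    rw [_root_.map_mul, g1, g2, adU0_spec, redGL_adjugate_mul (hup i) (huq j)]
  have e2 : opH ((hR.comp hKp).map_left (isTwist_swapPt τ)) = corrH hW R1 := by
    refine (opH_congr ((hR.comp hKp).map_left (isTwist_swapPt τ))
      (hW.isKer ((Fam.ofReps (stdReps q)).comp (Fam.ofReps (stdReps p)))
      R2'.det_rep) fun ji v => funext fun y => funext fun z => ?_).trans
        (opH_eq_corrH hW _ R2'.det_rep R2'.rep_inj R2'.exists_rep R1)
    obtain ⟨j, i⟩ := ji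
    show kerW h₁ _ (stdMat p i)
        (swapPt (A := A) (kerW h₂ _ (stdMat q j) (swapPt (A := A) v))) z y =
      kerW2 h₁ h₂ τ k₁ (stdMat q j * stdMat p i) v y z
    rw [kerW_apply, kerW2_apply, kerPt_mul_right h₂.dvdP (hRq j) (hA i),
      kerPt_mul_left h₁.dvdP (hRp i) (hA' j).1, imPt_mul_right h₂.dvdP (hRq j) (hA i).1,
      imPt_mul_left h₁.dvdP (hRp i) (hA' j)]
    by_cases hz : kerPt h₁.dvdP (stdMat p i) = z
    swap
    · rw [if_neg hz, if_neg fun hh => hz hh.2]; rfl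
    rw [if_pos hz, funTensor_apply]
    show τ _ (kerW h₂ _ (stdMat q j) (swapPt (A := A) v) _ _) = _
    rw [kerW_apply]
    by_cases hy : adU h₁ (stdMat p i) • kerPt h₂.dvdP (stdMat q j) = y
    swap
    · rw [if_neg fun hh => hy (eq_inv_smul_iff.mp hh), if_neg fun hh => hy hh.1]
      exact _root_.map_zero _
    rw [if_pos (eq_inv_smul_iff.mpr hy), if_pos ⟨hy, hz⟩, funTensor_apply, ← Module.End.mul_apply,
      ← _root_.map_mul]
    refine LinearMap.congr_fun (eq_of_gl_eq h₁ h₂ τ k₁ k₂ hτ₁ hτ₂ ?_) _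
    rw [_root_.map_mul, g1, g2, adU0_spec, redGL_adjugate_mul (huq j) (hup i)]
  show opH hKq (map (isTwist_swapPt τ) (opH hKp x)) =
    map (isTwist_swapPt τ) (opH hKp (map (isTwist_swapPt τ) (opH hKq (map (isTwist_swapPt τ) x))))
  rw [map_opH hKp, ← LinearMap.comp_apply (opH hKq), ← opH_comp, e1,
    opH_map (isTwist_swapPt (p := p) (q := q) τ) hKq,
    map_opH (IsKer.map_right (isTwist_swapPt (p := p) (q := q) τ) hKq),
    ← LinearMap.comp_apply (opH hKp), ← opH_comp hR hKp, map_opH (hR.comp hKp), e2]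

end TwoPrimes

end FLTAgent.R2.Lv

end
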