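import Fermat.Agent.R2.LevelWpSq
import Fermat.Agent.R2.LevelWpComm

/-!
Area R2, parcel G2: the operator `Wp` at a prime `p` exactly dividing the modulus, on functions on
`P¹(p)` with values in a coefficient module at a modulus prime to `p`.

`Wp` is the correspondence of the kernel `F ↦ (x ↦ [ker m = x] adj m (F (im m)))` on matrices of
determinant `p`.  With the pull back `α*` and the sum `α` along `P¹(p) → point`: `α Wp α* = T p`,
`Wp² = ⟨p⟩`, and `Wp` commutes with `T l`, with maps of coefficients and with `Wp'`.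
-/

set_option autoImplicit false
set_option linter.style.haveILetI false
set_option linter.unusedSectionVars false

noncomputable section

open scoped MatrixGroups
open Matrix

namespace FLTAgent.R2.Lv

open FLTAgent.LL FLTAgent.R2.Coh

section Operator

variable {M p M' : ℕ} [NeZero M] [NeZero M'] (h : Split M p M')
  {A : Type*} [CommRing A] {V : Type*} [AddCommGroup V] [Module A V]
  (τ : Representation A (GL (Fin 2) (ZMod M)) V)

/-- `Wp` commutes with the good Hecke operators -/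
theorem Wp_T (hτ : Fac h τ) {l : ℕ} (hl : l.Prime) (hlM : ¬ l ∣ M) (x : H1 (pRep (p := p) τ)) :
    Wp h τ hτ (T (pRep τ) hl hlM x) = T (pRep τ) hl hlM (Wp h τ hτ x) := by
  classical
  haveI : Fact p.Prime := ⟨h.prime⟩
  haveI : Fact l.Prime := ⟨hl⟩
  have hlp : l ≠ p := fun e => hlM (e ▸ h.dvdP)
  have hcl : l.Coprime M := hl.coprime_iff_not_dvd.mpr hlM
  have hn : ¬ p ^ 2 ∣ p * l := fun hd => hlp.symm ((Nat.prime_dvd_prime_iff_eq h.prime hl).mp
    (Nat.dvd_of_mul_dvd_mul_left h.prime.pos (by rwa [pow_two] at hd)))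
  have hK2 := isMatKer_kerW h τ hτ (dvd_mul_right p l) hn
    (Nat.Coprime.mul_left h.coprime (hcl.coprime_dvd_right h.dvd'))
  have hK := (isMatKer_kerW h τ hτ dvd_rfl (not_sq_dvd h.prime) h.coprime).isKer
    (Fam.ofReps (stdReps p)) (stdReps p).det_rep
  have hT := isKer_ofReps (pRep (p := p) τ) (stdReps l) hcl
  have hTH : T (pRep (p := p) τ) hl hlM = opH hT := by
    unfold T
    exact heckeH_eq_opH _ _ _
  have hA : ∀ k, AdjOf h.dvdP (stdMat l k) ((stdReps l).adjRed M k) := fun k =>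
    adjOf_redGL h.dvdP (isUnit_det_of_coprime ((stdReps l).det_rep k) hcl)
  have hRi : ∀ i, RkOne p (stdMat p i) := fun i =>
    rkOne_of_det (det_stdMat p i) dvd_rfl (not_sq_dvd h.prime)
  have hgl : ∀ k, gl h.dvd' ((stdReps l).adjRed M k) = redGL M' (stdMat l k).adjugate := fun k =>
    gl_redGL h.dvd' (isUnit_det_adjugate (isUnit_det_of_coprime ((stdReps l).det_rep k) hcl))
  have hlM' : ∀ k, IsUnit (((stdMat l k).det : ℤ) : ZMod M') := fun k =>
    isUnit_det_of_coprime (det_stdMat l k) (hcl.coprime_dvd_right h.dvd')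
  have hpM' : ∀ i, IsUnit (((stdMat p i).det : ℤ) : ZMod M') := fun i =>
    isUnit_det_of_coprime (det_stdMat p i) h.coprime
  let R1 : Reps (p * l) (Option (ZMod p) × Option (ZMod l)) :=
    HeckeAlg.prodReps l p hlp rfl
  let R2' : Reps (p * l) (Option (ZMod l) × Option (ZMod p)) :=
    HeckeAlg.prodReps p l hlp.symm (mul_comm p l)
  let C1 := (Fam.ofReps (stdReps p)).comp (Fam.ofReps (stdReps l))
  let C2 := (Fam.ofReps (stdReps l)).comp (Fam.ofReps (stdReps p))
  have hd1 : ∀ ik, (C1.rep ik).det = ((p * l : ℕ) : ℤ) := R1.det_rep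
  have hd2 : ∀ ki, (C2.rep ki).det = ((p * l : ℕ) : ℤ) := R2'.det_rep
  have ec1 : opH (hK2.isKer C1 hd1) = corrH hK2 R1 :=
    opH_eq_corrH hK2 C1 hd1 R1.rep_inj R1.exists_rep R1
  have ec2 : opH (hK2.isKer C2 hd2) = corrH hK2 R1 :=
    opH_eq_corrH hK2 C2 hd2 R2'.rep_inj R2'.exists_rep R1
  have e1 : opH (hK.comp hT) = corrH hK2 R1 := by
    refine (opH_congr (hK.comp hT) (hK2.isKer C1 hd1) fun ik v => funext fun z => ?_).trans ec1
    have r1 : (Fam.ofReps (stdReps p)).rep ik.1 = stdMat p ik.1 := rfl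
    have r2 : C1.rep ik = stdMat p ik.1 * stdMat l ik.2 := rfl
    rw [LinearMap.comp_apply, r1, r2, funTensor_apply, kerW_apply, kerW_apply,
      kerPt_mul_right h.dvdP (hRi _) (hA _), imPt_mul_right h.dvdP (hRi _) (hA _).1,
      apply_ite (τ _), _root_.map_zero]
    refine if_congr eq_inv_smul_iff (hτ.mul_apply h ?_ _) rfl
    rw [(adU_spec h _).1, (adU_spec h _).1, hgl, redGL_adjugate_mul (hpM' _) (hlM' _)]
  have e2 : opH (hT.comp hK) = corrH hK2 R1 := by
    refine (opH_congr (hT.comp hK) (hK2.isKer C2 hd2) fun ki v => funext fun z => ?_).trans ec2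
    have r1 : (Fam.ofReps (stdReps p)).rep ki.2 = stdMat p ki.2 := rfl
    have r2 : C2.rep ki = stdMat l ki.1 * stdMat p ki.2 := rfl
    rw [LinearMap.comp_apply, r1, r2, kerW_apply, kerW_apply,
      kerPt_mul_left h.dvdP (hRi _) (hA _).1, imPt_mul_left h.dvdP (hRi _) (hA _), funTensor_apply]
    refine if_congr Iff.rfl (hτ.mul_apply h ?_ _) rfl
    rw [(adU_spec h _).1, (adU_spec h _).1, hgl, redGL_adjugate_mul (hlM' _) (hpM' _)]
  rw [Wp_eq h τ hτ, hTH, ← LinearMap.comp_apply (opH hK), ← opH_comp hT hK,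
    ← LinearMap.comp_apply (opH hT), ← opH_comp hK hT, e1, e2]

/-- `Wp` keeps the part of a system -/
theorem Wp_mem_E [IsLocalRing A] (hτ : Fac h τ) (s : Sys M A) {x : H1 (pRep (p := p) τ)}
    (hx : x ∈ s.E (pRep τ)) : Wp h τ hτ x ∈ s.E (pRep τ) :=
  s.commute_mem_E (fun _ hl hlM => LinearMap.ext fun y => Wp_T h τ hτ hl hlM y) hx

variable {V₂ : Type*} [AddCommGroup V₂] [Module A V₂]
  {τ₂ : Representation A (GL (Fin 2) (ZMod M)) V₂}

theorem isTwist_postcomp {Φ : V →ₗ[A] V₂} (hΦ : IsTwist τ τ₂ 1 Φ) :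
    IsTwist (pRep (p := p) τ) (pRep τ₂) 1 (Φ.compLeft (P1 M p)) := fun g F => by
  rw [MonoidHom.one_apply, one_smul]
  funext x
  show Φ (τ g (F (g⁻¹ • x))) = τ₂ g (Φ (F (g⁻¹ • x)))
  rw [hΦ, MonoidHom.one_apply, one_smul]

theorem isTwist_postcomp_twist {χ : (ZMod M)ˣ →* A} {Φ : V →ₗ[A] V₂} (hΦ : IsTwist τ τ₂ χ Φ) :
    IsTwist (pRep (p := p) τ) (pRep τ₂) χ (Φ.compLeft (P1 M p)) := fun g F =>
  funext fun x => hΦ g (F (g⁻¹ • x))

theorem map_Wp_of (hτ : Fac h τ) (hτ₂ : Fac h τ₂) {χ : (ZMod M)ˣ →* A} {Φ : V →ₗ[A] V₂}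
    (hP : IsTwist (pRep (p := p) τ) (pRep τ₂) χ (Φ.compLeft (P1 M p))) (c : A)
    (hc : ∀ i v, Φ (τ (adU h (stdMat p i)) v) = c • τ₂ (adU h (stdMat p i)) (Φ v))
    (x : H1 (pRep (p := p) τ)) :
    map hP (Wp h τ hτ x) = c • Wp h τ₂ hτ₂ (map hP x) := by
  classical
  haveI : Fact p.Prime := ⟨h.prime⟩
  obtain ⟨f, rfl⟩ := Submodule.mkQ_surjective _ x
  rw [Wp_eq h τ hτ, Wp_eq h τ₂ hτ₂, opH_mk, map_mk, map_mk, opH_mk, ← LinearMap.map_smul]
  refine congrArg _ (Subtype.ext (funext fun g => funext fun z => ?_))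
  rw [mapZ_apply, Submodule.coe_smul, Pi.smul_apply, Pi.smul_apply, opZ_apply, opZ_apply]
  simp only [LinearMap.compLeft_apply, Function.comp_apply, Finset.sum_apply, _root_.map_sum,
    Finset.smul_sum, mapZ_apply]
  refine Finset.sum_congr rfl fun i _ => ?_
  rw [kerW_apply, kerW_apply, LinearMap.compLeft_apply, Function.comp_apply]
  split_ifs
  · exact hc i _
  · rw [_root_.map_zero, smul_zero]

/-- naturality in the coefficients -/
theorem Wp_natural (hτ : Fac h τ) (hτ₂ : Fac h τ₂) {Φ : V →ₗ[A] V₂} (hΦ : IsTwist τ τ₂ 1 Φ)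
    (x : H1 (pRep (p := p) τ)) :
    map (isTwist_postcomp τ hΦ) (Wp h τ hτ x) = Wp h τ₂ hτ₂ (map (isTwist_postcomp τ hΦ) x) := by
  rw [map_Wp_of h τ hτ hτ₂ (isTwist_postcomp τ hΦ) 1 (fun i v => by
    rw [hΦ, MonoidHom.one_apply]) x, one_smul]

/-- `Wp` and twisted maps of the coefficients; `u` is `p` modulo `M'` and `1` modulo `p` -/
theorem map_Wp (hτ : Fac h τ) (hτ₂ : Fac h τ₂) {χ : (ZMod M)ˣ →* A} {Φ : V →ₗ[A] V₂}
    (hΦ : IsTwist τ τ₂ χ Φ) (u : (ZMod M)ˣ)
    (hu' : ZMod.castHom h.dvd' (ZMod M') (u : ZMod M) = (p : ZMod M'))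
    (hu : ZMod.castHom h.dvdP (ZMod p) (u : ZMod M) = 1) (x : H1 (pRep (p := p) τ)) :
    map (isTwist_postcomp_twist τ hΦ) (Wp h τ hτ x) =
      χ u • Wp h τ₂ hτ₂ (map (isTwist_postcomp_twist τ hΦ) x) := by
  haveI : Fact p.Prime := ⟨h.prime⟩
  refine map_Wp_of h τ hτ hτ₂ (isTwist_postcomp_twist τ hΦ) (χ u) (fun i v => ?_) x
  rw [hΦ, show Matrix.GeneralLinearGroup.det (adU h (stdMat p i)) = u from Units.ext ?_]
  have hd := det_stdMat p i
  refine h.zmod_ext ?_ ?_
  · rw [hu, Matrix.GeneralLinearGroup.val_det_apply, RingHom.map_det]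
    show (gl h.dvdP (adU h (stdMat p i))).1.det = 1
    rw [(adU_spec h _).2, redGL, dif_neg, Units.val_one, Matrix.det_one]
    rw [Matrix.isUnit_iff_isUnit_det]
    show ¬ IsUnit (modP p (stdMat p i).adjugate).det
    rw [det_modP, Matrix.det_adjugate, hd]
    simp
  · rw [hu', Matrix.GeneralLinearGroup.val_det_apply, RingHom.map_det]
    show (gl h.dvd' (adU h (stdMat p i))).1.det = _
    rw [(adU_spec h _).1,
      coe_redGL M' (isUnit_det_adjugate (isUnit_det_of_coprime hd h.coprime))]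
    show (modP M' (stdMat p i).adjugate).det = _
    rw [det_modP, Matrix.det_adjugate, hd]
    simp

/-- constants -/
def pullPt : V →ₗ[A] (P1 M p → V) := LinearMap.pi fun _ => LinearMap.id

/-- the sum over the lines -/
def pushPt : (P1 M p → V) →ₗ[A] V :=
  haveI : Fintype (P1 M p) := Fintype.ofFinite _
  ∑ x, LinearMap.proj x

theorem pullPt_apply (v : V) (x : P1 M p) : pullPt (M := M) (p := p) (A := A) v x = v := rfl

theorem pushPt_apply [Fintype (P1 M p)] (F : P1 M p → V) : pushPt (A := A) F = ∑ x, F x := by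
  unfold pushPt
  rw [LinearMap.sum_apply]
  exact Finset.sum_congr (by ext x; simp) fun x _ => rfl

theorem isTwist_pullPt : IsTwist τ (pRep (p := p) τ) 1 (pullPt (A := A)) := fun g v => by
  rw [MonoidHom.one_apply, one_smul]
  rfl

theorem isTwist_pushPt : IsTwist (pRep (p := p) τ) τ 1 (pushPt (A := A)) := fun g F => by
  haveI : Fintype (P1 M p) := Fintype.ofFinite _
  rw [MonoidHom.one_apply, one_smul, pushPt_apply, pushPt_apply, _root_.map_sum,
    ← Equiv.sum_comp (MulAction.toPerm g)]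
  exact Finset.sum_congr rfl fun x _ => by
    rw [funTensor_apply, MulAction.toPerm_apply, inv_smul_smul]

include h in
/-- `α α* = p + 1` -/
theorem push_pull (x : H1 τ) :
    map (isTwist_pushPt (p := p) τ) (map (isTwist_pullPt τ) x) = ((p + 1 : ℕ) : A) • x := by
  haveI : Fact p.Prime := ⟨h.prime⟩
  haveI := h.neZero
  let e := Equiv.ofBijective _ (kerPt_stdMat_bijective (p := p) h.dvdP)
  haveI : Fintype (P1 M p) := Fintype.ofEquiv _ e
  obtain ⟨f, rfl⟩ := Submodule.mkQ_surjective _ x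
  rw [map_mk, map_mk, ← LinearMap.map_smul]
  refine congrArg _ (Subtype.ext (funext fun g => ?_))
  rw [mapZ_apply, mapZ_apply, pushPt_apply, Submodule.coe_smul, Pi.smul_apply]
  show ∑ _x : P1 M p, f.1 g = _
  rw [Finset.sum_const, Finset.card_univ, ← Fintype.card_congr e, Fintype.card_option, ZMod.card,
    Nat.cast_smul_eq_nsmul]

theorem fac_inflate (τ₀ : Representation A (GL (Fin 2) (ZMod M')) V) :
    Fac h (inflate h.dvd' τ₀) := fun g hg => by
  show τ₀ (gl h.dvd' g) = 1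
  rw [hg, map_one]

/-- `α Wp α* = T p` at the modulus `M'` -/
theorem push_Wp_pull (τ₀ : Representation A (GL (Fin 2) (ZMod M')) V) (hpM' : ¬ p ∣ M')
    (x : H1 (inflate h.dvd' τ₀)) :
    inflateH h.dvd' τ₀ (map (isTwist_pushPt (p := p) (inflate h.dvd' τ₀))
      (Wp h (inflate h.dvd' τ₀) (fac_inflate h τ₀)
        (map (isTwist_pullPt (inflate h.dvd' τ₀)) x))) =
      T τ₀ h.prime hpM' (inflateH h.dvd' τ₀ x) := by
  classical
  haveI : Fact p.Prime := ⟨h.prime⟩
  haveI : Fintype (P1 M p) := Fintype.ofFinite _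
  obtain ⟨f, rfl⟩ := Submodule.mkQ_surjective _ x
  rw [map_mk, Wp_eq, opH_mk, map_mk, inflateH_mk, inflateH_mk]
  unfold T
  rw [heckeH_mk]
  refine congrArg _ (Subtype.ext (funext fun g => ?_))
  rw [inflateZ_apply, mapZ_apply, opZ_apply, heckeZ_apply, inflateZ_apply, _root_.map_sum]
  refine Finset.sum_congr rfl fun i _ => ?_
  rw [mapZ_apply, pushPt_apply]
  rw [Finset.sum_congr rfl fun x _ => kerW_apply h _ _ _ x]
  have hrep : (Fam.ofReps (stdReps p)).rep i = stdMat p i := rfl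
  rw [hrep]
  rw [Finset.sum_eq_single (kerPt h.dvdP (stdMat p i))]
  rotate_left
  · intro x _ hx
    exact if_neg fun e => hx e.symm
  · intro e
    exact absurd (Finset.mem_univ _) e
  rw [if_pos rfl, pullPt_apply]
  rw [inflate_apply, (adU_spec h _).1]
  rfl

end Operator


end FLTAgent.R2.Lv

end
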