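import Fermat.Agent.R2.LevelSetup
import Fermat.Agent.R2.LevelRhoBase
import Fermat.Agent.R2.Tame
import Fermat.Agent.EIS.Cyclo

/-!
Area R2, parcel G5: the diamond group of a level.

It is `(ℤ/2^(n+1))^rk × ℤ/2`: at a Taylor–Wiles prime the chosen inertia element moves the square
root of the prime, so its class generates; the class `sgn` at the prime of order two is that of `2`.
-/

set_option autoImplicit false
set_option linter.style.haveILetI false
set_option linter.unusedSectionVars false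

noncomputable section

open Matrix IsLocalRing

namespace FLTAgent.R2.Lv

open FLTAgent.LL FLTAgent.R2.Coh

variable {W : WeierstrassCurve ℤ} {hW : IsAnchor W} {B : Base W} {N : ℕ} {K : Aux hW B N} {n : ℕ}
  (D : TW K n)

instance neZero_auxQ (i : Fin (rk W + 1)) : NeZero (auxQ D i) := ⟨(prime_auxQ D i).ne_zero⟩

instance fact_prime_auxQ (i : Fin (rk W + 1)) : Fact (auxQ D i).Prime := ⟨prime_auxQ D i⟩

/-- the classes of the cyclotomic character -/
def cycDel : GQ →* (dataX D).Del :=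
  MonoidHom.pi fun i => (QuotientGroup.mk' (auxH D i)).comp (LevelRho.cycU (auxQ D i))

theorem cycDel_apply (σ : GQ) (i : Fin (rk W + 1)) :
    cycDel D σ i = QuotientGroup.mk (LevelRho.cycU (auxQ D i) σ) := rfl

/-- the diamond of the inertia element at a Taylor–Wiles prime -/
def vDel (i : Fin (rk W)) : (dataX D).Del := (cycDel D (D.tau i))⁻¹

/-- the diamond of the element `g2` -/
def uTwo : (dataX D).Del := cycDel D D.g2

/-- the class of `2` -/
def clsTwo : (dataX D).Del := fun i =>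
  QuotientGroup.mk (ZMod.unitOfCoprime 2 ((Nat.coprime_primes Nat.prime_two (prime_auxQ D i)).2
    ((xData D).Q_two i).symm))

/-- the diamond of order two -/
def sgn : (dataX D).Del := uTwo D * uTwo D * (clsTwo D)⁻¹

theorem card_comp (i : Fin (rk W + 1)) :
    Nat.card ((ZMod (auxQ D i))ˣ ⧸ auxH D i) = 2 ^ auxE (W := W) (n := n) i :=
  index_auxH D i

theorem pow_comp (i : Fin (rk W + 1)) (x : (ZMod (auxQ D i))ˣ ⧸ auxH D i) :
    x ^ 2 ^ auxE (W := W) (n := n) i = 1 := by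
  rw [← card_comp D i]
  exact pow_card_eq_one'

theorem del_pow (u : (dataX D).Del) : u ^ 2 ^ (n + 1) = 1 := by
  funext i
  show u i ^ 2 ^ (n + 1) = 1
  induction i using Fin.cases with
  | zero =>
    show u 0 ^ 2 ^ (n + 1) = 1
    rw [pow_succ', pow_mul]
    have h := pow_comp D 0 (u 0)
    rw [show auxE (W := W) (n := n) 0 = 1 from rfl, pow_one] at h
    exact (congrArg (· ^ 2 ^ n) h).trans (one_pow _)
  | succ i => exact pow_comp D i.succ (u i.succ)

theorem Q_dvd_R (i : Fin (rk W)) : D.Q i ∣ D.R := Finset.dvd_prod_of_mem D.Q (Finset.mem_univ i)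

theorem vDel_of_ne (i : Fin (rk W)) (j : Fin (rk W + 1)) (h : j ≠ i.succ) : vDel D i j = 1 := by
  show (cycDel D (D.tau i) j)⁻¹ = 1
  rw [inv_eq_one, cycDel_apply]
  rw [show LevelRho.cycU (auxQ D j) (D.tau i) = 1 from Units.ext ?_]
  · rfl
  refine Attach.cyc_inertia (D.prime i) (fun hd => h ?_) (D.lies i) (D.tau_mem i)
  exact auxQ_injective D ((Nat.prime_dvd_prime_iff_eq (D.prime i) (prime_auxQ D j)).1 hd).symm

theorem generates (i : Fin (rk W)) (x : (ZMod (D.Q i))ˣ ⧸ auxH D i.succ) :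
    ∃ m : ℕ, x = cycDel D (D.tau i) i.succ ^ m := by
  haveI : NeZero (D.Q i) := ⟨(D.prime i).ne_zero⟩
  obtain ⟨a, rfl⟩ := QuotientGroup.mk_surjective x
  obtain ⟨τ, hτ, hτζ⟩ := EIS.exists_inertia_zeta (D.prime i) (D.lies i) 1 (a : ZMod (D.Q i)).val
    ((ZMod.isUnit_iff_coprime _ _).mp (by rw [ZMod.natCast_zmod_val]; exact a.isUnit))
  have ha : LevelRho.cycU (D.Q i) τ = a :=
    Units.ext (Attach.cyc_unique τ _ fun z hz => hτζ z (by rwa [pow_one]))
  obtain ⟨L, hL, hc⟩ := Attach.exists_cyc_level (D.Q i)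
  obtain ⟨hgen, -⟩ := tame_image ((QuotientGroup.mk' (auxH D i.succ)).comp (LevelRho.cycU (auxQ D i.succ)))
    ⟨L, hL, fun σ hσ => (congrArg (QuotientGroup.mk' (auxH D i.succ))
      (Units.ext (hc σ hσ) : LevelRho.cycU (D.Q i) σ = 1)).trans (map_one _)⟩
    (D.prime i) (fun h2 => (xData D).Q_two i.succ h2) (D.lies i) (k := n + 1)
    (fun σ _ => pow_comp D i.succ _) (D.tau_mem i) (D.tau_sqrt i)
  obtain ⟨m, hm⟩ := hgen τ hτ
  refine ⟨m, ?_⟩
  rw [← ha]
  exact hm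

theorem uTwo_sq_succ (i : Fin (rk W)) : sgn D i.succ = 1 := by
  haveI : NeZero (∏ j, D.Q j) := ⟨Finset.prod_ne_zero_iff.2 fun j _ => (D.prime j).ne_zero⟩
  show uTwo D i.succ * uTwo D i.succ * (clsTwo D i.succ)⁻¹ = 1
  rw [mul_inv_eq_one]
  show QuotientGroup.mk (LevelRho.cycU (auxQ D i.succ) D.g2 * LevelRho.cycU (auxQ D i.succ) D.g2) =
    (QuotientGroup.mk _ : (ZMod (auxQ D i.succ))ˣ ⧸ auxH D i.succ)
  refine congrArg _ (Units.ext ?_)
  haveI : NeZero (D.Q i) := ⟨(D.prime i).ne_zero⟩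
  have e := Attach.cyc_cast (m := D.Q i) (n := ∏ j, D.Q j) (Q_dvd_R D i) D.g2
  show Attach.cyc (D.Q i) D.g2 * Attach.cyc (D.Q i) D.g2 = ((2 : ℕ) : ZMod (D.Q i))
  rw [← e, Nat.cast_ofNat]
  exact (((map_mul _ _ _).symm.trans (congrArg _ (sq _).symm)).trans
    (congrArg _ D.g2_spec)).trans (map_ofNat _ 2)

theorem sgn_zero_ne : sgn D 0 ≠ 1 := by
  haveI : NeZero D.l := ⟨D.prime_l.ne_zero⟩
  haveI : Fact D.l.Prime := ⟨D.prime_l⟩
  intro h
  have h2 : clsTwo D 0 = 1 := by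
    have hsq : uTwo D 0 * uTwo D 0 = 1 := by
      have := pow_comp D 0 (uTwo D 0)
      exact (sq _).symm.trans this
    have h' : uTwo D 0 * uTwo D 0 * (clsTwo D 0)⁻¹ = 1 := h
    rwa [hsq, one_mul, inv_eq_one] at h'
  have h3 : ZMod.unitOfCoprime 2 ((Nat.coprime_primes Nat.prime_two (prime_auxQ D 0)).2
      ((xData D).Q_two 0).symm) ∈ auxH D 0 := (QuotientGroup.eq_one_iff _).1 h2
  have h4 : ((2 : ℕ) : ZMod D.l) ^ ((D.l - 1) / 2 ^ 1) = 1 :=
    congrArg Units.val (MonoidHom.mem_ker.1 h3)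
  have h8 := D.mod8
  have hne : ((2 : ℕ) : ZMod D.l) ≠ 0 := fun h0 => by
    rw [ZMod.natCast_eq_zero_iff, Nat.dvd_prime Nat.prime_two] at h0
    omega
  have hsq : IsSquare ((2 : ℕ) : ZMod D.l) := by
    refine (ZMod.euler_criterion D.l hne).2 ?_
    have e : (D.l - 1) / 2 ^ 1 = D.l / 2 := by omega
    rwa [e] at h4
  rw [Nat.cast_ofNat, ZMod.exists_sq_eq_two_iff (by omega)] at hsq
  omega

/-- the diamond group in coordinates -/
def delCoord (c : (Fin (rk W) → Fin (2 ^ (n + 1))) × Fin 2) : (dataX D).Del :=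
  (∏ i, vDel D i ^ (c.1 i : ℕ)) * sgn D ^ (c.2 : ℕ)

theorem delCoord_zero (c : (Fin (rk W) → Fin (2 ^ (n + 1))) × Fin 2) :
    delCoord D c 0 = sgn D 0 ^ (c.2 : ℕ) := by
  show (∏ i, vDel D i ^ (c.1 i : ℕ)) 0 * (sgn D ^ (c.2 : ℕ)) 0 = _
  rw [Finset.prod_apply, Finset.prod_eq_one, one_mul, Pi.pow_apply]
  intro i _
  rw [Pi.pow_apply, vDel_of_ne D i 0 (Fin.succ_ne_zero i).symm, one_pow]

theorem delCoord_succ (c : (Fin (rk W) → Fin (2 ^ (n + 1))) × Fin 2) (i : Fin (rk W)) :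
    delCoord D c i.succ = vDel D i i.succ ^ (c.1 i : ℕ) := by
  show (∏ j, vDel D j ^ (c.1 j : ℕ)) i.succ * (sgn D ^ (c.2 : ℕ)) i.succ = _
  rw [Finset.prod_apply, Finset.prod_eq_single i, Pi.pow_apply, Pi.pow_apply, uTwo_sq_succ, one_pow,
    mul_one]
  · intro j _ hj
    rw [Pi.pow_apply, vDel_of_ne D j i.succ (fun h => hj (Fin.succ_inj.1 h).symm), one_pow]
  · exact fun h => absurd (Finset.mem_univ i) h

theorem card_del : Nat.card (dataX D).Del = (2 ^ (n + 1)) ^ rk W * 2 := by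
  show Nat.card (∀ i : Fin (rk W + 1), (ZMod (auxQ D i))ˣ ⧸ auxH D i) = _
  rw [Nat.card_pi]
  simp only [card_comp]
  rw [Fin.prod_univ_succ]
  show 2 ^ 1 * ∏ _i : Fin (rk W), 2 ^ (n + 1) = _
  rw [Finset.prod_const, Finset.card_univ, Fintype.card_fin, pow_one, mul_comm]

theorem delCoord_bijective : Function.Bijective (delCoord D) := by
  classical
  have hsurj : Function.Surjective (delCoord D) := by
    intro u
    have hv : ∀ i : Fin (rk W), ∃ a : Fin (2 ^ (n + 1)), u i.succ = vDel D i i.succ ^ (a : ℕ) := by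
      intro i
      obtain ⟨m, hm⟩ := generates D i (u i.succ)⁻¹
      refine ⟨⟨m % 2 ^ (n + 1), Nat.mod_lt _ (Nat.two_pow_pos _)⟩, ?_⟩
      show u i.succ = (cycDel D (D.tau i) i.succ)⁻¹ ^ (m % 2 ^ (n + 1))
      exact ((inv_inv (u i.succ)).symm.trans ((congrArg (·⁻¹) hm).trans (inv_pow _ _).symm)).trans
        (pow_eq_pow_mod m (pow_comp D i.succ _))
    choose a ha using hv
    have hs : ∃ s : Fin 2, u 0 = sgn D 0 ^ (s : ℕ) := by
      by_cases h : u 0 = 1
      · exact ⟨0, by rw [h]; exact (pow_zero _).symm⟩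
      refine ⟨1, Eq.trans ?_ (pow_one _).symm⟩
      obtain ⟨x, hx, huniq⟩ := (Nat.card_eq_two_iff' (1 : (ZMod (auxQ D 0))ˣ ⧸ auxH D 0)).1
        (card_comp D 0)
      exact (huniq _ h).trans (huniq _ (sgn_zero_ne D)).symm
    obtain ⟨s, hs⟩ := hs
    refine ⟨(a, s), funext fun j => ?_⟩
    induction j using Fin.cases with
    | zero => rw [delCoord_zero, hs]
    | succ i => rw [delCoord_succ, ha]
  haveI : Finite (Fin (rk W) → Fin (2 ^ (n + 1))) := Pi.finite
  refine (Nat.bijective_iff_surjective_and_card (delCoord D)).2 ⟨hsurj, ?_⟩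
  rw [card_del, Nat.card_prod, Nat.card_fun, Nat.card_fin, Nat.card_fin, Nat.card_fin]

end FLTAgent.R2.Lv

end
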