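import Fermat.Agent.R2.LevelTop
import Fermat.Agent.R2.CohExt

/-!
Area R2, parcel G5: tools for surjectivity of the two sums at a prime.

Surjectivity on the part of a system passes to quotient coefficient modules, along reductions in
both directions (Nakayama) and up along diamonds of prime power order.
-/

set_option autoImplicit false
set_option linter.style.haveILetI false
set_option linter.unusedSectionVars false

noncomputable section

open scoped MatrixGroups
open Matrix IsLocalRing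

namespace FLTAgent.R2.Lv

open FLTAgent.LL FLTAgent.R2.Coh

section Free

variable {M : ℕ} [NeZero M] {A : Type*} [CommRing A] {V : Type*} [AddCommGroup V] [Module A V]
  {τ : Representation A (GL (Fin 2) (ZMod M)) V} {X : Type*} [MulAction (GL (Fin 2) (ZMod M)) X]

theorem S_smul_S_smul (hX : ∀ x : X, red M (-1) • x = x) (x : X) :
    red M ModularGroup.S • red M ModularGroup.S • x = x := by
  rw [smul_smul, ← map_mul, Periods.S_mul_S, hX]

/-- a set of representatives for the orbits of `S` -/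
theorem exists_half (hX : ∀ x : X, red M (-1) • x = x)
    (hS : ∀ x : X, red M ModularGroup.S • x ≠ x) :
    ∃ c : X → Prop, ∀ x, c (red M ModularGroup.S • x) ↔ ¬ c x := by
  classical
  letI : LinearOrder X := linearOrderOfSTO WellOrderingRel
  refine ⟨fun x => x < red M ModularGroup.S • x, fun x => ?_⟩
  simp only [S_smul_S_smul hX]
  exact ⟨fun h => not_lt.2 h.le, fun h => (lt_or_gt_of_ne (hS x).symm).resolve_left h⟩

variable (A V) in
/-- functions cut off outside a subset -/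
def halfEnd (c : X → Prop) : Module.End A (X → V) :=
  LinearMap.pi fun x => haveI := Classical.dec (c x)
    if c x then LinearMap.proj x else 0

theorem halfEnd_apply (c : X → Prop) [∀ x, Decidable (c x)] (F : X → V) (x : X) :
    halfEnd A V c F x = if c x then F x else 0 := by
  by_cases h : c x <;> simp [halfEnd, h]

theorem halfEnd_spec (hτ : τ (red M (-1)) = 1) (hX : ∀ x : X, red M (-1) • x = x) {c : X → Prop}
    (hc : ∀ x, c (red M ModularGroup.S • x) ↔ ¬ c x) (F : X → V) :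
    halfEnd A V c F + funTensor τ X (red M ModularGroup.S)
      (halfEnd A V c (funTensor τ X (red M ModularGroup.S) F)) = F := by
  classical
  funext x
  rw [Pi.add_apply, funTensor_apply, halfEnd_apply, halfEnd_apply, funTensor_apply,
    inv_smul_eq_iff.2 (S_smul_S_smul hX x).symm, apply_ite (τ _), map_zero, S_S hτ,
    inv_smul_smul]
  by_cases h : c x
  · rw [if_pos h, if_neg (fun h' => (hc x).1 h' h), add_zero]
  · rw [if_neg h, if_pos ((hc x).2 h), zero_add]

/-- functions on a set without fixed points of `S` -/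
theorem sFree_funTensor (hτ : τ (red M (-1)) = 1) (hX : ∀ x : X, red M (-1) • x = x)
    (hS : ∀ x : X, red M ModularGroup.S • x ≠ x) : SFree (funTensor τ X) := by
  obtain ⟨c, hc⟩ := exists_half hX hS
  exact ⟨halfEnd A V c, halfEnd_spec hτ hX hc⟩

/-- functions with values in an `SFree` module -/
theorem sFree_funTensor_of (h : SFree τ) (hX : ∀ x : X, red M (-1) • x = x) :
    SFree (funTensor τ X) := by
  obtain ⟨e, he⟩ := h
  refine ⟨e.compLeft X, fun F => funext fun x => ?_⟩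
  show e (F x) + τ _ (e (funTensor τ X _ F ((red M ModularGroup.S)⁻¹ • x))) = F x
  rw [funTensor_apply, inv_smul_eq_iff.2 (S_smul_S_smul hX x).symm, inv_smul_smul]
  exact he (F x)

theorem sFree_pRep {p : ℕ} (h : SFree τ) : SFree (pRep (p := p) τ) :=
  sFree_funTensor_of h fun x => P1.red_neg_one_smul x

end Free

section Natural

variable {M : ℕ} {A A' : Type*} [CommRing A] [CommRing A'] [Algebra A A']
  {U V V' : Type*} [AddCommGroup U] [Module A U] [AddCommGroup V] [Module A V]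
  [AddCommGroup V'] [Module A V']
  {ρu : Representation A (GL (Fin 2) (ZMod M)) U} {ρ : Representation A (GL (Fin 2) (ZMod M)) V}
  {ρ' : Representation A (GL (Fin 2) (ZMod M)) V'}

theorem map_map_one {Φ : U →ₗ[A] V} {Ψ : V →ₗ[A] V'} {Θ : U →ₗ[A] V'} (h : IsTwist ρu ρ 1 Φ)
    (h' : IsTwist ρ ρ' 1 Ψ) (h'' : IsTwist ρu ρ' 1 Θ) (e : ∀ u, Ψ (Φ u) = Θ u) (x : H1 ρu) :
    LL.map h' (LL.map h x) = LL.map h'' x := by
  obtain ⟨f, rfl⟩ := Submodule.mkQ_surjective _ x
  exact congrArg (H1.mk ρ') (Subtype.ext (funext fun g => e _))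

theorem map_eq_of_eq {Φ Ψ : V →ₗ[A] V'} (h : IsTwist ρ ρ' 1 Φ) (h' : IsTwist ρ ρ' 1 Ψ)
    (e : ∀ v, Φ v = Ψ v) (x : H1 ρ) : LL.map h x = LL.map h' x := by
  obtain rfl : Φ = Ψ := LinearMap.ext e
  rfl

theorem map_eq_zero_of {Φ : V →ₗ[A] V'} (h : IsTwist ρ ρ' 1 Φ) (e : ∀ v, Φ v = 0) (x : H1 ρ) :
    LL.map h x = 0 := by
  obtain ⟨f, rfl⟩ := Submodule.mkQ_surjective _ x
  rw [← map_zero (H1.mk ρ')]
  exact congrArg (H1.mk ρ') (Subtype.ext (funext fun g => e _))

section Ext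

variable [NeZero M] {W W' : Type*} [AddCommGroup W] [Module A' W] [Module A W] [IsScalarTower A A' W]
  [AddCommGroup W'] [Module A' W'] [Module A W'] [IsScalarTower A A' W']
  {σ : Representation A' (GL (Fin 2) (ZMod M)) W} {σ' : Representation A' (GL (Fin 2) (ZMod M)) W'}

theorem extH_map_eq {Φ : U →ₗ[A] V} {Ψ : V →ₗ[A] W} {Θ : U →ₗ[A] W} (h : IsTwist ρu ρ 1 Φ)
    (h' : IsTwist ρ (resRep (A := A) σ) 1 Ψ) (h'' : IsTwist ρu (resRep (A := A) σ) 1 Θ)
    (e : ∀ u, Ψ (Φ u) = Θ u) (x : H1 ρu) : extH σ h' (LL.map h x) = extH σ h'' x :=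
  congrArg (resH σ) (map_map_one h h' h'' e x)

theorem map_extH_eq {Φ : U →ₗ[A] W} {Ψ : W →ₗ[A'] W'} {Θ : U →ₗ[A] W'}
    (h : IsTwist ρu (resRep (A := A) σ) 1 Φ) (h' : IsTwist σ σ' 1 Ψ)
    (h'' : IsTwist ρu (resRep (A := A) σ') 1 Θ) (e : ∀ u, Ψ (Φ u) = Θ u) (x : H1 ρu) :
    LL.map h' (extH σ h x) = extH σ' h'' x := by
  obtain ⟨f, rfl⟩ := Submodule.mkQ_surjective _ x
  exact congrArg (H1.mk σ') (Subtype.ext (funext fun g => e _))

end Ext

end Natural

section Quotient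

variable {M p M' : ℕ} [NeZero M] [NeZero M'] (h : Split M p M') {A : Type*} [CommRing A]
  [IsLocalRing A] [IsNoetherianRing A] [IsAdicComplete (maximalIdeal A) A]
  {V V₂ : Type*} [AddCommGroup V] [Module A V] [Module.Finite A V] [AddCommGroup V₂] [Module A V₂]
  [Module.Finite A V₂] {τ : Representation A (GL (Fin 2) (ZMod M)) V}
  {τ₂ : Representation A (GL (Fin 2) (ZMod M)) V₂}

/-- surjectivity passes to quotients -/
theorem Surj.of_surjective {hτ : Fac h τ} {s : Sys M A} (H : Surj h τ hτ s) (hτ₂ : Fac h τ₂)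
    (hneg : τ (red M (-1)) = 1) (h3 : IsUnit (3 : A)) {Φ : V →ₗ[A] V₂} (hΦ : IsTwist τ τ₂ 1 Φ)
    (hs : Function.Surjective Φ) (hfree : SFree τ₂) : Surj h τ₂ hτ₂ s := by
  intro a ha b hb
  obtain ⟨a', ha', rfl⟩ := exists_mem_E_map_eq s hneg h3 hΦ (fun _ => by simp) hs hfree ha
  obtain ⟨b', hb', rfl⟩ := exists_mem_E_map_eq s hneg h3 hΦ (fun _ => by simp) hs hfree hb
  obtain ⟨y, hy, e⟩ := H a' ha' b' hb'
  exact ⟨_, s.map_mem_E (isTwist_postcomp τ hΦ) (fun _ => by simp) hy, by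
    rw [degP_natural h hτ hτ₂ hΦ, e]⟩

end Quotient

section Reduce

variable {M p M' : ℕ} [NeZero M] [NeZero M'] (h : Split M p M') {A A' : Type*} [CommRing A]
  [CommRing A'] [Algebra A A'] {U V : Type*} [AddCommGroup U] [Module A U] [AddCommGroup V]
  [Module A' V] [Module A V] [IsScalarTower A A' V]
  {τ : Representation A (GL (Fin 2) (ZMod M)) U} {τ₂ : Representation A' (GL (Fin 2) (ZMod M)) V}
  {Φ : U →ₗ[A] V} (hΦ : IsTwist τ (resRep (A := A) τ₂) 1 Φ)

include hΦ in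
theorem isTwist_resTop :
    IsTwist (pRep (p := p) τ) (resRep (A := A) (pRep (p := p) τ₂)) 1 (Φ.compLeft (P1 M p)) :=
  fun g F => by
    rw [MonoidHom.one_apply, one_smul]
    funext x
    have h2 := hΦ g (F (g⁻¹ • x))
    rw [MonoidHom.one_apply, one_smul] at h2
    exact h2

theorem extH_pushPt (x : H1 (pRep (p := p) τ)) :
    extH τ₂ hΦ (LL.map (isTwist_pushPt (p := p) τ) x) =
      LL.map (isTwist_pushPt (p := p) τ₂) (extH (pRep τ₂) (isTwist_resTop hΦ) x) := by
  obtain ⟨f, rfl⟩ := Submodule.mkQ_surjective _ x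
  refine congrArg (H1.mk τ₂) (Subtype.ext (funext fun γ => ?_))
  haveI : Fintype (P1 M p) := Fintype.ofFinite _
  show Φ (pushPt (A := A) (f.1 γ)) = pushPt (A := A') (Φ.compLeft (P1 M p) (f.1 γ))
  rw [pushPt_apply, pushPt_apply, map_sum]
  rfl

theorem extH_Wp (hτ : Fac h τ) (hτ₂ : Fac h τ₂) (x : H1 (pRep (p := p) τ)) :
    extH (pRep τ₂) (isTwist_resTop hΦ) (Wp h τ hτ x) =
      Wp h τ₂ hτ₂ (extH (pRep τ₂) (isTwist_resTop hΦ) x) := by
  classical
  haveI : Fact p.Prime := ⟨h.prime⟩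
  obtain ⟨f, rfl⟩ := Submodule.mkQ_surjective _ x
  rw [Wp_eq h τ hτ, Wp_eq h τ₂ hτ₂]
  simp only [extH, LinearMap.comp_apply, LinearEquiv.coe_coe, opH_mk, map_mk, resH_mk]
  refine congrArg (H1.mk (pRep τ₂)) (Subtype.ext (funext fun g => funext fun z => ?_))
  show Φ ((opZ ((isMatKer_kerW h τ hτ dvd_rfl (not_sq_dvd h.prime) h.coprime).isKer
    (Fam.ofReps (stdReps p)) (stdReps p).det_rep) f).1 g z) = _
  rw [opZ_apply, opZ_apply]
  simp only [Finset.sum_apply, map_sum]
  refine Finset.sum_congr rfl fun i _ => ?_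
  rw [kerW_apply, kerW_apply]
  split_ifs
  · refine (hΦ _ _).trans ?_
    rw [MonoidHom.one_apply, one_smul]
    rfl
  · exact map_zero _

/-- the two sums commute with change of rings -/
theorem degP_extH (hτ : Fac h τ) (hτ₂ : Fac h τ₂) (x : H1 (pRep (p := p) τ)) :
    degP h τ₂ hτ₂ (extH (pRep τ₂) (isTwist_resTop hΦ) x) =
      (extH τ₂ hΦ (degP h τ hτ x).1, extH τ₂ hΦ (degP h τ hτ x).2) := by
  refine Prod.ext (extH_pushPt hΦ x).symm ?_
  show LL.map (isTwist_pushPt (p := p) τ₂) (Wp h τ₂ hτ₂ _) =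
    extH τ₂ hΦ (LL.map (isTwist_pushPt (p := p) τ) (Wp h τ hτ x))
  rw [← extH_Wp h hΦ hτ hτ₂, extH_pushPt]

variable [IsLocalRing A] [IsLocalRing A'] [IsNoetherianRing A]
  [IsAdicComplete (maximalIdeal A) A] [Module.Finite A U] {hτ : Fac h τ} {hτ₂ : Fac h τ₂}
  (s : Sys M A) (hσ : Function.Surjective (algebraMap A A')) (hneg : τ (red M (-1)) = 1)
  (h3 : IsUnit (3 : A)) (hs : Function.Surjective Φ) (hfree : SFree τ₂)

include hΦ hσ hneg h3 hs hfree in
/-- surjectivity passes to reductions -/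
theorem Surj.reduce (H : Surj h τ hτ s) : Surj h τ₂ hτ₂ (sysMap A' s) := by
  haveI : IsLocalHom (algebraMap A A') := hσ.isLocalHom _
  intro a ha b hb
  obtain ⟨a', ha', rfl⟩ := exists_mem_E_extH_eq τ₂ hΦ hσ s hneg h3 hs hfree ha
  obtain ⟨b', hb', rfl⟩ := exists_mem_E_extH_eq τ₂ hΦ hσ s hneg h3 hs hfree hb
  obtain ⟨y, hy, e⟩ := H a' ha' b' hb'
  exact ⟨_, extH_mem_E (pRep τ₂) (isTwist_resTop hΦ) s hy, by rw [degP_extH h hΦ hτ hτ₂, e]⟩

variable {π : A} (hker : ∀ v, Φ v = 0 ↔ ∃ w, π • w = v) (htf : ∀ v : U, π • v = 0 → v = 0)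

include hΦ hs hker htf in
/-- classes that reduce to zero are multiples -/
theorem exists_smul_eq_of_extH_eq_zero {x : H1 τ} (hx : x ∈ s.E τ) (h0 : extH τ₂ hΦ x = 0) :
    ∃ y ∈ s.E τ, π • y = x := by
  haveI : Module.Finite A V := Module.Finite.of_surjective Φ hs
  exact s.exists_smul_eq_of_map_eq_zero hΦ hs π hker htf hx
    ((resH τ₂).injective (h0.trans (map_zero _).symm))

include hΦ hσ hneg h3 hs hfree hker htf in
/-- Nakayama: surjectivity lifts along reductions -/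
theorem Surj.of_reduce (hπ : π ∈ maximalIdeal A) (H : Surj h τ₂ hτ₂ (sysMap A' s)) :
    Surj h τ hτ s := by
  haveI : IsLocalHom (algebraMap A A') := hσ.isLocalHom _
  haveI := s.E_finite (ρ := τ)
  let f : H1 (pRep (p := p) τ) →ₗ[A] H1 τ × H1 τ := degP h τ hτ
  have hNN : (s.E τ).prod (s.E τ) ≤
      (s.E (pRep (p := p) τ)).map f ⊔ maximalIdeal A • (s.E τ).prod (s.E τ) := by
    rintro ⟨a, b⟩ ⟨ha, hb⟩
    obtain ⟨y', hy', e⟩ := H _ (extH_mem_E τ₂ hΦ s ha) _ (extH_mem_E τ₂ hΦ s hb)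
    have hnegP : pRep (p := p) τ (red M (-1)) = 1 := pRep_neg_one hneg
    have hsP : Function.Surjective (Φ.compLeft (P1 M p)) := fun G => by
      choose F hF using fun x => hs (G x)
      exact ⟨F, funext hF⟩
    obtain ⟨y, hy, rfl⟩ := exists_mem_E_extH_eq (pRep τ₂) (isTwist_resTop hΦ) hσ s hnegP h3 hsP
      (sFree_pRep hfree) hy'
    rw [degP_extH h hΦ hτ hτ₂, Prod.mk.injEq] at e
    have hd := degP_mem_E h hτ s hy
    obtain ⟨a', ha', ea⟩ := exists_smul_eq_of_extH_eq_zero hΦ s hs hker htf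
      (sub_mem ha hd.1) (by rw [map_sub, e.1, sub_self])
    obtain ⟨b', hb', eb⟩ := exists_smul_eq_of_extH_eq_zero hΦ s hs hker htf
      (sub_mem hb hd.2) (by rw [map_sub, e.2, sub_self])
    rw [show ((a, b) : H1 τ × H1 τ) = f y + π • (a', b') from ?_]
    · exact add_mem (Submodule.mem_sup_left ⟨y, hy, rfl⟩)
        (Submodule.mem_sup_right (Submodule.smul_mem_smul hπ ⟨ha', hb'⟩))
    · rw [Prod.smul_mk, ea, eb]
      exact Prod.ext (by simp [f]) (by simp [f])
  haveI := H1_finite τ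
  have hle := Submodule.le_of_le_smul_of_le_jacobson_bot (IsNoetherian.noetherian _)
    (IsLocalRing.maximalIdeal_le_jacobson ⊥) hNN
  intro a ha b hb
  exact hle (show (a, b) ∈ (s.E τ).prod (s.E τ) from ⟨ha, hb⟩)

end Reduce

section Diamonds

/-- a product of diamond pairs -/
def DPair.prod {A : Type*} [CommRing A] {H H₀ G G₀ Δ : Type*} [AddCommGroup H] [Module A H]
    [AddCommGroup H₀] [Module A H₀] [AddCommGroup G] [Module A G] [AddCommGroup G₀] [Module A G₀]
    [CommGroup Δ] [Fintype Δ] (D : DPair A H H₀ Δ) (E : DPair A G G₀ Δ) :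
    DPair A (H × G) (H₀ × G₀) Δ where
  dia :=
    { toFun := fun u => (D.dia u).prodMap (E.dia u)
      map_one' := by rw [map_one, map_one]; rfl
      map_mul' := fun u v => by rw [map_mul, map_mul]; rfl }
  toY := D.toY.prodMap E.toY
  ofY := D.ofY.prodMap E.ofY
  toY_surjective := D.toY_surjective.prodMap E.toY_surjective
  ofY_injective := D.ofY_injective.prodMap E.ofY_injective
  ofY_toY x := Prod.ext
    ((D.ofY_toY x.1).trans (Prod.fst_sum (s := Finset.univ)
      (f := fun u => (D.dia u x.1, E.dia u x.2))).symm)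
    ((E.ofY_toY x.2).trans (Prod.snd_sum (s := Finset.univ)
      (f := fun u => (D.dia u x.1, E.dia u x.2))).symm)
  toY_dia u x := Prod.ext (D.toY_dia u x.1) (E.toY_dia u x.2)
  ker_toY := by
    refine le_antisymm (fun x hx => ?_) (iSup_le fun u => ?_)
    · have h1 : x.1 ∈ LinearMap.ker D.toY := congrArg Prod.fst hx
      have h2 : x.2 ∈ LinearMap.ker E.toY := congrArg Prod.snd hx
      rw [D.ker_toY] at h1
      rw [E.ker_toY] at h2
      rw [show x = LinearMap.inl A H G x.1 + LinearMap.inr A H G x.2 by simp]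
      refine add_mem ?_ ?_
      · have h := Submodule.mem_map_of_mem (f := LinearMap.inl A H G) h1
        rw [Submodule.map_iSup] at h
        refine SetLike.le_def.1 (iSup_mono fun u => ?_) h
        rintro _ ⟨_, ⟨z, rfl⟩, rfl⟩
        exact ⟨(z, 0), Prod.ext rfl (by simp)⟩
      · have h := Submodule.mem_map_of_mem (f := LinearMap.inr A H G) h2
        rw [Submodule.map_iSup] at h
        refine SetLike.le_def.1 (iSup_mono fun u => ?_) h
        rintro _ ⟨_, ⟨z, rfl⟩, rfl⟩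
        exact ⟨(0, z), Prod.ext (by simp) rfl⟩
    · rintro _ ⟨x, rfl⟩
      exact Prod.ext
        (show D.toY (D.dia u x.1 - x.1) = 0 by rw [map_sub, D.toY_dia, sub_self])
        (show E.toY (E.dia u x.2 - x.2) = 0 by rw [map_sub, E.toY_dia, sub_self])

variable {M p M' : ℕ} [NeZero M] [NeZero M'] (h : Split M p M') {A : Type*} [CommRing A]
  [IsLocalRing A]
  {V : Type*} [AddCommGroup V] [Module A V] {τ : Representation A (GL (Fin 2) (ZMod M)) V}

/-- the two sums on the part of a system -/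
def degE (hτ : Fac h τ) (s : Sys M A) : s.E (pRep (p := p) τ) →ₗ[A] s.E τ × s.E τ :=
  ((LinearMap.fst A _ _ ∘ₗ degP h τ hτ).restrict fun _ hx => (degP_mem_E h hτ s hx).1).prod
    ((LinearMap.snd A _ _ ∘ₗ degP h τ hτ).restrict fun _ hx => (degP_mem_E h hτ s hx).2)

theorem surj_iff (hτ : Fac h τ) (s : Sys M A) :
    Surj h τ hτ s ↔ Function.Surjective (degE h hτ s) := by
  refine ⟨fun H x => ?_, fun H a ha b hb => ?_⟩
  · obtain ⟨y, hy, e⟩ := H _ x.1.2 _ x.2.2
    exact ⟨⟨y, hy⟩, Prod.ext (Subtype.ext (congrArg Prod.fst e))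
      (Subtype.ext (congrArg Prod.snd e))⟩
  · obtain ⟨y, e⟩ := H (⟨a, ha⟩, ⟨b, hb⟩)
    exact ⟨y, y.2, Prod.ext (congrArg (fun z => z.1.1) e) (congrArg (fun z => z.2.1) e)⟩

variable [IsNoetherianRing A] [IsAdicComplete (maximalIdeal A) A] [Module.Finite A V]
  {V₀ : Type*} [AddCommGroup V₀] [Module A V₀] [Module.Finite A V₀]
  {τ₀ : Representation A (GL (Fin 2) (ZMod M)) V₀} {Δ : Type*} [CommGroup Δ] [Fintype Δ]
  (Dd : DiaData τ τ₀ Δ)

include Dd in
/-- surjectivity goes up along diamonds -/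
theorem Surj.of_diaData {hτ₀ : Fac h τ₀} {s : Sys M A} (H : Surj h τ₀ hτ₀ s) (hτ : Fac h τ)
    (hneg : τ (red M (-1)) = 1) (h3 : IsUnit (3 : A)) {q : ℕ} (hq : q.Prime)
    (hnil : IsNilpotent (q : A)) {n : ℕ} (hΔ : ∀ u : Δ, u ^ q ^ n = 1) : Surj h τ hτ s := by
  rw [surj_iff] at H ⊢
  haveI := s.E_finite (ρ := τ)
  refine DPair.surjective_of_below
    (dpair (topDia (p := p) Dd) s (pRep_neg_one hneg) h3)
    ((dpair Dd s hneg h3).prod (dpair Dd s hneg h3))
    (degE h hτ s) (degE h hτ₀ s) (fun u x => ?_) (fun x => ?_) hq hnil hΔ H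
  · have e := degP_act h hτ (Dd.isTwist_act u) x.1
    exact Prod.ext (Subtype.ext (congrArg Prod.fst e)) (Subtype.ext (congrArg Prod.snd e))
  · have e := degP_natural h hτ hτ₀ Dd.isTwist_push x.1
    exact Prod.ext (Subtype.ext (congrArg Prod.fst e).symm)
      (Subtype.ext (congrArg Prod.snd e).symm)

end Diamonds

end FLTAgent.R2.Lv

end
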