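import Fermat.Agent.R2.LevelTop
import Fermat.Agent.R2.LevelSurjAux

/-!
Area R2, parcel G5: diamonds on the whole cohomology, their commutation with the sums and the operator
at a prime, and products of diamond pairs.
-/

set_option autoImplicit false
set_option linter.style.haveILetI false
set_option linter.unusedSectionVars false

noncomputable section

open scoped MatrixGroups
open Matrix IsLocalRing

namespace FLTAgent.R2.Lv

open FLTAgent.LL FLTAgent.R2.Coh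

variable {M : ℕ} [NeZero M] {A : Type*} [CommRing A] {V V₀ : Type*} [AddCommGroup V] [Module A V]
  [AddCommGroup V₀] [Module A V₀] {ρ : Representation A (GL (Fin 2) (ZMod M)) V}
  {ρ₀ : Representation A (GL (Fin 2) (ZMod M)) V₀} {Δ : Type*} [CommGroup Δ] [Fintype Δ]

/-- diamonds on the whole cohomology -/
def diaH (Dd : DiaData ρ ρ₀ Δ) : Δ →* Module.End A (H1 ρ) where
  toFun u := LL.map (Dd.isTwist_act u)
  map_one' := LinearMap.ext fun x => by
    obtain ⟨f, rfl⟩ := Submodule.mkQ_surjective _ x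
    exact congrArg (H1.mk ρ) (Subtype.ext (funext fun g => LinearMap.congr_fun (map_one Dd.act) _))
  map_mul' u v := LinearMap.ext fun x => by
    obtain ⟨f, rfl⟩ := Submodule.mkQ_surjective _ x
    exact congrArg (H1.mk ρ) (Subtype.ext (funext fun g => LinearMap.congr_fun (map_mul Dd.act u v) _))

theorem diaH_apply (Dd : DiaData ρ ρ₀ Δ) (u : Δ) (x : H1 ρ) :
    diaH Dd u x = LL.map (Dd.isTwist_act u) x := rfl

theorem diaH_T (Dd : DiaData ρ ρ₀ Δ) (u : Δ) {l : ℕ} (hl : l.Prime) (hlM : ¬ l ∣ M) (x : H1 ρ) :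
    diaH Dd u (LL.T ρ hl hlM x) = LL.T ρ hl hlM (diaH Dd u x) :=
  map_T_one _ hl hlM x

theorem diaH_mem_E [IsLocalRing A] (Dd : DiaData ρ ρ₀ Δ) (s : Sys M A) (u : Δ) {x : H1 ρ}
    (hx : x ∈ s.E ρ) : diaH Dd u x ∈ s.E ρ :=
  s.map_mem_E _ (fun _ => by simp) hx

variable {p M' : ℕ} [NeZero M'] (h : Split M p M') (Dd : DiaData ρ ρ₀ Δ) (hρ : Fac h ρ)

theorem Wp_diaH (u : Δ) (x : H1 (pRep (p := p) ρ)) :
    Wp h ρ hρ (diaH (topDia Dd) u x) = diaH (topDia Dd) u (Wp h ρ hρ x) :=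
  (Wp_natural h ρ hρ hρ (Dd.isTwist_act u) x).symm

theorem degP_diaH (u : Δ) (x : H1 (pRep (p := p) ρ)) :
    degP h ρ hρ (diaH (topDia Dd) u x) =
      (diaH Dd u (degP h ρ hρ x).1, diaH Dd u (degP h ρ hρ x).2) :=
  degP_natural h hρ hρ (Dd.isTwist_act u) x

theorem degP_push (hρ₀ : Fac h ρ₀) (x : H1 (pRep (p := p) ρ)) :
    degP h ρ₀ hρ₀ (LL.map (topDia Dd).isTwist_push x) =
      (LL.map Dd.isTwist_push (degP h ρ hρ x).1, LL.map Dd.isTwist_push (degP h ρ hρ x).2) :=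
  degP_natural h hρ hρ₀ Dd.isTwist_push x

theorem degP_pull (hρ₀ : Fac h ρ₀) (y : H1 (pRep (p := p) ρ₀)) :
    degP h ρ hρ (LL.map (topDia Dd).isTwist_pull y) =
      (LL.map Dd.isTwist_pull (degP h ρ₀ hρ₀ y).1, LL.map Dd.isTwist_pull (degP h ρ₀ hρ₀ y).2) :=
  degP_natural h hρ₀ hρ Dd.isTwist_pull y

/-- `⟨u⟩ Wp` -/
def diaW' (u : Δ) : Module.End A (H1 (pRep (p := p) ρ)) :=
  diaH (topDia Dd) u * Wp h ρ hρ

theorem diaW'_apply (u : Δ) (x : H1 (pRep (p := p) ρ)) :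
    diaW' h Dd hρ u x = diaH (topDia Dd) u (Wp h ρ hρ x) := rfl

theorem diaW'_sq (u c : Δ) (hc : ∀ x, Wp h ρ hρ (Wp h ρ hρ x) = diaH (topDia Dd) c x) :
    diaW' h Dd hρ u * diaW' h Dd hρ u = diaH (topDia Dd) (u * u * c) := by
  refine LinearMap.ext fun x => ?_
  rw [Module.End.mul_apply, diaW'_apply, diaW'_apply, Wp_diaH, hc, map_mul, map_mul,
    Module.End.mul_apply, Module.End.mul_apply]

theorem diaW'_dia (u v : Δ) (x : H1 (pRep (p := p) ρ)) :
    diaW' h Dd hρ u (diaH (topDia Dd) v x) = diaH (topDia Dd) v (diaW' h Dd hρ u x) := by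
  rw [diaW'_apply, diaW'_apply, Wp_diaH, ← Module.End.mul_apply, ← map_mul, mul_comm, map_mul,
    Module.End.mul_apply]

theorem diaW'_T (u : Δ) {l : ℕ} (hl : l.Prime) (hlM : ¬ l ∣ M) (x : H1 (pRep (p := p) ρ)) :
    diaW' h Dd hρ u (LL.T (pRep (p := p) ρ) hl hlM x) =
      LL.T (pRep (p := p) ρ) hl hlM (diaW' h Dd hρ u x) := by
  rw [diaW'_apply, diaW'_apply, Wp_T, diaH_T]

theorem diaH_mem_newPart [IsLocalRing A] (s : Sys M A) (u : Δ) {x : H1 (pRep (p := p) ρ)}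
    (hx : x ∈ newPart h ρ hρ s) : diaH (topDia Dd) u x ∈ newPart h ρ hρ s := by
  rw [mem_newPart] at hx ⊢
  exact ⟨diaH_mem_E _ _ u hx.1, by rw [degP_diaH, hx.2]; simp⟩

theorem Wp_mem_newPart [IsLocalRing A] (s : Sys M A) (c : Δ)
    (hc : ∀ x, Wp h ρ hρ (Wp h ρ hρ x) = diaH (topDia Dd) c x) {x : H1 (pRep (p := p) ρ)}
    (hx : x ∈ newPart h ρ hρ s) : Wp h ρ hρ x ∈ newPart h ρ hρ s := by
  rw [mem_newPart] at hx ⊢
  refine ⟨Wp_mem_E _ _ _ _ hx.1, Prod.ext (congrArg Prod.snd hx.2) ?_⟩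
  show LL.map (isTwist_pushPt (p := p) ρ) (Wp h ρ hρ (Wp h ρ hρ x)) = 0
  rw [hc]
  exact (congrArg Prod.fst (degP_diaH h Dd hρ c x)).trans (by rw [hx.2]; simp)

theorem sign_stable {H : Type*} [AddCommGroup H] [Module A H] (V f : Module.End A H) (c : A) {x : H}
    (hc : V (f x) = f (V x)) (hx : V x + c • x = 0) : V (f x) + c • f x = 0 := by
  rw [hc, ← map_smul, ← _root_.map_add, hx, map_zero]

theorem sq_fix {H : Type*} [AddCommGroup H] [Module A H] (V : Module.End A H) (ε : ℤˣ) {x : H}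
    (hx : V x + ((ε : ℤ) : A) • x = 0) : (V * V) x = x := by
  have e := eq_neg_of_add_eq_zero_left hx
  rw [Module.End.mul_apply, e, map_neg, map_smul, e, smul_neg, neg_neg, smul_smul, ← Int.cast_mul,
    ← Units.val_mul, Int.units_mul_self, Units.val_one, Int.cast_one, one_smul]

section Sums

variable [IsLocalRing A] (s : Sys M A) (hρ₀ : Fac h ρ₀)

theorem degE_fst (x : s.E (pRep (p := p) ρ)) : ((degE h hρ s x).1 : H1 ρ) = (degP h ρ hρ x.1).1 :=
  rfl

theorem degE_snd (x : s.E (pRep (p := p) ρ)) : ((degE h hρ s x).2 : H1 ρ) = (degP h ρ hρ x.1).2 :=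
  rfl

theorem degE_eq_zero_iff (x : s.E (pRep (p := p) ρ)) :
    degE h hρ s x = 0 ↔ degP h ρ hρ x.1 = 0 := by
  simp only [Prod.ext_iff, ← Subtype.coe_inj, degE_fst, degE_snd]
  rfl

theorem degE_surjective (hS : Surj h ρ hρ s) : Function.Surjective (degE h hρ s) :=
  (surj_iff h hρ s).1 hS

end Sums

section Pair

variable [IsLocalRing A] [IsNoetherianRing A] [IsAdicComplete (maximalIdeal A) A] [Module.Finite A V]
  [Module.Finite A V₀] (s : Sys M A) (hρ₀ : Fac h ρ₀) (hneg : ρ (red M (-1)) = 1)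
  (h3 : IsUnit (3 : A))

/-- the pairs below and at the top -/
abbrev pairLow : DPair A (s.E ρ) (s.E ρ₀) Δ := dpair Dd s hneg h3

/-- the pair at the top -/
abbrev pairHigh : DPair A (s.E (pRep (p := p) ρ)) (s.E (pRep (p := p) ρ₀)) Δ :=
  haveI : Finite (P1 M p) := inferInstance
  dpair (topDia Dd) s (pRep_neg_one hneg) h3

theorem degE_dia (u : Δ) (x : s.E (pRep (p := p) ρ)) :
    degE h hρ s ((pairHigh Dd s hneg h3).dia u x) =
      ((pairLow Dd s hneg h3).prod (pairLow Dd s hneg h3)).dia u (degE h hρ s x) :=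
  Prod.ext (Subtype.ext (congrArg Prod.fst (degP_diaH h Dd hρ u x.1)))
    (Subtype.ext (congrArg Prod.snd (degP_diaH h Dd hρ u x.1)))

theorem degE_toY (x : s.E (pRep (p := p) ρ)) :
    ((pairLow Dd s hneg h3).prod (pairLow Dd s hneg h3)).toY (degE h hρ s x) =
      degE h hρ₀ s ((pairHigh Dd s hneg h3).toY x) :=
  Prod.ext (Subtype.ext (congrArg Prod.fst (degP_push h Dd hρ hρ₀ x.1)).symm)
    (Subtype.ext (congrArg Prod.snd (degP_push h Dd hρ hρ₀ x.1)).symm)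

theorem degE_ofY (y : s.E (pRep (p := p) ρ₀)) :
    degE h hρ s ((pairHigh Dd s hneg h3).ofY y) =
      ((pairLow Dd s hneg h3).prod (pairLow Dd s hneg h3)).ofY (degE h hρ₀ s y) :=
  Prod.ext (Subtype.ext (congrArg Prod.fst (degP_pull h Dd hρ hρ₀ y.1)))
    (Subtype.ext (congrArg Prod.snd (degP_pull h Dd hρ hρ₀ y.1)))

include hρ₀ hneg h3 in
/-- the classes killed by both sums are free over the diamonds -/
theorem exists_newPart_basis {q : ℕ} (hq : q.Prime) (hnil : IsNilpotent (q : A)) {n : ℕ}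
    (hΔ : ∀ u : Δ, u ^ q ^ n = 1) (hS : Surj h ρ₀ hρ₀ s) [Module.Free A (s.E ρ₀)]
    [Module.Free A (s.E (pRep (p := p) ρ₀))] {d : ℕ}
    (hd : Module.finrank A (s.E (pRep (p := p) ρ₀)) = d + 2 * Module.finrank A (s.E ρ₀)) :
    ∃ e : Fin d → newPart h ρ hρ s,
      Function.Injective (fun c : Fin d → Δ → A => ∑ j, ∑ u, c j u • diaH (topDia Dd) u (e j).1) ∧
      ∀ x ∈ newPart h ρ hρ s, ∃ c : Fin d → Δ → A,
        ∑ j, ∑ u, c j u • diaH (topDia Dd) u (e j).1 = x := by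
  classical
  haveI : Module.Finite A (s.E ρ) := s.E_finite
  haveI : Module.Finite A (s.E ρ₀) := s.E_finite
  haveI : Module.Finite A (s.E (pRep (p := p) ρ)) := s.E_finite
  haveI : Module.Finite A (s.E (pRep (p := p) ρ₀)) := s.E_finite
  obtain ⟨hr, -, e, he0, hinj, hiff⟩ := DPair.ker_basis (pairHigh Dd s hneg h3)
    ((pairLow Dd s hneg h3).prod (pairLow Dd s hneg h3)) (degE h hρ s) (degE h hρ₀ s)
    (degE_dia h Dd hρ s hneg h3) (degE_toY h Dd hρ s hρ₀ hneg h3)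
    (degE_ofY h Dd hρ s hρ₀ hneg h3) hq hnil hΔ (degE_surjective h hρ₀ s hS)
  have hcount : Module.finrank A (LinearMap.ker (degE h hρ₀ s)) = d := by
    rw [Module.finrank_prod] at hr
    omega
  subst hcount
  have hsum : ∀ c : Fin (Module.finrank A (LinearMap.ker (degE h hρ₀ s))) → Δ → A,
      ∑ j, ∑ u, c j u • diaH (topDia Dd) u (e j).1 =
        (∑ j, ∑ u, c j u • (pairHigh Dd s hneg h3).dia u (e j)).1 := by
    intro c
    simp only [Submodule.coe_sum, Submodule.coe_smul]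
    rfl
  refine ⟨fun j => ⟨(e j).1, (mem_newPart h ρ hρ).2 ⟨(e j).2, (degE_eq_zero_iff h hρ s _).1 (he0 j)⟩⟩,
    fun c c' hc => hinj (Subtype.ext ((hsum c).symm.trans (hc.trans (hsum c')))), fun x hx => ?_⟩
  obtain ⟨c, hc⟩ := (hiff ⟨x, ((mem_newPart h ρ hρ).1 hx).1⟩).1
    ((degE_eq_zero_iff h hρ s _).2 ((mem_newPart h ρ hρ).1 hx).2)
  exact ⟨c, (hsum c).trans (congrArg Subtype.val hc)⟩

end Pair

end FLTAgent.R2.Lv

end
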