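import Fermat.Agent.R2.LevelDownW

/-!
Area R2, parcel G5: copies of the part at a smaller level, the change of the modulus of the new
coefficient module, and the map to the functions modulo the old ones.
-/

set_option autoImplicit false
set_option linter.style.haveILetI false
set_option linter.unusedSectionVars false

noncomputable section

open scoped MatrixGroups
open Matrix IsLocalRing

namespace FLTAgent.R2.Lv

open FLTAgent.LL FLTAgent.R2.Coh

namespace Down

section Copies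

variable {M : ℕ} [NeZero M] {A : Type*} [CommRing A] [IsLocalRing A] (s : Sys M A)
  {V V' V'' : Type*} [AddCommGroup V] [Module A V] [AddCommGroup V'] [Module A V']
  [AddCommGroup V''] [Module A V'']

/-- the part is `n` copies of another, compatibly with the Hecke operators -/
def Copies (n : ℕ) (τ : Representation A (GL (Fin 2) (ZMod M)) V)
    (τ' : Representation A (GL (Fin 2) (ZMod M)) V') : Prop :=
  ∃ e : s.E τ ≃ₗ[A] (Fin n → s.E τ'), ∀ (l : ℕ) (hl : l.Prime) (hlM : ¬ l ∣ M) (y y' : s.E τ),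
    y'.1 = T τ hl hlM y.1 → ∀ j, (e y' j).1 = T τ' hl hlM (e y j).1

variable {τ : Representation A (GL (Fin 2) (ZMod M)) V}
  {τ' : Representation A (GL (Fin 2) (ZMod M)) V'}
  {τ'' : Representation A (GL (Fin 2) (ZMod M)) V''}

/-- a bijective map of coefficients on the part of the system -/
theorem exists_equiv_E {u : V →ₗ[A] V'} {v : V' →ₗ[A] V} (hu : IsTwist τ τ' 1 u)
    (hv : IsTwist τ' τ 1 v) (huv : ∀ x, u (v x) = x) (hvu : ∀ x, v (u x) = x) :
    ∃ e : s.E τ ≃ₗ[A] s.E τ', ∀ y, (e y).1 = LL.map hu y.1 := by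
  refine ⟨LinearEquiv.ofBijective ((LL.map hu).restrict fun y hy => s.map_mem_E hu (fun _ => by simp) hy)
    ⟨fun y y' e => Subtype.ext ?_, fun y => ?_⟩, fun y => rfl⟩
  · have e' : LL.map hu y.1 = LL.map hu y'.1 := congrArg Subtype.val e
    have hid : ∀ z, LL.map hv (LL.map hu z) = z := fun z => by
      obtain ⟨f, rfl⟩ := Submodule.mkQ_surjective _ z
      exact congrArg (H1.mk τ) (Subtype.ext (funext fun γ => hvu _))
    rw [← hid y.1, e', hid]
  · refine ⟨⟨LL.map hv y.1, s.map_mem_E hv (fun _ => by simp) y.2⟩, Subtype.ext ?_⟩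
    show LL.map hu (LL.map hv y.1) = y.1
    obtain ⟨f, hf⟩ := Submodule.mkQ_surjective _ y.1
    rw [← hf]
    exact congrArg (H1.mk τ') (Subtype.ext (funext fun γ => huv _))

theorem Copies.refl : Copies s 1 τ τ :=
  ⟨(LinearEquiv.funUnique (Fin 1) A (s.E τ)).symm, fun l hl hlM y y' h j => by
    show y'.1 = _
    exact h⟩

theorem Copies.of_twist {n : ℕ} {u : V →ₗ[A] V'} {v : V' →ₗ[A] V} (hu : IsTwist τ τ' 1 u)
    (hv : IsTwist τ' τ 1 v) (huv : ∀ x, u (v x) = x) (hvu : ∀ x, v (u x) = x)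
    (h : Copies s n τ' τ'') : Copies s n τ τ'' := by
  obtain ⟨e₁, h₁⟩ := exists_equiv_E s hu hv huv hvu
  obtain ⟨e, he⟩ := h
  refine ⟨e₁ ≪≫ₗ e, fun l hl hlM y y' hy j => he l hl hlM (e₁ y) (e₁ y') ?_ j⟩
  rw [h₁, h₁, hy, map_T_one]

variable {p M' : ℕ} [NeZero M'] (h : Split M p M')

theorem Copies.of_degE {n : ℕ} (hτ : Fac h τ) (hb : Function.Bijective (degE h τ hτ s))
    (hc : Copies s n τ τ'') : Copies s (n + n) (pRep (p := p) τ) τ'' := by
  obtain ⟨e, he⟩ := hc
  refine ⟨LinearEquiv.ofBijective _ hb ≪≫ₗ e.prodCongr e ≪≫ₗ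
    (LinearEquiv.sumArrowLequivProdArrow (Fin n) (Fin n) A (s.E τ'')).symm ≪≫ₗ
    LinearEquiv.funCongrLeft A (s.E τ'') finSumFinEquiv.symm, fun l hl hlM y y' hy j => ?_⟩
  have hT : degP h τ hτ y'.1 =
      (T τ hl hlM (degP h τ hτ y.1).1, T τ hl hlM (degP h τ hτ y.1).2) := by rw [hy, degP_T]
  rw [← coe_degE h τ hτ s, ← coe_degE h τ hτ s] at hT
  obtain ⟨i, rfl⟩ := finSumFinEquiv.surjective j
  show (Sum.elim (e (degE h τ hτ s y').1) (e (degE h τ hτ s y').2)
      (finSumFinEquiv.symm (finSumFinEquiv i))).1 =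
    T τ'' hl hlM (Sum.elim (e (degE h τ hτ s y).1) (e (degE h τ hτ s y).2)
      (finSumFinEquiv.symm (finSumFinEquiv i))).1
  rw [Equiv.symm_apply_apply]
  cases i with
  | inl i => exact he l hl hlM _ _ (congrArg Prod.fst hT :) i
  | inr i => exact he l hl hlM _ _ (congrArg Prod.snd hT :) i

end Copies

section Modulus

variable {M L : ℕ} [NeZero M] [NeZero L] (hLM : L ∣ M) {q : ℕ} [Fact q.Prime] (hq : q ∣ L)

/-- pairs of lines at two moduli -/
def pqMap : Pq (hq.trans hLM) → Pq hq :=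
  Quotient.map' (gl hLM) fun a b h => by
    rw [QuotientGroup.leftRel_apply] at h ⊢
    rw [← map_inv, ← map_mul]
    generalize a⁻¹ * b = c at h ⊢
    have e : cq hq (gl hLM c) = cq (hq.trans hLM) c := Units.ext (Matrix.ext fun i j => by
      show ZMod.castHom hq (ZMod q) (ZMod.castHom hLM (ZMod L) (c.1 i j)) = _
      rw [← RingHom.comp_apply, ZMod.castHom_comp hq hLM]
      rfl)
    exact ⟨by rw [e]; exact h.1, by rw [e]; exact h.2⟩

theorem fstq_pqMap (z : Pq (hq.trans hLM)) :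
    fstq hq (pqMap hLM hq z) = p1Map hLM (fstq (hq.trans hLM) z) := by
  induction z using QuotientGroup.induction_on with | H g => rfl

theorem sndq_pqMap (z : Pq (hq.trans hLM)) :
    sndq hq (pqMap hLM hq z) = p1Map hLM (sndq (hq.trans hLM) z) := by
  induction z using QuotientGroup.induction_on with | H g =>
  show (QuotientGroup.mk (gl hLM g * wsw L) : P1 L q) = QuotientGroup.mk (gl hLM (g * wsw M))
  rw [map_mul, show gl hLM (wsw M) = wsw L from Units.ext (Matrix.ext fun i j => by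
    fin_cases i <;> fin_cases j <;> simp [gl, wsw, Matrix.GeneralLinearGroup.map_apply, -ZMod.castHom_apply])]

theorem pqMap_smul (g : GL (Fin 2) (ZMod M)) (z : Pq (hq.trans hLM)) :
    pqMap hLM hq (g • z) = gl hLM g • pqMap hLM hq z := by
  induction z using QuotientGroup.induction_on with | H k =>
  show (QuotientGroup.mk (gl hLM (g * k)) : Pq hq) = QuotientGroup.mk (gl hLM g * gl hLM k)
  rw [map_mul]

theorem pqMap_bijective : Function.Bijective (pqMap hLM hq) := by
  refine ⟨fun z z' e => pq_ext (hq.trans hLM)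
    ((p1Map_bijective hLM hq).1 (by rw [← fstq_pqMap, ← fstq_pqMap, e]))
    ((p1Map_bijective hLM hq).1 (by rw [← sndq_pqMap, ← sndq_pqMap, e])), fun z => ?_⟩
  obtain ⟨a, ha⟩ := (p1Map_bijective hLM hq).2 (fstq hq z)
  obtain ⟨b, hb⟩ := (p1Map_bijective hLM hq).2 (sndq hq z)
  obtain ⟨w, hw1, hw2⟩ := exists_pair (hq.trans hLM)
    (fun e : a = b => fstq_ne_sndq hq z (by rw [← ha, ← hb, e]))
  exact ⟨w, pq_ext hq (by rw [fstq_pqMap, hw1, ha]) (by rw [sndq_pqMap, hw2, hb])⟩

theorem jK_pqMap (A : Type*) [CommRing A] (z : Pq (hq.trans hLM)) (y : P1 M q) :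
    jK hq A (pqMap hLM hq z) (p1Map hLM y) = jK (hq.trans hLM) A z y := by
  classical
  simp only [jK, fstq_pqMap, sndq_pqMap, (p1Map_bijective hLM hq).1.eq_iff]

end Modulus

variable {W : WeierstrassCurve ℤ} {hW : IsAnchor W} {B : Base W} {N : ℕ} (K : Aux hW B N)
  {M : ℕ} [NeZero M] (hM : K.lev ∣ M)

/-- the pairs of lines at one killing prime at two moduli -/
def pqK (i : Fin K.k) : Pq ((kset K hM).dvd i) → Pq ((kset K (dvd_refl K.lev)).dvd i) :=
  haveI : Fact (K.q i).Prime := ⟨K.prime i⟩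
  pqMap (q := K.q i) hM (K.q_dvd_lev i)

theorem pqK_bijective (i : Fin K.k) : Function.Bijective (pqK K hM i) :=
  haveI : Fact (K.q i).Prime := ⟨K.prime i⟩
  pqMap_bijective (q := K.q i) hM (K.q_dvd_lev i)

theorem pqK_smul (g : GL (Fin 2) (ZMod M)) (i : Fin K.k) (z : Pq ((kset K hM).dvd i)) :
    pqK K hM i (g • z) = gl hM g • pqK K hM i z :=
  haveI : Fact (K.q i).Prime := ⟨K.prime i⟩
  pqMap_smul (q := K.q i) hM (K.q_dvd_lev i) g z

theorem jK_pqK (i : Fin K.k) (z : Pq ((kset K hM).dvd i)) (y : P1 M (K.q i)) :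
    @jK _ _ _ ⟨K.prime i⟩ ((kset K (dvd_refl K.lev)).dvd i) (Lam N) _ (pqK K hM i z)
      (p1Map (d := K.q i) hM y) =
      @jK _ _ _ ⟨K.prime i⟩ ((kset K hM).dvd i) (Lam N) _ z y :=
  haveI : Fact (K.q i).Prime := ⟨K.prime i⟩
  jK_pqMap (q := K.q i) hM (K.q_dvd_lev i) (Lam N) z y

/-- the pairs of lines at the killing primes at two moduli -/
def ppMap (x : PUnit.{1} × (kset K hM).PP) : PUnit.{1} × (kset K (dvd_refl K.lev)).PP :=
  (x.1, fun i => pqK K hM i (x.2 i))

theorem ppMap_bijective : Function.Bijective (ppMap K hM) :=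
  (Function.bijective_id.prodMap (Function.Bijective.piMap fun i => pqK_bijective K hM i) :)

theorem ppMap_smul (g : GL (Fin 2) (ZMod M)) (x : PUnit.{1} × (kset K hM).PP) :
    ppMap K hM (g • x) = gl hM g • ppMap K hM x :=
  Prod.ext rfl (funext fun i => pqK_smul K hM g i (x.2 i))

theorem jpT_ppMap (G : PUnit.{1} × (kset K (dvd_refl K.lev)).PP → Lam N) :
    (kset K (dvd_refl K.lev)).jpT (Lam N) PUnit.{1} G ∘ ppMap K hM =
      (kset K hM).jpT (Lam N) PUnit.{1} (G ∘ ppMap K hM) := by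
  classical
  let π : PUnit.{1} × (kset K hM).YY → PUnit.{1} × (kset K (dvd_refl K.lev)).YY := fun y =>
    (y.1, fun i => p1Map (d := K.q i) hM (y.2 i))
  have hπ : Function.Bijective π :=
    (Function.bijective_id.prodMap (Function.Bijective.piMap fun i =>
      p1Map_bijective (d := K.q i) hM (K.q_dvd_lev i)) :)
  have hK : ∀ x y, tens PUnit.{1} (fun i => jK ((kset K (dvd_refl K.lev)).dvd i) (Lam N))
      (ppMap K hM x) (π y) =
      tens PUnit.{1} (fun i => jK ((kset K hM).dvd i) (Lam N)) x y := fun x y => by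
    show _ * _ = _ * _
    refine congrArg₂ _ rfl (Finset.prod_congr rfl fun i _ => ?_)
    exact jK_pqK K hM i (x.2 i) (y.2 i)
  have hP : ∀ y x, tens PUnit.{1} (fun i => pK ((kset K (dvd_refl K.lev)).dvd i) (Lam N))
      (π y) (ppMap K hM x) =
      tens PUnit.{1} (fun i => pK ((kset K hM).dvd i) (Lam N)) y x := fun y x => by
    show _ * _ = _ * _
    refine congrArg₂ _ rfl (Finset.prod_congr rfl fun i _ => ?_)
    exact jK_pqK K hM i (x.2 i) (y.2 i)
  funext x
  show funKer _ (funKer _ G) (ppMap K hM x) = funKer _ (funKer _ (G ∘ ppMap K hM)) x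
  rw [funKer_apply, funKer_apply, ← hπ.sum_comp]
  refine Finset.sum_congr rfl fun y _ => ?_
  rw [hK, funKer_apply, funKer_apply, ← (ppMap_bijective K hM).sum_comp]
  refine congrArg _ (Finset.sum_congr rfl fun z _ => ?_)
  rw [hP]
  rfl

/-- the new coefficient module at two moduli -/
theorem exists_wMod : ∃ (u : WCar K (dvd_refl K.lev) →ₗ[Lam N] WCar K hM)
    (v : WCar K hM →ₗ[Lam N] WCar K (dvd_refl K.lev)),
    IsTwist (inflate hM (tW K (dvd_refl K.lev))) (tW K hM) 1 u ∧
      (∀ x, u (v x) = x) ∧ ∀ x, v (u x) = x := by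
  classical
  let π := Equiv.ofBijective _ (ppMap_bijective K hM)
  let Φ := LinearEquiv.funCongrLeft (Lam N) (Lam N) π
  have h1 : ∀ w ∈ WCar K (dvd_refl K.lev), Φ w ∈ WCar K hM := by
    rintro _ ⟨G, rfl⟩
    exact ⟨G ∘ ppMap K hM, (jpT_ppMap K hM G).symm⟩
  have h2 : ∀ w ∈ WCar K hM, Φ.symm w ∈ WCar K (dvd_refl K.lev) := by
    rintro _ ⟨G, rfl⟩
    refine ⟨G ∘ π.symm, Φ.injective ?_⟩
    rw [LinearEquiv.apply_symm_apply]
    refine (jpT_ppMap K hM (G ∘ π.symm)).trans (congrArg _ (funext fun x => ?_))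
    exact congrArg G (π.symm_apply_apply x)
  refine ⟨Φ.toLinearMap.restrict h1, Φ.symm.toLinearMap.restrict h2, fun g w => ?_,
    fun w => Subtype.ext (Φ.apply_symm_apply _), fun w => Subtype.ext (Φ.symm_apply_apply _)⟩
  rw [MonoidHom.one_apply, one_smul]
  refine Subtype.ext (funext fun x => ?_)
  show w.1 ((gl hM g)⁻¹ • ppMap K hM x) = w.1 (ppMap K hM (g⁻¹ • x))
  rw [← map_inv, ppMap_smul]

/-- functions on lines with values in the new coefficient module at two moduli -/
theorem exists_cWMod {b : ℕ} (hb : b ∣ K.lev) :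
    ∃ (u : (P1 M b → WCar K hM) →ₗ[Lam N] (P1 K.lev b → WCar K (dvd_refl K.lev)))
      (v : (P1 K.lev b → WCar K (dvd_refl K.lev)) →ₗ[Lam N] (P1 M b → WCar K hM)),
      IsTwist (cW K hM b) (inflate hM (cW K (dvd_refl K.lev) b)) 1 u ∧
        IsTwist (inflate hM (cW K (dvd_refl K.lev) b)) (cW K hM b) 1 v ∧
        (∀ x, u (v x) = x) ∧ ∀ x, v (u x) = x := by
  obtain ⟨u, v, hu, huv, hvu⟩ := exists_wMod K hM
  let π := Equiv.ofBijective _ (p1Map_bijective (d := b) hM hb)
  let Φ := LinearEquiv.funCongrLeft (Lam N) (WCar K hM) π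
  let v' := Φ.toLinearMap ∘ₗ u.compLeft (P1 K.lev b)
  let u' := v.compLeft (P1 K.lev b) ∘ₗ Φ.symm.toLinearMap
  have hv' : IsTwist (inflate hM (cW K (dvd_refl K.lev) b)) (cW K hM b) 1 v' := fun g F => by
    rw [MonoidHom.one_apply, one_smul]
    funext x
    have h := hu g (F (p1Map hM (g⁻¹ • x)))
    rw [MonoidHom.one_apply, one_smul] at h
    refine Eq.trans ?_ h
    show u (tW K (dvd_refl K.lev) (gl hM g) (F ((gl hM g)⁻¹ • p1Map hM x))) = _
    rw [← map_inv, ← p1Map_smul]
    rfl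
  have h1 : ∀ x, u' (v' x) = x := fun F => funext fun y => by
    show v (u (F (π (π.symm y)))) = F y
    rw [hvu, Equiv.apply_symm_apply]
  have h2 : ∀ x, v' (u' x) = x := fun F => funext fun y => by
    show u (v (F (π.symm (π y)))) = F y
    rw [huv, Equiv.symm_apply_apply]
  refine ⟨u', v', fun g F => ?_, hv', h1, h2⟩
  obtain ⟨G, rfl⟩ : ∃ G, v' G = F := ⟨u' F, h2 F⟩
  rw [h1, MonoidHom.one_apply, one_smul]
  have h := hv' g G
  rw [MonoidHom.one_apply, one_smul] at h
  rw [← h, h1]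

section Bot

variable [Fintype (ZB B M)] [DecidableEq (ZB B M)]

/-- functions with values in the new coefficient module as elements of the product module -/
theorem exists_uncurryW :
    ∃ u : (ZB B M → WCar K hM) →ₗ[Lam N]
        LinearMap.range ((kset K hM).jpT (Lam N) (ZB B M)),
      IsTwist (funTensor (tW K hM) (ZB B M)) ((kset K hM).WRep (Lam N) (ZB B M)) 1 u ∧
        Function.Injective u := by
  classical
  let S := kset K hM
  have key : ∀ {α β : Fin S.k → Type} [Fintype (∀ i, β i)]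
      (L : ∀ i, α i → β i → Lam N) (F : ZB B M × (∀ i, β i) → Lam N) (z : ZB B M) (w : ∀ i, α i),
      funKer (tens (ZB B M) L) F (z, w) =
        funKer (tens PUnit.{1} L) (fun x => F (z, x.2)) (PUnit.unit, w) := by
    intro α β _ L F z w
    rw [funKer_apply, funKer_apply, Fintype.sum_prod_type, Fintype.sum_prod_type,
      Finset.univ_unique (α := PUnit.{1}), Finset.sum_singleton]
    refine (Finset.sum_eq_single z ?_ ?_).trans ?_
    rotate_left 2
    · exact Finset.sum_congr rfl fun x _ => by simp [tens]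
    · intro z' _ hz'
      exact Finset.sum_eq_zero fun x _ => by simp [tens, Ne.symm hz']
    · exact fun h => absurd (Finset.mem_univ _) h
  have hmem : ∀ F : ZB B M → WCar K hM,
      (fun x : ZB B M × S.PP => (F x.1).1 (PUnit.unit, x.2)) ∈
        LinearMap.range (S.jpT (Lam N) (ZB B M)) := fun F => by
    choose G hG using fun z => (F z).2
    refine ⟨fun x => G x.1 (PUnit.unit, x.2), funext fun x => ?_⟩
    show funKer _ (funKer _ _) (x.1, x.2) = _
    rw [key, ← hG x.1]
    refine congrArg (fun H => funKer _ H (PUnit.unit, x.2)) (funext fun y => ?_)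
    rw [key]
    rfl
  refine ⟨{ toFun := fun F => ⟨_, hmem F⟩
            map_add' := fun F F' => rfl
            map_smul' := fun c F => rfl }, fun g F => ?_, fun F F' e => ?_⟩
  · rw [MonoidHom.one_apply, one_smul]
    rfl
  · funext z
    refine Subtype.ext (funext fun ⟨⟨⟩, w⟩ => ?_)
    exact congrFun (congrArg Subtype.val e) (z, w)

end Bot

include hM in
/-- the lines of the base level and the functions modulo the old ones -/
theorem exists_botMap (b : ℕ) (hb : b ∣ B.lev) :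
    ∃ u : (P1 M b → WCar K hM) →ₗ[Lam N] ((P1 K.lev K.lev → Lam N) ⧸ oldSub K),
      IsTwist (cW K hM b) (inflate hM (botRep K)) 1 u ∧ Function.Injective u := by
  classical
  letI : Fintype (ZB B M) := Fintype.ofFinite _
  obtain ⟨u, hu, hi⟩ := exists_uncurryW K hM
  have hsurj : Function.Surjective (P1.proj (N := B.lev) M hb) := fun y =>
    ⟨QuotientGroup.mk y.out, QuotientGroup.out_eq' y⟩
  have hpull : IsTwist (cW K hM b) (funTensor (tW K hM) (ZB B M)) 1
      (LinearMap.funLeft (Lam N) (WCar K hM) (P1.proj (N := B.lev) M hb)) :=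
    isTwist_vecPull _ (P1.proj_smul hb)
  refine ⟨botW K hM ∘ₗ u ∘ₗ LinearMap.funLeft (Lam N) (WCar K hM) (P1.proj (N := B.lev) M hb),
    ?_, (botW_injective K hM).comp
      (hi.comp (LinearMap.funLeft_injective_of_surjective _ _ _ hsurj))⟩
  have h := (hpull.comp hu).comp (isTwist_botW K hM)
  rwa [one_mul, one_mul] at h

theorem maximalIdeal_lam (N : ℕ) : maximalIdeal (Lam N) = Ideal.span {2} := by
  have hnil : (2 : Lam N) ^ (N + 1) = 0 := by exact_mod_cast ZMod.natCast_self (2 ^ (N + 1))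
  refine le_antisymm (fun z hz => ?_) ((Ideal.span_singleton_le_iff_mem _).2 fun hu =>
    not_isUnit_zero (hnil ▸ hu.pow (N + 1)))
  obtain ⟨w, rfl⟩ := algebraMap_surjective N z
  have hw : w ∈ maximalIdeal Z2 := fun hu => hz (hu.map _)
  rw [PadicInt.maximalIdeal_eq_span_p] at hw
  obtain ⟨c, rfl⟩ := Ideal.mem_span_singleton.1 hw
  rw [Ideal.mem_span_singleton]
  exact ⟨algebraMap Z2 (Lam N) c, by rw [map_mul, map_natCast, Nat.cast_ofNat]⟩

include hM in
/-- the part below is free -/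
theorem free_cW {b : ℕ} (hb : LineLev K M b) (d : SysData hW M) :
    Module.Free (Lam N) ((d.sys (Lam N)).E (cW K hM b)) := by
  have hN : (2 : Lam N) ^ (N + 1) = 0 := by exact_mod_cast ZMod.natCast_self (2 ^ (N + 1))
  refine Coh.E_free (d.sys (Lam N)) (neg_one_cW hM)
    (isUnit_three (by rw [maximalIdeal_lam]; exact Ideal.mem_span_singleton_self _))
    (sFree_cW hM hb) (maximalIdeal_lam N) hN fun j hj F hF => ?_
  have hab : ∀ x : Lam N, (2 : Lam N) ^ j * x = 0 ↔ ∃ y, (2 : Lam N) ^ (N + 1 - j) * y = x := by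
    refine fun x => ⟨fun h => ?_, fun ⟨y, hy⟩ => by
      rw [← hy, ← mul_assoc, ← pow_add, Nat.add_sub_cancel' hj, hN, zero_mul]⟩
    rw [← ZMod.natCast_zmod_val x, show ((2 : Lam N) ^ j) = ((2 ^ j : ℕ) : Lam N) by push_cast; rfl,
      ← Nat.cast_mul, ZMod.natCast_eq_zero_iff] at h
    obtain ⟨y, hy⟩ := Nat.dvd_of_mul_dvd_mul_left (k := 2 ^ j) (m := 2 ^ (N + 1 - j))
      (n := x.val) (Nat.pow_pos two_pos) (by rwa [← pow_add, Nat.add_sub_cancel' hj])
    exact ⟨y, by rw [← ZMod.natCast_zmod_val x, hy]; push_cast; rfl⟩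
  choose w hw using fun x => ((kset K hM).smul_eq_zero_iff (Lam N) PUnit.{1} (kset_cong K hM)
    _ _ hab (F x)).1 (congrFun hF x)
  exact ⟨w, funext hw⟩

end Down

end FLTAgent.R2.Lv

end
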