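import Fermat.Agent.R2.LevelRhoDefs

/-!
Area R2, parcel G5: relations at a prime exactly dividing modulus and level, and the transport of
the lower level to the modulus without that prime.
-/

set_option autoImplicit false
set_option linter.style.haveILetI false
set_option linter.unusedSectionVars false

noncomputable section

open scoped MatrixGroups
open Matrix IsLocalRing

namespace FLTAgent.R2.Lv

open FLTAgent.LL FLTAgent.R2.Coh

section Maps

variable {M : ℕ} {A : Type*} [CommRing A] {V V₁ V₂ V₃ : Type*} [AddCommGroup V] [Module A V]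
  [AddCommGroup V₁] [Module A V₁] [AddCommGroup V₂] [Module A V₂] [AddCommGroup V₃] [Module A V₃]
  {ρ : Representation A (GL (Fin 2) (ZMod M)) V} {ρ₁ : Representation A (GL (Fin 2) (ZMod M)) V₁}
  {ρ₂ : Representation A (GL (Fin 2) (ZMod M)) V₂} {ρ₃ : Representation A (GL (Fin 2) (ZMod M)) V₃}
  {χ₁ χ₂ χ₃ χ₄ : (ZMod M)ˣ →* A}

theorem map_map_eq {Φ : V →ₗ[A] V₁} {Ψ : V₁ →ₗ[A] V₂} {Θ : V →ₗ[A] V₂}
    (h : IsTwist ρ ρ₁ χ₁ Φ) (h' : IsTwist ρ₁ ρ₂ χ₂ Ψ) (h'' : IsTwist ρ ρ₂ χ₃ Θ)
    (e : ∀ v, Ψ (Φ v) = Θ v) (y : H1 ρ) : LL.map h' (LL.map h y) = LL.map h'' y := by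
  obtain ⟨f, rfl⟩ := Submodule.mkQ_surjective _ y
  exact congrArg (H1.mk ρ₂) (Subtype.ext (funext fun g => e (f.1 g)))

theorem map_comm_eq {Φ : V →ₗ[A] V₁} {Ψ : V₁ →ₗ[A] V₃} {Φ' : V →ₗ[A] V₂} {Ψ' : V₂ →ₗ[A] V₃}
    (h : IsTwist ρ ρ₁ χ₁ Φ) (h' : IsTwist ρ₁ ρ₃ χ₂ Ψ) (k : IsTwist ρ ρ₂ χ₃ Φ')
    (k' : IsTwist ρ₂ ρ₃ χ₄ Ψ') (e : ∀ v, Ψ (Φ v) = Ψ' (Φ' v)) (y : H1 ρ) :
    LL.map h' (LL.map h y) = LL.map k' (LL.map k y) := by
  obtain ⟨f, rfl⟩ := Submodule.mkQ_surjective _ y
  exact congrArg (H1.mk ρ₃) (Subtype.ext (funext fun g => e (f.1 g)))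

theorem map_map_cancel {Φ : V →ₗ[A] V₁} {Ψ : V₁ →ₗ[A] V}
    (h : IsTwist ρ ρ₁ χ₁ Φ) (h' : IsTwist ρ₁ ρ χ₂ Ψ) (e : ∀ v, Ψ (Φ v) = v) (y : H1 ρ) :
    LL.map h' (LL.map h y) = y := by
  obtain ⟨f, rfl⟩ := Submodule.mkQ_surjective _ y
  exact congrArg (H1.mk ρ) (Subtype.ext (funext fun g => e (f.1 g)))

end Maps

section Xq

variable {M M' q : ℕ} [NeZero M] [NeZero M'] (hM : M' ∣ M) (hq : q ∣ M') (hqM : q ∣ M)
  (H : Subgroup (ZMod q)ˣ)

theorem cq_gl (g : GL (Fin 2) (ZMod M)) : cq hq (gl hM g) = cq hqM g := by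
  refine Units.ext (Matrix.ext fun a b => ?_)
  rw [cq_apply, cq_apply]
  show ZMod.castHom hq (ZMod q) (ZMod.castHom hM (ZMod M') (g.1 a b)) = _
  rw [← RingHom.comp_apply, RingHom.ext_zmod ((ZMod.castHom hq (ZMod q)).comp
    (ZMod.castHom hM (ZMod M'))) (ZMod.castHom hqM (ZMod q))]

theorem gl_mem_BXq_iff (g : GL (Fin 2) (ZMod M)) : gl hM g ∈ BXq hq H ↔ g ∈ BXq hqM H := by
  show (_ ∧ _) ↔ (_ ∧ _)
  rw [cq_gl hM hq hqM]

/-- vectors at the smaller modulus -/
def xqMap : Xq hqM H → Xq hq H :=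
  Quotient.map' (gl hM) fun a b h => by
    rw [QuotientGroup.leftRel_apply] at h ⊢
    rwa [← map_inv, ← map_mul, gl_mem_BXq_iff hM hq hqM]

theorem xqMap_mk (g : GL (Fin 2) (ZMod M)) :
    xqMap hM hq hqM H (QuotientGroup.mk g) = QuotientGroup.mk (gl hM g) := rfl

theorem xqMap_smul (g : GL (Fin 2) (ZMod M)) (z : Xq hqM H) :
    xqMap hM hq hqM H (g • z) = gl hM g • xqMap hM hq hqM H z := by
  induction z using QuotientGroup.induction_on with | H k =>
  rw [MulAction.Quotient.smul_mk, smul_eq_mul, xqMap_mk, xqMap_mk, MulAction.Quotient.smul_mk,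
    smul_eq_mul, map_mul]

theorem xqMap_injective : Function.Injective (xqMap hM hq hqM H) := by
  intro z z' e
  induction z using QuotientGroup.induction_on with | H k =>
  induction z' using QuotientGroup.induction_on with | H k' =>
  rw [xqMap_mk, xqMap_mk, QuotientGroup.eq, ← map_inv, ← map_mul,
    gl_mem_BXq_iff hM hq hqM] at e
  exact QuotientGroup.eq.2 e

theorem xqMap_surjective (hgl : Function.Surjective (gl hM : GL (Fin 2) (ZMod M) → _)) :
    Function.Surjective (xqMap hM hq hqM H) := fun z => by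
  induction z using QuotientGroup.induction_on with | H k =>
  obtain ⟨g, rfl⟩ := hgl k
  exact ⟨QuotientGroup.mk g, rfl⟩

theorem xqMap_diaPerm (u : (ZMod q)ˣ ⧸ H) (z : Xq hqM H) :
    xqMap hM hq hqM H (diaPerm hqM H u z) = diaPerm hq H u (xqMap hM hq hqM H z) := by
  obtain ⟨a, rfl⟩ := clsq_surjective hqM H u
  have e : clsq hqM H a = clsq hq H (ZMod.unitsMap hM a) := by
    show QuotientGroup.mk _ = QuotientGroup.mk _
    refine congrArg QuotientGroup.mk (Units.ext ?_)
    simp only [ZMod.unitsMap_def, Units.coe_map, MonoidHom.coe_coe]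
    rw [← RingHom.comp_apply, RingHom.ext_zmod ((ZMod.castHom hq (ZMod q)).comp
      (ZMod.castHom hM (ZMod M'))) (ZMod.castHom hqM (ZMod q))]
  rw [diaPerm_clsq, xqMap_smul, e, diaPerm_clsq]
  refine congrArg (· • _) (Units.ext (Matrix.ext fun i j => ?_))
  show ZMod.castHom hM (ZMod M') (Matrix.scalar (Fin 2) (a : ZMod M) i j) =
    Matrix.scalar (Fin 2) ((ZMod.unitsMap hM a : (ZMod M')ˣ) : ZMod M') i j
  rw [Matrix.scalar_apply, Matrix.scalar_apply, Matrix.diagonal_apply, Matrix.diagonal_apply]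
  split_ifs <;> simp [ZMod.unitsMap_def]

end Xq

namespace Exact

variable {M r : ℕ} [NeZero M] {D : AuxData M r} {p : ℕ} (x : Exact D p)

/-- the lower data at the modulus without `p` -/
abbrev red : AuxData x.M' r where
  N0 := x.b
  dvd0 := x.b_dvd
  Q := D.Q
  prime := D.prime
  inj := D.inj
  dvd := x.Q_dvd
  ndvd := x.low.ndvd
  H := D.H
  neg_mem := D.neg_mem

/-- the class of `p` among the diamonds -/
def cls : D.Del := fun i =>
  QuotientGroup.mk (ZMod.unitOfCoprime p
    ((Nat.coprime_primes x.split.prime (D.prime i)).2 (x.ne_Q i).symm))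

theorem not_dvd_M' : ¬ p ∣ x.M' := fun h =>
  x.split.prime.ne_one (Nat.eq_one_of_dvd_coprimes x.split.coprime dvd_rfl h)

theorem gl_surjective : Function.Surjective (gl x.split.dvd' : GL (Fin 2) (ZMod M) → _) :=
  fun g => by
    haveI := x.split.neZero
    obtain ⟨k, -, hk⟩ := x.split.exists_gl_pair 1 g
    exact ⟨k, hk⟩

/-- the set of the lower level at the modulus without `p` -/
def redX (z : x.low.X) : x.red.X :=
  (p1Map x.split.dvd' z.1, fun i => xqMap x.split.dvd' (x.Q_dvd i) (D.dvd i) (D.H i) (z.2 i))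

theorem redX_smul (g : GL (Fin 2) (ZMod M)) (z : x.low.X) :
    x.redX (g • z) = gl x.split.dvd' g • x.redX z :=
  Prod.ext (p1Map_smul x.split.dvd' g z.1) (funext fun i =>
    xqMap_smul x.split.dvd' (x.Q_dvd i) (D.dvd i) (D.H i) g (z.2 i))

theorem redX_bijective : Function.Bijective x.redX := by
  refine ⟨fun z z' e => Prod.ext ((p1Map_bijective x.split.dvd' x.b_dvd).1 (congrArg Prod.fst e))
    (funext fun i => xqMap_injective x.split.dvd' (x.Q_dvd i) (D.dvd i) (D.H i)
      (congrFun (congrArg Prod.snd e) i)), fun w => ?_⟩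
  obtain ⟨a, ha⟩ := (p1Map_bijective x.split.dvd' x.b_dvd).2 w.1
  choose f hf using fun i =>
    xqMap_surjective x.split.dvd' (x.Q_dvd i) (D.dvd i) (D.H i) x.gl_surjective (w.2 i)
  exact ⟨(a, f), Prod.ext ha (funext hf)⟩

theorem redX_act (u : D.Del) (z : x.low.X) :
    x.redX (x.low.torsor.act u z) = x.red.torsor.act u (x.redX z) :=
  Prod.ext rfl (funext fun i =>
    xqMap_diaPerm x.split.dvd' (x.Q_dvd i) (D.dvd i) (D.H i) (u i) (z.2 i))

/-- the sets of the lower level at the two moduli -/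
def redEquiv : x.low.X ≃ x.red.X := Equiv.ofBijective _ x.redX_bijective

theorem redEquiv_apply (z : x.low.X) : x.redEquiv z = x.redX z := rfl

/-- the scalar `p` acts on the lower set as the inverse diamond -/
theorem adU_inv_smul (z : x.low.X) :
    (adU x.split ((p : ℤ) • 1))⁻¹ • z = x.low.torsor.act x.cls⁻¹ z := by
  refine x.redX_bijective.1 ((x.redX_smul _ z).trans (Eq.trans ?_ (x.redX_act x.cls⁻¹ z).symm))
  rw [map_inv]
  have hu : p.Coprime x.M' := x.split.coprime
  have hs : gl x.split.dvd' (adU x.split ((p : ℤ) • 1)) =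
      Matrix.GeneralLinearGroup.scalar (Fin 2) (ZMod.unitOfCoprime p hu) := by
    have hd : IsUnit ((((p : ℤ) • (1 : Matrix (Fin 2) (Fin 2) ℤ)).det : ℤ) : ZMod x.M') := by
      rw [det_smul_one, Int.cast_pow]
      exact x.split.isUnit_cast.pow 2
    rw [(adU_spec x.split _).1]
    refine Units.ext ?_
    rw [coe_redGL x.M' (isUnit_det_adjugate hd), Matrix.adjugate_smul, Matrix.adjugate_one,
      Fintype.card_fin, show 2 - 1 = 1 from rfl, pow_one]
    show modP x.M' _ = _
    rw [modP_smul_one]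
    ext i j
    show _ = Matrix.scalar (Fin 2) ((ZMod.unitOfCoprime p hu : (ZMod x.M')ˣ) : ZMod x.M') i j
    rw [Matrix.smul_apply, Matrix.one_apply, Matrix.scalar_apply, Matrix.diagonal_apply,
      ZMod.coe_unitOfCoprime]
    split_ifs <;> simp
  rw [hs, ← map_inv, x.red.torsor_act]
  refine Prod.ext ?_ (funext fun i => ?_)
  · show _ • (x.redX z).1 = (x.redX z).1
    generalize (ZMod.unitOfCoprime p hu)⁻¹ = u
    induction (x.redX z).1 using QuotientGroup.induction_on with | H g =>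
    rw [MulAction.Quotient.smul_mk, smul_eq_mul, Matrix.GeneralLinearGroup.scalar_commute,
      QuotientGroup.eq, _root_.mul_inv_rev, mul_assoc, inv_mul_cancel, mul_one, inv_mem_iff,
      LL.mem_B0]
    simp
  · refine Eq.trans (diaPerm_clsq (x.Q_dvd i) (D.H i) (ZMod.unitOfCoprime p hu)⁻¹
      ((x.redX z).2 i)).symm ?_
    refine congrArg (fun w => diaPerm (x.Q_dvd i) (D.H i) w ((x.redX z).2 i)) ?_
    rw [map_inv]
    refine congrArg (·⁻¹) ?_
    show QuotientGroup.mk _ = QuotientGroup.mk _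
    refine congrArg QuotientGroup.mk (Units.ext ?_)
    simp [ZMod.unitsMap_def]

variable (A : Type*) [CommRing A]

/-- functions on the lower set at the two moduli -/
def toRedRep : (x.low.X → A) →ₗ[A] (x.red.X → A) := funPull A x.redEquiv.symm

/-- functions on the lower set at the two moduli -/
def ofRedRep : (x.red.X → A) →ₗ[A] (x.low.X → A) := funPull A x.redEquiv

theorem isTwist_toRedRep :
    IsTwist (x.lowRep A) (inflate x.split.dvd' (funRep A x.red.X (M := x.M'))) 1 (x.toRedRep A) :=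
  fun g F => by
    rw [MonoidHom.one_apply, one_smul]
    funext z
    show F (g⁻¹ • x.redEquiv.symm z) = F (x.redEquiv.symm ((gl x.split.dvd' g)⁻¹ • z))
    refine congrArg F (x.redEquiv.injective ?_)
    rw [Equiv.apply_symm_apply, redEquiv_apply, redX_smul, map_inv, ← redEquiv_apply,
      Equiv.apply_symm_apply]

theorem isTwist_ofRedRep :
    IsTwist (inflate x.split.dvd' (funRep A x.red.X (M := x.M'))) (x.lowRep A) 1 (x.ofRedRep A) :=
  fun g F => by
    rw [MonoidHom.one_apply, one_smul]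
    funext z
    show F ((gl x.split.dvd' g)⁻¹ • x.redX z) = F (x.redX (g⁻¹ • z))
    rw [redX_smul, map_inv]

theorem ofRedRep_toRedRep (F : x.low.X → A) : x.ofRedRep A (x.toRedRep A F) = F :=
  funext fun z => congrArg F (x.redEquiv.symm_apply_apply z)

theorem toRedRep_ofRedRep (F : x.red.X → A) : x.toRedRep A (x.ofRedRep A F) = F :=
  funext fun z => congrArg F (x.redEquiv.apply_symm_apply z)

theorem toRedRep_act (u : D.Del) (F : x.low.X → A) :
    x.toRedRep A (LinearMap.funLeft A A (x.low.torsor.act u) F) =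
      LinearMap.funLeft A A (x.red.torsor.act u) (x.toRedRep A F) := funext fun z => by
  show F (x.low.torsor.act u (x.redEquiv.symm z)) = F (x.redEquiv.symm (x.red.torsor.act u z))
  refine congrArg F (x.redEquiv.injective ?_)
  rw [Equiv.apply_symm_apply, redEquiv_apply, redX_act, ← redEquiv_apply, Equiv.apply_symm_apply]

theorem pushX_WX_pullX (y : H1 (x.lowRep A)) :
    x.pushX A (x.WX A (x.pullX A y)) = LL.map (isTwist_pushPt (p := p) (x.lowRep A))
      (Wp x.split (x.lowRep A) (x.fac A) (LL.map (isTwist_pullPt (p := p) (x.lowRep A)) y)) := by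
  simp only [pushX, WX, pullX, LinearMap.comp_apply, toLine_ofLine]

theorem toLine_act (u : D.Del) (z : H1 (funRep A D.X (M := M))) :
    x.toLine A (LL.map (isTwist_act A D u) z) =
      LL.map (isTwist_postcomp (p := p) (x.lowRep A) (isTwist_act A x.low u)) (x.toLine A z) :=
  map_comm_eq (isTwist_act A D u) (x.isTwist_toL A) (x.isTwist_toL A)
    (isTwist_postcomp (p := p) (x.lowRep A) (isTwist_act A x.low u))
    (fun F => funext fun a => funext fun w => congrArg F (x.equivX.injective <| by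
      rw [lineEquiv_act, Equiv.apply_symm_apply, Equiv.apply_symm_apply])) z

theorem ofLine_act (u : D.Del) (z : H1 (pRep (p := p) (x.lowRep A))) :
    x.ofLine A (LL.map (isTwist_postcomp (p := p) (x.lowRep A) (isTwist_act A x.low u)) z) =
      LL.map (isTwist_act A D u) (x.ofLine A z) := by
  conv_lhs => rw [← x.toLine_ofLine A z, ← toLine_act, ofLine_toLine]

/-- the lower level at the smaller modulus, with `T p` the composite of pull back, `W` and sum -/
theorem exists_lowEquiv :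
    ∃ e : H1 (x.lowRep A) ≃ₗ[A] H1 (funRep A x.red.X (M := x.M')),
      (∀ (l : ℕ) (hl : l.Prime) (hlM : ¬ l ∣ M) y, e (T (x.lowRep A) hl hlM y) =
        T (funRep A x.red.X (M := x.M')) hl (fun h => hlM (h.trans x.split.dvd')) (e y)) ∧
      (∀ (u : D.Del) y, e (map (isTwist_act A x.low u) y) = map (isTwist_act A x.red u) (e y)) ∧
      (∀ y, e (x.pushX A (x.WX A (x.pullX A y))) =
        T (funRep A x.red.X (M := x.M')) x.split.prime x.not_dvd_M' (e y)) ∧
      ∀ [IsLocalRing A] (s : Sys M A), p ∈ s.bad → ∀ y,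
        e y ∈ (sysRed x.split.dvd' s).E (funRep A x.red.X (M := x.M')) ↔ y ∈ s.E (x.lowRep A) := by
  let τ₀ := funRep A x.red.X (M := x.M')
  let e₁ : H1 (x.lowRep A) ≃ₗ[A] H1 (inflate x.split.dvd' τ₀) :=
    LinearEquiv.ofLinearMap (LL.map (x.isTwist_toRedRep A)) (LL.map (x.isTwist_ofRedRep A))
      (LinearMap.ext fun y => map_map_cancel _ _ (x.toRedRep_ofRedRep A) y)
      (LinearMap.ext fun y => map_map_cancel _ _ (x.ofRedRep_toRedRep A) y)
  have he : ∀ y, (e₁.trans (inflateH x.split.dvd' τ₀)) y =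
      inflateH x.split.dvd' τ₀ (LL.map (x.isTwist_toRedRep A) y) := fun y => rfl
  refine ⟨e₁.trans (inflateH x.split.dvd' τ₀), fun l hl hlM y => ?_, fun u y => ?_, fun y => ?_,
    fun {_} s hp y => ?_⟩
  · rw [he, he, map_T_one, inflateH_T]
  · rw [he, he]
    obtain ⟨f, rfl⟩ := Submodule.mkQ_surjective _ y
    rw [map_mk, map_mk, map_mk, inflateH_mk, inflateH_mk, map_mk]
    refine congrArg _ (Subtype.ext (funext fun g => ?_))
    rw [inflateZ_apply, mapZ_apply, mapZ_apply, mapZ_apply, inflateZ_apply, mapZ_apply]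
    exact x.toRedRep_act A u _
  · rw [he, he, pushX_WX_pullX]
    haveI : Fact p.Prime := ⟨x.split.prime⟩
    haveI : Fintype (P1 M p) := Fintype.ofFinite _
    rw [map_comm_eq (isTwist_pushPt (p := p) (x.lowRep A)) (x.isTwist_toRedRep A)
        (isTwist_postcomp (p := p) (x.lowRep A) (x.isTwist_toRedRep A))
        (isTwist_pushPt (p := p) (inflate x.split.dvd' τ₀)) (fun F => by
          rw [pushPt_apply, pushPt_apply, _root_.map_sum]; rfl),
      Wp_natural x.split (x.lowRep A) (x.fac A) (fac_inflate x.split τ₀) (x.isTwist_toRedRep A),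
      map_comm_eq (isTwist_pullPt (p := p) (x.lowRep A))
        (isTwist_postcomp (p := p) (x.lowRep A) (x.isTwist_toRedRep A))
        (x.isTwist_toRedRep A) (isTwist_pullPt (p := p) (inflate x.split.dvd' τ₀)) (fun v => rfl),
      push_Wp_pull x.split τ₀ x.not_dvd_M']
  · rw [he, inflateH_mem_E_iff x.split.dvd' τ₀ s fun l hl hlM hlM' => ?_]
    · refine ⟨fun hy => ?_, fun hy => s.map_mem_E _ (fun _ => by simp) hy⟩
      rw [← map_map_cancel (x.isTwist_toRedRep A) (x.isTwist_ofRedRep A) (x.ofRedRep_toRedRep A) y]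
      exact s.map_mem_E _ (fun _ => by simp) hy
    · rw [x.split.eq, hl.dvd_mul] at hlM
      rwa [(Nat.prime_dvd_prime_iff_eq hl x.split.prime).1 (hlM.resolve_right hlM')]

theorem pushX_pullX (y : H1 (x.lowRep A)) :
    x.pushX A (x.pullX A y) = ((p + 1 : ℕ) : A) • y := by
  simp only [pushX, pullX, LinearMap.comp_apply, toLine_ofLine]
  exact push_pull x.split (x.lowRep A) y

/-- `W² = ⟨p⟩`, the scalar `p` read as the inverse diamond -/
theorem WX_WX (z : H1 (funRep A D.X (M := M))) :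
    x.WX A (x.WX A z) = map (isTwist_act A D x.cls⁻¹) z := by
  simp only [WX, LinearMap.comp_apply, toLine_ofLine, Wp_Wp]
  conv_rhs => rw [← x.ofLine_toLine A z, ← ofLine_act]
  refine congrArg (x.ofLine A) ?_
  obtain ⟨f, hf⟩ := Submodule.mkQ_surjective _ (x.toLine A z)
  rw [← hf, map_mk, map_mk]
  refine congrArg _ (Subtype.ext (funext fun g => funext fun a => funext fun w => ?_))
  rw [mapZ_apply, mapZ_apply, scalP_apply, funRep_apply, x.adU_inv_smul]
  rfl

theorem WX_T {l : ℕ} (hl : l.Prime) (hlM : ¬ l ∣ M) (z : H1 (funRep A D.X (M := M))) :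
    x.WX A (T (funRep A D.X) hl hlM z) = T (funRep A D.X) hl hlM (x.WX A z) := by
  simp only [WX, toLine, ofLine, LinearMap.comp_apply, map_T_one, Wp_T]

theorem pushX_T {l : ℕ} (hl : l.Prime) (hlM : ¬ l ∣ M) (z : H1 (funRep A D.X (M := M))) :
    x.pushX A (T (funRep A D.X) hl hlM z) = T (x.lowRep A) hl hlM (x.pushX A z) := by
  simp only [pushX, toLine, LinearMap.comp_apply, map_T_one]

theorem pullX_T {l : ℕ} (hl : l.Prime) (hlM : ¬ l ∣ M) (y : H1 (x.lowRep A)) :
    x.pullX A (T (x.lowRep A) hl hlM y) = T (funRep A D.X) hl hlM (x.pullX A y) := by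
  simp only [pullX, ofLine, LinearMap.comp_apply, map_T_one]

theorem WX_act (u : D.Del) (z : H1 (funRep A D.X (M := M))) :
    x.WX A (map (isTwist_act A D u) z) = map (isTwist_act A D u) (x.WX A z) := by
  simp only [WX, LinearMap.comp_apply, toLine_act]
  rw [← Wp_natural x.split (x.lowRep A) (x.fac A) (x.fac A) (isTwist_act A x.low u), ofLine_act]

theorem pushX_act (u : D.Del) (z : H1 (funRep A D.X (M := M))) :
    x.pushX A (map (isTwist_act A D u) z) = map (isTwist_act A x.low u) (x.pushX A z) := by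
  haveI : Fintype (P1 M p) := Fintype.ofFinite _
  simp only [pushX, LinearMap.comp_apply, toLine_act]
  exact map_comm_eq _ _ _ _ (fun F => by rw [pushPt_apply, pushPt_apply, _root_.map_sum]; rfl) _

theorem pullX_act (u : D.Del) (y : H1 (x.lowRep A)) :
    x.pullX A (map (isTwist_act A x.low u) y) = map (isTwist_act A D u) (x.pullX A y) := by
  simp only [pullX, LinearMap.comp_apply]
  rw [← ofLine_act]
  exact congrArg (x.ofLine A) (map_comm_eq (isTwist_act A x.low u)
    (isTwist_pullPt (p := p) (x.lowRep A)) (isTwist_pullPt (p := p) (x.lowRep A))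
    (isTwist_postcomp (p := p) (x.lowRep A) (isTwist_act A x.low u))
    (fun v => funext fun a => rfl) y)

variable [IsLocalRing A] [IsNoetherianRing A] (s : Sys M A)

theorem WX_mem_E {z : H1 (funRep A D.X (M := M))} (hz : z ∈ s.E (funRep A D.X)) :
    x.WX A z ∈ s.E (funRep A D.X) :=
  s.map_mem_E (x.isTwist_ofL A) (fun _ => by simp)
    (Wp_mem_E x.split _ (x.fac A) s (s.map_mem_E (x.isTwist_toL A) (fun _ => by simp) hz))

theorem pushX_mem_E {z : H1 (funRep A D.X (M := M))} (hz : z ∈ s.E (funRep A D.X)) :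
    x.pushX A z ∈ s.E (x.lowRep A) :=
  s.map_mem_E (isTwist_pushPt (p := p) (x.lowRep A)) (fun _ => by simp)
    (s.map_mem_E (x.isTwist_toL A) (fun _ => by simp) hz)

theorem pullX_mem_E {y : H1 (x.lowRep A)} (hy : y ∈ s.E (x.lowRep A)) :
    x.pullX A y ∈ s.E (funRep A D.X (M := M)) :=
  s.map_mem_E (x.isTwist_ofL A) (fun _ => by simp)
    (s.map_mem_E (isTwist_pullPt (p := p) (x.lowRep A)) (fun _ => by simp) hy)

end Exact

end FLTAgent.R2.Lv

end
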