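import Fermat.Agent.R2.LevelX
import Fermat.Agent.R2.LevelTrans
import Fermat.Agent.R2.LevelNilp
import Fermat.Agent.R2.LevelDownEquiv

/-!
Area R2, parcel G5: the part below the diamonds at the auxiliary primes.

At a prime where the eigenvalue is odd the two sums are bijective on the part of the system, so it is
`2 ^ r` copies of the part without the auxiliary primes; the latter does not depend on the modulus and
maps injectively to the level `K.lev` modulo the old functions.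
-/

set_option autoImplicit false
set_option linter.style.haveILetI false
set_option linter.unusedSectionVars false

noncomputable section

open scoped MatrixGroups
open Matrix IsLocalRing

namespace FLTAgent.R2.Lv

open FLTAgent.LL FLTAgent.R2.Coh

variable {W : WeierstrassCurve ℤ} {hW : IsAnchor W} {B : Base W} {N : ℕ} {K : Aux hW B N}
  {M : ℕ} [NeZero M]

/-- the rank below two, without auxiliary primes -/
def rankOne (K : Aux hW B N) (hM : K.lev ∣ M) (d : SysData hW M) : ℕ :=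
  Module.finrank (Lam N)
    ((d.sys (Lam N)).E (funTensor (tW K hM) (P1 M (∏ l ∈ badOdd W, l))))

/-- the rank at two, without auxiliary primes -/
def rankTwo (K : Aux hW B N) (hM : K.lev ∣ M) (d : SysData hW M) : ℕ :=
  Module.finrank (Lam N)
    ((d.sys (Lam N)).E (pRep (p := 2) (funTensor (tW K hM) (P1 M (∏ l ∈ badOdd W, l)))))

namespace Down

section Reindex

variable {A : Type*} [CommRing A] [IsLocalRing A] (s : Sys M A) {V V'' : Type*} [AddCommGroup V]
  [Module A V] [AddCommGroup V''] [Module A V''] {τ : Representation A (GL (Fin 2) (ZMod M)) V}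
  {τ'' : Representation A (GL (Fin 2) (ZMod M)) V''} {n : ℕ} {X Y Z : Type}
  [MulAction (GL (Fin 2) (ZMod M)) X] [MulAction (GL (Fin 2) (ZMod M)) Y]
  [MulAction (GL (Fin 2) (ZMod M)) Z]

theorem Copies.congr (π : X ≃ Y) (hπ : ∀ (g : GL (Fin 2) (ZMod M)) x, π (g • x) = g • π x)
    (hc : Copies s n (funTensor τ Y) τ'') : Copies s n (funTensor τ X) τ'' :=
  hc.of_twist s (u := LinearMap.funLeft A V π.symm) (v := LinearMap.funLeft A V π)
    (isTwist_vecPull _ fun g y => by rw [Equiv.symm_apply_eq, hπ, Equiv.apply_symm_apply])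
    (isTwist_vecPull _ hπ) (fun F => funext fun y => congrArg F (π.apply_symm_apply y))
    fun F => funext fun x => congrArg F (π.symm_apply_apply x)

theorem Copies.curry (hc : Copies s n (funTensor (funTensor τ Y) Z) τ'') :
    Copies s n (funTensor τ (Z × Y)) τ'' :=
  hc.of_twist s (isTwist_curryV τ) (isTwist_uncurryV τ) (fun _ => rfl) fun _ => rfl

theorem Copies.uncurry (hc : Copies s n (funTensor τ (Z × Y)) τ'') :
    Copies s n (funTensor (funTensor τ Y) Z) τ'' :=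
  hc.of_twist s (isTwist_uncurryV τ) (isTwist_curryV τ) (fun _ => rfl) fun _ => rfl

/-- copies and an injective map of coefficients give jointly injective maps -/
theorem Copies.exists_maps [IsNoetherianRing A] [IsAdicComplete (maximalIdeal A) A] {L : ℕ}
    [NeZero L] (hL : L ∣ M) {V₁ : Type*} [AddCommGroup V₁] [Module A V₁] [Module.Finite A V'']
    [Module.Finite A V₁] (ρ : Representation A (GL (Fin 2) (ZMod L)) V₁) (hc : Copies s n τ τ'')
    {u : V'' →ₗ[A] V₁} (hu : IsTwist τ'' (inflate hL ρ) 1 u) (hi : Function.Injective u) :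
    ∃ (m : ℕ) (down : Fin m → (s.E τ →ₗ[A] H1 ρ)), (∀ y, (∀ j, down j y = 0) → y = 0) ∧
      ∀ (l : ℕ) (hl : l.Prime) (hlM : ¬ l ∣ M) (y y' : s.E τ), y'.1 = LL.T τ hl hlM y.1 →
        ∀ j, down j y' = LL.T ρ hl (fun h => hlM (h.trans hL)) (down j y) := by
  obtain ⟨e, he⟩ := hc
  refine ⟨n, fun j => (inflateH hL ρ).toLinearMap ∘ₗ LL.map hu ∘ₗ (s.E τ'').subtype ∘ₗ
    LinearMap.proj j ∘ₗ e.toLinearMap, fun y hy => ?_, fun l hl hlM y y' hy j => ?_⟩
  · refine e.injective ((funext fun j => Subtype.ext ?_).trans (map_zero e).symm)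
    exact s.eq_zero_of_map_eq_zero hu hi (e y j).2 ((LinearEquiv.map_eq_zero_iff (inflateH hL ρ)).1 (hy j))
  · show inflateH hL ρ (LL.map hu (e y' j).1) =
      LL.T ρ hl _ (inflateH hL ρ (LL.map hu (e y j).1))
    rw [he l hl hlM y y' hy j, map_T_one, inflateH_T]

end Reindex

theorem p1Equiv_symm_smul {L a b N' : ℕ} [NeZero L] (hN : N' ∣ L) (e : N' = a * b)
    (hab : a.Coprime b) (g : GL (Fin 2) (ZMod L)) (y : P1 L a × P1 L b) :
    (p1Equiv hN e hab).symm (g • y) = g • (p1Equiv hN e hab).symm y := by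
  rw [Equiv.symm_apply_eq]
  show g • y = p1Prod e (g • (p1Equiv hN e hab).symm y)
  rw [p1Prod_smul]
  exact congrArg _ ((p1Equiv hN e hab).apply_symm_apply y).symm

theorem exists_split {p : ℕ} (hsq : Squarefree M) (hp : p.Prime) (hpM : p ∣ M) :
    ∃ M', NeZero M' ∧ Split M p M' := by
  obtain ⟨M', hM'⟩ := hpM
  refine ⟨M', ⟨fun h => NeZero.ne M (by rw [hM', h, mul_zero])⟩, hp, hM', ?_⟩
  exact Nat.coprime_of_squarefree_mul (hM' ▸ hsq)

/-- the part on more lines is copies of the part below -/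
theorem copies_prod (hM : K.lev ∣ M) (d : SysData hW M) {c : ℕ} (hc : LineLev K M c) {ι : Type}
    [DecidableEq ι] (Q : ι → ℕ) (hQ : Function.Injective Q) (hp : ∀ i, (Q i).Prime)
    (hQM : ∀ i, Q i ∣ M) (hQc : ∀ i, ¬ Q i ∣ c) (hQq : ∀ i j, K.q j ≠ Q i) (hQ2 : ∀ i, Q i ≠ 2)
    (hgood : ∀ i, ¬ (Q i : ℤ) ∣ W.Δ) (hodd : ∀ i, Odd (W.apOfModel (Q i)))
    (hS : ∀ i, Q i ∈ d.S) (t : Finset ι) :
    LineLev K M (c * ∏ i ∈ t, Q i) ∧
      Copies (d.sys (Lam N)) (2 ^ t.card) (cW K hM (c * ∏ i ∈ t, Q i)) (cW K hM c) := by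
  induction t using Finset.induction_on with
  | empty =>
    rw [Finset.prod_empty, mul_one, Finset.card_empty, pow_zero]
    exact ⟨hc, Copies.refl _⟩
  | insert a t ha ih =>
    have hndvd : ¬ Q a ∣ c * ∏ i ∈ t, Q i := by
      intro h
      rcases (hp a).dvd_mul.1 h with h | h
      · exact hQc a h
      · obtain ⟨i, hi, hai⟩ := ((hp a).prime.dvd_finsetProd_iff _).1 h
        exact ha (hQ ((Nat.prime_dvd_prime_iff_eq (hp a) (hp i)).1 hai) ▸ hi)
    obtain ⟨hl, hcop⟩ := ih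
    rw [Finset.prod_insert ha, Finset.card_insert_of_notMem ha, mul_left_comm]
    have hl' := hl.mul (hp a) (hQM a) hndvd (hQq a)
    refine ⟨hl', ?_⟩
    obtain ⟨M', hne, hsp⟩ := exists_split hl.sqfree (hp a) (hQM a)
    have h2 := hcop.of_degE (d.sys (Lam N)) hsp (facCW hM hsp (hQq a) hl.dvd hndvd)
      (degE_cW_bijective K hM d hl hsp (hQq a) hndvd (hQ2 a) (hgood a) (hodd a) (hS a))
    rw [show 2 ^ (t.card + 1) = 2 ^ t.card + 2 ^ t.card by rw [pow_succ, mul_two]]
    exact (h2.curry _).congr _ (p1Equiv hl'.dvd rfl ((hp a).coprime_iff_not_dvd.2 hndvd))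
      fun g x => p1Prod_smul rfl g x

theorem Copies.finrank {V V' : Type*} [AddCommGroup V] [Module (Lam N) V] [AddCommGroup V']
    [Module (Lam N) V'] {τ : Representation (Lam N) (GL (Fin 2) (ZMod M)) V}
    {τ' : Representation (Lam N) (GL (Fin 2) (ZMod M)) V'} {s : Sys M (Lam N)} {n : ℕ}
    (hc : Copies s n τ τ') [Module.Free (Lam N) (s.E τ')] [Module.Finite (Lam N) (s.E τ')] :
    Module.finrank (Lam N) (s.E τ) = n * Module.finrank (Lam N) (s.E τ') := by
  obtain ⟨e, -⟩ := hc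
  rw [e.finrank_eq, Module.finrank_pi_fintype, Finset.sum_const, Finset.card_univ,
    Fintype.card_fin, smul_eq_mul]

theorem finrank_inflate (hM : K.lev ∣ M) (d : SysData hW M) (d₀ : SysData hW K.lev)
    (hS : ∀ l, l.Prime → l ∣ M → l ∈ d.S) (hl : d.l0 ≠ 2) (hl₀ : d₀.l0 ≠ 2) {b : ℕ}
    (hbd : b ∣ K.lev) (hb : LineLev K K.lev b) :
    Module.finrank (Lam N) ((d.sys (Lam N)).E (cW K hM b)) =
      Module.finrank (Lam N) ((d₀.sys (Lam N)).E (cW K (dvd_refl K.lev) b)) := by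
  obtain ⟨u, v, hu, hv, huv, hvu⟩ := exists_cWMod K hM hbd
  obtain ⟨e, -⟩ := exists_equiv_E (d.sys (Lam N)) hu hv huv hvu
  rw [e.finrank_eq]
  have hiff := inflateH_mem_E_iff hM (cW K (dvd_refl K.lev) b) (d.sys (Lam N))
    (fun l hl hlM _ => Or.inr (Or.inr (hS l hl hlM)))
  rw [SysData.sysRed_sys, show ((d.red hM).sys (Lam N)).E (cW K (dvd_refl K.lev) b) =
    (d₀.sys (Lam N)).E (cW K (dvd_refl K.lev) b) from le_antisymm
      (cW_E_le K (dvd_refl K.lev) hb _ d₀ hl hl₀)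
      (cW_E_le K (dvd_refl K.lev) hb d₀ _ hl₀ hl)] at hiff
  refine ((inflateH hM (cW K (dvd_refl K.lev) b)).submoduleMap _).trans
    (LinearEquiv.ofEq _ _ ?_) |>.finrank_eq
  ext x
  constructor
  · rintro ⟨y, hy, rfl⟩
    exact (hiff y).2 hy
  · intro hx
    exact ⟨(inflateH hM (cW K (dvd_refl K.lev) b)).symm x,
      (hiff _).1 (by rw [LinearEquiv.apply_symm_apply]; exact hx), LinearEquiv.apply_symm_apply _ _⟩

end Down

variable {r : ℕ} {D0 : AuxData M r} {M' : ℕ} [NeZero M'] (T : XData K D0 M')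
  (d : SysData hW M) (hd : SysGood d)

namespace Down

include T in
theorem two_ndvd_N0 : ¬ 2 ∣ ∏ l ∈ badOdd W, l := fun h => by
  obtain ⟨l, hl, h2⟩ := (Nat.prime_two.prime.dvd_finsetProd_iff _).1 h
  exact (Finset.mem_filter.1 hl).2 ((Nat.prime_dvd_prime_iff_eq Nat.prime_two
    (Nat.prime_of_mem_primeFactors (Finset.mem_filter.1 hl).1)).1 h2).symm

include T in
theorem lineLev_one : LineLev K M (∏ l ∈ badOdd W, l) where
  sqfree := T.sqfree
  dvd := T.N0_eq ▸ D0.dvd0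
  ndvd i := T.N0_eq ▸ T.q_ndvd i
  bad _ hl := Finset.dvd_prod_of_mem _ hl
  three := T.N0_eq ▸ T.N0_three

include T in
theorem lineLev_two : LineLev K M (2 * ∏ l ∈ badOdd W, l) :=
  (lineLev_one T).mul Nat.prime_two T.split.dvdP (two_ndvd_N0 T) T.q_two

include T in
theorem lineLev_lev {b : ℕ} (hb : LineLev K M b) (hbd : b ∣ K.lev) : LineLev K K.lev b :=
  ⟨T.sqfree.squarefree_of_dvd T.hM, hbd, hb.ndvd, hb.bad, hb.three⟩

theorem N0_dvd_lev : (∏ l ∈ badOdd W, l) ∣ K.lev :=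
  ((dvd_mul_left _ 2).trans (dvd_mul_right _ _)).trans (dvd_mul_right B.lev _)

theorem two_N0_dvd_lev : 2 * (∏ l ∈ badOdd W, l) ∣ K.lev :=
  (dvd_mul_right (2 * ∏ l ∈ badOdd W, l) B.r).trans (dvd_mul_right B.lev _)

include hd in
/-- the part below the diamonds is copies of the part without the auxiliary primes -/
theorem copies_Y {c : ℕ} (hc : LineLev K M c) (hQc : ∀ i, ¬ D0.Q i ∣ c) :
    Copies (d.sys (Lam N)) (2 ^ r) (cW K T.hM (c * ∏ i, D0.Q i)) (cW K T.hM c) := by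
  have h := (copies_prod (K := K) T.hM d hc D0.Q D0.inj D0.prime D0.dvd hQc
    (fun i j => (T.q_ne j i).symm) T.Q_two T.good_Q T.odd_Q
    (fun i => hd.mem _ (D0.prime i) (D0.dvd i)) Finset.univ).2
  rwa [Finset.card_univ, Fintype.card_fin] at h

include hd in
theorem copies_one : Copies (d.sys (Lam N)) (2 ^ r) (funTensor (tW K T.hM) D0.tw.Y)
    (cW K T.hM (∏ l ∈ badOdd W, l)) := by
  obtain ⟨φ, hφ⟩ := D0.tw.exists_equiv_Y'
  refine Copies.congr _ φ.symm (fun g y => ?_) ?_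
  · rw [Equiv.symm_apply_eq, hφ, Equiv.apply_symm_apply]
  · have h := copies_Y T d hd (c := D0.N0) (T.N0_eq.symm ▸ lineLev_one T) D0.ndvd
    rwa [show cW K T.hM (∏ l ∈ badOdd W, l) = _ from rfl, ← T.N0_eq]

include hd in
theorem copies_two : Copies (d.sys (Lam N)) (2 ^ r)
    (pRep (p := 2) (funTensor (tW K T.hM) D0.tw.Y))
    (cW K T.hM (2 * ∏ l ∈ badOdd W, l)) := by
  obtain ⟨φ, hφ⟩ := D0.tw.exists_equiv_Y'
  have hQ : ∀ i, ¬ D0.Q i ∣ 2 * D0.N0 := fun i h => ((D0.prime i).dvd_mul.1 h).elim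
    (fun h => T.Q_two i ((Nat.prime_dvd_prime_iff_eq (D0.prime i) Nat.prime_two).1 h)) (D0.ndvd i)
  have hl := (copies_prod (K := K) T.hM d (T.N0_eq.symm ▸ lineLev_two T) D0.Q D0.inj D0.prime
    D0.dvd hQ (fun i j => (T.q_ne j i).symm) T.Q_two T.good_Q T.odd_Q
    (fun i => hd.mem _ (D0.prime i) (D0.dvd i)) Finset.univ).1
  have hcop : Nat.Coprime 2 (D0.N0 * D0.tw.R) := Nat.prime_two.coprime_iff_not_dvd.2 fun h =>
    (Nat.prime_two.dvd_mul.1 h).elim (fun h => two_ndvd_N0 T (T.N0_eq ▸ h)) fun h => by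
      obtain ⟨i, -, hi⟩ := (Nat.prime_two.prime.dvd_finsetProd_iff _).1 h
      exact T.Q_two i ((Nat.prime_dvd_prime_iff_eq Nat.prime_two (D0.prime i)).1 hi).symm
  let π := ((Equiv.refl (P1 M 2)).prodCongr φ.symm).trans
    (p1Equiv hl.dvd (mul_assoc 2 D0.N0 D0.tw.R) hcop).symm
  refine Copies.uncurry _ (Copies.congr _ π (fun g y => ?_) ?_)
  · refine Eq.trans (congrArg (p1Equiv hl.dvd (mul_assoc 2 D0.N0 D0.tw.R) hcop).symm ?_)
      (p1Equiv_symm_smul hl.dvd (mul_assoc 2 D0.N0 D0.tw.R) hcop g (y.1, φ.symm y.2))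
    refine Prod.ext rfl ?_
    show φ.symm (g • y.2) = g • φ.symm y.2
    rw [Equiv.symm_apply_eq, hφ, Equiv.apply_symm_apply]
  · have h := copies_Y T d hd (T.N0_eq.symm ▸ lineLev_two T) hQ
    rwa [← T.N0_eq]

end Down

include hd in
theorem finrank_Y :
    Module.finrank (Lam N) ((d.sys (Lam N)).E (funTensor (tW K T.hM) D0.tw.Y)) =
      2 ^ r * rankOne K T.hM d := by
  haveI := Down.free_cW K T.hM (Down.lineLev_one T) d
  haveI := (d.sys (Lam N)).E_finite (ρ := Down.cW K T.hM (∏ l ∈ badOdd W, l))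
  exact (Down.copies_one T d hd).finrank

include T in
/-- the part at two without auxiliary primes, on the lines of a single level -/
theorem Down.rankTwo_eq : rankTwo K T.hM d =
    Module.finrank (Lam N) ((d.sys (Lam N)).E (Down.cW K T.hM (2 * ∏ l ∈ badOdd W, l))) := by
  haveI := Down.free_cW K T.hM (Down.lineLev_two T) d
  haveI := (d.sys (Lam N)).E_finite (ρ := Down.cW K T.hM (2 * ∏ l ∈ badOdd W, l))
  have h := (((Down.Copies.refl (d.sys (Lam N)) (τ := Down.cW K T.hM (2 * ∏ l ∈ badOdd W, l))).congr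
    _ (p1Equiv (Down.lineLev_two T).dvd rfl
      (Nat.prime_two.coprime_iff_not_dvd.2 (Down.two_ndvd_N0 T))).symm fun g y => Down.p1Equiv_symm_smul _ _ _ g y).uncurry
        _).finrank
  rwa [one_mul] at h

include hd in
theorem finrank_pRep_Y :
    Module.finrank (Lam N) ((d.sys (Lam N)).E (pRep (p := 2) (funTensor (tW K T.hM) D0.tw.Y))) =
      2 ^ r * rankTwo K T.hM d := by
  haveI := Down.free_cW K T.hM (Down.lineLev_two T) d
  haveI := (d.sys (Lam N)).E_finite (ρ := Down.cW K T.hM (2 * ∏ l ∈ badOdd W, l))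
  rw [Down.rankTwo_eq T d]
  exact (Down.copies_two T d hd).finrank

include T hd in
/-- the ranks do not depend on the modulus and the system -/
theorem rank_indep (d₀ : SysData hW K.lev) (hd₀ : SysGood d₀) :
    rankOne K T.hM d = rankOne K dvd_rfl d₀ ∧ rankTwo K T.hM d = rankTwo K dvd_rfl d₀ := by
  refine ⟨Down.finrank_inflate T.hM d d₀ hd.mem hd.l0_ne hd₀.l0_ne Down.N0_dvd_lev
    (Down.lineLev_lev T (Down.lineLev_one T) Down.N0_dvd_lev), ?_⟩
  have hl := Down.lineLev_lev T (Down.lineLev_two T) Down.two_N0_dvd_lev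
  have hcop := Nat.prime_two.coprime_iff_not_dvd.2 (Down.two_ndvd_N0 T)
  haveI := Down.free_cW K (dvd_refl K.lev) hl d₀
  haveI := (d₀.sys (Lam N)).E_finite (ρ := Down.cW K (dvd_refl K.lev) (2 * ∏ l ∈ badOdd W, l))
  have h := (((Down.Copies.refl (d₀.sys (Lam N))
    (τ := Down.cW K (dvd_refl K.lev) (2 * ∏ l ∈ badOdd W, l))).congr
    _ (p1Equiv hl.dvd rfl hcop).symm fun g y => Down.p1Equiv_symm_smul _ _ _ g y).uncurry _).finrank
  rw [one_mul] at h
  exact ((Down.rankTwo_eq T d).trans (Down.finrank_inflate T.hM d d₀ hd.mem hd.l0_ne hd₀.l0_ne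
      Down.two_N0_dvd_lev hl)).trans h.symm

include hd in
/-- maps to the level `K.lev` modulo old functions, jointly injective -/
theorem exists_toBot :
    ∃ (m : ℕ) (down : Fin m →
      ((d.sys (Lam N)).E (pRep (p := 2) (funTensor (tW K T.hM) D0.tw.Y)) →ₗ[Lam N] H1 (botRep K))),
      (∀ y, (∀ j, down j y = 0) → y = 0) ∧
      ∀ (l : ℕ) (hl : l.Prime) (hlM : ¬ l ∣ M)
        (y y' : (d.sys (Lam N)).E (pRep (p := 2) (funTensor (tW K T.hM) D0.tw.Y))),
        y'.1 = LL.T (pRep (p := 2) (funTensor (tW K T.hM) D0.tw.Y)) hl hlM y.1 →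
          ∀ j, down j y' = LL.T (botRep K) hl (fun h => hlM (h.trans T.hM)) (down j y) := by
  have hd' : (2 * ∏ l ∈ badOdd W, l) ∣ B.lev :=
    show _ ∣ 2 * (∏ l ∈ badOdd W, l) * B.r from dvd_mul_right _ _
  have hu' := Down.exists_botMap K T.hM (2 * ∏ l ∈ badOdd W, l) hd'
  obtain ⟨u, hu, hui⟩ := hu'
  exact Down.Copies.exists_maps (d.sys (Lam N)) T.hM (botRep K) (Down.copies_two T d hd) hu hui

end FLTAgent.R2.Lv

end
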