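import Fermat.Agent.R2.LevelTop

/-!
Area R2, parcel G5: when the two sums at a prime are bijective on the part of a system.

If the composite `U` of pull back, `W` and sum is a unit plus a topologically nilpotent operator,
the composite of the pair of pull backs with the pair of sums is bijective; injectivity of the sums
passes from coefficients `Y` to coefficients `W` inside `R` whose classes come from classes of `Y`.
-/

set_option autoImplicit false
set_option linter.style.haveILetI false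
set_option linter.unusedSectionVars false

noncomputable section

open scoped MatrixGroups
open Matrix IsLocalRing

namespace FLTAgent.R2.Lv

open FLTAgent.LL FLTAgent.R2.Coh

namespace Down

section Lin

variable {A : Type*} [CommRing A] {H H' : Type*} [AddCommGroup H] [Module A H] [AddCommGroup H']
  [Module A H']

/-- a submodule kept by a bijective endomorphism of a noetherian module is its own preimage -/
theorem mem_of_bijective_mem [IsNoetherian A H] {G : Module.End A H} (hG : Function.Bijective G)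
    {K : Submodule A H} (hK : ∀ x ∈ K, G x ∈ K) {x : H} (hx : G x ∈ K) : x ∈ K := by
  have hmono : Monotone fun n => K.comap (G ^ n) := monotone_nat_of_le_succ fun n y hy => by
    rw [Submodule.mem_comap] at hy ⊢
    rw [pow_succ', Module.End.mul_apply]
    exact hK _ hy
  obtain ⟨n, hn⟩ := monotone_stabilizes_iff_noetherian.mpr inferInstance ⟨_, hmono⟩
  obtain ⟨y, hy⟩ : ∃ y, (G ^ n) y = x := by
    rw [Module.End.coe_pow]
    exact hG.surjective.iterate n x
  have h2 : y ∈ K.comap (G ^ (n + 1)) := by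
    rw [Submodule.mem_comap, pow_succ', Module.End.mul_apply, hy]
    exact hx
  have e : K.comap (G ^ n) = K.comap (G ^ (n + 1)) := hn (n + 1) (Nat.le_succ n)
  rw [← e, Submodule.mem_comap, hy] at h2
  exact h2

/-- maps commuting with two operators commute with the powers of their translates -/
theorem pow_sub_apply {u : Module.End A H} {u' : Module.End A H'} (φ : H →ₗ[A] H')
    (hφ : ∀ x, φ (u x) = u' (φ x)) (a : A) (k : ℕ) (x : H) :
    φ (((u - a • 1) ^ k) x) = ((u' - a • 1) ^ k) (φ x) := by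
  induction k generalizing x with
  | zero => rfl
  | succ k ih =>
    rw [pow_succ, pow_succ, Module.End.mul_apply, Module.End.mul_apply, ih]
    simp [hφ]

variable [IsLocalRing A]

/-- the composite of the pull backs and the sums is surjective -/
theorem gram_surjective [Module.Finite A H] {c a : A} (hc : c ∈ maximalIdeal A) (ha : IsUnit a)
    (U V : Module.End A H)
    (hU : ∀ y, ∃ k, ((U - a • (1 : Module.End A H)) ^ k) y ∈ maximalIdeal A • (⊤ : Submodule A H)) :
    Function.Surjective fun p : H × H => (c • p.1 + U p.2, U p.1 + V p.2) := by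
  let L : H × H →ₗ[A] H × H :=
    (c • LinearMap.fst A H H + U ∘ₗ LinearMap.snd A H H).prod
      (U ∘ₗ LinearMap.fst A H H + V ∘ₗ LinearMap.snd A H H)
  suffices hL : Function.Surjective L by exact hL
  have key : ∀ y, ∃ b, y - U b ∈ maximalIdeal A • (⊤ : Submodule A H) := by
    suffices h : ∀ k y, ((U - a • (1 : Module.End A H)) ^ k) y ∈ maximalIdeal A • (⊤ : Submodule A H) →
        ∃ b, y - U b ∈ maximalIdeal A • (⊤ : Submodule A H) from
      fun y => (hU y).elim fun k hk => h k y hk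
    intro k
    induction k with
    | zero => exact fun y hy => ⟨0, by simpa using hy⟩
    | succ k ih =>
      intro y hy
      obtain ⟨b, hb⟩ := ih ((U - a • 1) y) (by rwa [← Module.End.mul_apply, ← pow_succ])
      obtain ⟨u, rfl⟩ := ha
      refine ⟨(↑u⁻¹ : A) • (y - b), ?_⟩
      have e : y - U ((↑u⁻¹ : A) • (y - b)) = (-(↑u⁻¹ : A)) • ((U - (u : A) • 1) y - U b) := by
        simp only [LinearMap.sub_apply, LinearMap.smul_apply, Module.End.one_apply, map_smul,
          map_sub, smul_sub, neg_smul, smul_smul, Units.inv_mul, one_smul, neg_mul]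
        abel
      rw [e]
      exact Submodule.smul_mem _ _ hb
  refine LinearMap.range_eq_top.1 (eq_top_iff.2 ?_)
  refine Submodule.le_of_le_smul_of_le_jacobson_bot (I := maximalIdeal A)
    (Module.finite_def.1 inferInstance) (IsLocalRing.maximalIdeal_le_jacobson _) fun p _ => ?_
  obtain ⟨b, hb⟩ := key p.1
  obtain ⟨b', hb'⟩ := key (p.2 - V b)
  have h1 : p.1 - (c • b' + U b) ∈ maximalIdeal A • (⊤ : Submodule A H) := by
    rw [show p.1 - (c • b' + U b) = (p.1 - U b) - c • b' by abel]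
    exact sub_mem hb (Submodule.smul_mem_smul hc Submodule.mem_top)
  have h2 : p.2 - (U b' + V b) ∈ maximalIdeal A • (⊤ : Submodule A H) := by
    rw [show p.2 - (U b' + V b) = p.2 - V b - U b' by abel]
    exact hb'
  have i1 : (maximalIdeal A • (⊤ : Submodule A H)).map (LinearMap.inl A H H) ≤
      maximalIdeal A • (⊤ : Submodule A (H × H)) := by
    rw [Submodule.map_smul'']
    exact Submodule.smul_mono le_rfl le_top
  have i2 : (maximalIdeal A • (⊤ : Submodule A H)).map (LinearMap.inr A H H) ≤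
      maximalIdeal A • (⊤ : Submodule A (H × H)) := by
    rw [Submodule.map_smul'']
    exact Submodule.smul_mono le_rfl le_top
  rw [← add_sub_cancel (L (b', b)) p]
  refine add_mem (Submodule.mem_sup_left ⟨_, rfl⟩) (Submodule.mem_sup_right ?_)
  rw [show p - L (b', b) = (p.1 - (c • b' + U b), 0) + (0, p.2 - (U b' + V b)) by
    ext <;> simp [L]]
  exact add_mem (i1 ⟨_, h1, rfl⟩) (i2 ⟨_, h2, rfl⟩)

end Lin

section Sums

variable {M p M' : ℕ} [NeZero M] [NeZero M'] (h : Split M p M') {A : Type*} [CommRing A]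
  {V V₂ : Type*} [AddCommGroup V] [Module A V] [AddCommGroup V₂] [Module A V₂]
  (τ : Representation A (GL (Fin 2) (ZMod M)) V) (hτ : Fac h τ)

/-- the pull back along the lines -/
def pullP : H1 τ →ₗ[A] H1 (pRep (p := p) τ) := map (isTwist_pullPt (p := p) τ)

/-- the composite of pull back, `W` and sum -/
def upP : Module.End A (H1 τ) := map (isTwist_pushPt (p := p) τ) ∘ₗ Wp h τ hτ ∘ₗ pullP τ

/-- the pair of pull backs -/
def mixP : H1 τ × H1 τ →ₗ[A] H1 (pRep (p := p) τ) :=
  (pullP τ).coprod (Wp h τ hτ ∘ₗ pullP τ)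

theorem mixP_apply (a b : H1 τ) :
    mixP h τ hτ (a, b) = pullP τ a + Wp h τ hτ (pullP τ b) := rfl

include h in
theorem push_pullP (a : H1 τ) :
    map (isTwist_pushPt (p := p) τ) (pullP τ a) = ((p + 1 : ℕ) : A) • a := push_pull h τ a

theorem pullP_T {l : ℕ} (hl : l.Prime) (hlM : ¬ l ∣ M) (a : H1 τ) :
    pullP (p := p) τ (T τ hl hlM a) = T (pRep τ) hl hlM (pullP τ a) := map_T_one _ hl hlM a

theorem upP_T {l : ℕ} (hl : l.Prime) (hlM : ¬ l ∣ M) (a : H1 τ) :
    upP h τ hτ (T τ hl hlM a) = T τ hl hlM (upP h τ hτ a) := by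
  simp only [upP, LinearMap.comp_apply, pullP_T, Wp_T, map_T_one]

variable {τ₂ : Representation A (GL (Fin 2) (ZMod M)) V₂} (hτ₂ : Fac h τ₂)

theorem pullP_natural {Φ : V →ₗ[A] V₂} (hΦ : IsTwist τ τ₂ 1 Φ) (a : H1 τ) :
    map (isTwist_postcomp τ hΦ) (pullP (p := p) τ a) = pullP τ₂ (map hΦ a) := by
  obtain ⟨f, rfl⟩ := Submodule.mkQ_surjective _ a
  rfl

theorem upP_natural {Φ : V →ₗ[A] V₂} (hΦ : IsTwist τ τ₂ 1 Φ) (a : H1 τ) :
    map hΦ (upP h τ hτ a) = upP h τ₂ hτ₂ (map hΦ a) := by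
  simp only [upP, LinearMap.comp_apply]
  rw [isTwist_pushPt_natural hΦ, Wp_natural h τ hτ hτ₂ hΦ, pullP_natural τ hΦ]

theorem mixP_natural {Φ : V →ₗ[A] V₂} (hΦ : IsTwist τ τ₂ 1 Φ) (a b : H1 τ) :
    map (isTwist_postcomp τ hΦ) (mixP h τ hτ (a, b)) =
      mixP h τ₂ hτ₂ (map hΦ a, map hΦ b) := by
  rw [mixP_apply, mixP_apply, _root_.map_add, Wp_natural h τ hτ hτ₂ hΦ, pullP_natural τ hΦ,
    pullP_natural τ hΦ]

variable [IsLocalRing A] (s : Sys M A)

theorem pullP_mem_E {a : H1 τ} (ha : a ∈ s.E τ) : pullP (p := p) τ a ∈ s.E (pRep τ) :=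
  s.map_mem_E _ (fun _ => by simp) ha

theorem upP_mem_E {a : H1 τ} (ha : a ∈ s.E τ) : upP h τ hτ a ∈ s.E τ :=
  s.map_mem_E _ (fun _ => by simp) (Wp_mem_E h τ hτ s (pullP_mem_E τ s ha))

theorem mixP_mem_E {a b : H1 τ} (ha : a ∈ s.E τ) (hb : b ∈ s.E τ) :
    mixP h τ hτ (a, b) ∈ s.E (pRep τ) := by
  rw [mixP_apply]
  exact add_mem (pullP_mem_E τ s ha) (Wp_mem_E h τ hτ s (pullP_mem_E τ s hb))

/-- the two sums on the part of the system -/
def degE : s.E (pRep (p := p) τ) →ₗ[A] s.E τ × s.E τ :=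
  (((LinearMap.fst A (H1 τ) (H1 τ)) ∘ₗ degP h τ hτ ∘ₗ (s.E (pRep τ)).subtype).codRestrict (s.E τ)
      fun x => (degP_mem_E h hτ s x.2).1).prod
    (((LinearMap.snd A (H1 τ) (H1 τ)) ∘ₗ degP h τ hτ ∘ₗ (s.E (pRep τ)).subtype).codRestrict (s.E τ)
      fun x => (degP_mem_E h hτ s x.2).2)

theorem coe_degE (x : s.E (pRep (p := p) τ)) :
    (((degE h τ hτ s x).1 : H1 τ), ((degE h τ hτ s x).2 : H1 τ)) = degP h τ hτ x := rfl

theorem degE_eq_zero_iff (x : s.E (pRep (p := p) τ)) :
    degE h τ hτ s x = 0 ↔ degP h τ hτ x = 0 :=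
  ⟨fun e => by rw [← coe_degE h τ hτ s, e]; rfl, fun e =>
    Prod.ext (Subtype.ext (congrArg Prod.fst e :)) (Subtype.ext (congrArg Prod.snd e :))⟩

/-- the pull backs on the part of the system -/
def mixE : s.E τ × s.E τ →ₗ[A] s.E (pRep (p := p) τ) :=
  (mixP h τ hτ ∘ₗ (s.E τ).subtype.prodMap (s.E τ).subtype).codRestrict (s.E (pRep τ))
    fun q => mixP_mem_E h τ hτ s q.1.2 q.2.2

/-- the operator on the part of the system -/
def upE : Module.End A (s.E τ) := (upP h τ hτ).restrict fun _ hx => upP_mem_E h τ hτ s hx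

theorem coe_pow_upE (a : A) (k : ℕ) (y : s.E τ) :
    (((upE h τ hτ s - a • 1) ^ k) y).1 = ((upP h τ hτ - a • 1) ^ k) y.1 :=
  pow_sub_apply (s.E τ).subtype (fun _ => rfl) a k y

variable [IsNoetherianRing A] [IsAdicComplete (maximalIdeal A) A] [Module.Finite A V]

theorem degE_mixE_bijective (h2 : (2 : A) ∈ maximalIdeal A) (hp : Odd p) {a : A} (ha : IsUnit a)
    (hnil : ∀ y : s.E τ, ∃ k,
      ((upE h τ hτ s - a • (1 : Module.End A (s.E τ))) ^ k) y ∈ maximalIdeal A • (⊤ : Submodule A (s.E τ))) :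
    Function.Bijective (degE h τ hτ s ∘ₗ mixE h τ hτ s) := by
  haveI := s.E_finite (ρ := τ)
  have hsurj : Function.Surjective (degE h τ hτ s ∘ₗ mixE h τ hτ s) := by
    have hc : ((p + 1 : ℕ) : A) ∈ maximalIdeal A := by
      obtain ⟨k, rfl⟩ := hp
      rw [show 2 * k + 1 + 1 = 2 * (k + 1) by ring, Nat.cast_mul, Nat.cast_ofNat]
      exact Ideal.mul_mem_right _ _ h2
    let V' : Module.End A (s.E τ) :=
      LinearMap.snd A _ _ ∘ₗ degE h τ hτ s ∘ₗ mixE h τ hτ s ∘ₗ LinearMap.inr A _ _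
    intro t
    obtain ⟨q, rfl⟩ := gram_surjective hc ha (upE h τ hτ s) V' hnil t
    refine ⟨q, ?_⟩
    obtain ⟨⟨x, hx⟩, ⟨y, hy⟩⟩ := q
    refine Prod.ext (Subtype.ext ?_) (Subtype.ext ?_)
    · show map (isTwist_pushPt (p := p) τ) (mixP h τ hτ (x, y)) =
        ((p + 1 : ℕ) : A) • x + upP h τ hτ y
      rw [mixP_apply, _root_.map_add, push_pullP h]
      rfl
    · show map (isTwist_pushPt (p := p) τ) (Wp h τ hτ (mixP h τ hτ (x, y))) =
        upP h τ hτ x + map (isTwist_pushPt (p := p) τ) (Wp h τ hτ (mixP h τ hτ (0, y)))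
      rw [mixP_apply, mixP_apply, _root_.map_add, _root_.map_add, map_zero, zero_add]
      rfl
  exact ⟨OrzechProperty.injective_of_surjective_endomorphism _ hsurj, hsurj⟩

theorem degE_mix_bijective (h2 : (2 : A) ∈ maximalIdeal A) (hp : Odd p) {a : A} (ha : IsUnit a)
    (hnil : ∀ y : s.E τ, ∃ k,
      ((upE h τ hτ s - a • (1 : Module.End A (s.E τ))) ^ k) y ∈ maximalIdeal A • (⊤ : Submodule A (s.E τ)))
    (hinj : ∀ x ∈ s.E (pRep (p := p) τ), degP h τ hτ x = 0 → x = 0) :
    Function.Bijective (degE h τ hτ s) ∧ Function.Bijective (mixE h τ hτ s) := by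
  have hG := degE_mixE_bijective h τ hτ s h2 hp ha hnil
  have hb : Function.Bijective (degE h τ hτ s) :=
    ⟨(injective_iff_map_eq_zero _).2 fun x hx =>
        Subtype.ext (hinj x.1 x.2 ((degE_eq_zero_iff h τ hτ s x).1 hx)),
      Function.Surjective.of_comp (g := mixE h τ hτ s) hG.2⟩
  exact ⟨hb, (Function.Bijective.of_comp_iff' hb _).1 hG⟩

end Sums

section Transfer

variable {M p M' : ℕ} [NeZero M] [NeZero M'] (h : Split M p M') {A : Type*} [CommRing A]
  [IsLocalRing A] [IsNoetherianRing A] [IsAdicComplete (maximalIdeal A) A] (s : Sys M A)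
  {VY VW VR : Type*} [AddCommGroup VY] [Module A VY] [AddCommGroup VW] [Module A VW]
  [AddCommGroup VR] [Module A VR] [Module.Finite A VY] [Module.Finite A VW] [Module.Finite A VR]
  {τY : Representation A (GL (Fin 2) (ZMod M)) VY}
  {τW : Representation A (GL (Fin 2) (ZMod M)) VW}
  {τR : Representation A (GL (Fin 2) (ZMod M)) VR}
  (hY : Fac h τY) (hW : Fac h τW) (hR : Fac h τR)
  {g : VY →ₗ[A] VR} (hg : IsTwist τY τR 1 g) {i : VW →ₗ[A] VR} (hi : IsTwist τW τR 1 i)

include hg hR in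
/-- bijectivity of the sums passes to coefficients whose classes come from `Y` -/
theorem degE_bijective_transfer (hinj : Function.Injective i) (h2 : (2 : A) ∈ maximalIdeal A)
    (hp : Odd p) {a : A} (ha : IsUnit a) {c : A} (hc : c ∈ maximalIdeal A) {n : ℕ}
    (hkill : ∀ z : H1 τR, c ^ n • z = 0)
    (hnilY : ∀ y ∈ s.E τY, ∀ m, ∃ k, ∃ w ∈ s.E τY,
      ((upP h τY hY - a • (1 : Module.End A (H1 τY))) ^ k) y = c ^ m • w)
    (hinjY : ∀ w ∈ s.E (pRep (p := p) τY), degP h τY hY w = 0 → w = 0)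
    (hliftT : ∀ x ∈ s.E τW, ∃ w ∈ s.E τY, map hg w = map hi x)
    (hliftP : ∀ x ∈ s.E (pRep (p := p) τW), ∃ w ∈ s.E (pRep (p := p) τY),
      map (isTwist_postcomp τY hg) w = map (isTwist_postcomp τW hi) x) :
    Function.Bijective (degE h τW hW s) := by
  haveI := s.E_finite (ρ := pRep (p := p) τY)
  obtain ⟨hdY, hmY⟩ := degE_mix_bijective h τY hY s h2 hp ha (fun y => by
    obtain ⟨k, w, hw, e⟩ := hnilY y.1 y.2 1
    refine ⟨k, ?_⟩
    rw [show ((upE h τY hY s - a • 1) ^ k) y = c • (⟨w, hw⟩ : s.E τY) from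
      Subtype.ext (by rw [coe_pow_upE, e, pow_one]; rfl)]
    exact Submodule.smul_mem_smul hc Submodule.mem_top) hinjY
  refine (degE_mix_bijective h τW hW s h2 hp ha (fun y => ?_) fun x hx hx0 => ?_).1
  · obtain ⟨w, hw, e⟩ := hliftT y.1 y.2
    obtain ⟨k, w', -, ek⟩ := hnilY w hw n
    refine ⟨k, ?_⟩
    rw [show ((upE h τW hW s - a • 1) ^ k) y = 0 from Subtype.ext ?_]
    · exact zero_mem _
    · refine s.eq_zero_of_map_eq_zero hi hinj (Subtype.prop _) ?_
      rw [coe_pow_upE, pow_sub_apply (map hi) (upP_natural h τW hW hR hi), ← e,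
        ← pow_sub_apply (map hg) (upP_natural h τY hY hR hg), ek, map_smul, hkill]
  · obtain ⟨w, hw, e⟩ := hliftP x hx
    let Φ : s.E (pRep (p := p) τY) →ₗ[A] H1 (pRep (p := p) τR) :=
      map (isTwist_postcomp τY hg) ∘ₗ (s.E (pRep τY)).subtype
    let θ : Module.End A (s.E (pRep (p := p) τY)) := mixE h τY hY s ∘ₗ degE h τY hY s
    have hθ : ∀ v, Φ (θ v) = mixP h τR hR (degP h τR hR (Φ v)) := fun v => by
      show map (isTwist_postcomp τY hg)
          (mixP h τY hY ((degE h τY hY s v).1.1, (degE h τY hY s v).2.1)) =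
        mixP h τR hR (degP h τR hR (map (isTwist_postcomp τY hg) v.1))
      rw [mixP_natural h τY hY hR hg, degP_natural h hY hR hg]
      rfl
    have hΦ : Φ ⟨w, hw⟩ = 0 := by
      rw [← LinearMap.mem_ker]
      refine mem_of_bijective_mem (G := θ) (hmY.comp hdY) (fun v hv => ?_) ?_
      · rw [LinearMap.mem_ker] at hv ⊢
        rw [hθ, hv, map_zero, map_zero]
      · rw [LinearMap.mem_ker, hθ]
        show mixP h τR hR (degP h τR hR (map (isTwist_postcomp τY hg) w)) = 0
        rw [e, degP_natural h hW hR hi, hx0]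
        simp [mixP_apply]
    exact s.eq_zero_of_map_eq_zero (isTwist_postcomp τW hi)
      (fun F F' hF => funext fun z => hinj (congrFun hF z)) hx (e.symm.trans hΦ)

end Transfer

end Down

end FLTAgent.R2.Lv

end
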