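import Fermat.Agent.R2.LevelDownAlg
import Fermat.Agent.R2.LevelCoef
import Fermat.Agent.R2.LevelTrans
import Fermat.Agent.R2.LevelNilp
import Fermat.Agent.R2.Curve

/-!
Area R2, parcel G5: at a good prime with odd eigenvalue the two sums are bijective on the part with
coefficients in functions on lines with values in the new coefficient module.
-/

set_option autoImplicit false
set_option linter.style.haveILetI false
set_option linter.unusedSectionVars false

noncomputable section

open scoped MatrixGroups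
open Matrix IsLocalRing

namespace FLTAgent.R2.Lv

open FLTAgent.LL FLTAgent.R2.Coh

namespace Down

section SFreeFun

variable {M : ℕ} [NeZero M] {A : Type*} [CommRing A] {V : Type*} [AddCommGroup V] [Module A V]
  {τ : Representation A (GL (Fin 2) (ZMod M)) V} {X : Type*} [MulAction (GL (Fin 2) (ZMod M)) X]

/-- functions on a set without fixed points of `S` -/
theorem sFree_funTensor (hτ : τ (red M (-1)) = 1) (hX : ∀ x : X, red M (-1) • x = x)
    (hS : ∀ x : X, red M ModularGroup.S • x ≠ x) : SFree (funTensor τ X) := by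
  classical
  letI : LinearOrder X := linearOrderOfSTO WellOrderingRel
  set g := red M ModularGroup.S
  have hgg : ∀ x : X, g • g • x = x := fun x => by
    rw [smul_smul, ← map_mul, Periods.S_mul_S, hX]
  let e : Module.End A (X → V) :=
    { toFun := fun F x => if x < g • x then F x else 0
      map_add' := fun F F' => funext fun x => by simp only [Pi.add_apply]; split_ifs <;> simp
      map_smul' := fun c F => funext fun x => by simp }
  refine ⟨e, fun F => funext fun x => ?_⟩
  rw [Pi.add_apply, funTensor_apply, inv_smul_eq_iff.2 (hgg x).symm]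
  show (if x < g • x then F x else 0) +
    τ g (if g • x < g • g • x then τ g (F (g⁻¹ • g • x)) else 0) = F x
  rw [inv_smul_smul, hgg]
  rcases lt_or_gt_of_ne (hS x) with hlt | hlt
  · rw [if_neg (not_lt.2 hlt.le), if_pos hlt, zero_add, S_S hτ]
  · rw [if_pos hlt, if_neg (not_lt.2 hlt.le), map_zero, add_zero]

/-- functions with values in a module free relative to `S` -/
theorem sFree_funTensor_of_sFree (h : SFree τ) (hX : ∀ x : X, red M (-1) • x = x) :
    SFree (funTensor τ X) := by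
  obtain ⟨e, he⟩ := h
  set g := red M ModularGroup.S
  refine ⟨e.compLeft X, fun F => funext fun x => ?_⟩
  show e (F x) + τ g (e (τ g (F (g⁻¹ • g⁻¹ • x)))) = F x
  rw [smul_smul, ← _root_.mul_inv_rev, ← map_mul, Periods.S_mul_S, inv_smul_eq_iff.2 (hX x).symm,
    he]

end SFreeFun

variable {W : WeierstrassCurve ℤ} {hW : IsAnchor W} {B : Base W} {N : ℕ} (K : Aux hW B N)
  {M : ℕ} [NeZero M] (hM : K.lev ∣ M)

/-- functions on the lines of a level with values in the new coefficient module -/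
abbrev cW (b : ℕ) : Representation (Lam N) (GL (Fin 2) (ZMod M)) (P1 M b → WCar K hM) :=
  funTensor (tW K hM) (P1 M b)

/-- functions on the lines of a level and at the killing primes, over the two-adic integers -/
abbrev cY (b : ℕ) :
    Representation Z2 (GL (Fin 2) (ZMod M)) (P1 M b → PUnit.{1} × (kset K hM).YY → Z2) :=
  funTensor (tY K hM Z2) (P1 M b)

variable (M) in
/-- the levels at which the part is compared -/
structure LineLev (b : ℕ) : Prop where
  sqfree : Squarefree M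
  dvd : b ∣ M
  ndvd : ∀ i, ¬ K.q i ∣ b
  bad : ∀ l ∈ badOdd W, l ∣ b
  three : ∃ l, l.Prime ∧ l % 4 = 3 ∧ l ∣ b

variable {K} {b : ℕ}

theorem LineLev.mul (hb : LineLev K M b) {p : ℕ} (hp : p.Prime) (hpM : p ∣ M) (hpb : ¬ p ∣ b)
    (hpq : ∀ i, K.q i ≠ p) : LineLev K M (p * b) where
  sqfree := hb.sqfree
  dvd := Nat.Coprime.mul_dvd_of_dvd_of_dvd ((hp.coprime_iff_not_dvd).2 hpb) hpM hb.dvd
  ndvd i hi := ((K.prime i).dvd_mul.1 hi).elim
    (fun h => hpq i ((Nat.prime_dvd_prime_iff_eq (K.prime i) hp).1 h)) (hb.ndvd i)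
  bad l hl := (hb.bad l hl).trans (dvd_mul_left _ _)
  three := hb.three.imp fun _ h => ⟨h.1, h.2.1, h.2.2.trans (dvd_mul_left _ _)⟩

theorem LineLev.S_smul_ne (hb : LineLev K M b) (x : P1 M b) :
    red M ModularGroup.S • x ≠ x := by
  obtain ⟨l, hl, h3, hlb⟩ := hb.three
  exact S_smul_ne_P1 hl h3 hlb hb.dvd x

theorem neg_one_cW : cW K hM b (red M (-1)) = 1 :=
  funTensor_neg_one (neg_one_tW K hM) fun x => P1.red_neg_one_smul x

theorem sFree_cW (hb : LineLev K M b) : SFree (cW K hM b) :=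
  sFree_funTensor (neg_one_tW K hM) (fun x => P1.red_neg_one_smul x) hb.S_smul_ne

include hM in
/-- the lines of a level and at the killing primes as auxiliary primes without diamonds -/
theorem LineLev.exists_twData (hb : LineLev K M b) : ∃ D : TWData M 3 K.k,
    D.N0 = b ∧ D.Q = K.q :=
  ⟨{ N0 := b
     dvd0 := hb.dvd
     Q := K.q
     prime := K.prime
     inj := K.inj
     dvd := fun i => (K.q_dvd_lev i).trans hM
     ndvd := hb.ndvd
     H := fun _ => ⊤
     prime_p := Nat.prime_three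
     p_ne_two := by decide
     index := fun _ => ⟨0, by simp⟩ }, rfl, rfl⟩

include hM in
theorem LineLev.prod_dvd (hb : LineLev K M b) : b * ∏ i, K.q i ∣ M := by
  obtain ⟨D, h0, hQ⟩ := hb.exists_twData hM
  have h := D.N0R_dvd
  rwa [TWData.R, h0, hQ] at h

/-- the level with the lines at the killing primes -/
def lineData (hM : K.lev ∣ M) (hb : LineLev K M b) : AuxData M 0 where
  N0 := b * ∏ i, K.q i
  dvd0 := hb.prod_dvd hM
  Q := Fin.elim0
  prime := fun i => i.elim0
  inj := fun i => i.elim0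
  dvd := fun i => i.elim0
  ndvd := fun i => i.elim0
  H := fun i => i.elim0
  neg_mem := fun i => i.elim0

/-- the set of the level with the lines at the killing primes, split -/
theorem exists_lineIso (hb : LineLev K M b) :
    ∃ σ : (lineData hM hb).X ≃ P1 M b × (PUnit.{1} × (kset K hM).YY),
      ∀ (g : GL (Fin 2) (ZMod M)) z, σ (g • z) = g • σ z := by
  obtain ⟨φ, hφ⟩ := TWData.exists_equiv_Y'
    ({ N0 := b
       dvd0 := hb.dvd
       Q := K.q
       prime := K.prime
       inj := K.inj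
       dvd := fun i => (K.q_dvd_lev i).trans hM
       ndvd := hb.ndvd
       H := fun _ => ⊤
       prime_p := Nat.prime_three
       p_ne_two := by decide
       index := fun _ => ⟨0, by simp⟩ } : TWData M 3 K.k)
  refine ⟨{ toFun := fun z => ((φ z.1).1, (PUnit.unit, (φ z.1).2))
            invFun := fun w => (φ.symm (w.1, w.2.2), fun i => i.elim0)
            left_inv := fun z => Prod.ext (φ.symm_apply_apply z.1) (funext fun i => i.elim0)
            right_inv := fun w => by
              show ((φ (φ.symm (w.1, w.2.2))).1, (PUnit.unit, (φ (φ.symm (w.1, w.2.2))).2)) = w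
              rw [φ.apply_symm_apply]
              obtain ⟨a, ⟨⟩, y⟩ := w
              rfl }, fun g z => ?_⟩
  refine Eq.trans ?_ (show ((g • φ z.1).1, (PUnit.unit, (g • φ z.1).2)) = _ from rfl)
  exact congrArg (fun q => (q.1, (PUnit.unit, q.2))) (hφ g z.1)

/-- the coefficients of lines as functions on the set of a level -/
theorem exists_lineMaps (hb : LineLev K M b) :
    ∃ (u : (P1 M b → PUnit.{1} × (kset K hM).YY → Z2) →ₗ[Z2] ((lineData hM hb).X → Z2))
      (v : ((lineData hM hb).X → Z2) →ₗ[Z2] (P1 M b → PUnit.{1} × (kset K hM).YY → Z2)),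
      IsTwist (cY K hM b) (lrRep (lineData hM hb)) 1 u ∧
        IsTwist (lrRep (lineData hM hb)) (cY K hM b) 1 v ∧ ∀ F, v (u F) = F := by
  obtain ⟨σ, hσ⟩ := exists_lineIso hM hb
  have hσ' : ∀ (g : GL (Fin 2) (ZMod M)) w, σ.symm (g • w) = g • σ.symm w := fun g w => by
    rw [Equiv.symm_apply_eq, hσ, Equiv.apply_symm_apply]
  refine ⟨{ toFun := fun F z => F (σ z).1 (σ z).2, map_add' := fun _ _ => rfl
            map_smul' := fun _ _ => rfl },
    { toFun := fun F a w => F (σ.symm (a, w)), map_add' := fun _ _ => rfl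
      map_smul' := fun _ _ => rfl },
    fun g F => ?_, fun g F => ?_, fun F => funext fun a => funext fun w => ?_⟩
  · rw [MonoidHom.one_apply, one_smul]
    funext z
    show F (g⁻¹ • (σ z).1) (g⁻¹ • (σ z).2) = F (σ (g⁻¹ • z)).1 (σ (g⁻¹ • z)).2
    rw [hσ]
    rfl
  · rw [MonoidHom.one_apply, one_smul]
    funext a w
    show F (g⁻¹ • σ.symm (a, w)) = F (σ.symm (g⁻¹ • a, g⁻¹ • w))
    rw [← hσ']
    rfl
  · show F (σ (σ.symm (a, w))).1 (σ (σ.symm (a, w))).2 = F a w
    rw [Equiv.apply_symm_apply]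

include hM in
theorem LineLev.good_lineData (hb : LineLev K M b) {M₀ : ℕ} (d : SysData hW M₀)
    (D : AuxData M₀ 0) (hD : D.N0 = b * ∏ i, K.q i) : Good d D where
  sqfree := hD ▸ hb.sqfree.squarefree_of_dvd (hb.prod_dvd hM)
  bad_dvd l hl := hD ▸ (hb.bad l hl).trans (dvd_mul_right _ _)
  good_Q i := i.elim0
  mod4_Q i := i.elim0
  odd_Q i := i.elim0
  index i := i.elim0
  sq_Q i := i.elim0

section AtPrime

variable {p M' : ℕ} [NeZero M'] (h : Split M p M') (hpq : ∀ i, K.q i ≠ p)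

include h in
theorem dvd_of_split (hbd : b ∣ M) (hpb : ¬ p ∣ b) : b ∣ M' :=
  Nat.Coprime.dvd_of_dvd_mul_left ((h.prime.coprime_iff_not_dvd).2 hpb).symm (h.eq ▸ hbd)

include hpq in
theorem facLine (hbd : b ∣ M) (hpb : ¬ p ∣ b) : Fac h (cY K hM b) :=
  fac_funTensor h (fac_tY K hM h hpq Z2) fun _ hg x =>
    smul_p1_of_gl_one h.dvd' (dvd_of_split h hbd hpb) hg x

include hpq in
theorem facCW (hbd : b ∣ M) (hpb : ¬ p ∣ b) : Fac h (cW K hM b) :=
  fac_funTensor h (fac_tW K hM h hpq) fun _ hg x =>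
    smul_p1_of_gl_one h.dvd' (dvd_of_split h hbd hpb) hg x

variable (d : SysData hW M) (hp2 : p ≠ 2) (hgood : ¬ (p : ℤ) ∣ W.Δ) (hpS : p ∈ d.S)
  (hb : LineLev K M b) (hpb : ¬ p ∣ b)

include hpS hp2 hgood in
/-- `U - a p` is topologically nilpotent on functions on lines -/
theorem line_nil {y : H1 (cY K hM b)} (hy : y ∈ (d.sys Z2).E (cY K hM b)) (m : ℕ) :
    ∃ k, ∃ w ∈ (d.sys Z2).E (cY K hM b),
      ((upP h (cY K hM b) (facLine hM h hpq hb.dvd hpb) -
        (W.apOfModel p : Z2) • (1 : Module.End Z2 (H1 (cY K hM b)))) ^ k) y = (2 : Z2) ^ m • w := by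
  let D' : AuxData M 0 := lineData hM (hb.mul h.prime h.dvdP hpb hpq)
  have hcop : p.Coprime (b * ∏ i, K.q i) := Nat.Coprime.mul_right
    ((h.prime.coprime_iff_not_dvd).2 hpb) (Nat.Coprime.prod_right fun i _ =>
      (Nat.coprime_primes h.prime (K.prime i)).2 (hpq i).symm)
  let x : Exact D' p := ⟨b * ∏ i, K.q i, mul_assoc _ _ _, M', h, fun i => i.elim0, hcop⟩
  obtain ⟨u, v, hu, hv, hvu⟩ := exists_lineMaps hM hb
  have hu' : IsTwist (cY K hM b) (x.lowRep Z2) 1 u := hu
  have hv' : IsTwist (x.lowRep Z2) (cY K hM b) 1 v := hv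
  obtain ⟨e, -, -, he3, he4⟩ := x.exists_lowEquiv Z2
  have hy' := (d.sys Z2).map_mem_E hu' (fun _ => by simp) hy
  have hup : ∀ z, e (upP h (x.lowRep Z2) (x.fac Z2) z) =
      T (funRep Z2 x.red.X (M := M')) h.prime x.not_dvd_M' (e z) := fun z => by
    refine (congrArg e ?_).trans (he3 z)
    simp only [Exact.pushX, Exact.WX, Exact.pullX, LinearMap.comp_apply, Exact.toLine_ofLine]
    rfl
  obtain ⟨k, w, hw, hk⟩ := T_sub_pow_mem (d.red h.dvd') x.red
    (hb.good_lineData hM _ x.red rfl) h.prime x.not_dvd_M' hp2 hgood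
    ((he4 (d.sys Z2) (Or.inr (Or.inr hpS)) _).2 hy') m
  refine ⟨k, LL.map hv' (e.symm w), (d.sys Z2).map_mem_E hv' (fun _ => by simp)
    ((he4 (d.sys Z2) (Or.inr (Or.inr hpS)) _).1 (by rw [LinearEquiv.apply_symm_apply]; exact hw)),
    ?_⟩
  have h1 : ((upP h (x.lowRep Z2) (x.fac Z2) -
      (W.apOfModel p : Z2) • (1 : Module.End Z2 (H1 (x.lowRep Z2)))) ^ k) (LL.map hu' y) =
      (2 : Z2) ^ m • e.symm w := by
    refine e.injective ?_
    rw [show e _ = _ from pow_sub_apply e.toLinearMap hup _ k _, map_smul,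
      LinearEquiv.apply_symm_apply]
    exact hk
  have h2 : LL.map hv' (LL.map hu' y) = y := by
    obtain ⟨f, rfl⟩ := Submodule.mkQ_surjective _ y
    exact congrArg (H1.mk (cY K hM b)) (Subtype.ext (funext fun γ => hvu _))
  rw [← map_smul, ← h1, pow_sub_apply (LL.map hv')
    (upP_natural h (x.lowRep Z2) (x.fac Z2) (facLine hM h hpq hb.dvd hpb) hv'), h2]

/-- the trace of a Frobenius with odd eigenvalue is a unit -/
theorem isUnit_trace {M r : ℕ} [NeZero M] {d : SysData hW M} {D : AuxData M r} (ρ : Rho d D)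
    (h2 : (2 : ρ.T) ∈ maximalIdeal ρ.T) {l : ℕ} (hl : l.Prime) (hl2 : l ≠ 2)
    (hgood : ¬ (l : ℤ) ∣ W.Δ) (hodd : Odd (W.apOfModel l))
    {P : ValuationSubring (AlgebraicClosure ℚ)} (hP : P.LiesOverPrime l) {σ : GQ}
    (hσ : P.IsFrobeniusAt σ l) : IsUnit (ρ.ρ σ).trace := by
  have hsum : ((((rb hW σ) 0 0).val + ((rb hW σ) 1 1).val : ℕ) : Lam 0) = 1 := by
    rw [Nat.cast_add, ZMod.natCast_zmod_val, ZMod.natCast_zmod_val]
    refine Eq.trans ((Matrix.trace_fin_two _).symm.trans (trace_rE hW 0 hl hl2 hgood hP hσ)) ?_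
    obtain ⟨j, hj⟩ := hodd
    rw [hj, Int.cast_add, Int.cast_mul, Int.cast_one, Int.cast_ofNat,
      show (2 : Lam 0) = 0 from rfl, zero_mul, zero_add]
  obtain ⟨j, hj⟩ : Odd (((rb hW σ) 0 0).val + ((rb hW σ) 1 1).val) := by
    exact Nat.odd_iff.2 ((ZMod.natCast_eq_natCast_iff' _ 1 (2 ^ (0 + 1))).1
      (hsum.trans Nat.cast_one.symm))
  rw [← IsLocalRing.residue_ne_zero_iff_isUnit]
  have hres : ∀ i, residue ρ.T (ρ.ρ σ i i) = (((rb hW σ) i i).val : ResidueField ρ.T) := fun i => by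
    rw [← map_natCast (residue ρ.T), ← sub_eq_zero, ← map_sub, IsLocalRing.residue_eq_zero_iff]
    exact ρ.res σ i i
  rw [Matrix.trace_fin_two, _root_.map_add, hres, hres, ← Nat.cast_add, hj, Nat.cast_add, Nat.cast_mul,
    Nat.cast_one, Nat.cast_ofNat, ← map_ofNat (residue ρ.T) 2,
    (IsLocalRing.residue_eq_zero_iff _).2 h2, zero_mul, zero_add]
  exact one_ne_zero

include hp2 hgood in
/-- the two sums are injective on functions on lines -/
theorem line_inj (hodd : Odd (W.apOfModel p)) {w : H1 (pRep (p := p) (cY K hM b))}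
    (hw : w ∈ (d.sys Z2).E (pRep (p := p) (cY K hM b)))
    (h0 : degP h (cY K hM b) (facLine hM h hpq hb.dvd hpb) w = 0) : w = 0 := by
  let D' : AuxData M 0 := lineData hM (hb.mul h.prime h.dvdP hpb hpq)
  have hcop : p.Coprime (b * ∏ i, K.q i) := Nat.Coprime.mul_right
    ((h.prime.coprime_iff_not_dvd).2 hpb) (Nat.Coprime.prod_right fun i _ =>
      (Nat.coprime_primes h.prime (K.prime i)).2 (hpq i).symm)
  let x : Exact D' p := ⟨b * ∏ i, K.q i, mul_assoc _ _ _, M', h, fun i => i.elim0, hcop⟩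
  obtain ⟨u, v, hu, hv, hvu⟩ := exists_lineMaps hM hb
  have hu' : IsTwist (cY K hM b) (x.lowRep Z2) 1 u := hu
  refine (d.sys Z2).eq_zero_of_map_eq_zero (isTwist_postcomp (cY K hM b) hu')
    (fun F F' hF => funext fun z => by
      rw [← hvu (F z), ← hvu (F' z)]
      exact congrArg v (congrFun hF z)) hw ?_
  have hw' := (d.sys Z2).map_mem_E (isTwist_postcomp (p := p) (cY K hM b) hu') (fun _ => by simp) hw
  have h0' : degP h (x.lowRep Z2) (x.fac Z2)
      (LL.map (isTwist_postcomp (cY K hM b) hu') w) = 0 := by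
    rw [degP_natural h (facLine hM h hpq hb.dvd hpb) (x.fac Z2) hu', h0]
    simp
  generalize LL.map (isTwist_postcomp (p := p) (cY K hM b) hu') w = w' at hw' h0' ⊢
  have hnew : x.NewAt Z2 (x.ofLine Z2 w') := by
    refine ⟨?_, ?_⟩
    · simp only [Exact.pushX, LinearMap.comp_apply, Exact.toLine_ofLine]
      exact congrArg Prod.fst h0'
    · simp only [Exact.pushX, Exact.WX, LinearMap.comp_apply, Exact.toLine_ofLine]
      exact congrArg Prod.snd h0'
  have hz : x.ofLine Z2 w' ∈ (d.sys Z2).E (lrRep D') :=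
    (d.sys Z2).map_mem_E _ (fun _ => by simp) hw'
  suffices x.ofLine Z2 w' = 0 by rw [← x.toLine_ofLine Z2 w', this, map_zero]
  by_cases hne : (d.sys Z2).E (lrRep D') = ⊥
  · exact (Submodule.mem_bot _).1 (hne ▸ hz)
  obtain ⟨ρ⟩ := nonempty_rho d D'
    ((hb.mul h.prime h.dvdP hpb hpq).good_lineData hM _ D' rfl) hne
  obtain ⟨P, σ, hP, hσ⟩ := Alg.exists_place_frobenius p h.prime
  have hq := ρ.quartic p x hp2 ⟨_, hz⟩ hnew P hP σ hσ
  haveI : Algebra.IsIntegral Z2 ρ.T := Algebra.IsIntegral.of_finite Z2 ρ.T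
  have h2 : (2 : ρ.T) ∈ maximalIdeal ρ.T := by
    have hc := IsLocalRing.eq_maximalIdeal
      (Ideal.isMaximal_comap_of_isIntegral_of_isMaximal (R := Z2) (maximalIdeal ρ.T))
    have h2' : (2 : Z2) ∈ (maximalIdeal ρ.T).comap (algebraMap Z2 ρ.T) := by
      rw [hc, PadicInt.maximalIdeal_eq_span_p]
      exact Ideal.mem_span_singleton_self _
    rwa [Ideal.mem_comap, map_ofNat] at h2'
  have hu : IsUnit ((p : ρ.T) * (ρ.ρ σ).trace ^ 2 - (1 + (p : ρ.T)) ^ 2 * (ρ.ρ σ).det) := by
    obtain ⟨j, hj⟩ := h.prime.odd_of_ne_two hp2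
    have e1 : residue ρ.T (1 + (p : ρ.T)) = 0 := by
      rw [IsLocalRing.residue_eq_zero_iff, hj, Nat.cast_add, Nat.cast_mul, Nat.cast_one,
        Nat.cast_ofNat, show (1 : ρ.T) + (2 * j + 1) = 2 * (j + 1) by ring]
      exact Ideal.mul_mem_right _ _ h2
    have e2 : residue ρ.T (p : ρ.T) ≠ 0 := by
      rw [show (p : ρ.T) = (1 + p) - 1 by ring, map_sub, e1, map_one, zero_sub, neg_ne_zero]
      exact one_ne_zero
    rw [← IsLocalRing.residue_ne_zero_iff_isUnit, map_sub, map_mul, map_mul, map_pow, map_pow,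
      e1, zero_pow two_ne_zero, zero_mul, sub_zero]
    exact mul_ne_zero e2 (pow_ne_zero _ ((IsLocalRing.residue_ne_zero_iff_isUnit _).2
      (isUnit_trace ρ h2 h.prime hp2 hgood hodd hP hσ)))
  obtain ⟨c, hc⟩ := hu.exists_left_inv
  have hq' : ρ.φ ((p : ρ.T) * (ρ.ρ σ).trace ^ 2 - (1 + (p : ρ.T)) ^ 2 * (ρ.ρ σ).det) ⟨_, hz⟩ = 0 := by
    rw [map_sub, LinearMap.sub_apply, hq, sub_self]
  have := congrArg (ρ.φ c) hq'
  rw [← Module.End.mul_apply, ← map_mul, hc, map_one, map_zero] at this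
  exact congrArg Subtype.val this

end AtPrime

end Down

end FLTAgent.R2.Lv

end
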