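import Fermat.Agent.R2.LevelDownLine

/-!
Area R2, parcel G5: the two sums with values in the new coefficient module, through lifts to the
two-adic integers: bijectivity at a good prime with odd eigenvalue, independence of the system.
-/

set_option autoImplicit false
set_option linter.style.haveILetI false
set_option linter.unusedSectionVars false

noncomputable section

open scoped MatrixGroups
open Matrix IsLocalRing

namespace FLTAgent.R2.Lv

open FLTAgent.LL FLTAgent.R2.Coh

namespace Down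

section Res

variable {M p M' : ℕ} [NeZero M] [NeZero M'] (h : Split M p M') {A A' : Type*} [CommRing A]
  [CommRing A'] [Algebra A A'] {V : Type*} [AddCommGroup V] [Module A' V] [Module A V]
  [IsScalarTower A A' V] {τ : Representation A' (GL (Fin 2) (ZMod M)) V}

theorem fac_resRep (hτ : Fac h τ) : Fac h (resRep (A := A) τ) := fun g hg =>
  LinearMap.ext fun v => LinearMap.congr_fun (hτ g hg) v

/-- `Wp` does not see the scalars -/
theorem resH_Wp (hτ : Fac h τ) (x : H1 (resRep (A := A) (pRep (p := p) τ))) :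
    Wp h τ hτ (resH (pRep (p := p) τ) x) =
      resH (pRep (p := p) τ) (Wp h (resRep (A := A) τ) (fac_resRep h hτ) x) := by
  classical
  haveI : Fact p.Prime := ⟨h.prime⟩
  obtain ⟨f, rfl⟩ := Submodule.mkQ_surjective _ x
  rw [Wp_eq, Wp_eq]
  refine congrArg (H1.mk (pRep (p := p) τ)) (Subtype.ext (funext fun γ => ?_))
  show ∑ i, kerW h τ (stdMat p i) (f.1 ((Fam.ofReps (stdReps p)).elt γ i)) =
    ∑ i, kerW h (resRep (A := A) τ) (stdMat p i) (f.1 ((Fam.ofReps (stdReps p)).elt γ i))
  refine Finset.sum_congr rfl fun i _ => funext fun z => ?_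
  rw [kerW_apply, kerW_apply]
  rfl

/-- the sum does not see the scalars -/
theorem resH_pushPt (x : H1 (resRep (A := A) (pRep (p := p) τ))) :
    LL.map (isTwist_pushPt (p := p) τ) (resH (pRep (p := p) τ) x) =
      resH τ (LL.map (isTwist_pushPt (p := p) (resRep (A := A) τ)) x) := by
  haveI : Fintype (P1 M p) := Fintype.ofFinite _
  obtain ⟨f, rfl⟩ := Submodule.mkQ_surjective _ x
  refine congrArg (H1.mk τ) (Subtype.ext (funext fun γ => ?_))
  show pushPt (A := A') (f.1 γ) = pushPt (A := A) (f.1 γ)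
  rw [pushPt_apply, pushPt_apply]

/-- the sums do not see the scalars -/
theorem resH_degP (hτ : Fac h τ) (x : H1 (resRep (A := A) (pRep (p := p) τ))) :
    degP h τ hτ (resH (pRep (p := p) τ) x) =
      (resH τ (degP h (resRep (A := A) τ) (fac_resRep h hτ) x).1,
        resH τ (degP h (resRep (A := A) τ) (fac_resRep h hτ) x).2) := by
  refine Prod.ext (resH_pushPt x) ?_
  show LL.map (isTwist_pushPt (p := p) τ) (Wp h τ hτ (resH (pRep (p := p) τ) x)) = _
  rw [resH_Wp]
  exact resH_pushPt _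

variable [IsLocalRing A] [IsLocalRing A']

theorem resH_mem_E_iff (hσ : Function.Surjective (algebraMap A A')) (s : Sys M A)
    (x : H1 (resRep (A := A) τ)) :
    resH τ x ∈ (sysMap A' s).E τ ↔ x ∈ s.E (resRep (A := A) τ) := by
  haveI : IsLocalHom (algebraMap A A') := hσ.isLocalHom _
  exact ⟨mem_E_of_resH τ hσ s, resH_mem_E τ s⟩

/-- bijectivity of the sums does not see the scalars -/
theorem degE_bijective_res (hσ : Function.Surjective (algebraMap A A')) (hτ : Fac h τ)
    (s : Sys M A) (s' : Sys M A') (hs : sysMap A' s = s')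
    (key : Function.Bijective (degE h (resRep (A := A) τ) (fac_resRep h hτ) s)) :
    Function.Bijective (degE h τ hτ s') := by
  subst hs
  constructor
  · refine (injective_iff_map_eq_zero _).2 fun x hx => Subtype.ext ?_
    obtain ⟨y, hy⟩ := (resH (A := A) (pRep (p := p) τ)).surjective x.1
    have hyE : y ∈ s.E (resRep (A := A) (pRep (p := p) τ)) :=
      (resH_mem_E_iff hσ s y).1 (hy ▸ x.2)
    have h0 := (degE_eq_zero_iff h τ hτ _ x).1 hx
    rw [← hy, resH_degP h hτ] at h0
    have hz : degE h (resRep (A := A) τ) (fac_resRep h hτ) s ⟨y, hyE⟩ = 0 :=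
      (degE_eq_zero_iff h _ _ _ _).2 (Prod.ext
        ((LinearEquiv.map_eq_zero_iff _).1 (congrArg Prod.fst h0))
        ((LinearEquiv.map_eq_zero_iff _).1 (congrArg Prod.snd h0)))
    rw [← hy, show y = 0 from congrArg Subtype.val (key.1 (hz.trans (map_zero _).symm)), map_zero]
    rfl
  · rintro ⟨a, c⟩
    obtain ⟨a', ha'⟩ := (resH (A := A) τ).surjective a.1
    obtain ⟨c', hc'⟩ := (resH (A := A) τ).surjective c.1
    obtain ⟨⟨y, hyE⟩, hy⟩ :=
      key.2 (⟨a', (resH_mem_E_iff hσ s a').1 (ha' ▸ a.2)⟩,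
        ⟨c', (resH_mem_E_iff hσ s c').1 (hc' ▸ c.2)⟩)
    have e1 : (degP h (resRep (A := A) τ) (fac_resRep h hτ) y).1 = a' :=
      congrArg (Subtype.val ∘ Prod.fst) hy
    have e2 : (degP h (resRep (A := A) τ) (fac_resRep h hτ) y).2 = c' :=
      congrArg (Subtype.val ∘ Prod.snd) hy
    have e := resH_degP h hτ y
    rw [e1, e2, ha', hc'] at e
    refine ⟨⟨resH (A := A) (pRep (p := p) τ) y,
      (resH_mem_E_iff (τ := pRep (p := p) τ) hσ s y).2 hyE⟩,
      Prod.ext (Subtype.ext ?_) (Subtype.ext ?_)⟩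
    · exact (congrArg Prod.fst (coe_degE h τ hτ _ _)).trans (congrArg Prod.fst e)
    · exact (congrArg Prod.snd (coe_degE h τ hτ _ _)).trans (congrArg Prod.snd e)

end Res

section Reflect

variable {M : ℕ} [NeZero M] {A : Type*} [CommRing A] [IsLocalRing A] [IsNoetherianRing A]
  [IsAdicComplete (maximalIdeal A) A] {V V' : Type*} [AddCommGroup V] [Module A V]
  [AddCommGroup V'] [Module A V'] [Module.Finite A V] [Module.Finite A V'] [Finite V]
  {τ : Representation A (GL (Fin 2) (ZMod M)) V} {τ' : Representation A (GL (Fin 2) (ZMod M)) V'}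

/-- a part is in another as soon as its image under an injective map of coefficients is -/
theorem le_E_of_map (s s' : Sys M A) {Φ : V →ₗ[A] V'} (h : IsTwist τ τ' 1 Φ)
    (hi : Function.Injective Φ) {n : ℕ}
    (hkill : (maximalIdeal A) ^ n • (⊤ : Submodule A (H1 τ')) = ⊥)
    (hall : ∀ y ∈ s.E τ, LL.map h y ∈ s'.E τ') : s.E τ ≤ s'.E τ := by
  haveI : Finite (H1 τ) := by
    haveI : Finite (Z1 τ) := Finite.of_injective
      (fun f : Z1 τ => (f.1 ModularGroup.S, f.1 Periods.eltU))
      fun f f' e => Z1_ext (congrArg Prod.fst e) (congrArg Prod.snd e)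
    exact Finite.of_surjective _ (Submodule.mkQ_surjective (B1 τ))
  intro x hx
  rw [Sys.mem_E_iff]
  constructor
  · rw [unitPart, Submodule.mem_iInf]
    intro k
    have hmem : ∀ y ∈ s.E τ, s'.eta τ y ∈ s.E τ := fun y hy => by
      rw [Sys.eta, LinearMap.sub_apply, LinearMap.smul_apply, Module.End.one_apply]
      exact sub_mem (s.T_mem_E _ _ hy) (Submodule.smul_mem _ _ hy)
    have hinj : Function.Injective ((s'.eta τ).restrict hmem) := by
      refine (injective_iff_map_eq_zero _).2 fun y hy => Subtype.ext ?_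
      refine s.eq_zero_of_map_eq_zero h hi y.2 ?_
      haveI := H1_finite τ'
      refine Fitting.injOn (s'.eta τ') ((Sys.mem_E_iff s').1 (hall _ y.2)).1 ?_
      rw [← map_eta s' h]
      show LL.map h (s'.eta τ y.1) = 0
      rw [show s'.eta τ y.1 = 0 from congrArg Subtype.val hy, map_zero]
    have hsurj := (Finite.surjective_of_injective hinj).iterate k
    obtain ⟨y, hy⟩ := hsurj ⟨x, hx⟩
    refine ⟨y.1, ?_⟩
    rw [← Module.End.coe_pow, Module.End.pow_restrict k] at hy
    exact congrArg Subtype.val hy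
  · intro l hl hlM hb m
    obtain ⟨k, hk⟩ := ((Sys.mem_E_iff s').1 (hall x hx)).2 l hl hlM hb n
    refine ⟨k, ?_⟩
    rw [hkill, Submodule.mem_bot,
      ← pow_sub_apply (LL.map h) (fun z => map_T_one h hl hlM z)] at hk
    rw [s.eq_zero_of_map_eq_zero h hi ?_ hk]
    · exact zero_mem _
    · refine Module.End.pow_apply_mem_of_forall_mem k (fun y hy => ?_) x hx
      rw [LinearMap.sub_apply, LinearMap.smul_apply, Module.End.one_apply]
      exact sub_mem (s.T_mem_E _ _ hy) (Submodule.smul_mem _ _ hy)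

end Reflect

variable {W : WeierstrassCurve ℤ} {hW : IsAnchor W} {B : Base W} {N : ℕ} (K : Aux hW B N)
  {M : ℕ} [NeZero M] (hM : K.lev ∣ M)

theorem two_pow_lam : (2 : Z2) ^ (N + 1) • (1 : Lam N) = 0 := by
  rw [Algebra.smul_def, mul_one, map_pow, map_ofNat]
  exact_mod_cast ZMod.natCast_self (2 ^ (N + 1))

theorem smul_eq_zero_of_lam {V : Type*} [AddCommGroup V] [Module (Lam N) V] [Module Z2 V]
    [IsScalarTower Z2 (Lam N) V] (v : V) : (2 : Z2) ^ (N + 1) • v = 0 := by
  rw [← one_smul (Lam N) v, ← smul_assoc, two_pow_lam, zero_smul]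

/-- classes with coefficients killed by a power of two are killed by it -/
theorem smul_H1_eq_zero {V : Type*} [AddCommGroup V] [Module (Lam N) V] [Module Z2 V]
    [IsScalarTower Z2 (Lam N) V] {τ : Representation Z2 (GL (Fin 2) (ZMod M)) V}
    (z : H1 τ) : (2 : Z2) ^ (N + 1) • z = 0 := by
  obtain ⟨f, rfl⟩ := Submodule.mkQ_surjective _ z
  rw [← map_smul, show (2 : Z2) ^ (N + 1) • f = 0 from
    Subtype.ext (funext fun γ => smul_eq_zero_of_lam (N := N) _), map_zero]

/-- functions on lines with values in the functions on pairs of lines -/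
abbrev cR (b : ℕ) : Representation (Lam N) (GL (Fin 2) (ZMod M))
    (P1 M b → PUnit.{1} × (kset K hM).PP → Lam N) :=
  funTensor (tP K hM (Lam N)) (P1 M b)

/-- reduction onto the new coefficient module -/
def redW : (PUnit.{1} × (kset K hM).PP → Z2) →ₗ[Z2] WCar K hM :=
  ((kset K hM).jpT (Lam N) PUnit.{1}).rangeRestrict.restrictScalars Z2 ∘ₗ
    funExt Z2 (Lam N) (PUnit.{1} × (kset K hM).PP)

theorem isTwist_redW : IsTwist (tP K hM Z2) (resRep (A := Z2) (tW K hM)) 1 (redW K hM) :=
  fun g F => by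
  rw [MonoidHom.one_apply, one_smul]
  have h2 := (kset K hM).isTwist_jpT (Lam N) PUnit.{1} g
    (funExt Z2 (Lam N) (PUnit.{1} × (kset K hM).PP) F)
  rw [MonoidHom.one_apply, one_smul] at h2
  exact Subtype.ext h2

theorem redW_surjective : Function.Surjective (redW K hM) := by
  rintro ⟨_, G, rfl⟩
  obtain ⟨F, hF⟩ := funExt_surjective Z2 (Lam N) _ (algebraMap_surjective N) G
  exact ⟨F, Subtype.ext (congrArg ((kset K hM).jpT (Lam N) PUnit.{1}) hF)⟩

theorem funExt_pT (F : PUnit.{1} × (kset K hM).PP → Z2) :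
    funExt Z2 (Lam N) (PUnit.{1} × (kset K hM).YY) ((kset K hM).pT Z2 PUnit.{1} F) =
      (kset K hM).pT (Lam N) PUnit.{1} (funExt Z2 (Lam N) _ F) := by
  classical
  funext z
  show algebraMap Z2 (Lam N) (funKer _ F z) = funKer _ (fun x => algebraMap Z2 (Lam N) (F x)) z
  rw [funKer_apply, funKer_apply, map_sum]
  refine Finset.sum_congr rfl fun x _ => ?_
  rw [map_mul]
  congr 1
  simp only [tens, pK, jK, map_mul, map_prod, map_sub, apply_ite (algebraMap Z2 (Lam N)), map_one,
    map_zero]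

theorem coe_redW (F : PUnit.{1} × (kset K hM).PP → Z2) :
    (redW K hM F).1 = redJVal K hM ((kset K hM).pT Z2 PUnit.{1} F) := by
  show (kset K hM).jT (Lam N) PUnit.{1} ((kset K hM).pT (Lam N) PUnit.{1} _) =
    (kset K hM).jT (Lam N) PUnit.{1} (funExt Z2 (Lam N) _ _)
  rw [funExt_pT]

variable (b : ℕ)

theorem isTwist_gLine : IsTwist (cY K hM b) (resRep (A := Z2) (cR K hM b)) 1
    ((redJVal K hM).compLeft (P1 M b)) := isTwist_compLeft _ (isTwist_redJVal K hM)

theorem isTwist_iLine : IsTwist (resRep (A := Z2) (cW K hM b)) (resRep (A := Z2) (cR K hM b)) 1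
    (((WCar K hM).subtype.restrictScalars Z2).compLeft (P1 M b)) := fun g F => by
  rw [MonoidHom.one_apply, one_smul]
  rfl

variable {b} (d : SysData hW M) (hb : LineLev K M b)

include hb in
/-- classes come from classes on lines -/
theorem exists_lift_line {x : H1 (resRep (A := Z2) (cW K hM b))}
    (hx : x ∈ (d.sys Z2).E (resRep (A := Z2) (cW K hM b))) :
    ∃ w ∈ (d.sys Z2).E (cY K hM b),
      LL.map (isTwist_gLine K hM b) w = LL.map (isTwist_iLine K hM b) x := by
  have hψ : IsTwist (funTensor (tP K hM Z2) (P1 M b)) (cY K hM b) 1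
      (((kset K hM).pT Z2 PUnit.{1}).compLeft (P1 M b)) :=
    isTwist_compLeft _ ((kset K hM).isTwist_pT Z2 PUnit.{1})
  have hΦ : IsTwist (funTensor (tP K hM Z2) (P1 M b)) (resRep (A := Z2) (cW K hM b)) 1
      ((redW K hM).compLeft (P1 M b)) := isTwist_compLeft _ (isTwist_redW K hM)
  obtain ⟨w, hw, rfl⟩ := Coh.exists_mem_E_map_eq (d.sys Z2)
    (funTensor_neg_one (neg_one_tP K hM Z2) fun y => P1.red_neg_one_smul y)
    (isUnit_three (by rw [PadicInt.maximalIdeal_eq_span_p]; exact Ideal.mem_span_singleton_self _))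
    hΦ (fun _ => by simp)
    (fun G => by
      choose F hF using fun y => redW_surjective K hM (G y)
      exact ⟨F, funext hF⟩)
    (sFree_resRep _ (sFree_cW hM hb)) hx
  refine ⟨LL.map hψ w, (d.sys Z2).map_mem_E hψ (fun _ => by simp) hw, ?_⟩
  obtain ⟨f, rfl⟩ := Submodule.mkQ_surjective _ w
  exact congrArg (H1.mk (resRep (A := Z2) (cR K hM b)))
    (Subtype.ext (funext fun γ => funext fun y => (coe_redW K hM (f.1 γ y)).symm))

include hb in
/-- classes on lines at a prime come from classes on lines -/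
theorem exists_lift_lineP {p : ℕ}
    {x : H1 (pRep (p := p) (resRep (A := Z2) (cW K hM b)))}
    (hx : x ∈ (d.sys Z2).E (pRep (p := p) (resRep (A := Z2) (cW K hM b)))) :
    ∃ w ∈ (d.sys Z2).E (pRep (p := p) (cY K hM b)),
      LL.map (isTwist_postcomp (cY K hM b) (isTwist_gLine K hM b)) w =
        LL.map (isTwist_postcomp (resRep (A := Z2) (cW K hM b)) (isTwist_iLine K hM b)) x := by
  have hψ : IsTwist (pRep (p := p) (funTensor (tP K hM Z2) (P1 M b))) (pRep (p := p) (cY K hM b)) 1
      ((((kset K hM).pT Z2 PUnit.{1}).compLeft (P1 M b)).compLeft (P1 M p)) :=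
    isTwist_postcomp _ (isTwist_compLeft _ ((kset K hM).isTwist_pT Z2 PUnit.{1}))
  have hΦ : IsTwist (pRep (p := p) (funTensor (tP K hM Z2) (P1 M b)))
      (pRep (p := p) (resRep (A := Z2) (cW K hM b))) 1
      (((redW K hM).compLeft (P1 M b)).compLeft (P1 M p)) :=
    isTwist_postcomp _ (isTwist_compLeft _ (isTwist_redW K hM))
  obtain ⟨w, hw, rfl⟩ := Coh.exists_mem_E_map_eq (d.sys Z2)
    (pRep_neg_one (funTensor_neg_one (neg_one_tP K hM Z2) fun y => P1.red_neg_one_smul y))
    (isUnit_three (by rw [PadicInt.maximalIdeal_eq_span_p]; exact Ideal.mem_span_singleton_self _))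
    hΦ (fun _ => by simp)
    (fun G => by
      choose F hF using fun a y => redW_surjective K hM (G a y)
      exact ⟨F, funext fun a => funext (hF a)⟩)
    (sFree_funTensor_of_sFree (sFree_resRep _ (sFree_cW hM hb))
      fun y => P1.red_neg_one_smul y) hx
  refine ⟨LL.map hψ w, (d.sys Z2).map_mem_E hψ (fun _ => by simp) hw, ?_⟩
  obtain ⟨f, rfl⟩ := Submodule.mkQ_surjective _ w
  exact congrArg (H1.mk (pRep (p := p) (resRep (A := Z2) (cR K hM b))))
    (Subtype.ext (funext fun γ => funext fun a => funext fun y =>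
      (coe_redW K hM (f.1 γ a y)).symm))

include hb in
/-- the two sums are bijective at a good prime with odd eigenvalue -/
theorem degE_cW_bijective {p M' : ℕ} [NeZero M'] (h : Split M p M') (hpq : ∀ i, K.q i ≠ p)
    (hpb : ¬ p ∣ b) (hp2 : p ≠ 2) (hgood : ¬ (p : ℤ) ∣ W.Δ) (hodd : Odd (W.apOfModel p))
    (hpS : p ∈ d.S) :
    Function.Bijective (degE h (cW K hM b) (facCW hM h hpq hb.dvd hpb) (d.sys (Lam N))) := by
  have h2 : (2 : Z2) ∈ maximalIdeal Z2 := by
    rw [PadicInt.maximalIdeal_eq_span_p]; exact Ideal.mem_span_singleton_self _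
  have ha : IsUnit (W.apOfModel p : Z2) := by
    obtain ⟨j, hj⟩ := hodd
    rw [← IsLocalRing.notMem_maximalIdeal, hj, Int.cast_add, Int.cast_mul, Int.cast_ofNat,
      Int.cast_one]
    intro hm
    refine (maximalIdeal.isMaximal Z2).ne_top ((Ideal.eq_top_iff_one _).2 ?_)
    simpa using sub_mem hm (Ideal.mul_mem_right (j : Z2) _ h2)
  have hYR : Fac h (resRep (A := Z2) (cR K hM b)) :=
    fac_resRep h (fac_funTensor h (fac_tP K hM h hpq (Lam N)) fun _ hg y =>
      smul_p1_of_gl_one h.dvd' (dvd_of_split h hb.dvd hpb) hg y)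
  have key := degE_bijective_transfer h (d.sys Z2) (facLine hM h hpq hb.dvd hpb)
    (fac_resRep h (facCW hM h hpq hb.dvd hpb)) hYR (isTwist_gLine K hM b) (isTwist_iLine K hM b)
    (fun F F' hF => funext fun y => Subtype.ext (congrFun hF y)) h2
    (h.prime.odd_of_ne_two hp2) ha h2 (n := N + 1) (smul_H1_eq_zero (N := N))
    (fun y hy m => line_nil hM h hpq d hp2 hgood hpS hb hpb hy m)
    (fun w hw h0 => line_inj hM h hpq d hp2 hgood hb hpb hodd hw h0)
    (fun x hx => exists_lift_line K hM d hb hx) fun x hx => exists_lift_lineP K hM d hb hx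
  exact degE_bijective_res h (algebraMap_surjective N) (facCW hM h hpq hb.dvd hpb) (d.sys Z2)
    (d.sys (Lam N)) (d.sysMap_sys Z2 (Lam N)) key

include hb in
/-- the part does not depend on the data of the system -/
theorem cW_E_le (d d' : SysData hW M) (hd : d.l0 ≠ 2) (hd' : d'.l0 ≠ 2) :
    (d.sys (Lam N)).E (cW K hM b) ≤ (d'.sys (Lam N)).E (cW K hM b) := by
  have hσ := algebraMap_surjective N
  haveI : IsLocalHom (algebraMap Z2 (Lam N)) := hσ.isLocalHom _
  intro x hx
  rw [← SysData.sysMap_sys d Z2 (Lam N)] at hx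
  rw [← SysData.sysMap_sys d' Z2 (Lam N), ← (resH (A := Z2) (cW K hM b)).apply_symm_apply x]
  refine resH_mem_E _ _ (le_E_of_map (d.sys Z2) (d'.sys Z2) (isTwist_iLine K hM b)
    (fun F F' hF => funext fun y => Subtype.ext (congrFun hF y)) (n := N + 1) ?_ (fun y hy => ?_)
    (mem_E_of_resH _ hσ _ (by rwa [LinearEquiv.apply_symm_apply])))
  · rw [eq_bot_iff, PadicInt.maximalIdeal_eq_span_p, Ideal.span_singleton_pow,
      Submodule.ideal_span_singleton_smul]
    rintro _ ⟨z, -, rfl⟩
    rw [Submodule.mem_bot]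
    exact smul_H1_eq_zero (N := N) z
  · obtain ⟨w, hw, e⟩ := exists_lift_line K hM d hb hy
    obtain ⟨u, v, hu, hv, hvu⟩ := exists_lineMaps hM hb
    have hw' := (d.sys Z2).map_mem_E hu (fun _ => by simp) hw
    rw [← sys_E_eq d (lineData hM hb) (hb.good_lineData hM d _ rfl) d' hd' hd] at hw'
    have hw2 := (d'.sys Z2).map_mem_E hv (fun _ => by simp) hw'
    rw [show LL.map hv (LL.map hu w) = w from ?_] at hw2
    · rw [← e]
      exact (d'.sys Z2).map_mem_E _ (fun _ => by simp) hw2
    · obtain ⟨f, rfl⟩ := Submodule.mkQ_surjective _ w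
      exact congrArg (H1.mk (cY K hM b)) (Subtype.ext (funext fun γ => hvu _))

end Down

end FLTAgent.R2.Lv

end
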