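import Fermat.Agent.LL.CohAPI

/-!
Area R2, parcel G: correspondences on cohomology with arbitrary coefficient maps.

A `Fam` is a finite family of integral matrices with right action of `SL(2, ℤ)` up to left
multiplication.  A kernel on a family is a family of linear maps of the coefficients compatible
with that action; it gives a map on `H1`.  A kernel given as a biequivariant function of matrices
(`IsMatKer`) gives the same map on every complete set of representatives of the determinant.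
-/

set_option autoImplicit false
set_option linter.style.haveILetI false
set_option linter.unusedSectionVars false

noncomputable section

open scoped MatrixGroups
open Matrix

namespace FLTAgent.R2.Lv

open FLTAgent.LL

/-- finitely many matrices permuted by right multiplication up to the left action of `SL(2, ℤ)` -/
structure Fam (ι : Type) [Fintype ι] where
  rep : ι → Matrix (Fin 2) (Fin 2) ℤ
  det_ne : ∀ i, (rep i).det ≠ 0
  idx : SL(2, ℤ) → ι → ι
  elt : SL(2, ℤ) → ι → SL(2, ℤ)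
  rep_mul : ∀ (g : SL(2, ℤ)) (i : ι), rep i * (g : Matrix (Fin 2) (Fin 2) ℤ) =
    (elt g i : Matrix (Fin 2) (Fin 2) ℤ) * rep (idx g i)
  idx_mul : ∀ g h i, idx (g * h) i = idx h (idx g i)
  idx_one : ∀ i, idx 1 i = i

theorem mul_right_cancel_det {m a b : Matrix (Fin 2) (Fin 2) ℤ} (hm : m.det ≠ 0)
    (h : a * m = b * m) : a = b := by
  have h2 := congrArg (· * m.adjugate) h
  simp only [mul_assoc, Matrix.mul_adjugate, Matrix.mul_smul, mul_one] at h2
  exact smul_right_injective _ hm h2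

namespace Fam

variable {ι : Type} [Fintype ι] (F : Fam ι)

theorem elt_eq {g γ : SL(2, ℤ)} {i : ι}
    (h : F.rep i * (g : Matrix (Fin 2) (Fin 2) ℤ) =
      (γ : Matrix (Fin 2) (Fin 2) ℤ) * F.rep (F.idx g i)) : F.elt g i = γ :=
  Subtype.ext (mul_right_cancel_det (F.det_ne _) ((F.rep_mul g i).symm.trans h))

theorem elt_mul (g h : SL(2, ℤ)) (i : ι) :
    F.elt (g * h) i = F.elt g i * F.elt h (F.idx g i) := by
  refine F.elt_eq ?_
  rw [Matrix.SpecialLinearGroup.coe_mul, Matrix.SpecialLinearGroup.coe_mul, ← mul_assoc,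
    F.rep_mul, mul_assoc, F.rep_mul, ← mul_assoc, F.idx_mul]

theorem elt_one (i : ι) : F.elt 1 i = 1 :=
  F.elt_eq (by rw [F.idx_one, Matrix.SpecialLinearGroup.coe_one, one_mul, mul_one])

/-- the permutation of a group element -/
def perm (g : SL(2, ℤ)) : ι ≃ ι where
  toFun := F.idx g
  invFun := F.idx g⁻¹
  left_inv i := by rw [← F.idx_mul, mul_inv_cancel, F.idx_one]
  right_inv i := by rw [← F.idx_mul, inv_mul_cancel, F.idx_one]

theorem perm_apply (g : SL(2, ℤ)) (i : ι) : F.perm g i = F.idx g i := rfl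

/-- a complete set of representatives -/
def ofReps {n : ℕ} (R : Reps n ι) : Fam ι where
  rep := R.rep
  det_ne i := by rw [R.det_rep]; exact Int.natCast_ne_zero.mpr R.pos.ne'
  idx := R.idx
  elt := R.elt
  rep_mul := R.rep_mul
  idx_mul := R.idx_mul
  idx_one := R.idx_one

/-- the composite: `F` inside, `G` outside -/
def comp {κ : Type} [Fintype κ] (G : Fam κ) : Fam (ι × κ) where
  rep x := F.rep x.1 * G.rep x.2
  det_ne x := by rw [Matrix.det_mul]; exact mul_ne_zero (F.det_ne _) (G.det_ne _)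
  idx g x := (F.idx (G.elt g x.2) x.1, G.idx g x.2)
  elt g x := F.elt (G.elt g x.2) x.1
  rep_mul g x := by
    rw [mul_assoc, G.rep_mul, ← mul_assoc, F.rep_mul, mul_assoc]
  idx_mul g h x := by simp only [G.elt_mul, F.idx_mul, G.idx_mul]
  idx_one x := by simp only [G.elt_one, F.idx_one, G.idx_one]

end Fam

variable {M : ℕ} {A : Type*} [CommRing A] {V V' V'' : Type*}
  [AddCommGroup V] [Module A V] [AddCommGroup V'] [Module A V'] [AddCommGroup V''] [Module A V'']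
  {ρ : Representation A (GL (Fin 2) (ZMod M)) V}
  {ρ' : Representation A (GL (Fin 2) (ZMod M)) V'}
  {ρ'' : Representation A (GL (Fin 2) (ZMod M)) V''}

variable (ρ ρ') in
/-- coefficient maps compatible with a family -/
def IsKer {ι : Type} [Fintype ι] (F : Fam ι) (Φ : ι → V →ₗ[A] V') : Prop :=
  ∀ g i v, Φ i (ρ (red M (F.elt g i)) v) = ρ' (red M g) (Φ (F.idx g i) v)

section Op

variable {ι : Type} [Fintype ι] {F : Fam ι} {Φ : ι → V →ₗ[A] V'}

/-- the correspondence on crossed homomorphisms -/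
def opZ (hΦ : IsKer ρ ρ' F Φ) : Z1 ρ →ₗ[A] Z1 ρ' where
  toFun f := ⟨fun g => ∑ i, Φ i (f.1 (F.elt g i)), fun g h => by
    dsimp only
    rw [map_sum, ← Equiv.sum_comp (F.perm g) (fun i => ρ' (red M g) (Φ i (f.1 (F.elt h i)))),
      ← Finset.sum_add_distrib]
    refine Finset.sum_congr rfl fun i _ => ?_
    rw [F.elt_mul, Z1_apply_mul ρ f.2, _root_.map_add, hΦ, F.perm_apply]⟩
  map_add' f f' := by
    ext g
    simp [Finset.sum_add_distrib]
  map_smul' c f := by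
    ext g
    simp [Finset.smul_sum]

theorem opZ_apply (hΦ : IsKer ρ ρ' F Φ) (f : Z1 ρ) (g : SL(2, ℤ)) :
    (opZ hΦ f).1 g = ∑ i, Φ i (f.1 (F.elt g i)) := rfl

theorem opZ_coboundary (hΦ : IsKer ρ ρ' F Φ) (v : V) :
    opZ hΦ (coboundary ρ v) = coboundary ρ' (∑ i, Φ i v) := by
  ext g
  rw [opZ_apply, coboundary_apply, map_sum]
  simp only [coboundary_apply, map_sub, Finset.sum_sub_distrib]
  congr 1
  rw [← Equiv.sum_comp (F.perm g) (fun i => ρ' (red M g) (Φ i v))]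
  exact Finset.sum_congr rfl fun i _ => by rw [hΦ, F.perm_apply]

/-- the correspondence on cohomology -/
def opH (hΦ : IsKer ρ ρ' F Φ) : H1 ρ →ₗ[A] H1 ρ' :=
  Submodule.mapQ _ _ (opZ hΦ) (by
    rintro _ ⟨v, rfl⟩
    exact ⟨_, (opZ_coboundary hΦ v).symm⟩)

theorem opH_mk (hΦ : IsKer ρ ρ' F Φ) (f : Z1 ρ) :
    opH hΦ (H1.mk ρ f) = H1.mk ρ' (opZ hΦ f) := rfl

/-- composition -/
theorem IsKer.comp {κ : Type} [Fintype κ] {G : Fam κ} {Ψ : κ → V' →ₗ[A] V''}
    (hΦ : IsKer ρ ρ' F Φ) (hΨ : IsKer ρ' ρ'' G Ψ) :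
    IsKer ρ ρ'' (F.comp G) fun x => Ψ x.2 ∘ₗ Φ x.1 := fun g x v => by
  simp only [Fam.comp, LinearMap.comp_apply]
  rw [hΦ, hΨ]

theorem opH_comp {κ : Type} [Fintype κ] {G : Fam κ} {Ψ : κ → V' →ₗ[A] V''}
    (hΦ : IsKer ρ ρ' F Φ) (hΨ : IsKer ρ' ρ'' G Ψ) :
    opH (hΦ.comp hΨ) = opH hΨ ∘ₗ opH hΦ := by
  refine LinearMap.ext fun x => ?_
  obtain ⟨f, rfl⟩ := Submodule.mkQ_surjective _ x
  refine congrArg (H1.mk ρ'') (Subtype.ext (funext fun g => ?_))
  simp only [opZ_apply, map_sum, Fintype.sum_prod_type_right, LinearMap.comp_apply]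
  rfl

/-- a map of coefficients after a correspondence -/
theorem IsKer.map_left {Ψ : V' →ₗ[A] V''} (hΦ : IsKer ρ ρ' F Φ) (h : IsTwist ρ' ρ'' 1 Ψ) :
    IsKer ρ ρ'' F fun i => Ψ ∘ₗ Φ i := fun g i v => by
  rw [LinearMap.comp_apply, LinearMap.comp_apply, hΦ, h.apply_red]

theorem map_opH {Ψ : V' →ₗ[A] V''} (hΦ : IsKer ρ ρ' F Φ) (h : IsTwist ρ' ρ'' 1 Ψ) (x : H1 ρ) :
    map h (opH hΦ x) = opH (hΦ.map_left h) x := by
  obtain ⟨f, rfl⟩ := Submodule.mkQ_surjective _ x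
  refine congrArg (H1.mk ρ'') (Subtype.ext (funext fun g => ?_))
  rw [mapZ_apply, opZ_apply, opZ_apply, map_sum]
  rfl

/-- a map of coefficients before a correspondence -/
theorem IsKer.map_right {Θ : V →ₗ[A] V'} {Φ' : ι → V' →ₗ[A] V''}
    (h : IsTwist ρ ρ' 1 Θ) (hΦ : IsKer ρ' ρ'' F Φ') : IsKer ρ ρ'' F fun i => Φ' i ∘ₗ Θ :=
  fun g i v => by rw [LinearMap.comp_apply, LinearMap.comp_apply, h.apply_red, hΦ]

theorem opH_map {Θ : V →ₗ[A] V'} {Φ' : ι → V' →ₗ[A] V''} (h : IsTwist ρ ρ' 1 Θ)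
    (hΦ : IsKer ρ' ρ'' F Φ') (x : H1 ρ) :
    opH hΦ (map h x) = opH (IsKer.map_right h hΦ) x := by
  obtain ⟨f, rfl⟩ := Submodule.mkQ_surjective _ x
  exact congrArg (H1.mk ρ'') (Subtype.ext (funext fun g => by
    rw [opZ_apply, opZ_apply]; rfl))

/-- equal kernels -/
theorem opH_congr {Φ' : ι → V →ₗ[A] V'} (hΦ : IsKer ρ ρ' F Φ) (hΦ' : IsKer ρ ρ' F Φ')
    (h : ∀ i v, Φ i v = Φ' i v) : opH hΦ = opH hΦ' := by
  obtain rfl : Φ = Φ' := funext fun i => LinearMap.ext (h i)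
  rfl

/-- kernels add -/
theorem opH_add {Φ' : ι → V →ₗ[A] V'} (hΦ : IsKer ρ ρ' F Φ) (hΦ' : IsKer ρ ρ' F Φ')
    (hsum : IsKer ρ ρ' F (Φ + Φ')) : opH hsum = opH hΦ + opH hΦ' := by
  refine LinearMap.ext fun x => ?_
  obtain ⟨f, rfl⟩ := Submodule.mkQ_surjective _ x
  refine congrArg (H1.mk ρ') (Subtype.ext (funext fun g => ?_))
  simp [opZ_apply, Finset.sum_add_distrib]

/-- change of representatives -/
theorem opH_equiv {κ : Type} [Fintype κ] {G : Fam κ} {Ψ : κ → V →ₗ[A] V'}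
    (hΦ : IsKer ρ ρ' F Φ) (hΨ : IsKer ρ ρ' G Ψ) (τ : ι ≃ κ)
    (hτ : ∀ g i, τ (F.idx g i) = G.idx g (τ i)) (u : ι → SL(2, ℤ)) {c c' : ℤ} (hc' : c' ≠ 0)
    (hrep : ∀ i, c' • G.rep (τ i) = c • ((u i : Matrix (Fin 2) (Fin 2) ℤ) * F.rep i))
    (hker : ∀ i v, Ψ (τ i) (ρ (red M (u i)) v) = Φ i v) :
    opH hΦ = opH hΨ := by
  have helt : ∀ g i, G.elt g (τ i) * u (F.idx g i) = u i * F.elt g i := by
    intro g i
    have hc : c ≠ 0 := fun h0 => by
      have h1 := congrArg Matrix.det (hrep i)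
      rw [h0, zero_smul, Matrix.det_smul, Matrix.det_zero] at h1
      exact mul_ne_zero (pow_ne_zero _ hc') (G.det_ne _) h1
    refine Subtype.ext (mul_right_cancel_det (F.det_ne (F.idx g i))
      (smul_right_injective _ hc ?_))
    show c • _ = c • _
    rw [Matrix.SpecialLinearGroup.coe_mul, Matrix.SpecialLinearGroup.coe_mul, mul_assoc,
      ← Matrix.mul_smul, ← hrep, hτ, Matrix.mul_smul, ← G.rep_mul, ← Matrix.smul_mul, hrep,
      Matrix.smul_mul, mul_assoc, F.rep_mul, mul_assoc]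
  refine LinearMap.ext fun x => ?_
  obtain ⟨f, rfl⟩ := Submodule.mkQ_surjective _ x
  show H1.mk ρ' (opZ hΦ f) = H1.mk ρ' (opZ hΨ f)
  rw [Submodule.mkQ_apply, Submodule.mkQ_apply, Submodule.Quotient.eq]
  refine ⟨∑ i, Ψ (τ i) (f.1 (u i)), Subtype.ext (funext fun g => ?_)⟩
  rw [coboundary_apply, Submodule.coe_sub, Pi.sub_apply, opZ_apply, opZ_apply,
    ← Equiv.sum_comp τ (fun j => Ψ j (f.1 (G.elt g j)))]
  have key : ∀ i, Ψ (τ i) (f.1 (G.elt g (τ i))) = Ψ (τ i) (f.1 (u i)) + Φ i (f.1 (F.elt g i)) -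
      ρ' (red M g) (Ψ (τ (F.idx g i)) (f.1 (u (F.idx g i)))) := by
    intro i
    have e := congrArg f.1 (helt g i)
    rw [Z1_apply_mul ρ f.2, Z1_apply_mul ρ f.2] at e
    have e' := congrArg (Ψ (τ i)) e
    rw [_root_.map_add, _root_.map_add, hker, hΨ, ← hτ] at e'
    exact eq_sub_of_add_eq e'
  simp only [key, Finset.sum_sub_distrib, Finset.sum_add_distrib, map_sum]
  rw [← Equiv.sum_comp (F.perm g) (fun i => ρ' (red M g) (Ψ (τ i) (f.1 (u i))))]
  simp only [F.perm_apply]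
  abel

end Op

section MatKer

variable (ρ ρ') in
/-- a kernel as a biequivariant function of the matrices of determinant `n` -/
structure IsMatKer (n : ℕ) (K : Matrix (Fin 2) (Fin 2) ℤ → V →ₗ[A] V') : Prop where
  left : ∀ (u : SL(2, ℤ)) (m : Matrix (Fin 2) (Fin 2) ℤ), m.det = (n : ℤ) → ∀ v,
    K ((u : Matrix (Fin 2) (Fin 2) ℤ) * m) (ρ (red M u) v) = K m v
  right : ∀ (g : SL(2, ℤ)) (m : Matrix (Fin 2) (Fin 2) ℤ), m.det = (n : ℤ) → ∀ v,
    ρ' (red M g) (K (m * (g : Matrix (Fin 2) (Fin 2) ℤ)) v) = K m v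

variable {n : ℕ} {K : Matrix (Fin 2) (Fin 2) ℤ → V →ₗ[A] V'}

theorem IsMatKer.isKer {ι : Type} [Fintype ι] (hK : IsMatKer ρ ρ' n K) (F : Fam ι)
    (hdet : ∀ i, (F.rep i).det = (n : ℤ)) : IsKer ρ ρ' F fun i => K (F.rep i) := fun g i v => by
  rw [← hK.right g (F.rep i) (hdet i), F.rep_mul, hK.left _ _ (hdet _)]

/-- the correspondence of a kernel and a complete set of representatives -/
def corrH {ι : Type} [Fintype ι] (hK : IsMatKer ρ ρ' n K) (R : Reps n ι) : H1 ρ →ₗ[A] H1 ρ' :=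
  opH (hK.isKer (Fam.ofReps R) R.det_rep)

theorem corrH_mk {ι : Type} [Fintype ι] (hK : IsMatKer ρ ρ' n K) (R : Reps n ι) (f : Z1 ρ) :
    corrH hK R (H1.mk ρ f) = H1.mk ρ' (opZ (hK.isKer (Fam.ofReps R) R.det_rep) f) := rfl

/-- independence of the representatives -/
theorem opH_eq_corrH {ι κ : Type} [Fintype ι] [Fintype κ] (hK : IsMatKer ρ ρ' n K) (F : Fam ι)
    (hdet : ∀ i, (F.rep i).det = (n : ℤ))
    (hinj : ∀ (i j : ι) (γ : SL(2, ℤ)),
      (γ : Matrix (Fin 2) (Fin 2) ℤ) * F.rep i = F.rep j → i = j)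
    (hex : ∀ m : Matrix (Fin 2) (Fin 2) ℤ, m.det = (n : ℤ) → ∃ (i : ι) (γ : SL(2, ℤ)),
      m = (γ : Matrix (Fin 2) (Fin 2) ℤ) * F.rep i)
    (R : Reps n κ) : opH (hK.isKer F hdet) = corrH hK R := by
  choose t u htu using fun i => R.exists_rep (F.rep i) (hdet i)
  have ht : Function.Bijective t := by
    refine ⟨fun i j e => hinj i j (u j * (u i)⁻¹) ?_, fun k => ?_⟩
    · conv_lhs => rw [htu i, e]
      rw [Matrix.SpecialLinearGroup.coe_mul, mul_assoc,
        ← mul_assoc ((↑(u i)⁻¹ : Matrix (Fin 2) (Fin 2) ℤ)),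
        ← Matrix.SpecialLinearGroup.coe_mul, inv_mul_cancel, Matrix.SpecialLinearGroup.coe_one,
        one_mul, ← htu j]
    · obtain ⟨i, γ, hi⟩ := hex (R.rep k) (R.det_rep k)
      refine ⟨i, (R.rep_inj k (t i) (γ * u i)⁻¹ ?_).symm⟩
      conv_lhs => rw [hi, htu i]
      rw [← mul_assoc ((γ : Matrix (Fin 2) (Fin 2) ℤ)), ← Matrix.SpecialLinearGroup.coe_mul,
        ← mul_assoc, ← Matrix.SpecialLinearGroup.coe_mul, inv_mul_cancel,
        Matrix.SpecialLinearGroup.coe_one, one_mul]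
  refine (opH_equiv (hK.isKer (Fam.ofReps R) R.det_rep) (hK.isKer F hdet)
    (Equiv.ofBijective t ht).symm (fun g k => ?_) (fun k => u ((Equiv.ofBijective t ht).symm k))
    (c := 1) (c' := 1) one_ne_zero (fun k => ?_) fun k v => ?_).symm
  · obtain ⟨i, rfl⟩ := ht.2 k
    rw [Equiv.symm_apply_eq]
    show (Fam.ofReps R).idx g (t i) = t (F.idx g ((Equiv.ofBijective t ht).symm (t i)))
    rw [Equiv.ofBijective_symm_apply_apply]
    refine (R.elt_idx_eq (γ := (u i)⁻¹ * F.elt g i * u (F.idx g i)) ?_).2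
    rw [Matrix.SpecialLinearGroup.coe_mul, Matrix.SpecialLinearGroup.coe_mul, mul_assoc _
      (u (F.idx g i) : Matrix (Fin 2) (Fin 2) ℤ), ← htu, mul_assoc, ← F.rep_mul, htu i, ← mul_assoc,
      ← mul_assoc, ← Matrix.SpecialLinearGroup.coe_mul, inv_mul_cancel,
      Matrix.SpecialLinearGroup.coe_one, one_mul]
  · obtain ⟨i, rfl⟩ := ht.2 k
    rw [one_smul, one_smul, Equiv.ofBijective_symm_apply_apply]
    exact htu i
  · obtain ⟨i, rfl⟩ := ht.2 k
    rw [Equiv.ofBijective_symm_apply_apply]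
    conv_lhs => rw [htu i]
    exact hK.left (u i) _ (R.det_rep _) v

end MatKer

end FLTAgent.R2.Lv

end
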