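import Fermat.Agent.R2.LevelPart

/-!
Area R2, parcel G5: classes killed by both sums and fixed by all diamonds map to the level `K.lev`
modulo the old functions.
-/

set_option autoImplicit false
set_option linter.style.haveILetI false
set_option linter.unusedSectionVars false
set_option linter.unusedVariables false

noncomputable section

open scoped MatrixGroups
open Matrix IsLocalRing

namespace FLTAgent.R2.Lv

open FLTAgent.LL FLTAgent.R2.Coh

section Descent

variable {M : ℕ} [NeZero M] {A : Type*} [CommRing A] [IsLocalRing A] [IsNoetherianRing A]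
  [IsAdicComplete (maximalIdeal A) A] {V V₀ : Type*} [AddCommGroup V] [Module A V]
  [AddCommGroup V₀] [Module A V₀] [Module.Finite A V] [Module.Finite A V₀]
  {ρ : Representation A (GL (Fin 2) (ZMod M)) V} {ρ₀ : Representation A (GL (Fin 2) (ZMod M)) V₀}
  {Δ : Type*} [CommGroup Δ] [Fintype Δ] {p M' : ℕ} [NeZero M'] (h : Split M p M')
  (Dd : DiaData ρ ρ₀ Δ) (hρ : Fac h ρ) (hρ₀ : Fac h ρ₀) (s : Sys M A)

include hρ₀ in
/-- fixed classes killed by both sums descend below the diamonds -/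
theorem exists_descend_fixed (hneg : ρ (red M (-1)) = 1) (h3 : IsUnit (3 : A)) {q : ℕ} (hq : q.Prime)
    (hnil : IsNilpotent (q : A)) {n : ℕ} (hΔ : ∀ u : Δ, u ^ q ^ n = 1) (hS : Surj h ρ₀ hρ₀ s)
    [Module.Free A (s.E ρ₀)] [Module.Free A (s.E (pRep (p := p) ρ₀))]
    (F : Submodule A (H1 (pRep (p := p) ρ)))
    (hF : ∀ x ∈ F, x ∈ newPart h ρ hρ s ∧ ∀ u, diaH (topDia Dd) u x = x) :
    ∃ g : F →ₗ[A] s.E (pRep (p := p) ρ₀), (∀ x, g x = 0 → x = 0) ∧
      ∀ (l : ℕ) (hl : l.Prime) (hlM : ¬ l ∣ M) (x x' : F),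
        x'.1 = LL.T (pRep (p := p) ρ) hl hlM x.1 →
          (g x').1 = LL.T (pRep (p := p) ρ₀) hl hlM (g x).1 := by
  haveI : Module.Finite A (s.E ρ) := s.E_finite
  haveI : Module.Finite A (s.E ρ₀) := s.E_finite
  haveI : Module.Finite A (s.E (pRep (p := p) ρ)) := s.E_finite
  haveI : Module.Finite A (s.E (pRep (p := p) ρ₀)) := s.E_finite
  have key : ∀ x : F, ∃ y,
      (pairHigh Dd s hneg h3).ofY y = (⟨x.1, ((mem_newPart h ρ hρ).1 (hF x.1 x.2).1).1⟩ :
        s.E (pRep (p := p) ρ)) := by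
    intro x
    obtain ⟨hker, hfix⟩ := hF x.1 x.2
    obtain ⟨y, -, hy⟩ := DPair.exists_ofY_of_fixed (pairHigh Dd s hneg h3)
      ((pairLow Dd s hneg h3).prod (pairLow Dd s hneg h3)) (degE h hρ s) (degE h hρ₀ s)
      (degE_dia h Dd hρ s hneg h3) (degE_toY h Dd hρ s hρ₀ hneg h3)
      (degE_ofY h Dd hρ s hρ₀ hneg h3) hq hnil hΔ (degE_surjective h hρ₀ s hS)
      (x := ⟨x.1, ((mem_newPart h ρ hρ).1 hker).1⟩)
      ((degE_eq_zero_iff h hρ s _).2 ((mem_newPart h ρ hρ).1 hker).2)
      (fun u => Subtype.ext (hfix u))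
    exact ⟨y, hy⟩
  choose f hf using key
  refine ⟨{ toFun := f
            map_add' := fun a b => (pairHigh Dd s hneg h3).ofY_injective
              (by rw [_root_.map_add, hf, hf, hf]; rfl)
            map_smul' := fun c a => (pairHigh Dd s hneg h3).ofY_injective
              (by rw [map_smul, hf, hf]; rfl) },
    fun x hx => ?_, fun l hl hlM x x' hxx => ?_⟩
  · have e := hf x
    rw [show f x = 0 from hx, map_zero] at e
    exact Subtype.ext (congrArg Subtype.val e).symm
  · show (f x').1 = LL.T (pRep (p := p) ρ₀) hl hlM (f x).1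
    have hTy : (⟨_, s.T_mem_E hl hlM (f x).2⟩ : s.E (pRep (p := p) ρ₀)) = f x' := by
      refine (pairHigh Dd s hneg h3).ofY_injective (Subtype.ext ?_)
      rw [hf x']
      show LL.map (topDia Dd).isTwist_pull (LL.T (pRep (p := p) ρ₀) hl hlM (f x).1) = x'.1
      rw [map_T_one, hxx]
      exact congrArg _ (congrArg Subtype.val (hf x))
    exact (congrArg Subtype.val hTy).symm

end Descent

variable {W : WeierstrassCurve ℤ} {hW : IsAnchor W} {B : Base W} {N : ℕ} {K : Aux hW B N} {n : ℕ}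
  (D : TW K n)

/-- classes killed by both sums and fixed by all diamonds -/
def fixP (d : SysData hW (bigM D)) : Submodule (Lam N) (HX D) :=
  kerP D d ⊓ ⨅ u, LinearMap.ker (diaT' D u - 1)

theorem mem_fixP {d : SysData hW (bigM D)} {x : HX D} :
    x ∈ fixP D d ↔ x ∈ kerP D d ∧ ∀ u, diaT' D u x = x := by
  simp [fixP, sub_eq_zero]

set_option maxHeartbeats 1600000 in
/-- fixed classes map injectively to the level `K.lev` modulo old functions, compatibly with `T` -/
theorem exists_fixDown {d : SysData hW (bigM D)} (hd : SysGood d) (d₀ : SysData hW K.lev)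
    (hd₀ : SysGood d₀) :
    ∃ (m : ℕ) (down : Fin m → (fixP D d →ₗ[Lam N] H1 (botRep K))),
      (∀ x, (∀ j, down j x = 0) → x = 0) ∧
      ∀ (l : ℕ) (hl : l.Prime) (hlM : ¬ l ∣ bigM D) (x x' : fixP D d),
        x'.1 = LL.T (pRep (p := 2) (cX D)) hl hlM x.1 →
          ∀ j, down j x' =
            LL.T (botRep K) hl (fun h => hlM (h.trans (lev_dvd_bigM D))) (down j x) := by
  obtain ⟨hf1, hf2⟩ := free_Y (xData D) d hd
  obtain ⟨m, down', hinj', hT'⟩ := exists_toBot (xData D) d hd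
  obtain ⟨g, hg0, hgT⟩ := exists_descend_fixed (xData D).split (diaW D) (facCX D) (facCY D)
    (d.sys (Lam N)) (neg_cX D) isUnit_three_lam Nat.prime_two isNilpotent_two
    (fun u => del_pow D u) (surj_Y_tW (xData D) d hd) (fixP D d) (fun x hx => (mem_fixP D).1 hx)
  exact ⟨m, fun j => down' j ∘ₗ g, fun x hx => hg0 x (hinj' (g x) hx),
    fun l hl hlM x x' hxx j => hT' l hl hlM (g x) (g x') (hgT l hl hlM x x' hxx) j⟩

end FLTAgent.R2.Lv

end
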