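import Fermat.Agent.R2.LevelRhoDefs
import Fermat.Agent.R2.LevelIso
import Fermat.Agent.LL.TWFree

/-!
Area R2, parcel G1: one auxiliary prime moved into `N0`, and the sum along its diamonds.

`moveQ D i` has the functions on `P¹(Q i · N0)` times the vectors at the other primes; the sum along
the fibres of the projection commutes with the Hecke operators and is injective on the classes fixed
by the diamonds at `i`.
-/

set_option autoImplicit false
set_option linter.style.haveILetI false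
set_option linter.unusedSectionVars false

noncomputable section

open Matrix IsLocalRing

namespace FLTAgent.R2.Lv

open FLTAgent.LL FLTAgent.R2.Coh

variable {W : WeierstrassCurve ℤ} {hW : IsAnchor W} {M r : ℕ}

/-- the prime `Q i` moved into `N0` -/
def moveQ (D : AuxData M (r + 1)) (i : Fin (r + 1)) : AuxData M r where
  N0 := D.Q i * D.N0
  dvd0 := Nat.Coprime.mul_dvd_of_dvd_of_dvd
    ((D.prime i).coprime_iff_not_dvd.2 (D.ndvd i)) (D.dvd i) D.dvd0
  Q j := D.Q (i.succAbove j)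
  prime j := D.prime _
  inj := D.inj.comp Fin.succAbove_right_injective
  dvd j := D.dvd _
  ndvd j h := by
    rcases (D.prime _).dvd_mul.1 h with h | h
    · exact Fin.succAbove_ne i j (D.inj ((Nat.prime_dvd_prime_iff_eq (D.prime _) (D.prime i)).1 h))
    · exact D.ndvd _ h
  H j := D.H (i.succAbove j)
  neg_mem j := D.neg_mem _

/-- the diamonds at the other primes -/
def moveDel (D : AuxData M (r + 1)) (i : Fin (r + 1)) : D.Del →* (moveQ D i).Del where
  toFun u j := u (i.succAbove j)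
  map_one' := rfl
  map_mul' _ _ := rfl

/-- `Q i` is exact at the moved data -/
def moveExact [NeZero M] (D : AuxData M (r + 1)) (i : Fin (r + 1))
    (hsq : ¬ D.Q i * D.Q i ∣ M) : Exact (moveQ D i) (D.Q i) where
  b := D.N0
  eq := rfl
  M' := M / D.Q i
  split :=
    { prime := D.prime i
      eq := (Nat.mul_div_cancel' (D.dvd i)).symm
      coprime := (D.prime i).coprime_iff_not_dvd.2 fun h => hsq (by
        have := Nat.mul_dvd_mul_left (D.Q i) h
        rwa [Nat.mul_div_cancel' (D.dvd i)] at this) }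
  ne_Q j h := Fin.succAbove_ne i j (D.inj h)
  cop := (D.prime i).coprime_iff_not_dvd.2 (D.ndvd i)

variable [NeZero M]

theorem good_moveQ {d : SysData hW M} {D : AuxData M (r + 1)} (hD : Good d D) (i : Fin (r + 1)) :
    Good d (moveQ D i) where
  sqfree := (Nat.squarefree_mul ((D.prime i).coprime_iff_not_dvd.2 (D.ndvd i))).2
    ⟨(D.prime i).squarefree, hD.sqfree⟩
  bad_dvd l hl := dvd_mul_of_dvd_right (hD.bad_dvd l hl) _
  good_Q _ := hD.good_Q _
  mod4_Q _ := hD.mod4_Q _
  odd_Q _ := hD.odd_Q _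
  index _ := hD.index _
  sq_Q _ := hD.sq_Q _

/-- the point of the moved level under a point -/
def moveX (D : AuxData M (r + 1)) (i : Fin (r + 1)) (x : D.X) : (moveQ D i).X :=
  ((p1Equiv (moveQ D i).dvd0 rfl ((D.prime i).coprime_iff_not_dvd.2 (D.ndvd i))).symm
      (projq (D.dvd i) (D.H i) (x.2 i), x.1),
    fun j => x.2 (i.succAbove j))

theorem moveX_smul (D : AuxData M (r + 1)) (i : Fin (r + 1)) (g : GL (Fin 2) (ZMod M)) (x : D.X) :
    moveX D i (g • x) = g • moveX D i x := by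
  refine Prod.ext ((Equiv.symm_apply_eq _).2 ?_) rfl
  refine Eq.trans ?_ (p1Prod_smul rfl g _).symm
  show (projq (D.dvd i) (D.H i) (g • x.2 i), g • x.1) =
    g • (p1Equiv (moveQ D i).dvd0 rfl ((D.prime i).coprime_iff_not_dvd.2 (D.ndvd i)))
      ((p1Equiv (moveQ D i).dvd0 rfl ((D.prime i).coprime_iff_not_dvd.2 (D.ndvd i))).symm
        (projq (D.dvd i) (D.H i) (x.2 i), x.1))
  rw [Equiv.apply_symm_apply, projq_smul]
  rfl

theorem moveX_act (D : AuxData M (r + 1)) (i : Fin (r + 1)) (u : D.Del) (x : D.X) :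
    moveX D i (D.torsor.act u x) = (moveQ D i).torsor.act (moveDel D i u) (moveX D i x) := by
  refine Prod.ext (congrArg (fun w => (p1Equiv (moveQ D i).dvd0 rfl
    ((D.prime i).coprime_iff_not_dvd.2 (D.ndvd i))).symm (w, x.1)) ?_) rfl
  exact (torsorq (D.dvd i) (D.H i)).proj_act (u i) (x.2 i)

theorem moveX_fibre (D : AuxData M (r + 1)) (i : Fin (r + 1)) {x x' : D.X}
    (h : moveX D i x = moveX D i x') : ∃ v, D.torsor.act (Pi.mulSingle i v) x = x' := by
  have h1 := (Equiv.injective _) (congrArg Prod.fst h)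
  obtain ⟨v, hv⟩ := (torsorq (D.dvd i) (D.H i)).exists_act (x.2 i) (x'.2 i) (congrArg Prod.fst h1)
  refine ⟨v, ?_⟩
  rw [D.torsor_act]
  refine Prod.ext (congrArg Prod.snd h1 :) (funext fun j => ?_)
  show diaPerm (D.dvd j) (D.H j)
    (Pi.mulSingle (M := fun j => (ZMod (D.Q j))ˣ ⧸ D.H j) i v j) (x.2 j) = _
  rcases eq_or_ne j i with rfl | hj
  · rw [Pi.mulSingle_eq_same]
    exact hv
  · rw [Pi.mulSingle_eq_of_ne hj, map_one, Equiv.Perm.one_apply]
    obtain ⟨k, rfl⟩ := Fin.exists_succAbove_eq hj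
    exact congrFun (congrArg Prod.snd h) k

open Classical in
theorem moveX_sum (D : AuxData M (r + 1)) (i : Fin (r + 1)) {A : Type*} [CommRing A]
    (F : D.X → A) (y : D.X) :
    funPush A (moveX D i) F (moveX D i y) =
      ∑ v : (ZMod (D.Q i))ˣ ⧸ D.H i, F (D.torsor.act (Pi.mulSingle i v) y) := by
  rw [funPush_eq, ← Finset.sum_filter]
  refine (Finset.sum_bij (fun v _ => D.torsor.act (Pi.mulSingle i v) y) (fun v _ => ?_)
    (fun v _ v' _ h => ?_) (fun z hz => ?_) (fun v _ => rfl)).symm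
  · rw [Finset.mem_filter, moveX_act]
    refine ⟨Finset.mem_univ _, ?_⟩
    rw [show moveDel D i (Pi.mulSingle i v) = 1 from
      funext fun j =>
        Pi.mulSingle_eq_of_ne (M := fun j => (ZMod (D.Q j))ˣ ⧸ D.H j) (Fin.succAbove_ne i j) v, map_one, Equiv.Perm.one_apply]
  · have e := congrArg (D.torsor.act (Pi.mulSingle i v' : D.Del)⁻¹) h
    rw [← Equiv.Perm.mul_apply, ← Equiv.Perm.mul_apply, ← map_mul, ← map_mul, inv_mul_cancel,
      map_one, Equiv.Perm.one_apply] at e
    have h1 := congrFun (D.torsor.free _ _ e) i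
    rw [Pi.mul_apply, Pi.inv_apply, Pi.mulSingle_eq_same, Pi.mulSingle_eq_same] at h1
    exact (inv_mul_eq_one.1 h1).symm
  · obtain ⟨-, hz⟩ := Finset.mem_filter.1 hz
    obtain ⟨v, hv⟩ := moveX_fibre D i hz.symm
    exact ⟨v, Finset.mem_univ _, hv⟩

theorem map_comm_eq' {A V V₁ V₂ V₃ : Type*} [CommRing A] [AddCommGroup V] [Module A V]
    [AddCommGroup V₁] [Module A V₁] [AddCommGroup V₂] [Module A V₂] [AddCommGroup V₃] [Module A V₃]
    {ρ : Representation A (GL (Fin 2) (ZMod M)) V} {ρ₁ : Representation A (GL (Fin 2) (ZMod M)) V₁}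
    {ρ₂ : Representation A (GL (Fin 2) (ZMod M)) V₂} {ρ₃ : Representation A (GL (Fin 2) (ZMod M)) V₃}
    {c₁ c₂ c₃ c₄ : (ZMod M)ˣ →* A} {Φ : V →ₗ[A] V₁} {Ψ : V₁ →ₗ[A] V₃} {Φ' : V →ₗ[A] V₂}
    {Ψ' : V₂ →ₗ[A] V₃} (h : IsTwist ρ ρ₁ c₁ Φ) (h' : IsTwist ρ₁ ρ₃ c₂ Ψ) (k : IsTwist ρ ρ₂ c₃ Φ')
    (k' : IsTwist ρ₂ ρ₃ c₄ Ψ') (e : ∀ v, Ψ (Φ v) = Ψ' (Φ' v)) (y : H1 ρ) :
    LL.map h' (LL.map h y) = LL.map k' (LL.map k y) := by
  obtain ⟨f, rfl⟩ := Submodule.mkQ_surjective _ y
  exact congrArg (H1.mk ρ₃) (Subtype.ext (funext fun g => e (f.1 g)))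

/-- the sum along the diamonds at `i` -/
theorem exists_pushQ (d : SysData hW M) (D : AuxData M (r + 1)) (i : Fin (r + 1)) :
    ∃ p : (d.sys Z2).E (lrRep D) →ₗ[Z2] (d.sys Z2).E (lrRep (moveQ D i)),
      (∀ (l : ℕ) (hl : l.Prime) (hlM : ¬ l ∣ M) (z z' : (d.sys Z2).E (lrRep D)),
        z'.1 = LL.T (lrRep D) hl hlM z.1 →
          (p z').1 = LL.T (lrRep (moveQ D i)) hl hlM (p z).1) ∧
      (∀ (u : D.Del) (z : (d.sys Z2).E (lrRep D)),
        p (diaLam d D u z) = diaLam d (moveQ D i) (moveDel D i u) (p z)) ∧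
      ∀ z : (d.sys Z2).E (lrRep D),
        (∀ v, diaLam d D (Pi.mulSingle i v) z = z) → p z = 0 → z = 0 := by
  classical
  have hπ := isTwist_funPush (A := Z2) (M := M) (moveX D i) (moveX_smul D i)
  have hπ' := isTwist_funPull (A := Z2) (M := M) (moveX D i) (moveX_smul D i)
  refine ⟨(LL.map hπ).restrict fun _ hx => (d.sys Z2).map_mem_E hπ (fun _ => by simp) hx,
    fun l hl hlM z z' h => ?_, fun u z => Subtype.ext ?_, fun z hz h => Subtype.ext ?_⟩
  · show LL.map hπ z'.1 = LL.T (lrRep (moveQ D i)) hl hlM (LL.map hπ z.1)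
    rw [h, map_T_one]
  · show LL.map hπ (LL.map (isTwist_act Z2 D u) z.1) =
      LL.map (isTwist_act Z2 (moveQ D i) (moveDel D i u)) (LL.map hπ z.1)
    refine map_comm_eq' _ _ _ _ (fun F => funext fun y => ?_) _
    show funPush Z2 (moveX D i) (fun x => F (D.torsor.act u x)) y =
      funPush Z2 (moveX D i) F ((moveQ D i).torsor.act (moveDel D i u) y)
    rw [funPush_eq, funPush_eq,
      ← Equiv.sum_comp (D.torsor.act u) (fun x => if moveX D i x =
        (moveQ D i).torsor.act (moveDel D i u) y then F x else 0)]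
    exact Finset.sum_congr rfl fun x _ => by
      rw [moveX_act]
      exact if_congr ((moveQ D i).torsor.act _).injective.eq_iff.symm rfl rfl
  · have h0 : LL.map hπ z.1 = 0 := congrArg Subtype.val h
    have e : LL.map hπ' (LL.map hπ z.1) =
        ∑ v : (ZMod (D.Q i))ˣ ⧸ D.H i, LL.map (isTwist_act Z2 D (Pi.mulSingle i v)) z.1 := by
      obtain ⟨f, hf⟩ := Submodule.mkQ_surjective _ z.1
      rw [← hf, map_mk, map_mk]
      refine Eq.trans ?_ (Finset.sum_congr rfl fun v _ =>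
        (map_mk (isTwist_act Z2 D (Pi.mulSingle i v)) f).symm)
      rw [← _root_.map_sum]
      refine congrArg (H1.mk (lrRep D)) (Subtype.ext (funext fun γ => funext fun y => ?_))
      rw [Submodule.coe_sum, Finset.sum_apply, Finset.sum_apply]
      exact moveX_sum D i (f.1 γ) y
    rw [h0, _root_.map_zero, Finset.sum_congr rfl fun v _ =>
      show LL.map (isTwist_act Z2 D (Pi.mulSingle i v)) z.1 = z.1 from congrArg Subtype.val (hz v),
      Finset.sum_const, Finset.card_univ, ← Nat.cast_smul_eq_nsmul Z2] at e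
    exact (d.sys Z2).smul_eq_zero_imp _ (fun F hF => (smul_eq_zero.1 hF).resolve_left
      (Nat.cast_ne_zero.2 Fintype.card_ne_zero)) z.2 e.symm

end FLTAgent.R2.Lv

end
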