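import Fermat.Agent.R2.LevelRhoAlg
import Fermat.Agent.Chebotarev.Density
import Fermat.Agent.Deform.Mat

/-!
Area R2, parcel G1: traces determine the action.

* `map_trace`: a linear map intertwining the invariants of almost all Frobenius elements of two
  representations intertwines all traces;
* `entries_kill`: for a residual representation with full span, what is killed by all
  `tr (X ρ g)` is killed by the entries of `X`.
-/

set_option autoImplicit false
set_option linter.style.haveILetI false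
set_option linter.unusedSectionVars false

noncomputable section

open Matrix IsLocalRing

namespace FLTAgent.R2.LevelRho

local notation "GalQ'" => AlgebraicClosure ℚ ≃ₐ[ℚ] AlgebraicClosure ℚ
local notation "M2" => Matrix (Fin 2) (Fin 2)

/-- the pairs of elements intertwined by a linear map -/
def interPairs {A T T' V V' : Type*} [CommRing A] [CommRing T] [CommRing T'] [Algebra A T]
    [Algebra A T'] [AddCommGroup V] [Module A V] [AddCommGroup V'] [Module A V']
    (φ : T →ₐ[A] Module.End A V) (φ' : T' →ₐ[A] Module.End A V') (Λ : V →ₗ[A] V') :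
    Subalgebra A (T × T') where
  carrier := {t | ∀ x, Λ (φ t.1 x) = φ' t.2 (Λ x)}
  algebraMap_mem' a x := by
    rw [Prod.algebraMap_apply, AlgHom.commutes, AlgHom.commutes, Module.algebraMap_end_apply,
      Module.algebraMap_end_apply, map_smul]
  add_mem' := fun {t u} ht hu x => by
    rw [Prod.fst_add, Prod.snd_add, map_add, map_add, LinearMap.add_apply, LinearMap.add_apply,
      map_add, ht x, hu x]
  mul_mem' := fun {t u} ht hu x => by
    rw [Prod.fst_mul, Prod.snd_mul, map_mul, map_mul, Module.End.mul_apply, Module.End.mul_apply,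
      ht, hu]

/-- two representations as one over the product -/
def prodRep {G R R' : Type*} [Monoid G] [CommRing R] [CommRing R'] (ρ : G →* M2 R)
    (ρ' : G →* M2 R') : G →* M2 (R × R') where
  toFun σ := Matrix.of fun a b => (ρ σ a b, ρ' σ a b)
  map_one' := by
    refine Matrix.ext fun a b => ?_
    rcases eq_or_ne a b with rfl | h
    · rw [Matrix.of_apply, map_one ρ, map_one ρ', Matrix.one_apply_eq, Matrix.one_apply_eq,
        Matrix.one_apply_eq]
      rfl
    · rw [Matrix.of_apply, map_one ρ, map_one ρ', Matrix.one_apply_ne h, Matrix.one_apply_ne h,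
        Matrix.one_apply_ne h]
      rfl
  map_mul' σ τ := by
    refine Matrix.ext fun a b => ?_
    rw [Matrix.of_apply, map_mul ρ, map_mul ρ']
    simp only [Matrix.mul_apply, Fin.sum_univ_two, Matrix.of_apply]
    rfl

/-- traces over a closed subalgebra -/
theorem trace_mem_of_frob {C : Type*} [CommRing C] [Algebra ℤ_[2] C] [Module.Finite ℤ_[2] C]
    (W : Subalgebra ℤ_[2] C) (ρ : GalQ' →* M2 C)
    (hlev : ∀ n : ℕ, ∃ E : IntermediateField ℚ (AlgebraicClosure ℚ), FiniteDimensional ℚ E ∧
      ∀ σ : GalQ', (∀ x ∈ E, σ x = x) → ∀ a b, (2 : C) ^ n ∣ (ρ σ - 1) a b)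
    (S : Finset ℕ) (htp : ∀ (X : M2 C) (j : ℕ), X.trace ∈ W → X.det ∈ W → (X ^ j).trace ∈ W)
    (hfrob : ∀ (l : ℕ), l.Prime → l ∉ S → ∀ P : ValuationSubring (AlgebraicClosure ℚ),
      P.LiesOverPrime l → ∀ τ : GalQ', P.IsFrobeniusAt τ l →
        (ρ τ).trace ∈ W ∧ (ρ τ).det ∈ W) (σ : GalQ') : (ρ σ).trace ∈ W := by
  refine mem_of_approx (Subalgebra.toSubmodule W) fun n => ?_
  obtain ⟨E, hE, hn⟩ := hlev n
  haveI := hE
  obtain ⟨l, P, τ, j, hl, hlS, hP, hτ, hag⟩ := Chebotarev.exists_frobenius_pow E σ S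
  obtain ⟨htr, hdet⟩ := hfrob l hl hlS P hP τ hτ
  refine ⟨(ρ (τ ^ j)).trace, by rw [map_pow]; exact htp _ j htr hdet, ?_⟩
  rw [← dvd_iff_mem]
  have hd := hn (σ⁻¹ * τ ^ j) fun x hx => by
    rw [AlgEquiv.mul_apply, hag x hx]
    exact σ.symm_apply_apply x
  have h1 : ∀ a b, (2 : C) ^ n ∣ (ρ (τ ^ j) - ρ σ) a b := fun a b => by
    rw [show ρ (τ ^ j) = ρ σ * ρ (σ⁻¹ * τ ^ j) by rw [← map_mul, mul_inv_cancel_left],
      ← mul_sub_one, Matrix.mul_apply]
    exact Finset.dvd_sum fun i _ => dvd_mul_of_dvd_right (hd i b) _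
  rw [← neg_sub, dvd_neg, ← Matrix.trace_sub, Matrix.trace_fin_two]
  exact dvd_add (h1 0 0) (h1 1 1)

/-- a map intertwining Frobenius intertwines all traces -/
theorem map_trace {T T' V V' : Type} [CommRing T] [CommRing T'] [Algebra ℤ_[2] T]
    [Algebra ℤ_[2] T'] [Module.Finite ℤ_[2] T] [Module.Finite ℤ_[2] T'] [AddCommGroup V]
    [Module ℤ_[2] V] [AddCommGroup V'] [Module ℤ_[2] V'] (φ : T →ₐ[ℤ_[2]] Module.End ℤ_[2] V)
    (φ' : T' →ₐ[ℤ_[2]] Module.End ℤ_[2] V') (Λ : V →ₗ[ℤ_[2]] V') (ρ : GalQ' →* M2 T)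
    (ρ' : GalQ' →* M2 T')
    (hlev : ∀ n : ℕ, ∃ E : IntermediateField ℚ (AlgebraicClosure ℚ), FiniteDimensional ℚ E ∧
      ∀ σ : GalQ', (∀ x ∈ E, σ x = x) → ∀ a b, (2 : T) ^ n ∣ (ρ σ - 1) a b)
    (hlev' : ∀ n : ℕ, ∃ E : IntermediateField ℚ (AlgebraicClosure ℚ), FiniteDimensional ℚ E ∧
      ∀ σ : GalQ', (∀ x ∈ E, σ x = x) → ∀ a b, (2 : T') ^ n ∣ (ρ' σ - 1) a b)
    (S : Finset ℕ)
    (hfr : ∀ (l : ℕ), l.Prime → l ∉ S → ∀ P : ValuationSubring (AlgebraicClosure ℚ),
      P.LiesOverPrime l → ∀ τ : GalQ', P.IsFrobeniusAt τ l → ∀ x,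
        Λ (φ (ρ τ).trace x) = φ' (ρ' τ).trace (Λ x) ∧ Λ (φ (ρ τ).det x) = φ' (ρ' τ).det (Λ x))
    (σ : GalQ') (x : V) : Λ (φ (ρ σ).trace x) = φ' (ρ' σ).trace (Λ x) := by
  set R : GalQ' →* M2 (T × T') := prodRep ρ ρ' with hR
  have htr : ∀ τ, (R τ).trace = ((ρ τ).trace, (ρ' τ).trace) := fun τ => by
    simp [hR, prodRep, Matrix.trace_fin_two]
  have hde : ∀ τ, (R τ).det = ((ρ τ).det, (ρ' τ).det) := fun τ => by
    simp [hR, prodRep, Matrix.det_fin_two]
  have hmem : (R σ).trace ∈ interPairs φ φ' Λ := by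
    refine trace_mem_of_frob (interPairs φ φ' Λ) R (fun n => ?_) S (fun X j ht hd => ?_)
      (fun l hl hlS P hP τ hτ => ⟨?_, ?_⟩) σ
    · obtain ⟨E, hE, h⟩ := hlev n
      obtain ⟨E', hE', h'⟩ := hlev' n
      haveI := hE; haveI := hE'
      refine ⟨E ⊔ E', inferInstance, fun g hg a b => ?_⟩
      obtain ⟨c, hc⟩ := h g (fun y hy => hg y (le_sup_left (b := E') hy)) a b
      obtain ⟨c', hc'⟩ := h' g (fun y hy => hg y (le_sup_right (a := E) hy)) a b
      refine ⟨(c, c'), Prod.ext ?_ ?_⟩
      · refine Eq.trans ?_ hc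
        rcases eq_or_ne a b with rfl | e
        · simp [hR, prodRep]
        · simp [hR, prodRep, Matrix.one_apply_ne e]
      · refine Eq.trans ?_ hc'
        rcases eq_or_ne a b with rfl | e
        · simp [hR, prodRep]
        · simp [hR, prodRep, Matrix.one_apply_ne e]
    · induction j using Nat.twoStepInduction with
      | zero =>
        rw [pow_zero, Matrix.trace_one, Fintype.card_fin]
        exact natCast_mem _ 2
      | one => rwa [pow_one]
      | more i h1 h2 =>
        have e : X ^ (i + 2) = X.trace • X ^ (i + 1) - X.det • X ^ i := by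
          rw [pow_add X i 2, sq,
            show X * X = X.trace • X - X.det • (1 : M2 (T × T')) by
              refine Matrix.ext fun a b => ?_
              fin_cases a <;> fin_cases b <;>
                simp [Matrix.mul_apply, Fin.sum_univ_two, Matrix.trace_fin_two,
                  Matrix.det_fin_two] <;> ring,
            mul_sub, mul_smul_comm, mul_smul_comm, mul_one, ← pow_succ]
        rw [e, Matrix.trace_sub, Matrix.trace_smul, Matrix.trace_smul, smul_eq_mul, smul_eq_mul]
        exact sub_mem (mul_mem ht h2) (mul_mem hd h1)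
    · rw [htr]
      exact fun y => (hfr l hl hlS P hP τ hτ y).1
    · rw [hde]
      exact fun y => (hfr l hl hlS P hP τ hτ y).2
  rw [htr] at hmem
  exact hmem x

/-- for a residual representation with full span the traces see all entries -/
theorem entries_kill {T V G k : Type*} [CommRing T] [IsLocalRing T] [Field k] [AddCommGroup V]
    [Module T V] (π : T →+* k) (hπ : Function.Surjective π) (hker : RingHom.ker π = maximalIdeal T)
    (ρ : G → M2 T) (hfull : Submodule.span k (Set.range fun g => (ρ g).map π) = ⊤) (X : M2 T)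
    (z : V) (h : ∀ g, (X * ρ g).trace • z = 0) (a b : Fin 2) : X a b • z = 0 := by
  classical
  letI : Algebra T k := π.toAlgebra
  let P : Submodule T (M2 T) := Submodule.span T (Set.range ρ)
  let red : M2 T →ₗ[T] M2 k :=
    { toFun := fun Y => Y.map π
      map_add' := fun Y Z => Matrix.map_add _ (map_add π) Y Z
      map_smul' := fun c Y => by
        ext i j
        rw [Matrix.map_apply, Matrix.smul_apply, smul_eq_mul, map_mul]
        rfl }
  have hred : ∀ Y, red Y = 0 → Y ∈ maximalIdeal T • (⊤ : Submodule T (M2 T)) := fun Y hY => by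
    rw [Matrix.matrix_eq_sum_single Y]
    refine sum_mem fun i _ => sum_mem fun j _ => ?_
    rw [← mul_one (Y i j), ← smul_eq_mul, ← Matrix.smul_single]
    refine Submodule.smul_mem_smul ?_ Submodule.mem_top
    rw [← hker, RingHom.mem_ker]
    exact congrFun (congrFun hY i) j
  have hP : P = ⊤ := by
    refine top_le_iff.1 (Submodule.le_of_le_smul_of_le_jacobson_bot
      (I := maximalIdeal T) Module.Finite.fg_top
      (IsLocalRing.maximalIdeal_le_jacobson _) fun Y _ => ?_)
    have hY : red Y ∈ Submodule.span k (Set.range fun g => (ρ g).map π) := hfull ▸ Submodule.mem_top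
    suffices hs : ∀ W ∈ Submodule.span k (Set.range fun g => (ρ g).map π), ∃ Z ∈ P, red Z = W by
      obtain ⟨Z, hZ, hZY⟩ := hs _ hY
      exact Submodule.mem_sup.2 ⟨Z, hZ, Y - Z, hred _ (by rw [map_sub, hZY, sub_self]),
        add_sub_cancel Z Y⟩
    intro W hW
    induction hW using Submodule.span_induction with
    | mem W hW => obtain ⟨g, rfl⟩ := hW; exact ⟨ρ g, Submodule.subset_span ⟨g, rfl⟩, rfl⟩
    | zero => exact ⟨0, zero_mem _, map_zero _⟩
    | add W W' _ _ h1 h2 =>
      obtain ⟨Z, hZ, rfl⟩ := h1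
      obtain ⟨Z', hZ', rfl⟩ := h2
      exact ⟨Z + Z', add_mem hZ hZ', map_add _ _ _⟩
    | smul c W _ h1 =>
      obtain ⟨Z, hZ, rfl⟩ := h1
      obtain ⟨c, rfl⟩ := hπ c
      exact ⟨c • Z, Submodule.smul_mem _ c hZ, by
        rw [map_smul]
        exact (algebraMap_smul k c _).symm⟩
  have key : ∀ Y ∈ P, (X * Y).trace • z = 0 := fun Y hY => by
    induction hY using Submodule.span_induction with
    | mem Y hY => obtain ⟨g, rfl⟩ := hY; exact h g
    | zero => rw [mul_zero, Matrix.trace_zero, zero_smul]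
    | add Y Z _ _ h1 h2 => rw [mul_add, Matrix.trace_add, add_smul, h1, h2, add_zero]
    | smul c Y _ h1 => rw [Matrix.mul_smul, Matrix.trace_smul, smul_eq_mul, mul_smul, h1, smul_zero]
  have e := key (Matrix.single b a (1 : T)) (hP ▸ Submodule.mem_top)
  have e2 : (X * Matrix.single b a (1 : T)).trace = X a b := by
    fin_cases a <;> fin_cases b <;>
      simp [Matrix.trace_fin_two, Matrix.mul_apply, Fin.sum_univ_two]
  rwa [e2] at e

end FLTAgent.R2.LevelRho

end
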