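import Fermat.Agent.R2.LevelRhoQuartic
import Fermat.Agent.R2.LevelRhoMove
import Fermat.Agent.R2.LevelRhoTrace
import Fermat.Agent.R2.LevelTrans

/-!
Area R2, parcel G1: the inertia of an auxiliary prime on the classes fixed by its diamonds.

Both sums to the level without `Q i` intertwine the traces, and there the inertia acts trivially;
at the level `Q i · N0` they are jointly injective as the trace of Frobenius at `Q i` is odd.
-/

set_option autoImplicit false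
set_option linter.style.haveILetI false
set_option linter.unusedSectionVars false
set_option maxHeartbeats 1000000
set_option synthInstance.maxHeartbeats 100000

noncomputable section

open Matrix IsLocalRing

namespace FLTAgent.R2.Lv

open FLTAgent.LL FLTAgent.R2.Coh

local notation "M2" => Matrix (Fin 2) (Fin 2)

/-- traces kill entries, through an action -/
theorem act_entries_kill {T V G : Type} [CommRing T] [Algebra ℤ_[2] T] [IsLocalRing T]
    [AddCommGroup V] [Module ℤ_[2] V] (π : T →+* ZMod 2) (hπ : Function.Surjective π)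
    (hker : RingHom.ker π = maximalIdeal T) (φ : T →ₐ[ℤ_[2]] Module.End ℤ_[2] V) (ρ : G → M2 T)
    (hfull : Submodule.span (ZMod 2) (Set.range fun g => (ρ g).map π) = ⊤) (X : M2 T) (z : V)
    (h : ∀ g, φ (X * ρ g).trace z = 0) (a b : Fin 2) : φ (X a b) z = 0 := by
  haveI : Fact (Nat.Prime 2) := ⟨Nat.prime_two⟩
  letI : Module T V := Module.compHom V φ.toRingHom
  exact LevelRho.entries_kill π hπ hker ρ hfull X z h a b

variable {W : WeierstrassCurve ℤ} {hW : IsAnchor W} {M r n : ℕ} [NeZero M] {d : SysData hW M}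
  {D : AuxData M r}

/-- what commutes in every twist commutes -/
theorem comm_of_twist {A O V U κ : Type} [CommRing A] [CommRing O] [AddCommGroup V] [Module A V]
    [AddCommGroup U] [Module A U] [Module O U] (tw : κ → V →ₗ[A] U)
    (hinj : ∀ x, (∀ k, tw k x = 0) → x = 0) (c : κ → O) (f g : Module.End A V)
    {o : κ → Module.End O U} (hf : ∀ k y, tw k (f y) = c k • tw k y)
    (hg : ∀ k y, tw k (g y) = o k (tw k y)) (y : V) : f (g y) = g (f y) :=
  sub_eq_zero.1 (hinj _ fun k => by rw [map_sub, hf, hg, hg, hf, map_smul, sub_self])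

/-- entries on a quotient acting compatibly -/
theorem quot_entry {T V : Type} [CommRing T] [Algebra ℤ_[2] T] [AddCommGroup V] [Module ℤ_[2] V]
    (φ : T →ₐ[ℤ_[2]] Module.End ℤ_[2] V) (I : Ideal T)
    (φI : (T ⧸ I) →ₐ[ℤ_[2]] Module.End ℤ_[2] V)
    (hφI : ∀ t, φI (Ideal.Quotient.mk I t) = φ t) (ρ : GQ →* M2 T) (σ : GQ) (a b : Fin 2) (v : V)
    (h : φ ((ρ σ - 1) a b) v = 0) : φI ((quotRep I ρ σ - 1) a b) v = 0 := by
  rw [show (quotRep I ρ σ - 1) a b = Ideal.Quotient.mk I ((ρ σ - 1) a b) from by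
    rw [Matrix.sub_apply, Matrix.sub_apply, map_sub]
    refine congrArg₂ (· - ·) rfl ?_
    rcases eq_or_ne a b with rfl | h
    · rw [Matrix.one_apply_eq, Matrix.one_apply_eq, map_one]
    · rw [Matrix.one_apply_ne h, Matrix.one_apply_ne h, map_zero], hφI]
  exact h

theorem good_low {D : AuxData M (n + 1)} (hD : Good d D) (i : Fin (n + 1)) :
    Good d (moveExact D i (hD.sq_Q i)).low where
  sqfree := hD.sqfree
  bad_dvd := hD.bad_dvd
  good_Q j := hD.good_Q _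
  mod4_Q j := hD.mod4_Q _
  odd_Q j := hD.odd_Q _
  index j := hD.index _
  sq_Q j := hD.sq_Q _

/-- the trace algebra of a level, its representation and action, with the lattice forgotten -/
structure TraceAct (d : SysData hW M) (D : AuxData M r) : Type 1 where
  T : Type
  [commRing : CommRing T]
  [algebra : Algebra ℤ_[2] T]
  [finite : Module.Finite ℤ_[2] T]
  [isLocalRing : IsLocalRing T]
  π : T →+* ZMod 2
  π_surjective : Function.Surjective π
  ker_π : RingHom.ker π = maximalIdeal T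
  ρ : GQ →* M2 T
  res : ∀ σ, (ρ σ).map π = rb2 hW σ
  level : ∀ n : ℕ, ∃ E : IntermediateField ℚ (AlgebraicClosure ℚ), FiniteDimensional ℚ E ∧
    ∀ σ : GQ, (∀ x ∈ E, σ x = x) → ∀ a b, (2 : T) ^ n ∣ (ρ σ - 1) a b
  φ : T →ₐ[ℤ_[2]] Module.End ℤ_[2] (LevelRho.Mod D (d.sys Z2))
  frob : ∀ (l : ℕ) (hl : l.Prime) (hlM : ¬ l ∣ M) (_ : l ≠ 2)
    (A : ValuationSubring (AlgebraicClosure ℚ)), A.LiesOverPrime l →
    ∀ τ : GQ, A.IsFrobeniusAt τ l → φ (ρ τ).trace = LevelRho.hOp D (d.sys Z2) hl hlM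
  φ_det : ∀ σ : GQ, φ (ρ σ).det = Attach.cycR Nat.prime_two LevelRho.two_mem σ •
    LevelRho.actE D (d.sys Z2) (D.cls (LevelRho.cycU M σ)⁻¹)
  unr : ∀ q : ℕ, q.Prime → q ≠ 2 → ¬ q ∣ D.N0 → (∀ i, D.Q i ≠ q) →
    ∀ A : ValuationSubring (AlgebraicClosure ℚ), A.LiesOverPrime q →
      ∀ σ ∈ A.inertiaSubgroupIn ℚ, ρ σ = 1
  comm : ∀ (u : D.Del) (t : T) (y : LevelRho.Mod D (d.sys Z2)),
    LevelRho.actE D (d.sys Z2) u (φ t y) = φ t (LevelRho.actE D (d.sys Z2) u y)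

attribute [instance] TraceAct.commRing TraceAct.algebra TraceAct.finite TraceAct.isLocalRing

/-- the traces of a setup -/
def Setup.traceAct (P : Setup d D) : TraceAct d D where
  T := P.R.T
  π := P.R.π
  π_surjective := P.R.π_surjective
  ker_π := P.R.ker_π
  ρ := P.R.ρ
  res := P.R.res
  level := P.R.level
  φ := P.R.φ
  frob := P.R.frob
  φ_det := P.R.φ_det
  unr := P.R.unr
  comm u t y := comm_of_twist (fun k => LevelRho.twist (d.sys Z2) P.O P.hL P.LD (P.cs k) (P.hχ k))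
    P.R.twist_injective (fun k => (P.cs k).delta u) _ _
    (fun k y => LevelRho.twist_actE (d.sys Z2) P.hL P.LD (P.cs k) (P.hχ k) u y)
    (fun k y => P.R.twist_φ k t y) y

theorem exists_traceAct (hD : Good d D) (hne : (d.sys Z2).E (lrRep D) ≠ ⊥) :
    Nonempty (TraceAct d D) := by
  obtain ⟨P⟩ := exists_setup d D hD hne
  exact ⟨P.traceAct⟩

namespace TraceAct

variable (P : TraceAct d D)

theorem span_res : Submodule.span (ZMod 2) (Set.range fun g => (P.ρ g).map P.π) = ⊤ := by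
  obtain ⟨A, σ₀, hA, hσ⟩ := Alg.exists_place_frobenius d.l0 d.prime
  rw [show (fun g => (P.ρ g).map P.π) = rb2 hW from funext P.res]
  exact span_rb2_eq_top hW
    ((trace_rb2 hW d.prime d.l0_ne_two d.good hA hσ).trans (apOfModel_cast_two d.odd_ap))

variable {D' : AuxData M n}

/-- a map commuting with Hecke operators and diamonds commutes with all traces -/
theorem trace_transfer (P' : TraceAct d D')
    (Λ : LevelRho.Mod D (d.sys Z2) →ₗ[ℤ_[2]] LevelRho.Mod D' (d.sys Z2))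
    (hT : ∀ (l : ℕ) (hl : l.Prime) (hlM : ¬ l ∣ M) (y : LevelRho.Mod D (d.sys Z2)),
      Λ (LevelRho.hOp D (d.sys Z2) hl hlM y) = LevelRho.hOp D' (d.sys Z2) hl hlM (Λ y))
    (f : D.Del →* D'.Del) (hf : ∀ a, f (D.cls a) = D'.cls a)
    (hA : ∀ (u : D.Del) (y : LevelRho.Mod D (d.sys Z2)),
      Λ (LevelRho.actE D (d.sys Z2) u y) = LevelRho.actE D' (d.sys Z2) (f u) (Λ y))
    (g : GQ) (y : LevelRho.Mod D (d.sys Z2)) :
    Λ (P.φ (P.ρ g).trace y) = P'.φ (P'.ρ g).trace (Λ y) := by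
  refine LevelRho.map_trace P.φ P'.φ Λ P.ρ P'.ρ P.level P'.level
    (insert 2 M.primeFactors) (fun l hl hlS A hA' τ hτ x => ?_) g y
  rw [Finset.mem_insert, not_or, Nat.mem_primeFactors] at hlS
  have hlM : ¬ l ∣ M := fun h => hlS.2 ⟨hl, h, NeZero.ne M⟩
  constructor
  · rw [P.frob l hl hlM hlS.1 A hA' τ hτ, P'.frob l hl hlM hlS.1 A hA' τ hτ, hT]
  · rw [P.φ_det, P'.φ_det, LinearMap.smul_apply, LinearMap.smul_apply, LinearMap.map_smul, hA,
      hf]

/-- where the target is unramified, the inertia disappears after such a map -/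
theorem trace_inertia (hD' : Good d D')
    (Λ : LevelRho.Mod D (d.sys Z2) →ₗ[ℤ_[2]] LevelRho.Mod D' (d.sys Z2))
    (hT : ∀ (l : ℕ) (hl : l.Prime) (hlM : ¬ l ∣ M) (y : LevelRho.Mod D (d.sys Z2)),
      Λ (LevelRho.hOp D (d.sys Z2) hl hlM y) = LevelRho.hOp D' (d.sys Z2) hl hlM (Λ y))
    (f : D.Del →* D'.Del) (hf : ∀ a, f (D.cls a) = D'.cls a)
    (hA : ∀ (u : D.Del) (y : LevelRho.Mod D (d.sys Z2)),
      Λ (LevelRho.actE D (d.sys Z2) u y) = LevelRho.actE D' (d.sys Z2) (f u) (Λ y))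
    {q : ℕ} (hq : q.Prime) (hq2 : q ≠ 2) (hqN : ¬ q ∣ D'.N0) (hqQ : ∀ j, D'.Q j ≠ q)
    {A : ValuationSubring (AlgebraicClosure ℚ)} (hA' : A.LiesOverPrime q) {σ : GQ}
    (hσ : σ ∈ A.inertiaSubgroupIn ℚ) (g : GQ) (y : LevelRho.Mod D (d.sys Z2)) :
    Λ (P.φ (P.ρ (σ * g)).trace y) = Λ (P.φ (P.ρ g).trace y) := by
  by_cases hE : (d.sys Z2).E (lrRep D') = ⊥
  · have h0 : ∀ w : LevelRho.Mod D' (d.sys Z2), w = 0 := fun w =>
      Subtype.ext ((Submodule.mem_bot ℤ_[2]).1 (hE ▸ w.2))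
    rw [h0 (Λ _), h0 (Λ (P.φ (P.ρ g).trace y))]
  · obtain ⟨P'⟩ := exists_traceAct (d := d) hD' hE
    rw [P.trace_transfer P' Λ hT f hf hA, P.trace_transfer P' Λ hT f hf hA, map_mul,
      P'.unr q hq hq2 hqN hqQ A hA' σ hσ, one_mul]

/-- on fixed classes the traces do not see the inertia -/
theorem trace_fixed {D : AuxData M (n + 1)} (P : TraceAct d D) (hD : Good d D) (i : Fin (n + 1))
    (z : LevelRho.Mod D (d.sys Z2)) (hz : ∀ v, diaLam d D (Pi.mulSingle i v) z = z)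
    {A : ValuationSubring (AlgebraicClosure ℚ)} (hA : A.LiesOverPrime (D.Q i)) {σ : GQ}
    (hσ : σ ∈ A.inertiaSubgroupIn ℚ) (g : GQ) :
    P.φ (P.ρ (σ * g)).trace z - P.φ (P.ρ g).trace z = 0 := by
  obtain ⟨p, hpT, hpA, hp0⟩ := exists_pushQ d D i
  refine hp0 _ (fun v => ?_) ?_
  · have hz' : LevelRho.actE D (d.sys Z2) (Pi.mulSingle i v) z = z := hz v
    show LevelRho.actE D (d.sys Z2) (Pi.mulSingle i v) _ = _
    rw [map_sub, P.comm, P.comm, hz']
  set x := moveExact D i (hD.sq_Q i) with hx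
  have hi : ∀ j, x.low.Q j ≠ D.Q i := fun j h => Fin.succAbove_ne i j (D.inj h)
  have h2 : D.Q i ≠ 2 := fun h => by
    have := hD.mod4_Q i
    rw [h] at this
    exact absurd this (by decide)
  let Λ₁ : LevelRho.Mod D (d.sys Z2) →ₗ[ℤ_[2]] LevelRho.Mod x.low (d.sys Z2) :=
    ((x.pushX Z2).restrict fun _ h => x.pushX_mem_E Z2 (d.sys Z2) h) ∘ₗ p
  let Λ₂ : LevelRho.Mod D (d.sys Z2) →ₗ[ℤ_[2]] LevelRho.Mod x.low (d.sys Z2) :=
    ((x.pushX Z2 ∘ₗ x.WX Z2).restrict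
      fun _ h => x.pushX_mem_E Z2 (d.sys Z2) (x.WX_mem_E Z2 (d.sys Z2) h)) ∘ₗ p
  have hT₁ : ∀ (l : ℕ) (hl : l.Prime) (hlM : ¬ l ∣ M) (y : LevelRho.Mod D (d.sys Z2)),
      Λ₁ (LevelRho.hOp D (d.sys Z2) hl hlM y) =
        LevelRho.hOp x.low (d.sys Z2) hl hlM (Λ₁ y) := fun l hl hlM y => Subtype.ext (by
    show x.pushX Z2 (p (LevelRho.hOp D (d.sys Z2) hl hlM y)).1 =
      LL.T (x.lowRep Z2) hl hlM (x.pushX Z2 (p y).1)
    rw [hpT l hl hlM y _ rfl]
    exact x.pushX_T Z2 hl hlM _)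
  have hT₂ : ∀ (l : ℕ) (hl : l.Prime) (hlM : ¬ l ∣ M) (y : LevelRho.Mod D (d.sys Z2)),
      Λ₂ (LevelRho.hOp D (d.sys Z2) hl hlM y) =
        LevelRho.hOp x.low (d.sys Z2) hl hlM (Λ₂ y) := fun l hl hlM y => Subtype.ext (by
    show x.pushX Z2 (x.WX Z2 (p (LevelRho.hOp D (d.sys Z2) hl hlM y)).1) =
      LL.T (x.lowRep Z2) hl hlM (x.pushX Z2 (x.WX Z2 (p y).1))
    rw [hpT l hl hlM y _ rfl]
    exact (congrArg (x.pushX Z2) (x.WX_T Z2 hl hlM _)).trans (x.pushX_T Z2 hl hlM _))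
  have hA₁ : ∀ (u : D.Del) (y : LevelRho.Mod D (d.sys Z2)),
      Λ₁ (LevelRho.actE D (d.sys Z2) u y) =
        LevelRho.actE x.low (d.sys Z2) (moveDel D i u) (Λ₁ y) := fun u y => Subtype.ext (by
    show x.pushX Z2 (p (diaLam d D u y)).1 = _
    rw [hpA u y]
    exact x.pushX_act Z2 _ _)
  have hA₂ : ∀ (u : D.Del) (y : LevelRho.Mod D (d.sys Z2)),
      Λ₂ (LevelRho.actE D (d.sys Z2) u y) =
        LevelRho.actE x.low (d.sys Z2) (moveDel D i u) (Λ₂ y) := fun u y => Subtype.ext (by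
    show x.pushX Z2 (x.WX Z2 (p (diaLam d D u y)).1) = _
    rw [hpA u y]
    exact (congrArg (x.pushX Z2) (x.WX_act Z2 _ _)).trans (x.pushX_act Z2 _ _))
  have hqN : ¬ D.Q i ∣ x.low.N0 := D.ndvd i
  refine Subtype.ext (newAt_eq_zero d (moveQ D i) (good_moveQ hD i) x h2 (hD.good_Q i) (hD.odd_Q i)
    (p _).2 ⟨?_, ?_⟩)
  · have e := congrArg Subtype.val (sub_eq_zero.2 (P.trace_inertia (good_low hD i) Λ₁ hT₁
      (moveDel D i) (fun _ => rfl) hA₁ (D.prime i) h2 hqN hi hA hσ g z))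
    rw [← map_sub] at e
    exact e
  · have e := congrArg Subtype.val (sub_eq_zero.2 (P.trace_inertia (good_low hD i) Λ₂ hT₂
      (moveDel D i) (fun _ => rfl) hA₂ (D.prime i) h2 hqN hi hA hσ g z))
    rw [← map_sub] at e
    exact e

theorem fixed_unr_R (hD : Good d D) (i : Fin r) (z : LevelRho.Mod D (d.sys Z2))
    (hz : ∀ v, diaLam d D (Pi.mulSingle i v) z = z)
    {A : ValuationSubring (AlgebraicClosure ℚ)} (hA : A.LiesOverPrime (D.Q i)) {σ : GQ}
    (hσ : σ ∈ A.inertiaSubgroupIn ℚ) (a b : Fin 2) : P.φ ((P.ρ σ - 1) a b) z = 0 := by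
  obtain ⟨m, rfl⟩ : ∃ m, r = m + 1 := ⟨r - 1, by have := i.isLt; omega⟩
  refine act_entries_kill P.π P.π_surjective P.ker_π P.φ (fun g => P.ρ g) P.span_res _ z
    (fun g => ?_) a b
  rw [sub_mul, one_mul, Matrix.trace_sub, map_sub, LinearMap.sub_apply, ← map_mul]
  exact trace_fixed P hD i z hz hA hσ g

end TraceAct

/-- the inertia of an auxiliary prime on the fixed classes -/
theorem Setup.fixed_unr_TQ (P : Setup d D) (hD : Good d D) (i : Fin r)
    (z : (d.sys Z2).E (lrRep D)) (hz : ∀ v, diaLam d D (Pi.mulSingle i v) z = z)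
    (A : ValuationSubring (AlgebraicClosure ℚ)) (hA : A.LiesOverPrime (D.Q i)) (σ : GQ)
    (hσ : σ ∈ A.inertiaSubgroupIn ℚ) (a b : Fin 2) : P.φQ ((P.ρQ σ - 1) a b) z = 0 :=
  quot_entry P.R.φ (RingHom.ker P.R.φ) P.φQ P.φQ_mk P.R.ρ σ a b z
    (P.traceAct.fixed_unr_R hD i z hz hA hσ a b)

end FLTAgent.R2.Lv

end
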