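import Fermat.Agent.R2.LevelRhoClauses
import Fermat.Agent.R2.EvalTwist

/-!
Area R2, parcel G1: the shape at two on the part of the system.

Per twist it is `LevelRho.two_twist`; it passes to the representation over the trace algebra by the
inner map to the product and to the part by the twists.
-/

set_option autoImplicit false
set_option linter.style.haveILetI false
set_option linter.unusedSectionVars false
set_option maxHeartbeats 1000000
set_option synthInstance.maxHeartbeats 100000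

noncomputable section

open Matrix IsLocalRing

namespace FLTAgent.R2.Lv

open FLTAgent.LL FLTAgent.R2.Coh

local notation "M2" => Matrix (Fin 2) (Fin 2)

/-- membership of the entries passes through an inner map to a subalgebra -/
theorem entry_mem_of_inner {κ C : Type} [CommRing C] [Algebra ℤ_[2] C]
    (T : Subalgebra ℤ_[2] (κ → C)) (F : M2 (κ → C) →ₐ[κ → C] M2 (κ → C)) (X Y : M2 T)
    (X' Y' : M2 (κ → C)) (hX : X.map Subtype.val = F X') (hY : Y.map Subtype.val = F Y')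
    (u v : T) (I : κ → Ideal C)
    (h : ∀ k a b, ((X' - (u : κ → C) • 1) * (Y' - (v : κ → C) • 1)) a b k ∈ I k)
    (a b : Fin 2) (k : κ) :
    ((((X - u • 1) * (Y - v • 1)) a b : T) : κ → C) k ∈ I k := by
  set P := (X' - (u : κ → C) • 1) * (Y' - (v : κ → C) • 1) with hP
  have hs : ∀ w : T, T.val.toRingHom.mapMatrix (w • (1 : M2 T)) = (w : κ → C) • 1 := fun w => by
    ext i j : 2
    rw [RingHom.mapMatrix_apply, Matrix.map_apply, Matrix.smul_apply, Matrix.smul_apply,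
      smul_eq_mul, smul_eq_mul, map_mul, Matrix.one_apply, Matrix.one_apply,
      apply_ite T.val.toRingHom, map_one, map_zero]
    rfl
  have e : T.val.toRingHom.mapMatrix ((X - u • 1) * (Y - v • 1)) = F P := by
    rw [map_mul, map_sub, map_sub, hs, hs, hP, map_mul, map_sub, map_sub, map_smul, map_smul,
      map_one]
    exact congrArg₂ (· * ·) (congrArg (· - _) hX) (congrArg (· - _) hY)
  have e2 : F P = ∑ i, ∑ j, P i j • F (Matrix.single i j 1) := by
    conv_lhs => rw [Matrix.matrix_eq_sum_single P]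
    simp only [map_sum]
    refine Finset.sum_congr rfl fun i _ => Finset.sum_congr rfl fun j _ => ?_
    rw [← map_smul, Matrix.smul_single, smul_eq_mul, mul_one]
  rw [show ((((X - u • 1) * (Y - v • 1)) a b : T) : κ → C) =
    T.val.toRingHom.mapMatrix ((X - u • 1) * (Y - v • 1)) a b from rfl, e, e2]
  simp only [Matrix.sum_apply, Finset.sum_apply, Matrix.smul_apply, smul_eq_mul, Pi.mul_apply]
  exact Ideal.sum_mem _ fun i _ => Ideal.sum_mem _ fun j _ => Ideal.mul_mem_right _ _ (h k i j)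

/-- the components of the shape of a twisted representation -/
theorem twisted_shape_apply {O C κ : Type} [CommRing O] [CommRing C] [Algebra O C]
    [Algebra ℤ_[2] C] (T : Subalgebra ℤ_[2] (κ → C)) (χ : κ → GQ →* O) (R₀ : GQ →* M2 C)
    (g h : GQ) (c : ℤ_[2]) (co : O) (hco : algebraMap ℤ_[2] C c = algebraMap O C co) (t : T)
    (m m' : ℕ) (k : κ) (a b : Fin 2) :
    ((LevelRho.twistedRep χ R₀ g - ((algebraMap ℤ_[2] T c * t ^ m : T) : κ → C) • 1) *
        (LevelRho.twistedRep χ R₀ h - ((t ^ m' : T) : κ → C) • 1)) a b k =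
      ((χ k g • R₀ g - (algebraMap O C co * ((t : κ → C) k) ^ m) • (1 : M2 C)) *
        (χ k h • R₀ h - ((t : κ → C) k) ^ m' • (1 : M2 C))) a b := by
  have e : ∀ (σ : GQ) (w : κ → C) (i j : Fin 2),
      (LevelRho.twistedRep χ R₀ σ - w • (1 : M2 (κ → C))) i j k =
        (χ k σ • R₀ σ - w k • (1 : M2 C)) i j := fun σ w i j => by
    rw [Matrix.sub_apply, Matrix.sub_apply, Pi.sub_apply, LevelRho.twistedRep_apply,
      Matrix.smul_apply, Matrix.smul_apply, Matrix.smul_apply, smul_eq_mul, smul_eq_mul,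
      Pi.mul_apply, Matrix.one_apply, Matrix.one_apply]
    split_ifs <;> rfl
  have e1 : ((algebraMap ℤ_[2] T c * t ^ m : T) : κ → C) k =
      algebraMap O C co * ((t : κ → C) k) ^ m := by
    rw [MulMemClass.coe_mul, Pi.mul_apply, Subalgebra.coe_algebraMap, Pi.algebraMap_apply, hco,
      SubmonoidClass.coe_pow, Pi.pow_apply]
  have e2 : ((t ^ m' : T) : κ → C) k = ((t : κ → C) k) ^ m' := by
    rw [SubmonoidClass.coe_pow, Pi.pow_apply]
  rw [Matrix.mul_apply, Matrix.mul_apply, Finset.sum_apply]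
  exact Finset.sum_congr rfl fun j _ => by rw [Pi.mul_apply, e, e, e1, e2]

/-- the shape passes from the twists to the module -/
theorem inner_kill {O C κ V : Type} [CommRing O] [CommRing C] [Algebra O C] [Algebra ℤ_[2] C]
    [AddCommGroup V] [Module ℤ_[2] V] (T : Subalgebra ℤ_[2] (κ → C)) (χ : κ → GQ →* O)
    (R₀ : GQ →* M2 C) (ρ : GQ →* M2 T) (F : M2 (κ → C) →ₐ[κ → C] M2 (κ → C))
    (hρ : ∀ σ, (ρ σ).map Subtype.val = F (LevelRho.twistedRep χ R₀ σ))
    (φ : T →ₐ[ℤ_[2]] Module.End ℤ_[2] V) (z : V) (I : κ → Ideal C)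
    (hφ : ∀ u : T, (∀ k, (u : κ → C) k ∈ I k) → φ u z = 0) (g h : GQ) (c : ℤ_[2]) (co : O)
    (hco : algebraMap ℤ_[2] C c = algebraMap O C co) (t : T) (m m' : ℕ)
    (H : ∀ k a b, ((χ k g • R₀ g - (algebraMap O C co * ((t : κ → C) k) ^ m) • (1 : M2 C)) *
      (χ k h • R₀ h - ((t : κ → C) k) ^ m' • (1 : M2 C))) a b ∈ I k) (a b : Fin 2) :
    φ (((ρ g - (algebraMap ℤ_[2] T c * t ^ m) • (1 : M2 T)) *
      (ρ h - t ^ m' • (1 : M2 T))) a b) z = 0 := by
  refine hφ _ fun k => entry_mem_of_inner T F (ρ g) (ρ h) _ _ (hρ g) (hρ h) _ _ I ?_ a b k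
  intro k a b
  rw [twisted_shape_apply T χ R₀ g h c co hco t m m' k a b]
  exact H k a b

/-- the shape on a quotient acting compatibly -/
theorem quot_shape {T V : Type} [CommRing T] [Algebra Z2 T] [AddCommGroup V] [Module Z2 V]
    (φ : T →ₐ[Z2] Module.End Z2 V) (I : Ideal T) (φI : (T ⧸ I) →ₐ[Z2] Module.End Z2 V)
    (hφI : ∀ t, φI (Ideal.Quotient.mk I t) = φ t) (ρ : GQ →* M2 T) (g h : GQ) (c : Z2)
    (t' : T ⧸ I) (m m' : ℕ) (a b : Fin 2) (v : V)
    (hv : ∀ t, φ t = φI t' →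
      φ (((ρ g - (algebraMap Z2 T c * t ^ m) • 1) * (ρ h - t ^ m' • (1 : M2 T))) a b) v = 0) :
    φI (((quotRep I ρ g - (algebraMap Z2 (T ⧸ I) c * t' ^ m) • (1 : M2 (T ⧸ I))) *
      (quotRep I ρ h - t' ^ m' • (1 : M2 (T ⧸ I)))) a b) v = 0 := by
  obtain ⟨t, rfl⟩ := Ideal.Quotient.mk_surjective t'
  specialize hv t (hφI t).symm
  set q := Ideal.Quotient.mk I
  have e : ∀ (σ : GQ) (u : T), quotRep I ρ σ - q u • (1 : M2 (T ⧸ I)) =
      q.mapMatrix (ρ σ - u • 1) := fun σ u => by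
    ext i j
    simp [quotRep_apply, q, Matrix.one_apply, apply_ite (Ideal.Quotient.mk I)]
  rw [show algebraMap Z2 (T ⧸ I) c = q (algebraMap Z2 T c) from rfl, ← map_pow, ← map_pow,
    ← map_mul, e, e, ← map_mul, RingHom.mapMatrix_apply, Matrix.map_apply, hφI]
  exact hv

/-- the elements killing a vector of the part -/
def killVecIdeal {O : Type} [CommRing O] [IsLocalRing O] {M₀ L : ℕ} [NeZero L]
    (LD : JTors.LatticeData L) (s : LL.Sys M₀ O) (S : Finset ℕ) (y : LL.lamPart LD s) :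
    Ideal (LL.lamHecke LD s S) where
  carrier := {v | (v : Module.End O (LL.lamPart LD s)) y = 0}
  zero_mem' := by simp
  add_mem' := fun {v v'} hv hv' => by
    show ((v + v' : LL.lamHecke LD s S) : Module.End O (LL.lamPart LD s)) y = 0
    rw [AddMemClass.coe_add, LinearMap.add_apply, hv, hv', add_zero]
  smul_mem' := fun c v hv => by
    show ((c * v : LL.lamHecke LD s S) : Module.End O (LL.lamPart LD s)) y = 0
    rw [MulMemClass.coe_mul, Module.End.mul_apply, hv, map_zero]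

variable {W : WeierstrassCurve ℤ} {hW : IsAnchor W} {M r : ℕ} [NeZero M] {d : SysData hW M}
  {D : AuxData M r}

namespace Setup

variable (P : Setup d D)

theorem two_R_aux (x : Exact D 2) (e : ℕ) (he : ∀ i, (D.H i).index ∣ 2 ^ e) (t : P.R.T)
    (z : LevelRho.Mod D (d.sys Z2)) (hz : x.NewAt ℤ_[2] z.1)
    (hWz : x.WX ℤ_[2] z.1 = -(P.R.φ t z).1) {g h : GQ}
    (hg : g ∈ placeTwo.decompositionSubgroup ℚ) (hh : h ∈ placeTwo.decompositionSubgroup ℚ)
    {m m' : ℕ} (hm : Attach.cyc (mers e) g = 2 ^ m) (hm' : Attach.cyc (mers e) h = 2 ^ m')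
    {φ : GQ} (hφ : placeTwo.IsFrobeniusAt φ 2) (hne : rb2 hW φ ≠ 1)
    (hfull : Submodule.span (ZMod 2) (Set.range (rb2 hW)) = ⊤) (a b : Fin 2) :
    P.R.φ (((P.R.ρ g - (algebraMap ℤ_[2] P.R.T
        (Attach.cycR Nat.prime_two LevelRho.two_mem g) * t ^ m) • (1 : M2 P.R.T)) *
      (P.R.ρ h - t ^ m' • (1 : M2 P.R.T))) a b) z = 0 :=
  inner_kill (C := LevelRho.TL (d.sys Z2) P.O P.LD P.S) P.R.T
    (fun k => ((P.cs k).chi).comp (LevelRho.cycU M)) P.R.R₀ P.R.ρ P.R.F P.R.map_ρ P.R.φ z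
    (fun k => killVecIdeal P.LD (sysMap P.O (d.sys Z2)) P.S
      (LevelRho.twist (d.sys Z2) P.O P.hL P.LD (P.cs k) (P.hχ k) z))
    (fun u hu => P.R.twist_injective _ fun k => (P.R.twist_φ k u z).trans (hu k)) g h _
    (Attach.cycR Nat.prime_two LevelRho.two_mem_O g)
    ((IsScalarTower.algebraMap_apply ℤ_[2] P.O (LevelRho.TL (d.sys Z2) P.O P.LD P.S) _).trans
      (congrArg _ (LevelRho.cycR_map (O := P.O) g).symm)) t m m'
    (fun k a b =>
      haveI := P.R.isLocalRingTL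
      haveI := P.R.isLocalHomTL
      LevelRho.two_twist (d.sys Z2) P.LD P.R.R₀ P.R.Θ (rb2 hW) P.R.res_R₀ hfull x P.hL
        P.R.two_mem_S P.R.mem_S P.R.Θ_injective P.R.Θ_scalar P.R.Θ_gal P.R.det_R₀ hφ hne (P.cs k)
        (P.hχ k) he _ z (P.R.φ t z) hz hWz (P.R.twist_φ k t z) hg hh hm hm' a b) a b

theorem two_TQ (hD : Good d D) (x : Exact D 2) (h2 : (2 : Z2) ∈ maximalIdeal Z2) (e : ℕ)
    (he : ∀ i, (D.H i).index ∣ 2 ^ e) (t : P.TQ) (z : (d.sys Z2).E (lrRep D))
    (hz : x.NewAt Z2 z.1) (hWz : x.WX Z2 z.1 = -(P.φQ t z).1) (g : GQ)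
    (hg : g ∈ placeTwo.decompositionSubgroup ℚ) (h : GQ)
    (hh : h ∈ placeTwo.decompositionSubgroup ℚ) (m m' : ℕ)
    (hm : Attach.cyc (mers e) g = 2 ^ m) (hm' : Attach.cyc (mers e) h = 2 ^ m') (a b : Fin 2) :
    P.φQ (((P.ρQ g - (algebraMap Z2 P.TQ (Attach.cycR Nat.prime_two h2 g) * t ^ m) •
        (1 : M2 P.TQ)) * (P.ρQ h - t ^ m' • (1 : M2 P.TQ))) a b) z = 0 :=
  (exists_frobTwo_ne_one hW).elim fun φ hφ =>
    (Alg.exists_place_frobenius d.l0 d.prime).elim fun _ hP0 => hP0.elim fun σ₀ hσ₀ =>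
      quot_shape P.R.φ (RingHom.ker P.R.φ) P.φQ P.φQ_mk P.R.ρ g h _ t m m' a b z fun t₀ ht₀ =>
        P.two_R_aux x e he t₀ z hz
          (hWz.trans (congrArg (fun u : Module.End Z2 ((d.sys Z2).E (lrRep D)) => -(u z).1)
            ht₀.symm)) hg hh hm hm' hφ.1 hφ.2
          (span_rb2_eq_top hW ((trace_rb2 hW d.prime d.l0_ne_two d.good hσ₀.1 hσ₀.2).trans
            (apOfModel_cast_two d.odd_ap))) a b

end Setup

end FLTAgent.R2.Lv

end
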