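import Fermat.Agent.R2.LevelRhoDefs
import Fermat.Agent.R2.LevelRhoTwo
import Fermat.Agent.R2.LevelRhoFixed

/-!
Area R2, parcel G1: existence of the representation on the part of the system (`Rho`): the quotient
of the trace algebra of a setup that acts faithfully, with its clauses.
-/

set_option autoImplicit false
set_option linter.style.haveILetI false

noncomputable section

open Matrix IsLocalRing

namespace FLTAgent.R2.Lv

open FLTAgent.LL FLTAgent.R2.Coh

variable {W : WeierstrassCurve ℤ} {hW : IsAnchor W} {M r : ℕ} [NeZero M]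

namespace TraceAct

variable {d : SysData hW M} {D : AuxData M r} (A : TraceAct d D)

/-- the algebra acting faithfully -/
abbrev TF : Type := A.T ⧸ RingHom.ker A.φ

/-- its representation -/
abbrev ρF : GQ →* Matrix (Fin 2) (Fin 2) A.TF := quotRep (RingHom.ker A.φ) A.ρ

/-- its action -/
abbrev φF : A.TF →ₐ[Z2] Module.End Z2 ((d.sys Z2).E (lrRep D)) :=
  Ideal.Quotient.liftₐ (RingHom.ker A.φ) A.φ fun _ ha => ha

/-- the representation, from the traces and the local clauses -/
theorem nonempty_rho' (hne : (d.sys Z2).E (lrRep D) ≠ ⊥)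
    (hgen : Algebra.adjoin Z2 (Set.range fun σ => (A.ρ σ).trace) = ⊤)
    (bad : ∀ q : ℕ, q.Prime → q ≠ 2 → q ∣ D.N0 →
      ∀ P : ValuationSubring (AlgebraicClosure ℚ), P.LiesOverPrime q →
        ∀ σ ∈ P.inertiaSubgroupIn ℚ, (A.ρF σ - 1) * (A.ρF σ - 1) = 0)
    (fixed : ∀ (i : Fin r) (z : (d.sys Z2).E (lrRep D)),
      (∀ v, diaLam d D (Pi.mulSingle i v) z = z) →
      ∀ P : ValuationSubring (AlgebraicClosure ℚ), P.LiesOverPrime (D.Q i) →
        ∀ σ ∈ P.inertiaSubgroupIn ℚ, ∀ a b, A.φF ((A.ρF σ - 1) a b) z = 0)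
    (quartic : ∀ (q : ℕ) (x : Exact D q), q ≠ 2 → ∀ z : (d.sys Z2).E (lrRep D),
      x.NewAt Z2 z.1 →
      ∀ (P : ValuationSubring (AlgebraicClosure ℚ)), P.LiesOverPrime q →
      ∀ τ : GQ, P.IsFrobeniusAt τ q →
        A.φF ((q : A.TF) * (A.ρF τ).trace ^ 2) z =
          A.φF ((1 + (q : A.TF)) ^ 2 * (A.ρF τ).det) z)
    (two : ∀ (x : Exact D 2) (h2 : (2 : Z2) ∈ maximalIdeal Z2) (e : ℕ),
      (∀ i, (D.H i).index ∣ 2 ^ e) → ∀ (t : A.TF) (z : (d.sys Z2).E (lrRep D)),
      x.NewAt Z2 z.1 → x.WX Z2 z.1 = -(A.φF t z).1 →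
      ∀ g ∈ placeTwo.decompositionSubgroup ℚ, ∀ h ∈ placeTwo.decompositionSubgroup ℚ,
      ∀ m m' : ℕ, Attach.cyc (mers e) g = 2 ^ m → Attach.cyc (mers e) h = 2 ^ m' → ∀ a b,
        A.φF (((A.ρF g - (algebraMap Z2 A.TF (Attach.cycR Nat.prime_two h2 g) * t ^ m) •
            (1 : Matrix (Fin 2) (Fin 2) A.TF)) *
          (A.ρF h - t ^ m' • (1 : Matrix (Fin 2) (Fin 2) A.TF))) a b) z = 0) :
    Nonempty (Rho d D) := by
  haveI : Nontrivial A.TF := Ideal.Quotient.nontrivial_iff.2 fun h =>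
    hne ((Submodule.eq_bot_iff _).2 fun x hx => by
      have h1 : A.φ 1 = 0 := RingHom.mem_ker.1 ((Ideal.eq_top_iff_one _).1 h)
      rw [map_one] at h1
      exact congrArg Subtype.val (LinearMap.congr_fun h1 ⟨x, hx⟩))
  haveI : IsLocalRing A.TF :=
    IsLocalRing.of_surjective' (Ideal.Quotient.mk (RingHom.ker A.φ)) Ideal.Quotient.mk_surjective
  haveI : Module.Finite Z2 A.TF :=
    Module.Finite.of_surjective (Ideal.Quotient.mkₐ Z2 (RingHom.ker A.φ)).toLinearMap
      Ideal.Quotient.mk_surjective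
  refine ⟨{ T := A.TF
            ρ := A.ρF
            φ := A.φF
            φ_injective := ?_
            gen := gen_quotRep _ _ hgen
            level := level_quotRep _ _ A.level
            res := res_quotRep _ _ A.π A.ker_π (fun σ => rb2 hW σ) A.res
            trace := ?_
            det := ?_
            unr := fun q hq hq2 hqN hqQ P hP σ hσ =>
              quotRep_eq_one _ _ (A.unr q hq hq2 hqN hqQ P hP σ hσ)
            bad := bad
            fixed_unr := fixed
            quartic := quartic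
            two := two }⟩
  · refine (injective_iff_map_eq_zero _).2 fun t ht => ?_
    obtain ⟨t, rfl⟩ := Ideal.Quotient.mk_surjective t
    exact Ideal.Quotient.eq_zero_iff_mem.2 ht
  · intro l hl hlM hl2 _ P hP τ hτ x
    rw [trace_quotRep]
    show (A.φ (A.ρ τ).trace x).1 = _
    rw [A.frob l hl hlM hl2 P hP τ hτ]
    rfl
  · intro σ h2 a ha
    rw [det_quotRep]
    show A.φ (A.ρ σ).det = _
    rw [A.φ_det]
    have e : D.cls (LevelRho.cycU M σ)⁻¹ = fun i => QuotientGroup.mk (a i)⁻¹ := funext fun i => by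
      haveI : NeZero (D.Q i) := ⟨(D.prime i).ne_zero⟩
      show QuotientGroup.mk (ZMod.unitsMap (D.dvd i) (LevelRho.cycU M σ)⁻¹) = _
      rw [map_inv]
      exact congrArg (fun u => QuotientGroup.mk u⁻¹)
        (Units.ext ((Attach.cyc_cast (D.dvd i) σ).trans (ha i).symm))
    rw [e]
    rfl

end TraceAct

/-- the representation exists as soon as the part is not zero -/
theorem nonempty_rho (d : SysData hW M) (D : AuxData M r) (h : Good d D)
    (hne : (d.sys Z2).E (lrRep D) ≠ ⊥) : Nonempty (Rho d D) := by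
  obtain ⟨P⟩ := exists_setup d D h hne
  exact P.traceAct.nonempty_rho' hne P.R.gen (P.bad_TQ h.sqfree) (P.fixed_unr_TQ h)
    (fun q x hq z hz A hA τ hτ => P.quartic_TQ q x hq z hz A hA τ hτ) (P.two_TQ h)

end FLTAgent.R2.Lv

end
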