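import Fermat.Agent.R2.Curve
import Fermat.Agent.R2.Tame
import Fermat.Agent.R2.PatchDual
import Fermat.Agent.R2.LevelRho
import Mathlib.RingTheory.Nakayama

/-!
Area R2, parcel G5: lemmas for the passage from the sign part to the module of a level.

Tame inertia at a Taylor–Wiles prime commutes with a Frobenius of residual order three; powers of
two modulo `mers e` determine the exponent modulo `2 ^ (e + 1)`.
-/

set_option autoImplicit false
set_option linter.style.haveILetI false

noncomputable section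

open Matrix IsLocalRing

namespace FLTAgent.R2.Lv

local notation "M₂" => Matrix (Fin 2) (Fin 2)

theorem two_pow_mers (e : ℕ) : (2 : ZMod (mers e)) ^ 2 ^ (e + 1) = 1 := by
  have h : 2 ^ 2 ^ (e + 1) = mers e + 1 :=
    (Nat.succ_pred_eq_of_pos (Nat.two_pow_pos _)).symm
  rw [← Nat.cast_ofNat, ← Nat.cast_pow, h, Nat.cast_add, ZMod.natCast_self, zero_add, Nat.cast_one]

theorem mod_eq_of_two_pow_mers {e a b : ℕ} (h : (2 : ZMod (mers e)) ^ a = 2 ^ b) :
    a % 2 ^ (e + 1) = b % 2 ^ (e + 1) := by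
  have hlt : ∀ j, j < 2 ^ (e + 1) → 2 ^ j < mers e := fun j hj => by
    have h1 : 2 ^ j * 2 ≤ 2 ^ 2 ^ (e + 1) := by
      rw [← pow_succ]
      exact Nat.pow_le_pow_right two_pos hj
    have h2 : 2 ≤ 2 ^ (e + 1) := Nat.le_self_pow e.succ_ne_zero 2
    have h3 : 4 ≤ 2 ^ 2 ^ (e + 1) := le_trans (by norm_num) (Nat.pow_le_pow_right two_pos h2)
    unfold mers
    have h4 : 1 ≤ 2 ^ j := Nat.one_le_two_pow
    rcases Nat.eq_zero_or_pos j with rfl | hj0
    · omega
    · have : 2 ≤ 2 ^ j := Nat.le_self_pow hj0.ne' 2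
      omega
  rw [pow_eq_pow_mod a (two_pow_mers e), pow_eq_pow_mod b (two_pow_mers e)] at h
  have h' : ((2 ^ (a % 2 ^ (e + 1)) : ℕ) : ZMod (mers e)) = ((2 ^ (b % 2 ^ (e + 1)) : ℕ) : ZMod _) := by
    push_cast
    exact h
  have hM : 0 < 2 ^ (e + 1) := Nat.two_pow_pos _
  rw [ZMod.natCast_eq_natCast_iff', Nat.mod_eq_of_lt (hlt _ (Nat.mod_lt _ hM)),
    Nat.mod_eq_of_lt (hlt _ (Nat.mod_lt _ hM))] at h'
  exact Nat.pow_right_injective le_rfl h'

theorem pow_congr_of_two_pow_mers {A : Type} [Monoid A] {t : A} {e a b : ℕ}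
    (ht : t ^ 2 ^ (e + 1) = 1) (h : (2 : ZMod (mers e)) ^ a = 2 ^ b) : t ^ a = t ^ b := by
  rw [pow_eq_pow_mod a ht, pow_eq_pow_mod b ht, mod_eq_of_two_pow_mers h]

theorem cycR_cast (N : ℕ) (h2 : (2 : Z2) ∈ maximalIdeal Z2) (g : GQ) :
    algebraMap Z2 (Lam N) (Attach.cycR Nat.prime_two h2 g) = chi N g := by
  have h := Attach.cycR_spec Nat.prime_two h2 g (N + 1)
  rw [PadicInt.maximalIdeal_eq_span_p, Ideal.span_singleton_pow, ← PadicInt.ker_toZModPow,
    RingHom.mem_ker, map_sub, map_natCast, sub_eq_zero, ZMod.natCast_zmod_val] at h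
  exact h

variable {R : Type} [CommRing R]

/-- the third commutator with a two by two matrix is the discriminant times the first -/
theorem comm_cube (F X : M₂ R) :
    F * (F * (F * X - X * F) - (F * X - X * F) * F) - (F * (F * X - X * F) - (F * X - X * F) * F) * F
      = (F.trace * F.trace - 4 * F.det) • (F * X - X * F) := by
  ext i j
  fin_cases i <;> fin_cases j <;>
    simp [Matrix.mul_apply, Matrix.trace_fin_two, Matrix.det_fin_two, Fin.sum_univ_two] <;> ring

variable [IsLocalRing R]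

theorem sq_pow_sub_one_mem (X : M₂ R) (h2 : (2 : R) ∈ maximalIdeal R)
    (hX : ∀ a b, (X - 1) a b ∈ maximalIdeal R) :
    ∀ (L : ℕ) (a b : Fin 2), (X ^ 2 ^ L - 1 : M₂ R) a b ∈ maximalIdeal R ^ (L + 1)
  | 0, a, b => by simpa using hX a b
  | L + 1, a, b => by
    have ih := sq_pow_sub_one_mem X h2 hX L
    set Y := X ^ 2 ^ L - 1 with hY
    have e : X ^ 2 ^ (L + 1) - 1 = Y * Y + (2 : R) • Y := by
      rw [pow_succ, pow_mul, hY, two_smul, pow_two, sub_mul, mul_sub, mul_one, one_mul]
      abel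
    rw [e, Matrix.add_apply, Matrix.smul_apply, smul_eq_mul, Matrix.mul_apply]
    refine add_mem (sum_mem fun c _ => ?_) ?_
    · exact Ideal.pow_le_pow_right (m := L + 1 + 1) (by omega)
        (pow_add (maximalIdeal R) (L + 1) (L + 1) ▸ Ideal.mul_mem_mul (ih a c) (ih c b))
    · rw [pow_succ' (maximalIdeal R) (L + 1)]
      exact Ideal.mul_mem_mul h2 (ih a b)

variable [Finite R]

theorem exists_pow_eq_one (h2 : (2 : R) ∈ maximalIdeal R) :
    ∃ L, ∀ X : M₂ R, (∀ a b, (X - 1) a b ∈ maximalIdeal R) → X ^ 2 ^ L = 1 := by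
  obtain ⟨L, hL⟩ := IsArtinianRing.isNilpotent_jacobson_bot (R := R)
  rw [IsLocalRing.jacobson_eq_maximalIdeal ⊥ bot_ne_top] at hL
  refine ⟨L, fun X hX => sub_eq_zero.1 (Matrix.ext fun a b => ?_)⟩
  have h := Ideal.pow_le_pow_right (I := maximalIdeal R) (Nat.le_succ L) (sq_pow_sub_one_mem X h2 hX L a b)
  rwa [hL] at h

/-- a residually trivial matrix sent to an odd power of itself, congruent to one modulo four, by a
matrix with odd trace commutes with it -/
theorem commute_of_tame (h2 : (2 : R) ∈ maximalIdeal R) {F X : M₂ R} {q : ℕ} (hq : Odd q)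
    (hX : ∀ a b, (X - 1) a b ∈ maximalIdeal R) (htr : F.trace - 1 ∈ maximalIdeal R)
    (hconj : F * X = X ^ q * F) : Commute F X := by
  set m := maximalIdeal R
  set E := F * X - X * F with hE
  set J : Ideal R := Ideal.span (Set.range fun ab : Fin 2 × Fin 2 => E ab.1 ab.2) with hJ
  have hEJ : ∀ a b, E a b ∈ J := fun a b => Ideal.subset_span ⟨(a, b), rfl⟩
  -- the commutator with a power
  have hpow : ∀ j : ℕ, ∀ a b,
      (F * X ^ j - X ^ j * F - (j : R) • E) a b ∈ m * J := by
    intro j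
    induction j with
    | zero => intro a b; simp
    | succ j ih =>
      intro a b
      have e : F * X ^ (j + 1) - X ^ (j + 1) * F - ((j + 1 : ℕ) : R) • E =
          (F * X ^ j - X ^ j * F - (j : R) • E) * X + (X ^ j - 1) * E + (j : R) • (E * (X - 1)) := by
        rw [Nat.cast_succ, add_smul, one_smul, hE, pow_succ]
        simp only [sub_mul, mul_sub, one_mul, mul_one, smul_sub, Matrix.smul_mul, mul_assoc]
        abel
      rw [e, Matrix.add_apply, Matrix.add_apply, Matrix.smul_apply, smul_eq_mul, Matrix.mul_apply,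
        Matrix.mul_apply, Matrix.mul_apply]
      refine add_mem (add_mem (sum_mem fun c _ => Ideal.mul_mem_right _ _ (ih a c))
        (sum_mem fun c _ => Ideal.mul_mem_mul ?_ (hEJ c b))) (Ideal.mul_mem_left _ _ (sum_mem fun c _ => ?_))
      · obtain ⟨G, hG⟩ : ∃ G, X ^ j - 1 = (X - 1) * G := ⟨_, (mul_geom_sum X j).symm⟩
        rw [hG, Matrix.mul_apply]
        exact sum_mem fun d _ => Ideal.mul_mem_right _ _ (hX a d)
      · rw [mul_comm (E a c)]
        exact Ideal.mul_mem_mul (hX c b) (hEJ a c)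
  obtain ⟨s, hs⟩ := hq
  have hD : ∀ a b, (F * E - E * F) a b ∈ m * J := by
    intro a b
    have hq1 : (q : R) - 1 ∈ m := by
      rw [hs, Nat.cast_add, Nat.cast_mul, Nat.cast_ofNat, Nat.cast_one, add_sub_cancel_right]
      exact Ideal.mul_mem_right _ _ h2
    set P := F * X ^ q - X ^ q * F - (q : R) • E with hP
    have e : F * E - E * F = (P + ((q : R) - 1) • E) * F := by
      rw [hP, sub_smul, one_smul, hE]
      simp only [sub_mul, mul_sub, add_mul]
      have h1 : F * (F * X) = F * X ^ q * F := by rw [hconj, mul_assoc]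
      have h2' : F * X * F = X ^ q * F * F := by rw [hconj]
      have h3 : F * (X * F) = F * X * F := (mul_assoc _ _ _).symm
      rw [h1, h3, h2']
      abel
    rw [e, Matrix.mul_apply]
    refine sum_mem fun c _ => Ideal.mul_mem_right _ _ ?_
    rw [Matrix.add_apply, Matrix.smul_apply, smul_eq_mul]
    exact add_mem (hpow q a c) (Ideal.mul_mem_mul hq1 (hEJ a c))
  have hJm : J ≤ m • J := by
    rw [smul_eq_mul, hJ]
    refine Ideal.span_le.2 ?_
    rintro _ ⟨⟨a, b⟩, rfl⟩
    have hu : IsUnit (F.trace * F.trace - 4 * F.det) := by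
      by_contra h
      have h4 : (4 : R) * F.det ∈ m := by
        rw [show (4 : R) = 2 * 2 by norm_num, mul_assoc]
        exact Ideal.mul_mem_right _ _ h2
      have h5 := sub_mem (add_mem ((mem_maximalIdeal _).2 h) h4)
        (Ideal.mul_mem_left _ (F.trace + 1) htr)
      rw [show F.trace * F.trace - 4 * F.det + 4 * F.det - (F.trace + 1) * (F.trace - 1) = 1 by ring]
        at h5
      exact (mem_maximalIdeal _).1 h5 isUnit_one
    have h3 : (F.trace * F.trace - 4 * F.det) * E a b ∈ m * J := by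
      have := congrFun (congrFun (comm_cube F X) a) b
      rw [← hE, Matrix.smul_apply, smul_eq_mul] at this
      rw [← this, Matrix.sub_apply, Matrix.mul_apply, Matrix.mul_apply]
      exact sub_mem (sum_mem fun c _ => Ideal.mul_mem_left _ _ (hD c b))
        (sum_mem fun c _ => Ideal.mul_mem_right _ _ (hD a c))
    obtain ⟨u, hu⟩ := hu
    rw [← hu] at h3
    have := Ideal.mul_mem_left _ ((u⁻¹ : Rˣ) : R) h3
    rwa [← mul_assoc, Units.inv_mul, one_mul] at this
  have hJ0 := Submodule.eq_bot_of_le_smul_of_le_jacobson_bot m J (IsNoetherian.noetherian _) hJm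
    (IsLocalRing.jacobson_eq_maximalIdeal (R := R) ⊥ bot_ne_top).ge
  refine sub_eq_zero.1 (Matrix.ext fun a b => ?_)
  have := hEJ a b
  rwa [hJ0, Ideal.mem_bot] at this

/-- at a Taylor–Wiles prime inertia commutes with Frobenius -/
theorem commute_frob {W : WeierstrassCurve ℤ} {hW : IsAnchor W} {B : Base W} {N n : ℕ}
    {K : Aux hW B N} (D : TW K n) (ρ : GQ →* M₂ R) (hlev : Deform.FinLevel fun σ => ρ σ)
    (hres : ∀ σ a b, ρ σ a b - (((rb hW σ) a b).val : R) ∈ maximalIdeal R)
    (h2 : (2 : R) ∈ maximalIdeal R) (i : Fin (rk W)) {σ : GQ}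
    (hσ : σ ∈ (D.place i).inertiaSubgroupIn ℚ) : Commute (ρ σ) (ρ (D.frob i)) := by
  obtain ⟨hq2, hg⟩ := good_of_not_dvd_lev K (D.prime i)
    (fun h => D.ndvd i (dvd_mul_of_dvd_left h _))
  have hone : ∀ τ ∈ (D.place i).inertiaSubgroupIn ℚ, ∀ a b, (ρ τ - 1) a b ∈ maximalIdeal R := by
    intro τ hτ a b
    have h := hres τ a b
    rw [show rb hW τ = 1 from rE_inertia_good hW 0 (D.prime i) hq2 hg (D.lies i) hτ] at h
    rw [Matrix.sub_apply]
    rcases eq_or_ne a b with rfl | hab
    · rw [Matrix.one_apply_eq]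
      rw [Matrix.one_apply_eq, show (1 : Lam 0).val = 1 from rfl, Nat.cast_one] at h
      exact h
    · rw [Matrix.one_apply_ne hab]
      rw [Matrix.one_apply_ne hab, ZMod.val_zero, Nat.cast_zero] at h
      exact h
  obtain ⟨L, hL⟩ := exists_pow_eq_one (R := R) h2
  obtain ⟨hgen, hfr⟩ := tame_image ρ hlev (D.prime i) hq2 (D.lies i)
    (fun τ hτ => hL _ (hone τ hτ)) (D.tau_mem i) (D.tau_sqrt i)
  have htr : (ρ (D.frob i)).trace - 1 ∈ maximalIdeal R := by
    have h := add_mem (hres (D.frob i) 0 0) (hres (D.frob i) 1 1)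
    have key : ∀ a b : Lam 0, a + b = 1 → a.val + b.val = 1 := by decide
    have e := key _ _ (by rw [← Matrix.trace_fin_two]; exact D.order_three i)
    rw [Matrix.trace_fin_two]
    have e' : (((rb hW (D.frob i)) 0 0).val : R) + (((rb hW (D.frob i)) 1 1).val : R) = 1 := by
      exact_mod_cast congrArg (Nat.cast (R := R)) e
    convert h using 1
    linear_combination e'
  obtain ⟨j, hj⟩ := hgen σ hσ
  rw [hj]
  exact ((commute_of_tame h2 ((D.prime i).odd_of_ne_two hq2) (hone _ (D.tau_mem i)) htr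
    (hfr _ (D.frob_spec i)).1).symm).pow_left j

end FLTAgent.R2.Lv

end
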