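import Fermat.Agent.R2.Level
import Fermat.Agent.R2.LevelSys
import Fermat.Agent.R2.LevelRho
import Fermat.Agent.R2.LevelPreAux
import Fermat.Agent.PT.Tool.Places

/-!
Area R2, parcel G5: from the part of the cohomology to the module of a level.

A `Pre` is the sign part itself, with the action of the trace algebra over the two-adic integers and
all local clauses stated as equations of operators; the module of the level is its dual over `Lam N`.
-/

set_option autoImplicit false
set_option linter.style.haveILetI false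

noncomputable section

open Matrix IsLocalRing

namespace FLTAgent.R2.Lv

variable {W : WeierstrassCurve ℤ} {hW : IsAnchor W} {B : Base W} {N : ℕ}

/-- products of powers of the diamond generators -/
def diaT {T : Type} [CommRing T] {n : ℕ} {K : Aux hW B N} (D : TW K n)
    (ρ : GQ →* Matrix (Fin 2) (Fin 2) T) (u : Fin (rk W) → Fin (2 ^ (n + 1))) : T :=
  ∏ i, (ρ (D.tau i)).det ^ (u i : ℕ)

/-- the elements fixed by the diamonds -/
def fixedPart {T P : Type} [CommRing T] [AddCommGroup P] [Module (Lam N) P] {n : ℕ}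
    {K : Aux hW B N} (D : TW K n) (ρ : GQ →* Matrix (Fin 2) (Fin 2) T)
    (θ : T →+* Module.End (Lam N) P) : Submodule (Lam N) P :=
  ⨅ i, LinearMap.ker (θ (ρ (D.tau i)).det - 1)

/-- the sign part of a level -/
structure Pre (ε : ℤˣ) (K : Aux hW B N) {n : ℕ} (D : TW K n) (d : ℕ) : Type 1 where
  T : Type
  [commRing : CommRing T]
  [isLocalRing : IsLocalRing T]
  [algebra : Algebra Z2 T]
  ρ : GQ →* Matrix (Fin 2) (Fin 2) T
  gen : Algebra.adjoin Z2 (Set.range fun σ => (ρ σ).trace) = ⊤
  res : ∀ σ a b, ρ σ a b - (((rb hW σ) a b).val : T) ∈ maximalIdeal T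
  P : Type
  [addCommGroup : AddCommGroup P]
  [module : Module (Lam N) P]
  θ : T →+* Module.End (Lam N) P
  θ_alg : ∀ c : Z2, θ (algebraMap Z2 T c) = algebraMap Z2 (Lam N) c • 1
  level : ∃ L : IntermediateField ℚ (AlgebraicClosure ℚ), FiniteDimensional ℚ L ∧
    ∀ σ : GQ, (∀ x ∈ L, σ x = x) → ∀ a b, θ ((ρ σ - 1) a b) = 0
  unr : ∀ q : ℕ, q.Prime → q ≠ 2 → q ∉ badOdd W → (∀ i, K.q i ≠ q) → (∀ i, D.Q i ≠ q) →
    ∀ P : ValuationSubring (AlgebraicClosure ℚ), P.LiesOverPrime q →
      ∀ σ ∈ P.inertiaSubgroupIn ℚ, ∀ a b, θ ((ρ σ - 1) a b) = 0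
  det : ∀ σ, Attach.cyc D.R σ = 1 → θ (ρ σ).det = chi N σ • 1
  bad : ∀ q ∈ badOdd W, ∀ P : ValuationSubring (AlgebraicClosure ℚ), P.LiesOverPrime q →
    ∀ σ ∈ P.inertiaSubgroupIn ℚ, ∀ a b, θ (((ρ σ - 1) * (ρ σ - 1)) a b) = 0
  aux : ∀ i, ∀ σ ∈ (K.place i).inertiaSubgroupIn ℚ,
    ∀ a b, θ (((ρ σ - 1) * (ρ σ - 1)) a b) = 0
  aux_tr : ∀ i, θ ((ρ (K.frob i)).trace ^ 2) = 0
  t : T
  t_g2 : chi N D.g2 • θ t = ((ε : ℤ) : Lam N) • θ (ρ D.g2).det
  t_pow : θ t ^ 2 ^ (n + 2) = 1
  two : ∀ (h2 : (2 : Z2) ∈ maximalIdeal Z2),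
    ∀ g ∈ placeTwo.decompositionSubgroup ℚ, ∀ h ∈ placeTwo.decompositionSubgroup ℚ,
    ∀ m m' : ℕ, Attach.cyc (mers (n + 1)) g = 2 ^ m → Attach.cyc (mers (n + 1)) h = 2 ^ m' →
      ∀ a b, θ (((ρ g - (algebraMap Z2 T (Attach.cycR Nat.prime_two h2 g) * t ^ m) •
          (1 : Matrix (Fin 2) (Fin 2) T)) *
        (ρ h - t ^ m' • (1 : Matrix (Fin 2) (Fin 2) T))) a b) = 0
  pow_dia : ∀ i, θ ((ρ (D.tau i)).det ^ 2 ^ (n + 1)) = 1
  fixed_unr : ∀ i x, θ (ρ (D.tau i)).det x = x →
    ∀ σ ∈ (D.place i).inertiaSubgroupIn ℚ, ∀ a b, θ ((ρ σ - 1) a b) x = 0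
  basis : ∃ e : Fin d → P, Function.Bijective
    fun c : Fin d → (Fin (rk W) → Fin (2 ^ (n + 1))) → Lam N =>
      ∑ j, ∑ u, c j u • θ (diaT D ρ u) (e j)
  m : ℕ
  down : Fin m → (fixedPart D ρ θ →ₗ[Lam N] LL.H1 (botRep K))
  down_inj : ∀ x : fixedPart D ρ θ, (∀ j, down j x = 0) → x = 0
  down_T : ∀ (l : ℕ) (hl : l.Prime) (hlK : ¬ l ∣ K.lev), ¬ (l : ℤ) ∣ W.Δ → l ∉ D.aux →
    ∀ (V : ValuationSubring (AlgebraicClosure ℚ)), V.LiesOverPrime l →
    ∀ τ : GQ, V.IsFrobeniusAt τ l → ∀ x x' : fixedPart D ρ θ,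
      (x' : P) = θ (ρ τ).trace x →
        ∀ j, down j x' = LL.T (botRep K) hl hlK (down j x)

attribute [instance] Pre.commRing Pre.isLocalRing Pre.algebra Pre.addCommGroup Pre.module

set_option maxHeartbeats 1600000 in
/-- the sign part gives the module of the level -/
theorem nonempty_lev {ε : ℤˣ} {K : Aux hW B N} {n : ℕ} {D : TW K n} {d : ℕ} (hd : 0 < d)
    (S : Pre ε K D d) : Nonempty (Lev ε K D d) := by
  classical
  haveI : Fact (Nat.Prime 2) := ⟨Nat.prime_two⟩
  let U := Fin (rk W) → Fin (2 ^ (n + 1))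
  obtain ⟨e, he⟩ := S.basis
  let Bl : (Fin d → U → Lam N) →ₗ[Lam N] S.P :=
    { toFun := fun c => ∑ j, ∑ u, c j u • S.θ (diaT D S.ρ u) (e j)
      map_add' := fun a b => by simp [add_smul, Finset.sum_add_distrib]
      map_smul' := fun c a => by simp [Finset.smul_sum, mul_smul] }
  let Be : (Fin d → U → Lam N) ≃ₗ[Lam N] S.P := LinearEquiv.ofBijective Bl he
  haveI : Finite S.P := Finite.of_equiv _ Be.toEquiv
  haveI : Nontrivial S.P := by
    haveI : Nonempty (Fin d) := ⟨⟨0, hd⟩⟩
    exact Be.injective.nontrivial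
  haveI : Module.Free (Lam N) S.P := Module.Free.of_equiv Be
  haveI : Module.Finite (Lam N) S.P := Module.Finite.equiv Be
  -- the ring
  let R := S.T ⧸ RingHom.ker S.θ
  let π : S.T →+* R := Ideal.Quotient.mk _
  let θR : R →+* Module.End (Lam N) S.P := RingHom.kerLift S.θ
  have hθR : ∀ x, θR (π x) = S.θ x := fun x => RingHom.kerLift_mk _ _
  have hinj : Function.Injective θR := RingHom.kerLift_injective _
  have hz : ∀ x, π x = 0 ↔ S.θ x = 0 := fun x => by
    rw [Ideal.Quotient.eq_zero_iff_mem, RingHom.mem_ker]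
  haveI : Nontrivial R := by
    refine ⟨⟨0, 1, fun h => ?_⟩⟩
    have h' := congrArg θR h
    rw [map_zero, map_one] at h'
    obtain ⟨x, hx⟩ := exists_ne (0 : S.P)
    exact hx (LinearMap.congr_fun h' x).symm
  haveI : IsLocalRing R := IsLocalRing.of_surjective' π Ideal.Quotient.mk_surjective
  haveI : Finite (Module.End (Lam N) S.P) := Finite.of_injective _ DFunLike.coe_injective
  haveI : Finite R := Finite.of_injective _ hinj
  have hker : RingHom.ker (algebraMap Z2 (Lam N)) ≤ RingHom.ker (π.comp (algebraMap Z2 S.T)) :=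
    fun c hc => by
      rw [RingHom.mem_ker, RingHom.comp_apply, hz, S.θ_alg, RingHom.mem_ker.1 hc, zero_smul]
  let alg : Lam N →+* R :=
    RingHom.liftOfSurjective (algebraMap Z2 (Lam N)) (algebraMap_surjective N) ⟨_, hker⟩
  have halg : ∀ c, alg (algebraMap Z2 (Lam N) c) = π (algebraMap Z2 S.T c) := fun c =>
    RingHom.liftOfRightInverse_comp_apply _ _ _ _ c
  letI : Algebra (Lam N) R := alg.toAlgebra
  have hθalg : ∀ z : Lam N, θR (algebraMap (Lam N) R z) = z • 1 := fun z => by
    obtain ⟨c, rfl⟩ := algebraMap_surjective N z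
    show θR (alg _) = _
    rw [halg, hθR, S.θ_alg]
  let ρR : GQ →* Matrix (Fin 2) (Fin 2) R := π.mapMatrix.toMonoidHom.comp S.ρ
  have hρR : ∀ σ, ρR σ = (S.ρ σ).map π := fun σ => rfl
  have hmap : ∀ (A B' : Matrix (Fin 2) (Fin 2) S.T), (∀ a b, S.θ ((A - B') a b) = 0) →
      π.mapMatrix A = π.mapMatrix B' := fun A B' h => Matrix.ext fun a b => by
    have := (hz _).2 (h a b)
    rwa [Matrix.sub_apply, map_sub, sub_eq_zero] at this
  have hm : ∀ x, x ∈ maximalIdeal S.T → π x ∈ maximalIdeal R := fun x hx => by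
    rw [← IsLocalRing.map_maximalIdeal_of_surjective π Ideal.Quotient.mk_surjective]
    exact Ideal.mem_map_of_mem π hx
  have hres : ∀ σ a b, ρR σ a b - (((rb hW σ) a b).val : R) ∈ maximalIdeal R := fun σ a b => by
    have h := hm _ (S.res σ a b)
    rwa [map_sub, map_natCast] at h
  have hlev : Deform.FinLevel fun σ => ρR σ := by
    obtain ⟨L, hL, h⟩ := S.level
    exact ⟨L, hL, fun σ hσ => (hmap _ 1 (h σ hσ)).trans (map_one _)⟩
  have h2R : (2 : R) ∈ maximalIdeal R := by
    rw [mem_maximalIdeal, mem_nonunits_iff]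
    intro h
    have h0 : (2 : R) ^ (N + 1) = 0 := by
      rw [← map_ofNat (algebraMap (Lam N) R) 2, ← map_pow,
        show (2 : Lam N) ^ (N + 1) = 0 by exact_mod_cast ZMod.natCast_self (2 ^ (N + 1)), map_zero]
    exact not_isUnit_zero (h0 ▸ h.pow (N + 1))
  -- the eigenvalue at two
  have hF := frobTwo_spec.mem_decompositionSubgroup
  have hmers : ¬ 2 ∣ mers (n + 1) := by
    unfold mers
    intro h
    have h2 : 2 ∣ 2 ^ 2 ^ (n + 1 + 1) := dvd_pow_self 2 (pow_ne_zero _ two_ne_zero)
    have h3 := Nat.one_le_two_pow (n := 2 ^ (n + 1 + 1))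
    omega
  have hin : ∀ g ∈ placeTwo.inertiaSubgroupIn ℚ, Attach.cyc (mers (n + 1)) g = 1 := fun g hg =>
    Attach.cyc_inertia Nat.prime_two hmers placeTwo_lies hg
  have hfr : Attach.cyc (mers (n + 1)) frobTwo = 2 := by
    rw [Attach.cyc_frobenius Nat.prime_two hmers placeTwo_lies frobTwo_spec, Nat.cast_ofNat]
  have hpowc : ∀ i : ℕ, Attach.cyc (mers (n + 1)) (frobTwo ^ i) = 2 ^ i := by
    intro i
    induction i with
    | zero => rw [pow_zero, pow_zero, Attach.cyc_one]
    | succ i ih => rw [pow_succ, pow_succ, Attach.cyc_mul, ih, hfr]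
  have hexp : ∀ g ∈ placeTwo.decompositionSubgroup ℚ,
      ∃ i : ℕ, Attach.cyc (mers (n + 1)) g = 2 ^ i := by
    intro g hg
    obtain ⟨L3, hL3, hc3⟩ := Attach.exists_cyc_level (mers (n + 1))
    haveI := hL3
    haveI := FLTAgent.Common.isAlgebraic_qbar
    haveI := FLTAgent.Common.isGalois_qbar
    let M := IntermediateField.normalClosure ℚ ↥L3 (AlgebraicClosure ℚ)
    haveI : Normal ℚ M := normalClosure.normal ℚ _ _
    haveI : IsGalois ℚ M := IsGalois.mk
    haveI : FiniteDimensional ℚ M := normalClosure.is_finiteDimensional ℚ _ _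
    obtain ⟨i, s, hs, hsM⟩ := PT.exists_pow_frob_inertia Nat.prime_two placeTwo_lies
      frobTwo_spec hg M
    refine ⟨i, ?_⟩
    have hv : Attach.cyc (mers (n + 1)) (s⁻¹ * ((frobTwo ^ i)⁻¹ * g)) = 1 := hc3 _ fun x hx => by
      rw [AlgEquiv.mul_apply, ← hsM x (L3.le_normalClosure hx)]
      exact s.symm_apply_apply x
    have e1 : g = frobTwo ^ i * (s * (s⁻¹ * ((frobTwo ^ i)⁻¹ * g))) := by group
    rw [e1, Attach.cyc_mul, Attach.cyc_mul, hv, hin s hs, hpowc, mul_one, mul_one]
  let ex : GQ → ℕ := fun g =>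
    if hg : g ∈ placeTwo.decompositionSubgroup ℚ then (hexp g hg).choose else 0
  have hex : ∀ g ∈ placeTwo.decompositionSubgroup ℚ,
      Attach.cyc (mers (n + 1)) g = 2 ^ ex g := fun g hg => by
    simp only [ex, dif_pos hg]
    exact (hexp g hg).choose_spec
  let tR : R := π S.t
  have ht : tR ^ 2 ^ (n + 1 + 1) = 1 := hinj (by rw [map_pow, hθR, map_one]; exact S.t_pow)
  let lam : GQ → R := fun g => tR ^ ex g
  have hcond : Cond ε D ρR := by
    refine { level := hlev, res := hres, unr := ?_, det := ?_, bad := ?_, aux := ?_, aux_tr := ?_,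
             tw := fun i σ hσ => commute_frob D ρR hlev hres h2R i hσ, two := ?_ }
    · intro q hq h2 hb hK hD V hV σ hσ
      exact (hmap _ 1 (S.unr q hq h2 hb hK hD V hV σ hσ)).trans (map_one _)
    · intro σ hσ
      refine hinj ?_
      rw [hρR, ← RingHom.mapMatrix_apply, ← RingHom.map_det, hθR, hθalg, S.det σ hσ]
    · intro q hq V hV σ hσ
      have := hmap ((S.ρ σ - 1) * (S.ρ σ - 1)) 0 fun a b => by
        rw [sub_zero]; exact S.bad q hq V hV σ hσ a b
      rwa [map_mul, map_sub, map_one, map_zero] at this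
    · intro i σ hσ
      have := hmap ((S.ρ σ - 1) * (S.ρ σ - 1)) 0 fun a b => by
        rw [sub_zero]; exact S.aux i σ hσ a b
      rwa [map_mul, map_sub, map_one, map_zero] at this
    · intro i
      have := (hz _).2 (S.aux_tr i)
      rw [map_pow, AddMonoidHom.map_trace π] at this
      exact this
    · refine ⟨lam, ?_, ?_, ?_, ?_⟩
      · refine hinj ?_
        have e1 : lam frobTwo = tR := by
          show tR ^ ex frobTwo = tR
          rw [pow_congr_of_two_pow_mers ht ((hex _ hF).symm.trans (hfr.trans (pow_one 2).symm)),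
            pow_one]
        rw [e1, map_mul, map_mul, map_intCast, hθalg, hρR, ← RingHom.mapMatrix_apply,
          ← RingHom.map_det, hθR, hθR, mul_smul_comm, mul_one, S.t_g2, Int.cast_smul_eq_zsmul,
          zsmul_eq_mul]
      · intro g hg h hh
        show tR ^ ex (g * h) = tR ^ ex g * tR ^ ex h
        rw [← pow_add]
        refine pow_congr_of_two_pow_mers ht ?_
        rw [← hex _ (mul_mem hg hh), Attach.cyc_mul, hex g hg, hex h hh, pow_add]
      · intro g hg
        show tR ^ ex g = 1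
        rw [← pow_zero tR]
        refine pow_congr_of_two_pow_mers ht ?_
        rw [← hex g (Local.inertia_mem_decomposition hg), hin g hg, pow_zero]
      · intro g hg h hh
        have h2Z : (2 : Z2) ∈ maximalIdeal Z2 := by
          rw [PadicInt.maximalIdeal_eq_span_p]; exact Ideal.mem_span_singleton_self _
        have := hmap _ 0 fun a b => by
          rw [sub_zero]; exact S.two h2Z g hg h hh (ex g) (ex h) (hex g hg) (hex h hh) a b
        have hs : ∀ x : S.T, π.mapMatrix (x • (1 : Matrix (Fin 2) (Fin 2) S.T)) =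
            π x • (1 : Matrix (Fin 2) (Fin 2) R) := fun x => by
          ext a b
          rcases eq_or_ne a b with rfl | hab <;> simp [*]
        rw [map_zero, map_mul, map_sub, map_sub, hs, hs, map_mul, map_pow, map_pow, ← halg,
          cycR_cast] at this
        exact this
  have hgen : Algebra.adjoin (Lam N) (Set.range fun σ => (ρR σ).trace) = ⊤ := by
    rw [eq_top_iff]
    intro x _
    obtain ⟨y, rfl⟩ := Ideal.Quotient.mk_surjective x
    have hy : y ∈ Algebra.adjoin Z2 (Set.range fun σ => (S.ρ σ).trace) := S.gen ▸ Algebra.mem_top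
    clear * - hy halg
    induction hy using Algebra.adjoin_induction with
    | mem z hz' =>
      obtain ⟨σ, rfl⟩ := hz'
      exact Algebra.subset_adjoin ⟨σ, (AddMonoidHom.map_trace π _).symm⟩
    | algebraMap c =>
      change π (algebraMap Z2 S.T c) ∈ _
      rw [← halg]
      exact Subalgebra.algebraMap_mem _ _
    | add a b _ _ ha hb => rw [map_add]; exact add_mem ha hb
    | mul a b _ _ ha hb => rw [map_mul]; exact mul_mem ha hb
  -- the dual
  let φ : R →ₐ[Lam N] Module.End (Lam N) (S.P →ₗ[Lam N] Lam N) :=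
    { toFun := fun r =>
        { toFun := fun f => f ∘ₗ θR r
          map_add' := fun f g => by ext; simp
          map_smul' := fun c f => by ext; simp }
      map_one' := by ext f x; simp
      map_mul' := fun r r' => by
        ext f x
        simp only [LinearMap.coe_mk, AddHom.coe_mk, LinearMap.comp_apply, Module.End.mul_apply]
        rw [← Module.End.mul_apply, ← map_mul θR, mul_comm r' r]
      map_zero' := by ext f x; simp
      map_add' := fun r r' => by ext f x; simp
      commutes' := fun z => by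
        ext f x
        simp [hθalg] }
  have hφ : ∀ r (f : S.P →ₗ[Lam N] Lam N), φ r f = f ∘ₗ θR r := fun r f => rfl
  have hdetR : ∀ σ, (ρR σ).det = π (S.ρ σ).det := fun σ => by
    rw [hρR, ← RingHom.mapMatrix_apply, ← RingHom.map_det]
  have hδ : ∀ i, ((ρR (D.tau i)).det) ^ 2 ^ (n + 1) = 1 := fun i => hinj (by
    rw [map_one, hdetR, ← map_pow, hθR]
    exact S.pow_dia i)
  have hdia : ∀ u, π (diaT D S.ρ u) = diaProd D ρR u := fun u => by
    simp only [diaT, diaProd, map_prod, map_pow, hdetR]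
  have hmul : ∀ u v : U, diaProd D ρR u * diaProd D ρR v = diaProd D ρR (u + v) := fun u v => by
    simp only [diaProd, ← Finset.prod_mul_distrib, ← pow_add, Pi.add_apply, Fin.val_add]
    exact Finset.prod_congr rfl fun i _ => pow_eq_pow_mod _ (hδ i)
  -- the coordinate functionals
  let e' : Fin d → (S.P →ₗ[Lam N] Lam N) := fun j =>
    LinearMap.proj (0 : U) ∘ₗ LinearMap.proj j ∘ₗ Be.symm.toLinearMap
  have hBsingle : ∀ (j : Fin d) (u : U),
      Be (Pi.single j (Pi.single u 1)) = θR (diaProd D ρR u) (e j) := fun j u => by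
    rw [← hdia, hθR]
    show ∑ j', ∑ u', (Pi.single j (Pi.single u 1) : Fin d → U → Lam N) j' u' •
      S.θ (diaT D S.ρ u') (e j') = _
    rw [Finset.sum_eq_single j (fun j' _ hj' => by simp [hj']) (by simp),
      Finset.sum_eq_single u (fun u' _ hu' => by simp [hu']) (by simp)]
    simp
  have hval : ∀ (c : Fin d → U → Lam N) (j : Fin d) (v : U),
      (∑ i, ∑ u, c i u • φ (diaProd D ρR u) (e' i)) (θR (diaProd D ρR v) (e j)) = c j (-v) := by
    intro c j v
    have key : ∀ i u, φ (diaProd D ρR u) (e' i) (θR (diaProd D ρR v) (e j)) =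
        if i = j ∧ u = -v then 1 else 0 := by
      intro i u
      rw [hφ, LinearMap.comp_apply, ← Module.End.mul_apply, ← map_mul, hmul, ← hBsingle]
      simp only [e', LinearMap.comp_apply, LinearEquiv.coe_coe, LinearEquiv.symm_apply_apply,
        LinearMap.proj_apply]
      by_cases hij : i = j
      · subst hij
        rw [Pi.single_eq_same, Pi.single_apply]
        simp only [true_and]
        exact if_congr (by rw [eq_comm, add_eq_zero_iff_eq_neg]) rfl rfl
      · rw [Pi.single_eq_of_ne hij, Pi.zero_apply, if_neg fun h => hij h.1]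
    simp only [LinearMap.sum_apply, LinearMap.smul_apply, key, smul_eq_mul, mul_ite, mul_one,
      mul_zero]
    rw [Finset.sum_eq_single j (fun i _ hi => by simp [hi]) (by simp),
      Finset.sum_eq_single (-v) (fun u _ hu => by simp [hu]) (by simp)]
    simp
  have hnn : ∀ u : U, - -u = u := fun u => funext fun i => neg_neg (u i)
  have hbasis : Function.Bijective fun c : Fin d → U → Lam N =>
      ∑ j, ∑ u, c j u • φ (diaProd D ρR u) (e' j) := by
    refine ⟨fun c c' h => funext fun j => funext fun u => ?_, fun ψ => ?_⟩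
    · have := LinearMap.congr_fun h (θR (diaProd D ρR (-u)) (e j))
      rwa [hval, hval, hnn] at this
    · refine ⟨fun j u => ψ (θR (diaProd D ρR (-u)) (e j)), ?_⟩
      refine LinearMap.ext fun x => ?_
      obtain ⟨a, rfl⟩ := Be.surjective x
      have hx : Be a = ∑ j, ∑ u, a j u • θR (diaProd D ρR u) (e j) := by
        simp only [← hdia, hθR]
        rfl
      rw [hx]
      simp only [map_sum, map_smul, hval, hnn]
  -- invariants
  let evP := Module.evalEquiv (Lam N) S.P
  have hev : ∀ (x : S.P) (f : S.P →ₗ[Lam N] Lam N), evP x f = f x := fun x f => rfl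
  have hfix : ∀ ψ : invDual D ρR φ, evP.symm ψ.1 ∈ fixedPart D S.ρ S.θ := by
    intro ψ
    rw [fixedPart, Submodule.mem_iInf]
    intro i
    rw [LinearMap.mem_ker, LinearMap.sub_apply, Module.End.one_apply, sub_eq_zero]
    refine evP.injective (LinearMap.ext fun f => ?_)
    rw [evP.apply_symm_apply, hev]
    have h1 := ψ.2 i f
    rw [← h1, hφ, hdetR, hθR]
    conv_rhs => rw [← evP.apply_symm_apply ψ.1, hev]
    rfl
  let toFix : invDual D ρR φ →ₗ[Lam N] fixedPart D S.ρ S.θ :=
    (evP.symm.toLinearMap ∘ₗ (invDual D ρR φ).subtype).codRestrict _ hfix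
  exact ⟨{
    R := R
    ρ := ρR
    cond := hcond
    gen := hgen
    M := S.P →ₗ[Lam N] Lam N
    φ := φ
    pow_dia := fun i => by rw [hδ, map_one]
    coinv := fun i σ hσ a b f => by
      have hA : θR ((ρR σ - 1) a b) = S.θ ((S.ρ σ - 1) a b) := by
        rw [← hθR]
        refine congrArg θR ?_
        rw [hρR, Matrix.sub_apply, Matrix.sub_apply, map_sub, Matrix.map_apply]
        rcases eq_or_ne a b with rfl | hab <;> simp [*]
      set G : Module.End (Lam N) S.P := S.θ (S.ρ (D.tau i)).det - 1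
      have hle : LinearMap.ker G ≤ LinearMap.ker (f ∘ₗ S.θ ((S.ρ σ - 1) a b)) := fun x hx => by
        rw [LinearMap.mem_ker, LinearMap.sub_apply, Module.End.one_apply, sub_eq_zero] at hx
        rw [LinearMap.mem_ker, LinearMap.comp_apply, S.fixed_unr i x hx σ hσ a b, map_zero]
      obtain ⟨g, hg⟩ := (baer_zmod_two_pow N).extension_property (LinearMap.range G).subtype
        Subtype.val_injective
        (((LinearMap.ker G).liftQ _ hle) ∘ₗ G.quotKerEquivRange.symm.toLinearMap)
      refine ⟨g, LinearMap.ext fun x => ?_⟩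
      have h1 := LinearMap.congr_fun hg ⟨G x, LinearMap.mem_range_self G x⟩
      simp only [LinearMap.comp_apply, Submodule.subtype_apply, LinearEquiv.coe_coe] at h1
      rw [LinearMap.quotKerEquivRange_symm_apply_image, Submodule.mkQ_apply,
        Submodule.liftQ_apply, LinearMap.comp_apply] at h1
      rw [hφ, hA, LinearMap.sub_apply, Module.End.one_apply, hφ, hdetR, hθR, LinearMap.sub_apply,
        LinearMap.comp_apply, LinearMap.comp_apply, ← map_sub, ← h1]
      rfl
    basis := ⟨e', hbasis⟩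
    m := S.m
    down := fun j => S.down j ∘ₗ toFix
    down_inj := fun ψ h => by
      have h1 := S.down_inj (toFix ψ) h
      refine Subtype.ext ?_
      have h2 : evP.symm ψ.1 = 0 := congrArg Subtype.val h1
      rwa [LinearEquiv.map_eq_zero_iff] at h2
    down_T := fun l hl hlK hgood haux V hV τ hτ ψ ψ' h j => by
      refine S.down_T l hl hlK hgood haux V hV τ hτ (toFix ψ) (toFix ψ') ?_ j
      show evP.symm ψ'.1 = S.θ (S.ρ τ).trace (evP.symm ψ.1)
      refine evP.injective (LinearMap.ext fun f => ?_)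
      rw [evP.apply_symm_apply, hev, h, hφ]
      conv_lhs => rw [← evP.apply_symm_apply ψ.1, hev]
      rw [LinearMap.comp_apply, ← hθR, AddMonoidHom.map_trace π]
      rfl }⟩

end FLTAgent.R2.Lv

end
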