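import Fermat.Agent.R2.LevelAct
import Fermat.Agent.R2.LevelFix
import Fermat.Agent.R2.LevelAuxTr
import Fermat.Agent.R2.LevelPre

/-!
Area R2, parcel G5: the sign part of a level as a module over the trace algebra with all local
conditions.

A statement about the action of `t` on a class `x` of the sign part is read on any lift `z` of `x`
to the full level over the two-adic integers, where `t` acts by the representation of that level.
-/

set_option autoImplicit false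
set_option linter.style.haveILetI false
set_option linter.unusedSectionVars false

noncomputable section

open scoped MatrixGroups
open Matrix IsLocalRing

namespace FLTAgent.R2.Lv

open FLTAgent.LL FLTAgent.R2.Coh

variable {W : WeierstrassCurve ℤ} {hW : IsAnchor W} {B : Base W} {N : ℕ} {K : Aux hW B N} {n : ℕ}
  (D : TW K n)

theorem good_dataF (d : SysData hW (bigM D)) : Good d (dataF D) where
  sqfree := (squarefree_bigM D).squarefree_of_dvd (nFull_dvd.trans (lev_dvd_bigM D))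
  bad_dvd l hl := dvd_mul_of_dvd_left ((Finset.dvd_prod_of_mem _ hl).trans (dvd_mul_left _ 2)) _
  good_Q := (xData D).good_Q
  mod4_Q := (xData D).mod4_Q
  odd_Q := (xData D).odd_Q
  index j := ⟨_, index_auxH D j⟩
  sq_Q j h := ((dataF D).prime j).ne_one (Nat.isUnit_iff.mp (squarefree_bigM D _ h))

theorem del_eq_sgn_or_one {u : (dataX D).Del} (h : ∀ i : Fin (rk W), u i.succ = 1) :
    u = 1 ∨ u = sgn D := by
  by_cases h0 : u 0 = 1
  · left
    funext j
    induction j using Fin.cases with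
    | zero => exact h0
    | succ i => exact h i
  · right
    funext j
    induction j using Fin.cases with
    | zero =>
      obtain ⟨x, hx, huniq⟩ := (Nat.card_eq_two_iff' (1 : (ZMod (auxQ D 0))ˣ ⧸ auxH D 0)).1
        (card_comp D 0)
      exact (huniq _ h0).trans (huniq _ (sgn_zero_ne D)).symm
    | succ i => exact (h i).trans (uTwo_sq_succ D i).symm

theorem cycDel_inv_succ {σ : GQ} (h : Attach.cyc D.R σ = 1) (i : Fin (rk W)) :
    (cycDel D σ)⁻¹ i.succ = 1 := by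
  haveI : NeZero (D.Q i) := ⟨(D.prime i).ne_zero⟩
  show (cycDel D σ i.succ)⁻¹ = 1
  rw [inv_eq_one, cycDel_apply, show LevelRho.cycU (auxQ D i.succ) σ = 1 from Units.ext ?_]
  · rfl
  show Attach.cyc (D.Q i) σ = 1
  rw [← Attach.cyc_cast (Q_dvd_R D i) σ, h, map_one]

/-- reading a scalar through two maps -/
theorem smul_read {A Hf H P : Type} [CommRing A] [Algebra Z2 A] [AddCommGroup Hf] [Module Z2 Hf]
    [AddCommGroup H] [Module Z2 H] [Module A H] [IsScalarTower Z2 A H] [AddCommGroup P]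
    [Module A P] {E : Submodule Z2 Hf} (F : Hf →ₗ[Z2] H) (ι : P →ₗ[A] H) {c : Z2} {a : A}
    (hca : algebraMap Z2 A c = a) {x : P} {w : E} (hw : F w.1 = ι x) :
    F (c • w).1 = ι (a • x) := by
  rw [SetLike.val_smul, map_smul, hw, map_smul, ← hca, algebraMap_smul]

section Powers

variable {A H G : Type} [CommRing A] [AddCommGroup H] [Module A H] [CommMonoid G]
  {P : Submodule A H} (δ : G →* Module.End A H)

theorem coe_pow_smul_apply (f : Module.End A P) (a : A) (g : G)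
    (h : ∀ y, (f y).1 = a • δ g y.1) (k : ℕ) (y : P) :
    ((f ^ k) y).1 = a ^ k • δ (g ^ k) y.1 := by
  induction k generalizing y with
  | zero => simp
  | succ k ih =>
    rw [pow_succ f k, Module.End.mul_apply, ih, h, map_smul, smul_smul, ← pow_succ, pow_succ g k,
      map_mul, Module.End.mul_apply]

theorem coe_pow_apply (f : Module.End A P) (g : G) (h : ∀ y, (f y).1 = δ g y.1) (k : ℕ) (y : P) :
    ((f ^ k) y).1 = δ (g ^ k) y.1 := by
  have := coe_pow_smul_apply δ f 1 g (fun y => (h y).trans (one_smul A _).symm) k y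
  rwa [one_pow, one_smul] at this

theorem coe_prod_pow_apply {S ι : Type} [CommRing S] (θ : S →+* Module.End A P) (f : ι → S)
    (g : ι → G) (h : ∀ i y, (θ (f i) y).1 = δ (g i) y.1) (k : ι → ℕ) (s : Finset ι) (y : P) :
    (θ (∏ i ∈ s, f i ^ k i) y).1 = δ (∏ i ∈ s, g i ^ k i) y.1 := by
  classical
  induction s using Finset.induction generalizing y with
  | empty => simp
  | insert i s hi ih =>
    rw [Finset.prod_insert hi, Finset.prod_insert hi, map_mul, map_mul, Module.End.mul_apply,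
      Module.End.mul_apply, map_pow, coe_pow_apply δ _ _ (h i), ih]

theorem pow_eq_one_of (f : Module.End A P) (a : A) (g : G) (h : ∀ y, (f y).1 = a • δ g y.1)
    (k : ℕ) (ha : a ^ k = 1) (hg : g ^ k = 1) : f ^ k = 1 :=
  LinearMap.ext fun y => Subtype.ext (by
    rw [coe_pow_smul_apply δ f a g h k y, ha, hg, one_smul, map_one, Module.End.one_apply,
      Module.End.one_apply])

theorem smul_eq_smul_of (f g : Module.End A P) (a b : A) (w : P → H)
    (hf : ∀ y, (f y).1 = a • w y) (hg : ∀ y, (g y).1 = b • w y) : b • f = a • g :=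
  LinearMap.ext fun y => Subtype.ext (by
    rw [LinearMap.smul_apply, LinearMap.smul_apply, SetLike.val_smul, SetLike.val_smul, hf, hg,
      smul_smul, smul_smul, mul_comm])

theorem eq_smul_one_of (f : Module.End A P) (a : A) (g : G) (h : ∀ y, (f y).1 = a • δ g y.1)
    (hfix : ∀ y : P, δ g y.1 = y.1) : f = a • 1 :=
  LinearMap.ext fun y => Subtype.ext (by
    rw [h, hfix, LinearMap.smul_apply, SetLike.val_smul, Module.End.one_apply])

theorem bijective_sum {J U : Type} [Fintype J] [Fintype U] (F : U → Module.End A P) (g : U → G)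
    (h : ∀ u y, (F u y).1 = δ (g u) y.1) (e : J → H) (he : ∀ j, e j ∈ P)
    (hi : Function.Injective fun c : J → U → A => ∑ j, ∑ u, c j u • δ (g u) (e j))
    (hg : ∀ x ∈ P, ∃ c : J → U → A, ∑ j, ∑ u, c j u • δ (g u) (e j) = x) :
    Function.Bijective fun c : J → U → A => ∑ j, ∑ u, c j u • F u ⟨e j, he j⟩ := by
  have hco : ∀ c : J → U → A, (∑ j, ∑ u, c j u • F u ⟨e j, he j⟩ : P).1 =
      ∑ j, ∑ u, c j u • δ (g u) (e j) := fun c => by
    simp only [Submodule.coe_sum, SetLike.val_smul, h]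
  refine ⟨fun c c' hcc => hi ((hco c).symm.trans ((congrArg Subtype.val hcc).trans (hco c'))),
    fun x => ?_⟩
  obtain ⟨c, hc⟩ := hg x.1 x.2
  exact ⟨c, Subtype.ext ((hco c).trans hc)⟩

end Powers

section Scalars

variable {A P S : Type} [CommRing A] [Algebra Z2 A] [AddCommGroup P] [Module A P] [CommRing S]
  [Algebra Z2 S] (θ : S →+* Module.End A P)
  (hc : ∀ c : Z2, θ (algebraMap Z2 S c) = algebraMap Z2 A c • 1)

include hc

theorem scalar_mul_apply (c : Z2) (t : S) (y : P) :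
    θ (algebraMap Z2 S c * t) y = algebraMap Z2 A c • θ t y := by
  rw [map_mul, hc, smul_mul_assoc, one_mul, LinearMap.smul_apply]

theorem natCast_mul_eq_zero (q : ℕ) (hq : (q : A) = 0) (t : S) : θ ((q : S) * t) = 0 :=
  LinearMap.ext fun y => by
    rw [← map_natCast (algebraMap Z2 S) q, scalar_mul_apply θ hc, map_natCast, hq, zero_smul,
      LinearMap.zero_apply]

theorem eq_zero_of_two_pow_dvd {k : ℕ} (hk : ((2 ^ k : ℕ) : A) = 0) {x : S}
    (hx : (2 : S) ^ k ∣ x) : θ x = 0 := by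
  obtain ⟨c, rfl⟩ := hx
  have e : (2 : S) ^ k = ((2 ^ k : ℕ) : S) := by rw [Nat.cast_pow, Nat.cast_ofNat]
  rw [e]
  exact natCast_mul_eq_zero θ hc _ hk c

theorem quartic_apply (q : ℕ) (hq : (q : A) = -1) (t v : S) (y : P)
    (h : θ ((q : S) * t ^ 2 - (1 + (q : S)) ^ 2 * v) y = 0) : θ (t ^ 2) y = 0 := by
  have h1 : θ ((1 + (q : S)) ^ 2 * v) = 0 := by
    rw [show (1 + (q : S)) ^ 2 * v = ((1 + q : ℕ) : S) * ((1 + (q : S)) * v) by push_cast; ring]
    exact natCast_mul_eq_zero θ hc _ (by push_cast; rw [hq, add_neg_cancel]) _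
  rw [_root_.map_sub, h1, sub_zero, ← map_natCast (algebraMap Z2 S) q, scalar_mul_apply θ hc,
    map_natCast, hq, neg_smul, one_smul, neg_eq_zero] at h
  exact h

end Scalars

theorem read_old {A Hf H : Type} [CommRing A] [Algebra Z2 A] [AddCommGroup Hf] [Module Z2 Hf]
    [AddCommGroup H] [Module Z2 H] [Module A H] [IsScalarTower Z2 A H] (F : Hf →ₗ[Z2] H)
    {u v w : Hf} {c : Z2} (hc : algebraMap Z2 A c = 0) (hu : F u = 0) (hw : w = u + c • v) :
    F w = 0 := by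
  rw [hw, _root_.map_add, map_smul, hu, zero_add, ← algebraMap_smul A c, hc, zero_smul]

theorem chi_mul (σ τ : GQ) : chi N (σ * τ) = chi N σ * chi N τ := Attach.cyc_mul _ _ _

theorem chi_tau (i : Fin (rk W)) : chi N (D.tau i) = 1 :=
  Attach.cyc_inertia (D.prime i)
    (fun h => (xData D).Q_two i.succ
      ((Nat.prime_dvd_prime_iff_eq (D.prime i) Nat.prime_two).1 ((D.prime i).dvd_of_dvd_pow h)))
    (D.lies i) (D.tau_mem i)

section Glue

variable {d : SysData hW (bigM D)} (hd : SysGood d) (I : TopIso D d) (ε : ℤˣ)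
  (d₀ : SysData hW K.lev) (hd₀ : SysGood d₀)

theorem mem_E_of_signPart {x : HX D} (hx : x ∈ signPart D d ε) :
    x ∈ (d.sys (Lam N)).E (pRep (p := 2) (cX D)) :=
  ((mem_newPart _ _ _).1 ((mem_signPart D d ε).1 hx).1).1

include hd in
theorem signPart_eq {x y : signPart D d ε} (h : iotaW D x.1 = iotaW D y.1) : x = y :=
  Subtype.ext (sub_eq_zero.1 (iotaW_injOn D hd
    (Submodule.sub_mem _ (mem_E_of_signPart D ε x.2) (mem_E_of_signPart D ε y.2))
    (by rw [_root_.map_sub, h, sub_self])))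

include hd hd₀ I ε in
/-- the part of the system at the full level is not zero -/
theorem E_dataF_ne_bot : (d.sys Z2).E (lrRep (dataF D)) ≠ ⊥ := by
  classical
  intro h
  obtain ⟨e, he, hi, -⟩ := exists_signPart_basis D d ε hd d₀ hd₀
  have h0 : ∀ x ∈ signPart D d ε, x = 0 := fun x hx => by
    obtain ⟨z, hz, hzx, -⟩ := exists_lift_sign D hd I ε d₀ hd₀ hx
    rw [h, Submodule.mem_bot] at hz
    exact iotaW_injOn D hd (mem_E_of_signPart D ε hx) (by rw [← hzx, hz, map_zero])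
  have hne : (fun (_ : Fin (levRank K d₀)) (_ : Fin (rk W) → Fin (2 ^ (n + 1))) => (1 : Lam N)) = 0 :=
    hi (by simp [h0 _ (he _)])
  exact one_ne_zero (congrFun (congrFun hne ⟨0, levRank_pos d₀ hd₀⟩) fun _ => 0)

variable (R : Rho d (dataF D)) (θ : R.T →+* Module.End (Lam N) (signPart D d ε))
  (hc : ∀ c : Z2, θ (algebraMap Z2 R.T c) = algebraMap Z2 (Lam N) c • 1)
  (hθ : ∀ (t : R.T) (x : signPart D d ε) (z : (d.sys Z2).E (lrRep (dataF D))),
    psiF D I z.1 = iotaW D x.1 → psiF D I (R.φ t z).1 = iotaW D (θ t x).1)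

include hd hθ in
/-- read the action on a lift -/
theorem theta_eq {t : R.T} {x y : signPart D d ε} {z : (d.sys Z2).E (lrRep (dataF D))}
    (hz : psiF D I z.1 = iotaW D x.1) (hy : psiF D I (R.φ t z).1 = iotaW D y.1) : θ t x = y :=
  signPart_eq D hd ε ((hθ t x z hz).symm.trans hy)

include hd hθ in
theorem theta_zero {t : R.T} {x : signPart D d ε} {z : (d.sys Z2).E (lrRep (dataF D))}
    (hz : psiF D I z.1 = iotaW D x.1) (hy : R.φ t z = 0) : θ t x = 0 :=
  theta_eq D hd I ε R θ hθ hz (by rw [hy]; simp)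

theorem phi_det (h2 : (2 : Z2) ∈ maximalIdeal Z2) (σ : GQ) :
    R.φ (R.ρ σ).det = Attach.cycR Nat.prime_two h2 σ • diaLam d (dataF D) (cycDel D σ)⁻¹ :=
  R.det σ h2 (fun i => LevelRho.cycU (auxQ D i) σ) fun _ => rfl

include hd hd₀ hθ in
theorem theta_det (σ : GQ) (x : signPart D d ε) :
    (θ (R.ρ σ).det x).1 = chi N σ • diaT' D (cycDel D σ)⁻¹ x.1 := by
  obtain ⟨z, hzE, hz, -⟩ := exists_lift_sign D hd I ε d₀ hd₀ x.2
  have h2 : (2 : Z2) ∈ maximalIdeal Z2 := by exact_mod_cast natCast_mem_Z2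
  refine congrArg Subtype.val (theta_eq D hd I ε R θ hθ (z := ⟨z, hzE⟩)
    (y := ⟨_, Submodule.smul_mem _ (chi N σ) (dia_mem_signPart D d ε (cycDel D σ)⁻¹ x.2)⟩) hz ?_)
  rw [phi_det D R h2, LinearMap.smul_apply]
  exact smul_read (psiF D I) (iotaW D) (cycR_cast N h2 σ) (psiF_act D I hz (cycDel D σ)⁻¹)

include hd hd₀ hθ in
theorem theta_tau (i : Fin (rk W)) (x : signPart D d ε) :
    (θ (R.ρ (D.tau i)).det x).1 = diaT' D (vDel D i) x.1 := by
  rw [theta_det D hd I ε d₀ hd₀ R θ hθ, chi_tau, one_smul]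
  rfl

include hd hd₀ hθ in
theorem theta_diaT (u : Fin (rk W) → Fin (2 ^ (n + 1))) (x : signPart D d ε) :
    (θ (diaT D R.ρ u) x).1 = diaT' D (∏ i, vDel D i ^ (u i : ℕ)) x.1 := by
  exact coe_prod_pow_apply (diaT' D) θ _ _ (fun i => theta_tau D hd I ε d₀ hd₀ R θ hθ i)
    (fun i => (u i : ℕ)) Finset.univ x

/-- a diamond product fixes what all its factors fix -/
theorem dia_fix_all {x : HX D} (hv : ∀ i, diaT' D (vDel D i) x = x)
    (hs : diaT' D (sgn D) x = x) (u : (dataX D).Del) : diaT' D u x = x := by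
  let S : Submonoid (dataX D).Del :=
    { carrier := {u | diaT' D u x = x}
      one_mem' := by simp
      mul_mem' := fun {a b} ha hb => by
        show diaT' D (a * b) x = x
        rw [map_mul, Module.End.mul_apply, show diaT' D b x = x from hb]
        exact ha }
  obtain ⟨c, rfl⟩ := (delCoord_bijective D).2 u
  show delCoord D c ∈ S
  exact S.mul_mem (S.prod_mem fun i _ => S.pow_mem (hv i) _) (S.pow_mem hs _)

include hd hd₀ hθ in
theorem theta_fixed_unr (i : Fin (rk W)) (x : signPart D d ε)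
    (hx : θ (R.ρ (D.tau i)).det x = x) (σ : GQ) (hσ : σ ∈ (D.place i).inertiaSubgroupIn ℚ)
    (a b : Fin 2) : θ ((R.ρ σ - 1) a b) x = 0 := by
  have hv : diaT' D (vDel D i) x.1 = x.1 :=
    (theta_tau D hd I ε d₀ hd₀ R θ hθ i x).symm.trans (congrArg Subtype.val hx)
  obtain ⟨z, hzE, hz, hfix⟩ := exists_lift_fixed D hd I d₀ hd₀ i ((mem_signPart D d ε).1 x.2).1 hv
  exact theta_zero D hd I ε R θ hθ (z := ⟨z, hzE⟩) hz
    (R.fixed_unr i.succ ⟨z, hzE⟩ (fun v => Subtype.ext (hfix v)) (D.place i) (D.lies i) σ hσ a b)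

include hd hd₀ hθ in
theorem theta_unr {q : ℕ} (hq : q.Prime) (hq2 : q ≠ 2) (hb : q ∉ badOdd W)
    (hK : ∀ i, K.q i ≠ q) (hQ : ∀ i, D.Q i ≠ q) (P : ValuationSubring (AlgebraicClosure ℚ))
    (hP : P.LiesOverPrime q) (σ : GQ) (hσ : σ ∈ P.inertiaSubgroupIn ℚ) (a b : Fin 2) :
    θ ((R.ρ σ - 1) a b) = 0 := by
  have hN0 : ¬ q ∣ (dataF D).N0 := fun h => by
    rcases hq.dvd_mul.1 (show q ∣ 2 * dBad W * ∏ i, K.q i from h) with h' | h'
    · rcases hq.dvd_mul.1 h' with h'' | h''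
      · exact hq2 ((Nat.prime_dvd_prime_iff_eq hq Nat.prime_two).1 h'')
      · obtain ⟨l, hl, hd'⟩ := (Prime.dvd_finset_prod_iff hq.prime _).1 h''
        exact hb ((Nat.prime_dvd_prime_iff_eq hq ((badOdd_spec hW).1 hl).1).1 hd' ▸ hl)
    · obtain ⟨j, -, hd'⟩ := (Prime.dvd_finset_prod_iff hq.prime _).1 h'
      exact hK j ((Nat.prime_dvd_prime_iff_eq hq (K.prime j)).1 hd').symm
  by_cases hl : q = D.l
  · subst hl
    refine LinearMap.ext fun x => ?_
    obtain ⟨z, hzE, hz, -, -, hsg⟩ := exists_lift_sign D hd I ε d₀ hd₀ x.2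
    refine theta_zero D hd I ε R θ hθ (z := ⟨z, hzE⟩) hz
      (R.fixed_unr 0 ⟨z, hzE⟩ (fun v => Subtype.ext ?_) P hP σ hσ a b)
    show LL.map (isTwist_act Z2 (dataF D) (Pi.mulSingle 0 v : (dataX D).Del)) z = z
    rcases del_eq_sgn_or_one D (u := (Pi.mulSingle 0 v : (dataX D).Del))
      (fun i => Pi.mulSingle_eq_of_ne (Fin.succ_ne_zero i) _) with h | h
    · rw [h]
      obtain ⟨f, rfl⟩ := Submodule.mkQ_surjective _ z
      refine congrArg (fun w => H1.mk (lrRep (dataF D)) w)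
        (Subtype.ext (funext fun γ => funext fun p => ?_))
      show f.1 γ ((dataF D).torsor.act 1 p) = f.1 γ p
      rw [map_one]
      rfl
    · rw [h]; exact hsg
  · rw [R.unr q hq hq2 hN0 (fun j => ?_) P hP σ hσ]
    · simp
    · induction j using Fin.cases with
      | zero => exact fun h => hl h.symm
      | succ i => exact hQ i

theorem theta_bad {q : ℕ} (hq : q.Prime) (hq2 : q ≠ 2) (hdvd : q ∣ (dataF D).N0)
    (P : ValuationSubring (AlgebraicClosure ℚ)) (hP : P.LiesOverPrime q) (σ : GQ)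
    (hσ : σ ∈ P.inertiaSubgroupIn ℚ) (a b : Fin 2) :
    θ (((R.ρ σ - 1) * (R.ρ σ - 1)) a b) = 0 := by
  rw [R.bad q hq hq2 hdvd P hP σ hσ, Matrix.zero_apply, map_zero]

include hd hc hθ in
theorem theta_aux_tr (i : Fin K.k) : θ ((R.ρ (K.frob i)).trace ^ 2) = 0 := by
  refine LinearMap.ext fun x => ?_
  obtain ⟨z, hzE, hz, hpush⟩ := exists_lift_kill D hd I (mem_E_of_signPart D ε x.2)
  obtain ⟨a, b, hab⟩ := quartic_mem_old D hd R i (z := ⟨z, hzE⟩) (hpush i) (K.place i) (K.lies i)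
    (K.frob i) (K.frob_spec i)
  refine quartic_apply θ hc (K.q i) (K.cong i) _ ((R.ρ (K.frob i)).det) x ?_
  refine theta_eq D hd I ε R θ hθ (z := ⟨z, hzE⟩) hz ?_
  refine (read_old (A := Lam N) (psiF D I) ?_ (I.red_pullX i a) hab).trans (map_zero (iotaW D)).symm
  rw [_root_.map_add, map_one, map_natCast, K.cong i, add_neg_cancel]

/-- the eigenvalue at two -/
def tTwo (h2 : (2 : Z2) ∈ maximalIdeal Z2) : R.T :=
  algebraMap Z2 R.T (((ε : ℤ) : Z2) * Attach.cycR Nat.prime_two h2 D.g2⁻¹) * (R.ρ D.g2).det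

variable (h2 : (2 : Z2) ∈ maximalIdeal Z2)

theorem phi_tTwo (z : (d.sys Z2).E (lrRep (dataF D))) :
    R.φ (tTwo D ε R h2) z = ((ε : ℤ) : Z2) • diaLam d (dataF D) (uTwo D)⁻¹ z := by
  rw [tTwo, map_mul, AlgHom.commutes, Module.End.mul_apply, Module.algebraMap_end_apply,
    phi_det D R h2, LinearMap.smul_apply, smul_smul, mul_assoc, ← Attach.cycR_mul, inv_mul_cancel,
    Attach.cycR_one, mul_one]
  rfl

include hd hd₀ hc hθ in
theorem theta_tTwo (x : signPart D d ε) :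
    (θ (tTwo D ε R h2) x).1 = ((ε : ℤ) : Lam N) • diaT' D (uTwo D)⁻¹ x.1 := by
  unfold tTwo
  rw [scalar_mul_apply θ hc, SetLike.val_smul, theta_det D hd I ε d₀ hd₀ R θ hθ, smul_smul]
  refine congrArg (fun a : Lam N => a • diaT' D (uTwo D)⁻¹ x.1) ?_
  rw [map_mul, map_intCast, cycR_cast, mul_assoc, ← chi_mul, inv_mul_cancel,
    show chi N 1 = 1 from Attach.cyc_one _, mul_one]

include hd hd₀ hc hθ in
theorem theta_tTwo_pow : θ (tTwo D ε R h2) ^ 2 ^ (n + 2) = 1 := by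
  refine pow_eq_one_of (diaT' D) _ _ _ (theta_tTwo D hd I ε d₀ hd₀ R θ hc hθ h2) _ ?_ ?_
  · rw [show 2 ^ (n + 2) = 2 * 2 ^ (n + 1) from pow_succ' 2 (n + 1), pow_mul]
    rcases Int.units_eq_one_or ε with rfl | rfl <;> simp
  · rw [show 2 ^ (n + 2) = 2 ^ (n + 1) * 2 from pow_succ 2 (n + 1), pow_mul, del_pow, one_pow]

include hd hd₀ hθ in
theorem theta_two {g : GQ} (hg : g ∈ placeTwo.decompositionSubgroup ℚ) {h : GQ}
    (hh : h ∈ placeTwo.decompositionSubgroup ℚ) {m m' : ℕ}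
    (hm : Attach.cyc (mers (n + 1)) g = 2 ^ m) (hm' : Attach.cyc (mers (n + 1)) h = 2 ^ m')
    (a b : Fin 2) :
    θ (((R.ρ g - (algebraMap Z2 R.T (Attach.cycR Nat.prime_two h2 g) * tTwo D ε R h2 ^ m) •
        (1 : Matrix (Fin 2) (Fin 2) R.T)) *
      (R.ρ h - tTwo D ε R h2 ^ m' • (1 : Matrix (Fin 2) (Fin 2) R.T))) a b) = 0 := by
  refine LinearMap.ext fun x => ?_
  obtain ⟨z, hzE, hz, hnew, hW', -⟩ := exists_lift_sign D hd I ε d₀ hd₀ x.2
  refine theta_zero D hd I ε R θ hθ (z := ⟨z, hzE⟩) hz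
    (R.two (exactTwo D) h2 (n + 1) (index_auxH_dvd D) _ ⟨z, hzE⟩ hnew ?_ g hg h hh m m' hm hm' a b)
  rw [phi_tTwo D ε R h2]
  exact hW'

include hc in
theorem theta_level :
    ∃ L : IntermediateField ℚ (AlgebraicClosure ℚ), FiniteDimensional ℚ L ∧
      ∀ σ : GQ, (∀ x ∈ L, σ x = x) → ∀ a b, θ ((R.ρ σ - 1) a b) = 0 := by
  obtain ⟨L, hL, h⟩ := exists_dvd_level R.ρ R.level (N + 1)
  refine ⟨L, hL, fun σ hσ a b => ?_⟩
  exact eq_zero_of_two_pow_dvd θ hc (ZMod.natCast_self (2 ^ (N + 1))) (h σ hσ a b)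

include hd hd₀ hθ in
theorem theta_T {l : ℕ} (hl : l.Prime) (hlM : ¬ l ∣ bigM D) (hl2 : l ≠ 2)
    (hlΔ : ¬ (l : ℤ) ∣ W.Δ) (V : ValuationSubring (AlgebraicClosure ℚ)) (hV : V.LiesOverPrime l)
    (τ : GQ) (hτ : V.IsFrobeniusAt τ l) (x : signPart D d ε) :
    (θ (R.ρ τ).trace x).1 = LL.T (pRep (p := 2) (cX D)) hl hlM x.1 := by
  obtain ⟨z, hzE, hz, -⟩ := exists_lift_sign D hd I ε d₀ hd₀ x.2
  refine congrArg Subtype.val (theta_eq D hd I ε R θ hθ (z := ⟨z, hzE⟩)
    (y := ⟨_, T_mem_signPart D d ε hl hlM x.2⟩) hz ?_)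
  rw [R.trace l hl hlM hl2 hlΔ V hV τ hτ ⟨z, hzE⟩, psiF_T, hz, iotaW_T]

include hd hd₀ hθ in
theorem theta_det_eq {σ : GQ} (hσ : Attach.cyc D.R σ = 1) : θ (R.ρ σ).det = chi N σ • 1 := by
  refine eq_smul_one_of (diaT' D) _ _ _ (theta_det D hd I ε d₀ hd₀ R θ hθ σ) fun y => ?_
  rcases del_eq_sgn_or_one D (cycDel_inv_succ D hσ) with h | h
  · rw [h, map_one]; rfl
  · rw [h]; exact sgn_fix D d ε y.2

include hd hd₀ hc hθ in
theorem theta_g2 :
    chi N D.g2 • θ (tTwo D ε R h2) = ((ε : ℤ) : Lam N) • θ (R.ρ D.g2).det :=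
  smul_eq_smul_of _ _ _ _ (fun y => diaT' D (uTwo D)⁻¹ y.1)
    (theta_tTwo D hd I ε d₀ hd₀ R θ hc hθ h2) (theta_det D hd I ε d₀ hd₀ R θ hθ D.g2)

include hd hd₀ hθ in
theorem theta_pow_dia (i : Fin (rk W)) : θ ((R.ρ (D.tau i)).det ^ 2 ^ (n + 1)) = 1 := by
  rw [map_pow]
  exact pow_eq_one_of (diaT' D) _ 1 (vDel D i)
    (fun y => (theta_tau D hd I ε d₀ hd₀ R θ hθ i y).trans (one_smul _ _).symm) _ (one_pow _)
    (del_pow D _)

include hd hd₀ hθ in
theorem mem_fixP_of_fixed (x : fixedPart D R.ρ θ) : x.1.1 ∈ fixP D d := by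
  have hx : ∀ i, θ (R.ρ (D.tau i)).det x.1 = x.1 := fun i =>
    sub_eq_zero.1 ((Submodule.mem_iInf _).1 x.2 i)
  exact (mem_fixP D).2 ⟨((mem_signPart D d ε).1 x.1.2).1, dia_fix_all D
    (fun i => (theta_tau D hd I ε d₀ hd₀ R θ hθ i x.1).symm.trans (congrArg Subtype.val (hx i)))
    (sgn_fix D d ε x.1.2)⟩

end Glue

theorem not_dvd_bigM {l : ℕ} (hl : l.Prime) (hlK : ¬ l ∣ K.lev) (hl' : l ∉ D.aux) :
    ¬ l ∣ bigM D := by
  simp only [TW.aux, Finset.mem_insert, Finset.mem_image, Finset.mem_univ, true_and, not_or,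
    not_exists] at hl'
  intro h
  rcases hl.dvd_mul.1 h with h' | h'
  · rcases hl.dvd_mul.1 h' with h'' | h''
    · exact hlK h''
    · obtain ⟨i, -, hi⟩ := (Prime.dvd_finset_prod_iff hl.prime _).1 h''
      exact hl'.2 i ((Nat.prime_dvd_prime_iff_eq hl (D.prime i)).1 hi).symm
  · exact hl'.1 ((Nat.prime_dvd_prime_iff_eq hl D.prime_l).1 h')

/-- the sign part of a level exists -/
theorem nonempty_pre (ε : ℤˣ) (d₀ : SysData hW K.lev) (hd₀ : SysGood d₀) :
    Nonempty (Pre ε K D (levRank K d₀)) := by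
  classical
  obtain ⟨d, hd⟩ := exists_sysGood D
  obtain ⟨I⟩ := nonempty_topIso D d
  obtain ⟨R⟩ := nonempty_rho d (dataF D) (good_dataF D d) (E_dataF_ne_bot D hd I ε d₀ hd₀)
  obtain ⟨θ, hc, hθ⟩ := exists_theta D hd I R ε d₀ hd₀
  obtain ⟨m, down, hdi, hdT⟩ := exists_fixDown D hd d₀ hd₀
  obtain ⟨e, he, hei, heg⟩ := exists_signPart_basis D d ε hd d₀ hd₀
  have h2 : (2 : Z2) ∈ maximalIdeal Z2 := by exact_mod_cast natCast_mem_Z2
  let toFix : fixedPart D R.ρ θ →ₗ[Lam N] fixP D d :=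
    ((signPart D d ε).subtype ∘ₗ (fixedPart D R.ρ θ).subtype).codRestrict _
      (mem_fixP_of_fixed D hd I ε d₀ hd₀ R θ hθ)
  exact ⟨{
    T := R.T
    ρ := R.ρ
    gen := R.gen
    res := R.res
    P := signPart D d ε
    θ := θ
    θ_alg := hc
    level := theta_level D ε R θ hc
    unr := fun q hq hq2 hb hK hQ P hP σ hσ a b =>
      theta_unr D hd I ε d₀ hd₀ R θ hθ hq hq2 hb hK hQ P hP σ hσ a b
    det := fun σ hσ => theta_det_eq D hd I ε d₀ hd₀ R θ hθ hσ
    bad := fun q hq => theta_bad D ε R θ ((badOdd_spec hW).1 hq).1 ((badOdd_spec hW).1 hq).2.1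
      (dvd_mul_of_dvd_left ((Finset.dvd_prod_of_mem _ hq).trans (dvd_mul_left _ 2)) _)
    aux := fun i => theta_bad D ε R θ (K.prime i) (two_ne_q i)
      (dvd_mul_of_dvd_right (Finset.dvd_prod_of_mem K.q (Finset.mem_univ i)) _) (K.place i)
      (K.lies i)
    aux_tr := theta_aux_tr D hd I ε R θ hc hθ
    t := tTwo D ε R h2
    t_g2 := theta_g2 D hd I ε d₀ hd₀ R θ hc hθ h2
    t_pow := theta_tTwo_pow D hd I ε d₀ hd₀ R θ hc hθ h2
    two := fun _ g hg h hh m m' hm hm' a b =>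
      theta_two D hd I ε d₀ hd₀ R θ hθ h2 hg hh hm hm' a b
    pow_dia := theta_pow_dia D hd I ε d₀ hd₀ R θ hθ
    fixed_unr := fun i x hx σ hσ a b => theta_fixed_unr D hd I ε d₀ hd₀ R θ hθ i x hx σ hσ a b
    basis := ⟨fun j => ⟨e j, he j⟩, bijective_sum (diaT' D) (fun u => θ (diaT D R.ρ u))
      (fun u => ∏ i, vDel D i ^ (u i : ℕ)) (theta_diaT D hd I ε d₀ hd₀ R θ hθ) e he hei heg⟩
    m := m
    down := fun j => down j ∘ₗ toFix
    down_inj := fun x hx =>
      Subtype.ext (Subtype.ext (congrArg Subtype.val (hdi (toFix x) hx) : x.1.1 = 0))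
    down_T := fun l hl hlK hlΔ hl' V hV τ hτ x x' hxx' j =>
      hdT l hl (not_dvd_bigM D hl hlK hl') (toFix x) (toFix x')
        ((congrArg Subtype.val hxx').trans (theta_T D hd I ε d₀ hd₀ R θ hθ hl
          (not_dvd_bigM D hl hlK hl')
          (fun h => hlK (h ▸ dvd_mul_of_dvd_left (dvd_mul_of_dvd_left (dvd_mul_right 2 _) _) _))
          hlΔ V hV τ hτ x.1)) j }⟩

end FLTAgent.R2.Lv

end
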