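import Fermat.Agent.R2.CohExact
import Fermat.Agent.R2.JoinCoh
import Fermat.Agent.LL.Conj
import Fermat.Agent.LR.Ihara

/-!
Area R2, parcel G4: a transitive coefficient set read as level `Γ₀(L)` through conjugation by
`diag (R, 1)`: Hecke operators, parabolicity of the classes of a system, and integral lifts of
homomorphisms into a finite coefficient ring in which `3` is invertible.
-/

set_option autoImplicit false
set_option linter.style.haveILetI false
set_option linter.unusedSectionVars false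

noncomputable section

open scoped MatrixGroups
open Matrix CongruenceSubgroup

namespace FLTAgent.R2.Ihara

open FLTAgent.LR (HomG)

theorem val_tRep {l : ℕ} [NeZero l] (i : OnePoint (ZMod l)) :
    (LR.tRep l i : Matrix (Fin 2) (Fin 2) ℚ) =
      (Int.castRingHom ℚ).mapMatrix (LL.stdMat l i) := by
  have hl : (l : ℚ) ≠ 0 := Nat.cast_ne_zero.mpr (NeZero.ne l)
  induction i using OnePoint.rec with
  | infty =>
    show _ = (Int.castRingHom ℚ).mapMatrix (LL.stdMat l none)
    rw [LR.tRep_infty, LR.Dg, LR.val_gm (by simpa using hl)]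
    ext a b
    fin_cases a <;> fin_cases b <;> simp [LL.stdMat]
  | coe k =>
    show _ = (Int.castRingHom ℚ).mapMatrix (LL.stdMat l (Option.some k))
    rw [LR.tRep_coe, LR.val_gm (by simpa using hl)]
    ext a b
    fin_cases a <;> fin_cases b <;> simp [LL.stdMat]

theorem val_embG {K : ℕ} (γ : Gamma0 K) :
    (LR.embG γ : Matrix (Fin 2) (Fin 2) ℚ) =
      (Int.castRingHom ℚ).mapMatrix ((γ : SL(2, ℤ)) : Matrix (Fin 2) (Fin 2) ℤ) := by
  rw [LR.embG_apply, Matrix.SpecialLinearGroup.mapGL_coe_matrix]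
  rfl

/-- an identity of correspondences is one of integral matrices -/
theorem int_eq_of_rel {m m' : Matrix (Fin 2) (Fin 2) ℤ} {a a' : LR.GQ}
    (ha : (a : Matrix (Fin 2) (Fin 2) ℚ) = (Int.castRingHom ℚ).mapMatrix m)
    (ha' : (a' : Matrix (Fin 2) (Fin 2) ℚ) = (Int.castRingHom ℚ).mapMatrix m') {K K' : ℕ}
    {γ : Gamma0 K} {g : Gamma0 K'} (h : a * LR.embG γ = LR.embG g * a') :
    m * ((γ : SL(2, ℤ)) : Matrix (Fin 2) (Fin 2) ℤ) =
      ((g : SL(2, ℤ)) : Matrix (Fin 2) (Fin 2) ℤ) * m' := by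
  refine Matrix.map_injective (f := Int.castRingHom ℚ) Int.cast_injective ?_
  show (Int.castRingHom ℚ).mapMatrix _ = (Int.castRingHom ℚ).mapMatrix _
  rw [map_mul, map_mul, ← ha, ← val_embG, ← val_embG, ← ha']
  exact congrArg Units.val h

/-- a point of a transitive set whose stabiliser is `Γ₀(L)` conjugated by `diag (R, 1)` -/
structure Pt (M : ℕ) (X : Type) [MulAction (GL (Fin 2) (ZMod M)) X] (R L : ℕ) [NeZero R] :
    Type where
  x : X
  dvd : R ∣ L
  le : ∀ γ : Gamma0 L, LL.conjHom dvd γ ∈ LL.stab M x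
  ge : ∀ δ ∈ LL.stab M x, ∃ γ : Gamma0 L, LL.conjHom dvd γ = δ
  trans : ∀ y : X, ∃ γ : SL(2, ℤ), LL.red M γ • x = y
  neg : ∀ y : X, LL.red M (-1) • y = y
  move : ∀ m : Matrix (Fin 2) (Fin 2) ℤ, m 1 0 = 0 → (R : ℤ) ∣ m 0 1 →
    IsUnit ((m.det : ℤ) : ZMod M) → LL.redGL M m • x = x
  dvdM : ∀ l : ℕ, l.Prime → l ∣ L → l ∣ M

namespace Pt

variable {M R L : ℕ} [NeZero M] [NeZero R] {X : Type} [MulAction (GL (Fin 2) (ZMod M)) X]
  {A : Type} [CommRing A] (P : Pt M X R L)

/-- evaluation at the point -/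
def ev : LL.H1 (LL.funRep A X (M := M)) →ₗ[A] HomG L A := LL.evalConj A P.dvd P.x P.le

theorem ev_mk (f : LL.Z1 (LL.funRep A X (M := M))) (γ : Gamma0 L) :
    P.ev (LL.H1.mk (LL.funRep A X (M := M)) f) (Additive.ofMul γ) =
      f.1 (LL.conjHom P.dvd γ) P.x := rfl

theorem ev_bijective : Function.Bijective (P.ev (A := A)) :=
  LL.evalConj_bijective P.dvd P.x P.le P.ge P.trans

include P in
theorem not_dvd {l : ℕ} (hl : l.Prime) (hlM : ¬ l ∣ M) : ¬ l ∣ L := fun h => hlM (P.dvdM l hl h)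

/-- the Hecke operators agree -/
theorem ev_T {l : ℕ} [NeZero l] (hl : l.Prime) (hlM : ¬ l ∣ M) (hlL : ¬ l ∣ L)
    (x : LL.H1 (LL.funRep A X (M := M))) :
    P.ev (LL.T (LL.funRep A X (M := M)) hl hlM x) = LR.TH L l hl hlL (P.ev x) := by
  refine AddMonoidHom.ext fun a => ?_
  obtain ⟨γ, rfl⟩ := Additive.ofMul.surjective a
  obtain ⟨σ, g, hg⟩ := (LR.TC L L l hl dvd_rfl hlL).exists_rel γ
  rw [LR.TH, LR.Corr.op_apply _ hg]
  refine LL.evalConj_T P.dvd P.x P.le hl hlM (fun h => hlL (h.trans P.dvd)) P.x P.le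
    (fun m h10 h01 hdet => P.move m h10 h01 ?_) x γ σ g fun i => int_eq_of_rel (val_tRep i) (val_tRep _) (hg i)
  rw [hdet, Int.cast_natCast]
  exact (ZMod.isUnit_iff_coprime l M).mpr ((hl.coprime_iff_not_dvd).mpr hlM)

theorem ev_e1H {l : ℕ} [NeZero l] (hl : l.Prime) (hlM : ¬ l ∣ M) (hlL : ¬ l ∣ L)
    (x : LL.H1 (LL.funRep A X (M := M))) :
    LR.e1H L l hl hlL (P.ev x) =
      P.ev (LL.T (LL.funRep A X (M := M)) hl hlM x - ((l + 1 : ℕ) : A) • x) := by
  rw [LR.e1H_apply, Nat.cast_smul_eq_nsmul, map_sub, map_nsmul, P.ev_T hl hlM hlL]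

theorem ev_e2H {l : ℕ} [NeZero l] (hl : l.Prime) (hlM : ¬ l ∣ M) (hlL : ¬ l ∣ L)
    (x : LL.H1 (LL.funRep A X (M := M))) :
    LR.e2H L l hl hlL (P.ev x) =
      P.ev (LL.T (LL.funRep A X (M := M)) hl hlM (LL.T (LL.funRep A X (M := M)) hl hlM x) -
        (((l + 1) ^ 2 : ℕ) : A) • x) := by
  rw [LR.e2H_apply, Nat.cast_smul_eq_nsmul, map_sub, map_nsmul, P.ev_T hl hlM hlL,
    P.ev_T hl hlM hlL]

/-- classes of a system give parabolic homomorphisms -/
theorem ev_parabolic [Finite X] [IsLocalRing A] [IsNoetherianRing A]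
    [IsAdicComplete (IsLocalRing.maximalIdeal A) A] (s : LL.Sys M A)
    {x : LL.H1 (LL.funRep A X (M := M))} (hx : x ∈ s.E (LL.funRep A X (M := M))) :
    ModularCurve.Period.IsParabolicHom (Gamma0 L) (P.ev x) := fun γ hγ =>
  Coh.eval_eq_zero_of_mem_E s P.neg P.x hx ⟨LL.conjHom P.dvd γ, P.le γ⟩ (by
    rw [LL.trace_conjHom]; exact hγ)

/-- integral lifts of classes vanishing at `-1` -/
theorem exists_int_homs (hS : ∀ x : X, LL.red M ModularGroup.S • x ≠ x) [Fintype A]
    (h3 : IsUnit (3 : A)) (f : LL.Z1 (LL.funRep A X (M := M))) (h1 : f.1 (-1) = 0) :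
    ∃ (c : A → A) (ψ : A → HomG L ℤ),
      P.ev (LL.H1.mk (LL.funRep A X (M := M)) f) =
        ∑ j, c j • (Int.castAddHom A).comp (ψ j) := by
  classical
  have hnegZ : (LL.funRep ℤ X (M := M)) (LL.red M (-1)) = 1 := LL.funRep_neg_one P.neg
  obtain ⟨i3, hi3⟩ := h3.exists_left_inv
  set g := LL.red M ModularGroup.S with hg
  set u := LL.red M Periods.eltU with hu
  have hgg : ∀ x : X, g • g • x = x := fun x => by
    rw [smul_smul, ← map_mul, Periods.S_mul_S, P.neg]
  have hginv : ∀ x : X, g⁻¹ • x = g • x := fun x => inv_smul_eq_iff.2 (hgg x).symm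
  letI : LinearOrder X := linearOrderOfSTO WellOrderingRel
  let ind : A → A → ℤ := fun j v => if v = j then 1 else 0
  have hind : ∀ v : A, ∑ j, j * ((ind j v : ℤ) : A) = v := fun v => by
    simp only [ind, apply_ite (Int.cast : ℤ → A), Int.cast_one, Int.cast_zero, mul_ite, mul_one,
      mul_zero, Finset.sum_ite_eq, Finset.mem_univ, if_true]
  set a' := f.1 ModularGroup.S with ha'
  have haS : ∀ x, a' x + a' (g • x) = 0 := fun x => by
    have e := congrFun (LL.Z1_apply_mul (LL.funRep A X (M := M)) f.2 ModularGroup.S ModularGroup.S) x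
    rw [Periods.S_mul_S, h1, Pi.zero_apply, Pi.add_apply, LL.funRep_apply, hginv] at e
    exact e.symm
  let a : A → X → ℤ := fun j x =>
    if x < g • x then 3 * ind j (a' x) else -(3 * ind j (a' (g • x)))
  have haj : ∀ j, a j + (LL.funRep ℤ X (M := M)) g (a j) = 0 := fun j => funext fun x => by
    rw [Pi.add_apply, LL.funRep_apply, hginv, Pi.zero_apply]
    simp only [a, hgg]
    rcases lt_or_gt_of_ne (hS x) with hlt | hlt
    · rw [if_neg (not_lt.2 hlt.le), if_pos hlt, neg_add_cancel]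
    · rw [if_pos hlt, if_neg (not_lt.2 hlt.le), add_neg_cancel]
  set b' := f.1 Periods.eltU with hb'
  let b0 : A → X → ℤ := fun j x => ind j (b' x)
  let b : A → X → ℤ := fun j => (2 : ℤ) • b0 j - (LL.funRep ℤ X (M := M)) u (b0 j) - (LL.funRep ℤ X (M := M)) u ((LL.funRep ℤ X (M := M)) u (b0 j))
  have hbj : ∀ j, b j + (LL.funRep ℤ X (M := M)) u (b j) + (LL.funRep ℤ X (M := M)) u ((LL.funRep ℤ X (M := M)) u (b j)) = 0 := fun j => by
    simp only [b, hu, map_sub, map_zsmul, Coh.U_U_U hnegZ]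
    simp only [two_smul]
    abel
  choose F hFS hFU using fun j => LL.exists_Z1 hnegZ (a j) (b j) (haj j) (hbj j)
  have hC : Join.AddEquiv' (LL.funRep ℤ X (M := M)) (LL.funRep A X (M := M)) ((Int.castAddHom A).compLeft X) := ⟨fun k v => rfl⟩
  set G : LL.Z1 (LL.funRep A X (M := M)) := ∑ j, (i3 * j) • Join.mapZ' hC (F j)
  have hG : ∀ (k : SL(2, ℤ)) (x : X), G.1 k x = ∑ j, i3 * j * (((F j).1 k x : ℤ) : A) := fun k x => by
    simp only [G, Submodule.coe_sum, Submodule.coe_smul, Finset.sum_apply, Pi.smul_apply,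
      smul_eq_mul]
    rfl
  have hGf : G = f := by
    refine LL.Z1_ext (funext fun x => ?_) (funext fun x => ?_)
    · rw [hG]
      simp only [hFS, a]
      by_cases hlt : x < g • x
      · simp only [if_pos hlt, Int.cast_mul, Int.cast_ofNat]
        calc ∑ j, i3 * j * ((3 : A) * (ind j (a' x) : A))
            = (i3 * 3) * ∑ j, j * (ind j (a' x) : A) := by
              rw [Finset.mul_sum]; exact Finset.sum_congr rfl fun j _ => by ring
          _ = a' x := by rw [hi3, hind, one_mul]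
      · simp only [if_neg hlt, Int.cast_neg, Int.cast_mul, Int.cast_ofNat]
        calc ∑ j, i3 * j * -((3 : A) * (ind j (a' (g • x)) : A))
            = -((i3 * 3) * ∑ j, j * (ind j (a' (g • x)) : A)) := by
              rw [Finset.mul_sum, ← Finset.sum_neg_distrib]
              exact Finset.sum_congr rfl fun j _ => by ring
          _ = a' x := by rw [hi3, hind, one_mul, eq_neg_of_add_eq_zero_left (haS x)]
    · rw [hG]
      simp only [hFU, b, b0, Pi.sub_apply, Pi.smul_apply, smul_eq_mul, LL.funRep_apply]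
      have e := congrFun (LL.Z1_apply_mul (LL.funRep A X (M := M)) f.2 Periods.eltU (Periods.eltU * Periods.eltU)) x
      rw [Periods.eltU_pow_three, h1, LL.Z1_apply_mul (LL.funRep A X (M := M)) f.2, _root_.map_add, Pi.zero_apply] at e
      simp only [Pi.add_apply, LL.funRep_apply, ← hu, ← hb'] at e
      push_cast
      calc ∑ j, i3 * j * (2 * (ind j (b' x) : A) - (ind j (b' (u⁻¹ • x)) : A) -
              (ind j (b' (u⁻¹ • u⁻¹ • x)) : A))
          = i3 * (2 * ∑ j, j * (ind j (b' x) : A) - ∑ j, j * (ind j (b' (u⁻¹ • x)) : A) -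
              ∑ j, j * (ind j (b' (u⁻¹ • u⁻¹ • x)) : A)) := by
            rw [Finset.mul_sum, ← Finset.sum_sub_distrib, ← Finset.sum_sub_distrib, Finset.mul_sum]
            exact Finset.sum_congr rfl fun j _ => by ring
        _ = b' x := by
          rw [hind, hind, hind]
          linear_combination (b' x) * hi3 + i3 * e
  refine ⟨fun j => i3 * j, fun j => P.ev (LL.H1.mk (LL.funRep ℤ X (M := M)) (F j)), AddMonoidHom.ext fun x => ?_⟩
  obtain ⟨γ, rfl⟩ := Additive.ofMul.surjective x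
  rw [AddMonoidHom.finsetSum_apply, P.ev_mk, ← hGf, hG]
  exact Finset.sum_congr rfl fun j _ => rfl

end Pt

/-! ### operators on the part of a system -/

section Parts

variable {M : ℕ} [NeZero M] {A : Type} [CommRing A] [IsLocalRing A] [IsNoetherianRing A]
  [IsAdicComplete (IsLocalRing.maximalIdeal A) A]
  {V : Type} [AddCommGroup V] [Module A V] [Module.Finite A V]
  {ρ : Representation A (GL (Fin 2) (ZMod M)) V} (s : LL.Sys M A)

/-- an eigenclass of the system has the eigenvalue of the system up to the maximal ideal -/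
theorem eq_zero_of_T {x : LL.H1 ρ} (hx : x ∈ s.E ρ) {l : ℕ} (hl : l.Prime) (hlM : ¬ l ∣ M)
    (hb : l ∉ s.bad) {c : A} (hu : IsUnit (c - s.eig l)) (h : LL.T ρ hl hlM x = c • x) : x = 0 := by
  haveI := LL.H1_finite ρ
  have hk : ∀ k : ℕ, ((LL.T ρ hl hlM - s.eig l • 1) ^ k) x = (c - s.eig l) ^ k • x := by
    intro k
    induction k with
    | zero => simp
    | succ k ih =>
      rw [pow_succ', Module.End.mul_apply, ih, map_smul, LinearMap.sub_apply, LinearMap.smul_apply,
        Module.End.one_apply, h, ← sub_smul, smul_smul, ← pow_succ]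
  have hmem : x ∈ ⨅ n : ℕ, (IsLocalRing.maximalIdeal A ^ n) • (⊤ : Submodule A (LL.H1 ρ)) := by
    rw [Submodule.mem_iInf]
    intro n
    obtain ⟨k, hk'⟩ := (s.mem_E_iff.mp hx).2 l hl hlM hb n
    rw [hk] at hk'
    exact (Submodule.smul_mem_iff_of_isUnit _ (hu.pow k)).1 hk'
  rwa [Ideal.iInf_pow_smul_eq_bot_of_isLocalRing _ (IsLocalRing.maximalIdeal.isMaximal A).ne_top,
    Submodule.mem_bot] at hmem

theorem eq_zero_of_e1 {x : LL.H1 ρ} (hx : x ∈ s.E ρ) {l : ℕ} (hl : l.Prime) (hlM : ¬ l ∣ M)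
    (hb : l ∉ s.bad) {c : A} (hu : IsUnit (c - s.eig l))
    (h : LL.T ρ hl hlM x - c • x = 0) : x = 0 :=
  eq_zero_of_T s hx hl hlM hb hu (sub_eq_zero.mp h)

theorem eq_zero_of_e2 {x : LL.H1 ρ} (hx : x ∈ s.E ρ) {l : ℕ} (hl : l.Prime) (hlM : ¬ l ∣ M)
    (hb : l ∉ s.bad) {c : A} (hu : IsUnit (c - s.eig l)) (hu' : IsUnit (-c - s.eig l))
    (h : LL.T ρ hl hlM (LL.T ρ hl hlM x) - (c * c) • x = 0) : x = 0 := by
  rw [sub_eq_zero] at h
  have hw : LL.T ρ hl hlM x + c • x = 0 := by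
    refine eq_zero_of_T s (add_mem (s.T_mem_E hl hlM hx) (Submodule.smul_mem _ c hx)) hl hlM hb hu ?_
    rw [_root_.map_add, map_smul, h, smul_add, smul_smul, add_comm]
  exact eq_zero_of_T s hx hl hlM hb hu' (by rw [neg_smul]; exact eq_neg_of_add_eq_zero_left hw)

/-- a class whose images under intertwiners lie in the part of the system can be moved into it -/
theorem exists_mem_E_forall {V' : Type} [AddCommGroup V'] [Module A V'] [Module.Finite A V']
    {ρ' : Representation A (GL (Fin 2) (ZMod M)) V'} {ι : Type}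
    (F : ι → LL.H1 ρ →ₗ[A] LL.H1 ρ')
    (hF : ∀ (i : ι) (l : ℕ) (hl : l.Prime) (hlM : ¬ l ∣ M) (x : LL.H1 ρ),
      F i (LL.T ρ hl hlM x) = LL.T ρ' hl hlM (F i x))
    {x0 : LL.H1 ρ} (hy : ∀ i, F i x0 ∈ s.E ρ') : ∃ x ∈ s.E ρ, ∀ i, F i x = F i x0 := by
  haveI := LL.H1_finite ρ'
  have hint : ∀ i (l : ℕ) (hl : l.Prime) (hlM : ¬ l ∣ M) (c : A),
      F i ∘ₗ (LL.T ρ hl hlM - c • 1) =
        (LL.T ρ' hl hlM - c • (1 : Module.End A (LL.H1 ρ'))) ∘ₗ F i :=
    fun i l hl hlM c => LinearMap.ext fun y => by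
      simp only [LinearMap.comp_apply, LinearMap.sub_apply, LinearMap.smul_apply,
        Module.End.one_apply, map_sub, map_smul, hF]
  obtain ⟨e, h1, -, -, h4⟩ := s.exists_proj_core (ρ := ρ) (fun e => ∀ i, F i (e x0) = F i x0)
    (fun e he1 he2 i => by
      refine (sub_eq_zero.mp ?_).symm
      refine Submodule.disjoint_def.mp (LL.Fitting.isCompl (s.eta ρ')).disjoint _ ?_ ?_
      · exact sub_mem ((s.mem_E_iff).mp (hy i)).1
          (LL.Fitting.map_unitPart (hint i _ s.prime_l0 s.not_dvd_l0 _) (he1 x0))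
      · rw [← map_sub]
        exact LL.Fitting.map_nilPart _ (hint i _ s.prime_l0 s.not_dvd_l0 _) (he2 x0))
    (fun l hl hlM hb e e' he g1 g2 i => by
      rw [Module.End.mul_apply, ← he i]
      refine (sub_eq_zero.mp ?_).symm
      refine Submodule.disjoint_def.mp
        (LL.Fitting.isCompl (LL.T ρ' hl hlM - s.eig l • 1)).disjoint _ ?_ ?_
      · rw [← map_sub]
        exact LL.Fitting.map_unitPart (hint i l hl hlM _) (g2 _)
      · refine sub_mem ?_ (LL.Fitting.map_nilPart _ (hint i l hl hlM _) (g1 _))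
        rw [he i]
        exact ((s.mem_E_iff).mp (hy i)).2 l hl hlM hb)
  exact ⟨e x0, h1 ▸ LinearMap.mem_range_self e x0, h4⟩

end Parts

end FLTAgent.R2.Ihara

end
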