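import Fermat.Agent.LR.Span

/-!
Area R2, parcel G4: the counting homomorphisms are even, so the traces from level `N q` reach every
pair at level `N` up to the two auxiliary operators, without the factor two.
-/

set_option autoImplicit false
set_option linter.style.haveILetI false
set_option linter.unusedSectionVars false

noncomputable section

open Matrix OnePoint CongruenceSubgroup UpperHalfPlane
open scoped MatrixGroups

namespace FLTAgent.R2.Ihara

open FLTAgent.LR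

/-- the pairs `±δ` give the same crossings -/
theorem even_FL (M : ℕ) (x y : Cu) (z z' : ℍ) : Even (FL M x y z z') := by
  classical
  let m : Gamma0 M := ⟨-1, mem_Gamma0_iff.mpr (by simp)⟩
  let f : Gamma0 M → ℤ := fun δ =>
    Lv x y ((δ : SL(2, ℤ)) • z') - Lv x y ((δ : SL(2, ℤ)) • z)
  let P : Gamma0 M → Prop := fun δ =>
    0 < (δ : SL(2, ℤ)) 1 0 ∨ ((δ : SL(2, ℤ)) 1 0 = 0 ∧ 0 < (δ : SL(2, ℤ)) 1 1)
  let g : Gamma0 M → ℤ := fun δ => if P δ then f δ else 0
  have hcoe : ∀ δ : Gamma0 M, ((m * δ : Gamma0 M) : SL(2, ℤ)) = -(δ : SL(2, ℤ)) := fun δ => by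
    rw [Subgroup.coe_mul]
    exact neg_one_mul _
  have hf : ∀ δ, f (m * δ) = f δ := fun δ => by
    simp only [f, hcoe, ModularGroup.SL_neg_smul]
  have hP : ∀ δ, P (m * δ) ↔ ¬ P δ := fun δ => by
    have e : ∀ j, ((m * δ : Gamma0 M) : SL(2, ℤ)) 1 j = -((δ : SL(2, ℤ)) 1 j) := fun j => by
      rw [hcoe]; rfl
    simp only [P, e]
    have hd := det_SL (δ : SL(2, ℤ))
    have hne : ¬ ((δ : SL(2, ℤ)) 1 0 = 0 ∧ (δ : SL(2, ℤ)) 1 1 = 0) := fun h => by
      rw [h.1, h.2] at hd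
      simp at hd
    omega
  have hsplit : ∀ δ, f δ = g δ + g (m * δ) := fun δ => by
    simp only [g, hf]
    by_cases h : P δ
    · rw [if_pos h, if_neg (fun h' => (hP δ).mp h' h), add_zero]
    · rw [if_neg h, if_pos ((hP δ).mpr h), zero_add]
  have hfin : (Function.support g).Finite :=
    (support_FL M x y z z').subset fun δ hδ h => hδ (by
      show (if P δ then f δ else 0) = 0
      rw [show f δ = 0 from h, ite_self])
  have hfin' : (Function.support fun δ => g (m * δ)).Finite :=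
    hfin.preimage fun a _ b _ h => mul_left_cancel h
  refine ⟨∑ᶠ δ, g δ, ?_⟩
  show ∑ᶠ δ, f δ = _
  rw [finsum_congr hsplit, finsum_add_distrib hfin hfin']
  congr 1
  exact finsum_comp_equiv (Equiv.mulLeft m) (f := g)

/-- each counting homomorphism is twice another one -/
theorem exists_half_theta (M : ℕ) (x y : Cu) : ∃ h : HomG M ℤ, theta M x y = 2 • h := by
  have hev : ∀ a, (2 : ℤ) ∣ theta M x y a := fun a => even_iff_two_dvd.mp (even_FL M x y _ _)
  refine ⟨AddMonoidHom.mk' (fun a => theta M x y a / 2) fun a b => by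
    rw [map_add, Int.add_ediv_of_dvd_left (hev a)], AddMonoidHom.ext fun a => ?_⟩
  rw [AddMonoidHom.smul_apply, nsmul_eq_mul]
  exact (Int.mul_ediv_cancel' (hev a)).symm

theorem eq_of_two_nsmul_eq {M : ℕ} {φ ψ : HomG M ℤ} (h : 2 • φ = 2 • ψ) : φ = ψ := by
  refine AddMonoidHom.ext fun a => ?_
  have e := DFunLike.congr_fun h a
  simp only [AddMonoidHom.smul_apply, nsmul_eq_mul] at e
  push_cast at e
  omega

/-- the traces from level `N q` reach `e` of every pair -/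
theorem dual_surj_two {N q : ℕ} [NeZero N] [NeZero q] (hq : q.Prime) (hqN : ¬ q ∣ N) {r : ℕ}
    [NeZero r] (hr : r.Prime) (hrq : ¬ r ∣ q) (hrN : ¬ r ∣ N) (hr1 : ¬ (r : ℤ) ∣ (q : ℤ) ^ 2 - 1) :
    ∃ M : ℕ, 0 < M ∧ ∀ (s : ℕ) [NeZero s] (hs : s.Prime) (hsN : ¬ s ∣ N), (M : ℤ) ∣ (s : ℤ) - 1 →
      ∀ z₁ z₂ : HomG N ℤ, ∃ h : HomG (N * q) ℤ,
        be1 hq hqN h = e2H N r hr hrN (e1H N s hs hsN z₁) ∧
        be2 hq hqN h = e2H N r hr hrN (e1H N s hs hsN z₂) := by
  set R : AddSubgroup (HomG N ℤ × HomG N ℤ) :=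
    (((be1 hq hqN).prod (be2 hq hqN)).comp (nsmulAddMonoidHom 2)).range with hR
  set π := QuotientAddGroup.mk' R
  set F₁ : HomG N ℤ →+ (HomG N ℤ × HomG N ℤ) ⧸ R := π.comp (AddMonoidHom.inl _ _)
  set F₂ : HomG N ℤ →+ (HomG N ℤ × HomG N ℤ) ⧸ R := π.comp (AddMonoidHom.inr _ _)
  have hsym : ∀ F : HomG N ℤ →+ (HomG N ℤ × HomG N ℤ) ⧸ R, IsSym (fun x y => F (theta N x y)) :=
    fun F => ⟨fun x y t => by rw [← map_add, (theta_sym N).add x y t]⟩
  have hst : ∀ F : HomG N ℤ →+ (HomG N ℤ × HomG N ℤ) ⧸ R, ∀ γ ∈ Gamma0 N,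
      emb γ ∈ stab (fun x y => F (theta N x y)) := fun F γ hγ x y => by
    show F _ = F _
    rw [← embG_apply (⟨γ, hγ⟩ : Gamma0 N), theta_smul]
  have hpair : (fun x y => F₁ (theta N x y)) + pullS (Dg q) (fun x y => F₂ (theta N x y)) = 0 := by
    funext x y
    show π (theta N x y, 0) + π (0, theta N (Dg q • x) (Dg q • y)) = 0
    rw [← map_add, Prod.mk_add_mk, add_zero, zero_add]
    obtain ⟨h, hh⟩ := exists_half_theta (N * q) x y
    refine (QuotientAddGroup.eq_zero_iff _).mpr ⟨h, ?_⟩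
    rw [AddMonoidHom.comp_apply, nsmulAddMonoidHom_apply, AddMonoidHom.prod_apply, ← hh]
    exact Prod.ext (theta_be1 hq hqN x y) (theta_be2 hq hqN x y)
  obtain ⟨hI₁, hI₂⟩ := inv_of_pair hq hqN (hsym F₁) (hsym F₂) (hst F₁) (hst F₂) hpair
  obtain ⟨M, hM, hcore⟩ := core (V := (HomG N ℤ × HomG N ℤ) ⧸ R) (NeZero.pos N) (NeZero.ne q) hr hrq
    hrN hr1
  refine ⟨M, hM, fun s _ hs hsN hs1 z₁ z₂ => ?_⟩
  have hkill : ∀ F : HomG N ℤ →+ (HomG N ℤ × HomG N ℤ) ⧸ R, Inv N q (fun x y => F (theta N x y)) →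
      ∀ φ : HomG N ℤ, F (2 • e2H N r hr hrN (e1H N s hs hsN φ)) = 0 := by
    intro F hI φ
    have h := hcore _ hI s hs hs1
    rw [e2_of_hom F hr hrN, e1_of_hom _ hs hsN] at h
    set G := (F.comp (e2H N r hr hrN)).comp (e1H N s hs hsN) with hG
    have h' : G (2 • φ) = 0 := by
      refine AddSubgroup.closure_induction (p := fun x _ => G x = 0) ?_ (map_zero G)
        (fun a b _ _ ha hb => by rw [map_add, ha, hb, add_zero])
        (fun a _ ha => by rw [map_neg, ha, neg_zero]) (two_nsmul_mem_span φ)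
      rintro _ ⟨⟨x, y⟩, rfl⟩
      have := congrFun (congrFun h x) y
      simp only [Pi.zero_apply] at this ⊢
      simp only [hG, AddMonoidHom.comp_apply]
      exact this
    simpa [hG, map_nsmul] using h'
  have h0 : π (2 • e2H N r hr hrN (e1H N s hs hsN z₁), 2 • e2H N r hr hrN (e1H N s hs hsN z₂)) = 0 := by
    have := congrArg₂ (· + ·) (hkill F₁ hI₁ z₁) (hkill F₂ hI₂ z₂)
    simp only [add_zero] at this
    rw [← this]
    simp only [F₁, F₂, AddMonoidHom.comp_apply, AddMonoidHom.inl_apply, AddMonoidHom.inr_apply]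
    rw [← map_add, Prod.mk_add_mk, add_zero, zero_add]
  obtain ⟨h, hh⟩ := (QuotientAddGroup.eq_zero_iff _).mp h0
  rw [AddMonoidHom.comp_apply, nsmulAddMonoidHom_apply, AddMonoidHom.prod_apply, Prod.mk.injEq] at hh
  obtain ⟨h1, h2⟩ := hh
  rw [map_nsmul] at h1 h2
  exact ⟨h, eq_of_two_nsmul_eq h1, eq_of_two_nsmul_eq h2⟩

end FLTAgent.R2.Ihara

end
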