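import Fermat.Agent.R2.LevelPair
import Fermat.Agent.R2.LevelTheta
import Fermat.Agent.R2.CohFree

/-!
Area R2, parcel G4: the two degeneracy maps at a prime exactly dividing the modulus, at the residual
coefficients, on functions on `P¹(N1)` times pairs of lines at further primes.

`(y₁, y₂) ↦ α* y₁ + Wp α* y₂` is injective and `y ↦ (α y, α Wp y)` surjective on the part of a
system whose eigenvalue is odd at primes `≡ 1` modulo any modulus.
-/

set_option autoImplicit false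
set_option linter.style.haveILetI false
set_option linter.unusedSectionVars false

noncomputable section

open scoped MatrixGroups
open Matrix CongruenceSubgroup

namespace FLTAgent.R2.Lv

open FLTAgent.LL FLTAgent.R2.Coh

section Lines

variable {M p : ℕ} [NeZero M] [Fact p.Prime] (hp : p ∣ M)

theorem rkOne_stdMat (i : Option (ZMod p)) : RkOne p (stdMat p i) :=
  rkOne_of_det (det_stdMat p i) dvd_rfl (not_sq_dvd Fact.out)

/-- the first column of the line of an element of `SL(2, ℤ)` -/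
theorem colP_red_smul_base (δ : SL(2, ℤ)) :
    ∃ c : ZMod p, c ≠ 0 ∧ ∀ a, colP hp (red M δ • P1.base M p) a = c * (δ.1 a 0 : ZMod p) := by
  obtain ⟨c, hc, hcol⟩ := exists_colP hp (red M δ)
  refine ⟨c, hc, fun a => ?_⟩
  rw [show red M δ • P1.base M p = QuotientGroup.mk (red M δ) from by
      rw [P1.base, MulAction.Quotient.smul_mk, smul_eq_mul, mul_one], hcol]
  show c * ZMod.castHom hp (ZMod p) ((δ.1 a 0 : ℤ) : ZMod M) = _
  rw [map_intCast]

theorem colP_base : colP hp (P1.base M p) 0 ≠ 0 ∧ colP hp (P1.base M p) 1 = 0 := by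
  obtain ⟨c, hc, hcol⟩ := colP_red_smul_base hp 1
  rw [map_one, one_smul] at hcol
  rw [hcol, hcol]
  simp [hc]

theorem kerPt_none : kerPt hp (stdMat p none) = P1.base M p := by
  rw [(rkOne_stdMat none).kerPt_eq_iff hp]
  funext a
  fin_cases a <;> simp [modP, stdMat, Matrix.mulVec, dotProduct, (colP_base hp).2]

theorem kerPt_some (b : ZMod p) : kerPt hp (stdMat p (some b)) ≠ P1.base M p := by
  rw [ne_eq, (rkOne_stdMat (some b)).kerPt_eq_iff hp]
  intro e
  have h0 := congrFun e 0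
  simp [modP, stdMat, Matrix.mulVec, dotProduct, (colP_base hp).2] at h0
  exact (colP_base hp).1 h0

/-- an element of lower right entry divisible by `p` sends the image line of `diag (p, 1)` to the
base line -/
theorem smul_imPt_none {U : SL(2, ℤ)} (hU : (p : ℤ) ∣ U.1 1 1) :
    red M U • imPt hp (stdMat p none) = P1.base M p := by
  have h11 : ((U.1 1 1 : ℤ) : ZMod p) = 0 := (ZMod.intCast_zmod_eq_zero_iff_dvd _ _).2 hU
  rw [imPt_eq_kerPt hp (rkOne_stdMat none), smul_eq_iff_eq_inv_smul, ← map_inv,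
    ((rkOne_stdMat none).adjugate).kerPt_eq_iff hp]
  obtain ⟨c, -, hcol⟩ := colP_red_smul_base hp U⁻¹
  funext a
  fin_cases a <;>
    simp [modP, stdMat, Matrix.adjugate_fin_two, Matrix.mulVec, dotProduct, hcol, h11,
      Matrix.SpecialLinearGroup.coe_inv, -map_inv]

end Lines

namespace PairData

open FLTAgent.LR (HomG epsSL epsG epsC WC gam0 wQ al1 al2 be1 be2 Wop)

variable {M p M' : ℕ} [NeZero M] [NeZero M'] (P : PairData M') (h : Split M p M')
  (A : Type) [CommRing A]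

/-- uncurrying the coefficients -/
def unc : (P1 M p → P.Z h → A) →ₗ[A] (P1 M p × P.Z h → A) where
  toFun F z := F z.1 z.2
  map_add' _ _ := rfl
  map_smul' _ _ := rfl

/-- currying the coefficients -/
def cur : (P1 M p × P.Z h → A) →ₗ[A] (P1 M p → P.Z h → A) where
  toFun F x z := F (x, z)
  map_add' _ _ := rfl
  map_smul' _ _ := rfl

theorem isTwist_unc :
    IsTwist (pRep (p := p) (funRep A (P.Z h) (M := M))) (funRep A (P1 M p × P.Z h) (M := M)) 1
      (P.unc h A) := fun g F => by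
  rw [MonoidHom.one_apply, one_smul]
  rfl

theorem isTwist_cur :
    IsTwist (funRep A (P1 M p × P.Z h) (M := M)) (pRep (p := p) (funRep A (P.Z h) (M := M))) 1
      (P.cur h A) := fun g F => by
  rw [MonoidHom.one_apply, one_smul]
  rfl

/-- classes at the prime and the lines as homomorphisms of level `Γ₀(L p)` -/
def evP : H1 (pRep (p := p) (funRep A (P.Z h) (M := M))) →ₗ[A] HomG (P.L * p) A :=
  (P.ptP h).ev ∘ₗ map (P.isTwist_unc h A)

theorem evP_mk (f : Z1 (pRep (p := p) (funRep A (P.Z h) (M := M)))) (γ : Gamma0 (P.L * p)) :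
    P.evP h A (Submodule.Quotient.mk f) (Additive.ofMul γ) =
      f.1 (conjHom (P.dvd_R.mul_right p) γ) (P1.base M p) (P.pt h).x := rfl

theorem evP_bijective : Function.Bijective (P.evP h A) := by
  refine (P.ptP h).ev_bijective.comp (Function.bijective_iff_has_inverse.2
    ⟨map (P.isTwist_cur h A), fun x => ?_, fun x => ?_⟩)
  all_goals
    obtain ⟨f, rfl⟩ := Submodule.mkQ_surjective _ x
    exact congrArg Submodule.Quotient.mk (Subtype.ext (funext fun g => rfl))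

variable {A}

/-- the pull back is restriction -/
theorem evP_pull (y : H1 (funRep A (P.Z h) (M := M))) :
    P.evP h A (map (isTwist_pullPt (p := p) (funRep A (P.Z h) (M := M))) y) =
      al1 P.L p ((P.pt h).ev y) := by
  obtain ⟨f, rfl⟩ := Submodule.mkQ_surjective _ y
  refine AddMonoidHom.ext fun a => ?_
  obtain ⟨γ, rfl⟩ := Additive.ofMul.surjective a
  rw [al1, LR.resC_op]
  rfl

variable [NeZero p]

/-- a conjugate of a product minus its boundary -/
theorem Z1_apply_conj {V : Type*} [AddCommGroup V] [Module A V]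
    {ρ : Representation A (GL (Fin 2) (ZMod M)) V} (f : Z1 ρ) (x y z : SL(2, ℤ)) :
    f.1 (x * y * z⁻¹) =
      f.1 x + ρ (red M x) (f.1 y) - ρ (red M (x * y * z⁻¹)) (f.1 z) := by
  have e := Z1_apply_mul ρ f.2 (x * y * z⁻¹) z
  rw [inv_mul_cancel_right, Z1_apply_mul ρ f.2 x y] at e
  rw [e, add_sub_cancel_right]

/-- the sum over the lines is the trace -/
theorem ev_push (z : H1 (pRep (p := p) (funRep A (P.Z h) (M := M)))) :
    (P.pt h).ev (map (isTwist_pushPt (p := p) (funRep A (P.Z h) (M := M))) z) =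
      be1 h.prime (P.not_dvd_p h) (P.evP h A z) := by
  haveI : Fact p.Prime := ⟨h.prime⟩
  letI : Fintype (P1 M p) := Fintype.ofFinite _
  obtain ⟨f, rfl⟩ := Submodule.mkQ_surjective _ z
  refine AddMonoidHom.ext fun a => ?_
  obtain ⟨γ, rfl⟩ := Additive.ofMul.surjective a
  obtain ⟨σ, g, hg⟩ := (epsC h.prime (P.not_dvd_p h)).exists_rel γ
  rw [be1, LR.Corr.op_apply _ hg]
  show (pushPt (A := A) (f.1 (conjHom P.dvd_R γ))) (P.pt h).x = _
  set G := conjHom P.dvd_R γ with hG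
  set b := P1.base M p with hb
  set x₀ := (P.pt h).x with hx₀
  let E : OnePoint (ZMod p) → SL(2, ℤ) := fun i => conjHom P.dvd_R (epsG i)
  let xs : OnePoint (ZMod p) → P1 M p := fun i => (red M (E i))⁻¹ • b
  have hstab : ∀ η : Gamma0 P.L, red M (conjHom P.dvd_R η) • x₀ = x₀ := fun η =>
    mem_stab.1 ((P.pt h).le η)
  have hinj : Function.Injective xs := by
    intro i j e
    refine (LR.eps_sep h.prime (P.not_dvd_p h) (i := i) (j := j) ?_)
    have hmem : E i * (E j)⁻¹ ∈ stab M b := by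
      rw [mem_stab, map_mul, map_inv, mul_smul,
        show (red M (E j))⁻¹ • b = (red M (E i))⁻¹ • b from e.symm, smul_inv_smul]
    rw [hb, stab_base h.dvdP, show E i * (E j)⁻¹ = conjHom P.dvd_R (epsG i * (epsG j)⁻¹) by
      rw [map_mul, map_inv]] at hmem
    have h2 : (p : ℤ) ∣ ((epsG i * (epsG j)⁻¹ : Gamma0 P.L) : SL(2, ℤ)).1 1 0 / P.R :=
      (ZMod.intCast_zmod_eq_zero_iff_dvd _ _).mp (Gamma0_mem.mp hmem)
    have h3 := h2.mul_right (P.R : ℤ)
    rw [Int.ediv_mul_cancel (dvd_gamma0 P.dvd_R _)] at h3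
    exact h3
  have hsurj : Function.Surjective xs := by
    intro x
    obtain ⟨δ, hδ⟩ := (P.ptP h).trans (x, x₀)
    obtain ⟨η, rfl⟩ := (P.pt h).ge δ (mem_stab.2 (congrArg Prod.snd hδ))
    obtain ⟨j, g', hg'⟩ := (epsC h.prime (P.not_dvd_p h)).step η⁻¹ none
    change LR.emb (1 : SL(2, ℤ)) * _ = _ * LR.emb (epsSL P.L p j) at hg'
    set g₀ : Gamma0 P.L := ⟨(g' : SL(2, ℤ)), LR.Gamma0_le_of_dvd (dvd_mul_right P.L p) g'.2⟩
      with hg₀
    have hη : η = (epsG j)⁻¹ * g₀⁻¹ := by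
      rw [← _root_.mul_inv_rev, ← inv_eq_iff_eq_inv]
      refine LR.embG_injective ?_
      rw [map_one, one_mul] at hg'
      rw [map_mul (LR.embG (M := P.L))]
      exact hg'
    refine ⟨j, ?_⟩
    have hb' : red M (conjHom P.dvd_R η) • b = x := congrArg Prod.fst hδ
    have hg₀b : (red M (conjHom P.dvd_R g₀))⁻¹ • b = b :=
      inv_smul_eq_iff.2 (congrArg Prod.fst (mem_stab.1 ((P.ptP h).le g'))).symm
    rw [← hb', hη, map_mul, map_inv, map_inv, map_mul, map_inv, map_inv, mul_smul, hg₀b]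
  have hC : ∀ i, conjHom (P.dvd_R.mul_right p) (g i) = E i * G * (E (σ i))⁻¹ := fun i => by
    have e : (⟨(g i : SL(2, ℤ)), LR.Gamma0_le_of_dvd (dvd_mul_right P.L p) (g i).2⟩ : Gamma0 P.L) =
        epsG i * γ * (epsG (σ i))⁻¹ := by
      refine LR.embG_injective ?_
      rw [map_mul, map_mul, map_inv, eq_mul_inv_iff_mul_eq]
      exact (hg i).symm
    simp only [E, hG, ← map_inv, ← map_mul, ← e]
    rfl
  have hterm : ∀ i, P.evP h A (Submodule.Quotient.mk f) (Additive.ofMul (g i)) =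
      f.1 (E i) b x₀ + f.1 G (xs i) x₀ - f.1 (E (σ i)) b x₀ := fun i => by
    rw [evP_mk, hC, Z1_apply_conj, Pi.sub_apply, Pi.add_apply, Pi.sub_apply, Pi.add_apply]
    have hfix := mem_stab.1 ((P.ptP h).le (g i))
    rw [hC] at hfix
    refine congrArg₂ (fun u v : A => f.1 (E i) b x₀ + u - v) ?_ ?_
    · show f.1 G (xs i) ((red M (E i))⁻¹ • x₀) = _
      rw [inv_smul_eq_iff.2 (hstab _).symm]
    · show f.1 (E (σ i)) ((red M _)⁻¹ • b) ((red M _)⁻¹ • x₀) = _
      rw [show (red M (E i * G * (E (σ i))⁻¹))⁻¹ • b = b from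
          inv_smul_eq_iff.2 (congrArg Prod.fst hfix).symm,
        show (red M (E i * G * (E (σ i))⁻¹))⁻¹ • x₀ = x₀ from
          inv_smul_eq_iff.2 (congrArg Prod.snd hfix).symm]
  calc pushPt (A := A) (f.1 G) x₀ = ∑ x, f.1 G x x₀ := by
        simp only [pushPt, LinearMap.sum_apply, LinearMap.proj_apply, Finset.sum_apply]
    _ = ∑ i, f.1 G (xs i) x₀ := ((Equiv.ofBijective xs ⟨hinj, hsurj⟩).sum_comp _).symm
    _ = _ := by
      simp only [Submodule.mkQ_apply] at hterm ⊢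
      simp only [hterm, Finset.sum_sub_distrib, Finset.sum_add_distrib]
      rw [Equiv.sum_comp σ (fun i => f.1 (E i) b x₀)]
      abel

/-- the operator at the prime is the involution -/
theorem evP_Wp (z : H1 (pRep (p := p) (funRep A (P.Z h) (M := M)))) :
    P.evP h A (Wp h (funRep A (P.Z h) (M := M)) (P.fac_funRep h A) z) =
      Wop h.prime (P.not_dvd_p h) (P.evP h A z) := by
  haveI : Fact p.Prime := ⟨h.prime⟩
  obtain ⟨f, rfl⟩ := Submodule.mkQ_surjective _ z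
  refine AddMonoidHom.ext fun a => ?_
  obtain ⟨γ, rfl⟩ := Additive.ofMul.surjective a
  obtain ⟨σ, g, hg⟩ := (WC h.prime (P.not_dvd_p h)).exists_rel γ
  rw [Wop, LR.Corr.op_apply _ hg, Fintype.sum_unique]
  have hg0 : wQ P.L p * LR.embG γ = LR.embG (g ()) * wQ P.L p := hg ()
  set γL : Gamma0 P.L := ⟨(γ : SL(2, ℤ)), LR.Gamma0_le_of_dvd (dvd_mul_right P.L p) γ.2⟩ with hγL
  set gL : Gamma0 P.L := ⟨(g () : SL(2, ℤ)), LR.Gamma0_le_of_dvd (dvd_mul_right P.L p) (g ()).2⟩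
    with hgL
  set U : Gamma0 P.L := gam0 h.prime (P.not_dvd_p h) with hU
  set e : Gamma0 P.L := U⁻¹ * gL * U with he
  have hrel : LR.tRep p OnePoint.infty * LR.embG γL = LR.embG e * LR.tRep p OnePoint.infty := by
    rw [LR.tRep_infty, he, map_mul, map_mul, map_inv, mul_assoc, mul_assoc,
      ← LR.wQ_eq h.prime (P.not_dvd_p h), eq_inv_mul_iff_mul_eq, ← mul_assoc,
      ← LR.wQ_eq h.prime (P.not_dvd_p h)]
    exact hg0
  have hint := Ihara.int_eq_of_rel (Ihara.val_tRep _) (Ihara.val_tRep _) hrel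
  change stdMat p none * _ = _ * stdMat p none at hint
  have hdiag : stdMat p none * alphaMat P.R = alphaMat P.R * stdMat p none := by
    ext i j
    fin_cases i <;> fin_cases j <;> simp [stdMat, alphaMat, mul_comm]
  set G := conjHom (P.dvd_R.mul_right p) γ with hG
  have hG' : G = conjHom P.dvd_R γL := rfl
  have hei := (stdReps p).elt_idx_eq (g := G) (γ := conjHom P.dvd_R e) (i := none) (j := none)
    (eq_of_mul_alphaMat (NeZero.ne P.R) (by
      show stdMat p none * _ * _ = _ * stdMat p none * _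
      rw [hG', mul_assoc, conjHom_mul_alphaMat, ← mul_assoc, hdiag, mul_assoc, hint, ← mul_assoc,
        ← conjHom_mul_alphaMat P.dvd_R e, mul_assoc, ← hdiag, ← mul_assoc]))
  have hks : ∀ (c : ZMod p) (v : P1 M p → P.Z h → A),
      kerW h (funRep A (P.Z h) (M := M)) (stdMat p (some c)) v (P1.base M p) = 0 := fun c v => by
    rw [kerW_apply, if_neg (kerPt_some h.dvdP c)]
  have hkn : ∀ v : P1 M p → P.Z h → A,
      kerW h (funRep A (P.Z h) (M := M)) (stdMat p none) v (P1.base M p) =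
        funRep A (P.Z h) (M := M) (adU h (stdMat p none)) (v (imPt h.dvdP (stdMat p none))) :=
    fun v => by
      rw [kerW_apply, if_pos (kerPt_none h.dvdP)]
  have hrep : ∀ i, (stdReps p).rep i = stdMat p i := fun _ => rfl
  rw [Wp, corrH_mk, Submodule.mkQ_apply, evP_mk, opZ_apply, ← hG]
  simp only [Fam.ofReps]
  simp only [hrep]
  rw [Finset.sum_apply, Finset.sum_eq_single (none : Option (ZMod p))
    (fun i _ hi => by
      obtain ⟨c, rfl⟩ := Option.ne_none_iff_exists'.1 hi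
      exact hks c _)
    (fun hi => absurd (Finset.mem_univ _) hi), hkn, hei.1]
  set x₀ := (P.pt h).x with hx₀
  set b := P1.base M p with hb
  have hadU : adU h (stdMat p none) • x₀ = x₀ := by
    have hunit : IsUnit (((stdMat p none).adjugate.det : ℤ) : ZMod M') := by
      rw [Matrix.det_adjugate, det_stdMat]
      simpa using (ZMod.isUnit_iff_coprime p M').mpr h.coprime
    have hz : ∀ a b : Fin 2, a ≠ b →
        (M' : ZMod M) ∣ (adU h (stdMat p none)).1 a b := fun a b hab => by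
      obtain ⟨x, hx⟩ := ZMod.intCast_surjective ((adU h (stdMat p none)).1 a b)
      have e' : ZMod.castHom h.dvd' (ZMod M') ((adU h (stdMat p none)).1 a b) =
          (redGL M' (stdMat p none).adjugate).1 a b := by
        rw [← (adU_spec h (stdMat p none)).1]; rfl
      rw [← hx, map_intCast, coe_redGL M' hunit, Matrix.map_apply] at e'
      have h0 : (stdMat p none).adjugate a b = 0 := by
        rw [Matrix.adjugate_fin_two]
        fin_cases a <;> fin_cases b <;> simp_all [stdMat]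
      rw [h0, Int.cast_zero, ZMod.intCast_zmod_eq_zero_iff_dvd] at e'
      obtain ⟨y, rfl⟩ := e'
      exact ⟨(y : ZMod M), by rw [← hx]; push_cast; rfl⟩
    refine Prod.ext ?_ (funext fun i => ?_)
    · show adU h (stdMat p none) • P1.base M P.N1 = P1.base M P.N1
      rw [P1.smul_base_eq, mem_B0]
      exact (Nat.cast_dvd_cast P.dvd1).trans (hz 1 0 (by decide))
    · show adU h (stdMat p none) • (QuotientGroup.mk 1 : GL (Fin 2) (ZMod M) ⧸ (P.tw h).CQ i) =
        QuotientGroup.mk 1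
      rw [MulAction.Quotient.smul_mk, QuotientGroup.eq]
      simp only [smul_eq_mul, mul_one, inv_mem_iff]
      have hq : ∀ a b : Fin 2, a ≠ b →
          ((P.tw h).cQ i (adU h (stdMat p none))).1 a b = 0 := fun a b hab => by
        obtain ⟨y, hy⟩ := (Nat.cast_dvd_cast (P.dvd i)).trans (hz a b hab)
        show ZMod.castHom ((P.dvd i).trans h.dvd') (ZMod (P.q i)) _ = 0
        rw [hy, map_mul, map_natCast, ZMod.natCast_self, zero_mul]
      exact ⟨hq 1 0 (by decide), hq 0 1 (by decide)⟩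
  show f.1 (conjHom P.dvd_R e) (imPt h.dvdP (stdMat p none)) ((adU h (stdMat p none))⁻¹ • x₀) = _
  rw [inv_smul_eq_iff.2 hadU.symm, Submodule.mkQ_apply]
  show _ = f.1 (conjHom (P.dvd_R.mul_right p) (g ())) b x₀
  have hC : conjHom (P.dvd_R.mul_right p) (g ()) =
      conjHom P.dvd_R U * conjHom P.dvd_R e * (conjHom P.dvd_R U)⁻¹ := by
    rw [← map_inv, ← map_mul, ← map_mul, he,
      show U * (U⁻¹ * gL * U) * U⁻¹ = gL by group]
    rfl
  have hfix := mem_stab.1 ((P.ptP h).le (g ()))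
  rw [hC] at hfix ⊢
  rw [Z1_apply_conj, Pi.sub_apply, Pi.add_apply, Pi.sub_apply, Pi.add_apply]
  show _ = f.1 (conjHom P.dvd_R U) b x₀ +
    f.1 (conjHom P.dvd_R e) ((red M _)⁻¹ • b) ((red M _)⁻¹ • x₀) -
    f.1 (conjHom P.dvd_R U) ((red M _)⁻¹ • b) ((red M _)⁻¹ • x₀)
  rw [show (red M (conjHom P.dvd_R U * conjHom P.dvd_R e * (conjHom P.dvd_R U)⁻¹))⁻¹ • b = b from
      inv_smul_eq_iff.2 (congrArg Prod.fst hfix).symm,
    show (red M (conjHom P.dvd_R U * conjHom P.dvd_R e * (conjHom P.dvd_R U)⁻¹))⁻¹ • x₀ = x₀ from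
      inv_smul_eq_iff.2 (congrArg Prod.snd hfix).symm,
    show (red M (conjHom P.dvd_R U))⁻¹ • x₀ = x₀ from
      inv_smul_eq_iff.2 (mem_stab.1 ((P.pt h).le U)).symm,
    show (red M (conjHom P.dvd_R U))⁻¹ • b = imPt h.dvdP (stdMat p none) from
      inv_smul_eq_iff.2 (smul_imPt_none h.dvdP (U := conjHom P.dvd_R U) (dvd_refl (p : ℤ))).symm]
  abel

/-- the second sum is the second trace -/
theorem ev_push_Wp (z : H1 (pRep (p := p) (funRep A (P.Z h) (M := M)))) :
    (P.pt h).ev (map (isTwist_pushPt (p := p) (funRep A (P.Z h) (M := M)))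
      (Wp h (funRep A (P.Z h) (M := M)) (P.fac_funRep h A) z)) =
      be2 h.prime (P.not_dvd_p h) (P.evP h A z) := by
  rw [ev_push, evP_Wp]
  rfl

end PairData

variable {M p M' : ℕ} [NeZero M] [NeZero M'] (h : Split M p M') (P : PairData M')
  (s : Sys M (Lam 0)) (hs : OddAtOne s)

local notation "τZ" => funRep (Lam 0) (P.Z h) (M := M)

/-- a prime outside `2` is odd -/
theorem cast_succ_eq_zero {l : ℕ} (hl : l.Prime) (h2 : l ≠ 2) : ((l + 1 : ℕ) : Lam 0) = 0 :=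
  (ZMod.natCast_eq_zero_iff _ _).2 (by
    have := hl.eq_two_or_odd.resolve_left h2
    show 2 ^ (0 + 1) ∣ l + 1
    simp only [zero_add, pow_one]
    omega)

/-- the two auxiliary operators are injective on the part of the system -/
theorem eq_zero_of_e1_e2 {l r : ℕ} (hl : l.Prime) (hlM : ¬ l ∣ M) (hlb : l ∉ s.bad)
    (hl2 : l ≠ 2) (hle : s.eig l = 1) (hr : r.Prime) (hrM : ¬ r ∣ M) (hrb : r ∉ s.bad)
    (hr2 : r ≠ 2) (hre : s.eig r = 1) {x : H1 τZ} (hx : x ∈ s.E τZ)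
    (h0 : T τZ hr hrM (T τZ hr hrM (T τZ hl hlM x - ((l + 1 : ℕ) : Lam 0) • x)) -
      (((r + 1) ^ 2 : ℕ) : Lam 0) • (T τZ hl hlM x - ((l + 1 : ℕ) : Lam 0) • x) = 0) : x = 0 := by
  have hu : IsUnit ((0 : Lam 0) - 1) := by rw [zero_sub]; exact isUnit_one.neg
  rw [pow_two, Nat.cast_mul, cast_succ_eq_zero hr hr2, cast_succ_eq_zero hl hl2] at h0
  refine Ihara.eq_zero_of_e1 s hx hl hlM hlb (c := 0) (by rw [hle]; exact hu) ?_
  refine Ihara.eq_zero_of_e2 s (sub_mem (s.T_mem_E hl hlM hx) (Submodule.smul_mem _ _ hx)) hr hrM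
    hrb (c := 0) (by rw [hre]; exact hu) (by rw [hre, neg_zero]; exact hu) h0

include hs in
/-- a prime for the auxiliary operators -/
theorem exists_aux_r (hp : p.Prime) : ∃ r, r.Prime ∧ r ≠ 2 ∧ ¬ r ∣ M ∧ r ∉ s.bad ∧ s.eig r = 1 ∧
    ¬ r ∣ p ∧ ¬ (r : ℤ) ∣ (p : ℤ) ^ 2 - 1 := by
  obtain ⟨r, hr, -, hS, hrM, hrb, hre⟩ :=
    hs 1 (insert 2 (insert p ((p : ℤ) ^ 2 - 1).natAbs.primeFactors)) one_pos
  simp only [Finset.mem_insert, not_or] at hS
  refine ⟨r, hr, hS.1, hrM, hrb, hre, fun hd => ?_, fun hd => hS.2.2 ?_⟩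
  · exact hS.2.1 ((Nat.prime_dvd_prime_iff_eq hr hp).1 hd)
  · refine Nat.mem_primeFactors.2 ⟨hr, Int.natCast_dvd.1 hd, fun h0 => ?_⟩
    have h4 : (2 : ℤ) ≤ p := by exact_mod_cast hp.two_le
    have := Int.natAbs_eq_zero.1 h0
    nlinarith

include hs in
/-- the two pull backs meet trivially -/
theorem deg_injective {y₁ y₂ : H1 τZ} (h₁ : y₁ ∈ s.E τZ) (h₂ : y₂ ∈ s.E τZ)
    (h0 : map (isTwist_pullPt (p := p) τZ) y₁ +
      Wp h τZ (P.fac_funRep h (Lam 0)) (map (isTwist_pullPt (p := p) τZ) y₂) = 0) :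
    y₁ = 0 ∧ y₂ = 0 := by
  haveI := h.neZero
  obtain ⟨r, hr, hr2, hrM, hrb, hre, hrp, hr1⟩ := exists_aux_r s hs h.prime
  haveI : NeZero r := ⟨hr.ne_zero⟩
  obtain ⟨M0, hM0, hker⟩ := LR.ihara (V := Lam 0) h.prime (P.not_dvd_p h) hr hrp
    ((P.pt h).not_dvd hr hrM) hr1
  obtain ⟨l, hl, hl1, hlS, hlM, hlb, hle⟩ := hs M0 {2} hM0
  haveI : NeZero l := ⟨hl.ne_zero⟩
  have hlp : ¬ l ∣ p := fun hd => hlM (hd.trans h.dvdP)
  have key : ∀ y y' : H1 τZ, y ∈ s.E τZ → y' ∈ s.E τZ →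
      LR.al1 P.L p ((P.pt h).ev y) + LR.al2 P.L p ((P.pt h).ev y') = 0 → y = 0 := by
    intro y y' hy hy' e
    have e0 := hker l hl ((P.pt h).not_dvd hl hlM) hlp (Nat.modEq_iff_dvd.1 hl1.symm) _ _
      ((P.pt h).ev_parabolic s hy) ((P.pt h).ev_parabolic s hy') e
    rw [(P.pt h).ev_e1H hl hlM, (P.pt h).ev_e2H hr hrM, (P.pt h).ev_e1H hl hlM,
      ← map_zero (P.pt h).ev] at e0
    have hl0 := cast_succ_eq_zero hl (Finset.notMem_singleton.1 hlS)
    have hu : IsUnit ((0 : Lam 0) - s.eig l) := by rw [hle, zero_sub]; exact isUnit_one.neg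
    have e1 := (P.pt h).ev_bijective.1 e0
    rw [hl0] at e1
    refine eq_zero_of_e1_e2 h P s hl hlM hlb (Finset.notMem_singleton.1 hlS) hle hr hrM hrb hr2
      hre hy ?_
    refine Ihara.eq_zero_of_e1 s ?_ hl hlM hlb hu (by rw [hl0]; exact e1)
    exact sub_mem (s.T_mem_E hr hrM (s.T_mem_E hr hrM (sub_mem (s.T_mem_E hl hlM hy)
      (Submodule.smul_mem _ _ hy)))) (Submodule.smul_mem _ _ (sub_mem (s.T_mem_E hl hlM hy)
      (Submodule.smul_mem _ _ hy)))
  have e := congrArg (P.evP h (Lam 0)) h0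
  rw [_root_.map_add, P.evP_Wp h, P.evP_pull h, P.evP_pull h, _root_.map_zero,
    LR.Wop_al1 h.prime (P.not_dvd_p h)] at e
  have e' := congrArg (LR.Wop h.prime (P.not_dvd_p h)) e
  rw [_root_.map_add, LR.Wop_al1, LR.Wop_al2, _root_.map_zero] at e'
  exact ⟨key _ _ h₁ h₂ e, key _ _ h₂ h₁ ((add_comm _ _).trans e')⟩

/-- coefficients in front -/
def coefHom {A : Type} [CommRing A] (c : A) : ℤ →+ A :=
  (AddMonoidHom.mulLeft c).comp (Int.castAddHom A)

theorem e2H_e1H_comp {N l r : ℕ} [NeZero l] [NeZero r] (hl : l.Prime) (hlN : ¬ l ∣ N)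
    (hr : r.Prime) (hrN : ¬ r ∣ N) {V V' : Type} [AddCommGroup V] [AddCommGroup V'] (F : V →+ V')
    (φ : LR.HomG N V) :
    LR.e2H N r hr hrN (LR.e1H N l hl hlN (F.comp φ)) =
      F.comp (LR.e2H N r hr hrN (LR.e1H N l hl hlN φ)) := by
  have hn : ∀ (n : ℕ) (ψ : LR.HomG N V), n • F.comp ψ = F.comp (n • ψ) := fun n ψ =>
    AddMonoidHom.ext fun x => by simp
  have hsub : ∀ ψ ψ' : LR.HomG N V, F.comp ψ - F.comp ψ' = F.comp (ψ - ψ') := fun ψ ψ' =>
    AddMonoidHom.ext fun x => by simp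
  simp only [LR.e1H_apply, LR.e2H_apply, LR.TH, LR.Corr.op_comp, hn, hsub]

set_option maxHeartbeats 1000000 in
include hs in
/-- the two sums are jointly surjective -/
theorem deg_surjective {z₁ z₂ : H1 τZ} (h₁ : z₁ ∈ s.E τZ) (h₂ : z₂ ∈ s.E τZ) :
    ∃ y ∈ s.E (pRep (p := p) τZ), map (isTwist_pushPt (p := p) τZ) y = z₁ ∧
      map (isTwist_pushPt (p := p) τZ) (Wp h τZ (P.fac_funRep h (Lam 0)) y) = z₂ := by
  haveI := h.neZero
  obtain ⟨r, hr, hr2, hrM, hrb, hre, hrp, hr1⟩ := exists_aux_r s hs h.prime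
  haveI : NeZero r := ⟨hr.ne_zero⟩
  obtain ⟨M0, hM0, hdual⟩ := Ihara.dual_surj_two h.prime (P.not_dvd_p h) hr hrp
    ((P.pt h).not_dvd hr hrM) hr1
  obtain ⟨l, hl, hl1, hlS, hlM, hlb, hle⟩ := hs M0 {2} hM0
  haveI : NeZero l := ⟨hl.ne_zero⟩
  have hlL := (P.pt h).not_dvd hl hlM
  have hrL := (P.pt h).not_dvd hr hrM
  set d : H1 τZ →ₗ[Lam 0] H1 τZ :=
    (T τZ hr hrM * T τZ hr hrM - (((r + 1) ^ 2 : ℕ) : Lam 0) • 1) *
      (T τZ hl hlM - ((l + 1 : ℕ) : Lam 0) • 1) with hd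
  have hdE : ∀ x ∈ s.E τZ, d x ∈ s.E τZ := fun x hx => by
    simp only [hd, Module.End.mul_apply, LinearMap.sub_apply, LinearMap.smul_apply,
      Module.End.one_apply]
    have h' := sub_mem (s.T_mem_E hl hlM hx)
      (Submodule.smul_mem (s.E τZ) ((l + 1 : ℕ) : Lam 0) hx)
    exact sub_mem (s.T_mem_E hr hrM (s.T_mem_E hr hrM h')) (Submodule.smul_mem _ _ h')
  haveI := H1_finite τZ
  haveI : Finite (H1 τZ) := Module.finite_of_finite (Lam 0)
  have hinj : Function.Injective (fun x : s.E τZ => (⟨d x, hdE x x.2⟩ : s.E τZ)) := by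
    intro x x' e
    refine Subtype.ext (sub_eq_zero.1 (eq_zero_of_e1_e2 h P s hl hlM hlb
      (Finset.notMem_singleton.1 hlS) hle hr hrM hrb hr2 hre (sub_mem x.2 x'.2) ?_))
    have e' : d ((x : H1 τZ) - x') = 0 := by
      rw [map_sub, sub_eq_zero]; exact congrArg Subtype.val e
    simpa only [hd, Module.End.mul_apply, LinearMap.sub_apply, LinearMap.smul_apply,
      Module.End.one_apply] using e'
  have hev : ∀ x, (P.pt h).ev (d x) =
      LR.e2H P.L r hr hrL (LR.e1H P.L l hl hlL ((P.pt h).ev x)) := fun x => by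
    rw [(P.pt h).ev_e1H hl hlM, (P.pt h).ev_e2H hr hrM]
    rfl
  obtain ⟨⟨x₁, hx₁⟩, e₁⟩ := Finite.injective_iff_surjective.1 hinj ⟨z₁, h₁⟩
  obtain ⟨⟨x₂, hx₂⟩, e₂⟩ := Finite.injective_iff_surjective.1 hinj ⟨z₂, h₂⟩
  replace e₁ : d x₁ = z₁ := congrArg Subtype.val e₁
  replace e₂ : d x₂ = z₂ := congrArg Subtype.val e₂
  obtain ⟨ℓ, hℓ, hℓ4, hℓN⟩ := P.three
  have hSfree : ∀ z : P.Z h, red M ModularGroup.S • z ≠ z := S_smul_ne_prod
    (S_smul_ne_P1 hℓ hℓ4 hℓN (P.dvd1.trans h.dvd'))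
  have h3 : IsUnit (3 : Lam 0) := by rw [show (3 : Lam 0) = 1 from rfl]; exact isUnit_one
  have hlift : ∀ x ∈ s.E τZ, ∃ (c : Lam 0 → Lam 0) (ψ : Lam 0 → LR.HomG P.L ℤ),
      (P.pt h).ev x = ∑ j, (coefHom (c j)).comp (ψ j) := fun x hx => by
    obtain ⟨f, rfl⟩ := Submodule.mkQ_surjective _ x
    obtain ⟨c, ψ, e⟩ := (P.pt h).exists_int_homs hSfree h3 f
      (Coh.apply_neg_one s (funRep_neg_one (P.pt h).neg) f ((s.mem_E_iff).1 hx).1)
    exact ⟨c, ψ, e.trans (Finset.sum_congr rfl fun j _ => rfl)⟩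
  obtain ⟨c₁, ψ₁, f₁⟩ := hlift _ hx₁
  obtain ⟨c₂, ψ₂, f₂⟩ := hlift _ hx₂
  have hdl := hdual l hl hlL (Nat.modEq_iff_dvd.1 hl1.symm)
  choose g₁ hg₁ hg₁' using fun j => hdl (ψ₁ j) 0
  choose g₂ hg₂ hg₂' using fun j => hdl 0 (ψ₂ j)
  set φ : LR.HomG (P.L * p) (Lam 0) :=
    ∑ j, (coefHom (c₁ j)).comp (g₁ j) + ∑ j, (coefHom (c₂ j)).comp (g₂ j) with hφ
  obtain ⟨y, hy⟩ := (P.evP_bijective h (Lam 0)).2 φ
  have hbe1 : ∀ (F : ℤ →+ Lam 0) (g : LR.HomG (P.L * p) ℤ),
      LR.be1 h.prime (P.not_dvd_p h) (F.comp g) =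
        F.comp (LR.be1 h.prime (P.not_dvd_p h) g) := fun F g => LR.Corr.op_comp _ F g
  have hbe2 : ∀ (F : ℤ →+ Lam 0) (g : LR.HomG (P.L * p) ℤ),
      LR.be2 h.prime (P.not_dvd_p h) (F.comp g) =
        F.comp (LR.be2 h.prime (P.not_dvd_p h) g) := fun F g =>
    (congrArg _ (LR.Corr.op_comp _ F g)).trans (hbe1 F _)
  have hy₁ : map (isTwist_pushPt (p := p) τZ) y = z₁ := by
    refine (P.pt h).ev_bijective.1 ?_
    rw [P.ev_push h, hy, ← e₁, hev, f₁, hφ]
    simp only [_root_.map_add, map_sum, hbe1, hg₁, hg₂, _root_.map_zero, AddMonoidHom.comp_zero,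
      Finset.sum_const_zero, add_zero, e2H_e1H_comp]
  have hy₂ : map (isTwist_pushPt (p := p) τZ) (Wp h τZ (P.fac_funRep h (Lam 0)) y) = z₂ := by
    refine (P.pt h).ev_bijective.1 ?_
    rw [P.ev_push_Wp h, hy, ← e₂, hev, f₂, hφ]
    simp only [_root_.map_add, map_sum, hbe2, hg₁', hg₂', _root_.map_zero, AddMonoidHom.comp_zero,
      Finset.sum_const_zero, zero_add, e2H_e1H_comp]
  obtain ⟨x, hx, hxF⟩ := Ihara.exists_mem_E_forall s
    ![map (isTwist_pushPt (p := p) τZ),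
      map (isTwist_pushPt (p := p) τZ) ∘ₗ Wp h τZ (P.fac_funRep h (Lam 0))]
    (fun i l' hl' hl'M x => by
      fin_cases i
      · exact map_T_one (isTwist_pushPt (p := p) τZ) hl' hl'M x
      · show map (isTwist_pushPt (p := p) τZ) (Wp h τZ _ (T (pRep τZ) hl' hl'M x)) =
          T τZ hl' hl'M (map (isTwist_pushPt (p := p) τZ) (Wp h τZ _ x))
        rw [Wp_T h, map_T_one])
    (x0 := y) (fun i => by
      fin_cases i
      · show map (isTwist_pushPt (p := p) τZ) y ∈ _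
        rw [hy₁]; exact h₁
      · show map (isTwist_pushPt (p := p) τZ) (Wp h τZ _ y) ∈ _
        rw [hy₂]; exact h₂)
  exact ⟨x, hx, (hxF 0).trans hy₁, (hxF 1).trans hy₂⟩

end FLTAgent.R2.Lv

end
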