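import Fermat.Agent.R2.CohDia
import Fermat.Agent.R2.Defs

/-!
Area R2, parcel G5: pairs of modules with diamonds and the kernel of a map that is surjective below.

`DPair H H₀` records what `DiaData` gives on the parts of a system; the kernel of a compatible map
`P` between two such pairs, surjective below, is again free over the group ring with the kernel
below as coinvariants.  Also: over `Λ[g]`, `V² = g`, the kernel of `V + ε` is the range of
`(V - ε)(1 + g)`.
-/

set_option autoImplicit false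
set_option linter.style.haveILetI false

noncomputable section

namespace FLTAgent.R2.Lv

open FLTAgent.R2.Coh

/-- a module with diamonds and its coinvariants, embedded as the invariants -/
structure DPair (A : Type*) [CommRing A] (H H₀ : Type*) [AddCommGroup H] [Module A H]
    [AddCommGroup H₀] [Module A H₀] (Δ : Type*) [CommGroup Δ] [Fintype Δ] where
  dia : Δ →* Module.End A H
  toY : H →ₗ[A] H₀
  ofY : H₀ →ₗ[A] H
  toY_surjective : Function.Surjective toY
  ofY_injective : Function.Injective ofY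
  ofY_toY : ∀ x, ofY (toY x) = ∑ u, dia u x
  toY_dia : ∀ u x, toY (dia u x) = toY x
  ker_toY : LinearMap.ker toY = ⨆ u, LinearMap.range (dia u - 1)

namespace DPair

variable {A : Type*} [CommRing A] [IsLocalRing A] {H H₀ G G₀ Δ : Type*}
  [AddCommGroup H] [Module A H] [AddCommGroup H₀] [Module A H₀]
  [AddCommGroup G] [Module A G] [AddCommGroup G₀] [Module A G₀] [CommGroup Δ] [Fintype Δ]
  (D : DPair A H H₀ Δ) (E : DPair A G G₀ Δ) (P : H →ₗ[A] G) (P₀ : H₀ →ₗ[A] G₀)
  (hdia : ∀ u x, P (D.dia u x) = E.dia u (P x)) (hto : ∀ x, E.toY (P x) = P₀ (D.toY x))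
  (hof : ∀ y, P (D.ofY y) = E.ofY (P₀ y))
  {p : ℕ} (hp : p.Prime) (hnil : IsNilpotent (p : A)) {n : ℕ} (hΔ : ∀ u : Δ, u ^ p ^ n = 1)

include hdia hto hp hnil hΔ in
/-- surjectivity below gives surjectivity -/
theorem surjective_of_below [Module.Finite A G] (hP₀ : Function.Surjective P₀) :
    Function.Surjective P := by
  classical
  refine LinearMap.range_eq_top.1 (FLTAgent.LL.eq_top_of_sup_ranges (fun u => E.dia u - 1) _
    (fun v => ?_) (fun u v => ?_) (fun u => ?_) Finset.univ (eq_top_iff.2 fun y _ => ?_))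
  · rintro _ ⟨_, ⟨x, rfl⟩, rfl⟩
    exact ⟨D.dia v x - x, by rw [map_sub, hdia]; rfl⟩
  · have h : Commute (E.dia u) (E.dia v) := (Commute.all u v).map E.dia
    exact (h.sub_left (Commute.one_left _)).sub_right (Commute.one_right _)
  · obtain ⟨k, hk⟩ := isNilpotent_sub_one hp hnil (n := n) (x := E.dia u)
      (by rw [← map_pow, hΔ, map_one])
    exact ⟨k, by rw [hk, LinearMap.range_zero]; exact bot_le⟩
  · obtain ⟨z, hz⟩ := hP₀ (E.toY y)
    obtain ⟨x, rfl⟩ := D.toY_surjective z
    have hmem : y - P x ∈ LinearMap.ker E.toY := by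
      rw [LinearMap.mem_ker, map_sub, hto, hz, sub_self]
    rw [← add_sub_cancel (P x) y]
    refine add_mem (Submodule.mem_sup_left ⟨x, rfl⟩) (Submodule.mem_sup_right ?_)
    simpa only [Finset.mem_univ, iSup_pos] using E.ker_toY ▸ hmem

include hdia hto hp hnil hΔ in
/-- lifts of the kernel below in the kernel -/
theorem exists_lift_ker [Module.Finite A G] (hP₀ : Function.Surjective P₀) {y : H₀}
    (hy : P₀ y = 0) : ∃ x, P x = 0 ∧ D.toY x = y := by
  classical
  obtain ⟨x0, rfl⟩ := D.toY_surjective y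
  have hmem : P x0 ∈ LinearMap.ker E.toY := by rw [LinearMap.mem_ker, hto, hy]
  rw [E.ker_toY, Submodule.mem_iSup_iff_exists_finsupp] at hmem
  obtain ⟨f, hf, hsum⟩ := hmem
  choose g hg using hf
  choose h hh using fun u => surjective_of_below D E P P₀ hdia hto hp hnil hΔ hP₀ (g u)
  refine ⟨x0 - ∑ u ∈ f.support, (D.dia u (h u) - h u), ?_, ?_⟩
  · rw [map_sub, ← hsum, map_sum, Finsupp.sum, ← Finset.sum_sub_distrib]
    refine Finset.sum_eq_zero fun u _ => ?_
    rw [map_sub, hdia, hh, ← hg u]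
    exact sub_self _
  · rw [map_sub, map_sum, Finset.sum_eq_zero, sub_zero]
    intro u _
    rw [map_sub, D.toY_dia, sub_self]

include hdia hto hof hp hnil hΔ in
/-- the kernel of a map surjective below is free, with the kernel below as coinvariants -/
theorem ker_basis [Module.Finite A H] [Module.Finite A H₀] [Module.Free A H₀]
    [Module.Finite A G] [Module.Finite A G₀] [Module.Free A G₀] (hP₀ : Function.Surjective P₀) :
    Module.finrank A (LinearMap.ker P₀) + Module.finrank A G₀ = Module.finrank A H₀ ∧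
    (∀ y, P₀ y = 0 → ∃ x, P x = 0 ∧ D.toY x = y) ∧
    ∃ e : Fin (Module.finrank A (LinearMap.ker P₀)) → H, (∀ j, P (e j) = 0) ∧
      Function.Injective (fun c : Fin (Module.finrank A (LinearMap.ker P₀)) → Δ → A =>
        ∑ j, ∑ u, c j u • D.dia u (e j)) ∧
      ∀ x, P x = 0 ↔ ∃ c : Fin (Module.finrank A (LinearMap.ker P₀)) → Δ → A,
        ∑ j, ∑ u, c j u • D.dia u (e j) = x := by
  classical
  obtain ⟨σ, hσ⟩ := Module.projective_lifting_property P₀ LinearMap.id hP₀
  have hσ' : ∀ y, P₀ (σ y) = y := fun y => LinearMap.congr_fun hσ y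
  let π : H₀ →ₗ[A] LinearMap.ker P₀ := LinearMap.codRestrict _ (LinearMap.id - σ ∘ₗ P₀) fun y => by
    simp [hσ']
  have hπ : ∀ y : LinearMap.ker P₀, π y = y := fun y => Subtype.ext (by
    show (y : H₀) - σ (P₀ y) = y
    rw [LinearMap.mem_ker.1 y.2, map_zero, sub_zero])
  have hfin : Module.Finite A (LinearMap.ker P₀) :=
    Module.Finite.of_surjective π fun y => ⟨y, hπ y⟩
  have hproj : Module.Projective A (LinearMap.ker P₀) :=
    Module.Projective.of_split (LinearMap.ker P₀).subtype π (LinearMap.ext hπ)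
  have hfree : Module.Free A (LinearMap.ker P₀) := Module.free_of_flat_of_isLocalRing
  let Θ : (LinearMap.ker P₀ × G₀) ≃ₗ[A] H₀ :=
    LinearEquiv.ofLinear ((LinearMap.ker P₀).subtype.coprod σ) (π.prod P₀)
      (LinearMap.ext fun y => by simp [π])
      (LinearMap.ext fun z => Prod.ext (Subtype.ext (by simp [π, hσ'])) (by simp [hσ']))
  have hrank : Module.finrank A (LinearMap.ker P₀) + Module.finrank A G₀ = Module.finrank A H₀ := by
    rw [← Module.finrank_prod, Θ.finrank_eq]
  have hlift := fun y => exists_lift_ker D E P P₀ hdia hto hp hnil hΔ hP₀ (y := y)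
  refine ⟨hrank, hlift, ?_⟩
  let bK := Module.finBasis A (LinearMap.ker P₀)
  let bG := Module.finBasis A G₀
  let b := (bK.prod bG).map Θ
  choose e he het using fun j => hlift (bK j).1 (LinearMap.mem_ker.1 (bK j).2)
  choose f hf using fun l => D.toY_surjective (σ (bG l))
  have hb : ∀ i, D.toY (Sum.elim e f i) = b i := by
    rintro (j | l)
    · simp [b, Θ, het]
    · simp [b, Θ, hf]
  have hbijH := bijective_of_coinvariants hp hnil hΔ D.dia D.toY D.ofY D.ofY_injective D.ofY_toY
    D.ker_toY.le b (Sum.elim e f) hb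
  have hbijG := bijective_of_coinvariants hp hnil hΔ E.dia E.toY E.ofY E.ofY_injective E.ofY_toY
    E.ker_toY.le bG (fun l => P (f l)) fun l => by rw [hto, hf, hσ']
  refine ⟨e, he, fun c c' h => ?_, fun x => ⟨fun hx => ?_, ?_⟩⟩
  · have hh := @hbijH.1 (Sum.elim c 0) (Sum.elim c' 0) (by
      simpa [Fintype.sum_sum_type] using h)
    exact funext fun j => congrFun hh (Sum.inl j)
  · obtain ⟨c, rfl⟩ := hbijH.2 x
    refine ⟨fun j => c (Sum.inl j), ?_⟩
    simp only [Fintype.sum_sum_type, Sum.elim_inl, Sum.elim_inr] at hx ⊢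
    rw [map_add] at hx
    simp only [map_sum, map_smul, hdia, he, map_zero, smul_zero, Finset.sum_const_zero,
      zero_add] at hx
    have hz := @hbijG.1 (fun l => c (Sum.inr l)) 0 (by simpa using hx)
    have hc : ∀ l u, c (Sum.inr l) u = 0 := fun l u => congrFun (congrFun hz l) u
    simp [hc]
  · rintro ⟨c, rfl⟩
    simp [hdia, he]

include hdia hto hof hp hnil hΔ in
/-- elements of the kernel fixed by a subgroup are norms from the kernel -/
theorem exists_norm_of_fixed [Module.Finite A H] [Module.Finite A H₀] [Module.Free A H₀]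
    [Module.Finite A G] [Module.Finite A G₀] [Module.Free A G₀] (hP₀ : Function.Surjective P₀)
    (S : Subgroup Δ) [Fintype S] {x : H} (hx : P x = 0) (hfix : ∀ u ∈ S, D.dia u x = x) :
    ∃ w, P w = 0 ∧ ∑ u : S, D.dia u w = x := by
  classical
  obtain ⟨d, e, he, hinj, hker⟩ : ∃ (d : ℕ) (e : Fin d → H), (∀ j, P (e j) = 0) ∧
      Function.Injective (fun c : Fin d → Δ → A => ∑ j, ∑ u, c j u • D.dia u (e j)) ∧
      ∀ x, P x = 0 ↔ ∃ c : Fin d → Δ → A, ∑ j, ∑ u, c j u • D.dia u (e j) = x :=
    ⟨_, (ker_basis D E P P₀ hdia hto hof hp hnil hΔ hP₀).2.2⟩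
  obtain ⟨c, rfl⟩ := (hker x).1 hx
  have hsh : ∀ (v : Δ) (c : Fin d → Δ → A), D.dia v (∑ j, ∑ u, c j u • D.dia u (e j)) =
      ∑ j, ∑ u, c j (v⁻¹ * u) • D.dia u (e j) := by
    intro v c
    rw [map_sum]
    refine Finset.sum_congr rfl fun j _ => ?_
    rw [map_sum]
    refine Fintype.sum_equiv (Equiv.mulLeft v) _ _ fun u => ?_
    rw [map_smul, Equiv.coe_mulLeft, inv_mul_cancel_left, map_mul, Module.End.mul_apply]
  have hc : ∀ v ∈ S, ∀ j u, c j (v⁻¹ * u) = c j u := fun v hv j u => by
    have h := hfix v hv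
    rw [hsh] at h
    exact congrFun (congrFun (hinj h) j) u
  let χ : Δ → A := fun v => if (QuotientGroup.mk (s := S) v).out = v then 1 else 0
  have hχ : ∀ u, ∑ s : S, χ ((s : Δ)⁻¹ * u) = 1 := by
    intro u
    obtain ⟨s0, hs0⟩ := QuotientGroup.mk_out_eq_mul S u
    have hmk : ∀ s : S, QuotientGroup.mk (s := S) ((s : Δ)⁻¹ * u) = QuotientGroup.mk u := by
      intro s
      rw [QuotientGroup.eq]
      simp [mul_comm, mul_left_comm]
    rw [Finset.sum_eq_single (s0⁻¹)]
    · simp only [χ, hmk, hs0]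
      rw [if_pos]
      simp [mul_comm]
    · intro s _ hs
      simp only [χ, hmk, hs0]
      rw [if_neg]
      intro h
      apply hs
      rw [mul_comm u] at h
      have h' := mul_right_cancel h
      exact Subtype.ext (by rw [Subgroup.coe_inv, h', inv_inv])
    · simp
  refine ⟨∑ j, ∑ u, (χ u * c j u) • D.dia u (e j), by simp [hdia, he], ?_⟩
  simp only [hsh]
  rw [Finset.sum_comm]
  refine Finset.sum_congr rfl fun j _ => ?_
  rw [Finset.sum_comm]
  refine Finset.sum_congr rfl fun u _ => ?_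
  rw [← Finset.sum_smul]
  congr 1
  calc ∑ s : S, χ ((s : Δ)⁻¹ * u) * c j ((s : Δ)⁻¹ * u)
      = ∑ s : S, χ ((s : Δ)⁻¹ * u) * c j u :=
        Finset.sum_congr rfl fun s _ => by rw [hc s s.2]
    _ = c j u := by rw [← Finset.sum_mul, hχ, one_mul]

include hdia hto hof hp hnil hΔ in
/-- fixed elements of the kernel come from the kernel below -/
theorem exists_ofY_of_fixed [Module.Finite A H] [Module.Finite A H₀] [Module.Free A H₀]
    [Module.Finite A G] [Module.Finite A G₀] [Module.Free A G₀] (hP₀ : Function.Surjective P₀)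
    {x : H} (hx : P x = 0) (hfix : ∀ u, D.dia u x = x) :
    ∃ y, P₀ y = 0 ∧ D.ofY y = x := by
  classical
  obtain ⟨w, hw, hsum⟩ := exists_norm_of_fixed D E P P₀ hdia hto hof hp hnil hΔ hP₀ (⊤ : Subgroup Δ)
    hx fun u _ => hfix u
  refine ⟨D.toY w, by rw [← hto, hw, map_zero], ?_⟩
  rw [D.ofY_toY, ← hsum]
  exact (Fintype.sum_equiv Subgroup.topEquiv.toEquiv _ _ fun u => rfl).symm

end DPair

/-- if `H` is free over `Λ[⟨g⟩]` and `V² = g`, the kernel of `V + ε` is the range of
`(V - ε)(1 + g)` -/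
theorem sign_ker_eq_range {N d : ℕ} {H : Type*} [AddCommGroup H] [Module (Lam N) H]
    (g V : Module.End (Lam N) H) (hV : V * V = g) (hg : g * g = 1) (e : Fin d → H)
    (he : Function.Bijective fun c : Fin d → Fin 2 → Lam N =>
      ∑ j, ∑ s, c j s • (g ^ (s : ℕ)) (e j)) (ε : ℤˣ) {x : H}
    (hx : V x + ((ε : ℤ) : Lam N) • x = 0) :
    ∃ w, (V - ((ε : ℤ) : Lam N) • 1) ((1 + g) w) = x := by
  set η : Lam N := ((ε : ℤ) : Lam N)
  have hη : η * η = 1 := by rw [← Int.cast_mul, Int.units_coe_mul_self, Int.cast_one]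
  have hgV : ∀ z, g (V z) = V (g z) := fun z => by
    rw [← hV]; simp [Module.End.mul_apply]
  have hg2 : ∀ z, g (g z) = z := fun z => LinearMap.congr_fun hg z
  have hVV : ∀ z, V (V z) = g z := fun z => LinearMap.congr_fun hV z
  -- fixed points of `g` are norms
  have hfix : ∀ z, g z = z → ∃ y, z = y + g y := by
    intro z hz
    obtain ⟨c, rfl⟩ := he.2 z
    refine ⟨∑ j, c j 0 • e j, ?_⟩
    have h : (fun j s => c j (s + 1)) = c := he.1 (by
      show _ = ∑ j, ∑ s, c j s • (g ^ (s : ℕ)) (e j)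
      simp only at hz ⊢
      rw [← hz, map_sum]
      refine Finset.sum_congr rfl fun j _ => ?_
      simp [Fin.sum_univ_two, hg2, add_comm])
    have h1 : ∀ j, c j 1 = c j 0 := fun j => congrFun (congrFun h j) 0
    simp [Fin.sum_univ_two, h1, Finset.sum_add_distrib, map_sum]
  have hneg : ∀ z, g z = -z → ∃ y, z = y - g y := by
    intro z hz
    obtain ⟨c, rfl⟩ := he.2 z
    refine ⟨∑ j, c j 0 • e j, ?_⟩
    have h : (fun j s => c j (s + 1)) = -c := he.1 (by
      show _ = ∑ j, ∑ s, (-c) j s • (g ^ (s : ℕ)) (e j)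
      simp only [Pi.neg_apply, neg_smul, Finset.sum_neg_distrib] at hz ⊢
      rw [← hz, map_sum]
      refine Finset.sum_congr rfl fun j _ => ?_
      simp [Fin.sum_univ_two, hg2, add_comm])
    have h1 : ∀ j, c j 1 = -c j 0 := fun j => congrFun (congrFun h j) 0
    simp [Fin.sum_univ_two, h1, Finset.sum_add_distrib, map_sum, ← sub_eq_add_neg,
      Finset.sum_sub_distrib]
  let R : Submodule (Lam N) H := LinearMap.range ((V - η • 1) * (1 + g))
  have step : ∀ k : ℕ, ∀ x, V x + η • x = 0 →
      ∃ y, V y + η • y = 0 ∧ x - (2 : Lam N) ^ k • y ∈ R := by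
    intro k
    induction k with
    | zero => exact fun x hx => ⟨x, hx, by simp⟩
    | succ k ih =>
      intro x hx
      obtain ⟨y, hy, hxy⟩ := ih x hx
      have hVy : V y = -(η • y) := eq_neg_of_add_eq_zero_left hy
      have hgy : g y = y := by
        rw [← hVV, hVy, map_neg, map_smul, hVy, smul_neg, neg_neg, smul_smul, hη, one_smul]
      obtain ⟨a, ha⟩ := hfix y hgy
      obtain ⟨z, hz⟩ := hneg (V a + η • a) (by
        rw [map_add, map_smul, hgV, eq_neg_iff_add_eq_zero]
        have h' : (V a + η • a) + (V (g a) + η • g a) = 0 := by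
          rw [ha, map_add, smul_add] at hy
          rw [← hy]; abel
        rw [← h']; abel)
      set b := a + (V z - η • z)
      have hb : V b + η • b = 0 := by
        simp only [b, map_add, map_sub, map_smul, hVV, smul_add, smul_sub, smul_smul, hη, one_smul]
        rw [← sub_add_cancel (V a) (-(η • a)), sub_neg_eq_add, hz]
        abel
      have hVb : V b = -(η • b) := eq_neg_of_add_eq_zero_left hb
      have hgb : g b = b := by
        rw [← hVV, hVb, map_neg, map_smul, hVb, smul_neg, neg_neg, smul_smul, hη, one_smul]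
      refine ⟨b, hb, ?_⟩
      have e2 : y - (2 : Lam N) • b = ((V - η • 1) * (1 + g)) (-z) := by
        have h1 : y = (b + g b) - ((V z - η • z) + g (V z - η • z)) := by
          rw [ha]; simp only [b, map_add]; abel
        rw [h1, hgb, two_smul]
        simp only [Module.End.mul_apply, LinearMap.add_apply, LinearMap.sub_apply,
          LinearMap.smul_apply, Module.End.one_apply, map_add, map_neg, map_sub, map_smul, hgV,
          smul_add, smul_neg]
        abel
      rw [show x - (2 : Lam N) ^ (k + 1) • b =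
        (x - (2 : Lam N) ^ k • y) + (2 : Lam N) ^ k • (y - (2 : Lam N) • b) by
        rw [pow_succ (2 : Lam N) k, mul_smul, smul_sub]; abel]
      exact add_mem hxy (Submodule.smul_mem _ _ ⟨-z, e2.symm⟩)
  obtain ⟨y, -, hy⟩ := step (N + 1) x hx
  have h2 : (2 : Lam N) ^ (N + 1) = 0 := by
    have h := ZMod.natCast_self (2 ^ (N + 1))
    rw [Nat.cast_pow, Nat.cast_ofNat] at h
    exact h
  rw [h2, zero_smul, sub_zero] at hy
  obtain ⟨w, hw⟩ := hy
  exact ⟨w, hw⟩

end FLTAgent.R2.Lv

end
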