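import Fermat.Agent.R2.CohInflate

/-!
Area R2, parcel G2: kernel and image lines modulo `p` of integral matrices, as points of `P¹(p)`.
-/

set_option autoImplicit false
set_option linter.style.haveILetI false
set_option linter.unusedSectionVars false

noncomputable section

open scoped MatrixGroups
open Matrix

namespace FLTAgent.R2.Lv

open FLTAgent.LL FLTAgent.R2.Coh

/-- the coprime decomposition of a modulus -/
structure Split (M p M' : ℕ) : Prop where
  prime : p.Prime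
  eq : M = p * M'
  coprime : p.Coprime M'

namespace Split

variable {M p M' : ℕ} (h : Split M p M')
include h

theorem dvdP : p ∣ M := ⟨M', h.eq⟩

theorem dvd' : M' ∣ M := ⟨p, h.eq.trans (mul_comm _ _)⟩

theorem not_dvd : ¬ p ∣ M' := (h.prime.coprime_iff_not_dvd).mp h.coprime

theorem isUnit_cast : IsUnit ((p : ℤ) : ZMod M') := by
  rw [Int.cast_natCast]
  exact (ZMod.isUnit_iff_coprime p M').mpr h.coprime

end Split

section Vectors

variable {M p : ℕ} [NeZero M] (hp : p ∣ M)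

/-- first column modulo `p` of a representative of a line -/
def colP (x : P1 M p) : Fin 2 → ZMod p := fun a => (gl hp x.out).1 a 0

/-- two vectors are proportional -/
def Par {R : Type*} [CommRing R] (v w : Fin 2 → R) : Prop := v 0 * w 1 = v 1 * w 0

/-- an integral matrix modulo `p` -/
def modP (p : ℕ) (m : Matrix (Fin 2) (Fin 2) ℤ) : Matrix (Fin 2) (Fin 2) (ZMod p) :=
  m.map (Int.cast : ℤ → ZMod p)

open Classical in
/-- the kernel line of a matrix -/
def kerPt (m : Matrix (Fin 2) (Fin 2) ℤ) : P1 M p :=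
  if h : ∃ x : P1 M p, modP p m *ᵥ colP hp x = 0 then h.choose else P1.base M p

open Classical in
/-- the image line of a matrix -/
def imPt (m : Matrix (Fin 2) (Fin 2) ℤ) : P1 M p :=
  if h : ∃ x : P1 M p, ∀ v, Par (modP p m *ᵥ v) (colP hp x) then h.choose else P1.base M p

end Vectors

/-- rank one modulo `p` -/
def RkOne (p : ℕ) (m : Matrix (Fin 2) (Fin 2) ℤ) : Prop :=
  modP p m ≠ 0 ∧ (modP p m).det = 0

theorem modP_mul (p : ℕ) (a b : Matrix (Fin 2) (Fin 2) ℤ) :
    modP p (a * b) = modP p a * modP p b :=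
  Matrix.map_mul (f := Int.castRingHom (ZMod p))

theorem det_modP (p : ℕ) (a : Matrix (Fin 2) (Fin 2) ℤ) :
    (modP p a).det = ((a.det : ℤ) : ZMod p) :=
  (RingHom.map_det (Int.castRingHom (ZMod p)) a).symm

theorem modP_adjugate (p : ℕ) (a : Matrix (Fin 2) (Fin 2) ℤ) :
    modP p a.adjugate = (modP p a).adjugate :=
  RingHom.map_adjugate (Int.castRingHom (ZMod p)) a

theorem modP_smul_one (p : ℕ) (c : ℤ) :
    modP p (c • (1 : Matrix (Fin 2) (Fin 2) ℤ)) = (c : ZMod p) • 1 := by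
  ext a b
  show (((c • (1 : Matrix (Fin 2) (Fin 2) ℤ)) a b : ℤ) : ZMod p) = _
  rw [Matrix.smul_apply, Matrix.smul_apply, Matrix.one_apply, Matrix.one_apply]
  split_ifs <;> simp

theorem modP_mul_adjugate (p : ℕ) (a : Matrix (Fin 2) (Fin 2) ℤ) :
    modP p a * modP p a.adjugate = ((a.det : ℤ) : ZMod p) • 1 := by
  rw [← modP_mul, Matrix.mul_adjugate, modP_smul_one]

theorem modP_adjugate_mul (p : ℕ) (a : Matrix (Fin 2) (Fin 2) ℤ) :
    modP p a.adjugate * modP p a = ((a.det : ℤ) : ZMod p) • 1 := by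
  rw [← modP_mul, Matrix.adjugate_mul, modP_smul_one]

theorem isUnit_det_adjugate {p : ℕ} {b : Matrix (Fin 2) (Fin 2) ℤ}
    (hb : IsUnit ((b.det : ℤ) : ZMod p)) : IsUnit ((b.adjugate.det : ℤ) : ZMod p) := by
  rw [Matrix.det_adjugate]
  simpa using hb

variable {M p : ℕ} [Fact p.Prime]

theorem rkOne_of_det {m : Matrix (Fin 2) (Fin 2) ℤ} {n : ℕ} (hdet : m.det = n) (hn : p ∣ n)
    (hn2 : ¬ p ^ 2 ∣ n) : RkOne p m := by
  refine ⟨fun h0 => hn2 ?_, ?_⟩
  · have h : ∀ a b, (p : ℤ) ∣ m a b := fun a b =>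
      (ZMod.intCast_zmod_eq_zero_iff_dvd _ _).mp (congrFun (congrFun h0 a) b)
    rw [← Int.natCast_dvd_natCast, ← hdet, Matrix.det_fin_two, Nat.cast_pow, pow_two]
    exact dvd_sub (mul_dvd_mul (h 0 0) (h 1 1)) (mul_dvd_mul (h 0 1) (h 1 0))
  · rw [det_modP, hdet, Int.cast_natCast, ZMod.natCast_eq_zero_iff]
    exact hn

theorem RkOne.adjugate {m : Matrix (Fin 2) (Fin 2) ℤ} (hm : RkOne p m) :
    RkOne p m.adjugate := by
  refine ⟨fun h0 => hm.1 ?_, ?_⟩
  · rw [modP_adjugate, Matrix.adjugate_fin_two] at h0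
    have e := fun a b => congrFun (congrFun h0 a) b
    ext a b
    fin_cases a <;> fin_cases b
    · simpa using e 1 1
    · simpa using e 0 1
    · simpa using e 1 0
    · simpa using e 0 0
  · rw [modP_adjugate, Matrix.det_adjugate, hm.2]
    simp

theorem RkOne.mul_left {m b : Matrix (Fin 2) (Fin 2) ℤ} (hm : RkOne p m)
    (hb : IsUnit ((b.det : ℤ) : ZMod p)) : RkOne p (b * m) := by
  refine ⟨fun h0 => hm.1 ?_, by rw [modP_mul, Matrix.det_mul, hm.2, mul_zero]⟩
  have h := congrArg (modP p b.adjugate * ·) h0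
  rw [modP_mul, ← mul_assoc, modP_adjugate_mul, Matrix.smul_mul, one_mul, mul_zero] at h
  exact hb.smul_eq_zero.mp h

theorem RkOne.mul_right {m b : Matrix (Fin 2) (Fin 2) ℤ} (hm : RkOne p m)
    (hb : IsUnit ((b.det : ℤ) : ZMod p)) : RkOne p (m * b) := by
  refine ⟨fun h0 => hm.1 ?_, by rw [modP_mul, Matrix.det_mul, hm.2, zero_mul]⟩
  have h := congrArg (· * modP p b.adjugate) h0
  rw [modP_mul, mul_assoc, modP_mul_adjugate, Matrix.mul_smul, mul_one, zero_mul] at h
  exact hb.smul_eq_zero.mp h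

theorem Par.exists_smul {v w : Fin 2 → ZMod p} (h : Par v w) (hw : w ≠ 0) :
    ∃ c : ZMod p, v = c • w := by
  unfold Par at h
  by_cases h0 : w 0 = 0
  · have h1 : w 1 ≠ 0 := fun e => hw (funext fun a => by fin_cases a <;> assumption)
    refine ⟨v 1 / w 1, funext fun a => ?_⟩
    fin_cases a
    · have : v 0 = 0 := (mul_eq_zero.mp (by rw [h, h0, mul_zero])).resolve_right h1
      simp [this, h0]
    · simp [h1]
  · refine ⟨v 0 / w 0, funext fun a => ?_⟩
    fin_cases a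
    · simp [h0]
    · simp only [Fin.mk_one, Pi.smul_apply, smul_eq_mul]
      field_simp
      linear_combination -h

theorem par_of_mulVec_eq_zero {m : Matrix (Fin 2) (Fin 2) (ZMod p)} (hm : m ≠ 0)
    {v w : Fin 2 → ZMod p} (hv : m *ᵥ v = 0) (hw : m *ᵥ w = 0) : Par v w := by
  by_contra hne
  refine hm (Matrix.ext fun a b => ?_)
  have e1 : m a 0 * v 0 + m a 1 * v 1 = 0 := by
    simpa [Matrix.mulVec, dotProduct, Fin.sum_univ_two] using congrFun hv a
  have e2 : m a 0 * w 0 + m a 1 * w 1 = 0 := by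
    simpa [Matrix.mulVec, dotProduct, Fin.sum_univ_two] using congrFun hw a
  have hd : v 0 * w 1 - v 1 * w 0 ≠ 0 := sub_ne_zero.mpr hne
  refine (mul_eq_zero.mp ?_).resolve_right hd
  fin_cases b
  · show m a 0 * _ = 0
    linear_combination w 1 * e1 - v 1 * e2
  · show m a 1 * _ = 0
    linear_combination v 0 * e2 - w 0 * e1

theorem forall_par_mulVec_iff (m : Matrix (Fin 2) (Fin 2) (ZMod p)) (w : Fin 2 → ZMod p) :
    (∀ v, Par (m *ᵥ v) w) ↔ m.adjugate *ᵥ w = 0 := by
  constructor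
  · intro h
    have h0 := h ![1, 0]
    have h1 := h ![0, 1]
    simp [Par, Matrix.mulVec, dotProduct, Fin.sum_univ_two] at h0 h1
    funext a
    fin_cases a <;>
      simp [Matrix.adjugate_fin_two, Matrix.mulVec, dotProduct, Fin.sum_univ_two]
    · linear_combination -h1
    · linear_combination h0
  · intro h v
    have h0 := congrFun h 0
    have h1 := congrFun h 1
    simp [Matrix.adjugate_fin_two, Matrix.mulVec, dotProduct, Fin.sum_univ_two] at h0 h1
    simp [Par, Matrix.mulVec, dotProduct, Fin.sum_univ_two]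
    linear_combination v 0 * h1 - v 1 * h0

section Points

variable [NeZero M] (hp : p ∣ M)

theorem mem_B0_iff {g : GL (Fin 2) (ZMod M)} : g ∈ B0 M p ↔ (gl hp g).1 1 0 = 0 := by
  show _ ↔ ZMod.castHom hp (ZMod p) (g.1 1 0) = 0
  rw [mem_B0]
  constructor
  · rintro ⟨k, hk⟩
    rw [hk, _root_.map_mul, map_natCast, ZMod.natCast_self, zero_mul]
  · intro h
    obtain ⟨a, ha⟩ := ZMod.intCast_surjective (g.1 1 0)
    rw [← ha, map_intCast, ZMod.intCast_zmod_eq_zero_iff_dvd] at h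
    obtain ⟨k, rfl⟩ := h
    exact ⟨(k : ZMod M), by rw [← ha, Int.cast_mul, Int.cast_natCast]⟩

theorem col_ne_zero (g : GL (Fin 2) (ZMod p)) : (fun a => g.1 a 0) ≠ (0 : Fin 2 → ZMod p) := by
  intro h
  have hd := (Matrix.isUnits_det_units g).ne_zero
  refine hd ?_
  rw [Matrix.det_fin_two, show g.1 0 0 = 0 from congrFun h 0, show g.1 1 0 = 0 from congrFun h 1]
  ring

theorem colP_ne_zero (x : P1 M p) : colP hp x ≠ 0 := col_ne_zero _

theorem mk_eq_of_par {g g' : GL (Fin 2) (ZMod M)}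
    (h : Par (fun a => (gl hp g).1 a 0) (fun a => (gl hp g').1 a 0)) :
    (QuotientGroup.mk g : P1 M p) = QuotientGroup.mk g' := by
  rw [QuotientGroup.eq, mem_B0_iff hp, _root_.map_mul, _root_.map_inv, Units.val_mul,
    Matrix.coe_units_inv, Matrix.inv_def, Matrix.smul_mul, Matrix.smul_apply, Matrix.mul_apply,
    Fin.sum_univ_two, Matrix.adjugate_fin_two]
  simp only [Matrix.of_apply, Matrix.cons_val', Matrix.cons_val_zero, Matrix.cons_val_one,
    Matrix.empty_val', Matrix.cons_val_fin_one, smul_eq_mul]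
  refine mul_eq_zero_of_right _ ?_
  unfold Par at h
  linear_combination h

theorem eq_of_par {x y : P1 M p} (h : Par (colP hp x) (colP hp y)) : x = y := by
  rw [← x.out_eq, ← y.out_eq]
  exact mk_eq_of_par hp h

theorem exists_colP (g : GL (Fin 2) (ZMod M)) :
    ∃ c : ZMod p, c ≠ 0 ∧
      colP hp (QuotientGroup.mk g : P1 M p) = c • fun a => (gl hp g).1 a 0 := by
  obtain ⟨⟨b, hb⟩, he⟩ := QuotientGroup.mk_out_eq_mul (B0 M p) g
  rw [mem_B0_iff hp] at hb
  have hcol : colP hp (QuotientGroup.mk g : P1 M p) =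
      (gl hp b).1 0 0 • fun a => (gl hp g).1 a 0 := by
    funext a
    rw [colP, he, _root_.map_mul, Units.val_mul, Matrix.mul_apply, Fin.sum_univ_two]
    simp [hb, mul_comm]
  refine ⟨_, fun h0 => colP_ne_zero hp (QuotientGroup.mk g : P1 M p) ?_, hcol⟩
  rw [hcol, h0, zero_smul]

theorem exists_colP_smul (g : GL (Fin 2) (ZMod M)) (x : P1 M p) :
    ∃ c : ZMod p, c ≠ 0 ∧ colP hp (g • x) = c • ((gl hp g).1 *ᵥ colP hp x) := by
  obtain ⟨c, hc, e⟩ := exists_colP hp (g * x.out)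
  refine ⟨c, hc, ?_⟩
  conv_lhs => rw [← x.out_eq]
  refine e.trans (congrArg (c • ·) (funext fun a => ?_))
  rw [_root_.map_mul, Units.val_mul]
  rfl

theorem mulVec_smul_eq_zero_iff (n : Matrix (Fin 2) (Fin 2) (ZMod p)) (g : GL (Fin 2) (ZMod M))
    (x : P1 M p) :
    n *ᵥ colP hp (g • x) = 0 ↔ (n * (gl hp g).1) *ᵥ colP hp x = 0 := by
  obtain ⟨c, hc, e⟩ := exists_colP_smul hp g x
  rw [e, Matrix.mulVec_smul, smul_eq_zero_iff_right hc, Matrix.mulVec_mulVec]

theorem exists_par {v : Fin 2 → ZMod p} (hv : v ≠ 0) : ∃ x : P1 M p, Par v (colP hp x) := by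
  obtain ⟨γ, hγ⟩ : ∃ γ : SL(2, ℤ),
      v 0 * ((γ.1 1 0 : ℤ) : ZMod p) = v 1 * ((γ.1 0 0 : ℤ) : ZMod p) := by
    by_cases h : v 0 = 0
    · exact ⟨ModularGroup.S, by simp [h, ModularGroup.coe_S]⟩
    · refine ⟨⟨!![1, 0; ((v 1 / v 0).val : ℤ), 1], by simp [Matrix.det_fin_two_of]⟩, ?_⟩
      simp
      field_simp
  obtain ⟨c, hc, e⟩ := exists_colP hp (red M γ)
  refine ⟨QuotientGroup.mk (red M γ), ?_⟩
  rw [Par, e]
  simp only [Pi.smul_apply, smul_eq_mul, gl, Matrix.GeneralLinearGroup.map_apply, coe_red,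
    Matrix.map_apply, map_intCast]
  linear_combination c * hγ

theorem RkOne.exists_kerPt {m : Matrix (Fin 2) (Fin 2) ℤ} (hm : RkOne p m) :
    ∃ x : P1 M p, modP p m *ᵥ colP hp x = 0 := by
  obtain ⟨v, hv, hmv⟩ := Matrix.exists_mulVec_eq_zero_iff.mpr hm.2
  obtain ⟨x, hx⟩ := exists_par hp hv
  obtain ⟨c, rfl⟩ := hx.exists_smul (colP_ne_zero hp x)
  refine ⟨x, ?_⟩
  have hc : c ≠ 0 := fun h0 => hv (by rw [h0, zero_smul])
  rwa [Matrix.mulVec_smul, smul_eq_zero_iff_right hc] at hmv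

theorem RkOne.kerPt_eq_iff {m : Matrix (Fin 2) (Fin 2) ℤ} (hm : RkOne p m) (x : P1 M p) :
    kerPt hp m = x ↔ modP p m *ᵥ colP hp x = 0 := by
  rw [kerPt, dif_pos (hm.exists_kerPt hp)]
  refine ⟨fun h => h ▸ (hm.exists_kerPt hp).choose_spec, fun h => ?_⟩
  exact eq_of_par hp (par_of_mulVec_eq_zero hm.1 (hm.exists_kerPt hp).choose_spec h)

theorem imPt_eq_kerPt {m : Matrix (Fin 2) (Fin 2) ℤ} (hm : RkOne p m) :
    imPt hp m = kerPt hp m.adjugate := by
  have e : ∃ x : P1 M p, ∀ v, Par (modP p m *ᵥ v) (colP hp x) := by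
    obtain ⟨x, hx⟩ := hm.adjugate.exists_kerPt hp
    exact ⟨x, (forall_par_mulVec_iff _ _).mpr (by rwa [← modP_adjugate])⟩
  rw [imPt, dif_pos e]
  refine ((hm.adjugate.kerPt_eq_iff hp _).mpr ?_).symm
  rw [modP_adjugate]
  exact (forall_par_mulVec_iff _ _).mp e.choose_spec

theorem kerPt_eq_imPt {m n : Matrix (Fin 2) (Fin 2) ℤ} (hm : RkOne p m) (hn : RkOne p n)
    (h : modP p m * modP p n = 0) : kerPt hp m = imPt hp n := by
  rw [imPt_eq_kerPt hp hn]
  refine ((hn.adjugate.kerPt_eq_iff hp _).mpr ?_).symm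
  rw [modP_adjugate]
  refine (forall_par_mulVec_iff _ _).mp fun v => par_of_mulVec_eq_zero hm.1 ?_
    ((hm.kerPt_eq_iff hp _).mp rfl)
  rw [Matrix.mulVec_mulVec, h, Matrix.zero_mulVec]

variable {m b : Matrix (Fin 2) (Fin 2) ℤ} {a : GL (Fin 2) (ZMod M)}

/-- the reduction of `a` is the adjugate of `b` -/
def AdjOf (b : Matrix (Fin 2) (Fin 2) ℤ) (a : GL (Fin 2) (ZMod M)) : Prop :=
  IsUnit ((b.det : ℤ) : ZMod p) ∧ (gl hp a).1 = modP p b.adjugate

theorem kerPt_mul_right (hm : RkOne p m) (hab : AdjOf hp b a) :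
    kerPt hp (m * b) = a • kerPt hp m := by
  rw [(hm.mul_right hab.1).kerPt_eq_iff, mulVec_smul_eq_zero_iff, modP_mul, hab.2, mul_assoc,
    modP_mul_adjugate, Matrix.mul_smul, mul_one, Matrix.smul_mulVec, (hm.kerPt_eq_iff hp _).mp rfl,
    smul_zero]

theorem kerPt_mul_left (hm : RkOne p m) (hb : IsUnit ((b.det : ℤ) : ZMod p)) :
    kerPt hp (b * m) = kerPt hp m := by
  rw [(hm.mul_left hb).kerPt_eq_iff, modP_mul, ← Matrix.mulVec_mulVec,
    (hm.kerPt_eq_iff hp _).mp rfl, Matrix.mulVec_zero]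

theorem imPt_mul_left (hm : RkOne p m) (hab : AdjOf hp b a) :
    imPt hp (b * m) = a⁻¹ • imPt hp m := by
  rw [eq_inv_smul_iff, imPt_eq_kerPt hp (hm.mul_left hab.1), imPt_eq_kerPt hp hm, eq_comm,
    hm.adjugate.kerPt_eq_iff, mulVec_smul_eq_zero_iff, hab.2, ← modP_mul,
    ← Matrix.adjugate_mul_distrib]
  exact ((hm.mul_left hab.1).adjugate.kerPt_eq_iff hp _).mp rfl

theorem imPt_mul_right (hm : RkOne p m) (hb : IsUnit ((b.det : ℤ) : ZMod p)) :
    imPt hp (m * b) = imPt hp m := by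
  rw [imPt_eq_kerPt hp (hm.mul_right hb), imPt_eq_kerPt hp hm, Matrix.adjugate_mul_distrib]
  exact kerPt_mul_left hp hm.adjugate (isUnit_det_adjugate hb)

theorem adjOf_redGL (hb : IsUnit ((b.det : ℤ) : ZMod M)) :
    AdjOf hp b (redGL M b.adjugate) := by
  haveI : NeZero p := ⟨(Fact.out : p.Prime).ne_zero⟩
  refine ⟨by simpa using hb.map (ZMod.castHom hp (ZMod p)), ?_⟩
  have h2 : IsUnit ((b.adjugate.det : ℤ) : ZMod M) := isUnit_det_adjugate hb
  rw [gl_redGL hp h2, coe_redGL p (by simpa using h2.map (ZMod.castHom hp (ZMod p)))]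
  rfl

theorem adjOf_red (γ : SL(2, ℤ)) : AdjOf hp (γ : Matrix (Fin 2) (Fin 2) ℤ) (red M γ⁻¹) := by
  haveI : NeZero p := ⟨(Fact.out : p.Prime).ne_zero⟩
  refine ⟨by rw [γ.2, Int.cast_one]; exact isUnit_one, ?_⟩
  rw [gl_red hp, coe_red, Matrix.SpecialLinearGroup.coe_inv]
  rfl

/-- kernels of the standard matrices -/
theorem kerPt_stdMat_bijective :
    Function.Bijective fun i : Option (ZMod p) => kerPt hp (stdMat p i) := by
  haveI : NeZero p := ⟨(Fact.out : p.Prime).ne_zero⟩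
  have hR : ∀ i, RkOne p (stdMat p i) := fun i =>
    rkOne_of_det (det_stdMat p i) dvd_rfl fun h => by
      have := Nat.le_of_dvd (Fact.out : p.Prime).pos h
      nlinarith [(Fact.out : p.Prime).one_lt]
  have key : ∀ (i : Option (ZMod p)) (w : Fin 2 → ZMod p), modP p (stdMat p i) *ᵥ w = 0 ↔
      i.elim (w 1 = 0) (fun b => w 0 + b * w 1 = 0) := by
    intro i w
    cases i <;>
      simp [modP, stdMat, funext_iff, Fin.forall_fin_two, Matrix.mulVec, dotProduct,
        Fin.sum_univ_two]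
  constructor
  · intro i j hij
    have hw := colP_ne_zero hp (kerPt hp (stdMat p i))
    have h1 := (key i _).mp (((hR i).kerPt_eq_iff hp _).mp rfl)
    have h2 := (key j _).mp (((hR j).kerPt_eq_iff hp (kerPt hp (stdMat p i))).mp hij.symm)
    set w := colP hp (kerPt hp (stdMat p i))
    have hw' : w 1 = 0 → w 0 ≠ 0 := fun e1 e0 =>
      hw (funext fun a => by fin_cases a <;> assumption)
    cases i <;> cases j <;> simp only [Option.elim_none, Option.elim_some] at h1 h2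
    · rfl
    · exact absurd (by simpa [h1] using h2) (hw' h1)
    · exact absurd (by simpa [h2] using h1) (hw' h2)
    · rename_i b b'
      have h3 : (b - b') * w 1 = 0 := by linear_combination h1 - h2
      rcases mul_eq_zero.mp h3 with h | h
      · rw [sub_eq_zero.mp h]
      · exact absurd (by simpa [h] using h1) (hw' h)
  · intro x
    by_cases h : colP hp x 1 = 0
    · exact ⟨none, ((hR none).kerPt_eq_iff hp x).mpr ((key none _).mpr h)⟩
    · refine ⟨some (-(colP hp x 0 / colP hp x 1)), ((hR _).kerPt_eq_iff hp x).mpr ((key _ _).mpr ?_)⟩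
      simp only [Option.elim_some]
      field_simp
      ring

end Points

attribute [irreducible] kerPt imPt colP

end FLTAgent.R2.Lv

end
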