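import Fermat.Agent.R2.LevelFam
import Fermat.Agent.R2.LevelPts
import Fermat.Agent.R2.CohTorsor
import Fermat.Agent.R2.CohInflate

/-!
Area R2, parcel G2: the kernel `F ↦ (x ↦ [ker m = x] adj m (F (im m)))` on functions on `P¹(p)` and
the operator `Wp` of its correspondence on matrices of determinant `p`.
-/

set_option autoImplicit false
set_option linter.style.haveILetI false
set_option linter.unusedSectionVars false

noncomputable section

open scoped MatrixGroups
open Matrix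

namespace FLTAgent.R2.Lv

open FLTAgent.LL FLTAgent.R2.Coh

theorem det_smul_one (c : ℤ) : (c • (1 : Matrix (Fin 2) (Fin 2) ℤ)).det = c ^ 2 := by
  rw [Matrix.det_smul, Matrix.det_one, Fintype.card_fin, mul_one]

theorem not_sq_dvd {p : ℕ} (hp : p.Prime) : ¬ p ^ 2 ∣ p := fun hd =>
  hp.not_isUnit (hp.squarefree _ (by rwa [pow_two] at hd))

theorem redGL_adjugate_coe (M : ℕ) (γ : SL(2, ℤ)) :
    redGL M (γ : Matrix (Fin 2) (Fin 2) ℤ).adjugate = red M γ⁻¹ := by
  rw [← Matrix.SpecialLinearGroup.coe_inv, redGL_coe]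

theorem isUnit_det_coe (M : ℕ) (γ : SL(2, ℤ)) :
    IsUnit (((γ : Matrix (Fin 2) (Fin 2) ℤ).det : ℤ) : ZMod M) := by
  rw [γ.2, Int.cast_one]; exact isUnit_one

theorem redGL_adjugate_mul {M : ℕ} {a b : Matrix (Fin 2) (Fin 2) ℤ}
    (ha : IsUnit ((a.det : ℤ) : ZMod M)) (hb : IsUnit ((b.det : ℤ) : ZMod M)) :
    redGL M (a * b).adjugate = redGL M b.adjugate * redGL M a.adjugate := by
  rw [Matrix.adjugate_mul_distrib, redGL_mul M (isUnit_det_adjugate hb) (isUnit_det_adjugate ha)]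

theorem isUnit_det_mul {M : ℕ} {a b : Matrix (Fin 2) (Fin 2) ℤ}
    (ha : IsUnit ((a.det : ℤ) : ZMod M)) (hb : IsUnit ((b.det : ℤ) : ZMod M)) :
    IsUnit (((a * b).det : ℤ) : ZMod M) := by
  rw [Matrix.det_mul, Int.cast_mul]; exact ha.mul hb

theorem isUnit_det_of_coprime {M n : ℕ} {m : Matrix (Fin 2) (Fin 2) ℤ} (hdet : m.det = n)
    (hn : n.Coprime M) : IsUnit ((m.det : ℤ) : ZMod M) := by
  rw [hdet, Int.cast_natCast]
  exact (ZMod.isUnit_iff_coprime n M).mpr hn

section Generic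

variable {M : ℕ} {A : Type*} [CommRing A] {V V' : Type*} [AddCommGroup V] [Module A V]
  [AddCommGroup V'] [Module A V'] {ρ : Representation A (GL (Fin 2) (ZMod M)) V}
  {ρ' : Representation A (GL (Fin 2) (ZMod M)) V'}

theorem opH_ext {ι κ : Type} [Fintype ι] [Fintype κ] {F : Fam ι} {G : Fam κ}
    {Φ : ι → V →ₗ[A] V'} {Ψ : κ → V →ₗ[A] V'} (hΦ : IsKer ρ ρ' F Φ) (hΨ : IsKer ρ ρ' G Ψ)
    (h : ∀ (f : Z1 ρ) g, (opZ hΦ f).1 g = (opZ hΨ f).1 g) : opH hΦ = opH hΨ := by
  refine LinearMap.ext fun x => ?_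
  obtain ⟨f, rfl⟩ := Submodule.mkQ_surjective _ x
  exact congrArg (H1.mk ρ') (Subtype.ext (funext fun g => h f g))

theorem opH_eq_map {ι : Type} [Fintype ι] {F : Fam ι} {Φ : ι → V →ₗ[A] V'}
    (hΦ : IsKer ρ ρ' F Φ) {χ : (ZMod M)ˣ →* A} {Θ : V →ₗ[A] V'} (hΘ : IsTwist ρ ρ' χ Θ)
    (h : ∀ (f : Z1 ρ) g, (opZ hΦ f).1 g = Θ (f.1 g)) (x : H1 ρ) : opH hΦ x = map hΘ x := by
  obtain ⟨f, rfl⟩ := Submodule.mkQ_surjective _ x
  exact congrArg (H1.mk ρ') (Subtype.ext (funext fun g => h f g))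

variable (ρ) in
theorem isKer_ofReps {n : ℕ} {ι : Type} [Fintype ι] (R : Reps n ι) (hn : n.Coprime M) :
    IsKer ρ ρ (Fam.ofReps R) fun i => ρ (R.adjRed M i) := fun g i v => by
  show ρ (R.adjRed M i) (ρ (red M (R.elt g i)) v) = _
  rw [← Module.End.mul_apply, ← _root_.map_mul, R.adjRed_mul hn, _root_.map_mul]
  rfl

variable (ρ) in
theorem heckeH_eq_opH {n : ℕ} {ι : Type} [Fintype ι] (R : Reps n ι) (hn : n.Coprime M) :
    heckeH ρ R hn = opH (isKer_ofReps ρ R hn) := rfl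

theorem inflateH_mk {N : ℕ} [NeZero M] [NeZero N] (hNM : N ∣ M)
    (ρ₀ : Representation A (GL (Fin 2) (ZMod N)) V) (f : Z1 (inflate hNM ρ₀)) :
    inflateH hNM ρ₀ (H1.mk (inflate hNM ρ₀) f) = H1.mk ρ₀ (inflateZ hNM ρ₀ f) := rfl

theorem inflateZ_apply {N : ℕ} [NeZero M] [NeZero N] (hNM : N ∣ M)
    (ρ₀ : Representation A (GL (Fin 2) (ZMod N)) V) (f : Z1 (inflate hNM ρ₀)) :
    (inflateZ hNM ρ₀ f).1 = f.1 := rfl

theorem inflate_apply {N : ℕ} [NeZero M] [NeZero N] (hNM : N ∣ M)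
    (ρ₀ : Representation A (GL (Fin 2) (ZMod N)) V) (g : GL (Fin 2) (ZMod M)) :
    inflate hNM ρ₀ g = ρ₀ (gl hNM g) := rfl

end Generic

section Modulus

variable {M N K : ℕ} [NeZero M] [NeZero N] [NeZero K] (hNM : N ∣ M) (hKN : K ∣ N)

theorem gl_gl (g : GL (Fin 2) (ZMod M)) : gl hKN (gl hNM g) = gl (hKN.trans hNM) g := by
  refine Units.ext (Matrix.ext fun a b => ?_)
  show ZMod.castHom hKN (ZMod K) (ZMod.castHom hNM (ZMod N) (g.1 a b)) = _
  rw [← RingHom.comp_apply, RingHom.ext_zmod ((ZMod.castHom hKN (ZMod K)).comp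
    (ZMod.castHom hNM (ZMod N))) (ZMod.castHom (hKN.trans hNM) (ZMod K))]
  rfl

end Modulus

namespace Split

variable {M p M' : ℕ} [NeZero M] [NeZero M'] (h : Split M p M')

include h in
theorem neZero : NeZero p := ⟨h.prime.ne_zero⟩

theorem zmod_ext {x y : ZMod M} (hp : ZMod.castHom h.dvdP (ZMod p) x = ZMod.castHom h.dvdP (ZMod p) y)
    (h' : ZMod.castHom h.dvd' (ZMod M') x = ZMod.castHom h.dvd' (ZMod M') y) : x = y := by
  obtain ⟨a, rfl⟩ := ZMod.intCast_surjective x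
  obtain ⟨b, rfl⟩ := ZMod.intCast_surjective y
  rw [map_intCast, map_intCast, ZMod.intCast_eq_intCast_iff_dvd_sub] at hp h'
  rw [ZMod.intCast_eq_intCast_iff_dvd_sub, h.eq, Nat.cast_mul]
  exact IsCoprime.mul_dvd (Int.isCoprime_iff_nat_coprime.mpr (by simpa using h.coprime)) hp h'

theorem gl_ext {g g' : GL (Fin 2) (ZMod M)} (hp : gl h.dvdP g = gl h.dvdP g')
    (h' : gl h.dvd' g = gl h.dvd' g') : g = g' :=
  Units.ext (Matrix.ext fun a b =>
    h.zmod_ext (congrArg (fun z : GL (Fin 2) (ZMod p) => z.1 a b) hp)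
      (congrArg (fun z : GL (Fin 2) (ZMod M') => z.1 a b) h'))

theorem exists_gl_pair (g₁ : GL (Fin 2) (ZMod p)) (g₂ : GL (Fin 2) (ZMod M')) :
    ∃ g : GL (Fin 2) (ZMod M), gl h.dvdP g = g₁ ∧ gl h.dvd' g = g₂ := by
  let e : ZMod M ≃+* ZMod p × ZMod M' :=
    (ZMod.ringEquivCongr h.eq).trans (ZMod.chineseRemainder h.coprime)
  let lift : Matrix (Fin 2) (Fin 2) (ZMod p) → Matrix (Fin 2) (Fin 2) (ZMod M') →
      Matrix (Fin 2) (Fin 2) (ZMod M) := fun x y => Matrix.of fun a b => e.symm (x a b, y a b)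
  have e1 : ∀ x y, (lift x y).map (ZMod.castHom h.dvdP (ZMod p)) = x := fun x y => by
    ext a b
    show ZMod.castHom h.dvdP (ZMod p) (e.symm _) = _
    rw [RingHom.ext_zmod (ZMod.castHom h.dvdP (ZMod p)) ((RingHom.fst _ _).comp e.toRingHom)]
    simp
  have e2 : ∀ x y, (lift x y).map (ZMod.castHom h.dvd' (ZMod M')) = y := fun x y => by
    ext a b
    show ZMod.castHom h.dvd' (ZMod M') (e.symm _) = _
    rw [RingHom.ext_zmod (ZMod.castHom h.dvd' (ZMod M')) ((RingHom.snd _ _).comp e.toRingHom)]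
    simp
  have hmul : ∀ x y x' y', x * x' = 1 → y * y' = 1 → lift x y * lift x' y' = 1 := by
    intro x y x' y' hx hy
    refine Matrix.ext fun a b => h.zmod_ext ?_ ?_
    · have := congrFun (congrFun ((Matrix.map_mul (f := ZMod.castHom h.dvdP (ZMod p))
        (L := lift x y) (M := lift x' y')).trans (by rw [e1, e1, hx])) a) b
      rw [Matrix.map_apply] at this
      rw [this, Matrix.one_apply, Matrix.one_apply]
      split_ifs
      exacts [(_root_.map_one _).symm, (_root_.map_zero _).symm]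
    · have := congrFun (congrFun ((Matrix.map_mul (f := ZMod.castHom h.dvd' (ZMod M'))
        (L := lift x y) (M := lift x' y')).trans (by rw [e2, e2, hy])) a) b
      rw [Matrix.map_apply] at this
      rw [this, Matrix.one_apply, Matrix.one_apply]
      split_ifs
      exacts [(_root_.map_one _).symm, (_root_.map_zero _).symm]
  exact ⟨⟨lift g₁.1 g₂.1, lift g₁⁻¹.1 g₂⁻¹.1,
    hmul _ _ _ _ g₁.mul_inv g₂.mul_inv, hmul _ _ _ _ g₁.inv_mul g₂.inv_mul⟩,
    Units.ext (e1 _ _), Units.ext (e2 _ _)⟩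

end Split

section Operator

variable {M p M' : ℕ} [NeZero M] [NeZero M'] (h : Split M p M')

/-- an element reducing to `adj m` modulo `M'` and modulo `p`, where these are invertible -/
def adU (m : Matrix (Fin 2) (Fin 2) ℤ) : GL (Fin 2) (ZMod M) :=
  Classical.epsilon fun g => gl h.dvd' g = redGL M' m.adjugate ∧ gl h.dvdP g = redGL p m.adjugate

theorem adU_spec (m : Matrix (Fin 2) (Fin 2) ℤ) :
    gl h.dvd' (adU h m) = redGL M' m.adjugate ∧ gl h.dvdP (adU h m) = redGL p m.adjugate :=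
  Classical.epsilon_spec (p := fun g =>
    gl h.dvd' g = redGL M' m.adjugate ∧ gl h.dvdP g = redGL p m.adjugate) <| by
      obtain ⟨g, h1, h2⟩ := h.exists_gl_pair (redGL p m.adjugate) (redGL M' m.adjugate)
      exact ⟨g, h2, h1⟩

attribute [irreducible] adU

/-- a representation through the modulus `M'` -/
def Fac {A V : Type*} [CommRing A] [AddCommGroup V] [Module A V]
    (τ : Representation A (GL (Fin 2) (ZMod M)) V) : Prop :=
  ∀ g, gl h.dvd' g = 1 → τ g = 1

variable {A : Type*} [CommRing A] {V : Type*} [AddCommGroup V] [Module A V]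
  (τ : Representation A (GL (Fin 2) (ZMod M)) V)

theorem Fac.congr {τ : Representation A (GL (Fin 2) (ZMod M)) V} (hτ : Fac h τ)
    {g g' : GL (Fin 2) (ZMod M)} (e : gl h.dvd' g = gl h.dvd' g') : τ g = τ g' := by
  have := hτ (g * g'⁻¹) (by rw [_root_.map_mul, _root_.map_inv, e, mul_inv_cancel])
  calc τ g = τ (g * g'⁻¹ * g') := by rw [inv_mul_cancel_right]
    _ = τ g' := by rw [_root_.map_mul, this, one_mul]

theorem Fac.mul_apply {τ : Representation A (GL (Fin 2) (ZMod M)) V} (hτ : Fac h τ)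
    {g g' k : GL (Fin 2) (ZMod M)} (e : gl h.dvd' g * gl h.dvd' g' = gl h.dvd' k) (v : V) :
    τ g (τ g' v) = τ k v := by
  rw [← hτ.congr h ((_root_.map_mul _ _ _).trans e), _root_.map_mul, Module.End.mul_apply]

/-- functions on `P¹(p)` with values in the coefficient module -/
abbrev pRep : Representation A (GL (Fin 2) (ZMod M)) (P1 M p → V) := funTensor τ (P1 M p)

open Classical in
/-- the kernel of `Wp` -/
def kerW (m : Matrix (Fin 2) (Fin 2) ℤ) : (P1 M p → V) →ₗ[A] (P1 M p → V) :=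
  LinearMap.pi fun x =>
    if kerPt h.dvdP m = x then τ (adU h m) ∘ₗ LinearMap.proj (imPt h.dvdP m) else 0

open Classical in
theorem kerW_apply (m : Matrix (Fin 2) (Fin 2) ℤ) (F : P1 M p → V) (x : P1 M p) :
    kerW h τ m F x = if kerPt h.dvdP m = x then τ (adU h m) (F (imPt h.dvdP m)) else 0 := by
  unfold kerW
  rw [LinearMap.pi_apply]
  split_ifs <;> rfl

/-- the scalar `p` modulo `M'`, as a map of the coefficients -/
def scalP : (P1 M p → V) →ₗ[A] (P1 M p → V) :=
  LinearMap.pi fun x => τ (adU h ((p : ℤ) • 1)) ∘ₗ LinearMap.proj x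

theorem scalP_apply (F : P1 M p → V) (x : P1 M p) :
    scalP h τ F x = τ (adU h ((p : ℤ) • 1)) (F x) := rfl

theorem isMatKer_kerW (hτ : Fac h τ) {n : ℕ} (hn : p ∣ n) (hn2 : ¬ p ^ 2 ∣ n)
    (hnM : n.Coprime M') : IsMatKer (pRep τ) (pRep τ) n (kerW h τ) := by
  classical
  haveI : Fact p.Prime := ⟨h.prime⟩
  refine ⟨fun u m hm v => funext fun x => ?_, fun g m hm v => funext fun x => ?_⟩
  · have hR := rkOne_of_det hm hn hn2
    rw [kerW_apply, kerW_apply, kerPt_mul_left h.dvdP hR (isUnit_det_coe p u),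
      imPt_mul_left h.dvdP hR (adjOf_red h.dvdP u), ← _root_.map_inv, inv_inv, funTensor_apply,
      inv_smul_smul]
    refine if_congr Iff.rfl (hτ.mul_apply h ?_ _) rfl
    rw [(adU_spec h _).1, (adU_spec h _).1, redGL_adjugate_mul (isUnit_det_coe M' u)
      (isUnit_det_of_coprime hm hnM), redGL_adjugate_coe, gl_red h.dvd', mul_assoc, ← _root_.map_mul,
      inv_mul_cancel, _root_.map_one, mul_one]
  · have hR := rkOne_of_det hm hn hn2
    rw [funTensor_apply, kerW_apply, kerW_apply, kerPt_mul_right h.dvdP hR (adjOf_red h.dvdP g),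
      imPt_mul_right h.dvdP hR (isUnit_det_coe p g), _root_.map_inv, apply_ite (τ (red M g)),
      _root_.map_zero]
    refine if_congr (smul_left_cancel_iff _) (hτ.mul_apply h ?_ _) rfl
    rw [(adU_spec h _).1, (adU_spec h _).1, redGL_adjugate_mul (isUnit_det_of_coprime hm hnM)
      (isUnit_det_coe M' g), redGL_adjugate_coe, gl_red h.dvd', ← mul_assoc, ← _root_.map_mul,
      mul_inv_cancel, _root_.map_one, one_mul]

/-- the operator -/
def Wp (hτ : Fac h τ) : Module.End A (H1 (pRep (p := p) τ)) :=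
  haveI : Fact p.Prime := ⟨h.prime⟩
  corrH (isMatKer_kerW h τ hτ dvd_rfl
    (fun hd => h.prime.not_isUnit (h.prime.squarefree _ (by rwa [pow_two] at hd))) h.coprime)
    (stdReps p)

theorem isTwist_scalP (hτ : Fac h τ) : IsTwist (pRep τ) (pRep τ) 1 (scalP h τ) := fun g F => by
  rw [MonoidHom.one_apply, one_smul]
  funext x
  rw [funTensor_apply, scalP_apply, scalP_apply, funTensor_apply]
  refine (hτ.mul_apply h (k := g * adU h ((p : ℤ) • 1)) ?_ _).trans
    (by rw [_root_.map_mul, Module.End.mul_apply])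
  rw [_root_.map_mul, (adU_spec h _).1]
  refine Units.ext ?_
  rw [Units.val_mul, Units.val_mul, coe_redGL M' (isUnit_det_adjugate (by
    rw [det_smul_one, Int.cast_pow]; exact h.isUnit_cast.pow 2))]
  rw [Matrix.adjugate_smul, Matrix.adjugate_one]
  change (modP M' (_ • 1)) * _ = _ * modP M' (_ • 1)
  rw [modP_smul_one, Matrix.smul_mul, Matrix.mul_smul, one_mul, mul_one]


theorem Wp_eq (hτ : Fac h τ) :
    haveI : Fact p.Prime := ⟨h.prime⟩
    Wp h τ hτ = opH ((isMatKer_kerW h τ hτ dvd_rfl (not_sq_dvd h.prime) h.coprime).isKer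
      (Fam.ofReps (stdReps p)) (stdReps p).det_rep) := by
  unfold Wp corrH
  rfl

end Operator

end FLTAgent.R2.Lv
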