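import Fermat.Agent.R2.LevelPart

/-!
Area R2, parcel G5: lifts to the full level over the two-adic integers of classes of the sign part.

`psiF` reads a class of the full level at the top, reduces and applies `j`; a class `z` lifts `x` when
`psiF z = incW x`.
-/

set_option autoImplicit false
set_option linter.style.haveILetI false
set_option linter.unusedSectionVars false
set_option synthInstance.maxHeartbeats 200000

noncomputable section

open scoped MatrixGroups
open Matrix IsLocalRing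

namespace FLTAgent.R2.Lv

open FLTAgent.LL FLTAgent.R2.Coh

variable {W : WeierstrassCurve ℤ} {hW : IsAnchor W} {B : Base W} {N : ℕ} {K : Aux hW B N} {n : ℕ}
  (D : TW K n) {d : SysData hW (bigM D)} (hd : SysGood d) (I : TopIso D d)

/-- the functions on pairs of lines at the top -/
abbrev HP : Type :=
  H1 (pRep (p := 2) (funTensor (tP K (lev_dvd_bigM D) (Lam N)) (dataX D).X))

/-- a class of the full level, reduced, inside the functions on pairs -/
def psiF : H1 (lrRep (dataF D)) →ₗ[Z2] HP D :=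
  redJ K (lev_dvd_bigM D) 2 (dataX D).X ∘ₗ I.e.toLinearMap

/-- the level inside the functions on pairs -/
abbrev iotaW : HX D →ₗ[Lam N] HP D := incW K (lev_dvd_bigM D) 2 (dataX D).X

include hd in
theorem iotaW_injOn {x : HX D} (hx : x ∈ (d.sys (Lam N)).E (pRep (p := 2) (cX D)))
    (h0 : iotaW D x = 0) : x = 0 := by
  exact (d.sys (Lam N)).eq_zero_of_map_eq_zero _
    ((Submodule.injective_subtype _).comp_left.comp_left) hx h0

theorem psiF_T {l : ℕ} (hl : l.Prime) (hlM : ¬ l ∣ bigM D) (z : H1 (lrRep (dataF D))) :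
    psiF D I (LL.T (lrRep (dataF D)) hl hlM z) =
      LL.T (pRep (p := 2) (funTensor (tP K (lev_dvd_bigM D) (Lam N)) (dataX D).X)) hl hlM
        (psiF D I z) := by
  show redJ K (lev_dvd_bigM D) 2 (dataX D).X (I.e (LL.T (lrRep (dataF D)) hl hlM z)) = _
  rw [I.map_T]
  exact extH_T _ _ hl hlM _

theorem iotaW_T {l : ℕ} (hl : l.Prime) (hlM : ¬ l ∣ bigM D) (x : HX D) :
    iotaW D (LL.T (pRep (p := 2) (cX D)) hl hlM x) =
      LL.T (pRep (p := 2) (funTensor (tP K (lev_dvd_bigM D) (Lam N)) (dataX D).X)) hl hlM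
        (iotaW D x) := by
  exact map_T_one _ hl hlM x

/-- the diamonds on the functions on pairs -/
abbrev diaP : (dataX D).Del →* Module.End (Lam N) (HP D) :=
  diaH (topDia (p := 2) ((xData D).diaX (neg_one_tP K (lev_dvd_bigM D) (Lam N))))

/-- the diamonds at the top over the two-adic integers, on classes -/
abbrev diaY : (dataX D).Del →* Module.End Z2 (H1 (topY D)) := diaH (diaTopY D)

theorem redJ_dia (u : (dataX D).Del) (y : H1 (topY D)) :
    redJ K (lev_dvd_bigM D) 2 (dataX D).X (diaY D u y) =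
      diaP D u (redJ K (lev_dvd_bigM D) 2 (dataX D).X y) := by
  obtain ⟨f, rfl⟩ := Submodule.mkQ_surjective _ y
  exact congrArg (H1.mk (pRep (p := 2) (funTensor (tP K (lev_dvd_bigM D) (Lam N)) (dataX D).X)))
    (Subtype.ext (funext fun g => rfl))

theorem incW_dia (u : (dataX D).Del) (x : HX D) :
    iotaW D (diaT' D u x) = diaP D u (iotaW D x) := by
  obtain ⟨f, rfl⟩ := Submodule.mkQ_surjective _ x
  exact congrArg (H1.mk (pRep (p := 2) (funTensor (tP K (lev_dvd_bigM D) (Lam N)) (dataX D).X)))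
    (Subtype.ext (funext fun g => rfl))

/-- diamonds go to diamonds -/
theorem psiF_act {x : HX D} {z : H1 (lrRep (dataF D))} (h : psiF D I z = iotaW D x)
    (u : (dataX D).Del) :
    psiF D I (LL.map (isTwist_act Z2 (dataF D) u) z) = iotaW D (diaT' D u x) := by
  show redJ K (lev_dvd_bigM D) 2 (dataX D).X (I.e _) = _
  rw [I.map_act, incW_dia, ← h]
  exact redJ_dia D u (I.e z)

theorem redJ_Wp (y : H1 (topY D)) :
    redJ K (lev_dvd_bigM D) 2 (dataX D).X
        (Wp (xData D).split _ ((xData D).facX (xData D).facTY) y) =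
      Wp (xData D).split _ ((xData D).facX (xData D).facTP)
        (redJ K (lev_dvd_bigM D) 2 (dataX D).X y) :=
  extH_Wp (xData D).split
    (τ := funTensor (tY K (lev_dvd_bigM D) Z2) (dataX D).X)
    (τ₂ := funTensor (tP K (lev_dvd_bigM D) (Lam N)) (dataX D).X)
    (Φ := (redJVal K (lev_dvd_bigM D)).compLeft (dataX D).X)
    (fun g F => by
      rw [MonoidHom.one_apply, one_smul]
      funext a
      have h2 := isTwist_redJVal K (lev_dvd_bigM D) g (F (g⁻¹ • a))
      rw [MonoidHom.one_apply, one_smul] at h2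
      exact h2) _ _ y

theorem incW_Wp (x : HX D) :
    iotaW D (Wp (xData D).split (cX D) (facCX D) x) =
      Wp (xData D).split _ ((xData D).facX (xData D).facTP) (iotaW D x) :=
  Wp_natural (xData D).split (cX D) (facCX D) _
    (isTwist_compLeft (tW K (lev_dvd_bigM D)) (isTwist_incW K (lev_dvd_bigM D))) x

/-- `⟨g2⟩ Wp` over the two-adic integers -/
def opVY : Module.End Z2 (H1 (topY D)) :=
  diaW' (xData D).split ((xData D).diaX (neg_one_tY K (lev_dvd_bigM D) Z2))
    ((xData D).facX (xData D).facTY) (uTwo D)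

theorem opVY_apply (y : H1 (topY D)) :
    opVY D y = diaY D (uTwo D) (Wp (xData D).split _ ((xData D).facX (xData D).facTY) y) :=
  diaW'_apply _ _ _ _ y

theorem Wp_sq_Y (y : H1 (topY D)) :
    Wp (xData D).split _ ((xData D).facX (xData D).facTY)
        (Wp (xData D).split _ ((xData D).facX (xData D).facTY) y) =
      diaY D (clsTwo D)⁻¹ y :=
  Wp_Wp_top D (xData D).facTY (neg_one_tY K (lev_dvd_bigM D) Z2) (adTwo_tY D Z2) y

theorem opVY_sq : opVY D * opVY D = diaY D (sgn D) :=
  diaW'_sq _ _ _ _ _ (Wp_sq_Y D)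

theorem opVY_dia (u : (dataX D).Del) (y : H1 (topY D)) :
    opVY D (diaY D u y) = diaY D u (opVY D y) :=
  diaW'_dia _ _ _ _ u y

theorem redJ_opVY (y : H1 (topY D)) (x : HX D)
    (h : redJ K (lev_dvd_bigM D) 2 (dataX D).X y = iotaW D x) :
    redJ K (lev_dvd_bigM D) 2 (dataX D).X (opVY D y) = iotaW D (opV D x) := by
  rw [opVY_apply, redJ_dia, redJ_Wp, h, opV_apply, incW_dia, incW_Wp]

/-- the classes killed by both sums over the two-adic integers -/
abbrev kerY (d : SysData hW (bigM D)) : Submodule Z2 (H1 (topY D)) :=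
  newPart (xData D).split _ ((xData D).facX (xData D).facTY) (d.sys Z2)

theorem opVY_mem {y : H1 (topY D)} (hy : y ∈ kerY D d) : opVY D y ∈ kerY D d := by
  rw [opVY_apply]
  exact diaH_mem_newPart _ _ _ _ _ (Wp_mem_newPart _ _ _ _ _ (Wp_sq_Y D) hy)

theorem Wp_eq_of_opVY {z : H1 (topY D)} {η : Z2} (h : opVY D z = -(η • z)) :
    Wp (xData D).split _ ((xData D).facX (xData D).facTY) z =
      -(η • diaY D (uTwo D)⁻¹ z) := by
  refine Eq.trans ?_ ((congrArg (diaY D (uTwo D)⁻¹) h).trans
    ((map_neg _ _).trans (congrArg Neg.neg (map_smul _ _ _))))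
  rw [opVY_apply, ← Module.End.mul_apply, ← map_mul, inv_mul_cancel, map_one, Module.End.one_apply]

theorem diaY_mem {z : H1 (topY D)} (u : (dataX D).Del) (hz : z ∈ kerY D d) :
    diaY D u z ∈ kerY D d :=
  diaH_mem_newPart (xData D).split ((xData D).diaX (neg_one_tY K (lev_dvd_bigM D) Z2))
    ((xData D).facX (xData D).facTY) (d.sys Z2) u hz

theorem sub_smul_one_apply {A H : Type*} [CommRing A] [AddCommGroup H] [Module A H]
    (f : Module.End A H) (c : A) (x : H) : (f - c • 1) x = f x - c • x := rfl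

theorem one_add_apply {A H : Type*} [CommRing A] [AddCommGroup H] [Module A H]
    (f : Module.End A H) (x : H) : (1 + f) x = x + f x := rfl

theorem redJ_sum (S : Subgroup (dataX D).Del) [Fintype S] {y : H1 (topY D)} {w : HX D}
    (e : redJ K (lev_dvd_bigM D) 2 (dataX D).X y = iotaW D w) :
    redJ K (lev_dvd_bigM D) 2 (dataX D).X (∑ u : S, diaY D u y) =
      iotaW D (∑ u : S, diaT' D u w) :=
  (map_sum _ _ _).trans ((Finset.sum_congr rfl fun (u : S) _ =>
    (redJ_dia D (u : (dataX D).Del) y).trans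
      ((congrArg (diaP D (u : (dataX D).Del)) e).trans (incW_dia D (u : (dataX D).Del) w).symm)).trans
      (map_sum (iotaW D) (fun u : S => diaT' D (u : (dataX D).Del) w) Finset.univ).symm)

set_option maxHeartbeats 1000000 in
include hd in
theorem exists_norm_top (S : Subgroup (dataX D).Del) [Fintype S] {x : HX D} (hx : x ∈ kerP D d)
    (hfix : ∀ u ∈ S, diaT' D u x = x) :
    ∃ w ∈ (d.sys (Lam N)).E (pRep (p := 2) (cX D)), ∑ u : S, diaT' D u w = x := by
  obtain ⟨hf1, hf2⟩ := free_Y (xData D) d hd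
  haveI : Module.Free (Lam N) ((d.sys (Lam N)).E (cY D)) := hf1
  haveI : Module.Free (Lam N) ((d.sys (Lam N)).E (pRep (p := 2) (cY D))) := hf2
  rw [mem_newPart] at hx
  obtain ⟨w, -, hsum⟩ := DPair.exists_norm_of_fixed (pairTop D d)
    ((pairC D d).prod (pairC D d)) (degE (xData D).split (facCX D) (d.sys (Lam N)))
    (degE (xData D).split (facCY D) (d.sys (Lam N)))
    (degE_dia (xData D).split (diaW D) (facCX D) _ (neg_cX D) isUnit_three_lam)
    (degE_toY (xData D).split (diaW D) (facCX D) _ (facCY D) (neg_cX D) isUnit_three_lam)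
    (degE_ofY (xData D).split (diaW D) (facCX D) _ (facCY D) (neg_cX D) isUnit_three_lam)
    Nat.prime_two isNilpotent_two (fun u => del_pow D u)
    (degE_surjective (xData D).split (facCY D) _ (surj_Y_tW (xData D) d hd)) S
    (x := ⟨x, hx.1⟩) ((degE_eq_zero_iff _ _ _ _).2 hx.2)
    fun u hu => Subtype.ext (hfix u hu)
  exact ⟨w.1, w.2, (Submodule.coe_sum _ _ _).symm.trans (congrArg Subtype.val hsum)⟩

/-- a lift at the top in the sign part -/
theorem exists_top_sign (ε : ℤˣ) {x w : HX D} {z : H1 (topY D)} (hz : z ∈ kerY D d)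
    (ez : redJ K (lev_dvd_bigM D) 2 (dataX D).X z = iotaW D w)
    (hwx : (opV D - ((ε : ℤ) : Lam N) • 1) ((1 + diaT' D (sgn D)) w) = x) :
    ∃ z' ∈ kerY D d, redJ K (lev_dvd_bigM D) 2 (dataX D).X z' = iotaW D x ∧
      opVY D z' = -(((ε : ℤ) : Z2) • z') ∧ diaY D (sgn D) z' = z' := by
  have hgg : diaY D (sgn D) (diaY D (sgn D) z) = z := by
    rw [← Module.End.mul_apply, ← map_mul, sgn_sq, map_one, Module.End.one_apply]
  obtain ⟨y, hydef⟩ : ∃ y, z + diaY D (sgn D) z = y := ⟨_, rfl⟩
  have hgy : diaY D (sgn D) y = y := by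
    rw [← hydef, _root_.map_add, hgg]
    exact add_comm _ _
  have hy : y ∈ kerY D d := by
    rw [← hydef]
    exact (kerY D d).add_mem hz (diaY_mem D (sgn D) hz)
  have ey : redJ K (lev_dvd_bigM D) 2 (dataX D).X y = iotaW D ((1 + diaT' D (sgn D)) w) := by
    rw [← hydef]
    refine Eq.trans ?_ (congrArg (iotaW D) (one_add_apply _ _).symm)
    exact (_root_.map_add (redJ K (lev_dvd_bigM D) 2 (dataX D).X) z _).trans
      ((congrArg₂ (· + ·) ez ((redJ_dia D (sgn D) z).trans
        ((congrArg (diaP D (sgn D)) ez).trans (incW_dia D (sgn D) w).symm))).trans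
          (_root_.map_add (iotaW D) w _).symm)
  refine ⟨opVY D y - ((ε : ℤ) : Z2) • y, sub_mem (opVY_mem D hy) (Submodule.smul_mem _ _ hy),
    ?_, ?_, ?_⟩
  · refine Eq.trans ?_ (congrArg (iotaW D) ((sub_smul_one_apply _ _ _).symm.trans hwx))
    refine (map_sub (redJ K (lev_dvd_bigM D) 2 (dataX D).X) _ _).trans
      ((congrArg₂ (· - ·) (redJ_opVY D y _ ey) ?_).trans (map_sub (iotaW D) _ _).symm)
    exact ((map_smul (redJ K (lev_dvd_bigM D) 2 (dataX D).X) _ _).trans
      ((congrArg (((ε : ℤ) : Z2) • ·) ey).trans ((Int.cast_smul_eq_zsmul Z2 (ε : ℤ) _).trans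
        (Int.cast_smul_eq_zsmul (Lam N) (ε : ℤ) _).symm))).trans (map_smul (iotaW D) _ _).symm
  · rw [map_sub, map_smul, ← Module.End.mul_apply, opVY_sq, hgy, smul_sub, smul_smul,
      ← Int.cast_mul, Int.units_coe_mul_self, Int.cast_one, one_smul, neg_sub]
  · rw [map_sub, map_smul, ← opVY_dia, hgy]

variable (ε : ℤˣ) (d₀ : SysData hW K.lev) (hd₀ : SysGood d₀)

set_option maxHeartbeats 1000000 in
include hd hd₀ in
/-- classes of the sign part lift to classes killed by both sums with the same sign -/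
theorem exists_lift_sign {x : HX D} (hx : x ∈ signPart D d ε) :
    ∃ z ∈ (d.sys Z2).E (lrRep (dataF D)), psiF D I z = iotaW D x ∧ (exactTwo D).NewAt Z2 z ∧
      (exactTwo D).WX Z2 z =
        -(((ε : ℤ) : Z2) • LL.map (isTwist_act Z2 (dataF D) (uTwo D)⁻¹) z) ∧
      LL.map (isTwist_act Z2 (dataF D) (sgn D)) z = z := by
  classical
  obtain ⟨w, hw, hwx⟩ := exists_sign_range D d ε hd d₀ hd₀ hx
  obtain ⟨z, hz, ez⟩ := exists_lift_new (xData D) d hd hw
  obtain ⟨z', hz', e1, e2, e3⟩ := exists_top_sign D ε hz ez hwx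
  refine ⟨I.e.symm z', (I.mem_E _).1 ?_, ?_, (I.newAt _).2 ?_, I.e.injective ?_, I.e.injective ?_⟩
  · rw [LinearEquiv.apply_symm_apply]
    exact hz'.1
  · show redJ K (lev_dvd_bigM D) 2 (dataX D).X (I.e (I.e.symm z')) = _
    rw [LinearEquiv.apply_symm_apply]
    exact e1
  · rw [LinearEquiv.apply_symm_apply]
    exact hz'.2
  · rw [I.map_W, map_neg, map_smul]
    erw [I.map_act (uTwo D)⁻¹]
    rw [LinearEquiv.apply_symm_apply]
    exact Wp_eq_of_opVY D e2
  · rw [I.map_act, LinearEquiv.apply_symm_apply]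
    exact e3

include hd in
/-- classes lift to classes with vanishing sums at the killing primes -/
theorem exists_lift_kill {x : HX D} (hx : x ∈ (d.sys (Lam N)).E (pRep (p := 2) (cX D))) :
    ∃ z ∈ (d.sys Z2).E (lrRep (dataF D)), psiF D I z = iotaW D x ∧
      ∀ i : Fin K.k, (exactKill D i).pushX Z2 z = 0 := by
  obtain ⟨w, hw, ew⟩ := exists_pLift (xData D) d hd hx
  refine ⟨I.e.symm (LL.map (isTwist_pTop K (lev_dvd_bigM D) 2 (dataX D).X) w),
    (I.mem_E _).1 ?_, ?_, fun i => I.push_pTop i w⟩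
  · rw [LinearEquiv.apply_symm_apply]
    exact (d.sys Z2).map_mem_E _ (fun _ => by simp) hw
  · show redJ K (lev_dvd_bigM D) 2 (dataX D).X (I.e _) = _
    rw [LinearEquiv.apply_symm_apply]
    exact ew

set_option maxHeartbeats 1000000 in
include hd hd₀ in
/-- classes fixed at a Taylor–Wiles prime lift to classes fixed there -/
theorem exists_lift_fixed (i : Fin (rk W)) {x : HX D} (hx : x ∈ kerP D d)
    (hfix : diaT' D (vDel D i) x = x) :
    ∃ z ∈ (d.sys Z2).E (lrRep (dataF D)), psiF D I z = iotaW D x ∧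
      ∀ v, LL.map (isTwist_act Z2 (dataF D) (Pi.mulSingle i.succ v : (dataX D).Del)) z = z := by
  classical
  let ι := MonoidHom.mulSingle (fun j => (ZMod ((dataX D).Q j))ˣ ⧸ (dataX D).H j) i.succ
  haveI : Fintype ι.range := Fintype.ofFinite _
  have hv : vDel D i = ι (vDel D i i.succ) := funext fun j => by
    show vDel D i j = Pi.mulSingle (M := fun j => (ZMod ((dataX D).Q j))ˣ ⧸ (dataX D).H j) i.succ
      (vDel D i i.succ) j
    by_cases hj : j = i.succ
    · subst hj; rw [Pi.mulSingle_eq_same]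
    · rw [Pi.mulSingle_eq_of_ne hj]; exact vDel_of_ne D i j hj
  have hfixS : ∀ u ∈ ι.range, diaT' D u x = x := by
    rintro _ ⟨a, rfl⟩
    obtain ⟨m, hm⟩ := generates D i a⁻¹
    have ha : ι a = vDel D i ^ m := by
      rw [hv, ← map_pow]
      refine congrArg ι ?_
      show a = (cycDel D (D.tau i) i.succ)⁻¹ ^ m
      exact (inv_inv a).symm.trans ((congrArg (·⁻¹) hm).trans (inv_pow _ _).symm)
    rw [ha, map_pow]
    clear ha hm
    induction m with
    | zero => rfl
    | succ m ih => rw [pow_succ (diaT' D (vDel D i)) m, Module.End.mul_apply, hfix, ih]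
  obtain ⟨w, hw, hsum⟩ := exists_norm_top D hd ι.range hx hfixS
  obtain ⟨p, hp, ep⟩ := exists_pLift (xData D) d hd hw
  set y := LL.map (isTwist_pTop K (lev_dvd_bigM D) 2 (dataX D).X) p
  have hy : y ∈ (d.sys Z2).E (topY D) := (d.sys Z2).map_mem_E _ (fun _ => by simp) hp
  refine ⟨I.e.symm (∑ u : ι.range, diaY D u y), (I.mem_E _).1 ?_, ?_,
    fun v => I.e.injective ?_⟩
  · rw [LinearEquiv.apply_symm_apply]
    exact Submodule.sum_mem _ fun u _ => diaH_mem_E _ _ _ hy
  · show redJ K (lev_dvd_bigM D) 2 (dataX D).X (I.e _) = _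
    rw [LinearEquiv.apply_symm_apply, ← hsum]
    exact redJ_sum D ι.range ep
  · rw [I.map_act, LinearEquiv.apply_symm_apply, map_sum]
    refine Fintype.sum_equiv (Equiv.mulLeft (⟨ι v, v, rfl⟩ : ι.range)) _ _ fun u => ?_
    show diaY D (ι v) (diaY D (u : (dataX D).Del) y) = diaY D (ι v * u) y
    rw [map_mul, Module.End.mul_apply]

end FLTAgent.R2.Lv

end
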