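import Fermat.Agent.R2.LevelGlue

/-!
Area R2, parcel G: levels exist, with a rank independent of the depth.

The rank is that of the sign part, read at the modulus `K.lev`; the module of a level is the dual of
the sign part.
-/

set_option autoImplicit false
set_option linter.style.haveILetI false

noncomputable section

namespace FLTAgent.R2

variable {W : WeierstrassCurve ℤ}

/-- levels exist, with a rank independent of the depth -/
theorem exists_lev (hW : IsAnchor W) (B : Base W) (ε : ℤˣ) {N : ℕ} (K : Aux hW B N) :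
    ∃ d, 0 < d ∧ ∀ (n : ℕ) (D : TW K n), Nonempty (Lev ε K D d) := by
  obtain ⟨d₀, hS, h2⟩ := Lv.nonempty_sysData hW K.lev K.lev.primeFactors
  have hd₀ : Lv.SysGood d₀ :=
    ⟨h2, fun l hl hlK => hS ▸ Nat.mem_primeFactors.2 ⟨hl, hlK, NeZero.ne _⟩⟩
  refine ⟨Lv.levRank K d₀, Lv.levRank_pos d₀ hd₀, fun n D => ?_⟩
  obtain ⟨S⟩ := Lv.nonempty_pre D ε d₀ hd₀
  exact Lv.nonempty_lev (Lv.levRank_pos d₀ hd₀) S

end FLTAgent.R2

end
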