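import Fermat.Agent.R2.PrimesSign
import Fermat.Agent.R2.Defs

/-!
Area R2, parcel D: the auxiliary prime of the level and the Taylor–Wiles primes exist.
-/

set_option autoImplicit false
set_option linter.style.haveILetI false

noncomputable section

namespace FLTAgent.R2

open WeierstrassCurve Matrix
open FLTAgent.Attach (cyc)

local notation "Ω" => AlgebraicClosure ℚ
local notation "M₂" => Matrix (Fin 2) (Fin 2) (ZMod 2)

attribute [local instance] fact_one_lt_two_pow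

variable {W : WeierstrassCurve ℤ}

theorem badOdd_spec (hW : IsAnchor W) {p : ℕ} :
    p ∈ badOdd W ↔ p.Prime ∧ p ≠ 2 ∧ (p : ℤ) ∣ W.Δ := by
  simp [badOdd, Nat.mem_primeFactors, Int.natCast_dvd, hW.neg.ne]
  tauto

theorem red_eq_rb (hW : IsAnchor W) (σ : GQ) :
    Layer.red (tate hW) hW.neg.ne σ = (rb hW σ).map (Layer.modTwo 0) := by
  haveI : Fact (Nat.Prime 2) := ⟨Nat.prime_two⟩
  show ((tate hW).levelMat hW.neg.ne 0 σ).map (Layer.modTwo 0) = _
  rw [← (tate hW).mat_level hW.neg.ne 0 σ]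
  rfl

theorem rb_trace_eq (hW : IsAnchor W) {σ : GQ}
    (h : (Layer.red (tate hW) hW.neg.ne σ).trace = 1) : (rb hW σ).trace = 1 := by
  rw [red_eq_rb, Matrix.trace_fin_two, Matrix.map_apply, Matrix.map_apply, ← map_add,
    ← Matrix.trace_fin_two] at h
  revert h
  generalize (rb hW σ).trace = x
  revert x
  decide

theorem three_key :
    ∀ X : M₂, X.det = 1 → X.trace = 1 → X * X * X = 1 ∧ (X * X).trace = 1 ∧ X ≠ 1 := by
  decide

/-- a prime with Frobenius of order three on the two-torsion following a given element on the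
roots of unity and on given square roots -/
theorem exists_three_prime (hW : IsAnchor W) (n : ℕ) [NeZero n] {σ : GQ}
    (hcyc : cyc n σ * cyc n σ = 1) (htr : (Layer.red (tate hW) hW.neg.ne σ).trace = 1)
    (P : Finset ℕ) (S : Finset ℕ) :
    ∃ (q : ℕ) (A : ValuationSubring Ω) (φ : GQ), q.Prime ∧ q ∉ S ∧ q ≠ 2 ∧ q ∉ P ∧ ¬ q ∣ n ∧
      ¬ (q : ℤ) ∣ W.Δ ∧ A.LiesOverPrime q ∧ A.IsFrobeniusAt φ q ∧
      (q : ZMod n) = cyc n σ ∧ Odd (W.apOfModel q) ∧ (rb hW φ).trace = 1 ∧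
      ∀ p ∈ P, ∀ x : Ω, x ^ 2 = (p : Ω) → φ x = σ x := by
  haveI : Fact (Nat.Prime 2) := ⟨Nat.prime_two⟩
  classical
  set T := tate hW
  have hΔ := hW.neg.ne
  choose rt hrt using fun p : ℕ => IsAlgClosed.exists_pow_nat_eq ((p : ℕ) : Ω) (n := 2) two_pos
  obtain ⟨L1, hL1, h1⟩ := EllFrob.exists_torsion_field hΔ (2 ^ (0 + 1)) (NeZero.ne _)
  obtain ⟨L2, hL2, h2⟩ := Attach.exists_cyc_level n
  let L3 : IntermediateField ℚ Ω := IntermediateField.adjoin ℚ (rt '' (P : Set ℕ))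
  haveI : FiniteDimensional ℚ L3 :=
    haveI := (P.finite_toSet.image rt).to_subtype
    IntermediateField.finiteDimensional_adjoin fun z _ =>
      ((AlgebraicClosure.isAlgebraic ℚ).isAlgebraic z).isIntegral
  haveI := hL1; haveI := hL2
  obtain ⟨q, A, φ, j, u, hq, hqS, hA, hφ, hagree, hagree'⟩ :=
    Layer.exists_frobenius_gen (L1 ⊔ L2 ⊔ L3) σ
      (insert 2 (S ∪ P ∪ n.primeFactors ∪ W.Δ.natAbs.primeFactors))
  simp only [Finset.mem_insert, Finset.mem_union, not_or] at hqS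
  obtain ⟨hq2, ⟨⟨hqS, hqP⟩, hqn'⟩, hqΔ⟩ := hqS
  have hqn : ¬ q ∣ n := fun h => hqn' (Nat.mem_primeFactors.2 ⟨hq, h, NeZero.ne _⟩)
  have hgood : ¬ (q : ℤ) ∣ W.Δ := fun h =>
    hqΔ (Nat.mem_primeFactors.2 ⟨hq, Int.natCast_dvd.1 h, by simpa using hΔ⟩)
  have hcmp : ∀ a b : GQ, (∀ y ∈ L1 ⊔ L2 ⊔ L3, a y = b y) →
      Layer.red T hΔ a = Layer.red T hΔ b ∧ cyc n a = cyc n b ∧
        ∀ p ∈ P, a (rt p) = b (rt p) := by
    intro a b hab
    refine ⟨?_, ?_, fun p hp => hab _ ((le_sup_right : L3 ≤ _)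
      (IntermediateField.subset_adjoin ℚ _ ⟨p, hp, rfl⟩))⟩
    · rw [← Layer.rep_map T hΔ 0, ← Layer.rep_map T hΔ 0,
        (Layer.rep_eq_iff T hΔ 0 a b).2 fun Q hQ => congrArg Subtype.val (h1 a b (fun y hy =>
          hab y (le_sup_left (a := L1 ⊔ L2) (le_sup_left (a := L1) hy))) (Torsion.mkTors Q hQ))]
    · rw [show cyc n a = cyc n (b * (b⁻¹ * a)) by rw [mul_inv_cancel_left], Attach.cyc_mul,
        h2 (b⁻¹ * a) fun y hy => by
        rw [AlgEquiv.mul_apply, hab y (le_sup_left (a := L1 ⊔ L2) (le_sup_right (a := L1) hy))]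
        exact b.symm_apply_apply y, mul_one]
  obtain ⟨hrj, hcj, hpj⟩ := hcmp _ _ hagree
  obtain ⟨hru, hcu, hpu⟩ := hcmp _ _ hagree'
  -- the two-torsion
  have htrφ : (Layer.red T hΔ φ).trace = 1 := by
    obtain ⟨h3, h22, hne⟩ := three_key _ (Layer.det_red T hΔ σ) htr
    rw [hru, map_pow]
    obtain ⟨w, hw | hw | hw⟩ : ∃ w, u = 3 * w ∨ u = 3 * w + 1 ∨ u = 3 * w + 2 :=
      ⟨u / 3, by omega⟩
    · exfalso
      apply hne
      rw [← hrj, map_pow, hru, map_pow, hw, pow_mul, pow_succ, pow_two, h3, one_pow, one_pow]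
    · rw [hw, pow_succ, pow_mul, pow_succ, pow_two, h3, one_pow, one_mul]
      exact htr
    · rw [hw, pow_add, pow_mul, pow_succ, pow_two, h3, one_pow, one_mul]
      exact h22
  have hrb := rb_trace_eq hW htrφ
  refine ⟨q, A, φ, hq, hqS, hq2, hqP, hqn, hgood, hA, hφ, ?_, ?_, hrb, fun p hp x hx => ?_⟩
  · have e : cyc n φ = cyc n σ := by
      rw [hcu, EllFrob.cyc_pow]
      rcases Nat.even_or_odd' u with ⟨w, rfl | rfl⟩
      · have h1' : cyc n σ = 1 := by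
          rw [← hcj, EllFrob.cyc_pow, hcu, EllFrob.cyc_pow, pow_mul, pow_two, hcyc, one_pow,
            one_pow]
        rw [h1', one_pow]
      · rw [pow_succ, pow_mul, pow_two, hcyc, one_pow, one_mul]
    rw [← e, Attach.cyc_frobenius hq hqn hA hφ]
  · obtain ⟨htr', -⟩ := T.frobenius hΔ hq hgood hA hφ (Ne.symm hq2)
    have e : (rb hW φ).trace = ((W.apOfModel q : ℤ) : Lam 0) := by
      show ((T.mat hΔ φ).map (PadicInt.toZModPow (0 + 1))).trace = _
      rw [Matrix.trace_fin_two, Matrix.map_apply, Matrix.map_apply, ← map_add,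
        ← Matrix.trace_fin_two, htr', map_intCast]
    rw [hrb] at e
    rw [← Int.not_even_iff_odd, even_iff_two_dvd]
    rintro ⟨k, hk⟩
    rw [hk, Int.cast_mul, show ((2 : ℤ) : Lam 0) = 0 from rfl, zero_mul] at e
    exact one_ne_zero e
  · have hD : x ^ 2 = (((p : ℕ) : ℤ) : Ω) := by rw [hx, Int.cast_natCast]
    have hrt' : rt p ^ 2 = (((p : ℕ) : ℤ) : Ω) := by rw [hrt, Int.cast_natCast]
    have main : φ (rt p) = σ (rt p) := by
      rw [hpu p hp]
      have hinv : ∀ a : GQ, a (a (rt p)) = rt p := fun a => by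
        rcases Layer.apply_sq_eq a hrt' with h | h
        · rw [h, h]
        · rw [h, map_neg, h, neg_neg]
      have hpow : ∀ (a : GQ) (k : ℕ), (a ^ (2 * k)) (rt p) = rt p ∧
          (a ^ (2 * k + 1)) (rt p) = a (rt p) := by
        intro a k
        induction k with
        | zero => exact ⟨rfl, by rw [mul_zero, zero_add, pow_one]⟩
        | succ k ih =>
          have e : (a ^ (2 * (k + 1))) (rt p) = rt p := by
            rw [show 2 * (k + 1) = 1 + (1 + 2 * k) by ring, pow_add, pow_add, pow_one,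
              AlgEquiv.mul_apply, AlgEquiv.mul_apply, ih.1, hinv]
          exact ⟨e, by rw [pow_succ', AlgEquiv.mul_apply, e]⟩
      rcases Nat.even_or_odd' u with ⟨w, hw | hw⟩
      · rw [hw, (hpow σ w).1]
        rw [← hpj p hp]
        have hfix : φ (rt p) = rt p := by rw [hpu p hp, hw, (hpow σ w).1]
        rcases Nat.even_or_odd' j with ⟨v, hv | hv⟩
        · rw [hv, (hpow φ v).1]
        · rw [hv, (hpow φ v).2, hfix]
      · rw [hw, (hpow σ w).2]
    rcases sq_eq_sq_iff_eq_or_eq_neg.mp (hD.trans hrt'.symm) with rfl | rfl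
    · exact main
    · rw [map_neg, map_neg, main]

theorem nonempty_base (hW : IsAnchor W) : Nonempty (Base W) := by
  haveI : Fact (Nat.Prime 2) := ⟨Nat.prime_two⟩
  obtain ⟨l, hl, hl5, hld⟩ := hW.big
  have hl24 : ¬ l ∣ 24 := fun h => by
    have : l ≤ 24 := Nat.le_of_dvd (by norm_num) h
    interval_cases l <;> revert h <;> revert hl <;> decide
  obtain ⟨σ, hσ, htr⟩ := Layer.exists_three_cyc (tate hW) hW 24 (c := 11) (by decide)
    ⟨l, hl, by omega, hl24, hld⟩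
  obtain ⟨q, -, -, hq, -, -, -, -, hgood, -, -, hcong, hodd, -, -⟩ :=
    exists_three_prime hW 24 (σ := σ) (by rw [hσ]; decide) htr ∅ ∅
  refine ⟨⟨q, hq, ?_, hgood, hodd⟩⟩
  have := (ZMod.natCast_eq_natCast_iff' q 11 24).1 (hcong.trans hσ)
  omega

/-- a prime `≡ 5 (mod 8)` with odd trace of Frobenius -/
theorem exists_five_prime (hW : IsAnchor W) (S : Finset ℕ) :
    ∃ l : ℕ, l.Prime ∧ l ∉ S ∧ l % 8 = 5 ∧ Odd (W.apOfModel l) := by
  obtain ⟨l, hl, hl5, hld⟩ := hW.big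
  have hl8 : ¬ l ∣ 8 := fun h => by
    have : l ≤ 8 := Nat.le_of_dvd (by norm_num) h
    interval_cases l <;> revert h <;> revert hl <;> decide
  obtain ⟨σ, hσ, htr⟩ := Layer.exists_three_cyc (tate hW) hW 8 (c := 5) (by decide)
    ⟨l, hl, by omega, hl8, hld⟩
  obtain ⟨q, -, -, hq, hqS, -, -, -, -, -, -, hcong, hodd, -, -⟩ :=
    exists_three_prime hW 8 (σ := σ) (by rw [hσ]; decide) htr ∅ S
  refine ⟨q, hq, hqS, ?_, hodd⟩
  have := (ZMod.natCast_eq_natCast_iff' q 5 8).1 (hcong.trans hσ)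
  omega

/-- one Taylor–Wiles prime: `≡ 1 (mod 2^m)`, order three, non-residue exactly at two given bad
primes -/
theorem exists_tw_prime (hW : IsAnchor W) (m : ℕ) {p₁ p₂ : ℕ} (h₁ : p₁ ∈ badOdd W)
    (h₂ : p₂ ∈ badOdd W) (hne : p₁ ≠ p₂) (S : Finset ℕ) :
    ∃ (Q : ℕ) (A : ValuationSubring Ω) (φ : GQ), Q.Prime ∧ Q ∉ S ∧ Q % 2 ^ (m + 1) = 1 ∧
      A.LiesOverPrime Q ∧ A.IsFrobeniusAt φ Q ∧ (rb hW φ).trace = 1 ∧
      ∀ p ∈ badOdd W, jacobiSym (p : ℤ) Q = -1 ↔ (p = p₁ ∨ p = p₂) := by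
  have hΔ := hW.neg.ne
  obtain ⟨hp₁, hp₁2, hp₁d⟩ := (badOdd_spec hW).1 h₁
  obtain ⟨hp₂, hp₂2, hp₂d⟩ := (badOdd_spec hW).1 h₂
  obtain ⟨A₁, -, hA₁, -⟩ := Alg.exists_place_frobenius p₁ hp₁
  obtain ⟨A₂, -, hA₂, -⟩ := Alg.exists_place_frobenius p₂ hp₂
  obtain ⟨τ₁, hτ₁, hn₁⟩ := Layer.exists_inertia_neg hp₁ hA₁
  obtain ⟨τ₂, hτ₂, hn₂⟩ := Layer.exists_inertia_neg hp₂ hA₂
  obtain ⟨r₁, hr₁⟩ := IsAlgClosed.exists_pow_nat_eq ((p₁ : ℕ) : Ω) (n := 2) two_pos
  obtain ⟨r₂, hr₂⟩ := IsAlgClosed.exists_pow_nat_eq ((p₂ : ℕ) : Ω) (n := 2) two_pos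
  have hm₁ := Layer.move_sqrt_delta hΔ hp₁ hp₁2 (hW.odd_v _ hp₁ hp₁2 hp₁d) hA₁ hτ₁ hr₁ (hn₁ _ hr₁)
  have hm₂ := Layer.move_sqrt_delta hΔ hp₂ hp₂2 (hW.odd_v _ hp₂ hp₂2 hp₂d) hA₂ hτ₂ hr₂ (hn₂ _ hr₂)
  have hfix : (τ₁ * τ₂) (TH2.sqrtΔ W) = TH2.sqrtΔ W := by
    rw [AlgEquiv.mul_apply, (Layer.apply_sq_eq τ₂ (TH2.sqrtΔ_sq W)).resolve_left hm₂, map_neg,
      (Layer.apply_sq_eq τ₁ (TH2.sqrtΔ_sq W)).resolve_left hm₁, neg_neg]
  obtain ⟨a, b, hab⟩ := Layer.exists_three (tate hW) hΔ hW.neg hW.irr hfix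
  set σ := τ₁ * τ₂ * (a * b * a⁻¹ * b⁻¹) with hσdef
  haveI : NeZero (2 ^ (m + 1)) := ⟨pow_ne_zero _ two_ne_zero⟩
  have hnd : ∀ p : ℕ, p.Prime → p ≠ 2 → ¬ p ∣ 2 ^ (m + 1) := fun p hp hp2 h =>
    hp2 ((Nat.prime_dvd_prime_iff_eq hp Nat.prime_two).1 (hp.dvd_of_dvd_pow h))
  have hσ1 : cyc (2 ^ (m + 1)) σ = 1 := by
    have hinv : ∀ x : GQ, cyc (2 ^ (m + 1)) x * cyc (2 ^ (m + 1)) x⁻¹ = 1 := fun x => by
      rw [← Attach.cyc_mul, mul_inv_cancel, Attach.cyc_one]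
    simp only [hσdef, Attach.cyc_mul, Attach.cyc_inertia hp₁ (hnd _ hp₁ hp₁2) hA₁ hτ₁,
      Attach.cyc_inertia hp₂ (hnd _ hp₂ hp₂2) hA₂ hτ₂]
    linear_combination cyc (2 ^ (m + 1)) b * cyc (2 ^ (m + 1)) b⁻¹ * hinv a + hinv b
  obtain ⟨Q, A, φ, hQ, hQS, hQ2, hQP, -, hgood, hA, hφ, hcong, -, htr, hroots⟩ :=
    exists_three_prime hW (2 ^ (m + 1)) (σ := σ) (by rw [hσ1, one_mul]) hab (badOdd W) S
  refine ⟨Q, A, φ, hQ, hQS, ?_, hA, hφ, htr, fun p hp => ?_⟩
  · have e := (ZMod.natCast_eq_natCast_iff' Q 1 (2 ^ (m + 1))).1 (by rw [Nat.cast_one, hcong, hσ1])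
    rw [e, Nat.mod_eq_of_lt (Nat.one_lt_pow m.succ_ne_zero one_lt_two)]
  obtain ⟨hpp, hp2, hpd⟩ := (badOdd_spec hW).1 hp
  have hQp : ¬ (Q : ℤ) ∣ (p : ℤ) := fun h => hQP ((Nat.prime_dvd_prime_iff_eq hQ hpp).1
    (Int.natCast_dvd_natCast.1 h) ▸ hp)
  obtain ⟨x, hx⟩ := IsAlgClosed.exists_pow_nat_eq ((p : ℕ) : Ω) (n := 2) two_pos
  have hx' : x ^ 2 = (((p : ℕ) : ℤ) : Ω) := by rw [hx, Int.cast_natCast]
  have hx0 : x ≠ 0 := Layer.sqrt_ne_zero hx' (Int.natCast_ne_zero.2 hpp.ne_zero)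
  haveI : Fact Q.Prime := ⟨hQ⟩
  have hfr := Layer.frob_sqrt hQ2 hA hφ hQp hx'
  rw [hroots p hp x hx] at hfr
  -- the action of `σ` on `√p`
  have hcomm : ∀ e : GQ, ∀ y : Ω, y ^ 2 = (p : Ω) → e⁻¹ y = e y := by
    intro e y hy
    have hy' : y ^ 2 = (((p : ℕ) : ℤ) : Ω) := by rw [hy, Int.cast_natCast]
    apply e.injective
    rw [← AlgEquiv.mul_apply, mul_inv_cancel, AlgEquiv.one_apply]
    rcases Layer.apply_sq_eq e hy' with h | h
    · rw [h, h]
    · rw [h, map_neg, h, neg_neg]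
  have hc : (a * b * a⁻¹ * b⁻¹) x = x := by
    rw [AlgEquiv.mul_apply, AlgEquiv.mul_apply, AlgEquiv.mul_apply, hcomm b x hx]
    rcases Layer.apply_sq_eq b hx' with h | h <;>
      rcases Layer.apply_sq_eq a hx' with h' | h' <;>
        simp [h, h', hcomm a x hx, map_neg]
  have hτx : ∀ (l : ℕ) (Al : ValuationSubring Ω) (τ : GQ), l.Prime → l ≠ 2 → Al.LiesOverPrime l →
      τ ∈ Al.inertiaSubgroupIn ℚ → p ≠ l → τ x = x := fun l Al τ hl hl2 hAl hτ hpl =>
    TH2.inertia_fix_sqrt hl hAl hτ hx' (fun h => hpl ((Nat.prime_dvd_prime_iff_eq hl hpp).1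
      (Int.natCast_dvd_natCast.1 h)).symm) (fun h => absurd h hl2)
  have hσx : σ x = τ₁ (τ₂ x) := by rw [hσdef, AlgEquiv.mul_apply, hc, AlgEquiv.mul_apply]
  rw [hσx] at hfr
  rw [← jacobiSym.legendreSym.to_jacobiSym]
  by_cases e1 : p = p₁
  · subst e1
    rw [hτx _ _ _ hp₂ hp₂2 hA₂ hτ₂ hne, hn₁ x hx] at hfr
    simp only [true_or, iff_true]
    rcases legendreSym.eq_one_or_neg_one Q (a := (p : ℤ))
      (fun h => hQp ((ZMod.intCast_zmod_eq_zero_iff_dvd _ Q).1 h)) with h | h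
    · rw [h, Int.cast_one, one_mul] at hfr
      exact absurd hfr (Layer.neg_ne_self hx0)
    · exact h
  by_cases e2 : p = p₂
  · subst e2
    rw [hn₂ x hx, map_neg, hτx _ _ _ hp₁ hp₁2 hA₁ hτ₁ e1] at hfr
    simp only [or_true, iff_true]
    rcases legendreSym.eq_one_or_neg_one Q (a := (p : ℤ))
      (fun h => hQp ((ZMod.intCast_zmod_eq_zero_iff_dvd _ Q).1 h)) with h | h
    · rw [h, Int.cast_one, one_mul] at hfr
      exact absurd hfr (Layer.neg_ne_self hx0)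
    · exact h
  rw [hτx _ _ _ hp₂ hp₂2 hA₂ hτ₂ e2, hτx _ _ _ hp₁ hp₁2 hA₁ hτ₁ e1] at hfr
  simp only [e1, e2, or_self, iff_false]
  intro h
  rw [h, Int.cast_neg, Int.cast_one, neg_one_mul] at hfr
  exact Layer.neg_ne_self hx0 hfr.symm

/-- choices avoiding the earlier ones -/
theorem exists_injective_choice {α : Type*} (f : α → ℕ) :
    ∀ (r : ℕ) (P : Fin r → α → Prop) (S : Finset ℕ),
      (∀ i (S' : Finset ℕ), ∃ a, P i a ∧ f a ∉ S') →
      ∃ g : Fin r → α, (∀ i, P i (g i) ∧ f (g i) ∉ S) ∧ Function.Injective fun i => f (g i) := by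
  intro r
  induction r with
  | zero => exact fun P S _ => ⟨Fin.elim0, fun i => i.elim0, fun i => i.elim0⟩
  | succ r ih =>
    intro P S h
    obtain ⟨a, ha, haS⟩ := h 0 S
    obtain ⟨g, hg, hinj⟩ := ih (fun i => P i.succ) (insert (f a) S) fun i S' => h i.succ S'
    refine ⟨Fin.cons a g, fun i => ?_, ?_⟩
    · cases i using Fin.cases with
      | zero => simpa using ⟨ha, haS⟩
      | succ i =>
        obtain ⟨h1, h2⟩ := hg i
        simp only [Finset.mem_insert, not_or] at h2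
        simpa using ⟨h1, h2.2⟩
    · have hne : ∀ j, f (g j) ≠ f a := fun j h => (hg j).2 (by rw [h]; exact Finset.mem_insert_self _ _)
      intro i j hij
      cases i using Fin.cases with
      | zero =>
        cases j using Fin.cases with
        | zero => rfl
        | succ j => exact absurd (by simpa using hij.symm) (hne j)
      | succ i =>
        cases j using Fin.cases with
        | zero => exact absurd (by simpa using hij) (hne i)
        | succ j => exact congrArg Fin.succ (hinj (by simpa using hij))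

/-- Taylor–Wiles data outside any given finite set -/
theorem nonempty_tw (hW : IsAnchor W) (B : Base W) {N : ℕ} (K : Aux hW B N) (n : ℕ)
    (S : Finset ℕ) : ∃ D : TW K n, Disjoint D.aux S := by
  classical
  set S₀ := S ∪ K.lev.primeFactors with hS₀
  have hnd : ∀ q : ℕ, q.Prime → q ∉ S₀ → ¬ q ∣ K.lev := fun q hq h hd =>
    h (Finset.mem_union_right _ (Nat.mem_primeFactors.2 ⟨hq, hd, NeZero.ne _⟩))
  have hcard : rk W + 1 = (badOdd W).card := by
    obtain ⟨l, hl, hl5, hld⟩ := hW.big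
    have : 0 < (badOdd W).card := Finset.card_pos.2 ⟨l, (badOdd_spec hW).2 ⟨hl, by omega, hld⟩⟩
    unfold rk
    omega
  let e : Fin (rk W + 1) ≃ badOdd W := ((finCongr hcard).trans (badOdd W).equivFin.symm)
  let p : Fin (rk W + 1) → ℕ := fun i => (e i).1
  have hp : ∀ i, p i ∈ badOdd W := fun i => (e i).2
  have hpinj : Function.Injective p := fun i j h => e.injective (Subtype.ext h)
  obtain ⟨g, hg, hinj⟩ := exists_injective_choice
    (fun a : ℕ × ValuationSubring Ω × GQ => a.1) (rk W)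
    (fun i a => a.1.Prime ∧ a.1 % 2 ^ (n + 2 + 1) = 1 ∧ a.2.1.LiesOverPrime a.1 ∧
      a.2.1.IsFrobeniusAt a.2.2 a.1 ∧ (rb hW a.2.2).trace = 1 ∧
      ∀ p' ∈ badOdd W, jacobiSym (p' : ℤ) a.1 = -1 ↔ (p' = p 0 ∨ p' = p i.succ)) S₀
    (fun i S' => by
      obtain ⟨Q, A, φ, h1, h2, h3, h4, h5, h6, h7⟩ := exists_tw_prime hW (n + 2) (hp 0)
        (hp i.succ) (fun h => Fin.succ_ne_zero i (hpinj h).symm) S'
      exact ⟨(Q, A, φ), ⟨h1, h3, h4, h5, h6, h7⟩, h2⟩)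
  obtain ⟨l, hl, hlS, hl8, hlodd⟩ :=
    exists_five_prime hW (S₀ ∪ Finset.univ.image fun i => (g i).1)
  simp only [Finset.mem_union, Finset.mem_image, Finset.mem_univ, true_and, not_or, not_exists]
    at hlS
  have htau : ∀ i, ∃ τ ∈ (g i).2.1.inertiaSubgroupIn ℚ,
      ∀ x : Ω, x ^ 2 = (((g i).1 : ℕ) : Ω) → τ x = -x :=
    fun i => Layer.exists_inertia_neg (hg i).1.1 (hg i).1.2.2.1
  choose tau htau1 htau2 using htau
  have hcong : ∀ i, (g i).1 % 2 ^ (n + 3) = 1 := fun i => (hg i).1.2.1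
  haveI : NeZero (∏ i, (g i).1) :=
    ⟨Finset.prod_ne_zero_iff.2 fun i _ => (hg i).1.1.ne_zero⟩
  -- the square root of two modulo the product
  have hsq : IsSquare (2 : ZMod (∏ i, (g i).1)) := by
    have hcop : Pairwise (Function.onFun Nat.Coprime fun i => (g i).1) := fun i j hij =>
      (Nat.coprime_primes (hg i).1.1 (hg j).1.1).2 fun h => hij (hinj h)
    have hloc : ∀ i, IsSquare (2 : ZMod (g i).1) := by
      intro i
      haveI : Fact (g i).1.Prime := ⟨(hg i).1.1⟩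
      have h8 : (g i).1 % 8 = 1 := by
        rw [← Nat.mod_mod_of_dvd _ (show 8 ∣ 2 ^ (n + 3) from ⟨2 ^ n, by ring⟩), hcong i]
      exact (ZMod.exists_sq_eq_two_iff (p := (g i).1) (by omega)).2 (Or.inl h8)
    choose s hs using hloc
    refine ⟨(ZMod.prodEquivPi _ hcop).symm s, (ZMod.prodEquivPi _ hcop).injective ?_⟩
    rw [map_ofNat, map_mul, RingEquiv.apply_symm_apply]
    funext i
    exact hs i
  obtain ⟨s, hs⟩ := hsq
  obtain ⟨t, rfl⟩ := ZMod.natCast_zmod_surjective s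
  have htcop : t.Coprime (∏ i, (g i).1) := by
    refine Nat.Coprime.prod_right fun i _ => ?_
    rw [Nat.coprime_comm, (hg i).1.1.coprime_iff_not_dvd]
    intro hd
    have h8 : (g i).1 % 8 = 1 := by
      rw [← Nat.mod_mod_of_dvd _ (show 8 ∣ 2 ^ (n + 3) from ⟨2 ^ n, by ring⟩), hcong i]
    have h2 := congrArg (ZMod.castHom (Finset.dvd_prod_of_mem (fun j => (g j).1) (Finset.mem_univ i))
      (ZMod (g i).1)) hs
    rw [map_ofNat, map_mul, map_natCast, (ZMod.natCast_eq_zero_iff t _).2 hd, mul_zero,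
      show (2 : ZMod (g i).1) = ((2 : ℕ) : ZMod (g i).1) from Nat.cast_ofNat.symm,
      ZMod.natCast_eq_zero_iff] at h2
    have := (Nat.prime_dvd_prime_iff_eq (hg i).1.1 Nat.prime_two).1 h2
    omega
  obtain ⟨g2, hg2⟩ := Layer.exists_cyc_eq' (∏ i, (g i).1) htcop
  refine ⟨{
      Q := fun i => (g i).1
      prime := fun i => (hg i).1.1
      inj := hinj
      ndvd := fun i => hnd _ (hg i).1.1 (hg i).2
      cong := hcong
      place := fun i => (g i).2.1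
      lies := fun i => (hg i).1.2.2.1
      frob := fun i => (g i).2.2
      frob_spec := fun i => (hg i).1.2.2.2.1
      order_three := fun i => (hg i).1.2.2.2.2.1
      tau := tau
      tau_mem := htau1
      tau_sqrt := htau2
      legendre := fun a ha => funext fun i => ?_
      l := l
      prime_l := hl
      ndvd_l := hnd _ hl hlS.1
      l_ne := fun i => hlS.2 i
      mod8 := hl8
      odd_l := hlodd
      g2 := g2
      g2_spec := by rw [hg2, sq, ← hs] }, ?_⟩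
  · have h := ha (p i.succ) (hp _)
    rw [Finset.sum_eq_single i (fun j _ hj => if_neg fun h' => ?_) (fun h' => absurd
      (Finset.mem_univ i) h'), if_pos (((hg i).1.2.2.2.2.2 _ (hp _)).2 (Or.inr rfl))] at h
    · exact h
    · rcases ((hg j).1.2.2.2.2.2 _ (hp _)).1 h' with e' | e'
      · exact Fin.succ_ne_zero i (hpinj e')
      · exact hj (Fin.succ_injective _ (hpinj e')).symm
  · rw [TW.aux, Finset.disjoint_insert_left, Finset.disjoint_left]
    refine ⟨fun h => hlS.1 (Finset.mem_union_left _ h), fun x hx hxS => ?_⟩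
    obtain ⟨i, -, rfl⟩ := Finset.mem_image.1 hx
    exact (hg i).2 (Finset.mem_union_left _ hxS)

end FLTAgent.R2

end
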