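import Fermat.Agent.R2.LevelNonzeroOp
import Fermat.Agent.R2.JoinLattice
import Fermat.Agent.R2.LevelSys
import Fermat.Agent.R2.CohExt
import Fermat.Agent.R2.Curve
import Fermat.Agent.R2.PrimesTW
import Fermat.Agent.LL.LevelSetupModular
import Fermat.Agent.TH2.AnchorForm

/-!
Area R2, parcel G5: the residual class of the eigenform of level the product of the odd bad primes.

A lattice vector that is an eigenvector modulo two gives, at every modulus divisible by the level, the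
class with those values modulo two; it is an eigenclass of the good Hecke operators, and of the sum
after `Wp` after pull back at a prime exactly dividing the modulus and prime to the level.
-/

set_option autoImplicit false
set_option linter.style.haveILetI false
set_option linter.unusedSectionVars false
set_option synthInstance.maxHeartbeats 200000

noncomputable section

open scoped MatrixGroups
open Matrix IsLocalRing

namespace FLTAgent.R2.Lv

open FLTAgent.LL FLTAgent.R2.Coh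

variable {W : WeierstrassCurve ℤ}

/-- the residual eigenvalues: one at two and at the level -/
def resEig (W : WeierstrassCurve ℤ) (D l : ℕ) : ℤ := if l = 2 ∨ l ∣ D then 1 else W.apOfModel l

/-- the class of a lattice vector modulo two -/
def IsRedClass {D : ℕ} (M : ℕ) [NeZero M] (v : JTors.Lam D)
    (x : H1 (funRep (Lam 0) (P1 M D) (M := M))) : Prop :=
  ∀ γ, evalGamma0 M D (Lam 0) x (Additive.ofMul γ) = ((v.1 (Additive.ofMul γ) : ℤ) : Lam 0)

variable {D : ℕ} [NeZero D] {M : ℕ} [NeZero M]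

theorem IsRedClass.unique (hD : D ∣ M) {v : JTors.Lam D}
    {x x' : H1 (funRep (Lam 0) (P1 M D) (M := M))}
    (h : IsRedClass M v x) (h' : IsRedClass M v x') : x = x' :=
  (evalGamma0_bijective (A := Lam 0) hD).1 (AddMonoidHom.ext fun a => by
    obtain ⟨γ, rfl⟩ := Additive.ofMul.surjective a
    rw [h, h'])

theorem eval_extH_funExt (y : H1 (funRep Z2 (P1 M D) (M := M)))
    (γ : CongruenceSubgroup.Gamma0 D) :
    evalGamma0 M D (Lam 0)
        (extH (funRep (Lam 0) (P1 M D) (M := M)) (isTwist_funExt Z2 (Lam 0) (P1 M D)) y)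
        (Additive.ofMul γ) =
      algebraMap Z2 (Lam 0) (evalGamma0 M D Z2 y (Additive.ofMul γ)) := by
  obtain ⟨f, rfl⟩ := Submodule.mkQ_surjective _ y
  rfl

/-- the classes with their Hecke operators -/
theorem exists_isRedClass (hD : D ∣ M) (L : JTors.LatticeData D) (v : JTors.Lam D) :
    ∃ x, IsRedClass M v x ∧ ∀ (l : ℕ) (hl : l.Prime) (hlM : ¬ l ∣ M) (a : ℤ),
      (∃ w, L.T ⟨l, hl⟩ v - a • v = (2 : ℤ) • w) →
        T (funRep (Lam 0) (P1 M D) (M := M)) hl hlM x = (a : Lam 0) • x := by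
  obtain ⟨y, hy⟩ := Join.exists_class (M := M) hD v
  refine ⟨_, fun γ => by rw [eval_extH_funExt, hy, map_intCast], ?_⟩
  rintro l hl hlM a ⟨w, hw⟩
  have hy1 : Join.Approx 1 y v := fun γ => by rw [hy, sub_self]; exact dvd_zero _
  have h1 := hy1.hecke hD L hl hlM
  have h2 : Join.Approx 1 (T (Join.zRep M D) hl hlM y) (a • v) := fun γ => by
    have hval : ((L.T ⟨l, hl⟩ v).1 (Additive.ofMul γ) : ℤ) =
        (a • v).1 (Additive.ofMul γ) + 2 * w.1 (Additive.ofMul γ) := by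
      rw [sub_eq_iff_eq_add'.1 hw]
      simp
    have e := h1 γ
    rw [hval, Int.cast_add, ← sub_sub, Int.cast_mul, Int.cast_ofNat] at e
    have e' := dvd_add e (Dvd.intro ((w.1 (Additive.ofMul γ) : ℤ) : Z2) (by rw [pow_one]) :
      (2 : Z2) ^ 1 ∣ 2 * ((w.1 (Additive.ofMul γ) : ℤ) : Z2))
    rwa [sub_add_cancel] at e'
  obtain ⟨z, hz⟩ := h2.exists_eq hD (hy1.smul a)
  rw [← extH_T, hz, _root_.map_add, map_smul, map_smul, pow_one (2 : Z2),
    ← algebraMap_smul (Lam 0) (2 : Z2), ← algebraMap_smul (Lam 0) (a : Z2), map_intCast,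
    map_ofNat, show (2 : Lam 0) = 0 from rfl, zero_smul, add_zero]

theorem eval_map_p1Map {M' : ℕ} [NeZero M'] (hM : M' ∣ M)
    (x : H1 (inflate hM (funRep (Lam 0) (P1 M' D) (M := M'))))
    (γ : CongruenceSubgroup.Gamma0 D) :
    evalGamma0 M D (Lam 0) (LL.map (isTwist_p1Map hM) x) (Additive.ofMul γ) =
      evalGamma0 M' D (Lam 0) (inflateH hM (funRep (Lam 0) (P1 M' D) (M := M')) x)
        (Additive.ofMul γ) := by
  obtain ⟨f, rfl⟩ := Submodule.mkQ_surjective _ x
  show f.1 γ (p1Map hM (P1.base M D)) = f.1 γ (P1.base M' D)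
  refine congrArg (f.1 γ) ?_
  show (QuotientGroup.mk (gl hM 1) : P1 M' D) = QuotientGroup.mk 1
  rw [map_one]

/-- the sum after `Wp` after pull back at a prime prime to the level is the Hecke operator -/
theorem IsRedClass.Tp_eq {p M' : ℕ} [NeZero M'] (h : Split M p M') (hDM : D ∣ M')
    (L : JTors.LatticeData D) {v : JTors.Lam D} {x : H1 (funRep (Lam 0) (P1 M D) (M := M))}
    (hx : IsRedClass M v x) {a : ℤ} (ha : ∃ w, L.T ⟨p, h.prime⟩ v - a • v = (2 : ℤ) • w)
    (hτ : Fac h (funRep (Lam 0) (P1 M D) (M := M))) :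
    Tp h _ hτ x = (a : Lam 0) • x := by
  obtain ⟨x', hx', hT⟩ := exists_isRedClass (M := M') hDM L v
  obtain ⟨x1, rfl⟩ :
      ∃ x1, inflateH h.dvd' (funRep (Lam 0) (P1 M' D) (M := M')) x1 = x' :=
    ⟨_, LinearEquiv.apply_symm_apply _ _⟩
  obtain rfl : LL.map (isTwist_p1Map h.dvd') x1 = x :=
    IsRedClass.unique (hDM.trans h.dvd') (fun γ => by rw [eval_map_p1Map]; exact hx' γ) hx
  rw [← Tp_natural h (fac_inflate h _) hτ (isTwist_p1Map h.dvd'), ← map_smul]
  refine congrArg _ ((inflateH h.dvd' (funRep (Lam 0) (P1 M' D) (M := M'))).injective ?_)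
  rw [inflateH_Tp h _ h.not_dvd, hT p h.prime h.not_dvd a ha, map_smul]

/-- an eigenvector modulo two of the lattice of the level with the eigenvalues of an anchor -/
theorem exists_lattice_eigen (hW : IsAnchor W) (hD : D = ∏ l ∈ badOdd W, l) :
    ∃ (L : JTors.LatticeData D) (v : JTors.Lam D),
      (∃ γ, ((v.1 (Additive.ofMul γ) : ℤ) : Lam 0) ≠ 0) ∧
      ∀ (l : ℕ) (hl : l.Prime), ¬ l ∣ D →
        ∃ w, L.T ⟨l, hl⟩ v - resEig W D l • v = (2 : ℤ) • w := by
  obtain ⟨f, 𝔪, hf, hm, h2, hev⟩ := TH2.anchor_eigenform hW hD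
  obtain ⟨L⟩ := JTors.exists_latticeData D
  obtain ⟨v, hv0, hvT⟩ : ∃ v : JTors.Lam D, (¬ ∃ w, v = (2 : ℤ) • w) ∧
      ∀ (l : ℕ) (hl : l.Prime), ¬ l ∣ D → ∀ a : ℤ,
      (∃ c : integralClosure ℤ ℂ, (c : ℂ) = ModularFormClass.qCoeff f l ∧
        c - (a : integralClosure ℤ ℂ) ∈ 𝔪) → ∃ w, L.T ⟨l, hl⟩ v - a • v = (2 : ℤ) • w :=
    exists_eigen_mod (latticeOf L) hf Nat.prime_two hm h2
  refine ⟨L, v, ?_, fun l hl hlD => hvT l hl hlD _ (hev l hl)⟩
  by_contra hcon
  push Not at hcon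
  refine hv0 ?_
  have hdiv : ∀ a, (2 : ℤ) ∣ v.1 a := fun a => by
    obtain ⟨γ, rfl⟩ := Additive.ofMul.surjective a
    exact (ZMod.intCast_zmod_eq_zero_iff_dvd _ 2).1 (hcon γ)
  refine ⟨⟨AddMonoidHom.mk' (fun a => v.1 a / 2) fun a b => by
      rw [_root_.map_add, Int.add_ediv_of_dvd_left (hdiv a)], fun γ hγ => ?_⟩,
    Subtype.ext (AddMonoidHom.ext fun a => ?_)⟩
  · show v.1 (Additive.ofMul γ) / 2 = 0
    rw [v.2 γ hγ, Int.zero_ediv]
  · show v.1 a = (2 : ℤ) • (v.1 a / 2)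
    rw [smul_eq_mul, Int.mul_ediv_cancel' (hdiv a)]

/-- the eigenvalue at a killing prime is even -/
theorem resEig_q {hW : IsAnchor W} {B : Base W} {N : ℕ} (K : Aux hW B N) (i : Fin K.k) :
    (resEig W (∏ l ∈ badOdd W, l) (K.q i) : Lam 0) = 0 := by
  have hnd : ∀ d, d ∣ B.lev → ¬ K.q i ∣ d := fun d hd h => K.ndvd i (h.trans hd)
  have h2 : K.q i ≠ 2 := fun h => K.ndvd i (h ▸ dvd_mul_of_dvd_left (dvd_mul_right 2 _) _)
  have hD : ¬ K.q i ∣ ∏ l ∈ badOdd W, l :=
    hnd _ (dvd_mul_of_dvd_left (dvd_mul_left _ _) _)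
  have hgood : ¬ (K.q i : ℤ) ∣ W.Δ := fun h => hD (Finset.dvd_prod_of_mem (fun l => l)
    ((badOdd_spec hW).2 ⟨K.prime i, h2, h⟩))
  have h := trace_rE hW N (K.prime i) h2 hgood (K.lies i) (K.frob_spec i)
  rw [K.tr i] at h
  rw [resEig, if_neg (not_or.2 ⟨h2, hD⟩)]
  have h' := congrArg (ZMod.castHom (dvd_pow_self 2 N.succ_ne_zero) (ZMod 2)) h.symm
  rw [map_intCast, map_zero] at h'
  exact h'

end FLTAgent.R2.Lv

end
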