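import Fermat.Agent.R2.LevelX
import Fermat.Agent.R2.PrimesTW
import Fermat.Agent.R2.Curve
import Fermat.Agent.TH2.AnchorForm

/-!
Area R2, parcel G5: the modulus `K.lev · R · l` of a level, the auxiliary data at the Taylor–Wiles
primes together with the prime of the diamond of order two, and the choices among the diamonds.
-/

set_option autoImplicit false
set_option linter.style.haveILetI false
set_option linter.unusedSectionVars false

noncomputable section

open Matrix IsLocalRing

namespace FLTAgent.R2.Lv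

open FLTAgent.LL FLTAgent.R2.Coh

variable {W : WeierstrassCurve ℤ} {hW : IsAnchor W} {B : Base W} {N : ℕ} {K : Aux hW B N} {n : ℕ}

include hW in
/-- a bad prime is `3` modulo `4` -/
theorem exists_bad_three : ∃ l, l.Prime ∧ l % 4 = 3 ∧ l ∣ ∏ l ∈ badOdd W, l := by
  have h8 : (∏ l ∈ badOdd W, l) % 8 = 3 := by
    obtain ⟨k, u, -, hu, hu8⟩ := hW.two
    rw [← TH2.level_eq_badOdd hW]
    exact TH2.level_mod_eight ⟨k, u, hu, hu8⟩ hW.neg hW.odd_v
  by_contra hcon
  push Not at hcon
  have h1 : ∀ l ∈ badOdd W, l % 4 = 1 := fun l hl => by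
    obtain ⟨hp, h2, -⟩ := (badOdd_spec hW).1 hl
    have hodd : l % 2 = 1 := hp.eq_two_or_odd.resolve_left h2
    have := hcon l hp
    have hd : l ∣ ∏ l ∈ badOdd W, l := Finset.dvd_prod_of_mem _ hl
    have h3 : l % 4 ≠ 3 := fun h => this h hd
    omega
  have h4 : (∏ l ∈ badOdd W, l) % 4 = 1 := by
    rw [Finset.prod_nat_mod, Finset.prod_congr rfl h1]
    simp
  omega

variable (D : TW K n)

/-- the modulus -/
def bigM : ℕ := K.lev * D.R * D.l

instance neZero_bigM : NeZero (bigM D) :=
  ⟨mul_ne_zero (mul_ne_zero (NeZero.ne K.lev) (NeZero.ne D.R)) D.prime_l.ne_zero⟩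

theorem lev_dvd_bigM : K.lev ∣ bigM D := dvd_mul_of_dvd_left (dvd_mul_right _ _) _

/-- the prime of order two and the Taylor–Wiles primes -/
def auxQ : Fin (rk W + 1) → ℕ := Fin.cons D.l D.Q

/-- the exponents of the diamond groups -/
def auxE : Fin (rk W + 1) → ℕ := Fin.cons 1 fun _ => n + 1

theorem prime_auxQ (i : Fin (rk W + 1)) : (auxQ D i).Prime := by
  induction i using Fin.cases with
  | zero => exact D.prime_l
  | succ i => exact D.prime i

theorem two_pow_dvd_auxQ (i : Fin (rk W + 1)) :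
    2 ^ (auxE (W := W) (n := n) i + 1) ∣ auxQ D i - 1 := by
  induction i using Fin.cases with
  | zero =>
    show 4 ∣ D.l - 1
    have := D.mod8
    omega
  | succ i =>
    show 2 ^ (n + 1 + 1) ∣ D.Q i - 1
    refine (pow_dvd_pow 2 (show n + 1 + 1 ≤ n + 3 by omega)).trans ?_
    have h := Nat.div_add_mod (D.Q i) (2 ^ (n + 3))
    rw [D.cong i] at h
    exact ⟨D.Q i / 2 ^ (n + 3), by omega⟩

/-- the diamond subgroups -/
def auxH (i : Fin (rk W + 1)) : Subgroup (ZMod (auxQ D i))ˣ :=
  (powMonoidHom ((auxQ D i - 1) / 2 ^ auxE (W := W) (n := n) i)).ker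

theorem neg_mem_auxH (i : Fin (rk W + 1)) : (-1) ∈ auxH D i := by
  obtain ⟨c, hc⟩ := two_pow_dvd_auxQ D i
  rw [auxH, MonoidHom.mem_ker, powMonoidHom_apply, hc, pow_succ, mul_assoc,
    Nat.mul_div_cancel_left _ (pow_pos two_pos _)]
  exact (even_two_mul c).neg_one_pow

theorem index_auxH (i : Fin (rk W + 1)) : (auxH D i).index = 2 ^ auxE (W := W) (n := n) i := by
  haveI : Fact (auxQ D i).Prime := ⟨prime_auxQ D i⟩
  obtain ⟨c, hc⟩ := (pow_dvd_pow 2 (Nat.le_succ _)).trans (two_pow_dvd_auxQ D i)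
  have hpos : 0 < auxQ D i - 1 := Nat.sub_pos_of_lt (prime_auxQ D i).one_lt
  rw [auxH, IsCyclic.index_powMonoidHom_ker, Nat.card_eq_fintype_card, ZMod.card_units, hc,
    Nat.mul_div_cancel_left _ (pow_pos two_pos _), Nat.gcd_eq_right (dvd_mul_left c _)]
  rw [Nat.mul_div_cancel _ (pos_of_ne_zero fun h => by simp [h] at hc; omega)]

theorem index_auxH_dvd (i : Fin (rk W + 1)) : (auxH D i).index ∣ 2 ^ (n + 1) := by
  rw [index_auxH]
  refine pow_dvd_pow 2 ?_
  induction i using Fin.cases with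
  | zero => show 1 ≤ n + 1; omega
  | succ i => exact le_refl (n + 1)

theorem not_auxQ_dvd_lev (i : Fin (rk W + 1)) : ¬ auxQ D i ∣ K.lev := by
  induction i using Fin.cases with
  | zero => exact D.ndvd_l
  | succ i => exact D.ndvd i

theorem auxQ_injective : Function.Injective (auxQ D) := by
  rw [auxQ, Fin.cons_injective_iff]
  exact ⟨fun ⟨i, hi⟩ => D.l_ne i hi, D.inj⟩

theorem auxQ_dvd_bigM (i : Fin (rk W + 1)) : auxQ D i ∣ bigM D := by
  induction i using Fin.cases with
  | zero => exact dvd_mul_left _ _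
  | succ i => exact dvd_mul_of_dvd_left (dvd_mul_of_dvd_right (Finset.dvd_prod_of_mem D.Q (Finset.mem_univ i)) _) _

/-- the auxiliary data with lines at a divisor of `K.lev` -/
def auxData (N0 : ℕ) (h : N0 ∣ K.lev) : AuxData (bigM D) (rk W + 1) where
  N0 := N0
  dvd0 := h.trans (lev_dvd_bigM D)
  Q := auxQ D
  prime := prime_auxQ D
  inj := auxQ_injective D
  dvd := auxQ_dvd_bigM D
  ndvd i hi := not_auxQ_dvd_lev D i (hi.trans h)
  H := auxH D
  neg_mem := neg_mem_auxH D

variable (W) in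
/-- the product of the odd bad primes -/
abbrev dBad : ℕ := ∏ l ∈ badOdd W, l

theorem dBad_dvd : dBad W ∣ K.lev :=
  dvd_mul_of_dvd_left (dvd_mul_of_dvd_left (dvd_mul_left _ 2) _) _

variable (K) in
/-- the level of the new part: two, the bad primes and the killing primes -/
abbrev nFull : ℕ := 2 * dBad W * ∏ i, K.q i

theorem nFull_dvd : nFull K ∣ K.lev :=
  ⟨B.r, by rw [Aux.lev, Base.lev]; ring⟩

/-- the data of lines at the bad primes -/
abbrev dataX : AuxData (bigM D) (rk W + 1) := auxData D (dBad W) dBad_dvd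

/-- the data of the full level -/
abbrev dataF : AuxData (bigM D) (rk W + 1) := auxData D (nFull K) nFull_dvd

theorem two_ne_q (i : Fin K.k) : K.q i ≠ 2 := fun h =>
  K.ndvd i (h ▸ dvd_mul_of_dvd_left (dvd_mul_right 2 _) _)

theorem not_bad_auxQ (i : Fin (rk W + 1)) : ¬ (auxQ D i : ℤ) ∣ W.Δ := fun h => by
  refine not_auxQ_dvd_lev D i ?_
  by_cases h2 : auxQ D i = 2
  · rw [h2]; exact dvd_mul_of_dvd_left (dvd_mul_of_dvd_left (dvd_mul_right 2 _) _) _
  · exact (Finset.dvd_prod_of_mem _ ((badOdd_spec hW).2 ⟨prime_auxQ D i, h2, h⟩)).trans dBad_dvd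

theorem auxQ_mod_four (i : Fin (rk W + 1)) : auxQ D i % 4 = 1 := by
  have h := two_pow_dvd_auxQ D i
  have h4 : 4 ∣ auxQ D i - 1 := by
    refine dvd_trans ?_ h
    refine dvd_trans (show 4 ∣ 2 ^ 2 from dvd_refl _) (pow_dvd_pow 2 ?_)
    induction i using Fin.cases with
    | zero => exact le_refl 2
    | succ i => show 2 ≤ n + 1 + 1; omega
  have := (prime_auxQ D i).one_lt
  omega

theorem squarefree_bigM : Squarefree (bigM D) := by
  have hB : Squarefree B.lev := by
    have hs : ∀ l ∈ badOdd W, l.Prime := fun l hl => ((badOdd_spec hW).1 hl).1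
    have hD : Squarefree (dBad W) :=
      Finset.squarefree_prod_of_pairwise_isCoprime (fun a ha b hb hab =>
        Nat.coprime_iff_isRelPrime.mp ((Nat.coprime_primes (hs a ha) (hs b hb)).2 hab))
        fun a ha => (hs a ha).squarefree
    have h2 : Nat.Coprime 2 (dBad W) := Nat.Coprime.prod_right fun l hl =>
      (Nat.coprime_primes Nat.prime_two (hs l hl)).2 ((badOdd_spec hW).1 hl).2.1.symm
    have hr : Nat.Coprime (2 * dBad W) B.r := by
      refine Nat.Coprime.mul_left ((Nat.coprime_primes Nat.prime_two B.prime).2 ?_)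
        (Nat.Coprime.prod_left fun l hl => (Nat.coprime_primes (hs l hl) B.prime).2 ?_)
      · have := B.mod24; omega
      · exact fun h => B.good (h ▸ ((badOdd_spec hW).1 hl).2.2)
    exact (Nat.squarefree_mul hr).2 ⟨(Nat.squarefree_mul h2).2 ⟨Nat.prime_two.squarefree, hD⟩,
      B.prime.squarefree⟩
  have hK : Squarefree K.lev := by
    refine (Nat.squarefree_mul ?_).2 ⟨hB, ?_⟩
    · exact Nat.Coprime.prod_right fun i _ => (((K.prime i).coprime_iff_not_dvd).2 (K.ndvd i)).symm
    · exact Finset.squarefree_prod_of_pairwise_isCoprime (fun a _ b _ hab =>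
        Nat.coprime_iff_isRelPrime.mp ((Nat.coprime_primes (K.prime a) (K.prime b)).2
          fun h => hab (K.inj h))) fun a _ => (K.prime a).squarefree
  have hR : Squarefree D.R := Finset.squarefree_prod_of_pairwise_isCoprime (fun a _ b _ hab =>
    Nat.coprime_iff_isRelPrime.mp ((Nat.coprime_primes (D.prime a) (D.prime b)).2
      fun h => hab (D.inj h))) fun a _ => (D.prime a).squarefree
  refine (Nat.squarefree_mul ?_).2 ⟨(Nat.squarefree_mul ?_).2 ⟨hK, hR⟩, D.prime_l.squarefree⟩
  · exact Nat.Coprime.mul_left ((D.prime_l.coprime_iff_not_dvd).2 D.ndvd_l).symm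
      (Nat.Coprime.prod_left fun i _ => (Nat.coprime_primes (D.prime i) D.prime_l).2 (D.l_ne i))
  · exact Nat.Coprime.prod_right fun i _ => ((D.prime i).coprime_iff_not_dvd.2 (D.ndvd i)).symm

theorem two_dvd_bigM : 2 ∣ bigM D :=
  (dvd_mul_of_dvd_left (dvd_mul_of_dvd_left (dvd_mul_right 2 _) _) _).trans (lev_dvd_bigM D)

/-- the modulus split at two -/
theorem split_two : Split (bigM D) 2 (bigM D / 2) where
  prime := Nat.prime_two
  eq := (Nat.mul_div_cancel' (two_dvd_bigM D)).symm
  coprime := Nat.coprime_of_squarefree_mul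
    (by rw [Nat.mul_div_cancel' (two_dvd_bigM D)]; exact squarefree_bigM D)

instance neZero_half : NeZero (bigM D / 2) :=
  ⟨(Nat.div_pos (Nat.le_of_dvd (NeZero.pos _) (two_dvd_bigM D)) two_pos).ne'⟩

theorem xData : XData K (dataX D) (bigM D / 2) where
  hM := lev_dvd_bigM D
  sqfree := squarefree_bigM D
  split := split_two D
  N0_eq := rfl
  N0_three := exists_bad_three (hW := hW)
  q_ndvd i h := K.ndvd i (h.trans (dvd_mul_of_dvd_left (dvd_mul_left _ 2) _))
  q_ne i j := fun h => not_auxQ_dvd_lev D j ((show auxQ D j = K.q i from h) ▸ K.q_dvd_lev i)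
  q_two := two_ne_q
  Q_two j := by
    have := auxQ_mod_four D j
    show auxQ D j ≠ 2
    omega
  good_Q := not_bad_auxQ D
  mod4_Q := auxQ_mod_four D
  odd_Q j := by
    induction j using Fin.cases with
    | zero => exact D.odd_l
    | succ j =>
      have h4 : D.Q j % 4 = 1 := auxQ_mod_four D j.succ
      have h := trace_rE hW 0 (D.prime j) (by omega) (not_bad_auxQ D j.succ) (D.lies j)
        (D.frob_spec j)
      rw [show rE hW 0 = rb hW from rfl, D.order_three j] at h
      show Odd (W.apOfModel (D.Q j))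
      exact Int.not_even_iff_odd.1 fun he => by
        obtain ⟨c, hc⟩ := he
        rw [(ZMod.intCast_zmod_eq_zero_iff_dvd (W.apOfModel (D.Q j)) (2 ^ (0 + 1))).2
          ⟨c, by norm_num; omega⟩] at h
        exact one_ne_zero h
  index := ⟨n + 1, index_auxH_dvd D⟩

theorem exists_sysGood : ∃ d : SysData hW (bigM D), SysGood d := by
  obtain ⟨d, hS, h2⟩ := nonempty_sysData hW (bigM D) (bigM D).primeFactors
  exact ⟨d, h2, fun l hl hlM => hS ▸ Nat.mem_primeFactors.2 ⟨hl, hlM, NeZero.ne _⟩⟩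

end FLTAgent.R2.Lv

end
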