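import Fermat.Agent.R2.LevelCoef
import Fermat.Agent.R2.LevelRho

/-!
Area R2, parcel G5: the conditions on the modulus, the lines and the auxiliary primes at which the
new part at two is taken.
-/

set_option autoImplicit false
set_option linter.style.haveILetI false
set_option linter.unusedSectionVars false

noncomputable section

open scoped MatrixGroups
open Matrix

namespace FLTAgent.R2.Lv

open FLTAgent.LL FLTAgent.R2.Coh

variable {W : WeierstrassCurve ℤ} {hW : IsAnchor W} {B : Base W} {N : ℕ} (K : Aux hW B N)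

/-- a modulus, its factor at two and the auxiliary data of the lines away from two -/
structure XData {M r : ℕ} [NeZero M] (D0 : AuxData M r) (M' : ℕ) : Prop where
  hM : K.lev ∣ M
  sqfree : Squarefree M
  split : Split M 2 M'
  N0_eq : D0.N0 = ∏ l ∈ badOdd W, l
  N0_three : ∃ l, l.Prime ∧ l % 4 = 3 ∧ l ∣ D0.N0
  q_ndvd : ∀ i, ¬ K.q i ∣ D0.N0
  q_ne : ∀ i j, D0.Q j ≠ K.q i
  q_two : ∀ i, K.q i ≠ 2
  Q_two : ∀ i, D0.Q i ≠ 2
  good_Q : ∀ i, ¬ (D0.Q i : ℤ) ∣ W.Δ
  mod4_Q : ∀ i, D0.Q i % 4 = 1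
  odd_Q : ∀ i, Odd (W.apOfModel (D0.Q i))
  index : ∃ n, ∀ i, (D0.H i).index ∣ 2 ^ n

/-- the excluded primes contain those of the modulus -/
structure SysGood {M : ℕ} (d : SysData hW M) : Prop where
  l0_ne : d.l0 ≠ 2
  mem : ∀ l, l.Prime → l ∣ M → l ∈ d.S

namespace XData

variable {K} {M r : ℕ} [NeZero M] {D0 : AuxData M r} {M' : ℕ} (T : XData K D0 M')
include T

theorem neZero_M' : NeZero M' :=
  ⟨fun h => NeZero.ne M (by rw [T.split.eq, h, mul_zero])⟩

theorem two_ne (i : Fin K.k) : K.q i ≠ 2 := T.q_two i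

theorem N0_dvd_M' : D0.N0 ∣ M' := by
  have h : D0.N0 ∣ 2 * M' := T.split.eq ▸ D0.dvd0
  refine (Nat.Coprime.dvd_of_dvd_mul_left ?_ h)
  rw [T.N0_eq]
  exact Nat.Coprime.prod_left fun l hl => (Nat.coprime_primes (Nat.prime_of_mem_primeFactors
    (Finset.mem_filter.1 hl).1) Nat.prime_two).2 (Finset.mem_filter.1 hl).2

theorem Q_dvd_M' (i : Fin r) : D0.Q i ∣ M' := by
  have h : D0.Q i ∣ 2 * M' := T.split.eq ▸ D0.dvd i
  refine ((D0.prime i).dvd_mul.1 h).resolve_left fun hd => T.Q_two i ?_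
  exact (Nat.prime_dvd_prime_iff_eq (D0.prime i) Nat.prime_two).1 hd

theorem fix_X [NeZero M'] (g : GL (Fin 2) (ZMod M)) (hg : gl T.split.dvd' g = 1) (x : D0.X) :
    g • x = x :=
  Prod.ext (smul_p1_of_gl_one T.split.dvd' T.N0_dvd_M' hg x.1) (funext fun i =>
    smul_xq_of_gl_one T.split.dvd' (T.Q_dvd_M' i) (D0.dvd i) (D0.H i) hg (x.2 i))

theorem fix_Y [NeZero M'] (g : GL (Fin 2) (ZMod M)) (hg : gl T.split.dvd' g = 1) (x : D0.tw.Y) :
    g • x = x :=
  Prod.ext (smul_p1_of_gl_one T.split.dvd' T.N0_dvd_M' hg x.1) (funext fun i =>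
    smul_p1_of_gl_one T.split.dvd' (T.Q_dvd_M' i) hg (x.2 i))

variable [NeZero M'] {A : Type*} [CommRing A] {V : Type*} [AddCommGroup V] [Module A V]
  {τ : Representation A (GL (Fin 2) (ZMod M)) V}

/-- coefficients through the odd part of the modulus stay so on functions of the lines and vectors -/
theorem facX (hτ : Fac T.split τ) : Fac T.split (funTensor τ D0.X) :=
  fac_funTensor T.split hτ T.fix_X

theorem facY (hτ : Fac T.split τ) : Fac T.split (funTensor τ D0.tw.Y) :=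
  fac_funTensor T.split hτ T.fix_Y

theorem facP (hτ : Fac T.split τ) : Fac T.split (funTensor τ (P1 M D0.N0)) :=
  fac_funTensor T.split hτ fun _ hg x => smul_p1_of_gl_one T.split.dvd' T.N0_dvd_M' hg x

theorem facTY : Fac T.split (tY K T.hM A) := fac_tY K T.hM T.split T.two_ne A

theorem facTP : Fac T.split (tP K T.hM A) := fac_tP K T.hM T.split T.two_ne A

theorem facTW : Fac T.split (tW K T.hM) := fac_tW K T.hM T.split T.two_ne

theorem S_smul_ne (y : D0.tw.Y) : red M ModularGroup.S • y ≠ y := by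
  obtain ⟨l, hl, hl3, hld⟩ := T.N0_three
  exact S_smul_ne_prod (S_smul_ne_P1 hl hl3 hld D0.dvd0) y

theorem neg_one_X (x : D0.X) : red M (-1) • x = x := by
  refine Prod.ext (P1.red_neg_one_smul x.1) (funext fun i => ?_)
  rw [show red M (-1) = Matrix.GeneralLinearGroup.scalar (Fin 2) (-1 : (ZMod M)ˣ) from ?_]
  · refine (scalar_smul_eq_self (D0.dvd i) (D0.H i) (x.2 i)).2 ?_
    show QuotientGroup.mk' (D0.H i) (ZMod.unitsMap (D0.dvd i) (-1)) = 1
    rw [show ZMod.unitsMap (D0.dvd i) (-1) = -1 from Units.ext (by simp [ZMod.unitsMap_def])]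
    exact (QuotientGroup.eq_one_iff _).2 (D0.neg_mem i)
  · ext a b
    fin_cases a <;> fin_cases b <;> simp [coe_red, Matrix.GeneralLinearGroup.scalar]

/-- diamonds on functions on the lines and vectors -/
def diaX (hτ : τ (red M (-1)) = 1) : DiaData (funTensor τ D0.X) (funTensor τ D0.tw.Y) D0.Del :=
  D0.torsor.diaData τ hτ T.neg_one_X T.S_smul_ne

end XData

end FLTAgent.R2.Lv

end
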