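import Fermat.Agent.R2.LevelSurjAux
import Fermat.Agent.R2.LevelX
import Fermat.Agent.R2.LevelIhara

/-!
Area R2, parcel G5: residual surjectivity of the two sums at two on functions on lines and pairs of
lines, and reduction between the two-adic integers and `Lam N`.
-/

set_option autoImplicit false
set_option linter.style.haveILetI false
set_option linter.unusedSectionVars false
set_option synthInstance.maxHeartbeats 200000

noncomputable section

open scoped MatrixGroups
open Matrix IsLocalRing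

namespace FLTAgent.R2.Lv

open FLTAgent.LL FLTAgent.R2.Coh

section Scalars

theorem surj_two_pow_eq_zero (N : ℕ) : (2 : Lam N) ^ (N + 1) = 0 := by
  exact_mod_cast ZMod.natCast_self (2 ^ (N + 1))

theorem surj_two_mem_Z2 : (2 : Z2) ∈ maximalIdeal Z2 := by
  rw [PadicInt.maximalIdeal_eq_span_p, Ideal.mem_span_singleton]
  norm_num

theorem surj_three_Z2 : IsUnit (3 : Z2) := isUnit_three surj_two_mem_Z2

theorem surj_three_lam (N : ℕ) : IsUnit (3 : Lam N) := by
  simpa only [map_ofNat] using surj_three_Z2.map (algebraMap Z2 (Lam N))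

theorem surj_maximalIdeal_lam (N : ℕ) : maximalIdeal (Lam N) = Ideal.span {2} := by
  refine le_antisymm (fun x hx => ?_) ((Ideal.span_singleton_le_iff_mem _).2 ?_)
  · obtain ⟨z, rfl⟩ := algebraMap_surjective N x
    have hz : z ∈ maximalIdeal Z2 := fun hu => hx (hu.map _)
    rw [PadicInt.maximalIdeal_eq_span_p, Ideal.mem_span_singleton] at hz
    obtain ⟨c, rfl⟩ := hz
    rw [map_mul, map_natCast, Nat.cast_ofNat]
    exact Ideal.mem_span_singleton.2 (Dvd.intro _ rfl)
  · intro hu
    exact not_isUnit_zero (surj_two_pow_eq_zero N ▸ hu.pow (N + 1))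

theorem algebraMap_lam_eq_zero_iff {N : ℕ} (x : Z2) :
    algebraMap Z2 (Lam N) x = 0 ↔ (2 : Z2) ^ (N + 1) ∣ x := by
  show PadicInt.toZModPow (N + 1) x = 0 ↔ _
  rw [← RingHom.mem_ker, PadicInt.ker_toZModPow, Ideal.mem_span_singleton]
  norm_num

end Scalars

section Funs

variable {M : ℕ} [NeZero M] (A A' : Type*) [CommRing A] [CommRing A'] [Algebra A A'] (X Z : Type*)
  [MulAction (GL (Fin 2) (ZMod M)) X] [MulAction (GL (Fin 2) (ZMod M)) Z]

theorem isTwist_redFun :
    IsTwist (funTensor (funRep A Z (M := M)) X)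
      (resRep (A := A) (funTensor (funRep A' Z (M := M)) X)) 1
      ((funExt A A' Z).compLeft X) := fun g F => by
  rw [MonoidHom.one_apply, one_smul]
  rfl

theorem redFun_surjective (hσ : Function.Surjective (algebraMap A A')) :
    Function.Surjective ((funExt A A' Z).compLeft X) := fun G => by
  choose F hF using fun x z => hσ (G x z)
  exact ⟨F, funext fun x => funext fun z => hF x z⟩

theorem funRep_tensor_neg_one (hX : ∀ x : X, red M (-1) • x = x)
    (hZ : ∀ z : Z, red M (-1) • z = z) :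
    funTensor (funRep A Z (M := M)) X (red M (-1)) = 1 :=
  funTensor_neg_one (funRep_neg_one hZ) hX

omit [MulAction (GL (Fin 2) (ZMod M)) X] [MulAction (GL (Fin 2) (ZMod M)) Z] in
theorem redFun_eq_zero_iff {N : ℕ} (v : X → Z → Z2) :
    (funExt Z2 (Lam N) Z).compLeft X v = 0 ↔ ∃ w, (2 : Z2) ^ (N + 1) • w = v := by
  constructor
  · intro e
    choose w hw using fun x z =>
      (algebraMap_lam_eq_zero_iff (N := N) (v x z)).1 (congrFun (congrFun e x) z)
    exact ⟨w, funext fun x => funext fun z => (hw x z).symm⟩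
  · rintro ⟨w, rfl⟩
    exact funext fun x => funext fun z =>
      (algebraMap_lam_eq_zero_iff (N := N) _).2 (Dvd.intro _ rfl)

omit [MulAction (GL (Fin 2) (ZMod M)) X] [MulAction (GL (Fin 2) (ZMod M)) Z] in
theorem redFun_torsionFree (n : ℕ) (v : X → Z → Z2) (hv : (2 : Z2) ^ n • v = 0) : v = 0 :=
  funext fun x => funext fun z =>
    (mul_eq_zero.1 (congrFun (congrFun hv x) z)).resolve_left (pow_ne_zero _ two_ne_zero)

variable {W : WeierstrassCurve ℤ} {hW : IsAnchor W} {M' : ℕ} [NeZero M'] (h : Split M 2 M')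
  (d : SysData hW M) [Finite X] [Finite Z]
  (hX : ∀ x : X, red M (-1) • x = x) (hS : ∀ x : X, red M ModularGroup.S • x ≠ x)
  (hZ : ∀ z : Z, red M (-1) • z = z)

include hX hS hZ in
/-- from the residual field to the two-adic integers -/
theorem surj_Z2_of_residual {hf0 : Fac h (funTensor (funRep (Lam 0) Z (M := M)) X)}
    (hf : Fac h (funTensor (funRep Z2 Z (M := M)) X))
    (H : Surj h (funTensor (funRep (Lam 0) Z (M := M)) X) hf0 (d.sys (Lam 0))) :
    Surj h (funTensor (funRep Z2 Z (M := M)) X) hf (d.sys Z2) := by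
  rw [← d.sysMap_sys Z2 (Lam 0)] at H
  exact Surj.of_reduce h (isTwist_redFun Z2 (Lam 0) X Z) (d.sys Z2) (algebraMap_surjective 0)
    (funRep_tensor_neg_one Z2 X Z hX hZ) surj_three_Z2
    (redFun_surjective Z2 (Lam 0) X Z (algebraMap_surjective 0))
    (sFree_funTensor (funRep_neg_one hZ) hX hS) (fun v => redFun_eq_zero_iff X Z v)
    (redFun_torsionFree X Z _) (Ideal.pow_mem_of_mem _ surj_two_mem_Z2 _ (Nat.succ_pos _)) H

include hX hS hZ in
/-- from the two-adic integers to `Lam N` -/
theorem surj_lam_of_Z2 {N : ℕ} {hf : Fac h (funTensor (funRep Z2 Z (M := M)) X)}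
    (hfN : Fac h (funTensor (funRep (Lam N) Z (M := M)) X))
    (H : Surj h (funTensor (funRep Z2 Z (M := M)) X) hf (d.sys Z2)) :
    Surj h (funTensor (funRep (Lam N) Z (M := M)) X) hfN (d.sys (Lam N)) := by
  rw [← d.sysMap_sys Z2 (Lam N)]
  exact Surj.reduce h (isTwist_redFun Z2 (Lam N) X Z) (d.sys Z2) (algebraMap_surjective N)
    (funRep_tensor_neg_one Z2 X Z hX hZ) surj_three_Z2
    (redFun_surjective Z2 (Lam N) X Z (algebraMap_surjective N))
    (sFree_funTensor (funRep_neg_one hZ) hX hS) H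

end Funs

section Residual

variable {W : WeierstrassCurve ℤ} {hW : IsAnchor W} {M M' : ℕ} [NeZero M] [NeZero M']

theorem oddAtOne_sys (d : SysData hW M) : OddAtOne (d.sys (Lam 0)) := by
  intro M0 S hM0
  haveI : NeZero M0 := ⟨hM0.ne'⟩
  obtain ⟨l, hl, hlS, h1, hgood, hodd⟩ :=
    Join.exists_l0 hW M0 (S ∪ d.S ∪ {2} ∪ M.primeFactors)
  simp only [Finset.mem_union, Finset.mem_singleton, not_or, Nat.mem_primeFactors] at hlS
  obtain ⟨⟨⟨hS, hdS⟩, h2⟩, hM⟩ := hlS
  refine ⟨l, hl, ?_, hS, fun hd => hM ⟨hl, hd, NeZero.ne M⟩, fun hb => ?_, ?_⟩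
  · rw [← Nat.cast_one (R := ZMod M0)] at h1
    exact (ZMod.natCast_eq_natCast_iff' _ _ _).1 h1
  · rcases hb with hb | hb | hb
    exacts [h2 hb, hgood hb, hdS hb]
  · show ((W.apOfModel l : ℤ) : ZMod 2) = 1
    exact ZMod.intCast_eq_one_iff_odd.2 hodd

variable (h : Split M 2 M') (P : PairData M') {X Z : Type*} [MulAction (GL (Fin 2) (ZMod M)) X]
  [MulAction (GL (Fin 2) (ZMod M)) Z] [Finite X] [Finite Z]

/-- residual surjectivity on functions on an equivariant image of lines and pairs of lines -/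
theorem surj_residual_of_proj (d : SysData hW M) (π : P.Z h → X × Z)
    (hπ : ∀ (g : GL (Fin 2) (ZMod M)) x, π (g • x) = g • π x) (hπs : Function.Surjective π)
    (hX : ∀ x : X, red M (-1) • x = x) (hS : ∀ x : X, red M ModularGroup.S • x ≠ x)
    (hZ : ∀ z : Z, red M (-1) • z = z)
    (hf : Fac h (funTensor (funRep (Lam 0) Z (M := M)) X)) :
    Surj h (funTensor (funRep (Lam 0) Z (M := M)) X) hf (d.sys (Lam 0)) := by
  classical
  haveI : Fintype (P.Z h) := Fintype.ofFinite _
  have H : Surj h (funRep (Lam 0) (P.Z h) (M := M)) (P.fac_funRep h (Lam 0)) (d.sys (Lam 0)) := by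
    intro a ha b hb
    obtain ⟨y, hy, e1, e2⟩ := deg_surjective h P _ (oddAtOne_sys d) ha hb
    exact ⟨y, hy, Prod.ext e1 e2⟩
  refine H.of_surjective h hf (funRep_neg_one (P.pt h).neg) (surj_three_lam 0)
    (Φ := curryV (A := Lam 0) (V := Lam 0) ∘ₗ funPush (Lam 0) π) (fun g F => ?_) (fun G => ?_)
    (sFree_funTensor (funRep_neg_one hZ) hX hS)
  · have h1 := isTwist_funPush (A := Lam 0) π hπ g F
    rw [MonoidHom.one_apply, one_smul] at h1
    rw [LinearMap.comp_apply, h1, isTwist_curry_funRep]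
    rfl
  · choose sec hsec using hπs
    refine ⟨fun x => if sec (π x) = x then G (π x).1 (π x).2 else 0,
      funext fun x => funext fun z => ?_⟩
    show funPush (Lam 0) π _ (x, z) = G x z
    simp only [funPush, LinearMap.coe_mk, AddHom.coe_mk]
    rw [Finset.sum_eq_single (sec (x, z))]
    · simp [hsec]
    · intro w _ hw
      split_ifs with h1 h2
      · exact absurd (by rw [← h2, h1]) hw
      · rfl
      · rfl
    · exact fun hn => absurd (Finset.mem_univ _) hn

end Residual

section Pairs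

variable {M q q' : ℕ} [NeZero M]

/-- pairs of lines at equal primes -/
def pqTo (hq : q ∣ M) (hq' : q' ∣ M) (e : q = q') : Pq hq → Pq hq' :=
  Subgroup.quotientMapOfLE (by subst e; exact le_rfl)

theorem pqTo_smul (hq : q ∣ M) (hq' : q' ∣ M) (e : q = q') (g : GL (Fin 2) (ZMod M))
    (z : Pq hq) : pqTo hq hq' e (g • z) = g • pqTo hq hq' e z := by
  induction z using QuotientGroup.induction_on with | H k => rfl

theorem pqTo_surjective (hq : q ∣ M) (hq' : q' ∣ M) (e : q = q') :
    Function.Surjective (pqTo hq hq' e) := fun z => by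
  induction z using QuotientGroup.induction_on with | H k => exact ⟨QuotientGroup.mk k, rfl⟩

theorem fstq_surjective [Fact q.Prime] (hq : q ∣ M) : Function.Surjective (fstq hq) := fun z => by
  induction z using QuotientGroup.induction_on with | H k => exact ⟨QuotientGroup.mk k, rfl⟩

end Pairs

namespace XData

variable {W : WeierstrassCurve ℤ} {hW : IsAnchor W} {B : Base W} {N : ℕ} {K : Aux hW B N}
  {M r : ℕ} [NeZero M] {D0 : AuxData M r} {M' : ℕ} [NeZero M'] (T : XData K D0 M')
include T

theorem neg_one_Y (y : D0.tw.Y) : red M (-1) • y = y :=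
  Prod.ext (P1.red_neg_one_smul y.1) (funext fun i => P1.red_neg_one_smul (y.2 i))

theorem S_smul_ne_X (x : D0.X) : red M ModularGroup.S • x ≠ x := by
  obtain ⟨l, hl, hl3, hld⟩ := T.N0_three
  exact S_smul_ne_prod (S_smul_ne_P1 hl hl3 hld D0.dvd0) x

/-- the lines at `N0` and pairs at the auxiliary and killing primes -/
def pairData : PairData M' where
  N1 := D0.N0
  dvd1 := T.N0_dvd_M'
  k := r + K.k
  q := Fin.append D0.Q K.q
  prime := Fin.addCases (fun i => by rw [Fin.append_left]; exact D0.prime i)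
    fun i => by rw [Fin.append_right]; exact K.prime i
  inj := Fin.append_injective_iff.2 ⟨D0.inj, K.inj, fun i j => T.q_ne j i⟩
  dvd := Fin.addCases (fun i => by rw [Fin.append_left]; exact T.Q_dvd_M' i)
    fun i => by
      rw [Fin.append_right]
      exact q_dvd_of_split K T.hM T.split T.two_ne i
  ndvd := Fin.addCases (fun i => by rw [Fin.append_left]; exact D0.ndvd i)
    fun i => by rw [Fin.append_right]; exact T.q_ndvd i
  three := T.N0_three

variable {G : Fin (kset K T.hM).k → Type} [∀ i, MulAction (GL (Fin 2) (ZMod M)) (G i)]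
  (g : ∀ i, Pq ((kset K T.hM).dvd i) → G i)

/-- to the lines at the auxiliary primes and a quotient of the pairs at the killing primes -/
def proj (z : T.pairData.Z T.split) : D0.tw.Y × (PUnit.{1} × ∀ i, G i) :=
  ((z.1, fun i => fstq (D0.dvd i) (pqTo _ (D0.dvd i) (Fin.append_left _ _ i) (z.2 (Fin.castAdd K.k i)))),
    (PUnit.unit, fun i =>
      g i (pqTo _ ((kset K T.hM).dvd i) (Fin.append_right _ _ i) (z.2 (Fin.natAdd r i)))))

variable (hg : ∀ i (γ : GL (Fin 2) (ZMod M)) (z : Pq ((kset K T.hM).dvd i)),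
    g i (γ • z) = γ • g i z)
  (hgs : ∀ i, Function.Surjective (g i))

include hg in
theorem proj_smul (γ : GL (Fin 2) (ZMod M)) (z : T.pairData.Z T.split) :
    T.proj g (γ • z) = γ • T.proj g z := by
  refine Prod.ext (Prod.ext rfl (funext fun i => ?_)) (Prod.ext rfl (funext fun i => ?_))
  · show fstq _ (pqTo _ _ _ (γ • z.2 _)) = γ • fstq _ _
    exact (congrArg (fstq _) (pqTo_smul _ _ _ γ _)).trans (fstq_smul _ γ _)
  · show g i (pqTo _ _ _ (γ • z.2 _)) = γ • g i _
    exact (congrArg (g i) (pqTo_smul _ _ _ γ _)).trans (hg i γ _)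

include hgs in
theorem proj_surjective : Function.Surjective (T.proj g) := by
  rintro ⟨⟨a, y⟩, ⟨u, z⟩⟩
  choose uQ hQ using fun i => ((fstq_surjective (D0.dvd i)).comp
    (pqTo_surjective ((T.pairData.dvd (Fin.castAdd K.k i)).trans T.split.dvd') (D0.dvd i)
      (Fin.append_left D0.Q K.q i))) (y i)
  choose uK hK using fun i => ((hgs i).comp
    (pqTo_surjective ((T.pairData.dvd (Fin.natAdd r i)).trans T.split.dvd')
      ((kset K T.hM).dvd i) (Fin.append_right D0.Q K.q i))) (z i)
  refine ⟨(a, Fin.addCases uQ uK), Prod.ext (Prod.ext rfl (funext fun i => ?_))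
    (Prod.ext rfl (funext fun i => ?_))⟩
  · refine Eq.trans (congrArg (fun w => fstq (D0.dvd i) (pqTo _ (D0.dvd i) (Fin.append_left _ _ i) w))
      ?_) (hQ i)
    dsimp only
    exact Fin.addCases_left (n := K.k) i
  · refine Eq.trans (congrArg
      (fun w => g i (pqTo _ ((kset K T.hM).dvd i) (Fin.append_right _ _ i) w)) ?_) (hK i)
    dsimp only
    exact Fin.addCases_right (n := K.k) i

include hg hgs in
/-- residual surjectivity below the diamonds -/
theorem surj_residual_Y (d : SysData hW M) [∀ i, Finite (G i)]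
    (hG : ∀ i (z : G i), red M (-1) • z = z)
    (hf : Fac T.split (funTensor (funRep (Lam 0) (PUnit.{1} × ∀ i, G i) (M := M)) D0.tw.Y)) :
    Surj T.split (funTensor (funRep (Lam 0) (PUnit.{1} × ∀ i, G i) (M := M)) D0.tw.Y) hf
      (d.sys (Lam 0)) :=
  surj_residual_of_proj T.split T.pairData d (T.proj g) (T.proj_smul g hg)
    (T.proj_surjective g hgs) T.neg_one_Y T.S_smul_ne
    (fun z => Prod.ext rfl (funext fun i => hG i (z.2 i))) hf

/-- the orders of the diamonds are powers of two -/
theorem exists_pow_del : ∃ n, ∀ u : D0.Del, u ^ 2 ^ n = 1 := by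
  obtain ⟨n, hn⟩ := T.index
  refine ⟨n, fun u => funext fun i => ?_⟩
  obtain ⟨c, hc⟩ := hn i
  show u i ^ 2 ^ n = 1
  rw [hc, pow_mul, Subgroup.index_eq_card, pow_card_eq_one', one_pow]

end XData

end FLTAgent.R2.Lv

end
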