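import Fermat.Agent.R2.LevelSurjBase

/-!
Area R2, parcel G5: classes killed by `j` come from the functions not depending on one line, and
`p` commutes with change of scalars.
-/

set_option autoImplicit false
set_option linter.style.haveILetI false
set_option linter.unusedSectionVars false
set_option synthInstance.maxHeartbeats 200000

noncomputable section

open scoped MatrixGroups
open Matrix IsLocalRing

namespace FLTAgent.R2.Lv

open FLTAgent.LL FLTAgent.R2.Coh

namespace KSet

variable {M : ℕ} [NeZero M] (S : KSet M) (A : Type*) [CommRing A] (Z : Type*) [Fintype Z]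
  [DecidableEq Z] [MulAction (GL (Fin 2) (ZMod M)) Z]

open Classical in
/-- the sum over the lines at one prime -/
def offEnd (i : Fin S.k) : (Z × S.YY → A) →ₗ[A] (Z × S.YY → A) :=
  funKer fun x y => if x.1 = y.1 ∧ ∀ j, j ≠ i → x.2 j = y.2 j then 1 else 0

theorem isTwist_offEnd (i : Fin S.k) :
    IsTwist (funRep A (Z × S.YY) (M := M)) (funRep A (Z × S.YY) (M := M)) 1 (S.offEnd A Z i) :=
  isTwist_funKer _ fun g z x => by
    simp only [Prod.smul_fst, Prod.smul_snd, Pi.smul_apply]
    classical
    exact if_congr (and_congr (smul_left_cancel_iff g)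
      (forall₂_congr fun j _ => smul_left_cancel_iff g)) rfl rfl

theorem offEnd_mem_indep (i : Fin S.k) (F : Z × S.YY → A) :
    S.offEnd A Z i F ∈ S.indep A Z i := by
  classical
  intro x y h1 h2
  rw [offEnd, funKer_apply, funKer_apply]
  refine Finset.sum_congr rfl fun w _ => congrArg (· * F w) ?_
  refine if_congr ⟨fun h => ⟨h1 ▸ h.1, fun j hj => h2 j hj ▸ h.2 j hj⟩,
    fun h => ⟨h1 ▸ h.1, fun j hj => (h2 j hj).symm ▸ h.2 j hj⟩⟩ rfl rfl

theorem jT_offEnd (i : Fin S.k) (F : Z × S.YY → A) : S.jT A Z (S.offEnd A Z i F) = 0 := by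
  rw [← LinearMap.mem_ker, S.ker_jT]
  exact Submodule.mem_iSup_of_mem i (S.offEnd_mem_indep A Z i F)

theorem exists_offEnd_eq {i : Fin S.k} {F : Z × S.YY → A} (hF : F ∈ S.indep A Z i) :
    ∃ G, S.offEnd A Z i G = F := by
  classical
  refine ⟨fun y => if y.2 i = P1.base M (S.q i) then F y else 0, funext fun x => ?_⟩
  rw [offEnd, funKer_apply, Finset.sum_eq_single (x.1, Function.update x.2 i (P1.base M (S.q i)))]
  · simp only [Function.update_self, if_true]
    rw [if_pos ⟨trivial, fun j hj => (Function.update_of_ne hj _ _).symm⟩, one_mul]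
    exact hF _ _ rfl fun j hj => Function.update_of_ne hj _ _
  · intro y _ hy
    split_ifs with h1 h2
    · refine (hy (Prod.ext h1.1.symm (funext fun j => ?_))).elim
      by_cases hj : j = i
      · subst hj
        simp [h2]
      · simp [Function.update_of_ne hj, h1.2 j hj]
    all_goals simp
  · exact fun h => absurd (Finset.mem_univ _) h

variable {X : Type*} [MulAction (GL (Fin 2) (ZMod M)) X]

/-- the sums over the lines at the primes, together -/
def offSum : (Fin S.k → X → Z × S.YY → A) →ₗ[A] (X → Z × S.YY → A) :=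
  ∑ i, (S.offEnd A Z i).compLeft X ∘ₗ LinearMap.proj i

omit [MulAction (GL (Fin 2) (ZMod M)) X] in
theorem offSum_apply (F : Fin S.k → X → Z × S.YY → A) (x : X) :
    S.offSum A Z F x = ∑ i, S.offEnd A Z i (F i x) := by
  simp [offSum, LinearMap.sum_apply, Finset.sum_apply]

omit [MulAction (GL (Fin 2) (ZMod M)) X] in
theorem jT_offSum (F : Fin S.k → X → Z × S.YY → A) (x : X) :
    S.jT A Z (S.offSum A Z F x) = 0 := by
  rw [offSum_apply, map_sum]
  exact Finset.sum_eq_zero fun i _ => S.jT_offEnd A Z i _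

omit [MulAction (GL (Fin 2) (ZMod M)) X] in
theorem exists_offSum_eq (v : X → Z × S.YY → A) (hv : ∀ x, S.jT A Z (v x) = 0) :
    ∃ F, S.offSum A Z F = v := by
  classical
  have h : ∀ x, ∃ G : Fin S.k → Z × S.YY → A, ∑ i, S.offEnd A Z i (G i) = v x := fun x => by
    have hx : v x ∈ ⨆ i, S.indep A Z i := by rw [← S.ker_jT]; exact hv x
    rw [Submodule.mem_iSup_iff_exists_finsupp] at hx
    obtain ⟨f, hf, hsum⟩ := hx
    choose G hG using fun i => S.exists_offEnd_eq A Z (hf i)
    exact ⟨G, by rw [← hsum, Finsupp.sum_fintype _ _ fun _ => rfl]; simp only [hG]⟩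
  choose G hG using h
  exact ⟨fun i x => G x i, funext fun x => by rw [offSum_apply, hG]⟩

variable [IsLocalRing A] [IsNoetherianRing A] [IsAdicComplete (maximalIdeal A) A] [Finite X]

/-- classes killed by `j` are sums over the lines at the primes -/
theorem exists_offEnd_of_map_jT_eq_zero (s : Sys M A) (hX : ∀ x : X, red M (-1) • x = x)
    (hS : ∀ x : X, red M ModularGroup.S • x ≠ x) (hZ : ∀ z : Z, red M (-1) • z = z)
    (h3 : IsUnit (3 : A)) {a : H1 (funTensor (funRep A (Z × S.YY) (M := M)) X)}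
    (ha : a ∈ s.E (funTensor (funRep A (Z × S.YY) (M := M)) X))
    (h0 : LL.map (isTwist_compLeft (funRep A (Z × S.YY) (M := M)) (S.isTwist_jT A Z) (X := X)) a = 0) :
    ∃ a' : Fin S.k → H1 (funTensor (funRep A (Z × S.YY) (M := M)) X),
      (∀ i, a' i ∈ s.E (funTensor (funRep A (Z × S.YY) (M := M)) X)) ∧
      ∑ i, LL.map (isTwist_compLeft (funRep A (Z × S.YY) (M := M)) (S.isTwist_offEnd A Z i) (X := X))
        (a' i) = a := by
  classical
  let τ := funTensor (funRep A (Z × S.YY) (M := M)) X
  have hJ : IsTwist τ (funTensor (funRep A (Z × S.PP) (M := M)) X) 1 ((S.jT A Z).compLeft X) :=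
    isTwist_compLeft _ (S.isTwist_jT A Z)
  let W : Submodule A (X → Z × S.YY → A) := LinearMap.ker ((S.jT A Z).compLeft X)
  have hW : ∀ g, W ≤ W.comap (τ g) := fun g v hv => by
    rw [Submodule.mem_comap, LinearMap.mem_ker, hJ, MonoidHom.one_apply, one_smul,
      LinearMap.mem_ker.1 hv, map_zero]
  let ρW := τ.subrepresentation W hW
  have hi : IsTwist ρW τ 1 W.subtype := fun g v => by
    rw [MonoidHom.one_apply, one_smul]
    rfl
  have hr : IsTwist τ (rangeRep hJ) 1 ((S.jT A Z).compLeft X).rangeRestrict :=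
    isTwist_rangeRestrict hJ
  have hr0 : LL.map hr a = 0 := by
    refine s.eq_zero_of_map_eq_zero (isTwist_rangeSubtype hJ) (Submodule.injective_subtype _)
      (s.map_mem_E hr (fun _ => by simp) ha) ?_
    rw [map_map_one hr (isTwist_rangeSubtype hJ) hJ (fun _ => rfl)]
    exact h0
  obtain ⟨v, hv, hva⟩ := s.exists_mem_E_of_map_eq_zero hi hr (fun _ => by simp) W.injective_subtype
    (fun v => ⟨fun e => ⟨⟨v, congrArg Subtype.val e⟩, rfl⟩, by
      rintro ⟨w, rfl⟩
      exact Subtype.ext w.2⟩) (LinearMap.surjective_rangeRestrict _) ha hr0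
  let Φ : (Fin S.k → X → Z × S.YY → A) →ₗ[A] W :=
    (S.offSum A Z).codRestrict W fun F => funext fun x => S.jT_offSum A Z F x
  have hΦ : IsTwist (piRep (Fin S.k) τ) ρW 1 Φ := fun g F => by
    rw [MonoidHom.one_apply, one_smul]
    refine Subtype.ext ?_
    show S.offSum A Z _ = τ g (S.offSum A Z F)
    funext x
    show S.offSum A Z (fun i => τ g (F i)) x =
      funRep A (Z × S.YY) g (S.offSum A Z F (g⁻¹ • x))
    rw [offSum_apply, offSum_apply, map_sum]
    refine Finset.sum_congr rfl fun i _ => ?_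
    have h2 := S.isTwist_offEnd A Z i g (F i (g⁻¹ • x))
    rw [MonoidHom.one_apply, one_smul] at h2
    exact h2
  have hΦs : Function.Surjective Φ := fun w => by
    obtain ⟨F, hF⟩ := S.exists_offSum_eq A Z w.1 fun x => congrFun w.2 x
    exact ⟨F, Subtype.ext hF⟩
  have hZY : ∀ z : Z × S.YY, red M (-1) • z = z := fun z =>
    Prod.ext (hZ z.1) (funext fun i => P1.red_neg_one_smul (z.2 i))
  have hnegτ : τ (red M (-1)) = 1 := funTensor_neg_one (funRep_neg_one hZY) hX
  obtain ⟨c, hc⟩ := exists_half hX hS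
  have hfree : SFree ρW := by
    refine SFree.of_surjective hΦ hΦs
      (e := LinearMap.pi fun i => halfEnd A (Z × S.YY → A) c ∘ₗ LinearMap.proj i)
      (fun F => funext fun i => halfEnd_spec (τ := funRep A (Z × S.YY) (M := M))
        (funRep_neg_one hZY) hX hc (F i)) fun F hF =>
        Subtype.ext (funext fun x => ?_)
    show S.offSum A Z (fun i => halfEnd A (Z × S.YY → A) c (F i)) x = 0
    have hF' : S.offSum A Z F x = 0 := congrFun (congrArg Subtype.val hF) x
    rw [offSum_apply] at hF' ⊢
    simp only [halfEnd_apply]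
    by_cases hx : c x
    · simpa only [if_pos hx] using hF'
    · simp only [if_neg hx, map_zero, Finset.sum_const_zero]
  obtain ⟨u, hu, huv⟩ := exists_mem_E_map_eq s (ρ := piRep (Fin S.k) τ)
    (LinearMap.ext fun F => funext fun i => LinearMap.congr_fun hnegτ (F i)) h3 hΦ (fun _ => by simp)
    hΦs hfree hv
  have hp : ∀ i, IsTwist (piRep (Fin S.k) τ) τ 1
      (LinearMap.proj i : (Fin S.k → X → Z × S.YY → A) →ₗ[A] _) := fun i g F => by
    rw [MonoidHom.one_apply, one_smul]
    rfl
  refine ⟨fun i => LL.map (hp i) u, fun i => s.map_mem_E _ (fun _ => by simp) hu, ?_⟩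
  rw [← hva, ← huv]
  obtain ⟨f, rfl⟩ := Submodule.mkQ_surjective _ u
  simp only [Submodule.mkQ_apply]
  refine Eq.trans (map_sum (H1.mk τ) (fun i => mapZ (isTwist_compLeft (funRep A (Z × S.YY) (M := M))
    (S.isTwist_offEnd A Z i) (X := X)) (mapZ (hp i) f)) Finset.univ).symm ?_
  refine congrArg (H1.mk τ) (Subtype.ext (funext fun g => funext fun x => ?_))
  rw [Submodule.coe_sum, Finset.sum_apply, Finset.sum_apply]
  exact (S.offSum_apply A Z (f.1 g) x).symm

/-- `p` commutes with change of scalars -/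
theorem funExt_pT {A' : Type*} [CommRing A'] [Algebra A A'] (F : Z × S.PP → A) :
    funExt A A' (Z × S.YY) (S.pT A Z F) = S.pT A' Z (funExt A A' (Z × S.PP) F) := by
  classical
  funext x
  show algebraMap A A' (funKer _ F x) = funKer _ (fun z => algebraMap A A' (F z)) x
  rw [funKer_apply, funKer_apply, map_sum]
  refine Finset.sum_congr rfl fun z _ => ?_
  simp only [map_mul, tens, map_prod, pK, jK, map_sub, apply_ite (algebraMap A A'), map_one,
    map_zero]

end KSet

end FLTAgent.R2.Lv

end
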