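import Fermat.Agent.R2.LevelNonzeroStep
import Fermat.Agent.R2.LevelNonzeroBase
import Fermat.Agent.R2.LevelSetup
import Fermat.Agent.R2.LevelSurjBase
import Fermat.Agent.R2.LevelSurjKer

/-!
Area R2, parcel G5: a nonzero class of the new part at two.

The residual class of level the product of the odd bad primes is raised one killing prime at a time,
made new at two, and carried into `Lam N` by multiplication by `2 ^ N`.
-/

set_option autoImplicit false
set_option linter.style.haveILetI false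
set_option linter.unusedSectionVars false
set_option synthInstance.maxHeartbeats 200000

noncomputable section

open scoped MatrixGroups
open Matrix IsLocalRing

namespace FLTAgent.R2.Lv

open FLTAgent.LL FLTAgent.R2.Coh

section General

variable {M : ℕ} [NeZero M] {A : Type*} [CommRing A]

/-- at no prime the composite is the identity -/
theorem jpT_of_k_eq_zero (S : KSet M) (hk : S.k = 0) (G : PUnit.{1} × S.PP → A) :
    S.jpT A PUnit.{1} G = G := by
  classical
  haveI : IsEmpty (Fin S.k) := hk ▸ Fin.isEmpty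
  funext z
  rw [KExt.jpT_apply, Finset.sum_eq_single z]
  · simp [tens]
  · exact fun w _ hw => absurd (Prod.ext (Subsingleton.elim _ _) (Subsingleton.elim _ _)) hw
  · exact fun hz => absurd (Finset.mem_univ _) hz

/-- constant values at no prime -/
def constW (S : KSet M) (hk : S.k = 0) (X : Type*) :
    (X → Lam 0) →ₗ[Lam 0] (X → LinearMap.range (S.jpT (Lam 0) PUnit.{1})) where
  toFun F x := ⟨fun _ => F x, ⟨fun _ => F x, jpT_of_k_eq_zero S hk _⟩⟩
  map_add' _ _ := rfl
  map_smul' _ _ := rfl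

theorem isTwist_constW (S : KSet M) (hk : S.k = 0) (X : Type*)
    [MulAction (GL (Fin 2) (ZMod M)) X] :
    IsTwist (funRep (Lam 0) X (M := M)) (funTensor (S.WRep (Lam 0) PUnit.{1}) X) 1
      (constW S hk X) := fun g F => by
  rw [MonoidHom.one_apply, one_smul]
  rfl

theorem constW_injective (S : KSet M) (hk : S.k = 0) (X : Type*) :
    Function.Injective (constW S hk X) := fun F F' e => funext fun x => by
  haveI : IsEmpty (Fin S.k) := hk ▸ Fin.isEmpty
  exact congrFun (congrArg Subtype.val (congrFun e x)) (PUnit.unit, isEmptyElim)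

/-- a central element fixes the cosets of a subgroup it is in -/
theorem scalar_fix_quotient {G : Type*} [Group G] (H : Subgroup G) (g : G)
    (hc : ∀ y, g * y = y * g) (hg : g ∈ H) (x : G ⧸ H) : g • x = x := by
  induction x using QuotientGroup.induction_on with | H y =>
  rw [MulAction.Quotient.smul_mk, smul_eq_mul, hc, eq_comm, QuotientGroup.eq,
    inv_mul_cancel_left]
  exact hg

theorem pow_one_apply_mem {H : Type*} [AddCommGroup H] [Module A H] (u : Module.End A H) {y : H}
    (hu : u y = 0) (P : Submodule A H) : (u ^ 1) y ∈ P := by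
  rw [pow_one, hu]
  exact zero_mem _

theorem scalar_comm (a : (ZMod M)ˣ) (y : GL (Fin 2) (ZMod M)) :
    Matrix.GeneralLinearGroup.scalar (Fin 2) a * y =
      y * Matrix.GeneralLinearGroup.scalar (Fin 2) a := by
  ext i j
  fin_cases i <;> fin_cases j <;>
    simp [Matrix.GeneralLinearGroup.scalar, Matrix.mul_apply, mul_comm]

theorem scalar_smul_p1 {d : ℕ} (a : (ZMod M)ˣ) (x : P1 M d) :
    Matrix.GeneralLinearGroup.scalar (Fin 2) a • x = x := by
  refine scalar_fix_quotient _ _ (scalar_comm a) ?_ x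
  show (d : ZMod M) ∣ (Matrix.GeneralLinearGroup.scalar (Fin 2) a).1 1 0
  simp [Matrix.GeneralLinearGroup.scalar]

theorem scalar_smul_pq {q : ℕ} [Fact q.Prime] (hq : q ∣ M) (a : (ZMod M)ˣ) (x : Pq hq) :
    Matrix.GeneralLinearGroup.scalar (Fin 2) a • x = x :=
  pq_ext hq (by rw [fstq_smul, scalar_smul_p1]) (by rw [sndq_smul, scalar_smul_p1])

variable {p M' : ℕ} [NeZero M'] (h : Split M p M')

/-- the scalar `p` is one on functions on lines with values in the new module -/
theorem adU_eq_one {d : ℕ} (S : KSet M)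
    (hτ : Fac h (funTensor (S.WRep A PUnit.{1}) (P1 M d))) :
    funTensor (S.WRep A PUnit.{1}) (P1 M d) (adU h ((p : ℤ) • 1)) = 1 := by
  obtain ⟨u, hu⟩ := ZMod.unitsMap_surjective h.dvd'
    (ZMod.unitOfCoprime p h.coprime)
  have e : gl h.dvd' (adU h ((p : ℤ) • 1)) =
      gl h.dvd' (Matrix.GeneralLinearGroup.scalar (Fin 2) u) := by
    rw [(adU_spec h _).1]
    refine Units.ext ?_
    rw [coe_redGL M' (isUnit_det_adjugate (by
      rw [det_smul_one, Int.cast_pow]; exact h.isUnit_cast.pow 2))]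
    have hu' : ZMod.castHom h.dvd' (ZMod M') (u : ZMod M) = (p : ZMod M') := by
      simpa [ZMod.unitsMap_def] using congrArg Units.val hu
    rw [Matrix.adjugate_smul, Matrix.adjugate_one]
    ext i j
    fin_cases i <;> fin_cases j <;>
      simp [gl, Matrix.GeneralLinearGroup.scalar, Matrix.GeneralLinearGroup.map, Matrix.natCast_apply, hu']
  rw [hτ.congr h e]
  refine LinearMap.ext fun F => funext fun x => Subtype.ext (funext fun z => ?_)
  rw [funTensor_apply, inv_smul_eq_iff.2 (scalar_smul_p1 u x).symm, Module.End.one_apply]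
  show (F x).1 _ = (F x).1 z
  refine congrArg _ (inv_smul_eq_iff.2
    (show Matrix.GeneralLinearGroup.scalar (Fin 2) u • z = z from
      Prod.ext rfl (funext fun i => ?_)).symm)
  exact scalar_smul_pq (S.dvd i) u (z.2 i)

end General

variable {W : WeierstrassCurve ℤ} {hW : IsAnchor W} {B : Base W} {N : ℕ} (K : Aux hW B N)
  {M : ℕ} [NeZero M] (hM : K.lev ∣ M)

/-- the first killing primes -/
abbrev pre (m : ℕ) (hm : m ≤ K.k) : KSet M :=
  ⟨m, fun i => K.q (Fin.castLE hm i), fun _ => K.prime _, fun _ => (K.q_dvd_lev _).trans hM⟩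

theorem not_q_dvd_dBad (i : Fin K.k) : ¬ K.q i ∣ dBad W := fun h =>
  K.ndvd i (h.trans (dvd_mul_of_dvd_left (dvd_mul_left _ 2) _))

include hW in
theorem not_two_dvd_dBad : ¬ 2 ∣ dBad W := fun h => by
  obtain ⟨l, hl, hl2⟩ := (Prime.dvd_finsetProd_iff Nat.prime_two.prime _).1 h
  exact ((badOdd_spec hW).1 hl).2.1
    ((Nat.prime_dvd_prime_iff_eq Nat.prime_two ((badOdd_spec hW).1 hl).1).1 hl2).symm

/-- two, or a killing prime not among the first `m` -/
def Later (m p : ℕ) (c : Lam 0) : Prop :=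
  (p = 2 ∧ c = 1) ∨ ∃ i : Fin K.k, m ≤ i.val ∧ p = K.q i ∧ c = 0

theorem Later.not_dvd {m p : ℕ} {c : Lam 0} (hl : Later K m p c) : ¬ p ∣ dBad W := by
  rcases hl with ⟨rfl, -⟩ | ⟨i, -, rfl, -⟩
  exacts [not_two_dvd_dBad (hW := hW), not_q_dvd_dBad K i]

theorem Later.ne {m p : ℕ} {c : Lam 0} (hl : Later K m p c) {hm : m ≤ K.k} (i : Fin m) :
    K.q (Fin.castLE hm i) ≠ p := by
  rcases hl with ⟨rfl, -⟩ | ⟨j, hj, rfl, -⟩
  · exact two_ne_q _
  · intro e
    have h := congrArg Fin.val (K.inj e)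
    have := i.isLt
    simp only [Fin.val_castLE] at h
    omega

theorem Later.mono {m p : ℕ} {c : Lam 0} (hl : Later K (m + 1) p c) : Later K m p c :=
  hl.imp id fun ⟨i, hi, h⟩ => ⟨i, Nat.le_of_succ_le hi, h⟩

section Split

variable {p Mp : ℕ} [NeZero Mp] (h : Split M p Mp) {m : ℕ} (hm : m ≤ K.k)
  (hD : dBad W ∣ M) (hpD : ¬ p ∣ dBad W) (hpq : ∀ i : Fin m, K.q (Fin.castLE hm i) ≠ p)

include hW in
/-- the lines at the bad primes and the pairs at the first killing primes -/
abbrev pairPre : PairData Mp where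
  N1 := dBad W
  dvd1 := dvd_of_split h hD hpD
  k := m
  q i := K.q (Fin.castLE hm i)
  prime _ := K.prime _
  inj := K.inj.comp (Fin.castLE_injective hm)
  dvd i := prime_dvd_of_split h (K.prime _) ((pre K hM m hm).dvd i) (hpq i)
  ndvd _ := not_q_dvd_dBad K _
  three := exists_bad_three (hW := hW)

/-- values on pairs as functions of lines and pairs -/
def iotaPre : (P1 M (dBad W) → LinearMap.range ((pre K hM m hm).jpT (Lam 0) PUnit.{1})) →ₗ[Lam 0]
    ((pairPre K hM h hm hD hpD hpq).Z h → Lam 0) where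
  toFun F z := (F z.1).1 (PUnit.unit, z.2)
  map_add' _ _ := rfl
  map_smul' _ _ := rfl

theorem isTwist_iotaPre :
    IsTwist (funTensor ((pre K hM m hm).WRep (Lam 0) PUnit.{1}) (P1 M (dBad W)))
      (funRep (Lam 0) ((pairPre K hM h hm hD hpD hpq).Z h) (M := M)) 1
      (iotaPre K hM h hm hD hpD hpq) := fun g F => by
  rw [MonoidHom.one_apply, one_smul]
  rfl

theorem iotaPre_injective : Function.Injective (iotaPre K hM h hm hD hpD hpq) := fun _ _ e =>
  funext fun x => Subtype.ext (funext fun w => congrFun e (x, w.2))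

include hpD hpq hD in
theorem fac_pre (A : Type*) [CommRing A] :
    Fac h (funTensor ((pre K hM m hm).WRep A PUnit.{1}) (P1 M (dBad W))) :=
  fac_tau h A (pre K hM m hm) (dvd_of_split h hD hpD)
    fun i => prime_dvd_of_split h (K.prime _) ((pre K hM m hm).dvd i) (hpq i)

include hpD hpq hD in
/-- the two pull backs meet trivially -/
theorem pull_injective (d : SysData hW M)
    (hτ : Fac h (funTensor ((pre K hM m hm).WRep (Lam 0) PUnit.{1}) (P1 M (dBad W))))
    {y₁ y₂ : H1 (funTensor ((pre K hM m hm).WRep (Lam 0) PUnit.{1}) (P1 M (dBad W)))}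
    (h₁ : y₁ ∈ (d.sys (Lam 0)).E (funTensor ((pre K hM m hm).WRep (Lam 0) PUnit.{1}) (P1 M (dBad W))))
    (h₂ : y₂ ∈ (d.sys (Lam 0)).E (funTensor ((pre K hM m hm).WRep (Lam 0) PUnit.{1}) (P1 M (dBad W))))
    (h0 : LL.map (isTwist_pullPt (p := p)
          (funTensor ((pre K hM m hm).WRep (Lam 0) PUnit.{1}) (P1 M (dBad W)))) y₁ +
      Wp h _ hτ (LL.map (isTwist_pullPt (p := p)
          (funTensor ((pre K hM m hm).WRep (Lam 0) PUnit.{1}) (P1 M (dBad W)))) y₂) = 0) :
    y₁ = 0 ∧ y₂ = 0 :=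
  pair_injective (pairPre K hM h hm hD hpD hpq) h (d.sys (Lam 0)) (oddAtOne_sys d) hτ
    (isTwist_iotaPre K hM h hm hD hpD hpq) (iotaPre_injective K hM h hm hD hpD hpq) h₁ h₂ h0

end Split

section Residual

variable (hsq : Squarefree M) (d : SysData hW M) (hd : SysGood d)

set_option maxHeartbeats 2000000 in
include hsq hd in
/-- residual classes with values in the new module at the first killing primes -/
theorem exists_residual (m : ℕ) (hm : m ≤ K.k) :
    ∃ x ∈ (d.sys (Lam 0)).E (funTensor ((pre K hM m hm).WRep (Lam 0) PUnit.{1}) (P1 M (dBad W))),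
      x ≠ 0 ∧ ∀ (p Mp : ℕ) [NeZero Mp] (hp : Split M p Mp) (c : Lam 0), Later K m p c →
        ∀ f : Fac hp (funTensor ((pre K hM m hm).WRep (Lam 0) PUnit.{1}) (P1 M (dBad W))),
          Tp hp _ f x = c • x := by
  have hD : dBad W ∣ M := dBad_dvd.trans hM
  induction m with
  | zero =>
    haveI : NeZero (dBad W) := ⟨fun e => NeZero.ne M (Nat.eq_zero_of_zero_dvd (e ▸ hD))⟩
    obtain ⟨L, v, ⟨γ, hγ⟩, hv⟩ := exists_lattice_eigen (D := dBad W) hW rfl
    obtain ⟨y, hy, hT⟩ := exists_isRedClass hD L v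
    have hl0 : ¬ d.l0 ∣ M := (d.sys (Lam 0)).not_dvd_l0
    have heta : (d.sys (Lam 0)).eta (funRep (Lam 0) (P1 M (dBad W)) (M := M)) y = y := by
      have e := hT d.l0 d.prime hl0 _ (hv d.l0 d.prime fun h => hl0 (h.trans hD))
      show T (funRep (Lam 0) (P1 M (dBad W)) (M := M)) d.prime hl0 y -
        ((1 + d.l0 : ℕ) : Lam 0) • y = y
      rw [e, resEig, if_neg (not_or.2 ⟨hd.l0_ne, fun h => hl0 (h.trans hD)⟩), Nat.add_comm 1 d.l0,
        cast_succ_eq_zero d.prime hd.l0_ne, zero_smul, sub_zero,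
        show ((W.apOfModel d.l0 : ℤ) : Lam 0) = 1 from ZMod.intCast_eq_one_iff_odd.2 d.odd_ap,
        one_smul]
    have hyE : y ∈ (d.sys (Lam 0)).E (funRep (Lam 0) (P1 M (dBad W)) (M := M)) := by
      rw [Sys.mem_E_iff]
      refine ⟨?_, fun l hl hlM hb n => ⟨1, ?_⟩⟩
      · refine (Submodule.mem_iInf _).2 fun k => ⟨y, ?_⟩
        induction k with
        | zero => rfl
        | succ k ih =>
          rw [pow_succ ((d.sys (Lam 0)).eta (funRep (Lam 0) (P1 M (dBad W)) (M := M))),
            Module.End.mul_apply, heta, ih]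
      · have hlD : ¬ l ∣ dBad W := fun h => hlM (h.trans hD)
        have hl2 : l ≠ 2 := fun h => hb (Or.inl h)
        have e := hT l hl hlM _ (hv l hl hlD)
        rw [resEig, if_neg (not_or.2 ⟨hl2, hlD⟩)] at e
        refine pow_one_apply_mem _ ?_ _
        rw [LinearMap.sub_apply, LinearMap.smul_apply, Module.End.one_apply, e,
          show (d.sys (Lam 0)).eig l = ((W.apOfModel l : ℤ) : Lam 0) from rfl, sub_self]
    have hne : y ≠ 0 := fun h => hγ (by rw [← hy γ, h, map_zero, AddMonoidHom.zero_apply])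
    refine ⟨LL.map (isTwist_constW (pre K hM 0 hm) rfl (P1 M (dBad W))) y,
      (d.sys (Lam 0)).map_mem_E _ (fun _ => by simp) hyE,
      fun h => hne ((d.sys (Lam 0)).eq_zero_of_map_eq_zero _ (constW_injective _ rfl _) hyE h),
      fun p Mp _ hp c hl f => ?_⟩
    have hpD : ¬ p ∣ dBad W := hl.not_dvd K
    have hDp : dBad W ∣ Mp := dvd_of_split hp hD hpD
    have f0 : Fac hp (funRep (Lam 0) (P1 M (dBad W)) (M := M)) := fun g hg =>
      LinearMap.ext fun F => funext fun x => by
        rw [funRep_apply, Module.End.one_apply,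
          inv_smul_eq_iff.2 (smul_p1_of_gl_one hp.dvd' hDp hg x).symm]
    rw [← Tp_natural hp f0 f, IsRedClass.Tp_eq hp hDp L hy (hv p hp.prime hpD) f0, map_smul]
    refine congrArg (· • _) ?_
    rcases hl with ⟨rfl, rfl⟩ | ⟨i, -, rfl, rfl⟩
    · simp [resEig]
    · exact resEig_q K i
  | succ m ih =>
    obtain ⟨x, hx, hne, heig⟩ := ih (Nat.le_of_succ_le hm)
    let Q : Fin (m + 1) → ℕ := fun i => K.q (Fin.castLE hm i)
    have hQd : ∀ i, Q i ∣ M := (pre K hM (m + 1) hm).dvd
    haveI : ∀ i, Fact (Q i).Prime := fun i => ⟨K.prime _⟩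
    have hcong : ∀ i, ((Q i + 1 : ℕ) : Lam 0) = 0 := fun i =>
      cast_succ_eq_zero (K.prime _) (two_ne_q _)
    have hl : Later K m (Q (Fin.last m)) 0 :=
      Or.inr ⟨Fin.castLE hm (Fin.last m), le_rfl, rfl, rfl⟩
    have hsp : Split M (Q (Fin.last m)) (M / Q (Fin.last m)) :=
      split_of_squarefree hsq (K.prime _) (hQd _)
    haveI : NeZero (M / Q (Fin.last m)) :=
      ⟨fun e => NeZero.ne M (by rw [hsp.eq, e, mul_zero])⟩
    have hτ := fac_pre K hM hsp (Nat.le_of_succ_le hm) hD (hl.not_dvd K) (hl.ne K) (Lam 0)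
    obtain ⟨x', hx', hne', heig'⟩ := exists_step Q hQd (P1 M (dBad W)) (d.sys (Lam 0)) hsp hτ
      hcong hx hne ((heig _ _ hsp 0 hl hτ).trans (zero_smul _ _))
      fun y₁ y₂ h₁ h₂ h0 => (pull_injective K hM hsp (Nat.le_of_succ_le hm) hD (hl.not_dvd K)
        (hl.ne K) d hτ h₁ h₂ h0).2
    refine ⟨x', hx', hne', fun p Mp _ hp c hlp f => heig' p Mp hp ?_
      (fac_pre K hM hp (Nat.le_of_succ_le hm) hD (hlp.not_dvd K) (hlp.mono K |>.ne K) (Lam 0)) f
      (fac_full hp (Lam 0) (pre K hM (m + 1) hm) (dvd_of_split hp hD (hlp.not_dvd K))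
        fun i => prime_dvd_of_split hp (K.prime _) (hQd i) (hlp.ne K i))
      c (heig p Mp hp c (hlp.mono K) _)⟩
    exact (hlp.ne K (hm := hm) (Fin.last m)).symm

set_option quotPrecheck false in
local notation "τR" =>
  funTensor (KSet.WRep (pre K hM (Aux.k K) le_rfl) (Lam 0) PUnit.{1}) (P1 M (dBad W))

set_option maxHeartbeats 400000 in
include hsq hd in
/-- a residual class killed by both sums at two -/
theorem exists_residual_new {M' : ℕ} [NeZero M'] (h : Split M 2 M')
    (hτ : Fac h (funTensor ((pre K hM K.k le_rfl).WRep (Lam 0) PUnit.{1}) (P1 M (dBad W)))) :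
    ∃ x ∈ newPart h _ hτ (d.sys (Lam 0)), x ≠ 0 := by
  obtain ⟨z, hz, hne, heig⟩ := exists_residual K hM hsq d hd K.k le_rfl
  have hl : Later K K.k 2 1 := Or.inl ⟨rfl, rfl⟩
  have hT : LL.map (isTwist_pushPt (p := 2) (τR)) (Wp h (τR) hτ (LL.map (isTwist_pullPt (p := 2) (τR)) z)) =
      z := (heig 2 M' h 1 hl hτ).trans (one_smul _ _)
  have hpp : LL.map (isTwist_pushPt (p := 2) (τR)) (LL.map (isTwist_pullPt (p := 2) (τR)) z) = z := by
    rw [push_pull h, show ((2 + 1 : ℕ) : Lam 0) = 1 from rfl, one_smul]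
  have hsc : ∀ y, LL.map (isTwist_scalP (p := 2) h (τR) hτ) y = y := fun y => by
    obtain ⟨f, rfl⟩ := Submodule.mkQ_surjective _ y
    refine congrArg (H1.mk (pRep (τR))) (Subtype.ext (funext fun g => funext fun a => ?_))
    show scalP h (τR) (f.1 g) a = f.1 g a
    rw [scalP_apply, adU_eq_one h _ hτ, Module.End.one_apply]
  have hE := (d.sys (Lam 0)).map_mem_E (isTwist_pullPt (p := 2) (τR)) (fun _ => by simp) hz
  refine ⟨LL.map (isTwist_pullPt (p := 2) (τR)) z + Wp h (τR) hτ (LL.map (isTwist_pullPt (p := 2) (τR)) z),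
    ⟨add_mem hE (Wp_mem_E h (τR) hτ _ hE), LinearMap.mem_ker.2 (Prod.ext ?_ ?_)⟩, fun e => hne ?_⟩
  · show LL.map (isTwist_pushPt (p := 2) (τR)) (_ + _) = 0
    rw [_root_.map_add, hpp, hT]
    exact residual_add_self z
  · show LL.map (isTwist_pushPt (p := 2) (τR)) (Wp h (τR) hτ (_ + _)) = 0
    rw [_root_.map_add, _root_.map_add, hT, Wp_Wp, hsc, hpp]
    exact residual_add_self z
  · exact (pull_injective K hM h le_rfl (dBad_dvd.trans hM) (hl.not_dvd K) (hl.ne K) d hτ hz hz e).1

end Residual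

section Lift

/-- reduction to the residual field -/
abbrev redAlg (N : ℕ) : Algebra (Lam N) (Lam 0) :=
  (ZMod.castHom (pow_dvd_pow 2 (Nat.succ_le_succ (Nat.zero_le N))) (Lam 0)).toAlgebra

attribute [local instance] redAlg

theorem algebraMap_res_surjective (N : ℕ) : Function.Surjective (algebraMap (Lam N) (Lam 0)) :=
  ZMod.ringHom_surjective _

/-- multiplication by `2 ^ N` -/
theorem two_pow_val (N : ℕ) (x : Lam N) :
    (if algebraMap (Lam N) (Lam 0) x = 0 then 0 else (2 : Lam N) ^ N) = 2 ^ N * x := by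
  obtain ⟨k, rfl⟩ := ZMod.intCast_surjective x
  rw [map_intCast]
  rcases Int.even_or_odd' k with ⟨t, rfl | rfl⟩
  · rw [if_pos (by push_cast; rw [show (2 : Lam 0) = 0 from rfl, zero_mul]), Int.cast_mul,
      Int.cast_ofNat, ← mul_assoc, ← pow_succ, surj_two_pow_eq_zero, zero_mul]
  · rw [if_neg (by push_cast; rw [show (2 : Lam 0) = 0 from rfl, zero_mul, zero_add]; exact one_ne_zero),
      Int.cast_add, Int.cast_mul, Int.cast_ofNat, Int.cast_one, mul_add, ← mul_assoc, ← pow_succ,
      surj_two_pow_eq_zero, zero_mul, zero_add, mul_one]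

/-- the residual field inside `Lam N` -/
def twoN (N : ℕ) : Lam 0 →ₗ[Lam N] Lam N where
  toFun a := if a = 0 then 0 else (2 : Lam N) ^ N
  map_add' a b := by
    obtain ⟨x, rfl⟩ := algebraMap_res_surjective N a
    obtain ⟨y, rfl⟩ := algebraMap_res_surjective N b
    rw [← _root_.map_add, two_pow_val, two_pow_val, two_pow_val, mul_add]
  map_smul' c a := by
    obtain ⟨x, rfl⟩ := algebraMap_res_surjective N a
    rw [Algebra.smul_def, ← map_mul, two_pow_val, two_pow_val, RingHom.id_apply, smul_eq_mul,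
      mul_left_comm]

theorem twoN_injective (N : ℕ) : Function.Injective (twoN N) := by
  refine (injective_iff_map_eq_zero _).2 fun a ha => ?_
  by_contra h
  refine absurd ((if_neg h).symm.trans ha) fun h2 => ?_
  replace h2 : ((2 ^ N : ℕ) : Lam N) = 0 := by push_cast; exact h2
  replace h2 : 2 ^ (N + 1) ∣ 2 ^ N := (ZMod.natCast_eq_zero_iff _ _).1 h2
  have := Nat.le_of_dvd (pow_pos two_pos N) h2
  rw [pow_succ] at this
  have := pow_pos (two_pos (α := ℕ)) N
  omega

theorem twoN_algebraMap (N : ℕ) (x : Lam N) :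
    twoN N (algebraMap (Lam N) (Lam 0) x) = 2 ^ N * x := two_pow_val N x

theorem funExt_jpT {A A' : Type*} [CommRing A] [CommRing A'] [Algebra A A'] (S : KSet M)
    (F : PUnit.{1} × S.PP → A) :
    funExt A A' (PUnit.{1} × S.PP) (S.jpT A PUnit.{1} F) =
      S.jpT A' PUnit.{1} (funExt A A' (PUnit.{1} × S.PP) F) := by
  classical
  funext x
  show algebraMap A A' (S.jpT A PUnit.{1} F x) =
    S.jpT A' PUnit.{1} (fun z => algebraMap A A' (F z)) x
  rw [KExt.jpT_apply, KExt.jpT_apply, map_sum]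
  refine Finset.sum_congr rfl fun z _ => ?_
  simp only [map_mul, tens, map_prod, KExt.jpK, pK, jK, map_sum, map_sub,
    apply_ite (algebraMap A A'), map_one, map_zero]

theorem twoN_mem (v : LinearMap.range ((pre K hM K.k le_rfl).jpT (Lam 0) PUnit.{1})) :
    (fun z => twoN N (v.1 z)) ∈ WCar K hM := by
  obtain ⟨v, G, rfl⟩ := v
  choose G' hG' using fun z => algebraMap_res_surjective N (G z)
  refine ⟨(2 : Lam N) ^ N • G', (LinearMap.map_smul _ _ _).trans ?_⟩
  funext z
  show _ = twoN N ((pre K hM K.k le_rfl).jpT (Lam 0) PUnit.{1} G z)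
  rw [show G = funExt (Lam N) (Lam 0) _ G' from funext fun w => (hG' w).symm, ← funExt_jpT]
  exact (twoN_algebraMap N _).symm

/-- the residual new module inside the new module -/
def twoW : LinearMap.range ((pre K hM K.k le_rfl).jpT (Lam 0) PUnit.{1}) →ₗ[Lam N] WCar K hM where
  toFun v := ⟨fun z => twoN N (v.1 z), twoN_mem K hM v⟩
  map_add' v w := Subtype.ext (funext fun z => map_add (twoN N) (v.1 z) (w.1 z))
  map_smul' c v := Subtype.ext (funext fun z => map_smul (twoN N) c (v.1 z))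

theorem isTwist_twoW :
    IsTwist (resRep (A := Lam N) ((pre K hM K.k le_rfl).WRep (Lam 0) PUnit.{1})) (tW K hM) 1
      (twoW K hM) := fun g v => by
  rw [MonoidHom.one_apply, one_smul]
  rfl

theorem twoW_injective : Function.Injective (twoW K hM) := fun _ _ e =>
  Subtype.ext (funext fun z => twoN_injective N (congrFun (congrArg Subtype.val e) z))

variable (hsq : Squarefree M) (d : SysData hW M) (hd : SysGood d)

set_option maxHeartbeats 1000000 in
include hsq hd in
/-- a nonzero class killed by both sums at two -/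
theorem exists_new_ne_zero {M' : ℕ} [NeZero M'] (h : Split M 2 M')
    (hτ : Fac h (funTensor (tW K hM) (P1 M (dBad W)))) :
    ∃ y ∈ newPart h _ hτ (d.sys (Lam N)), y ≠ 0 := by
  have hl : Later K K.k 2 1 := Or.inl ⟨rfl, rfl⟩
  set τ₀ := funTensor ((pre K hM K.k le_rfl).WRep (Lam 0) PUnit.{1}) (P1 M (dBad W)) with hτ₀
  have f0 : Fac h τ₀ := fac_pre K hM h le_rfl (dBad_dvd.trans hM) (hl.not_dvd K) (hl.ne K) (Lam 0)
  obtain ⟨x, hx, hne⟩ := exists_residual_new K hM hsq d hd h f0
  rw [mem_newPart] at hx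
  have f1 : Fac h (resRep (A := Lam N) τ₀) := fun g hg =>
    LinearMap.ext fun v => LinearMap.congr_fun (f0 g hg) v
  have hid : IsTwist (resRep (A := Lam N) τ₀) (resRep (A := Lam N) τ₀) 1 LinearMap.id :=
    fun g v => by
      rw [MonoidHom.one_apply, one_smul]
      rfl
  have hid2 : IsTwist (resRep (A := Lam N) (pRep (p := 2) τ₀))
      (pRep (p := 2) (resRep (A := Lam N) τ₀)) 1 LinearMap.id := fun g v => by
    rw [MonoidHom.one_apply, one_smul]
    rfl
  have hx1 : (resH (A := Lam N) (pRep (p := 2) τ₀)).symm x ∈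
      (d.sys (Lam N)).E (resRep (A := Lam N) (pRep (p := 2) τ₀)) := by
    refine mem_E_of_resH _ (algebraMap_res_surjective N) _ ?_
    rw [LinearEquiv.apply_symm_apply, d.sysMap_sys (Lam N) (Lam 0)]
    exact hx.1
  set x1 := LL.map hid2 ((resH (A := Lam N) (pRep (p := 2) τ₀)).symm x)
  have hx1E : x1 ∈ (d.sys (Lam N)).E (pRep (p := 2) (resRep (A := Lam N) τ₀)) :=
    (d.sys (Lam N)).map_mem_E hid2 (fun _ => by simp) hx1
  have hext : extH (pRep (p := 2) τ₀) (isTwist_resTop (p := 2) hid) x1 = x := by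
    suffices ∀ z : H1 (resRep (A := Lam N) (pRep (p := 2) τ₀)),
        extH (pRep (p := 2) τ₀) (isTwist_resTop (p := 2) hid) (LL.map hid2 z) =
          resH (A := Lam N) (pRep (p := 2) τ₀) z from
      (this _).trans (LinearEquiv.apply_symm_apply _ x)
    intro z
    obtain ⟨f, rfl⟩ := Submodule.mkQ_surjective _ z
    rfl
  have hdeg : degP h (resRep (A := Lam N) τ₀) f1 x1 = 0 := by
    have e := degP_extH h hid f1 f0 x1
    rw [hext, hx.2, eq_comm, Prod.mk_eq_zero] at e
    have hinj : ∀ a, extH τ₀ hid a = 0 → a = 0 := fun a ha =>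
      (injective_iff_map_eq_zero _).1 (extH_injective τ₀ hid hid fun _ => rfl) a ha
    exact Prod.ext (hinj _ e.1) (hinj _ e.2)
  have hT : IsTwist (resRep (A := Lam N) τ₀) (funTensor (tW K hM) (P1 M (dBad W))) 1
      ((twoW K hM).compLeft (P1 M (dBad W))) := fun g F => by
    rw [MonoidHom.one_apply, one_smul]
    funext y
    have e := isTwist_twoW K hM g (F (g⁻¹ • y))
    rw [MonoidHom.one_apply, one_smul] at e
    exact e
  refine ⟨LL.map (isTwist_postcomp _ hT) x1, (mem_newPart _ _ _).2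
    ⟨(d.sys (Lam N)).map_mem_E _ (fun _ => by simp) hx1E, ?_⟩, fun e => hne ?_⟩
  · rw [degP_natural h f1 hτ hT, hdeg, Prod.fst_zero, Prod.snd_zero, map_zero]
    rfl
  · rw [← hext, (d.sys (Lam N)).eq_zero_of_map_eq_zero (isTwist_postcomp _ hT)
      (fun F F' e' => funext fun a => funext fun y =>
        twoW_injective K hM (congrFun (congrFun e' a) y)) hx1E e, map_zero]

end Lift

end FLTAgent.R2.Lv

end
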