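import Fermat.Agent.R2.LevelSurjKer

/-!
Area R2, parcel G5: surjectivity of the two sums at two and lifting of classes to the two-adic
integers.

The residual surjectivity on functions on lines and pairs of lines is `deg_surjective`; it passes to
quotient coefficients, up along the diamonds and, by Nakayama, to `ℤ₂` and `Lam N`.
-/

set_option autoImplicit false
set_option linter.style.haveILetI false
set_option linter.unusedSectionVars false
set_option synthInstance.maxHeartbeats 200000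

noncomputable section

open scoped MatrixGroups
open Matrix IsLocalRing

namespace FLTAgent.R2.Lv

open FLTAgent.LL FLTAgent.R2.Coh

variable {W : WeierstrassCurve ℤ} {hW : IsAnchor W} {B : Base W} {N : ℕ} {K : Aux hW B N}
  {M r : ℕ} [NeZero M] {D0 : AuxData M r} {M' : ℕ} [NeZero M'] (T : XData K D0 M')
  (d : SysData hW M) (hd : SysGood d)

include T in
theorem neg_one_lines (z : PUnit.{1} × (kset K T.hM).YY) : red M (-1) • z = z :=
  Prod.ext rfl (funext fun i => P1.red_neg_one_smul (z.2 i))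

include T in
theorem neg_one_pairs (z : PUnit.{1} × (kset K T.hM).PP) : red M (-1) • z = z :=
  (kset K T.hM).neg_one_smul PUnit.{1} (fun _ => rfl) z

/-- residual surjectivity on functions on lines at the killing primes, with the diamonds -/
theorem surj_residual_X :
    Surj T.split (funTensor (tY K T.hM (Lam 0)) D0.X) (T.facX T.facTY) (d.sys (Lam 0)) := by
  obtain ⟨n, hn⟩ := T.exists_pow_del
  refine Surj.of_diaData T.split (T.diaX (neg_one_tY K T.hM (Lam 0))) (hτ₀ := T.facY T.facTY) ?_ _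
    (funTensor_neg_one (neg_one_tY K T.hM (Lam 0)) T.neg_one_X) (surj_three_lam 0) Nat.prime_two
    ⟨1, ?_⟩ hn
  · exact T.surj_residual_Y (fun i => fstq ((kset K T.hM).dvd i))
      (fun i => fstq_smul ((kset K T.hM).dvd i)) (fun i => fstq_surjective _) d
      (fun i z => P1.red_neg_one_smul z) _
  · rw [pow_one]
    exact ZMod.natCast_self (2 ^ (0 + 1))

/-- surjectivity over the two-adic integers on functions on lines at the killing primes -/
theorem surj_X_Z2 : Surj T.split (funTensor (tY K T.hM Z2) D0.X) (T.facX T.facTY) (d.sys Z2) :=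
  surj_Z2_of_residual D0.X (PUnit.{1} × (kset K T.hM).YY) T.split d T.neg_one_X T.S_smul_ne_X
    (neg_one_lines T) (T.facX T.facTY) (surj_residual_X T d)

/-- surjectivity on functions on lines at the killing primes -/
theorem surj_X_lam :
    Surj T.split (funTensor (tY K T.hM (Lam N)) D0.X) (T.facX T.facTY) (d.sys (Lam N)) :=
  surj_lam_of_Z2 D0.X (PUnit.{1} × (kset K T.hM).YY) T.split d T.neg_one_X T.S_smul_ne_X
    (neg_one_lines T) (T.facX T.facTY) (surj_X_Z2 T d)

/-- surjectivity below the diamonds on functions on pairs at the killing primes -/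
theorem surj_Y_tP :
    Surj T.split (funTensor (tP K T.hM (Lam N)) D0.tw.Y) (T.facY T.facTP) (d.sys (Lam N)) :=
  surj_lam_of_Z2 D0.tw.Y (PUnit.{1} × (kset K T.hM).PP) T.split d T.neg_one_Y T.S_smul_ne
    (neg_one_pairs T) (T.facY T.facTP)
    (surj_Z2_of_residual D0.tw.Y (PUnit.{1} × (kset K T.hM).PP) T.split d T.neg_one_Y T.S_smul_ne
      (neg_one_pairs T) (hf0 := T.facY T.facTP) (T.facY T.facTP)
      (T.surj_residual_Y (fun _ => id) (fun _ _ _ => rfl) (fun _ => Function.surjective_id) d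
        (fun i z => pq_ext _ (by simp only [fstq_smul, P1.red_neg_one_smul])
          (by simp only [sndq_smul, P1.red_neg_one_smul])) (T.facY T.facTP)))

include hd in
/-- the two sums at two are surjective on the new coefficients below the diamonds -/
theorem surj_Y_tW :
    Surj T.split (funTensor (tW K T.hM) D0.tw.Y) (T.facY T.facTW) (d.sys (Lam N)) := by
  refine Surj.of_surjective T.split (surj_Y_tP T d) _
    (funTensor_neg_one (neg_one_tP K T.hM (Lam N)) T.neg_one_Y) (surj_three_lam N)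
    (isTwist_compLeft (tP K T.hM (Lam N))
      (isTwist_rangeRestrict ((kset K T.hM).isTwist_jpT (Lam N) PUnit.{1})) (X := D0.tw.Y))
    (fun G => ?_) (sFree_funTensor (neg_one_tW K T.hM) T.neg_one_Y T.S_smul_ne)
  choose F hF using fun y => LinearMap.surjective_rangeRestrict
    ((kset K T.hM).jpT (Lam N) PUnit.{1}) (G y)
  exact ⟨F, funext hF⟩

include hd in
/-- the part below the diamonds is free -/
theorem free_Y :
    Module.Free (Lam N) ((d.sys (Lam N)).E (funTensor (tW K T.hM) D0.tw.Y)) ∧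
      Module.Free (Lam N) ((d.sys (Lam N)).E (pRep (p := 2) (funTensor (tW K T.hM) D0.tw.Y))) := by
  have hfree : SFree (funTensor (tW K T.hM) D0.tw.Y) :=
    sFree_funTensor (neg_one_tW K T.hM) T.neg_one_Y T.S_smul_ne
  have hneg := funTensor_neg_one (neg_one_tW K T.hM) T.neg_one_Y
  have hW : ∀ j, j ≤ N + 1 → ∀ v : WCar K T.hM, (2 : Lam N) ^ j • v = 0 →
      ∃ w, (2 : Lam N) ^ (N + 1 - j) • w = v := fun j hj v hv =>
    ((kset K T.hM).smul_eq_zero_iff (Lam N) PUnit.{1} (kset_cong K T.hM) _ _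
      (fun x => ⟨fun hx => ?_, ?_⟩) v).1 hv
  · refine ⟨E_free _ hneg (surj_three_lam N) hfree (surj_maximalIdeal_lam N)
        (surj_two_pow_eq_zero N) (fun j hj v hv => ?_),
      E_free _ (pRep_neg_one hneg) (surj_three_lam N) (sFree_pRep hfree) (surj_maximalIdeal_lam N)
        (surj_two_pow_eq_zero N) (fun j hj v hv => ?_)⟩
    · choose w hw using fun y => hW j hj (v y) (congrFun hv y)
      exact ⟨w, funext hw⟩
    · choose w hw using fun a y => hW j hj (v a y) (congrFun (congrFun hv a) y)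
      exact ⟨w, funext fun a => funext (hw a)⟩
  · obtain ⟨z, rfl⟩ := algebraMap_surjective N x
    rw [← map_ofNat (algebraMap Z2 (Lam N)) 2, ← map_pow, ← map_mul,
      algebraMap_lam_eq_zero_iff] at hx
    obtain ⟨c, hc⟩ := hx
    refine ⟨algebraMap Z2 (Lam N) c, ?_⟩
    rw [← map_ofNat (algebraMap Z2 (Lam N)) 2, ← map_pow, ← map_mul]
    refine congrArg _ (mul_left_cancel₀ (pow_ne_zero j two_ne_zero) ?_)
    rw [hc, ← mul_assoc, ← pow_add, Nat.add_sub_cancel' hj]
  · rintro ⟨y, rfl⟩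
    rw [← mul_assoc, ← pow_add, Nat.add_sub_cancel' hj, surj_two_pow_eq_zero, zero_mul]

include hd in
/-- classes lift to images of classes on pairs of lines -/
theorem exists_pLift {x : H1 (pRep (p := 2) (funTensor (tW K T.hM) D0.X))}
    (hx : x ∈ (d.sys (Lam N)).E (pRep (p := 2) (funTensor (tW K T.hM) D0.X))) :
    ∃ w ∈ (d.sys Z2).E (pRep (p := 2) (funTensor (tP K T.hM Z2) D0.X)),
      redJ K T.hM 2 D0.X (LL.map (isTwist_pTop K T.hM 2 D0.X) w) = incW K T.hM 2 D0.X x := by
  classical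
  set S := kset K T.hM
  set σ := pRep (p := 2) (funTensor (tW K T.hM) D0.X)
  let φ : (PUnit.{1} × S.PP → Z2) →ₗ[Z2] WCar K T.hM :=
    (S.jpT (Lam N) PUnit.{1}).rangeRestrict.restrictScalars Z2 ∘ₗ
      funExt Z2 (Lam N) (PUnit.{1} × S.PP)
  have hΦ : IsTwist (pRep (p := 2) (funTensor (tP K T.hM Z2) D0.X)) (resRep (A := Z2) σ) 1
      ((φ.compLeft D0.X).compLeft (P1 M 2)) := fun g F => by
    rw [MonoidHom.one_apply, one_smul]
    funext a y
    have h2 := isTwist_rangeRestrict (S.isTwist_jpT (Lam N) PUnit.{1}) g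
      (funExt Z2 (Lam N) (PUnit.{1} × S.PP) (F (g⁻¹ • a) (g⁻¹ • y)))
    rw [MonoidHom.one_apply, one_smul] at h2
    exact h2
  have hs : Function.Surjective ((φ.compLeft D0.X).compLeft (P1 M 2)) := fun G => by
    choose F hF using fun a y =>
      LinearMap.surjective_rangeRestrict (S.jpT (Lam N) PUnit.{1}) (G a y)
    choose F' hF' using fun a y z => algebraMap_surjective N (F a y z)
    refine ⟨F', funext fun a => funext fun y => ?_⟩
    exact (congrArg _ (funext (hF' a y))).trans (hF a y)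
  rw [← d.sysMap_sys Z2 (Lam N)] at hx
  obtain ⟨w, hw, e⟩ := exists_mem_E_extH_eq σ hΦ (algebraMap_surjective N) (d.sys Z2)
    (pRep_neg_one (funTensor_neg_one (neg_one_tP K T.hM Z2) T.neg_one_X)) surj_three_Z2 hs
    (sFree_pRep (sFree_funTensor (neg_one_tW K T.hM) T.neg_one_X T.S_smul_ne_X)) hx
  refine ⟨w, hw, ?_⟩
  rw [← e]
  have hinc : IsTwist σ (pRep (p := 2) (funTensor (tP K T.hM (Lam N)) D0.X)) 1
      (((WCar K T.hM).subtype.compLeft D0.X).compLeft (P1 M 2)) :=
    isTwist_postcomp _ (isTwist_compLeft (tW K T.hM) (isTwist_incW K T.hM))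
  have hΘ : IsTwist (pRep (p := 2) (funTensor (tP K T.hM Z2) D0.X))
      (resRep (A := Z2) (pRep (p := 2) (funTensor (tP K T.hM (Lam N)) D0.X))) 1
      ((((redJVal K T.hM).compLeft D0.X).compLeft (P1 M 2)) ∘ₗ
        (((S.pT Z2 PUnit.{1}).compLeft D0.X).compLeft (P1 M 2))) := by
    simpa using (isTwist_pTop K T.hM 2 D0.X).comp (isTwist_redJTop K T.hM 2 D0.X)
  refine (extH_map_eq (isTwist_pTop K T.hM 2 D0.X) (isTwist_redJTop K T.hM 2 D0.X) hΘ
    (fun _ => rfl) w).trans (map_extH_eq hΦ hinc hΘ (fun F => funext fun a => funext fun y => ?_) w).symm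
  exact congrArg (S.jT (Lam N) PUnit.{1}) (S.funExt_pT Z2 PUnit.{1} (A' := Lam N) (F a y)).symm

set_option maxHeartbeats 1000000 in
include hd in
/-- classes killed by both sums lift to classes killed by both sums -/
theorem exists_lift_new {x : H1 (pRep (p := 2) (funTensor (tW K T.hM) D0.X))}
    (hx : x ∈ newPart T.split (funTensor (tW K T.hM) D0.X) (T.facX T.facTW) (d.sys (Lam N))) :
    ∃ z ∈ newPart T.split (funTensor (tY K T.hM Z2) D0.X) (T.facX T.facTY) (d.sys Z2),
      redJ K T.hM 2 D0.X z = incW K T.hM 2 D0.X x := by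
  classical
  set S := kset K T.hM
  rw [mem_newPart] at hx
  obtain ⟨w, hw, ew⟩ := exists_pLift T d hd hx.1
  set τ2 := funTensor (tY K T.hM Z2) D0.X
  set τN := funTensor (tY K T.hM (Lam N)) D0.X
  set z0 := LL.map (isTwist_pTop K T.hM 2 D0.X) w
  have hz0 : z0 ∈ (d.sys Z2).E (pRep (p := 2) τ2) :=
    (d.sys Z2).map_mem_E _ (fun _ => by simp) hw
  have hR : IsTwist τ2 (resRep (A := Z2) τN) 1
      ((funExt Z2 (Lam N) (PUnit.{1} × S.YY)).compLeft D0.X) :=
    isTwist_redFun Z2 (Lam N) D0.X (PUnit.{1} × S.YY)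
  have hJN : IsTwist τN (funTensor (tP K T.hM (Lam N)) D0.X) 1
      ((S.jT (Lam N) PUnit.{1}).compLeft D0.X) :=
    isTwist_compLeft (tY K T.hM (Lam N)) (S.isTwist_jT (Lam N) PUnit.{1})
  have hJ : IsTwist τ2 (resRep (A := Z2) (funTensor (tP K T.hM (Lam N)) D0.X)) 1
      ((redJVal K T.hM).compLeft D0.X) := fun g F => by
    rw [MonoidHom.one_apply, one_smul]
    funext y
    have h2 := isTwist_redJVal K T.hM g (F (g⁻¹ • y))
    rw [MonoidHom.one_apply, one_smul] at h2
    exact h2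
  have hfP := T.facX (T.facTP (A := Lam N))
  have hdeg : ∀ z, degP T.split (funTensor (tP K T.hM (Lam N)) D0.X) hfP (redJ K T.hM 2 D0.X z) =
      (extH _ hJ (degP T.split τ2 (T.facX T.facTY) z).1,
        extH _ hJ (degP T.split τ2 (T.facX T.facTY) z).2) :=
    fun z => degP_extH T.split hJ (T.facX T.facTY) hfP z
  have h0 : degP T.split (funTensor (tP K T.hM (Lam N)) D0.X) hfP (incW K T.hM 2 D0.X x) = 0 := by
    refine (degP_natural T.split (T.facX T.facTW) hfP
      (isTwist_compLeft (tW K T.hM) (isTwist_incW K T.hM)) x).trans ?_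
    rw [hx.2, Prod.fst_zero, Prod.snd_zero, map_zero]
    rfl
  have hzero := hdeg z0
  rw [ew, h0, eq_comm, Prod.mk_eq_zero] at hzero
  have hd0 := degP_mem_E T.split (T.facX T.facTY) (d.sys Z2) hz0
  have hone : ∀ u, u ∈ (d.sys Z2).E τ2 → extH _ hJ u = 0 →
      ∃ a' : Fin S.k → H1 τN, (∀ i, a' i ∈ (d.sys (Lam N)).E τN) ∧
        ∑ i, LL.map (isTwist_compLeft (tY K T.hM (Lam N))
          (S.isTwist_offEnd (Lam N) PUnit.{1} i) (X := D0.X)) (a' i) = extH τN hR u := by
    intro u hu hu0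
    haveI : IsLocalHom (algebraMap Z2 (Lam N)) := (algebraMap_surjective N).isLocalHom _
    refine S.exists_offEnd_of_map_jT_eq_zero (Lam N) PUnit.{1} (d.sys (Lam N)) T.neg_one_X
      T.S_smul_ne_X (fun _ => rfl) (surj_three_lam N) ?_ ?_
    · rw [← d.sysMap_sys Z2 (Lam N)]
      exact extH_mem_E τN hR (d.sys Z2) hu
    · rw [← hu0]
      exact map_extH_eq hR hJN hJ (fun _ => rfl) u
  obtain ⟨a', ha', ea⟩ := hone _ hd0.1 hzero.1
  obtain ⟨b', hb', eb⟩ := hone _ hd0.2 hzero.2
  choose y hy hyd using fun i => surj_X_lam T d (a' i) (ha' i) (b' i) (hb' i)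
  have hO : ∀ i, IsTwist τN τN 1 ((S.offEnd (Lam N) PUnit.{1} i).compLeft D0.X) := fun i =>
    isTwist_compLeft (tY K T.hM (Lam N)) (S.isTwist_offEnd (Lam N) PUnit.{1} i)
  set yy := ∑ i, LL.map (isTwist_postcomp τN (hO i) (p := 2)) (y i)
  have hyy : yy ∈ (d.sys (Lam N)).E (pRep (p := 2) τN) :=
    Submodule.sum_mem _ fun i _ => (d.sys (Lam N)).map_mem_E _ (fun _ => by simp) (hy i)
  have hyyd : degP T.split τN (T.facX T.facTY) yy =
      (extH τN hR (degP T.split τ2 (T.facX T.facTY) z0).1,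
        extH τN hR (degP T.split τ2 (T.facX T.facTY) z0).2) := by
    rw [← ea, ← eb, map_sum]
    refine Eq.trans (Finset.sum_congr rfl fun i _ => ?_) (prod_mk_sum _ _ _).symm
    rw [degP_natural T.split (T.facX T.facTY) (T.facX T.facTY) (hO i), hyd]
  have hsR : Function.Surjective ((funExt Z2 (Lam N) (PUnit.{1} × S.YY)).compLeft D0.X) :=
    redFun_surjective Z2 (Lam N) D0.X (PUnit.{1} × S.YY) (algebraMap_surjective N)
  have hneg2 : τ2 (red M (-1)) = 1 := funTensor_neg_one (neg_one_tY K T.hM Z2) T.neg_one_X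
  rw [← d.sysMap_sys Z2 (Lam N)] at hyy
  obtain ⟨yl, hyl, eyl⟩ := exists_mem_E_extH_eq (pRep (p := 2) τN)
    (isTwist_resTop (p := 2) hR) (algebraMap_surjective N) (d.sys Z2) (pRep_neg_one hneg2)
    surj_three_Z2 (fun G => by
      choose F hF using fun a => hsR (G a)
      exact ⟨F, funext hF⟩)
    (sFree_pRep (sFree_funTensor (neg_one_tY K T.hM (Lam N)) T.neg_one_X T.S_smul_ne_X)) hyy
  have hd1 := degP_mem_E T.split (T.facX T.facTY) (d.sys Z2) hyl
  have e2 := degP_extH T.split hR (T.facX T.facTY) (T.facX T.facTY) yl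
  rw [eyl, hyyd, Prod.mk.injEq] at e2
  obtain ⟨a2, ha2, ea2⟩ := exists_smul_eq_of_extH_eq_zero hR (d.sys Z2) hsR
    (fun v => redFun_eq_zero_iff D0.X (PUnit.{1} × S.YY) v)
    (redFun_torsionFree D0.X (PUnit.{1} × S.YY) _) (sub_mem hd0.1 hd1.1)
    (by rw [map_sub, e2.1, sub_self])
  obtain ⟨b2, hb2, eb2⟩ := exists_smul_eq_of_extH_eq_zero hR (d.sys Z2) hsR
    (fun v => redFun_eq_zero_iff D0.X (PUnit.{1} × S.YY) v)
    (redFun_torsionFree D0.X (PUnit.{1} × S.YY) _) (sub_mem hd0.2 hd1.2)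
    (by rw [map_sub, e2.2, sub_self])
  obtain ⟨c, hc, ec⟩ := surj_X_Z2 T d a2 ha2 b2 hb2
  refine ⟨z0 - yl - (2 : Z2) ^ (N + 1) • c, mem_newPart T.split _ _ |>.2
    ⟨sub_mem (sub_mem hz0 hyl) (Submodule.smul_mem _ _ hc), ?_⟩, ?_⟩
  · rw [map_sub, map_sub, map_smul, ec, Prod.smul_mk, ea2, eb2]
    exact Prod.ext (by simp) (by simp)
  · have hyl0 : redJ K T.hM 2 D0.X yl = 0 := by
      have hJT : IsTwist (pRep (p := 2) τN) (pRep (p := 2) (funTensor (tP K T.hM (Lam N)) D0.X)) 1
          (((S.jT (Lam N) PUnit.{1}).compLeft D0.X).compLeft (P1 M 2)) := isTwist_postcomp τN hJN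
      refine (map_extH_eq (isTwist_resTop (p := 2) hR) hJT (isTwist_redJTop K T.hM 2 D0.X)
        (fun _ => rfl) yl).symm.trans ?_
      rw [eyl, map_sum]
      refine Finset.sum_eq_zero fun i _ => ?_
      have hcomp : IsTwist (pRep (p := 2) τN) (pRep (p := 2) (funTensor (tP K T.hM (Lam N)) D0.X)) 1
          (((S.jT (Lam N) PUnit.{1}).compLeft D0.X).compLeft (P1 M 2) ∘ₗ
            ((S.offEnd (Lam N) PUnit.{1} i).compLeft D0.X).compLeft (P1 M 2)) := by
        simpa using (isTwist_postcomp τN (hO i) (p := 2)).comp hJT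
      rw [map_map_one _ hJT hcomp fun _ => rfl]
      exact map_eq_zero_of hcomp
        (fun F => funext fun a => funext fun y => S.jT_offEnd (Lam N) PUnit.{1} i (F a y)) _
    rw [map_sub, map_sub, map_smul, hyl0, ew, sub_zero, ← algebraMap_smul (Lam N),
      (algebraMap_lam_eq_zero_iff (N := N) _).2 dvd_rfl, zero_smul, sub_zero]

end FLTAgent.R2.Lv

end
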