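import Fermat.Agent.R2.LevelDown
import Fermat.Agent.R2.LevelSurj
import Fermat.Agent.R2.LevelNonzeroTwo

/-!
Area R2, parcel G5: the new part at two of the base is not zero.

The rank at two exceeds twice the rank below: otherwise the two sums, surjective between free
modules, would be injective, against the class of `exists_new_ne_zero`.
-/

set_option autoImplicit false
set_option linter.style.haveILetI false
set_option linter.unusedSectionVars false
set_option synthInstance.maxHeartbeats 200000

noncomputable section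

open scoped MatrixGroups
open Matrix IsLocalRing

namespace FLTAgent.R2.Lv

open FLTAgent.LL FLTAgent.R2.Coh

section Iso

variable {M : ℕ} [NeZero M] {A : Type*} [CommRing A] [IsLocalRing A]
  {V V' : Type*} [AddCommGroup V] [Module A V] [AddCommGroup V'] [Module A V']
  {τ : Representation A (GL (Fin 2) (ZMod M)) V} {τ' : Representation A (GL (Fin 2) (ZMod M)) V'}
  (s : Sys M A) {Φ : V →ₗ[A] V'} {Ψ : V' →ₗ[A] V} (h : IsTwist τ τ' 1 Φ) (h' : IsTwist τ' τ 1 Ψ)
  (e₁ : ∀ v, Ψ (Φ v) = v) (e₂ : ∀ v, Φ (Ψ v) = v)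

include e₁ e₂ h h' in
/-- mutually inverse maps of coefficients give an equivalence of the parts of a system -/
theorem finrank_E_congr : Module.finrank A (s.E τ) = Module.finrank A (s.E τ') :=
  LinearEquiv.finrank_eq <| LinearEquiv.ofLinearMap
    ((LL.map h).restrict fun _ hx => s.map_mem_E h (fun _ => by simp) hx)
    ((LL.map h').restrict fun _ hx => s.map_mem_E h' (fun _ => by simp) hx)
    (LinearMap.ext fun x => Subtype.ext (map_map_cancel h' h e₂ x.1))
    (LinearMap.ext fun x => Subtype.ext (map_map_cancel h h' e₁ x.1))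

end Iso

/-- a surjection between finite free modules of no larger rank is injective -/
theorem injective_of_finrank_le {R P Q : Type*} [CommRing R] [Nontrivial R] [AddCommGroup P]
    [Module R P] [AddCommGroup Q] [Module R Q] [Module.Free R P] [Module.Free R Q]
    [Module.Finite R P] [Module.Finite R Q] {f : P →ₗ[R] Q} (hf : Function.Surjective f)
    (hle : Module.finrank R P ≤ Module.finrank R Q) : Function.Injective f := by
  let e : Q ≃ₗ[R] P := LinearEquiv.ofFinrankEq Q P
    (le_antisymm (LinearMap.finrank_le_finrank_of_surjective hf) hle)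
  have hinj := OrzechProperty.injective_of_surjective_endomorphism (e.toLinearMap ∘ₗ f)
    (e.surjective.comp hf)
  exact fun a b h => hinj (congrArg e h)

variable {W : WeierstrassCurve ℤ} {hW : IsAnchor W} {B : Base W} {N : ℕ}

/-- the level is squarefree -/
theorem squarefree_auxLev (K : Aux hW B N) : Squarefree K.lev := by
  have hs : ∀ l ∈ badOdd W, l.Prime := fun l hl => ((badOdd_spec hW).1 hl).1
  have hD : Squarefree (dBad W) :=
    Finset.squarefree_prod_of_pairwise_isCoprime (fun a ha b hb hab =>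
      Nat.coprime_iff_isRelPrime.mp ((Nat.coprime_primes (hs a ha) (hs b hb)).2 hab))
      fun a ha => (hs a ha).squarefree
  have h2 : Nat.Coprime 2 (dBad W) := Nat.Coprime.prod_right fun l hl =>
    (Nat.coprime_primes Nat.prime_two (hs l hl)).2 ((badOdd_spec hW).1 hl).2.1.symm
  have hr : Nat.Coprime (2 * dBad W) B.r := by
    refine Nat.Coprime.mul_left ((Nat.coprime_primes Nat.prime_two B.prime).2 ?_)
      (Nat.Coprime.prod_left fun l hl => (Nat.coprime_primes (hs l hl) B.prime).2 ?_)
    · have := B.mod24; omega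
    · exact fun h => B.good (h ▸ ((badOdd_spec hW).1 hl).2.2)
  have hB : Squarefree B.lev :=
    (Nat.squarefree_mul hr).2 ⟨(Nat.squarefree_mul h2).2 ⟨Nat.prime_two.squarefree, hD⟩,
      B.prime.squarefree⟩
  refine (Nat.squarefree_mul ?_).2 ⟨hB, ?_⟩
  · exact Nat.Coprime.prod_right fun i _ => (((K.prime i).coprime_iff_not_dvd).2 (K.ndvd i)).symm
  · exact Finset.squarefree_prod_of_pairwise_isCoprime (fun a _ b _ hab =>
      Nat.coprime_iff_isRelPrime.mp ((Nat.coprime_primes (K.prime a) (K.prime b)).2
        fun h => hab (K.inj h))) fun a _ => (K.prime a).squarefree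

/-- the lines at the bad primes at the level -/
def botData (K : Aux hW B N) : AuxData K.lev 0 where
  N0 := dBad W
  dvd0 := dBad_dvd
  Q := Fin.elim0
  prime i := i.elim0
  inj i := i.elim0
  dvd i := i.elim0
  ndvd i := i.elim0
  H i := i.elim0
  neg_mem i := i.elim0

theorem two_dvd_lev (K : Aux hW B N) : 2 ∣ K.lev :=
  dvd_mul_of_dvd_left (dvd_mul_of_dvd_left (dvd_mul_right 2 _) _) _

theorem xData_bot (K : Aux hW B N) : XData K (botData K) (K.lev / 2) where
  hM := dvd_rfl
  sqfree := squarefree_auxLev K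
  split := split_of_squarefree (squarefree_auxLev K) Nat.prime_two (two_dvd_lev K)
  N0_eq := rfl
  N0_three := exists_bad_three (hW := hW)
  q_ndvd := not_q_dvd_dBad K
  q_ne _ j := j.elim0
  q_two := two_ne_q
  Q_two j := j.elim0
  good_Q j := j.elim0
  mod4_Q j := j.elim0
  odd_Q j := j.elim0
  index := ⟨0, fun j => j.elim0⟩

set_option maxHeartbeats 3000000 in
/-- the new part at two of the base is not zero -/
theorem two_mul_rankOne_lt (K : Aux hW B N) (d₀ : SysData hW K.lev) (hd₀ : SysGood d₀) :
    2 * rankOne K dvd_rfl d₀ < rankTwo K dvd_rfl d₀ := by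
  by_contra hle
  push Not at hle
  have T := xData_bot K
  haveI := T.neZero_M'
  have hτ : Fac T.split (funTensor (tW K T.hM) (P1 K.lev (dBad W))) := T.facP T.facTW
  obtain ⟨y, hy, hne⟩ := exists_new_ne_zero K T.hM T.sqfree d₀ hd₀ T.split hτ
  let s := d₀.sys (Lam N)
  let σ := funTensor (tW K T.hM) (botData K).tw.Y
  let π : (botData K).tw.Y → P1 K.lev (dBad W) := fun z => z.1
  let ι : P1 K.lev (dBad W) → (botData K).tw.Y := fun x => (x, fun i => i.elim0)
  have hπ := isTwist_vecPull (τ := tW K T.hM) π fun _ _ => rfl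
  have hι := isTwist_vecPull (τ := tW K T.hM) ι fun _ _ => Prod.ext rfl (funext fun i => i.elim0)
  have e₁ : ∀ F : P1 K.lev (dBad W) → WCar K T.hM,
      vecPull (A := Lam N) ι (vecPull (A := Lam N) π F) = F := fun _ => rfl
  have e₂ : ∀ F : (botData K).tw.Y → WCar K T.hM,
      vecPull (A := Lam N) π (vecPull (A := Lam N) ι F) = F := fun F => funext fun z =>
    congrArg F (Prod.ext rfl (funext fun i => i.elim0))
  have hone : rankOne K T.hM d₀ = Module.finrank (Lam N) (s.E σ) :=
    finrank_E_congr s hπ hι e₁ e₂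
  have htwo : rankTwo K T.hM d₀ = Module.finrank (Lam N) (s.E (pRep (p := 2) σ)) :=
    finrank_E_congr s (isTwist_postcomp _ hπ) (isTwist_postcomp _ hι)
      (fun F => funext fun a => e₁ (F a)) (fun F => funext fun a => e₂ (F a))
  obtain ⟨hf1, hf2⟩ := free_Y T d₀ hd₀
  haveI := H1_finite σ
  haveI := H1_finite (pRep (p := 2) σ)
  haveI : Finite (H1 σ) := Module.finite_of_finite (Lam N)
  haveI : Finite (H1 (pRep (p := 2) σ)) := Module.finite_of_finite (Lam N)
  let f : s.E (pRep (p := 2) σ) →ₗ[Lam N] s.E σ × s.E σ :=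
    (((LinearMap.fst _ _ _).comp (degP T.split σ (T.facY T.facTW))).restrict
      fun _ hx => (degP_mem_E T.split (T.facY T.facTW) s hx).1).prod
    (((LinearMap.snd _ _ _).comp (degP T.split σ (T.facY T.facTW))).restrict
      fun _ hx => (degP_mem_E T.split (T.facY T.facTW) s hx).2)
  have hf : Function.Surjective f := fun ⟨a, b⟩ => by
    obtain ⟨z, hz, e⟩ := surj_Y_tW T d₀ hd₀ a.1 a.2 b.1 b.2
    exact ⟨⟨z, hz⟩, Prod.ext (Subtype.ext (congrArg Prod.fst e))
      (Subtype.ext (congrArg Prod.snd e))⟩
  have hinj := injective_of_finrank_le hf (by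
    rw [Module.finrank_prod, ← hone, ← htwo, ← two_mul]
    exact hle)
  rw [mem_newPart] at hy
  have hyσ : LL.map (isTwist_postcomp _ hπ) y ∈ s.E (pRep (p := 2) σ) :=
    s.map_mem_E _ (fun _ => by simp) hy.1
  have hdeg : degP T.split σ (T.facY T.facTW) (LL.map (isTwist_postcomp _ hπ) y) = 0 := by
    rw [degP_natural T.split hτ (T.facY T.facTW) hπ, hy.2, Prod.fst_zero, Prod.snd_zero, map_zero]
    rfl
  have hz : (⟨_, hyσ⟩ : s.E (pRep (p := 2) σ)) = 0 := hinj (by
    rw [map_zero]
    exact Prod.ext (Subtype.ext (congrArg Prod.fst hdeg))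
      (Subtype.ext (congrArg Prod.snd hdeg)))
  refine hne (s.eq_zero_of_map_eq_zero (isTwist_postcomp _ hπ) ?_ hy.1 (congrArg Subtype.val hz))
  exact fun F F' e => funext fun a => (e₁ (F a)).symm.trans
    ((congrArg (vecPull (A := Lam N) ι) (congrFun e a)).trans (e₁ (F' a)))

end FLTAgent.R2.Lv

end
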