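import Fermat.Agent.R2.LevelCoeff
import Fermat.Agent.R2.LevelIso

/-!
Area R2, parcel G5: one more killing prime in the new coefficient module.

A family of values of the new module at the first primes, indexed by the lines at the last one and of
sum zero, gives under `F ↦ ((a, b) ↦ F a - F b)` a value of the new module at all the primes.
-/

set_option autoImplicit false
set_option linter.style.haveILetI false
set_option linter.unusedSectionVars false

noncomputable section

open scoped MatrixGroups
open Matrix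

namespace FLTAgent.R2.Lv

open FLTAgent.LL FLTAgent.R2.Coh

section Kernel

variable {M : ℕ} {A : Type*} [CommRing A] {V V' : Type*} [AddCommGroup V] [Module A V]
  [AddCommGroup V'] [Module A V'] {ρ : Representation A (GL (Fin 2) (ZMod M)) V}
  {ρ' : Representation A (GL (Fin 2) (ZMod M)) V'} {Φ : V →ₗ[A] V'}

/-- the representation on the kernel of an equivariant map -/
def subKerRep (h : IsTwist ρ ρ' 1 Φ) :
    Representation A (GL (Fin 2) (ZMod M)) (LinearMap.ker Φ) where
  toFun g := (ρ g).restrict fun v hv => by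
    rw [LinearMap.mem_ker, h, LinearMap.mem_ker.1 hv, map_zero, smul_zero]
  map_one' := LinearMap.ext fun v => Subtype.ext (by simp)
  map_mul' g g' := LinearMap.ext fun v => Subtype.ext (by simp)

theorem isTwist_subKerSubtype (h : IsTwist ρ ρ' 1 Φ) :
    IsTwist (subKerRep h) ρ 1 (LinearMap.ker Φ).subtype := fun g v => by
  rw [MonoidHom.one_apply, one_smul]
  rfl

end Kernel

namespace KExt

variable {M : ℕ} [NeZero M] {m : ℕ} (Q : Fin (m + 1) → ℕ) [∀ i, Fact (Q i).Prime]
  (hQd : ∀ i, Q i ∣ M)

/-- all the primes -/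
abbrev ext : KSet M := ⟨m + 1, Q, fun _ => Fact.out, hQd⟩

/-- all but the last -/
abbrev ini : KSet M := ⟨m, fun i => Q i.castSucc, fun _ => Fact.out, fun i => hQd _⟩

variable (A : Type*) [CommRing A]

/-- the differences of values at the two lines at the last prime -/
def jLast (X : Type*) :
    (P1 M (Q (Fin.last m)) → X → LinearMap.range ((ini Q hQd).jpT A PUnit.{1})) →ₗ[A]
      (X → PUnit.{1} × (ext Q hQd).PP → A) where
  toFun F x w :=
    (F (fstq (hQd _) (w.2 (Fin.last m))) x).1 (w.1, fun i => w.2 i.castSucc) -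
      (F (sndq (hQd _) (w.2 (Fin.last m))) x).1 (w.1, fun i => w.2 i.castSucc)
  map_add' F F' := funext fun x => funext fun w => by
    simp only [Pi.add_apply, Submodule.coe_add]
    ring
  map_smul' c F := funext fun x => funext fun w => by
    simp only [Pi.smul_apply, Submodule.coe_smul, smul_eq_mul, RingHom.id_apply]
    ring

variable {A} {X : Type*}

theorem jLast_apply (F : P1 M (Q (Fin.last m)) → X → LinearMap.range ((ini Q hQd).jpT A PUnit.{1}))
    (x : X) (w : PUnit.{1} × (ext Q hQd).PP) : jLast Q hQd A X F x w =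
      (F (fstq (hQd _) (w.2 (Fin.last m))) x).1 (w.1, fun i => w.2 i.castSucc) -
        (F (sndq (hQd _) (w.2 (Fin.last m))) x).1 (w.1, fun i => w.2 i.castSucc) := rfl

theorem isTwist_jLast [MulAction (GL (Fin 2) (ZMod M)) X] :
    IsTwist (funTensor (funTensor ((ini Q hQd).WRep A PUnit.{1}) X) (P1 M (Q (Fin.last m))))
      (funTensor (funRep A (PUnit.{1} × (ext Q hQd).PP) (M := M)) X) 1
      (jLast Q hQd A X) := fun g F => by
  rw [MonoidHom.one_apply, one_smul]
  funext x w
  rw [funTensor_apply, funRep_apply, jLast_apply, jLast_apply, funTensor_apply, funTensor_apply,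
    funTensor_apply, funTensor_apply, Prod.smul_snd, Pi.smul_apply, fstq_smul, sndq_smul]
  rfl

/-- only the constants are killed -/
theorem jLast_eq_zero_iff {X : Type*}
    (F : P1 M (Q (Fin.last m)) → X → LinearMap.range ((ini Q hQd).jpT A PUnit.{1})) :
    jLast Q hQd A X F = 0 ↔ ∃ v, (fun _ => v) = F := by
  refine ⟨fun h => ⟨F (P1.base M _), funext fun a => ?_⟩, ?_⟩
  · by_cases ha : a = P1.base M (Q (Fin.last m))
    · rw [ha]
    obtain ⟨z, hz1, hz2⟩ := exists_pair (hQd _) ha
    refine funext fun x => Subtype.ext (funext fun w => ?_)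
    have e := congrFun (congrFun h x) (w.1, Fin.snoc (α := fun i => Pq (hQd i)) w.2 z)
    rw [jLast_apply] at e
    simp only [Fin.snoc_last, Fin.snoc_castSucc, hz1, hz2, Pi.zero_apply, sub_eq_zero] at e
    exact e.symm
  · rintro ⟨v, rfl⟩
    exact funext fun x => funext fun w => sub_self _

/-- the composite kernel -/
def jpK {q : ℕ} [Fact q.Prime] (hq : q ∣ M) (z w : Pq hq) : A :=
  haveI : Fintype (P1 M q) := Fintype.ofFinite _
  ∑ y, jK hq A z y * pK hq A y w

theorem jpK_apply {q : ℕ} [Fact q.Prime] (hq : q ∣ M) [Fintype (P1 M q)] (z w : Pq hq) :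
    jpK (A := A) hq z w = ∑ y, jK hq A z y * pK hq A y w :=
  Finset.sum_congr (by ext; simp) fun _ _ => rfl

theorem jpT_eq (S : KSet M) (Z : Type*) [Fintype Z] [DecidableEq Z]
    [MulAction (GL (Fin 2) (ZMod M)) Z] :
    S.jpT A Z = funKer (tens Z fun i => jpK (A := A) (S.dvd i)) := by
  classical
  rw [KSet.jpT, KSet.jT, KSet.pT, funKer_comp, tens_comp]
  rfl

theorem jpT_apply (S : KSet M) (Z : Type*) [Fintype Z] [DecidableEq Z]
    [MulAction (GL (Fin 2) (ZMod M)) Z] (G : Z × S.PP → A) (z : Z × S.PP) :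
    S.jpT A Z G z = ∑ w, tens Z (fun i => jpK (A := A) (S.dvd i)) z w * G w := by
  rw [jpT_eq, funKer_apply]

theorem sum_tens_last {m : ℕ} {C : Fin (m + 1) → Type} [∀ i, Fintype (C i)]
    (K : ∀ i, C i → C i → A) (G : PUnit.{1} × (∀ i, C i) → A) (u : PUnit.{1}) (π : ∀ i, C i) :
    ∑ w, tens PUnit.{1} K (u, π) w * G w =
      ∑ z, K (Fin.last m) (π (Fin.last m)) z * ∑ y : ∀ i : Fin m, C i.castSucc,
        tens PUnit.{1} (fun (i : Fin m) => K i.castSucc) (u, fun (i : Fin m) => π i.castSucc) (u, y) *
          G (u, Fin.snoc y z) := by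
  rw [Fintype.sum_prod_type, Fintype.sum_unique]
  refine ((Fin.snocEquiv C).sum_comp _).symm.trans ((Fintype.sum_prod_type _).trans ?_)
  refine Finset.sum_congr rfl fun z _ => ?_
  rw [Finset.mul_sum]
  refine Finset.sum_congr rfl fun y _ => ?_
  rw [show (default : PUnit.{1}) = u from rfl]
  simp only [tens, Fin.snocEquiv_apply, Fin.prod_univ_castSucc, Fin.snoc_last, Fin.snoc_castSucc,
    if_true, one_mul]
  rw [show Fin.snocEquiv C (z, y) = Fin.snoc y z from rfl]
  ring

theorem sum_jpK {q : ℕ} [Fact q.Prime] (hq : q ∣ M) [Fintype (P1 M q)] [Fintype (Pq hq)]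
    [DecidableEq (P1 M q)]
    (H : P1 M q → A) (h0 : H (P1.base M q) = 0) (hs : ∑ a, H a = 0) (π : Pq hq) :
    ∑ z, jpK (A := A) hq π z * (if sndq hq z = P1.base M q then H (fstq hq z) else 0) =
      H (fstq hq π) - H (sndq hq π) := by
  have hl : (fun z => if sndq hq z = P1.base M q then H (fstq hq z) else 0) = funKer (lK hq A) H :=
    funext fun z => by
      rw [funKer_lK]
      by_cases hb : sndq hq z = P1.base M q
      · rw [if_pos hb, if_pos hb]
      · rw [if_neg hb, if_neg hb]
  have hp : funKer (pK hq A) (funKer (lK hq A) H) = H := funext fun a => by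
    rw [pK_lK _ _ h0, hs, ite_self, sub_zero]
  rw [← funKer_jK hq H π]
  conv_rhs => rw [← hp, ← LinearMap.comp_apply, funKer_comp, funKer_apply]
  rw [← hl]
  exact Finset.sum_congr rfl fun z _ => congrArg (· * _) (jpK_apply hq π z)

variable (hcong : ∀ i, ((Q i + 1 : ℕ) : A) = 0)

include hcong in
/-- values of sum zero give values of the new module -/
theorem jLast_mem [Fintype (P1 M (Q (Fin.last m)))] {X : Type*}
    (F : P1 M (Q (Fin.last m)) → X → LinearMap.range ((ini Q hQd).jpT A PUnit.{1}))
    (hF : ∑ a, F a = 0) (x : X) :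
    jLast Q hQd A X F x ∈ LinearMap.range ((ext Q hQd).jpT A PUnit.{1}) := by
  classical
  letI : ∀ i : Fin (m + 1), Fintype (Pq (hQd i)) := fun i => (ext Q hQd).fintype_pq i
  let L : Pq (hQd (Fin.last m)) → LinearMap.range ((ini Q hQd).jpT A PUnit.{1}) :=
    fun z => if sndq (hQd _) z = P1.base M _ then F (fstq (hQd _) z) x - F (P1.base M _) x else 0
  refine ⟨fun w => (ini Q hQd).thT A PUnit.{1} (L (w.2 (Fin.last m))).1
    (w.1, fun i => w.2 i.castSucc), funext fun w => ?_⟩
  obtain ⟨u, π⟩ := w
  rw [jpT_apply, jLast_apply]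
  refine (sum_tens_last (C := fun i => Pq (hQd i)) (fun i => jpK (A := A) (hQd i)) _ u π).trans ?_
  have hin : ∀ z : Pq (hQd (Fin.last m)),
      ∑ y : (ini Q hQd).PP, tens PUnit.{1} (fun i => jpK (A := A) ((ini Q hQd).dvd i))
        (u, fun i => π i.castSucc) (u, y) *
          (ini Q hQd).thT A PUnit.{1} (L z).1 (u, y) = (L z).1 (u, fun i => π i.castSucc) := fun z => by
    have e := congrFun ((ini Q hQd).jpT_th_of_mem A PUnit.{1} (fun i => hcong _) (L z).2)
      (u, fun i => π i.castSucc)
    rw [jpT_apply, Fintype.sum_prod_type, Fintype.sum_unique] at e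
    exact e
  simp only [Fin.snoc_last, Fin.snoc_castSucc]
  refine (Finset.sum_congr rfl fun z _ => congrArg _ (hin z)).trans ?_
  have hH : ∀ z, (L z).1 (u, fun i => π i.castSucc) =
      if sndq (hQd (Fin.last m)) z = P1.base M _ then
        (fun a => (F a x).1 (u, fun i => π i.castSucc) -
          (F (P1.base M _) x).1 (u, fun i => π i.castSucc)) (fstq (hQd _) z) else 0 := fun z => by
    simp only [L]
    split_ifs <;> rfl
  refine (Finset.sum_congr rfl fun z _ => congrArg _ (hH z)).trans ?_
  refine (sum_jpK (hQd (Fin.last m))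
    (fun a => (F a x).1 (u, fun i => π i.castSucc) -
      (F (P1.base M _) x).1 (u, fun i => π i.castSucc)) (sub_self _) ?_ _).trans
    (sub_sub_sub_cancel_right _ _ _)
  have hc : ((Fintype.card (P1 M (Q (Fin.last m))) : ℕ) : A) = 0 := by
    have e : Nat.card (P1 M (Q (Fin.last m))) = Q (Fin.last m) + 1 := by
      rw [card_P1 (hQd _)]
      simpa using Genus.dedekindPsi_prime_pow (Fact.out : (Q (Fin.last m)).Prime) one_pos
    rw [← Nat.card_eq_fintype_card, e]
    exact hcong _
  have hs : ∑ a, (F a x).1 (u, fun i => π i.castSucc) = 0 := by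
    have e := congrArg (fun G : X → LinearMap.range ((ini Q hQd).jpT A PUnit.{1}) =>
      (G x).1 (u, fun i => π i.castSucc)) hF
    simpa [Finset.sum_apply, Submodule.coe_sum] using e
  rw [Finset.sum_sub_distrib, hs, Finset.sum_const, Finset.card_univ, ← Nat.cast_smul_eq_nsmul A,
    hc, zero_smul, sub_zero]

end KExt

end FLTAgent.R2.Lv

end
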