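import Fermat.Agent.R2.LevelLoc
import Fermat.Agent.R2.LevelKer
import Fermat.Agent.R2.CohTwist

/-!
Area R2, parcel G5: the two sums at a prime exactly dividing the modulus, on an arbitrary
coefficient module, and the diamonds on functions with values in it.
-/

set_option autoImplicit false
set_option linter.style.haveILetI false
set_option linter.unusedSectionVars false

noncomputable section

open scoped MatrixGroups
open Matrix IsLocalRing

namespace FLTAgent.R2.Lv

open FLTAgent.LL FLTAgent.R2.Coh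

variable {M p M' : ℕ} [NeZero M] [NeZero M'] (h : Split M p M') {A : Type*} [CommRing A]
  {V V₂ : Type*} [AddCommGroup V] [Module A V] [AddCommGroup V₂] [Module A V₂]
  (τ : Representation A (GL (Fin 2) (ZMod M)) V)

/-- the pair of sums at `p` -/
def degP (hτ : Fac h τ) : H1 (pRep (p := p) τ) →ₗ[A] H1 τ × H1 τ :=
  (map (isTwist_pushPt (p := p) τ)).prod (map (isTwist_pushPt (p := p) τ) ∘ₗ Wp h τ hτ)

/-- the part of the system killed by both sums at `p` -/
def newPart [IsLocalRing A] (hτ : Fac h τ) (s : Sys M A) : Submodule A (H1 (pRep (p := p) τ)) :=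
  s.E (pRep τ) ⊓ LinearMap.ker (degP h τ hτ)

theorem mem_newPart [IsLocalRing A] (hτ : Fac h τ) {s : Sys M A} {x : H1 (pRep (p := p) τ)} :
    x ∈ newPart h τ hτ s ↔ x ∈ s.E (pRep τ) ∧ degP h τ hτ x = 0 := Iff.rfl

/-- the two sums are jointly surjective on the part of the system -/
def Surj [IsLocalRing A] (hτ : Fac h τ) (s : Sys M A) : Prop :=
  ∀ a ∈ s.E τ, ∀ b ∈ s.E τ, ∃ y ∈ s.E (pRep (p := p) τ), degP h τ hτ y = (a, b)

variable {τ} {τ₂ : Representation A (GL (Fin 2) (ZMod M)) V₂}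

theorem isTwist_pushPt_natural {Φ : V →ₗ[A] V₂} (hΦ : IsTwist τ τ₂ 1 Φ) (x : H1 (pRep (p := p) τ)) :
    map hΦ (map (isTwist_pushPt (p := p) τ) x) =
      map (isTwist_pushPt (p := p) τ₂) (map (isTwist_postcomp τ hΦ) x) := by
  obtain ⟨f, rfl⟩ := Submodule.mkQ_surjective _ x
  refine congrArg (fun w => H1.mk τ₂ w) (Subtype.ext (funext fun γ => ?_))
  show Φ (pushPt (A := A) (f.1 γ)) = pushPt (A := A) (Φ.compLeft (P1 M p) (f.1 γ))
  haveI : Fintype (P1 M p) := Fintype.ofFinite _
  rw [pushPt_apply, pushPt_apply, map_sum]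
  rfl

/-- the sums commute with maps of coefficients -/
theorem degP_natural (hτ : Fac h τ) (hτ₂ : Fac h τ₂) {Φ : V →ₗ[A] V₂} (hΦ : IsTwist τ τ₂ 1 Φ)
    (x : H1 (pRep (p := p) τ)) :
    degP h τ₂ hτ₂ (map (isTwist_postcomp τ hΦ) x) =
      (map hΦ (degP h τ hτ x).1, map hΦ (degP h τ hτ x).2) := by
  refine Prod.ext ?_ ?_
  · exact (isTwist_pushPt_natural hΦ x).symm
  · show LL.map (isTwist_pushPt (p := p) τ₂) (Wp h τ₂ hτ₂ (LL.map (isTwist_postcomp τ hΦ) x)) =
      LL.map hΦ (LL.map (isTwist_pushPt (p := p) τ) (Wp h τ hτ x))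
    rw [← Wp_natural h τ hτ hτ₂ hΦ, isTwist_pushPt_natural hΦ]

theorem degP_T (hτ : Fac h τ) {l : ℕ} (hl : l.Prime) (hlM : ¬ l ∣ M) (x : H1 (pRep (p := p) τ)) :
    degP h τ hτ (T (pRep τ) hl hlM x) =
      (T τ hl hlM (degP h τ hτ x).1, T τ hl hlM (degP h τ hτ x).2) := by
  refine Prod.ext (map_T_one _ hl hlM x) ?_
  show LL.map (isTwist_pushPt (p := p) τ) (Wp h τ hτ (T (pRep τ) hl hlM x)) =
      T τ hl hlM (LL.map (isTwist_pushPt (p := p) τ) (Wp h τ hτ x))
  rw [Wp_T, map_T_one]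

theorem degP_mem_E [IsLocalRing A] (hτ : Fac h τ) (s : Sys M A) {x : H1 (pRep (p := p) τ)}
    (hx : x ∈ s.E (pRep τ)) : (degP h τ hτ x).1 ∈ s.E τ ∧ (degP h τ hτ x).2 ∈ s.E τ :=
  ⟨s.map_mem_E _ (fun _ => by simp) hx, s.map_mem_E _ (fun _ => by simp) (Wp_mem_E h τ hτ s hx)⟩

theorem map_postcomp_mem_newPart [IsLocalRing A] (hτ : Fac h τ) (hτ₂ : Fac h τ₂) (s : Sys M A)
    {Φ : V →ₗ[A] V₂} (hΦ : IsTwist τ τ₂ 1 Φ) {x : H1 (pRep (p := p) τ)}
    (hx : x ∈ newPart h τ hτ s) : map (isTwist_postcomp τ hΦ) x ∈ newPart h τ₂ hτ₂ s := by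
  rw [mem_newPart] at hx ⊢
  exact ⟨s.map_mem_E _ (fun _ => by simp) hx.1, by
    rw [degP_natural h hτ hτ₂ hΦ, hx.2]; simp⟩

theorem pRep_neg_one (hneg : τ (red M (-1)) = 1) :
    pRep (p := p) τ (red M (-1)) = 1 :=
  funTensor_neg_one hneg fun x => P1.red_neg_one_smul x

/-- diamonds on functions on the lines at `p` -/
def topDia {V₀ : Type*} [AddCommGroup V₀] [Module A V₀]
    {τ₀ : Representation A (GL (Fin 2) (ZMod M)) V₀} {Δ : Type*} [CommGroup Δ] [Fintype Δ]
    (Dd : DiaData τ τ₀ Δ) :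
    DiaData (pRep (p := p) τ) (pRep (p := p) τ₀) Δ where
  act :=
    { toFun := fun u => (Dd.act u).compLeft _
      map_one' := by rw [map_one]; rfl
      map_mul' := fun u v => by rw [map_mul]; rfl }
  isTwist_act u := isTwist_compLeft τ (Dd.isTwist_act u)
  push := Dd.push.compLeft _
  isTwist_push := isTwist_compLeft τ Dd.isTwist_push
  push_surjective G := by
    choose F hF using fun x => Dd.push_surjective (G x)
    exact ⟨F, funext hF⟩
  pull := Dd.pull.compLeft _
  isTwist_pull := isTwist_compLeft τ₀ Dd.isTwist_pull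
  pull_injective F G e := funext fun x => Dd.pull_injective (congrFun e x)
  push_act u := LinearMap.ext fun F => funext fun x => LinearMap.congr_fun (Dd.push_act u) (F x)
  pull_push F := funext fun x => by
    rw [Finset.sum_apply]
    exact Dd.pull_push (F x)
  ker_push F hF := by
    classical
    haveI : Fintype (P1 M p) := Fintype.ofFinite _
    rw [← Finset.univ_sum_single F]
    refine Submodule.sum_mem _ fun x _ => ?_
    have hx : F x ∈ ⨆ u, LinearMap.range (Dd.act u - 1) := Dd.ker_push (congrFun hF x)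
    have hle : (⨆ u, LinearMap.range (Dd.act u - 1)).map
        (LinearMap.single A (fun _ : P1 M p => V) x) ≤
        ⨆ u, LinearMap.range ((Dd.act u).compLeft (P1 M p) - 1) := by
      rw [Submodule.map_iSup]
      refine iSup_mono fun u => ?_
      rintro _ ⟨_, ⟨v, rfl⟩, rfl⟩
      refine ⟨Pi.single x v, funext fun y => ?_⟩
      show Dd.act u (Pi.single (M := fun _ : P1 M p => V) x v y) - Pi.single (M := fun _ : P1 M p => V) x v y =
        Pi.single (M := fun _ : P1 M p => V) x (Dd.act u v - v) y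
      rcases eq_or_ne y x with rfl | hy
      · simp only [Pi.single_eq_same]
      · simp only [Pi.single_eq_of_ne hy, map_zero, sub_zero]
    exact hle ⟨_, hx, rfl⟩
  split := Dd.split.compLeft _
  split_spec F := funext fun x => by
    rw [Pi.add_apply, pRep, funTensor_apply]
    show Dd.split (F x) + τ _ (Dd.split (τ _ (F (_ • _ • x)))) = F x
    rw [smul_smul, ← _root_.mul_inv_rev, ← map_mul, Periods.S_mul_S,
      inv_smul_eq_iff.2 (P1.red_neg_one_smul x).symm, Dd.split_spec]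
  split_act u := LinearMap.ext fun F => funext fun x => LinearMap.congr_fun (Dd.split_act u) (F x)

section Pair

variable [IsLocalRing A] [IsNoetherianRing A] [IsAdicComplete (maximalIdeal A) A] [Module.Finite A V]
  {V₀ : Type*} [AddCommGroup V₀] [Module A V₀] [Module.Finite A V₀]
  {τ₀ : Representation A (GL (Fin 2) (ZMod M)) V₀} {Δ : Type*} [CommGroup Δ] [Fintype Δ]
  (Dd : DiaData τ τ₀ Δ) (s : Sys M A)

/-- the diamond pair of a part of a system -/
def dpair (hneg : τ (red M (-1)) = 1) (h3 : IsUnit (3 : A)) : DPair A (s.E τ) (s.E τ₀) Δ where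
  dia := Dd.dia s
  toY := Dd.toY s
  ofY := Dd.ofY s
  toY_surjective := Dd.toY_surjective s hneg h3
  ofY_injective := Dd.ofY_injective s
  ofY_toY := Dd.ofY_toY s
  toY_dia := Dd.toY_dia s
  ker_toY := Dd.ker_toY s hneg h3

end Pair

/-- the two sums commute with diamond operators -/
theorem degP_act (hτ : Fac h τ) {Φ : Module.End A V} (hΦ : IsTwist τ τ 1 Φ)
    (x : H1 (pRep (p := p) τ)) :
    degP h τ hτ (map (isTwist_postcomp τ hΦ) x) =
      (map hΦ (degP h τ hτ x).1, map hΦ (degP h τ hτ x).2) :=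
  degP_natural h hτ hτ hΦ x

theorem fac_funTensor {X : Type*} [MulAction (GL (Fin 2) (ZMod M)) X] (hτ : Fac h τ)
    (hX : ∀ g, gl h.dvd' g = 1 → ∀ x : X, g • x = x) : Fac h (funTensor τ X) := fun g hg => by
  refine LinearMap.ext fun F => funext fun x => ?_
  rw [funTensor_apply, hτ g hg, Module.End.one_apply, Module.End.one_apply,
    inv_smul_eq_iff.2 (hX g hg x).symm]

end FLTAgent.R2.Lv

end
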