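import Fermat.Agent.R2.LevelTrans
import Fermat.Agent.R2.LevelTop

/-!
Area R2, parcel G5: the operator sum after `Wp` after pull back at a prime exactly dividing the
modulus.

On coefficients through the modulus without `p` it is `T p`; it is natural in the coefficients and
commutes with `Wq` at another prime `q`.
-/

set_option autoImplicit false
set_option linter.style.haveILetI false
set_option linter.unusedSectionVars false

noncomputable section

open scoped MatrixGroups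
open Matrix

namespace FLTAgent.R2.Lv

open FLTAgent.LL FLTAgent.R2.Coh

variable {M p M' : ℕ} [NeZero M] [NeZero M'] (h : Split M p M')
  {A : Type*} [CommRing A] {V : Type*} [AddCommGroup V] [Module A V]
  (τ : Representation A (GL (Fin 2) (ZMod M)) V)

/-- the sum after `Wp` after the pull back -/
def Tp (hτ : Fac h τ) : Module.End A (H1 τ) :=
  LL.map (isTwist_pushPt (p := p) τ) ∘ₗ Wp h τ hτ ∘ₗ LL.map (isTwist_pullPt (p := p) τ)

theorem Tp_def (hτ : Fac h τ) (x : H1 τ) : Tp h τ hτ x =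
    LL.map (isTwist_pushPt (p := p) τ) (Wp h τ hτ (LL.map (isTwist_pullPt (p := p) τ) x)) := rfl

/-- it commutes with the good Hecke operators -/
theorem Tp_T (hτ : Fac h τ) {l : ℕ} (hl : l.Prime) (hlM : ¬ l ∣ M) (x : H1 τ) :
    Tp h τ hτ (T τ hl hlM x) = T τ hl hlM (Tp h τ hτ x) := by
  rw [Tp_def, Tp_def, map_T_one, Wp_T, map_T_one]

variable {τ} {V₂ : Type*} [AddCommGroup V₂] [Module A V₂]
  {τ₂ : Representation A (GL (Fin 2) (ZMod M)) V₂}

theorem map_pullPt_natural {Φ : V →ₗ[A] V₂} (hΦ : IsTwist τ τ₂ 1 Φ) (x : H1 τ) :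
    LL.map (isTwist_postcomp τ hΦ) (LL.map (isTwist_pullPt (p := p) τ) x) =
      LL.map (isTwist_pullPt (p := p) τ₂) (LL.map hΦ x) :=
  map_comm_eq (isTwist_pullPt (p := p) τ) (isTwist_postcomp τ hΦ) hΦ
    (isTwist_pullPt (p := p) τ₂) (fun _ => rfl) x

/-- naturality in the coefficients -/
theorem Tp_natural (hτ : Fac h τ) (hτ₂ : Fac h τ₂) {Φ : V →ₗ[A] V₂} (hΦ : IsTwist τ τ₂ 1 Φ)
    (x : H1 τ) : LL.map hΦ (Tp h τ hτ x) = Tp h τ₂ hτ₂ (LL.map hΦ x) := by
  rw [Tp_def, Tp_def, isTwist_pushPt_natural hΦ, Wp_natural h τ hτ hτ₂ hΦ, map_pullPt_natural hΦ]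

theorem Tp_pullPt {q : ℕ} (hτ : Fac h τ) (hτq : Fac h (pRep (p := q) τ)) (x : H1 τ) :
    Tp h (pRep (p := q) τ) hτq (LL.map (isTwist_pullPt (p := q) τ) x) =
      LL.map (isTwist_pullPt (p := q) τ) (Tp h τ hτ x) :=
  (Tp_natural h hτ hτq (isTwist_pullPt (p := q) τ) x).symm

/-- it commutes with the operator at another prime -/
theorem Wp_Tp {q M₂ : ℕ} [NeZero M₂] (h₂ : Split M q M₂) (hpq : p ≠ q) (hτ₁ : Fac h τ)
    (hτ₂ : Fac h₂ τ) (x : H1 (pRep (p := q) τ)) :
    Wp h₂ τ hτ₂ (Tp h (pRep (p := q) τ) (fac_pRep h h₂ τ hpq hτ₁) x) =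
      Tp h (pRep (p := q) τ) (fac_pRep h h₂ τ hpq hτ₁) (Wp h₂ τ hτ₂ x) := by
  haveI : Fintype (P1 M p) := Fintype.ofFinite _
  have hpush : ∀ y : H1 (pRep (p := p) (pRep (p := q) τ)),
      LL.map (isTwist_postcomp (p := q) (pRep (p := p) τ) (isTwist_pushPt (p := p) τ))
          (LL.map (isTwist_swapPt τ) y) =
        LL.map (isTwist_pushPt (p := p) (pRep (p := q) τ)) y :=
    map_map_eq _ _ _ fun F => funext fun b => by
      show pushPt (A := A) (fun a => F a b) = pushPt (A := A) F b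
      rw [pushPt_apply, pushPt_apply, Finset.sum_apply]
  have hpull1 : LL.map (isTwist_swapPt τ) (LL.map (isTwist_pullPt (p := p) (pRep (p := q) τ)) x) =
      LL.map (isTwist_postcomp (p := q) τ (isTwist_pullPt (p := p) τ)) x :=
    map_map_eq _ _ _ (fun F => rfl) x
  have hpull2 : ∀ z : H1 (pRep (p := q) τ),
      LL.map (isTwist_swapPt (p := q) (q := p) τ)
          (LL.map (isTwist_postcomp (p := q) τ (isTwist_pullPt (p := p) τ)) z) =
        LL.map (isTwist_pullPt (p := p) (pRep (p := q) τ)) z :=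
    map_map_eq _ _ _ (fun F => rfl)
  rw [Tp_def, Tp_def, ← hpush,
    ← Wp_natural h₂ (pRep (p := p) τ) (fac_pRep h₂ h τ hpq.symm hτ₂) hτ₂ (isTwist_pushPt τ),
    Wp_Wq h h₂ τ hpq hτ₁ hτ₂, hpush, hpull1,
    ← Wp_natural h₂ τ hτ₂ (fac_pRep h₂ h τ hpq.symm hτ₂) (isTwist_pullPt τ), hpull2]

/-- it is `T p` on coefficients at the modulus without `p` -/
theorem inflateH_Tp (τ₀ : Representation A (GL (Fin 2) (ZMod M')) V) (hpM' : ¬ p ∣ M')
    (x : H1 (inflate h.dvd' τ₀)) :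
    inflateH h.dvd' τ₀ (Tp h (inflate h.dvd' τ₀) (fac_inflate h τ₀) x) =
      T τ₀ h.prime hpM' (inflateH h.dvd' τ₀ x) :=
  push_Wp_pull h τ₀ hpM' x

end FLTAgent.R2.Lv

end
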