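import Fermat.Agent.R2.LevelNonzeroOp
import Fermat.Agent.R2.LevelNonzeroCoef
import Fermat.Agent.R2.LevelCoef
import Fermat.Agent.R2.LevelIhara

/-!
Area R2, parcel G5: the residual step at a killing prime.

From a class on functions with values in the new module at the first primes, killed by the sum after
`Wp` after pull back at the next prime, a nonzero class with values in the new module at one more
prime, with the same eigenvalues of those operators at the other primes.
-/

set_option autoImplicit false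
set_option linter.style.haveILetI false
set_option linter.unusedSectionVars false
set_option synthInstance.maxHeartbeats 200000

noncomputable section

open scoped MatrixGroups
open Matrix IsLocalRing

namespace FLTAgent.R2.Lv

open FLTAgent.LL FLTAgent.R2.Coh

theorem residual_add_self {V : Type*} [AddCommGroup V] [Module (Lam 0) V] (v : V) : v + v = 0 := by
  rw [← two_smul (Lam 0), show (2 : Lam 0) = 0 from rfl, zero_smul]

theorem split_of_squarefree {M p : ℕ} (hsq : Squarefree M) (hp : p.Prime) (hd : p ∣ M) :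
    Split M p (M / p) :=
  ⟨hp, (Nat.mul_div_cancel' hd).symm,
    Nat.coprime_of_squarefree_mul (by rw [Nat.mul_div_cancel' hd]; exact hsq)⟩

theorem dvd_of_split {M p M' d : ℕ} (h : Split M p M') (hd : d ∣ M) (hpd : ¬ p ∣ d) : d ∣ M' :=
  (Nat.Coprime.symm ((h.prime.coprime_iff_not_dvd).2 hpd)).dvd_of_dvd_mul_left (h.eq ▸ hd)

theorem prime_dvd_of_split {M p M' q : ℕ} (h : Split M p M') (hq : q.Prime) (hd : q ∣ M)
    (hne : q ≠ p) : q ∣ M' :=
  dvd_of_split h hd fun hpq => hne ((Nat.prime_dvd_prime_iff_eq h.prime hq).1 hpq).symm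

section Fixed

variable {M p Mp : ℕ} [NeZero M] [NeZero Mp] (h : Split M p Mp) (A : Type*) [CommRing A]
  (S : KSet M)

/-- functions on pairs of lines at primes of the smaller modulus factor through it -/
theorem fac_pairs (hS : ∀ i, S.q i ∣ Mp) : Fac h (funRep A (PUnit.{1} × S.PP) (M := M)) := by
  refine fun g hg => LinearMap.ext fun F => funext fun z => ?_
  rw [funRep_apply, Module.End.one_apply]
  refine congrArg F (inv_smul_eq_iff.2
    (show g • z = z from Prod.ext rfl (funext fun i => ?_)).symm)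
  exact smul_pq_of_gl_one h.dvd' (hS i) (S.dvd i) hg (z.2 i)

theorem fac_WRep (hS : ∀ i, S.q i ∣ Mp) : Fac h (S.WRep A PUnit.{1}) := fun g hg =>
  LinearMap.ext fun v => Subtype.ext (LinearMap.congr_fun (fac_pairs h A S hS g hg) v.1)

theorem fac_tau {d : ℕ} (hd : d ∣ Mp) (hS : ∀ i, S.q i ∣ Mp) :
    Fac h (funTensor (S.WRep A PUnit.{1}) (P1 M d)) :=
  fac_funTensor h (fac_WRep h A S hS) fun _ hg x => smul_p1_of_gl_one h.dvd' hd hg x

theorem fac_full {d : ℕ} (hd : d ∣ Mp) (hS : ∀ i, S.q i ∣ Mp) :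
    Fac h (funTensor (funRep A (PUnit.{1} × S.PP) (M := M)) (P1 M d)) :=
  fac_funTensor h (fac_pairs h A S hS) fun _ hg x => smul_p1_of_gl_one h.dvd' hd hg x

end Fixed

section Injective

variable {M p Mp : ℕ} [NeZero M] [NeZero Mp] (P : PairData Mp) (h : Split M p Mp)
  (s : Sys M (Lam 0)) (hs : OddAtOne s) {V : Type} [AddCommGroup V] [Module (Lam 0) V]
  [Module.Finite (Lam 0) V] {τ : Representation (Lam 0) (GL (Fin 2) (ZMod M)) V}

include hs in
/-- the two pull backs meet trivially on coefficients inside functions on lines and pairs -/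
theorem pair_injective (hτ : Fac h τ) {ι : V →ₗ[Lam 0] (P.Z h → Lam 0)}
    (hι : IsTwist τ (funRep (Lam 0) (P.Z h) (M := M)) 1 ι) (hi : Function.Injective ι)
    {y₁ y₂ : H1 τ} (h₁ : y₁ ∈ s.E τ) (h₂ : y₂ ∈ s.E τ)
    (h0 : LL.map (isTwist_pullPt (p := p) τ) y₁ +
      Wp h τ hτ (LL.map (isTwist_pullPt (p := p) τ) y₂) = 0) : y₁ = 0 ∧ y₂ = 0 := by
  have e := deg_injective h P s hs (s.map_mem_E hι (fun _ => by simp) h₁)
    (s.map_mem_E hι (fun _ => by simp) h₂) (by
      rw [← map_pullPt_natural hι, ← map_pullPt_natural hι,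
        ← Wp_natural h τ hτ (P.fac_funRep h (Lam 0)) hι, ← _root_.map_add, h0, _root_.map_zero])
  exact ⟨s.eq_zero_of_map_eq_zero hι hi h₁ e.1, s.eq_zero_of_map_eq_zero hι hi h₂ e.2⟩

end Injective

theorem Tp_mem_E {M p Mp : ℕ} [NeZero M] [NeZero Mp] (h : Split M p Mp) {A : Type*} [CommRing A]
    [IsLocalRing A] {V : Type*} [AddCommGroup V] [Module A V]
    {τ : Representation A (GL (Fin 2) (ZMod M)) V} (hτ : Fac h τ) (s : Sys M A) {x : H1 τ}
    (hx : x ∈ s.E τ) : Tp h τ hτ x ∈ s.E τ :=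
  s.map_mem_E _ (fun _ => by simp) (Wp_mem_E h τ hτ s (s.map_mem_E _ (fun _ => by simp) hx))

section Step

open KExt

variable {M : ℕ} [NeZero M] {m : ℕ} (Q : Fin (m + 1) → ℕ) [∀ i, Fact (Q i).Prime]
  (hQd : ∀ i, Q i ∣ M) (hcong : ∀ i, ((Q i + 1 : ℕ) : Lam 0) = 0)
  (X : Type) [MulAction (GL (Fin 2) (ZMod M)) X] [Finite X]

/-- the difference of values, into the new module, on families of sum zero -/
def jStep : LinearMap.ker (pushPt (A := Lam 0) (M := M) (p := Q (Fin.last m))
      (V := X → LinearMap.range ((ini Q hQd).jpT (Lam 0) PUnit.{1}))) →ₗ[Lam 0]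
    (X → LinearMap.range ((ext Q hQd).jpT (Lam 0) PUnit.{1})) where
  toFun F x := ⟨jLast Q hQd (Lam 0) X F.1 x, by
    letI : Fintype (P1 M (Q (Fin.last m))) := Fintype.ofFinite _
    exact jLast_mem Q hQd hcong F.1 ((pushPt_apply F.1).symm.trans F.2) x⟩
  map_add' F F' := funext fun x => Subtype.ext
    (congrFun (_root_.map_add (jLast Q hQd (Lam 0) X) F.1 F'.1) x)
  map_smul' c F := funext fun x => Subtype.ext
    (congrFun (_root_.map_smul (jLast Q hQd (Lam 0) X) c F.1) x)

theorem isTwist_jStep :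
    IsTwist (subKerRep (isTwist_pushPt (p := Q (Fin.last m))
        (funTensor ((ini Q hQd).WRep (Lam 0) PUnit.{1}) X)))
      (funTensor ((ext Q hQd).WRep (Lam 0) PUnit.{1}) X) 1 (jStep Q hQd hcong X) := fun g F => by
  have e := isTwist_jLast (A := Lam 0) (X := X) Q hQd g F.1
  rw [MonoidHom.one_apply, one_smul] at e ⊢
  exact funext fun x => Subtype.ext (congrFun e x)

theorem subtype_jStep (F : LinearMap.ker (pushPt (A := Lam 0) (M := M) (p := Q (Fin.last m))
      (V := X → LinearMap.range ((ini Q hQd).jpT (Lam 0) PUnit.{1})))) :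
    (LinearMap.range ((ext Q hQd).jpT (Lam 0) PUnit.{1})).subtype.compLeft X
        (jStep Q hQd hcong X F) =
      jLast Q hQd (Lam 0) X ((LinearMap.ker (pushPt (A := Lam 0) (M := M) (p := Q (Fin.last m))
        (V := X → LinearMap.range ((ini Q hQd).jpT (Lam 0) PUnit.{1})))).subtype F) := by
  funext x
  simp only [jStep, LinearMap.compLeft_apply, Function.comp_apply, LinearMap.coe_mk, AddHom.coe_mk,
    Submodule.subtype_apply]

theorem isTwist_subtypeW (S : KSet M) :
    IsTwist (funTensor (S.WRep (Lam 0) PUnit.{1}) X)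
      (funTensor (funRep (Lam 0) (PUnit.{1} × S.PP) (M := M)) X) 1
      ((LinearMap.range (S.jpT (Lam 0) PUnit.{1})).subtype.compLeft X) :=
  isTwist_compLeft _ (isTwist_rangeSubtype _)

theorem subtypeW_injective (S : KSet M) : Function.Injective
    ((LinearMap.range (S.jpT (Lam 0) PUnit.{1})).subtype.compLeft X) :=
  fun _ _ e => funext fun x => Subtype.ext (congrFun e x)

set_option quotPrecheck false in
local notation "τI" => funTensor (KSet.WRep (KExt.ini Q hQd) (Lam 0) PUnit.{1}) X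

set_option maxHeartbeats 1600000 in
/-- one more prime -/
theorem exists_step (s : Sys M (Lam 0)) {Mq : ℕ} [NeZero Mq] (h : Split M (Q (Fin.last m)) Mq)
    (hτ : Fac h (funTensor ((ini Q hQd).WRep (Lam 0) PUnit.{1}) X))
    (hcong : ∀ i, ((Q i + 1 : ℕ) : Lam 0) = 0)
    {x : H1 (funTensor ((ini Q hQd).WRep (Lam 0) PUnit.{1}) X)}
    (hx : x ∈ s.E (funTensor ((ini Q hQd).WRep (Lam 0) PUnit.{1}) X)) (hne : x ≠ 0)
    (hq : Tp h _ hτ x = 0)
    (hinj : ∀ y₁ y₂, y₁ ∈ s.E (funTensor ((ini Q hQd).WRep (Lam 0) PUnit.{1}) X) →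
      y₂ ∈ s.E (funTensor ((ini Q hQd).WRep (Lam 0) PUnit.{1}) X) →
      LL.map (isTwist_pullPt (p := Q (Fin.last m))
          (funTensor ((ini Q hQd).WRep (Lam 0) PUnit.{1}) X)) y₁ +
        Wp h _ hτ (LL.map (isTwist_pullPt (p := Q (Fin.last m))
          (funTensor ((ini Q hQd).WRep (Lam 0) PUnit.{1}) X)) y₂) = 0 → y₂ = 0) :
    ∃ x' ∈ s.E (funTensor ((ext Q hQd).WRep (Lam 0) PUnit.{1}) X), x' ≠ 0 ∧
      ∀ (p Mp : ℕ) [NeZero Mp] (hp : Split M p Mp), p ≠ Q (Fin.last m) →
        ∀ (f : Fac hp (funTensor ((ini Q hQd).WRep (Lam 0) PUnit.{1}) X))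
          (f' : Fac hp (funTensor ((ext Q hQd).WRep (Lam 0) PUnit.{1}) X)),
        Fac hp (funTensor (funRep (Lam 0) (PUnit.{1} × (ext Q hQd).PP) (M := M)) X) →
        ∀ c : Lam 0, Tp hp _ f x = c • x → Tp hp _ f' x' = c • x' := by
  classical
  haveI : Fintype (P1 M (Q (Fin.last m))) := Fintype.ofFinite _
  have h1 : ∀ a : (ZMod M)ˣ, (1 : (ZMod M)ˣ →* Lam 0) a - 1 ∈ maximalIdeal (Lam 0) :=
    fun a => by simp
  obtain ⟨u, hu⟩ : ∃ u, u = Wp h (τI) hτ (LL.map (isTwist_pullPt (p := Q (Fin.last m)) (τI)) x) :=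
    ⟨_, rfl⟩
  have hue : u ∈ s.E (pRep (τI)) := hu ▸ Wp_mem_E h (τI) hτ s (s.map_mem_E _ h1 hx)
  have hq' : LL.map (isTwist_pushPt (p := Q (Fin.last m)) (τI)) u = 0 := hu ▸ hq
  obtain ⟨v, hv, hvu⟩ := s.exists_mem_E_of_map_eq_zero
    (isTwist_subKerSubtype (isTwist_pushPt (p := Q (Fin.last m)) (τI)))
    (isTwist_pushPt (p := Q (Fin.last m)) (τI)) h1 (Submodule.injective_subtype _)
    (fun F => ⟨fun e => ⟨⟨F, e⟩, rfl⟩, by rintro ⟨G, rfl⟩; exact G.2⟩)
    (fun w => ⟨Pi.single (P1.base M _) w, by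
      rw [pushPt_apply, Finset.sum_pi_single' (P1.base M (Q (Fin.last m))) w, if_pos (Finset.mem_univ _)]⟩)
    hue hq'
  obtain ⟨x', hx'⟩ : ∃ x', x' = LL.map (isTwist_jStep Q hQd hcong X) v := ⟨_, rfl⟩
  have hx'E : x' ∈ s.E (funTensor ((ext Q hQd).WRep (Lam 0) PUnit.{1}) X) :=
    hx' ▸ s.map_mem_E _ h1 hv
  have himg : LL.map (isTwist_subtypeW X (ext Q hQd)) x' =
      LL.map (isTwist_jLast (A := Lam 0) (X := X) Q hQd) u :=
    (congrArg _ hx').trans ((map_comm_eq (isTwist_jStep Q hQd hcong X)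
      (isTwist_subtypeW X (ext Q hQd))
      (isTwist_subKerSubtype (isTwist_pushPt (p := Q (Fin.last m)) (τI)))
      (isTwist_jLast (A := Lam 0) (X := X) Q hQd) (subtype_jStep Q hQd hcong X) v).trans
      (congrArg _ hvu))
  refine ⟨x', hx'E, fun h0 => hne ?_, fun p Mp _ hp hpq f f' f'' c hc => ?_⟩
  · have e0 : LL.map (isTwist_jLast (A := Lam 0) (X := X) Q hQd) u = 0 := by
      rw [← himg, h0, _root_.map_zero]
    have hr : LL.map (isTwist_rangeRestrict (isTwist_jLast (A := Lam 0) (X := X) Q hQd)) u = 0 :=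
      s.eq_zero_of_map_eq_zero (isTwist_rangeSubtype _) (Submodule.injective_subtype _)
        (s.map_mem_E _ h1 hue) (by
          rw [map_map_eq _ (isTwist_rangeSubtype _) (isTwist_jLast (A := Lam 0) (X := X) Q hQd)
            (fun F => rfl), e0])
    obtain ⟨y, hy, hyu⟩ := s.exists_mem_E_of_map_eq_zero (isTwist_pullPt (p := Q (Fin.last m)) (τI))
      (isTwist_rangeRestrict (isTwist_jLast (A := Lam 0) (X := X) Q hQd)) h1
      (fun a b e => congrFun e (P1.base M _))
      (fun F => (Subtype.ext_iff.trans (jLast_eq_zero_iff Q hQd (A := Lam 0) F)))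
      (LinearMap.surjective_rangeRestrict _) hue hr
    exact hinj y x hy hx (by rw [hyu, ← hu]; exact residual_add_self u)
  · refine sub_eq_zero.1 (s.eq_zero_of_map_eq_zero (isTwist_subtypeW X (ext Q hQd))
      (subtypeW_injective X (ext Q hQd)) (sub_mem (Tp_mem_E hp f' s hx'E)
        (Submodule.smul_mem _ c hx'E)) ?_)
    have e1 : Tp hp (pRep (p := Q (Fin.last m)) (τI)) (fac_pRep hp h (τI) hpq f)
        (LL.map (isTwist_pullPt (p := Q (Fin.last m)) (τI)) x) =
        c • LL.map (isTwist_pullPt (p := Q (Fin.last m)) (τI)) x :=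
      (Tp_pullPt hp f (fac_pRep hp h (τI) hpq f) x).trans
        ((congrArg _ hc).trans (LinearMap.map_smul _ c x))
    have hTu : Tp hp (pRep (p := Q (Fin.last m)) (τI)) (fac_pRep hp h (τI) hpq f) u = c • u :=
      (congrArg _ hu).trans ((Wp_Tp hp h hpq f hτ _).symm.trans ((congrArg _ e1).trans
        ((LinearMap.map_smul _ c _).trans (congrArg (c • ·) hu.symm))))
    have e2 := Tp_natural hp f' f'' (isTwist_subtypeW X (ext Q hQd)) x'
    have e3 := Tp_natural hp (fac_pRep hp h (τI) hpq f) f''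
      (isTwist_jLast (A := Lam 0) (X := X) Q hQd) u
    rw [hTu, LinearMap.map_smul] at e3
    rw [_root_.map_sub, LinearMap.map_smul, e2, himg, ← e3, sub_self]

end Step

end FLTAgent.R2.Lv

end
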