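import Fermat.Agent.R2.LevelCorr
import Fermat.Agent.R2.CohAux
import Fermat.Agent.R2.Defs
import Fermat.Agent.R2.LevelHom
import Fermat.Agent.LL.ConjTW

/-!
Area R2, parcel G4: lines at a level times pairs of lines at further primes as level `Γ₀(L)`,
`L = N1 (∏ q)²`, and with lines at one more prime `p` as level `Γ₀(L p)`.
-/

set_option autoImplicit false
set_option linter.style.haveILetI false
set_option linter.unusedSectionVars false

noncomputable section

open scoped MatrixGroups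
open Matrix CongruenceSubgroup

namespace FLTAgent.R2.Lv

open FLTAgent.LL FLTAgent.R2.Coh

/-- lines at a level and pairs of lines at primes prime to it -/
structure PairData (M' : ℕ) where
  N1 : ℕ
  dvd1 : N1 ∣ M'
  k : ℕ
  q : Fin k → ℕ
  prime : ∀ i, (q i).Prime
  inj : Function.Injective q
  dvd : ∀ i, q i ∣ M'
  ndvd : ∀ i, ¬ q i ∣ N1
  three : ∃ ℓ, ℓ.Prime ∧ ℓ % 4 = 3 ∧ ℓ ∣ N1

namespace PairData

variable {M p M' : ℕ} (P : PairData M') (h : Split M p M')

/-- the points -/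
abbrev Z : Type := P1 M P.N1 × ∀ i, Pq ((P.dvd i).trans h.dvd')

theorem fac_funRep (A : Type*) [CommRing A] [NeZero M] [NeZero M'] :
    Fac h (funRep A (P.Z h) (M := M)) := by
  intro g hg
  have key : ∀ k : GL (Fin 2) (ZMod M), gl h.dvd' k = 1 → k ∈ B0 M P.N1 ∧
      ∀ i, k ∈ CQq ((P.dvd i).trans h.dvd') := by
    intro k hk
    have hent : ∀ a b, ZMod.castHom h.dvd' (ZMod M') (k.1 a b) =
        (1 : Matrix (Fin 2) (Fin 2) (ZMod M')) a b := fun a b => by
      rw [← Units.val_one, ← hk]; rfl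
    have hoff : ∀ {n : ℕ}, n ∣ M' → ∀ {a b : Fin 2}, a ≠ b →
        (n : ZMod M) ∣ k.1 a b := fun {n} hn {a b} hab => by
      obtain ⟨x, hx⟩ := ZMod.intCast_surjective (k.1 a b)
      have e := hent a b
      rw [← hx, map_intCast, Matrix.one_apply_ne hab, ZMod.intCast_zmod_eq_zero_iff_dvd] at e
      obtain ⟨y, hy⟩ := (Int.natCast_dvd_natCast.mpr hn).trans e
      exact ⟨(y : ZMod M), by rw [← hx, hy]; push_cast; rfl⟩
    refine ⟨hoff P.dvd1 (by decide), fun i => ?_⟩
    have hz : ∀ a b : Fin 2, a ≠ b →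
        (ZMod.castHom ((P.dvd i).trans h.dvd') (ZMod (P.q i))) (k.1 a b) = 0 := fun a b hab => by
      obtain ⟨c, hc⟩ := hoff (P.dvd i) hab
      rw [hc, map_mul, map_natCast, ZMod.natCast_self, zero_mul]
    constructor
    · rw [cq_apply]; exact hz 1 0 (by decide)
    · rw [cq_apply]; exact hz 0 1 (by decide)
  have hfix : ∀ x : P.Z h, g⁻¹ • x = x := by
    intro x
    have hk : ∀ y : GL (Fin 2) (ZMod M), gl h.dvd' (y⁻¹ * (g⁻¹ * y)) = 1 := fun y => by
      rw [map_mul, map_mul, map_inv, map_inv, hg, inv_one, one_mul, inv_mul_cancel]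
    refine Prod.ext ?_ (funext fun i => ?_)
    · show g⁻¹ • x.1 = x.1
      induction x.1 using QuotientGroup.induction_on with | H y =>
      rw [MulAction.Quotient.smul_mk, eq_comm, QuotientGroup.eq, smul_eq_mul]
      exact (key _ (hk y)).1
    · show g⁻¹ • x.2 i = x.2 i
      induction x.2 i using QuotientGroup.induction_on with | H y =>
      rw [MulAction.Quotient.smul_mk, eq_comm, QuotientGroup.eq, smul_eq_mul]
      exact (key _ (hk y)).2 i
  refine LinearMap.ext fun F => funext fun x => ?_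
  rw [funRep_apply, hfix]
  rfl

/-- the same data in the form of the auxiliary levels -/
abbrev tw : TWData M 3 P.k where
  N0 := P.N1
  dvd0 := P.dvd1.trans h.dvd'
  Q := P.q
  prime := P.prime
  inj := P.inj
  dvd i := (P.dvd i).trans h.dvd'
  ndvd := P.ndvd
  H _ := ⊤
  prime_p := Nat.prime_three
  p_ne_two := by decide
  index _ := ⟨0, by simp⟩

/-- the product of the further primes -/
def R : ℕ := ∏ i, P.q i

/-- the level -/
def L : ℕ := P.N1 * P.R ^ 2

instance neZero_R : NeZero P.R := ⟨Finset.prod_ne_zero_iff.mpr fun i _ => (P.prime i).ne_zero⟩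

instance neZero_L [NeZero M'] : NeZero P.L :=
  ⟨mul_ne_zero (fun h => NeZero.ne M' (zero_dvd_iff.mp (h ▸ P.dvd1)))
    (pow_ne_zero 2 (NeZero.ne P.R))⟩

theorem dvd_of_dvd_L {l : ℕ} (hl : l.Prime) (hlL : l ∣ P.L) : l ∣ M' := by
  rcases (Nat.Prime.dvd_mul hl).mp hlL with h | h
  · exact h.trans P.dvd1
  · obtain ⟨i, -, hi⟩ := (hl.prime.dvd_finsetProd_iff _).mp (hl.dvd_of_dvd_pow h)
    exact hi.trans (P.dvd i)

include h in
theorem not_dvd_p : ¬ p ∣ P.L := fun hp =>
  h.prime.coprime_iff_not_dvd.mp h.coprime (P.dvd_of_dvd_L h.prime hp)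

theorem dvd_R : P.R ∣ P.L := (dvd_pow_self P.R two_ne_zero).mul_left _

variable [NeZero M]

/-- the base point as level `Γ₀(L)` -/
def pt : Ihara.Pt M (P.Z h) P.R P.L where
  x := (P.tw h).baseP
  dvd := P.dvd_R
  le γ := mem_stab.mpr (congrArg Prod.fst (mem_stab.mp ((P.tw h).conj_mem_stab (L := P.L) rfl 1 γ)))
  ge δ hδ := (P.tw h).exists_conj_of_mem_stab (L := P.L) rfl 1 (δ := δ)
    (mem_stab.mpr (Prod.ext (mem_stab.mp hδ) ((P.tw h).red_smul_tor δ 1)))
  trans := (P.tw h).exists_red_smul_baseP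
  neg y := congrArg Prod.fst ((P.tw h).red_neg_one_smul_PD (y, (P.tw h).tor 1))
  move m h10 h01 hu := by
    refine Prod.ext ?_ (funext fun i => ?_)
    · show redGL M m • P1.base M P.N1 = P1.base M P.N1
      rw [P1.smul_base_eq, mem_B0, coe_redGL M hu, Matrix.map_apply, h10, Int.cast_zero]
      exact dvd_zero _
    · show redGL M m • (QuotientGroup.mk 1 : GL (Fin 2) (ZMod M) ⧸ (P.tw h).CQ i) =
        QuotientGroup.mk 1
      rw [MulAction.Quotient.smul_mk, QuotientGroup.eq]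
      simp only [smul_eq_mul, mul_one, inv_mem_iff]
      refine ⟨?_, ?_⟩ <;>
        simp only [TWData.cQ, Matrix.GeneralLinearGroup.map_apply, coe_redGL M hu, Matrix.map_apply,
          h10, map_intCast, Int.cast_zero, _root_.map_zero]
      rw [ZMod.intCast_zmod_eq_zero_iff_dvd]
      exact (Int.natCast_dvd_natCast.mpr (Finset.dvd_prod_of_mem P.q (Finset.mem_univ i))).trans h01
  dvdM l hl hlL := (P.dvd_of_dvd_L hl hlL).trans h.dvd'

theorem pt_x : (P.pt h).x = (P.tw h).baseP := rfl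

variable [NeZero M']

/-- the base point with the line at `p` as level `Γ₀(L p)` -/
def ptP : Ihara.Pt M (P1 M p × P.Z h) P.R (P.L * p) where
  x := (P1.base M p, (P.pt h).x)
  dvd := P.dvd_R.mul_right p
  le γ := by
    refine mem_stab.mpr (Prod.ext ?_ ?_)
    · refine mem_stab.mp (Gamma0_le_stab M p (Gamma0_mem.mpr
        ((ZMod.intCast_zmod_eq_zero_iff_dvd _ _).mpr ?_)))
      show (p : ℤ) ∣ (γ : SL(2, ℤ)).1 1 0 / P.R
      refine Int.dvd_div_of_mul_dvd (dvd_trans ?_
        ((ZMod.intCast_zmod_eq_zero_iff_dvd _ _).mp (Gamma0_mem.mp γ.2)))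
      exact_mod_cast mul_dvd_mul_right P.dvd_R p
    · have hle := mem_stab.mp ((P.pt h).le ⟨γ, LR.Gamma0_le_of_dvd (dvd_mul_right P.L p) γ.2⟩)
      exact hle
  ge δ hδ := by
    have h' := mem_stab.mp hδ
    obtain ⟨γ, rfl⟩ := (P.pt h).ge δ (mem_stab.mpr (congrArg Prod.snd h'))
    have h1 : conjHom P.dvd_R γ ∈ stab M (P1.base M p) := mem_stab.mpr (congrArg Prod.fst h')
    rw [stab_base h.dvdP] at h1
    have h2 : (p : ℤ) ∣ (γ : SL(2, ℤ)).1 1 0 / P.R :=
      (ZMod.intCast_zmod_eq_zero_iff_dvd _ _).mp (Gamma0_mem.mp h1)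
    have h3 := (h2.mul_right (P.R : ℤ))
    rw [Int.ediv_mul_cancel (dvd_gamma0 P.dvd_R γ)] at h3
    have hmem : (γ : SL(2, ℤ)) ∈ Gamma0 (P.L * p) := by
      refine Gamma0_mem.mpr ((ZMod.intCast_zmod_eq_zero_iff_dvd _ _).mpr ?_)
      rw [Nat.cast_mul]
      refine IsCoprime.mul_dvd ?_ ((ZMod.intCast_zmod_eq_zero_iff_dvd _ _).mp (Gamma0_mem.mp γ.2))
        h3
      exact Int.isCoprime_iff_nat_coprime.mpr
        (by simpa using (h.prime.coprime_iff_not_dvd.mpr (P.not_dvd_p h)).symm)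
    exact ⟨⟨γ, hmem⟩, Subtype.ext rfl⟩
  trans y := by
    obtain ⟨γ1, h1⟩ := P1.transitive y.1
    obtain ⟨γ2, h2⟩ := (P.pt h).trans y.2
    obtain ⟨δ, hδ⟩ := exists_SL_forall_modEq (fun b : Bool => bif b then p else M')
      (fun b => by cases b; exacts [NeZero.ne M', h.prime.ne_zero])
      (fun a b hab => by
        cases a <;> cases b
        · exact absurd rfl hab
        · exact h.coprime.symm
        · exact h.coprime
        · exact absurd rfl hab)
      (fun b => bif b then γ1 else γ2)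
    have hoff : ∀ b : Bool,
        ((bif b then p else M' : ℕ) : ℤ) ∣ ((bif b then γ1 else γ2)⁻¹ * δ : SL(2, ℤ)).1 1 0 ∧
        ((bif b then p else M' : ℕ) : ℤ) ∣ ((bif b then γ1 else γ2)⁻¹ * δ : SL(2, ℤ)).1 0 1 := by
      intro b
      have hmod : ∀ i j, ((δ.1 i j : ℤ) : ZMod (bif b then p else M')) =
          (((bif b then γ1 else γ2 : SL(2, ℤ)).1 i j : ℤ) : ZMod (bif b then p else M')) :=
        fun i j => by
          rw [← sub_eq_zero, ← Int.cast_sub, ZMod.intCast_zmod_eq_zero_iff_dvd]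
          exact hδ b i j
      constructor <;>
      · rw [← ZMod.intCast_zmod_eq_zero_iff_dvd, Matrix.SpecialLinearGroup.coe_mul,
          Matrix.SpecialLinearGroup.coe_inv, Matrix.adjugate_fin_two, Matrix.mul_apply,
          Fin.sum_univ_two]
        simp [hmod]
        ring
    refine ⟨δ, Prod.ext ?_ ?_⟩
    · have e := mem_stab.mp (Gamma0_le_stab M p (Gamma0_mem.mpr
        ((ZMod.intCast_zmod_eq_zero_iff_dvd _ _).mpr (hoff true).1)))
      simp only [cond_true, map_mul, map_inv, mul_smul, inv_smul_eq_iff] at e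
      exact e.trans h1
    · obtain ⟨a10, a01⟩ := hoff false
      have e : red M (γ2⁻¹ * δ) • (P.pt h).x = (P.pt h).x :=
        (P.tw h).red_mem_stab_baseP ((Int.natCast_dvd_natCast.mpr P.dvd1).trans a10) fun i =>
          ⟨(Int.natCast_dvd_natCast.mpr (P.dvd i)).trans a10,
            (Int.natCast_dvd_natCast.mpr (P.dvd i)).trans a01⟩
      rw [map_mul, map_inv, mul_smul, inv_smul_eq_iff] at e
      exact e.trans h2
  neg y := Prod.ext (P1.red_neg_one_smul y.1) ((P.pt h).neg y.2)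
  move m h10 h01 hu := by
    refine Prod.ext ?_ ((P.pt h).move m h10 h01 hu)
    show redGL M m • P1.base M p = P1.base M p
    rw [P1.smul_base_eq, mem_B0, coe_redGL M hu, Matrix.map_apply, h10, Int.cast_zero]
    exact dvd_zero _
  dvdM l hl hlL := ((Nat.Prime.dvd_mul hl).mp hlL).elim
    (fun hd => (P.dvd_of_dvd_L hl hd).trans h.dvd') fun hd => hd.trans h.dvdP

theorem ptP_x : (P.ptP h).x = (P1.base M p, (P.pt h).x) := rfl

end PairData

/-- eigenvalue `1` at primes congruent to one, outside any finite set -/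
def OddAtOne {M : ℕ} (s : Sys M (Lam 0)) : Prop :=
  ∀ (M0 : ℕ) (S : Finset ℕ), 0 < M0 →
    ∃ l, l.Prime ∧ l % M0 = 1 % M0 ∧ l ∉ S ∧ ¬ l ∣ M ∧ l ∉ s.bad ∧ s.eig l = 1

end FLTAgent.R2.Lv

end
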