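import Mathlib

/-!
Area R2, parcel G5: functionals fixed by commuting operators of two-power order.
-/

set_option autoImplicit false
set_option linter.style.haveILetI false

noncomputable section

namespace FLTAgent.R2.Lv

/-- the defect of invariance of a functional with values in `ℤ/2` -/
def invDefect {R H : Type*} [Semiring R] [AddCommMonoid H] [Module R H] (a : Module.End R H)
    (χ : H →+ ZMod 2) : H →+ ZMod 2 :=
  χ.comp a.toAddMonoidHom + χ

lemma invDefect_iterate {R H : Type*} [Semiring R] [AddCommMonoid H] [Module R H]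
    (k : ℕ) (a : Module.End R H) (χ : H →+ ZMod 2) :
    (invDefect a)^[2 ^ k] χ = invDefect (a ^ 2 ^ k) χ := by
  induction k generalizing χ with
  | zero => simp
  | succ k ih =>
    rw [pow_succ, mul_two, Function.iterate_add_apply, ih, ih]
    ext x
    rw [← mul_two, pow_mul]
    simp only [invDefect, AddMonoidHom.add_apply, AddMonoidHom.comp_apply,
      LinearMap.toAddMonoidHom_coe, sq, Module.End.mul_apply]
    set y := χ ((a ^ 2 ^ k) x)
    rw [add_add_add_comm, add_comm (χ ((a ^ 2 ^ k) ((a ^ 2 ^ k) x))) (χ x)]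
    linear_combination CharTwo.add_self_eq_zero y

lemma invDefect_comm {R H : Type*} [Semiring R] [AddCommMonoid H] [Module R H]
    {a b : Module.End R H} (hab : Commute a b) (χ : H →+ ZMod 2) :
    invDefect a (invDefect b χ) = invDefect b (invDefect a χ) := by
  ext x
  have h : a (b x) = b (a x) := LinearMap.congr_fun hab.eq x
  simp only [invDefect, AddMonoidHom.add_apply, AddMonoidHom.comp_apply,
    LinearMap.toAddMonoidHom_coe, h]
  ring

/-- a nonzero functional killing a stable set yields a nonzero invariant one -/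
theorem exists_invariant {R H : Type*} [Semiring R] [AddCommMonoid H] [Module R H] {ι : Type*}
    (a : ι → Module.End R H) (hcomm : ∀ i j, Commute (a i) (a j))
    (hord : ∀ i, ∃ k : ℕ, a i ^ 2 ^ k = 1) (G : Set H) (hG : ∀ i, ∀ x ∈ G, a i x ∈ G)
    (S : Finset ι) {χ : H →+ ZMod 2} (hχ : χ ≠ 0) (hk : ∀ x ∈ G, χ x = 0) :
    ∃ χ' : H →+ ZMod 2, χ' ≠ 0 ∧ (∀ x ∈ G, χ' x = 0) ∧ ∀ i ∈ S, ∀ x, χ' (a i x) = χ' x := by
  classical
  induction S using Finset.induction_on with
  | empty => exact ⟨χ, hχ, hk, by simp⟩
  | insert i S _ ih =>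
    obtain ⟨θ, hθ, hθG, hθS⟩ := ih
    obtain ⟨k, hkord⟩ := hord i
    have hex : ∃ m : ℕ, (invDefect (a i))^[m] θ = 0 := by
      refine ⟨2 ^ k, ?_⟩
      rw [invDefect_iterate, hkord]
      ext x
      simp [invDefect, CharTwo.add_self_eq_zero]
    obtain ⟨m, hm⟩ : ∃ m, Nat.find hex = m + 1 := by
      refine Nat.exists_eq_succ_of_ne_zero fun h => hθ ?_
      have := Nat.find_spec hex
      rwa [h, Function.iterate_zero_apply] at this
    have hz := Nat.find_spec hex
    rw [hm, Function.iterate_succ_apply'] at hz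
    have hfix : ∀ χ : H →+ ZMod 2, ∀ b : Module.End R H,
        invDefect b χ = 0 ↔ ∀ x, χ (b x) = χ x := by
      intro χ b
      rw [DFunLike.ext_iff]
      simp only [invDefect, AddMonoidHom.add_apply, AddMonoidHom.comp_apply,
        LinearMap.toAddMonoidHom_coe, AddMonoidHom.zero_apply, CharTwo.add_eq_zero]
    refine ⟨(invDefect (a i))^[m] θ, Nat.find_min hex (by omega), ?_, ?_⟩
    · have : ∀ n, ∀ x ∈ G, (invDefect (a i))^[n] θ x = 0 := by
        intro n
        induction n with
        | zero => exact hθG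
        | succ n ih =>
          intro x hx
          rw [Function.iterate_succ_apply']
          simp [invDefect, ih x hx, ih _ (hG i x hx)]
      exact this m
    · intro j hj
      rw [← hfix]
      rcases Finset.mem_insert.1 hj with rfl | hj
      · exact hz
      · have h0 := (hfix θ (a j)).2 (hθS j hj)
        have : ∀ n, invDefect (a j) ((invDefect (a i))^[n] θ) = 0 := by
          intro n
          induction n with
          | zero => exact h0
          | succ n ih =>
            rw [Function.iterate_succ_apply', invDefect_comm (hcomm j i), ih]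
            ext x; simp [invDefect]
        exact this m

/-- a proper submodule of a module killed by a power of two is killed by a functional -/
theorem exists_functional {R H : Type*} [CommRing R] [AddCommGroup H] [Module R H] {k : ℕ}
    (h2 : ∀ x : H, (2 ^ k) • x = 0) {G : Submodule R H} (hG : G ≠ ⊤) :
    ∃ χ : H →+ ZMod 2, χ ≠ 0 ∧ ∀ x ∈ G, χ x = 0 := by
  set D : AddSubgroup H := G.toAddSubgroup ⊔ (nsmulAddMonoidHom 2 : H →+ H).range with hD
  have hne : D ≠ ⊤ := by
    intro htop
    apply hG
    have key : ∀ j : ℕ, ∀ x : H, ∃ y : H, x - (2 ^ j) • y ∈ G := by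
      intro j
      induction j with
      | zero => exact fun x => ⟨x, by simp⟩
      | succ j ih =>
        intro x
        obtain ⟨y, hy⟩ := ih x
        obtain ⟨g, hg, z, ⟨w, rfl⟩, hgz⟩ := AddSubgroup.mem_sup.1 (htop ▸ AddSubgroup.mem_top y : y ∈ D)
        refine ⟨w, ?_⟩
        have e : x - (2 ^ (j + 1)) • w = (x - (2 ^ j) • y) + (2 ^ j) • g := by
          rw [← hgz, smul_add, pow_succ, mul_smul]
          simp only [nsmulAddMonoidHom_apply]
          abel
        rw [e]
        exact G.add_mem hy (nsmul_mem (G.mem_toAddSubgroup.1 hg) _)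
    refine eq_top_iff.2 fun x _ => ?_
    obtain ⟨y, hy⟩ := key k x
    rwa [h2 y, sub_zero] at hy
  obtain ⟨x0, hx0⟩ : ∃ x0, x0 ∉ D := by
    by_contra hcon
    push Not at hcon
    exact hne (eq_top_iff.2 fun x _ => hcon x)
  letI : Module (ZMod 2) (H ⧸ D) := AddCommGroup.zmodModule fun q => by
    induction q using QuotientAddGroup.induction_on with
    | H x =>
      rw [← QuotientAddGroup.mk_nsmul, QuotientAddGroup.eq_zero_iff]
      exact le_sup_right (a := G.toAddSubgroup) ⟨x, rfl⟩
  have hq : (x0 : H ⧸ D) ≠ 0 := fun h => hx0 ((QuotientAddGroup.eq_zero_iff x0).1 h)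
  obtain ⟨ψ, hψ⟩ : ∃ ψ : Module.Dual (ZMod 2) (H ⧸ D), ψ (x0 : H ⧸ D) ≠ 0 := by
    by_contra hcon
    push Not at hcon
    exact hq ((Module.forall_dual_apply_eq_zero_iff (ZMod 2) _).1 hcon)
  refine ⟨ψ.toAddMonoidHom.comp (QuotientAddGroup.mk' D), fun h => hψ ?_, fun x hx => ?_⟩
  · exact DFunLike.congr_fun h x0
  · show ψ (x : H ⧸ D) = 0
    rw [(QuotientAddGroup.eq_zero_iff x).2 (le_sup_left (b := (nsmulAddMonoidHom 2 : H →+ H).range) hx), map_zero]

/-- a square-zero map with kernel equal to its image -/
theorem exists_half_basis {F M : Type*} [Field F] [AddCommGroup M] [Module F M]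
    [FiniteDimensional F M] (t : M →ₗ[F] M) (h : t.ker = t.range) :
    ∃ w : Fin (Module.finrank F t.range) → M, Module.finrank F M = 2 * Module.finrank F t.range ∧
      Submodule.span F (Set.range w) ⊔ t.range = ⊤ := by
  let b := Module.finBasis F t.range
  choose w hw using fun i => (b i).2
  refine ⟨w, ?_, ?_⟩
  · rw [← t.finrank_range_add_finrank_ker, h, two_mul]
  · refine eq_top_iff.2 fun a _ => ?_
    have ha : t a = ∑ i, b.repr ⟨t a, LinearMap.mem_range_self t a⟩ i • t (w i) := by
      have := congrArg Subtype.val (b.sum_repr ⟨t a, LinearMap.mem_range_self t a⟩)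
      rw [Submodule.coe_sum] at this
      simp only [Submodule.coe_smul, ← hw] at this
      exact this.symm
    set y := ∑ i, b.repr ⟨t a, LinearMap.mem_range_self t a⟩ i • w i with hy
    have hker : a - y ∈ t.range := by
      rw [← h, LinearMap.mem_ker, map_sub, hy, map_sum]
      simp only [map_smul]
      rw [← ha, sub_self]
    have hys : y ∈ Submodule.span F (Set.range w) :=
      Submodule.sum_mem _ fun i _ => Submodule.smul_mem _ _ (Submodule.subset_span ⟨i, rfl⟩)
    rw [show a = y + (a - y) by abel]
    exact Submodule.add_mem_sup hys hker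

end FLTAgent.R2.Lv

end
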