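import Fermat.Agent.R2.Defs
import Fermat.Agent.R2.LevelSignAux

/-!
Area R2, parcel G5: the sign part of a module with an operator whose square generates diamonds of
order two is free over the other diamonds.
-/

set_option autoImplicit false
set_option linter.style.haveILetI false

noncomputable section

namespace FLTAgent.R2.Lv

/-- combinations of translates of a family by `Δ` and by powers of an operator -/
def combMap {N d k : ℕ} {H : Type*} [AddCommGroup H] [Module (Lam N) H] {Δ : Type*} [CommGroup Δ]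
    [Fintype Δ] (dia : Δ →* Module.End (Lam N) H) (a : Module.End (Lam N) H) (e : Fin d → H) :
    (Fin d → Δ → Fin k → Lam N) →ₗ[Lam N] H where
  toFun c := ∑ j, ∑ u, ∑ s, c j u s • dia u ((a ^ (s : ℕ)) (e j))
  map_add' c c' := by simp [add_smul, Finset.sum_add_distrib]
  map_smul' r c := by simp [mul_smul, Finset.smul_sum]

lemma dia_combMap {N d k : ℕ} {H : Type*} [AddCommGroup H] [Module (Lam N) H] {Δ : Type*}
    [CommGroup Δ] [Fintype Δ] (dia : Δ →* Module.End (Lam N) H) (a : Module.End (Lam N) H)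
    (e : Fin d → H) (v : Δ) (c : Fin d → Δ → Fin k → Lam N) :
    dia v (combMap dia a e c) = combMap dia a e fun j u => c j (v⁻¹ * u) := by
  simp only [combMap, LinearMap.coe_mk, AddHom.coe_mk, map_sum, map_smul]
  refine Finset.sum_congr rfl fun j _ => ?_
  refine Fintype.sum_equiv (Equiv.mulLeft v) _ _ fun u => ?_
  simp [map_mul, Module.End.mul_apply]

lemma shift_combMap {N d k : ℕ} {H : Type*} [AddCommGroup H] [Module (Lam N) H] {Δ : Type*}
    [CommGroup Δ] [Fintype Δ] (dia : Δ →* Module.End (Lam N) H) (a : Module.End (Lam N) H)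
    (hcomm : ∀ u, Commute (dia u) a) (hord : a ^ (k + 1) = 1) (e : Fin d → H)
    (c : Fin d → Δ → Fin (k + 1) → Lam N) :
    a (combMap dia a e c) = combMap dia a e fun j u s => c j u (s - 1) := by
  simp only [combMap, LinearMap.coe_mk, AddHom.coe_mk, map_sum, map_smul]
  refine Finset.sum_congr rfl fun j _ => Finset.sum_congr rfl fun u _ => ?_
  refine Fintype.sum_equiv (Equiv.addRight 1) _ _ fun s => ?_
  simp only [Equiv.coe_addRight, add_sub_cancel_right]
  congr 1
  have h1 : a (dia u ((a ^ (s : ℕ)) (e j))) = dia u ((a ^ ((s : ℕ) + 1)) (e j)) := by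
    rw [pow_succ' a, Module.End.mul_apply]
    exact (LinearMap.congr_fun (hcomm u).eq ((a ^ (s : ℕ)) (e j))).symm
  have h2 : a ^ ((s : ℕ) + 1) = a ^ ((s + 1 : Fin (k + 1)) : ℕ) := by
    rw [pow_eq_pow_mod ((s : ℕ) + 1) hord, Fin.val_add, Fin.val_one', Nat.add_mod_mod]
  rw [h1, h2]

/-- if `H` is free over `Λ[Δ × ⟨g⟩]`, `g` of order two and `V² = g`, then the kernel of `V + ε` is
free over `Λ[Δ]` of half the rank -/
theorem free_sign_part {N n d : ℕ} {H : Type*} [AddCommGroup H] [Module (Lam N) H] {Δ : Type*}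
    [CommGroup Δ] [Fintype Δ] (hΔ : ∀ u : Δ, u ^ 2 ^ n = 1)
    (dia : Δ →* Module.End (Lam N) H) (g V : Module.End (Lam N) H) (hV : V * V = g)
    (hg : g * g = 1) (hcomm : ∀ u, Commute (dia u) V) (e : Fin d → H)
    (he : Function.Bijective fun c : Fin d → Δ → Fin 2 → Lam N =>
      ∑ j, ∑ u, ∑ s, c j u s • dia u ((g ^ (s : ℕ)) (e j))) (ε : ℤˣ) :
    ∃ (d' : ℕ) (e' : Fin d' → H), d = 2 * d' ∧
      Function.Injective (fun c : Fin d' → Δ → Lam N => ∑ j, ∑ u, c j u • dia u (e' j)) ∧
      ∀ x : H, V x + ((ε : ℤ) : Lam N) • x = 0 ↔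
        ∃ c : Fin d' → Δ → Lam N, ∑ j, ∑ u, c j u • dia u (e' j) = x := by
  classical
  haveI : Fact (Nat.Prime 2) := ⟨Nat.prime_two⟩
  let q : Lam N →+* ZMod 2 := ZMod.castHom (dvd_pow_self 2 N.succ_ne_zero) (ZMod 2)
  have hcg : ∀ u, Commute (dia u) g := fun u => hV ▸ (hcomm u).mul_right (hcomm u)
  have hVg : Commute V g := by
    rw [← hV]; exact (Commute.refl V).mul_right (Commute.refl V)
  have hg2 : g ^ (1 + 1) = 1 := by rw [show (1 + 1 : ℕ) = 2 from rfl, sq, hg]
  have hV4 : V ^ (3 + 1) = 1 := by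
    rw [show (3 + 1 : ℕ) = 2 * 2 from rfl, pow_mul, sq, sq, hV, hg]
  let E : (Fin d → Δ → Fin 2 → Lam N) ≃ₗ[Lam N] H := LinearEquiv.ofBijective (combMap dia g e) he
  have hE : ∀ c, E c = combMap dia g e c := fun c => rfl
  -- reduction of coordinates
  let ρ : H →+ (Fin d → Fin 2 → ZMod 2) :=
    { toFun := fun x j s => ∑ u, q (E.symm x j u s)
      map_zero' := by ext j s; simp
      map_add' := fun x y => by ext j s; simp [Finset.sum_add_distrib] }
  have hρE : ∀ c j s, ρ (E c) j s = ∑ u, q (c j u s) := fun c j s => by simp [ρ]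
  have ρdia : ∀ v x, ρ (dia v x) = ρ x := by
    intro v x
    obtain ⟨c, rfl⟩ := E.surjective x
    ext j s
    rw [hE c, dia_combMap, ← hE, ← hE, hρE, hρE]
    exact Fintype.sum_equiv (Equiv.mulLeft v⁻¹) _ _ fun u => rfl
  have ρg : ∀ x j s, ρ (g x) j s = ρ x j (s - 1) := by
    intro x j s
    obtain ⟨c, rfl⟩ := E.surjective x
    rw [hE c, shift_combMap (k := 1) dia g hcg hg2, ← hE, ← hE, hρE, hρE]
  have ρsmul : ∀ (r : Lam N) x, ρ (r • x) = q r • ρ x := by
    intro r x
    ext j s
    simp [ρ, Finset.mul_sum]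
  let pr : H →+ (Fin d → ZMod 2) :=
    { toFun := fun x j => ρ x j 0 + ρ x j 1
      map_zero' := by ext j; simp
      map_add' := fun x y => by ext j; simp only [map_add, Pi.add_apply]; ring }
  have pr_of_ρ : ∀ x, ρ x = 0 → pr x = 0 := fun x h => by ext j; simp [pr, h]
  have prdia : ∀ v x, pr (dia v x) = pr x := fun v x => by ext j; simp [pr, ρdia]
  have prg : ∀ x, pr (g x) = pr x := fun x => by
    ext j
    simp only [pr, AddMonoidHom.coe_mk, ZeroHom.coe_mk, ρg]
    exact add_comm _ _
  -- stability of the kernels under `V`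
  have ρV : ∀ x, ρ x = 0 → ρ (V x) = 0 := by
    intro x hx
    obtain ⟨c, rfl⟩ := E.surjective x
    have hc : ∀ j s, ∑ u, q (c j u s) = 0 := fun j s => by rw [← hρE c, hx]; rfl
    rw [hE]
    simp only [combMap, LinearMap.coe_mk, AddHom.coe_mk, map_sum, map_smul]
    refine Finset.sum_eq_zero fun j _ => ?_
    have hterm : ∀ u (s : Fin 2), ρ (c j u s • V (dia u ((g ^ (s : ℕ)) (e j)))) =
        q (c j u s) • ρ (V ((g ^ (s : ℕ)) (e j))) := by
      intro u s
      rw [ρsmul, ← Module.End.mul_apply V (dia u), ← (hcomm u).eq, Module.End.mul_apply, ρdia]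
    simp only [hterm]
    rw [Finset.sum_comm]
    refine Finset.sum_eq_zero fun s _ => ?_
    rw [← Finset.sum_smul, hc, zero_smul]
  have ker_g : ∀ x, ρ (g x - x) = 0 → pr x = 0 := by
    intro x hx
    ext j
    have h := congrFun (congrFun hx j) 0
    rw [map_sub, Pi.sub_apply, Pi.sub_apply, ρg, Pi.zero_apply, Pi.zero_apply, sub_eq_zero] at h
    show ρ x j 0 + ρ x j 1 = 0
    rw [show (0 : Fin 2) - 1 = 1 from rfl] at h
    rw [h]; exact CharTwo.add_self_eq_zero _
  have exists_b : ∀ x, pr x = 0 → ∃ b, ρ (x - (g b - b)) = 0 := by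
    intro x hx
    refine ⟨E fun j u s => if u = 1 ∧ s = 0 then (((ρ x j 0).val : ℕ) : Lam N) else 0, ?_⟩
    ext j s
    have h01 : ρ x j 1 = ρ x j 0 := by
      have h := congrFun hx j
      exact (CharTwo.add_eq_zero.1 h).symm
    have hb : ∀ s : Fin 2,
        ρ (E fun j u s => if u = 1 ∧ s = 0 then (((ρ x j 0).val : ℕ) : Lam N) else 0) j s =
          if s = 0 then ρ x j 0 else 0 := by
      intro s
      rw [hρE]
      by_cases hs : s = 0
      · simp [hs, apply_ite q]
      · simp [hs]
    rw [map_sub, map_sub, Pi.sub_apply, Pi.sub_apply, Pi.sub_apply, Pi.sub_apply, ρg, hb, hb]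
    fin_cases s
    · simp [CharTwo.sub_eq_add]
    · simp [h01]
  have prV : ∀ x, pr x = 0 → pr (V x) = 0 := by
    intro x hx
    obtain ⟨b, hb⟩ := exists_b x hx
    have h1 := pr_of_ρ _ (ρV _ hb)
    have e1 : V (g b) = g (V b) := LinearMap.congr_fun hVg.eq b
    rw [map_sub V, map_sub V (g b) b, e1, map_sub pr, map_sub pr (g (V b)), prg, sub_self, sub_zero] at h1
    exact h1
  have prsmul2 : ∀ x : H, ρ (x + x) = 0 := fun x => by
    ext j s; simp [CharTwo.add_self_eq_zero]
  -- the induced map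
  let sec : (Fin d → ZMod 2) → H := fun a =>
    E fun j u s => if u = 1 ∧ s = 0 then (((a j).val : ℕ) : Lam N) else 0
  have hsec : ∀ a, pr (sec a) = a := by
    intro a
    ext j
    simp only [pr, sec, AddMonoidHom.coe_mk, ZeroHom.coe_mk, hρE]
    simp [apply_ite q]
  let T : (Fin d → ZMod 2) →+ (Fin d → ZMod 2) := AddMonoidHom.mk' (fun a => pr (V (sec a))) (by
    intro a b
    have h := prV (sec (a + b) - (sec a + sec b)) (by simp [hsec])
    rw [map_sub, map_add, map_sub, map_add, sub_eq_zero] at h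
    exact h)
  have hT : ∀ x, pr (V x) = T (pr x) := by
    intro x
    have h := prV (x - sec (pr x)) (by simp [hsec])
    rw [map_sub, map_sub, sub_eq_zero] at h
    exact h
  let t : (Fin d → ZMod 2) →ₗ[ZMod 2] (Fin d → ZMod 2) := T.toZModLinearMap 2 + LinearMap.id
  have ht : ∀ x, t (pr x) = pr (V x - x) := by
    intro x
    show T (pr x) + pr x = _
    rw [map_sub, hT]
    ext j
    simp [CharTwo.sub_eq_add]
  have htt : ∀ x, V (V x - x) - (V x - x) = (g x - x) - ((V x - x) + (V x - x)) := by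
    intro x
    rw [map_sub, ← Module.End.mul_apply V V, hV]
    abel
  have hkr : t.ker = t.range := by
    refine le_antisymm (fun a ha => ?_) ?_
    · rw [LinearMap.mem_ker, ← hsec a, ht] at ha
      obtain ⟨b, hb⟩ := exists_b _ ha
      set z := sec a - (V b - b) with hz
      have h0 : V (sec a) - sec a - (g b - b) + ((V b - b) + (V b - b)) = V z - z := by
        rw [hz, map_sub]
        linear_combination (norm := abel) htt b
      have hρ : ρ (V z - z) = 0 := by rw [← h0, map_add, hb, prsmul2, add_zero]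
      have hρ2 : ρ (g z - z) = 0 := by
        have e' := congrArg ρ (htt z)
        rw [map_sub ρ (V (V z - z)), map_sub ρ (g z - z), ρV _ hρ, hρ, prsmul2, sub_zero,
          sub_zero] at e'
        exact e'.symm
      refine ⟨pr b, ?_⟩
      rw [ht, ← hsec a, eq_comm, ← sub_eq_zero, ← map_sub, ← hz]
      exact ker_g z hρ2
    · rintro _ ⟨a, rfl⟩
      rw [LinearMap.mem_ker, ← hsec a, ht, ht, htt]
      rw [map_sub, map_sub (f := pr) (g (sec a)), prg, sub_self, zero_sub, neg_eq_zero]
      exact pr_of_ρ _ (prsmul2 _)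
  obtain ⟨d', w, hdim, hspan⟩ : ∃ (d' : ℕ) (w : Fin d' → Fin d → ZMod 2), d = 2 * d' ∧
      Submodule.span (ZMod 2) (Set.range w) ⊔ t.range = ⊤ := by
    obtain ⟨w, h1, h2⟩ := exists_half_basis t hkr
    rw [Module.finrank_fin_fun] at h1
    exact ⟨_, w, h1, h2⟩
  let f : Fin d' → H := fun i => sec (w i)
  let Ψ := combMap (k := 3 + 1) dia V f
  -- generation
  have hsurj : Ψ.range = ⊤ := by
    by_contra hne
    have h2 : ∀ x : H, (2 ^ (N + 1)) • x = 0 := fun x => by
      rw [← Nat.cast_smul_eq_nsmul (Lam N), ZMod.natCast_self, zero_smul]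
    obtain ⟨χ0, hχ0, hk0⟩ := exists_functional h2 hne
    let op : Option Δ → Module.End (Lam N) H := fun o => o.elim V fun u => dia u
    obtain ⟨χ, hχ, hkill, hinv⟩ := exists_invariant op
      (by
        rintro (_ | u) (_ | v)
        · exact Commute.refl V
        · exact (hcomm v).symm
        · exact hcomm u
        · show dia u * dia v = dia v * dia u
          rw [← map_mul, ← map_mul, mul_comm])
      (by
        rintro (_ | u)
        · exact ⟨2, hV4⟩
        · exact ⟨n, by show dia u ^ 2 ^ n = 1; rw [← map_pow, hΔ, map_one]⟩)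
      (Ψ.range : Set H)
      (by
        rintro (_ | u) _ ⟨c, rfl⟩
        · exact ⟨_, (shift_combMap dia V hcomm hV4 f c).symm⟩
        · exact ⟨_, (dia_combMap dia V f u c).symm⟩)
      Finset.univ hχ0 hk0
    have hinvV : ∀ x, χ (V x) = χ x := hinv none (Finset.mem_univ _)
    have hinvD : ∀ u x, χ (dia u x) = χ x := fun u => hinv (some u) (Finset.mem_univ _)
    have hinvg : ∀ x, χ (g x) = χ x := fun x => by
      rw [← hV, Module.End.mul_apply, hinvV, hinvV]
    have hsm : ∀ (r : Lam N) x, χ (r • x) = q r * χ x := by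
      intro r x
      rw [← ZMod.natCast_zmod_val r, Nat.cast_smul_eq_nsmul, map_nsmul, map_natCast, nsmul_eq_mul]
    let ψ : (Fin d → ZMod 2) →ₗ[ZMod 2] ZMod 2 :=
      { toFun := fun a => ∑ j, a j * χ (e j)
        map_add' := fun a b => by simp [add_mul, Finset.sum_add_distrib]
        map_smul' := fun r a => by simp [Finset.mul_sum, mul_assoc] }
    have hψ : ∀ x, χ x = ψ (pr x) := by
      intro x
      obtain ⟨c, rfl⟩ := E.surjective x
      show χ (E c) = ∑ j, (ρ (E c) j 0 + ρ (E c) j 1) * χ (e j)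
      simp only [hρE]
      rw [hE]
      simp only [combMap, LinearMap.coe_mk, AddHom.coe_mk, map_sum, map_add, hsm, hinvD, Fin.sum_univ_two,
        Fin.val_zero, Fin.val_one, pow_zero, pow_one, Module.End.one_apply, hinvg]
      refine Finset.sum_congr rfl fun j _ => ?_
      rw [Finset.sum_add_distrib, add_mul, Finset.sum_mul, Finset.sum_mul]
    apply hχ
    ext x
    rw [hψ x, AddMonoidHom.zero_apply]
    have hmem : pr x ∈ Submodule.span (ZMod 2) (Set.range w) ⊔ t.range :=
      by rw [hspan]; trivial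
    obtain ⟨a, ha, b, hb, hab⟩ := Submodule.mem_sup.1 hmem
    rw [← hab, map_add]
    have h1 : ψ a = 0 := by
      refine Submodule.span_induction ?_ (map_zero ψ) (fun _ _ _ _ h h' => by rw [map_add, h, h', add_zero])
        (fun r _ _ h => by rw [map_smul, h, smul_zero]) ha
      rintro _ ⟨i, rfl⟩
      rw [← hsec (w i), ← hψ]
      refine hkill _ ⟨fun j u s => if j = i ∧ u = 1 ∧ s = 0 then 1 else 0, ?_⟩
      simp [Ψ, combMap, ite_and, f]
    have h2' : ψ b = 0 := by
      obtain ⟨y, rfl⟩ := hb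
      rw [← hsec y, ht, ← hψ, map_sub, hinvV, sub_self]
    rw [h1, h2', add_zero]
  have hbij : Function.Bijective Ψ := by
    haveI : Finite H := Finite.of_equiv _ E.toEquiv
    refine (LinearMap.range_eq_top.1 hsurj).bijective_of_nat_card_le ?_
    rw [← Nat.card_congr E.toEquiv]
    simp only [Nat.card_eq_fintype_card, Fintype.card_fun, Fintype.card_fin, ← pow_mul]
    refine le_of_eq ?_
    congr 1
    rw [hdim]
    ring
  -- the sign part
  let η : Lam N := -((ε : ℤ) : Lam N)
  have hε2 : ((ε : ℤ) : Lam N) * ((ε : ℤ) : Lam N) = 1 := by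
    rw [← Int.cast_mul, Int.units_coe_mul_self, Int.cast_one]
  have hη2 : η * η = 1 := by simp only [η]; linear_combination hε2
  let Q : Module.End (Lam N) H := ∑ s : Fin (3 + 1), η ^ (s : ℕ) • V ^ (s : ℕ)
  refine ⟨d', fun i => Q (f i), hdim, ?_, ?_⟩
  all_goals
    have hexp : ∀ c : Fin d' → Δ → Lam N, ∑ j, ∑ u, c j u • dia u (Q (f j)) =
        Ψ fun j u s => c j u * η ^ (s : ℕ) := by
      intro c
      simp only [Q, Ψ, combMap, LinearMap.coe_mk, AddHom.coe_mk, LinearMap.sum_apply,
        LinearMap.smul_apply, map_sum, map_smul, Finset.smul_sum, smul_smul]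
  · intro c c' h
    simp only [hexp] at h
    funext j u
    have := congrFun (congrFun (congrFun (hbij.1 h) j) u) 0
    simpa using this
  · intro x
    obtain ⟨c, rfl⟩ := hbij.2 x
    rw [shift_combMap dia V hcomm hV4 f c, ← map_smul, ← map_add, ← map_zero Ψ,
      hbij.1.eq_iff]
    simp only [hexp, hbij.1.eq_iff]
    constructor
    · intro h
      refine ⟨fun j u => c j u 0, ?_⟩
      have hr : ∀ j u s, c j u s = η * c j u (s - 1) := by
        intro j u s
        have h1 := congrFun (congrFun (congrFun h j) u) s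
        simp only [Pi.add_apply, Pi.smul_apply, smul_eq_mul, Pi.zero_apply] at h1
        simp only [η]
        linear_combination ((ε : ℤ) : Lam N) * h1 - c j u s * hε2
      funext j u s
      fin_cases s
      · simp
      · simpa [mul_comm] using (hr j u 1).symm
      · have a1 := hr j u 1
        have a2 := hr j u 2
        simp at a1 a2 ⊢
        rw [a2, a1]; ring
      · have a1 := hr j u 1
        have a2 := hr j u 2
        have a3 := hr j u 3
        simp at a1 a2 a3 ⊢
        rw [a3, a2, a1]; ring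
    · rintro ⟨c0, rfl⟩
      funext j u s
      simp only [Pi.add_apply, Pi.smul_apply, smul_eq_mul, Pi.zero_apply]
      have hεη : ((ε : ℤ) : Lam N) = -η := by simp [η]
      rw [hεη]
      fin_cases s
      · show c0 j u * η ^ 3 + -η * (c0 j u * η ^ 0) = 0
        linear_combination c0 j u * η * hη2
      all_goals simp
      · linear_combination (-(c0 j u)) * hη2
      · linear_combination (-(c0 j u) * η) * hη2
      · linear_combination (-(c0 j u) * η ^ 2) * hη2

end FLTAgent.R2.Lv

end
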