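import Fermat.Agent.R2.LevelSign
import Fermat.Agent.R2.LevelKer

/-!
Area R2, parcel G5: the sign part of a free module over a diamond group with a chosen complement of
the diamond of order two, inside an ambient module.
-/

set_option autoImplicit false
set_option linter.style.haveILetI false
set_option linter.unusedSectionVars false

noncomputable section

namespace FLTAgent.R2.Lv

variable {N : ℕ} {H : Type*} [AddCommGroup H] [Module (Lam N) H] (K : Submodule (Lam N) H)
  {G Δ C : Type*} [CommGroup G] [Fintype G] [CommGroup Δ] [Fintype Δ] [Fintype C]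
  (dia : G →* Module.End (Lam N) H) (hdia : ∀ u, ∀ x ∈ K, dia u x ∈ K)
  (ι : Δ →* G) (g : G) (hb : Function.Bijective fun z : Δ × Fin 2 => ι z.1 * g ^ (z.2 : ℕ))
  (hgg : g * g = 1) {m : ℕ} (hΔ : ∀ u : Δ, u ^ 2 ^ m = 1)
  (V : Module.End (Lam N) H) (hVK : ∀ x ∈ K, V x ∈ K) (hV : V * V = dia g)
  (hcomm : ∀ u x, V (dia u x) = dia u (V x))
  {d' : ℕ} (e : Fin (2 * d') → K)
  (hinj : Function.Injective fun c : Fin (2 * d') → G → Lam N => ∑ j, ∑ u, c j u • dia u (e j).1)
  (hgen : ∀ x ∈ K, ∃ c : Fin (2 * d') → G → Lam N, ∑ j, ∑ u, c j u • dia u (e j).1 = x)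

include hb in
theorem sum_split (c : G → Lam N) (x : H) :
    ∑ u : Δ, ∑ s : Fin 2, c (ι u * g ^ (s : ℕ)) • dia (ι u) ((dia g ^ (s : ℕ)) x) =
      ∑ u, c u • dia u x := by
  rw [← Fintype.sum_prod_type']
  refine Fintype.sum_equiv (Equiv.ofBijective _ hb) _ _ fun z => ?_
  rw [Equiv.ofBijective_apply, map_mul, map_pow, Module.End.mul_apply]

theorem coe_pow_restrict {F : Module.End (Lam N) H} (hF : ∀ x ∈ K, F x ∈ K) (k : ℕ) (x : K) :
    (((F.restrict hF) ^ k) x : H) = (F ^ k) x.1 := by
  induction k generalizing x with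
  | zero => rfl
  | succ k ih =>
    rw [pow_succ (F.restrict hF) k, pow_succ F k, Module.End.mul_apply, Module.End.mul_apply, ih]
    rfl

include hdia hb hgg hΔ hVK hV hcomm hinj hgen in
/-- the sign part is free over the complement -/
theorem exists_sign_basis (ε : ℤˣ) (ψ : C → Δ) (hψ : Function.Bijective ψ) :
    ∃ e' : Fin d' → H, (∀ j, e' j ∈ K ∧ V (e' j) + ((ε : ℤ) : Lam N) • e' j = 0) ∧
      Function.Injective (fun c : Fin d' → C → Lam N =>
        ∑ j, ∑ u, c j u • dia (ι (ψ u)) (e' j)) ∧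
      ∀ x ∈ K, V x + ((ε : ℤ) : Lam N) • x = 0 →
        ∃ c : Fin d' → C → Lam N, ∑ j, ∑ u, c j u • dia (ι (ψ u)) (e' j) = x := by
  classical
  let diaK : Δ →* Module.End (Lam N) K :=
    { toFun := fun u => (dia (ι u)).restrict (hdia (ι u))
      map_one' := LinearMap.ext fun x => Subtype.ext (by
        show dia (ι 1) x.1 = x.1
        rw [map_one, map_one, Module.End.one_apply])
      map_mul' := fun u v => LinearMap.ext fun x => Subtype.ext (by
        show dia (ι (u * v)) x.1 = dia (ι u) (dia (ι v) x.1)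
        rw [map_mul, map_mul, Module.End.mul_apply]) }
  let gK : Module.End (Lam N) K := (dia g).restrict (hdia g)
  let VK : Module.End (Lam N) K := V.restrict hVK
  have hE : ∀ c : Fin (2 * d') → Δ → Fin 2 → Lam N,
      (∑ j, ∑ u, ∑ s, c j u s • diaK u ((gK ^ (s : ℕ)) (e j)) : K).1 =
        ∑ j, ∑ v, c j ((Equiv.ofBijective _ hb).symm v).1 ((Equiv.ofBijective _ hb).symm v).2 •
          dia v (e j).1 := by
    intro c
    simp only [Submodule.coe_sum, Submodule.coe_smul]
    refine Finset.sum_congr rfl fun j _ => ?_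
    rw [← sum_split dia ι g hb]
    refine Finset.sum_congr rfl fun u _ => Finset.sum_congr rfl fun s _ => ?_
    rw [show (Equiv.ofBijective _ hb).symm (ι u * g ^ (s : ℕ)) = (u, s) from
      (Equiv.ofBijective _ hb).symm_apply_apply (u, s)]
    exact congrArg (c j u s • dia (ι u) ·) (coe_pow_restrict K (hdia g) _ _)
  have hbij : Function.Bijective fun c : Fin (2 * d') → Δ → Fin 2 → Lam N =>
      ∑ j, ∑ u, ∑ s, c j u s • diaK u ((gK ^ (s : ℕ)) (e j)) := by
    refine ⟨fun c c' h => ?_, fun x => ?_⟩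
    · have h' := hinj ((hE c).symm.trans ((congrArg Subtype.val h).trans (hE c')))
      funext j u s
      have h'' := congrFun (congrFun h' j) (ι u * g ^ (s : ℕ))
      simp only [show (Equiv.ofBijective _ hb).symm (ι u * g ^ (s : ℕ)) = (u, s) from
        (Equiv.ofBijective _ hb).symm_apply_apply (u, s)] at h''
      exact h''
    · obtain ⟨c, hc⟩ := hgen x.1 x.2
      refine ⟨fun j u s => c j (ι u * g ^ (s : ℕ)), Subtype.ext ?_⟩
      rw [hE, ← hc]
      refine Finset.sum_congr rfl fun j _ => Finset.sum_congr rfl fun v _ => ?_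
      have hv := (Equiv.ofBijective _ hb).apply_symm_apply v
      exact congrArg (fun w => c j w • dia v (e j).1) hv
  obtain ⟨d₁, e', hd, hi, hiff⟩ := free_sign_part hΔ diaK gK VK
    (LinearMap.ext fun x => Subtype.ext (LinearMap.congr_fun hV x.1))
    (LinearMap.ext fun x => Subtype.ext (by
      show dia g (dia g x.1) = x.1
      rw [← Module.End.mul_apply, ← map_mul, hgg, map_one, Module.End.one_apply]))
    (fun u => LinearMap.ext fun x => Subtype.ext (hcomm (ι u) x.1).symm) e hbij ε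
  obtain rfl : d₁ = d' := by omega
  have hcoe : ∀ c : Fin d₁ → Δ → Lam N, (∑ j, ∑ u, c j u • diaK u (e' j) : K).1 =
      ∑ j, ∑ u, c j (ψ u) • dia (ι (ψ u)) (e' j).1 := by
    intro c
    simp only [Submodule.coe_sum, Submodule.coe_smul]
    exact Finset.sum_congr rfl fun j _ =>
      (Fintype.sum_equiv (Equiv.ofBijective ψ hψ) _ _ fun u => rfl).symm
  refine ⟨fun j => (e' j).1, fun j => ⟨(e' j).2, ?_⟩, fun c c' h => ?_, fun x hx hV' => ?_⟩
  · refine congrArg Subtype.val ((hiff (e' j)).2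
      ⟨fun i u => if i = j ∧ u = 1 then 1 else 0, ?_⟩)
    simp [ite_and, ite_smul]
  · have hc : ∀ (c : Fin d₁ → C → Lam N) (j : Fin d₁) (u : C),
        c j ((Equiv.ofBijective ψ hψ).symm (ψ u)) = c j u := fun c j u =>
      congrArg (c j) ((Equiv.ofBijective ψ hψ).symm_apply_apply u)
    have h' := hi (a₁ := fun j v => c j ((Equiv.ofBijective ψ hψ).symm v))
      (a₂ := fun j v => c' j ((Equiv.ofBijective ψ hψ).symm v)) (Subtype.ext (by
        rw [hcoe, hcoe]; simp only [hc]; exact h))
    funext j u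
    have h'' := congrFun (congrFun h' j) (ψ u)
    exact (hc c j u).symm.trans (h''.trans (hc c' j u))
  · obtain ⟨c, hc⟩ := (hiff ⟨x, hx⟩).1 (Subtype.ext hV')
    exact ⟨fun j u => c j (ψ u), (hcoe c).symm.trans (congrArg Subtype.val hc)⟩

include hdia hb hgg hVK hV hinj hgen in
/-- the sign part is the range of `(V - ε)(1 + g)` -/
theorem exists_eq_sign_range (ε : ℤˣ) {x : H} (hx : x ∈ K)
    (hVx : V x + ((ε : ℤ) : Lam N) • x = 0) :
    ∃ w ∈ K, (V - ((ε : ℤ) : Lam N) • 1) ((1 + dia g) w) = x := by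
  classical
  let gK : Module.End (Lam N) K := (dia g).restrict (hdia g)
  let E := Fintype.equivFin (Fin (2 * d') × Δ)
  have hval : ∀ c : Fin (Fintype.card (Fin (2 * d') × Δ)) → Fin 2 → Lam N,
      (∑ k, ∑ s, c k s • (gK ^ (s : ℕ))
        (⟨dia (ι (E.symm k).2) (e (E.symm k).1).1, hdia _ _ (e _).2⟩ : K) : K).1 =
        ∑ j, ∑ v, c (E (j, ((Equiv.ofBijective _ hb).symm v).1))
          ((Equiv.ofBijective _ hb).symm v).2 • dia v (e j).1 := by
    intro c
    simp only [Submodule.coe_sum, Submodule.coe_smul]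
    rw [← E.sum_comp, Fintype.sum_prod_type]
    refine Finset.sum_congr rfl fun j _ => ?_
    rw [← sum_split dia ι g hb]
    refine Finset.sum_congr rfl fun u _ => Finset.sum_congr rfl fun s _ => ?_
    rw [show (Equiv.ofBijective _ hb).symm (ι u * g ^ (s : ℕ)) = (u, s) from
      (Equiv.ofBijective _ hb).symm_apply_apply (u, s), coe_pow_restrict K (hdia g),
      Equiv.symm_apply_apply]
    show _ • (dia g ^ (s : ℕ)) (dia (ι u) (e j).1) = _ • dia (ι u) ((dia g ^ (s : ℕ)) (e j).1)
    rw [← map_pow, ← Module.End.mul_apply, ← map_mul, mul_comm (g ^ (s : ℕ)) (ι u), map_mul,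
      Module.End.mul_apply]
  obtain ⟨w, hw⟩ := sign_ker_eq_range gK (V.restrict hVK)
    (LinearMap.ext fun y => Subtype.ext (LinearMap.congr_fun hV y.1))
    (LinearMap.ext fun y => Subtype.ext (by
      show dia g (dia g y.1) = y.1
      rw [← Module.End.mul_apply, ← map_mul, hgg, map_one, Module.End.one_apply]))
    (fun k => ⟨dia (ι (E.symm k).2) (e (E.symm k).1).1, hdia _ _ (e _).2⟩)
    (⟨fun c c' h => by
      have h' := hinj ((hval c).symm.trans ((congrArg Subtype.val h).trans (hval c')))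
      funext k s
      obtain ⟨⟨j, u⟩, rfl⟩ := E.surjective k
      have h'' := congrFun (congrFun h' j) (ι u * g ^ (s : ℕ))
      simp only [show (Equiv.ofBijective _ hb).symm (ι u * g ^ (s : ℕ)) = (u, s) from
        (Equiv.ofBijective _ hb).symm_apply_apply (u, s)] at h''
      exact h'', fun y => by
      obtain ⟨c, hc⟩ := hgen y.1 y.2
      refine ⟨fun k s => c (E.symm k).1 (ι (E.symm k).2 * g ^ (s : ℕ)), Subtype.ext ?_⟩
      rw [hval, ← hc]
      refine Finset.sum_congr rfl fun j _ => Finset.sum_congr rfl fun v _ => ?_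
      simp only [Equiv.symm_apply_apply]
      exact congrArg (fun w => c j w • dia v (e j).1) ((Equiv.ofBijective _ hb).apply_symm_apply v)⟩)
    ε (x := ⟨x, hx⟩) (Subtype.ext hVx)
  exact ⟨w.1, w.2, congrArg Subtype.val hw⟩

end FLTAgent.R2.Lv

end
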