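import Fermat.Agent.R2.LevelScal
import Fermat.Agent.R2.LevelDia
import Fermat.Agent.R2.LevelSurj
import Fermat.Agent.R2.LevelDown
import Fermat.Agent.R2.LevelSign
import Fermat.Agent.R2.LevelNonzero
import Fermat.Agent.R2.LevelSignGen

/-!
Area R2, parcel G5: the sign part of a level.

The classes killed by both sums at two are free over the diamonds; the part on which
`V = ⟨g2⟩ Wp` is `-ε` is free over the diamonds of the Taylor–Wiles primes and consists of the
`(V - ε)(1 + sgn)` of such classes.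
-/

set_option autoImplicit false
set_option linter.style.haveILetI false
set_option linter.unusedSectionVars false

noncomputable section

open scoped MatrixGroups
open Matrix IsLocalRing

namespace FLTAgent.R2.Lv

open FLTAgent.LL FLTAgent.R2.Coh

variable {W : WeierstrassCurve ℤ} {hW : IsAnchor W} {B : Base W} {N : ℕ} {K : Aux hW B N} {n : ℕ}
  (D : TW K n)

/-- the coefficients of the level -/
abbrev cX : Representation (Lam N) (GL (Fin 2) (ZMod (bigM D)))
    ((dataX D).X → WCar K (lev_dvd_bigM D)) :=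
  funTensor (tW K (lev_dvd_bigM D)) (dataX D).X

/-- the coefficients below the diamonds -/
abbrev cY : Representation (Lam N) (GL (Fin 2) (ZMod (bigM D)))
    ((dataX D).tw.Y → WCar K (lev_dvd_bigM D)) :=
  funTensor (tW K (lev_dvd_bigM D)) (dataX D).tw.Y

theorem facCX : Fac (xData D).split (cX D) := (xData D).facX (xData D).facTW

theorem facCY : Fac (xData D).split (cY D) := (xData D).facY (xData D).facTW

theorem neg_cX : cX D (red (bigM D) (-1)) = 1 :=
  funTensor_neg_one (neg_one_tW K (lev_dvd_bigM D)) (xData D).neg_one_X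

/-- the diamond data -/
abbrev diaW : DiaData (cX D) (cY D) (dataX D).Del :=
  (xData D).diaX (neg_one_tW K (lev_dvd_bigM D))

/-- the cohomology of the level -/
abbrev HX : Type := H1 (pRep (p := 2) (cX D))

/-- the diamonds of the level -/
abbrev diaT' : (dataX D).Del →* Module.End (Lam N) (HX D) := diaH (topDia (p := 2) (diaW D))

/-- `⟨g2⟩ Wp` -/
def opV : Module.End (Lam N) (HX D) :=
  diaW' (xData D).split (diaW D) (facCX D) (uTwo D)

theorem Wp_sq (x : HX D) : Wp (xData D).split (cX D) (facCX D)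
    (Wp (xData D).split (cX D) (facCX D) x) = diaT' D (clsTwo D)⁻¹ x :=
  Wp_Wp_top D (xData D).facTW (neg_one_tW K (lev_dvd_bigM D)) (adTwo_tW D) x

theorem opV_apply (x : HX D) :
    opV D x = diaT' D (uTwo D) (Wp (xData D).split (cX D) (facCX D) x) :=
  diaW'_apply _ _ _ _ x

theorem opV_sq : opV D * opV D = diaT' D (sgn D) :=
  diaW'_sq _ _ _ _ _ (Wp_sq D)

theorem opV_dia (u : (dataX D).Del) (x : HX D) : opV D (diaT' D u x) = diaT' D u (opV D x) :=
  diaW'_dia _ _ _ _ u x

theorem sgn_sq : sgn D * sgn D = 1 := by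
  funext i
  induction i using Fin.cases with
  | zero =>
    have h := pow_comp D 0 (sgn D 0)
    exact (sq _).symm.trans h
  | succ i => show sgn D i.succ * sgn D i.succ = 1; rw [uTwo_sq_succ, one_mul]

theorem opV_T {l : ℕ} (hl : l.Prime) (hlM : ¬ l ∣ bigM D) (x : HX D) :
    opV D (LL.T (pRep (p := 2) (cX D)) hl hlM x) = LL.T (pRep (p := 2) (cX D)) hl hlM (opV D x) :=
  diaW'_T _ _ _ _ hl hlM x

variable (d : SysData hW (bigM D))

/-- classes killed by both sums -/
abbrev kerP : Submodule (Lam N) (HX D) :=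
  newPart (xData D).split (cX D) (facCX D) (d.sys (Lam N))

theorem dia_mem_kerP (u : (dataX D).Del) {x : HX D} (hx : x ∈ kerP D d) :
    diaT' D u x ∈ kerP D d :=
  diaH_mem_newPart _ _ _ _ u hx

theorem opV_mem_kerP {x : HX D} (hx : x ∈ kerP D d) : opV D x ∈ kerP D d := by
  rw [opV_apply]
  exact dia_mem_kerP D d _ (Wp_mem_newPart _ _ _ _ _ (Wp_sq D) hx)

theorem T_mem_kerP {l : ℕ} (hl : l.Prime) (hlM : ¬ l ∣ bigM D) {x : HX D} (hx : x ∈ kerP D d) :
    LL.T (pRep (p := 2) (cX D)) hl hlM x ∈ kerP D d := by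
  rw [mem_newPart] at hx ⊢
  exact ⟨(d.sys (Lam N)).T_mem_E hl hlM hx.1, by rw [degP_T, hx.2]; simp⟩

variable (ε : ℤˣ)

/-- the sign part -/
def signPart : Submodule (Lam N) (HX D) :=
  kerP D d ⊓ LinearMap.ker (opV D + ((ε : ℤ) : Lam N) • 1)

theorem mem_signPart {x : HX D} :
    x ∈ signPart D d ε ↔ x ∈ kerP D d ∧ opV D x + ((ε : ℤ) : Lam N) • x = 0 := Iff.rfl

theorem sgn_fix {x : HX D} (hx : x ∈ signPart D d ε) : diaT' D (sgn D) x = x :=
  (LinearMap.congr_fun (opV_sq D) x).symm.trans (sq_fix (opV D) ε ((mem_signPart D d ε).1 hx).2)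

theorem dia_mem_signPart (u : (dataX D).Del) {x : HX D} (hx : x ∈ signPart D d ε) :
    diaT' D u x ∈ signPart D d ε := by
  rw [mem_signPart] at hx ⊢
  exact ⟨dia_mem_kerP D d u hx.1, sign_stable (opV D) _ _ (opV_dia D u x) hx.2⟩

theorem T_mem_signPart {l : ℕ} (hl : l.Prime) (hlM : ¬ l ∣ bigM D) {x : HX D}
    (hx : x ∈ signPart D d ε) :
    LL.T (pRep (p := 2) (cX D)) hl hlM x ∈ signPart D d ε := by
  rw [mem_signPart] at hx ⊢
  exact ⟨T_mem_kerP D d hl hlM hx.1, sign_stable (opV D) _ _ (opV_T D hl hlM x) hx.2⟩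

section Rank

variable (hd : SysGood d)

theorem isUnit_three_lam : IsUnit (3 : Lam N) :=
  isUnit_three (by
    rw [mem_maximalIdeal, mem_nonunits_iff, show (2 : Lam N) = ((2 : ℕ) : Lam N) from Nat.cast_ofNat.symm,
      ZMod.isUnit_iff_coprime, Nat.coprime_pow_right_iff N.succ_pos]
    norm_num)

/-- the pair below two -/
abbrev pairC : DPair (Lam N) ((d.sys (Lam N)).E (cX D)) ((d.sys (Lam N)).E (cY D)) (dataX D).Del :=
  pairLow (diaW D) (d.sys (Lam N)) (neg_cX D) isUnit_three_lam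

/-- the pair at the top -/
abbrev pairTop : DPair (Lam N) ((d.sys (Lam N)).E (pRep (p := 2) (cX D)))
    ((d.sys (Lam N)).E (pRep (p := 2) (cY D))) (dataX D).Del :=
  pairHigh (diaW D) (d.sys (Lam N)) (neg_cX D) isUnit_three_lam

theorem isNilpotent_two : IsNilpotent ((2 : ℕ) : Lam N) :=
  ⟨N + 1, by rw [← Nat.cast_pow, ZMod.natCast_self]⟩

instance finite_EX : Module.Finite (Lam N) ((d.sys (Lam N)).E (pRep (p := 2) (cX D))) :=
  (d.sys (Lam N)).E_finite

instance finite_EY : Module.Finite (Lam N) ((d.sys (Lam N)).E (pRep (p := 2) (cY D))) :=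
  (d.sys (Lam N)).E_finite

instance finite_ECX : Module.Finite (Lam N) ((d.sys (Lam N)).E (cX D)) :=
  (d.sys (Lam N)).E_finite

instance finite_ECY : Module.Finite (Lam N) ((d.sys (Lam N)).E (cY D)) :=
  (d.sys (Lam N)).E_finite

/-- the rank of the sign part -/
def levRank (K : Aux hW B N) (d₀ : SysData hW K.lev) : ℕ :=
  2 ^ rk W * (rankTwo K dvd_rfl d₀ - 2 * rankOne K dvd_rfl d₀)

include hd in
theorem two_mul_le (d₀ : SysData hW K.lev) (hd₀ : SysGood d₀) :
    2 ^ (rk W + 1) * (2 * rankOne K dvd_rfl d₀) ≤ 2 ^ (rk W + 1) * rankTwo K dvd_rfl d₀ :=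
  Nat.mul_le_mul_left _ (two_mul_rankOne_lt K d₀ hd₀).le

set_option maxHeartbeats 800000 in
include hd in
theorem exists_kerP_basis (d₀ : SysData hW K.lev) (hd₀ : SysGood d₀) :
    ∃ e : Fin (2 * levRank K d₀) → kerP D d,
      Function.Injective (fun c : Fin (2 * levRank K d₀) → (dataX D).Del → Lam N =>
        ∑ j, ∑ u, c j u • diaT' D u (e j).1) ∧
      ∀ x ∈ kerP D d, ∃ c : Fin (2 * levRank K d₀) → (dataX D).Del → Lam N,
        ∑ j, ∑ u, c j u • diaT' D u (e j).1 = x := by
  obtain ⟨hf1, hf2⟩ := free_Y (xData D) d hd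
  obtain ⟨i1, i2⟩ := rank_indep (xData D) d hd d₀ hd₀
  refine exists_newPart_basis (xData D).split (diaW D) (facCX D) (d.sys (Lam N)) (facCY D)
    (neg_cX D) isUnit_three_lam Nat.prime_two isNilpotent_two (fun u => del_pow D u)
    (surj_Y_tW (xData D) d hd) ?_
  rw [finrank_Y (xData D) d hd, finrank_pRep_Y (xData D) d hd, i1, i2, levRank, ← mul_assoc,
    ← pow_succ', Nat.mul_sub, mul_left_comm 2]
  have h := two_mul_le D d hd d₀ hd₀
  omega

end Rank

section Sign

/-- the diamonds trivial at the prime of order two -/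
def twDel : Subgroup (dataX D).Del where
  carrier := {u | u 0 = 1}
  one_mem' := rfl
  mul_mem' := fun {u v} hu hv => by
    show u 0 * v 0 = 1
    rw [show u 0 = 1 from hu, show v 0 = 1 from hv, one_mul]
  inv_mem' := fun {u} hu => by
    show (u 0)⁻¹ = 1
    rw [show u 0 = 1 from hu, inv_one]

/-- the diamonds of the Taylor–Wiles primes -/
def twCoord (c : Fin (rk W) → Fin (2 ^ (n + 1))) : twDel D :=
  ⟨delCoord D (c, 0), by
    show delCoord D (c, 0) 0 = 1
    rw [delCoord_zero]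
    exact pow_zero _⟩

theorem twCoord_coe (c : Fin (rk W) → Fin (2 ^ (n + 1))) :
    (twCoord D c).1 = ∏ i, vDel D i ^ (c i : ℕ) :=
  (congrArg ((∏ i, vDel D i ^ (c i : ℕ)) * ·) (pow_zero (sgn D))).trans (mul_one _)

theorem twCoord_bijective : Function.Bijective (twCoord D) := by
  refine ⟨fun c c' h => (Prod.ext_iff.1 ((delCoord_bijective D).1 (congrArg Subtype.val h))).1,
    fun u => ?_⟩
  obtain ⟨⟨a, s⟩, hs⟩ := (delCoord_bijective D).2 u.1
  have h0 : sgn D 0 ^ (s : ℕ) = 1 := by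
    rw [← delCoord_zero D (a, s), hs]
    exact u.2
  obtain rfl : s = 0 := by
    fin_cases s
    · rfl
    · exact absurd ((pow_one _).symm.trans h0) (sgn_zero_ne D)
  exact ⟨a, Subtype.ext hs⟩

theorem twDel_split_bijective :
    Function.Bijective fun z : twDel D × Fin 2 => z.1.1 * sgn D ^ (z.2 : ℕ) := by
  have h : ∀ z : (Fin (rk W) → Fin (2 ^ (n + 1))) × Fin 2,
      (twCoord D z.1).1 * sgn D ^ (z.2 : ℕ) = delCoord D z := fun z => by
    rw [twCoord_coe]
    rfl
  refine ⟨fun z z' hz => ?_, fun u => ?_⟩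
  · obtain ⟨c, hc⟩ := (twCoord_bijective D).2 z.1
    obtain ⟨c', hc'⟩ := (twCoord_bijective D).2 z'.1
    have e : delCoord D (c, z.2) = delCoord D (c', z'.2) := by
      rw [← h, ← h]
      show (twCoord D c).1 * _ = (twCoord D c').1 * _
      rw [hc, hc']
      exact hz
    obtain ⟨e1, e2⟩ := Prod.ext_iff.1 ((delCoord_bijective D).1 e)
    exact Prod.ext (hc.symm.trans ((congrArg _ e1).trans hc')) e2
  · obtain ⟨z, hz⟩ := (delCoord_bijective D).2 u
    exact ⟨(twCoord D z.1, z.2), (h z).trans hz⟩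

theorem del_pow_tw (u : twDel D) : u ^ 2 ^ (n + 1) = 1 := Subtype.ext (del_pow D u.1)

variable (hd : SysGood d)

include hd in
/-- the sign part is free over the diamonds of the Taylor–Wiles primes -/
theorem exists_signPart_basis (d₀ : SysData hW K.lev) (hd₀ : SysGood d₀) :
    ∃ e : Fin (levRank K d₀) → HX D, (∀ j, e j ∈ signPart D d ε) ∧
      Function.Injective (fun c : Fin (levRank K d₀) → (Fin (rk W) → Fin (2 ^ (n + 1))) → Lam N =>
        ∑ j, ∑ u, c j u • diaT' D (∏ i, vDel D i ^ (u i : ℕ)) (e j)) ∧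
      ∀ x ∈ signPart D d ε, ∃ c : Fin (levRank K d₀) → (Fin (rk W) → Fin (2 ^ (n + 1))) → Lam N,
        ∑ j, ∑ u, c j u • diaT' D (∏ i, vDel D i ^ (u i : ℕ)) (e j) = x := by
  classical
  haveI : Fintype (twDel D) := Fintype.ofFinite _
  obtain ⟨e, hi, hg⟩ := exists_kerP_basis D d hd d₀ hd₀
  obtain ⟨e', he, hi', hg'⟩ := exists_sign_basis (kerP D d) (diaT' D)
    (fun u _ hx => dia_mem_kerP D d u hx) (twDel D).subtype (sgn D) (twDel_split_bijective D)
    (sgn_sq D) (del_pow_tw D) (opV D) (fun _ hx => opV_mem_kerP D d hx) (opV_sq D) (opV_dia D)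
    e hi hg ε (twCoord D) (twCoord_bijective D)
  refine ⟨e', fun j => (mem_signPart D d ε).2 (he j), ?_, fun x hx => ?_⟩
  · simp only [Subgroup.coe_subtype, twCoord_coe] at hi'
    exact hi'
  · obtain ⟨c, hc⟩ := hg' x ((mem_signPart D d ε).1 hx).1 ((mem_signPart D d ε).1 hx).2
    simp only [Subgroup.coe_subtype, twCoord_coe] at hc
    exact ⟨c, hc⟩

include hd in
/-- the sign part consists of `(V - ε)(1 + sgn)` of classes killed by both sums -/
theorem exists_sign_range (d₀ : SysData hW K.lev) (hd₀ : SysGood d₀) {x : HX D}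
    (hx : x ∈ signPart D d ε) :
    ∃ w ∈ kerP D d, (opV D - ((ε : ℤ) : Lam N) • 1) ((1 + diaT' D (sgn D)) w) = x := by
  classical
  haveI : Fintype (twDel D) := Fintype.ofFinite _
  obtain ⟨e, hi, hg⟩ := exists_kerP_basis D d hd d₀ hd₀
  exact exists_eq_sign_range (kerP D d) (diaT' D) (fun u _ hx => dia_mem_kerP D d u hx)
    (twDel D).subtype (sgn D) (twDel_split_bijective D) (sgn_sq D) (opV D)
    (fun _ hx => opV_mem_kerP D d hx) (opV_sq D) e hi hg ε ((mem_signPart D d ε).1 hx).1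
    ((mem_signPart D d ε).1 hx).2

end Sign

theorem levRank_pos (d₀ : SysData hW K.lev) (hd₀ : SysGood d₀) : 0 < levRank K d₀ :=
  Nat.mul_pos (Nat.two_pow_pos _) (Nat.sub_pos_of_lt (two_mul_rankOne_lt K d₀ hd₀))

end FLTAgent.R2.Lv

end
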