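import Fermat.Agent.LL.LamAlg
import Fermat.Agent.Attach.Dichotomy
import Fermat.Agent.Attach.TraceTools

/-!
Area R2, parcel G1: commutative algebra for subalgebras of a finite power of a finite local
`ℤ₂`-algebra.

* `mem_of_approx`: submodules of finite modules are closed;
* `resAlg`: the families congruent to a common element of `ℤ₂` modulo the maximal ideal; every
  subalgebra of it is local, complete, Henselian, with residue field `𝔽₂` (`exists_local`);
* `exists_shift_pow`: divisibility by powers of two inside a subalgebra.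
-/

set_option autoImplicit false
set_option linter.style.haveILetI false
set_option linter.unusedSectionVars false

noncomputable section

open IsLocalRing

namespace FLTAgent.R2.LevelRho

local instance fact_two : Fact (Nat.Prime 2) := ⟨Nat.prime_two⟩

/-- submodules of finite modules are closed -/
theorem mem_of_approx {A V : Type*} [CommRing A] [IsNoetherianRing A] [IsLocalRing A]
    [AddCommGroup V] [Module A V] [Module.Finite A V] (W : Submodule A V) {x : V}
    (h : ∀ n : ℕ, ∃ w ∈ W, x - w ∈ (maximalIdeal A ^ n) • (⊤ : Submodule A V)) : x ∈ W := by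
  have hmem : W.mkQ x ∈ ⨅ n : ℕ, (maximalIdeal A ^ n) • (⊤ : Submodule A (V ⧸ W)) := by
    refine (Submodule.mem_iInf _).mpr fun n => ?_
    obtain ⟨w, hw, hxw⟩ := h n
    have h2 : W.mkQ (x - w) ∈ Submodule.map W.mkQ ((maximalIdeal A ^ n) • ⊤) := ⟨_, hxw, rfl⟩
    rwa [Submodule.map_smul'', Submodule.map_top, Submodule.range_mkQ, map_sub,
      show W.mkQ w = 0 from (Submodule.Quotient.mk_eq_zero _).mpr hw, sub_zero] at h2
  rw [Ideal.iInf_pow_smul_eq_bot_of_isLocalRing _ (maximalIdeal.isMaximal A).ne_top,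
    Submodule.mem_bot] at hmem
  exact (Submodule.Quotient.mk_eq_zero _).mp hmem

/-- the powers of the maximal ideal of `ℤ₂` -/
theorem mem_pow_smul_top_iff {V : Type*} [AddCommGroup V] [Module ℤ_[2] V] (n : ℕ) {x : V} :
    x ∈ (maximalIdeal ℤ_[2] ^ n) • (⊤ : Submodule ℤ_[2] V) ↔
      ∃ c : V, (2 : ℤ_[2]) ^ n • c = x := by
  rw [PadicInt.maximalIdeal_eq_span_p, Ideal.span_singleton_pow,
    Submodule.ideal_span_singleton_smul, Nat.cast_ofNat]
  constructor
  · rintro ⟨c, -, rfl⟩
    exact ⟨c, rfl⟩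
  · rintro ⟨c, rfl⟩
    exact ⟨c, Submodule.mem_top, rfl⟩

theorem dvd_iff_mem {C : Type*} [CommRing C] [Algebra ℤ_[2] C] (n : ℕ) {x : C} :
    (2 : C) ^ n ∣ x ↔ x ∈ (maximalIdeal ℤ_[2] ^ n) • (⊤ : Submodule ℤ_[2] C) := by
  rw [mem_pow_smul_top_iff]
  have e : ∀ c : C, (2 : ℤ_[2]) ^ n • c = 2 ^ n * c := fun c => by
    rw [Algebra.smul_def, map_pow, map_ofNat]
  exact ⟨fun ⟨c, hc⟩ => ⟨c, (e c).trans hc.symm⟩, fun ⟨c, hc⟩ => ⟨c, hc.symm.trans (e c)⟩⟩

/-- divisibility inside a subalgebra -/
theorem exists_shift_pow {C : Type*} [CommRing C] [Algebra ℤ_[2] C] [Module.Finite ℤ_[2] C]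
    (T : Subalgebra ℤ_[2] C) :
    ∃ c : ℕ, ∀ n, ∀ t : T, (2 : C) ^ (n + c) ∣ (t : C) → (2 : T) ^ n ∣ t := by
  obtain ⟨c, hc⟩ := LL.LamAlg.exists_shift (maximalIdeal ℤ_[2]) (Subalgebra.toSubmodule T)
  exact ⟨c, fun n t ht => (dvd_iff_mem n).2 (hc n t ((dvd_iff_mem _).1 ht))⟩

/-- the trace of a power of a `2 × 2` matrix -/
theorem trace_pow_eq {C : Type} [CommRing C] (X : Matrix (Fin 2) (Fin 2) C) (j : ℕ) :
    (X ^ j).trace = Attach.powerTrace X.trace X.det j := by
  induction j using Nat.twoStepInduction with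
  | zero => rw [pow_zero, Matrix.trace_one, Attach.powerTrace, Fintype.card_fin, Nat.cast_two]
  | one => rw [pow_one, Attach.powerTrace]
  | more i h1 h2 =>
    rw [pow_add X i 2, sq, Attach.sq_fin_two, mul_sub, mul_smul_comm, mul_smul_comm, mul_one,
      ← pow_succ, Matrix.trace_sub, Matrix.trace_smul, Matrix.trace_smul, h1, h2,
      Attach.powerTrace, smul_eq_mul, smul_eq_mul]

section Local

variable {κ : Type*} {R : Type*} [CommRing R] [IsLocalRing R] [Algebra ℤ_[2] R]

variable (κ R) in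
/-- families with a common residue in `𝔽₂` -/
def resAlg : Subalgebra ℤ_[2] (κ → R) where
  carrier := {t | ∃ a : ℤ_[2], ∀ k, t k - algebraMap ℤ_[2] R a ∈ maximalIdeal R}
  algebraMap_mem' a := ⟨a, fun k => by simp⟩
  add_mem' := fun {t u} ⟨a, ha⟩ ⟨b, hb⟩ => ⟨a + b, fun k => by
    rw [Pi.add_apply, map_add, add_sub_add_comm]
    exact add_mem (ha k) (hb k)⟩
  mul_mem' := fun {t u} ⟨a, ha⟩ ⟨b, hb⟩ => ⟨a * b, fun k => by
    rw [Pi.mul_apply, map_mul, show t k * u k - algebraMap ℤ_[2] R a * algebraMap ℤ_[2] R b =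
      (t k - algebraMap ℤ_[2] R a) * u k + algebraMap ℤ_[2] R a * (u k - algebraMap ℤ_[2] R b)
      by ring]
    exact add_mem (Ideal.mul_mem_right _ _ (ha k)) (Ideal.mul_mem_left _ _ (hb k))⟩

variable [Fintype κ] [Nonempty κ] [IsLocalHom (algebraMap ℤ_[2] R)] [Module.Finite ℤ_[2] R]

/-- two common residues agree -/
theorem res_unique {t : κ → R} {a b : ℤ_[2]}
    (ha : ∀ k, t k - algebraMap ℤ_[2] R a ∈ maximalIdeal R)
    (hb : ∀ k, t k - algebraMap ℤ_[2] R b ∈ maximalIdeal R) :
    PadicInt.toZMod a = PadicInt.toZMod b := by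
  obtain ⟨k⟩ := ‹Nonempty κ›
  have h := sub_mem (hb k) (ha k)
  rw [sub_sub_sub_cancel_left, ← map_sub] at h
  have h' : a - b ∈ maximalIdeal ℤ_[2] := fun hu => h (hu.map _)
  rw [← PadicInt.ker_toZMod, RingHom.mem_ker, map_sub, sub_eq_zero] at h'
  exact h'

/-- a subalgebra with common residues is local, complete and Henselian, with residue field `𝔽₂` -/
theorem exists_local (T : Subalgebra ℤ_[2] (κ → R)) (hT : T ≤ resAlg κ R) :
    ∃ (_ : IsLocalRing T) (_ : IsLocalHom (algebraMap ℤ_[2] T)) (_ : Module.Finite ℤ_[2] T)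
      (_ : IsAdicComplete (maximalIdeal T) T) (_ : HenselianLocalRing T) (π : T →+* ZMod 2),
      Function.Surjective π ∧ RingHom.ker π = maximalIdeal T ∧
      ∀ (t : T) (a : ℤ_[2]), (∀ k, (t : κ → R) k - algebraMap ℤ_[2] R a ∈ maximalIdeal R) →
        π t = PadicInt.toZMod a := by
  classical
  choose a ha using fun t : T => hT t.2
  let π : T →+* ZMod 2 :=
    { toFun := fun t => PadicInt.toZMod (a t)
      map_one' := (res_unique (ha 1) (b := 1) fun k => by simp).trans (map_one _)
      map_mul' := fun t u => (res_unique (ha (t * u)) (b := a t * a u) fun k => by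
        rw [MulMemClass.coe_mul, Pi.mul_apply, map_mul,
          show (t : κ → R) k * (u : κ → R) k -
            algebraMap ℤ_[2] R (a t) * algebraMap ℤ_[2] R (a u) =
            ((t : κ → R) k - algebraMap ℤ_[2] R (a t)) * (u : κ → R) k +
              algebraMap ℤ_[2] R (a t) * ((u : κ → R) k - algebraMap ℤ_[2] R (a u)) by ring]
        exact add_mem (Ideal.mul_mem_right _ _ (ha t k)) (Ideal.mul_mem_left _ _ (ha u k))).trans
          (map_mul _ _ _)
      map_zero' := (res_unique (ha 0) (b := 0) fun k => by simp).trans (map_zero _)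
      map_add' := fun t u => (res_unique (ha (t + u)) (b := a t + a u) fun k => by
        rw [AddMemClass.coe_add, Pi.add_apply, map_add, add_sub_add_comm]
        exact add_mem (ha t k) (ha u k)).trans (map_add _ _ _) }
  have hπ : ∀ (t : T) (b : ℤ_[2]),
      (∀ k, (t : κ → R) k - algebraMap ℤ_[2] R b ∈ maximalIdeal R) → π t = PadicInt.toZMod b :=
    fun t b hb => res_unique (ha t) hb
  have hsurj : Function.Surjective π := ZMod.ringHom_surjective π
  haveI hfin : Module.Finite ℤ_[2] T :=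
    Module.Finite.of_injective T.val.toLinearMap Subtype.val_injective
  haveI : Algebra.IsIntegral T (κ → R) := Algebra.IsIntegral.tower_top ℤ_[2]
  have hinj : Function.Injective (algebraMap T (κ → R)) := Subtype.val_injective
  haveI hlh : IsLocalHom (algebraMap T (κ → R)) :=
    RingHom.IsIntegral.isLocalHom (Algebra.IsIntegral.isIntegral (R := T) (A := κ → R)) hinj
  have hunit : ∀ t : T, IsUnit t ↔ π t ≠ 0 := fun t => by
    refine ⟨fun h => (h.map π).ne_zero, fun h => isUnit_of_map_unit (algebraMap T (κ → R)) t ?_⟩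
    refine Pi.isUnit_iff.2 fun k => ?_
    by_contra hk
    have h1 : algebraMap ℤ_[2] R (a t) ∈ maximalIdeal R := by
      have := sub_mem (show (t : κ → R) k ∈ maximalIdeal R from hk) (ha t k)
      rwa [sub_sub_cancel] at this
    have h2 : a t ∈ maximalIdeal ℤ_[2] := fun hu => h1 (hu.map _)
    rw [← PadicInt.ker_toZMod, RingHom.mem_ker] at h2
    exact h h2
  haveI : Nontrivial T := π.domain_nontrivial
  haveI hloc : IsLocalRing T := IsLocalRing.of_nonunits_add fun t u ht hu => by
    simp only [mem_nonunits_iff, hunit, not_not] at ht hu ⊢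
    rw [map_add, ht, hu, add_zero]
  haveI hlT : IsLocalHom (algebraMap ℤ_[2] T) := ⟨fun b hb => by
    rw [hunit, hπ _ b fun k => by simp] at hb
    by_contra h
    refine hb (?_ : b ∈ RingHom.ker PadicInt.toZMod)
    rw [PadicInt.ker_toZMod]
    exact h⟩
  haveI hc : IsAdicComplete (maximalIdeal T) T :=
    IsLocalRing.isAdicComplete_of_module_finite (𝒪 := ℤ_[2])
  haveI hh : HenselianLocalRing T :=
    { is_henselian := fun f hf a₀ h₁ h₂ =>
        HenselianRing.is_henselian f hf a₀ h₁ (h₂.map _) }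
  refine ⟨hloc, hlT, hfin, hc, hh, π, hsurj, ?_, hπ⟩
  ext t
  rw [RingHom.mem_ker, IsLocalRing.mem_maximalIdeal, mem_nonunits_iff, hunit, not_not]

end Local

end FLTAgent.R2.LevelRho

end
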