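import Fermat.Agent.R2.LevelRhoSetup
import Fermat.Agent.R2.EvalBad

/-!
Area R2, parcel G1: the clauses of `Rho` that follow from a `Setup`, on the quotient of the trace
algebra acting faithfully.
-/

set_option autoImplicit false
set_option linter.style.haveILetI false
set_option linter.unusedSectionVars false
set_option maxHeartbeats 2000000
set_option synthInstance.maxHeartbeats 100000

noncomputable section

open scoped TensorProduct
open Matrix IsLocalRing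

namespace FLTAgent.R2.Lv

open FLTAgent.LL FLTAgent.R2.Coh
open FLTAgent.Attach (GalQ)

local notation "M2" => Matrix (Fin 2) (Fin 2)

/-- inertia at a prime exactly dividing the level is quadratic -/
theorem inertia_sq_lattice {O : Type} [CommRing O] [IsDomain O] [IsDiscreteValuationRing O]
    [IsAdicComplete (maximalIdeal O) O] [CharZero O] {T : Type} [CommRing T] [Algebra O T]
    {M₀ M₁ q : ℕ} [NeZero M₁] [NeZero q] (LD : JTors.LatticeData (M₁ * q)) (s : LL.Sys M₀ O)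
    (Θ : M2 T →ₐ[O] Module.End O (LL.lamPart LD s)) (hΘ : Function.Injective Θ)
    (ρ : GalQ →* M2 T) {hO : ((2 : ℕ) : O) ∈ maximalIdeal O}
    (hgal : ∀ (σ : GalQ) (x : LL.lamPart LD s),
      ((Θ (ρ σ) x : LL.lamPart LD s) : O ⊗[ℤ] JTors.Lam (M₁ * q)) =
        LL.galLam LD Nat.prime_two hO σ x.1)
    (hq : q.Prime) (hqM : ¬ q ∣ M₁) (hq2 : q ≠ 2) {A : ValuationSubring (AlgebraicClosure ℚ)}
    (hA : A.LiesOverPrime q) {σ : GalQ} (hσ : σ ∈ A.inertiaSubgroupIn ℚ) :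
    (ρ σ - 1) * (ρ σ - 1) = 0 := by
  classical
  have h := galMat_inertia_quadratic Nat.prime_two hO hq hqM hq2 hA (LL.latticeOf LD) hσ
  have h0 : Θ (ρ σ + ρ σ⁻¹ - 2) = 0 := by
    rw [show (2 : M2 T) = 1 + 1 from one_add_one_eq_two.symm, map_sub, _root_.map_add, _root_.map_add, map_one]
    refine LinearMap.ext fun x => Subtype.ext (LL.coordOf_injective LD ?_)
    simp only [LinearMap.sub_apply, LinearMap.add_apply, Module.End.one_apply,
      LinearMap.zero_apply, Submodule.coe_sub, Submodule.coe_add, Submodule.coe_zero, hgal]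
    obtain ⟨E, hE⟩ : ∃ E : (O ⊗[ℤ] JTors.Lam (M₁ * q)) →+ ((LL.latticeOf LD).Idx → O),
        ∀ y, LL.coordOf LD y = E y :=
      ⟨AddMonoidHom.mk' (LL.coordOf (O := O) LD) (fun a b => LinearEquiv.map_add _ a b),
        fun _ => rfl⟩
    rw [hE, hE, map_zero E, map_sub E, map_add E, map_add E, ← hE, ← hE, ← hE,
      LL.coordOf_galLam Nat.prime_two hO, LL.coordOf_galLam Nat.prime_two hO, ← Matrix.add_mulVec,
      h, show (2 : Matrix (LL.latticeOf LD).Idx (LL.latticeOf LD).Idx O) = 1 + 1 from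
        one_add_one_eq_two.symm,
      Matrix.add_mulVec, Matrix.one_mulVec, sub_self]
  have h1 : ρ σ + ρ σ⁻¹ - 2 = 0 := hΘ (by rw [h0, map_zero])
  have hi : ρ σ * ρ σ⁻¹ = 1 := by rw [← map_mul, mul_inv_cancel, map_one]
  calc (ρ σ - 1) * (ρ σ - 1) = ρ σ * ρ σ + 1 - 2 * ρ σ := by noncomm_ring
    _ = ρ σ * ρ σ + ρ σ * ρ σ⁻¹ - 2 * ρ σ := by rw [hi]
    _ = ρ σ * (ρ σ + ρ σ⁻¹ - 2) := by noncomm_ring
    _ = 0 := by rw [h1, mul_zero]

/-- the same at a level equal to such a product -/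
theorem inertia_sq_of_eq {O : Type} [CommRing O] [IsDomain O] [IsDiscreteValuationRing O]
    [IsAdicComplete (maximalIdeal O) O] [CharZero O] {T : Type} [CommRing T] [Algebra O T]
    {M₀ L : ℕ} [NeZero L] (LD : JTors.LatticeData L) (s : LL.Sys M₀ O)
    (Θ : M2 T →ₐ[O] Module.End O (LL.lamPart LD s)) (hΘ : Function.Injective Θ)
    (ρ : GalQ →* M2 T) {hO : ((2 : ℕ) : O) ∈ maximalIdeal O}
    (hgal : ∀ (σ : GalQ) (x : LL.lamPart LD s),
      ((Θ (ρ σ) x : LL.lamPart LD s) : O ⊗[ℤ] JTors.Lam L) =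
        LL.galLam LD Nat.prime_two hO σ x.1)
    {M₁ q : ℕ} (hq : q.Prime) (hL : L = M₁ * q) (hqM : ¬ q ∣ M₁) (hq2 : q ≠ 2)
    {A : ValuationSubring (AlgebraicClosure ℚ)}
    (hA : A.LiesOverPrime q) {σ : GalQ} (hσ : σ ∈ A.inertiaSubgroupIn ℚ) :
    (ρ σ - 1) * (ρ σ - 1) = 0 := by
  subst hL
  haveI : NeZero q := ⟨hq.ne_zero⟩
  haveI : NeZero M₁ := ⟨left_ne_zero_of_mul (NeZero.ne (M₁ * q))⟩
  exact inertia_sq_lattice LD s Θ hΘ ρ hgal hq hqM hq2 hA hσ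

section Quot

variable {T : Type} [CommRing T] [Algebra Z2 T] (I : Ideal T) (ρ : GQ →* M2 T)

/-- the representation over a quotient -/
def quotRep : GQ →* M2 (T ⧸ I) := (Ideal.Quotient.mk I).mapMatrix.toMonoidHom.comp ρ

theorem quotRep_apply (σ : GQ) : quotRep I ρ σ = (ρ σ).map (Ideal.Quotient.mk I) := rfl

theorem trace_quotRep (σ : GQ) :
    (quotRep I ρ σ).trace = Ideal.Quotient.mk I (ρ σ).trace :=
  (AddMonoidHom.map_trace (Ideal.Quotient.mk I).toAddMonoidHom _).symm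

theorem det_quotRep (σ : GQ) : (quotRep I ρ σ).det = Ideal.Quotient.mk I (ρ σ).det :=
  (RingHom.map_det _ _).symm

theorem gen_quotRep (h : Algebra.adjoin Z2 (Set.range fun σ => (ρ σ).trace) = ⊤) :
    Algebra.adjoin Z2 (Set.range fun σ => (quotRep I ρ σ).trace) = ⊤ := by
  rw [show (fun σ => (quotRep I ρ σ).trace) = Ideal.Quotient.mkₐ Z2 I ∘ fun σ => (ρ σ).trace from
    funext (trace_quotRep I ρ), Set.range_comp, Algebra.adjoin_image, h, Algebra.map_top,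
    AlgHom.range_eq_top]
  exact Ideal.Quotient.mk_surjective

theorem level_quotRep (h : ∀ n : ℕ, ∃ E : IntermediateField ℚ (AlgebraicClosure ℚ),
      FiniteDimensional ℚ E ∧ ∀ σ : GQ, (∀ x ∈ E, σ x = x) → ∀ a b, (2 : T) ^ n ∣ (ρ σ - 1) a b)
    (m : ℕ) : Deform.FinLevel fun σ =>
      (quotRep I ρ σ).map (Ideal.Quotient.mk (Ideal.span {(2 : T ⧸ I) ^ m})) := by
  obtain ⟨E, hE, h⟩ := h m
  refine ⟨E, hE, fun σ hσ => ?_⟩
  show (quotRep I ρ σ).map _ = 1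
  rw [← Matrix.map_one (Ideal.Quotient.mk (Ideal.span {(2 : T ⧸ I) ^ m})) (map_zero _) (map_one _)]
  ext a b
  rw [Matrix.map_apply, Matrix.map_apply, Ideal.Quotient.eq, Ideal.mem_span_singleton]
  obtain ⟨c, hc⟩ := h σ hσ a b
  refine ⟨Ideal.Quotient.mk _ c, ?_⟩
  rw [quotRep_apply, Matrix.map_apply, ← map_one (Ideal.Quotient.mk I).mapMatrix,
    RingHom.mapMatrix_apply, Matrix.map_apply, ← map_sub, ← Matrix.sub_apply, hc, map_mul, map_pow,
    map_ofNat]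

theorem res_quotRep [IsLocalRing T] [IsLocalRing (T ⧸ I)] (π : T →+* ZMod 2)
    (hπ : RingHom.ker π = maximalIdeal T) (r : GQ → M2 (ZMod 2))
    (h : ∀ σ, (ρ σ).map π = r σ) (σ : GQ) (a b : Fin 2) :
    quotRep I ρ σ a b - ((r σ a b).val : T ⧸ I) ∈ maximalIdeal (T ⧸ I) := by
  haveI : IsLocalHom (Ideal.Quotient.mk I) :=
    IsLocalHom.of_surjective _ Ideal.Quotient.mk_surjective
  rw [quotRep_apply, Matrix.map_apply, ← map_natCast (Ideal.Quotient.mk I), ← map_sub]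
  refine map_nonunit _ _ ?_
  rw [← hπ, RingHom.mem_ker, map_sub, map_natCast, sub_eq_zero]
  exact (congrFun₂ (h σ) a b).trans (ZMod.natCast_zmod_val _).symm

theorem quotRep_eq_one {σ : GQ} (h : ρ σ = 1) : quotRep I ρ σ = 1 := by
  rw [quotRep_apply, h, Matrix.map_one _ (map_zero _) (map_one _)]

theorem quotRep_sq {σ : GQ} (h : (ρ σ - 1) * (ρ σ - 1) = 0) :
    (quotRep I ρ σ - 1) * (quotRep I ρ σ - 1) = 0 := by
  show ((Ideal.Quotient.mk I).mapMatrix (ρ σ) - 1) * ((Ideal.Quotient.mk I).mapMatrix (ρ σ) - 1) = 0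
  rw [← map_one (Ideal.Quotient.mk I).mapMatrix, ← map_sub, ← map_mul, h, map_zero]

end Quot

/-- a quadratic relation passes through an inner map to a subalgebra -/
theorem sq_of_map {C : Type} [CommRing C] [Algebra ℤ_[2] C] (T : Subalgebra ℤ_[2] C)
    (ρB : GQ →* M2 C) (ρ : GQ →* M2 T) (F : M2 C →ₐ[C] M2 C)
    (hρF : ∀ σ, (ρ σ).map Subtype.val = F (ρB σ)) {σ : GQ}
    (h : (ρB σ - 1) * (ρB σ - 1) = 0) : (ρ σ - 1) * (ρ σ - 1) = 0 := by
  refine Matrix.map_injective (f := T.val.toRingHom) Subtype.val_injective ?_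
  show T.val.toRingHom.mapMatrix _ = T.val.toRingHom.mapMatrix 0
  rw [map_zero, map_mul, map_sub, map_one,
    show T.val.toRingHom.mapMatrix (ρ σ) = F (ρB σ) from hρF σ, ← map_one F, ← map_sub, ← map_mul,
    h, map_zero]

/-- a quadratic relation passes to a twist by trivial characters -/
theorem twistedRep_sq {G O R κ : Type*} [Monoid G] [CommRing O] [CommRing R] [Algebra O R]
    (χ : κ → G →* O) (R₀ : G →* M2 R) {σ : G} (hχ : ∀ k, χ k σ = 1)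
    (h : (R₀ σ - 1) * (R₀ σ - 1) = 0) :
    (LevelRho.twistedRep χ R₀ σ - 1) * (LevelRho.twistedRep χ R₀ σ - 1) = 0 := by
  have e : ∀ a b k, (LevelRho.twistedRep χ R₀ σ - 1) a b k = (R₀ σ - 1) a b := fun a b k => by
    rw [Matrix.sub_apply, Matrix.sub_apply, Pi.sub_apply, LevelRho.twistedRep_apply, hχ, one_smul]
    rcases eq_or_ne a b with rfl | h
    · rw [Matrix.one_apply_eq, Matrix.one_apply_eq, Pi.one_apply]
    · rw [Matrix.one_apply_ne h, Matrix.one_apply_ne h, Pi.zero_apply]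
  ext a b k : 3
  rw [Matrix.mul_apply, Finset.sum_apply]
  refine (Finset.sum_congr rfl fun j _ => by rw [Pi.mul_apply, e, e]).trans ?_
  rw [← Matrix.mul_apply, h]
  rfl

variable {W : WeierstrassCurve ℤ} {hW : IsAnchor W} {M r : ℕ} [NeZero M] {d : SysData hW M}
  {D : AuxData M r}

namespace Setup

variable (P : Setup d D)

/-- the algebra acting faithfully -/
abbrev TQ : Type := P.R.T ⧸ RingHom.ker P.R.φ

/-- the representation over it -/
def ρQ : GQ →* M2 P.TQ := quotRep (RingHom.ker P.R.φ) P.R.ρ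

theorem trace_ρQ (σ : GQ) :
    (P.ρQ σ).trace = Ideal.Quotient.mk (RingHom.ker P.R.φ) (P.R.ρ σ).trace :=
  trace_quotRep _ _ σ

theorem det_ρQ (σ : GQ) :
    (P.ρQ σ).det = Ideal.Quotient.mk (RingHom.ker P.R.φ) (P.R.ρ σ).det :=
  det_quotRep _ _ σ

/-- its action -/
def φQ : P.TQ →ₐ[Z2] Module.End Z2 ((d.sys Z2).E (lrRep D)) :=
  Ideal.Quotient.liftₐ (RingHom.ker P.R.φ) P.R.φ fun _ ha => ha

theorem φQ_mk (t : P.R.T) : P.φQ (Ideal.Quotient.mk (RingHom.ker P.R.φ) t) = P.R.φ t := rfl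

theorem φQ_injective : Function.Injective P.φQ := by
  refine (injective_iff_map_eq_zero _).2 fun t ht => ?_
  obtain ⟨t, rfl⟩ := Ideal.Quotient.mk_surjective t
  exact Ideal.Quotient.eq_zero_iff_mem.2 ht

theorem nontrivial_TQ (hne : (d.sys Z2).E (lrRep D) ≠ ⊥) : Nontrivial P.TQ := by
  refine Ideal.Quotient.nontrivial_iff.2 fun h => hne ((Submodule.eq_bot_iff _).2 fun x hx => ?_)
  have h1 : P.R.φ 1 = 0 := RingHom.mem_ker.1 ((Ideal.eq_top_iff_one _).1 h)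
  rw [map_one] at h1
  exact congrArg Subtype.val (LinearMap.congr_fun h1 ⟨x, hx⟩)

theorem finite_TQ : Module.Finite Z2 P.TQ :=
  Module.Finite.of_surjective (Ideal.Quotient.mkₐ Z2 (RingHom.ker P.R.φ)).toLinearMap
    Ideal.Quotient.mk_surjective

theorem trace_TQ (l : ℕ) (hl : l.Prime) (hlM : ¬ l ∣ M) (hl2 : l ≠ 2)
    (A : ValuationSubring (AlgebraicClosure ℚ)) (hA : A.LiesOverPrime l) (τ : GQ)
    (hτ : A.IsFrobeniusAt τ l) (x : (d.sys Z2).E (lrRep D)) :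
    (P.φQ (P.ρQ τ).trace x).1 = LL.T (lrRep D) hl hlM x.1 := by
  rw [trace_ρQ, φQ_mk, P.R.frob l hl hlM hl2 A hA τ hτ]
  rfl

theorem det_TQ (σ : GQ) (h2 : (2 : Z2) ∈ maximalIdeal Z2) (a : ∀ i, (ZMod (D.Q i))ˣ)
    (ha : ∀ i, haveI : NeZero (D.Q i) := ⟨(D.prime i).ne_zero⟩
      (a i : ZMod (D.Q i)) = Attach.cyc (D.Q i) σ) :
    P.φQ (P.ρQ σ).det = Attach.cycR Nat.prime_two h2 σ •
      diaLam d D (fun i => QuotientGroup.mk (a i)⁻¹) := by
  rw [det_ρQ, φQ_mk, P.R.φ_det]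
  have e : D.cls (LevelRho.cycU M σ)⁻¹ = fun i => QuotientGroup.mk (a i)⁻¹ := funext fun i => by
    haveI : NeZero (D.Q i) := ⟨(D.prime i).ne_zero⟩
    show QuotientGroup.mk (ZMod.unitsMap (D.dvd i) (LevelRho.cycU M σ)⁻¹) = _
    rw [map_inv]
    exact congrArg (fun u => QuotientGroup.mk u⁻¹)
      (Units.ext ((Attach.cyc_cast (D.dvd i) σ).trans (ha i).symm))
  rw [e]
  rfl

theorem unr_TQ (q : ℕ) (hq : q.Prime) (hq2 : q ≠ 2) (hqN : ¬ q ∣ D.N0) (hqQ : ∀ i, D.Q i ≠ q)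
    (A : ValuationSubring (AlgebraicClosure ℚ)) (hA : A.LiesOverPrime q) (σ : GQ)
    (hσ : σ ∈ A.inertiaSubgroupIn ℚ) : P.ρQ σ = 1 := by
  exact quotRep_eq_one _ _ (P.R.unr q hq hq2 hqN hqQ A hA σ hσ)

theorem exists_eq_mul (hsq : Squarefree D.N0) {q : ℕ} (hq : q.Prime) (hqN : q ∣ D.N0) :
    ∃ M₁, P.L = M₁ * q ∧ ¬ q ∣ M₁ := by
  obtain ⟨N', hN'⟩ := hqN
  refine ⟨N' * D.tw.R ^ 2, by rw [P.hL, hN']; ring, fun h => ?_⟩
  rcases hq.dvd_mul.1 h with h | h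
  · exact hq.not_isUnit (hsq q (hN' ▸ Nat.mul_dvd_mul_left q h))
  · obtain ⟨i, -, hi⟩ := (Prime.dvd_finsetProd_iff hq.prime _).mp (hq.dvd_of_dvd_pow h)
    exact D.ndvd i (((Nat.prime_dvd_prime_iff_eq hq (D.prime i)).mp hi).symm ▸
      (hN' ▸ dvd_mul_right q N'))

theorem bad_TQ (hsq : Squarefree D.N0) (q : ℕ) (hq : q.Prime) (hq2 : q ≠ 2) (hqN : q ∣ D.N0)
    (A : ValuationSubring (AlgebraicClosure ℚ)) (hA : A.LiesOverPrime q) (σ : GQ)
    (hσ : σ ∈ A.inertiaSubgroupIn ℚ) : (P.ρQ σ - 1) * (P.ρQ σ - 1) = 0 := by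
  have hex := @Setup.exists_eq_mul _ _ _ _ _ d D P hsq q hq hqN
  obtain ⟨M₁, hL, hqM⟩ := hex
  have h0 : (P.R.R₀ σ - 1) * (P.R.R₀ σ - 1) = 0 :=
    inertia_sq_of_eq P.LD _ P.R.Θ P.R.Θ_injective P.R.R₀ P.R.Θ_gal hq hL hqM hq2 hA hσ
  have hB : (LevelRho.rhoB (d.sys Z2) P.LD P.cs P.R.R₀ σ - 1) *
      (LevelRho.rhoB (d.sys Z2) P.LD P.cs P.R.R₀ σ - 1) = 0 :=
    twistedRep_sq (fun k => ((P.cs k).chi).comp (LevelRho.cycU M)) P.R.R₀ (fun k => ?_) h0
  · exact quotRep_sq (RingHom.ker P.R.φ) P.R.ρ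
      (sq_of_map (C := P.κ → LevelRho.TL (d.sys Z2) P.O P.LD P.S) P.R.T
        (LevelRho.rhoB (d.sys Z2) P.LD P.cs P.R.R₀) P.R.ρ P.R.F P.R.map_ρ hB)
  show ∏ i, (P.cs k).ψ i (ZMod.unitsMap (D.dvd i) (LevelRho.cycU M σ) : ZMod (D.Q i)) = 1
  refine Finset.prod_eq_one fun i _ => ?_
  haveI : NeZero (D.Q i) := ⟨(D.prime i).ne_zero⟩
  rw [show ((ZMod.unitsMap (D.dvd i) (LevelRho.cycU M σ) : (ZMod (D.Q i))ˣ) : ZMod (D.Q i)) = 1
    from (Attach.cyc_cast (D.dvd i) σ).trans (Attach.cyc_inertia hq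
      (fun h => D.ndvd i (((Nat.prime_dvd_prime_iff_eq hq (D.prime i)).mp h).symm ▸ hqN))
      hA hσ), map_one]

end Setup

end FLTAgent.R2.Lv

end
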