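import Fermat.Agent.R2.LevelRhoClauses
import Fermat.Agent.R2.EvalWX
import Fermat.Agent.R2.EvalLatt

/-!
Area R2, parcel G1: the trace of a Frobenius on a class new at a prime of the level, and the classes
new at a good ordinary prime vanish.
-/

set_option autoImplicit false
set_option linter.style.haveILetI false
set_option linter.unusedSectionVars false
set_option maxHeartbeats 1000000
set_option synthInstance.maxHeartbeats 100000

noncomputable section

open scoped TensorProduct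
open Matrix IsLocalRing

namespace FLTAgent.R2.Lv

open FLTAgent.LL FLTAgent.R2.Coh
open FLTAgent.Attach (GalQ cycR)

local notation "M2" => Matrix (Fin 2) (Fin 2)

variable {M r : ℕ} [NeZero M]

/-- at a killing prime the twist of a new class -/
theorem killing_twist {D : AuxData M r} {O : Type} [CommRing O] [IsDomain O]
    [IsDiscreteValuationRing O] [IsAdicComplete (maximalIdeal O) O] [Finite (ResidueField O)]
    [CharZero O] [Algebra ℤ_[2] O] [Module.Finite ℤ_[2] O] [IsLocalHom (algebraMap ℤ_[2] O)]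
    (s : Sys M ℤ_[2]) {L : ℕ} [NeZero L] (hL : L = D.N0 * D.tw.R ^ 2) (LD : JTors.LatticeData L)
    (c : D.Choice O) (hχ : ∀ a, c.chi a - 1 ∈ maximalIdeal O) {T : Type} [CommRing T] [Algebra O T]
    (Θ : M2 T →ₐ[O] Module.End O (LL.lamPart LD (sysMap O s))) (R₀ : GalQ →* M2 T)
    (hgal : ∀ (σ : GalQ) (v : LL.lamPart LD (sysMap O s)),
      ((Θ (R₀ σ) v : LL.lamPart LD (sysMap O s)) : O ⊗[ℤ] JTors.Lam L) =
        LL.galLam LD Nat.prime_two LevelRho.two_mem_O σ v.1)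
    (hdet : ∀ σ, (R₀ σ).det = algebraMap O T (cycR Nat.prime_two LevelRho.two_mem_O σ))
    {q : ℕ} (x : Exact D q) (hq2 : q ≠ 2) {A : ValuationSubring (AlgebraicClosure ℚ)}
    (hA : A.LiesOverPrime q) {τ : GalQ} (hτ : A.IsFrobeniusAt τ q) (z : LevelRho.Mod D s)
    (hz : x.NewAt ℤ_[2] z.1) :
    Θ (Matrix.scalar (Fin 2) ((R₀ τ).trace ^ 2 - (1 + (q : T)) ^ 2))
      (LevelRho.twist s O hL LD c hχ z) = 0 := by
  obtain rfl : L = x.lev * q := hL.trans x.lev_mul.symm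
  haveI : NeZero q := ⟨x.split.prime.ne_zero⟩
  haveI : NeZero D.tw.R := ⟨D.tw.R_ne_zero⟩
  haveI : NeZero x.lev := ⟨left_ne_zero_of_mul (NeZero.ne (x.lev * q))⟩
  exact killing_apply LD (sysMap O s) Nat.prime_two LevelRho.two_mem_O Θ R₀ hgal hdet
    x.split.prime x.not_dvd_lev hq2 hA hτ _ (x.sumsZero_twist s hL LD c hχ hz)

/-- the components of the relation at a killing prime -/
theorem quartic_comp {O C κ G : Type} [Monoid G] [CommRing O] [CommRing C] [Algebra O C]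
    [Algebra ℤ_[2] C] (T : Subalgebra ℤ_[2] (κ → C)) (χ : κ → G →* O) (R₀ : G →* M2 C)
    (ρ : G →* M2 T)
    (htr : ∀ g, ((ρ g).trace : κ → C) = (LevelRho.twistedRep χ R₀ g).trace)
    (hdet : ∀ g, ((ρ g).det : κ → C) = (LevelRho.twistedRep χ R₀ g).det)
    (q : ℕ) {g : G} (hR : (R₀ g).det = (q : C)) (k : κ) :
    (((q : T) * (ρ g).trace ^ 2 - (1 + (q : T)) ^ 2 * (ρ g).det : T) : κ → C) k =
      algebraMap O C (χ k g * χ k g) * (q : C) * ((R₀ g).trace ^ 2 - (1 + (q : C)) ^ 2) := by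
  obtain ⟨ev, hev⟩ : ∃ ev : T →+* C, ∀ t, ev t = (t : κ → C) k :=
    ⟨(Pi.evalRingHom _ k).comp T.val.toRingHom, fun _ => rfl⟩
  have e1 : ev (ρ g).trace = algebraMap O C (χ k g) * (R₀ g).trace := by
    rw [hev, htr, LevelRho.trace_twistedRep, Algebra.smul_def]
  have e2 : ev (ρ g).det = algebraMap O C (χ k g * χ k g) * q := by
    rw [hev, hdet, LevelRho.det_twistedRep, hR]
  rw [← hev]
  simp only [map_sub, map_mul, map_pow, _root_.map_add, map_one, map_natCast, e1, e2]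
  ring

/-- a vector killed by a residually nonzero element vanishes -/
theorem eq_zero_of_killed {T V : Type} [CommRing T] [Algebra ℤ_[2] T] [IsLocalRing T]
    [AddCommGroup V] [Module ℤ_[2] V] (π : T →+* ZMod 2) (hπ : RingHom.ker π = maximalIdeal T)
    (φ : T →ₐ[ℤ_[2]] Module.End ℤ_[2] V) {q : ℕ} (hq : Odd q) {a b : T} (ha : π a = 1) {v : V}
    (h : φ ((q : T) * a ^ 2 - (1 + (q : T)) ^ 2 * b) v = 0) : v = 0 := by
  have hq' : (q : ZMod 2) = 1 := by
    rw [← ZMod.natCast_mod q 2, Nat.odd_iff.1 hq, Nat.cast_one]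
  set t := (q : T) * a ^ 2 - (1 + (q : T)) ^ 2 * b
  have hu : IsUnit t := by
    by_contra hn
    have hk : t ∈ maximalIdeal T := hn
    rw [← hπ, RingHom.mem_ker] at hk
    simp only [t, map_sub, map_mul, map_pow, _root_.map_add, map_one, map_natCast, ha, hq'] at hk
    rw [show (1 : ZMod 2) + 1 = 0 from rfl, zero_pow two_ne_zero, zero_mul, one_pow, sub_zero,
      one_mul] at hk
    exact one_ne_zero hk
  obtain ⟨u, hu'⟩ := hu.exists_left_inv
  have h1 := congrArg (fun s => φ s v) hu'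
  simp only [map_mul, Module.End.mul_apply, h, map_zero, map_one, Module.End.one_apply] at h1
  exact h1.symm

/-- a relation on a quotient acting compatibly -/
theorem quot_rel {T V : Type} [CommRing T] [Algebra ℤ_[2] T] [AddCommGroup V] [Module ℤ_[2] V]
    (φ : T →ₐ[ℤ_[2]] Module.End ℤ_[2] V) (I : Ideal T)
    (φI : (T ⧸ I) →ₐ[ℤ_[2]] Module.End ℤ_[2] V)
    (hφI : ∀ t, φI (Ideal.Quotient.mk I t) = φ t) (q : ℕ) (a b : T) (v : V)
    {a' b' : T ⧸ I} (ha : a' = Ideal.Quotient.mk I a) (hb : b' = Ideal.Quotient.mk I b)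
    (h : φ ((q : T) * a ^ 2 - (1 + (q : T)) ^ 2 * b) v = 0) :
    φI ((q : T ⧸ I) * a' ^ 2) v = φI ((1 + (q : T ⧸ I)) ^ 2 * b') v := by
  subst ha hb
  rw [← map_natCast (Ideal.Quotient.mk I) q, ← map_one (Ideal.Quotient.mk I),
    ← _root_.map_add, ← map_pow, ← map_pow, ← map_mul, ← map_mul, hφI, hφI, ← sub_eq_zero,
    ← LinearMap.sub_apply, ← map_sub]
  exact h

variable {W : WeierstrassCurve ℤ} {hW : IsAnchor W} {d : SysData hW M} {D : AuxData M r}

namespace Setup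

variable (P : Setup d D)

theorem quartic_R {q : ℕ} (x : Exact D q) (hq2 : q ≠ 2)
    {A : ValuationSubring (AlgebraicClosure ℚ)} (hA : A.LiesOverPrime q) {τ : GQ}
    (hτ : A.IsFrobeniusAt τ q) (z : LevelRho.Mod D (d.sys Z2)) (hz : x.NewAt ℤ_[2] z.1) :
    P.R.φ ((q : P.R.T) * (P.R.ρ τ).trace ^ 2 - (1 + (q : P.R.T)) ^ 2 * (P.R.ρ τ).det) z = 0 := by
  refine P.R.twist_injective _ fun k => ?_
  rw [P.R.twist_φ k]
  have hR : (P.R.R₀ τ).det = (q : LevelRho.TL (d.sys Z2) P.O P.LD P.S) := by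
    rw [P.R.det_R₀, Attach.cycR_frobenius _ _ x.split.prime hq2 hA hτ, map_natCast]
  rw [quartic_comp P.R.T (fun k => ((P.cs k).chi).comp (LevelRho.cycU M)) P.R.R₀ P.R.ρ P.R.trace_ρ
    P.R.det_ρ q hR k, MulMemClass.coe_mul, Module.End.mul_apply]
  have h := killing_twist (d.sys Z2) P.hL P.LD (P.cs k) (P.hχ k) P.R.Θ P.R.R₀ P.R.Θ_gal P.R.det_R₀
    x hq2 hA hτ z hz
  rw [P.R.Θ_scalar] at h
  rw [h, map_zero]

theorem quartic_TQ (q : ℕ) (x : Exact D q) (hq2 : q ≠ 2) (z : (d.sys Z2).E (lrRep D))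
    (hz : x.NewAt Z2 z.1) (A : ValuationSubring (AlgebraicClosure ℚ)) (hA : A.LiesOverPrime q)
    (τ : GQ) (hτ : A.IsFrobeniusAt τ q) :
    P.φQ ((q : P.TQ) * (P.ρQ τ).trace ^ 2) z =
      P.φQ ((1 + (q : P.TQ)) ^ 2 * (P.ρQ τ).det) z := by
  exact quot_rel P.R.φ (RingHom.ker P.R.φ) P.φQ P.φQ_mk q (P.R.ρ τ).trace (P.R.ρ τ).det z
    (P.trace_ρQ τ) (P.det_ρQ τ) (P.quartic_R x hq2 hA hτ z hz)

end Setup

/-- no classes are new at a good ordinary prime of the level -/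
theorem newAt_eq_zero (d : SysData hW M) (D : AuxData M r) (hD : Good d D) {q : ℕ}
    (x : Exact D q) (hq2 : q ≠ 2) (hgood : ¬ (q : ℤ) ∣ W.Δ) (hodd : Odd (W.apOfModel q))
    {z : LL.H1 (lrRep D)} (hz : z ∈ (d.sys Z2).E (lrRep D)) (hnew : x.NewAt Z2 z) : z = 0 := by
  by_contra hne
  have hE : (d.sys Z2).E (lrRep D) ≠ ⊥ := fun h => hne (by
    rw [h] at hz
    exact (Submodule.mem_bot _).1 hz)
  obtain ⟨P⟩ := exists_setup d D hD hE
  obtain ⟨A, τ, hA, hτ⟩ := Alg.exists_place_frobenius q x.split.prime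
  have hπ : P.R.π (P.R.ρ τ).trace = 1 :=
    (AddMonoidHom.map_trace P.R.π.toAddMonoidHom (P.R.ρ τ)).trans
      ((congrArg Matrix.trace (P.R.res τ)).trans
        ((trace_rb2 hW x.split.prime hq2 hgood hA hτ).trans (apOfModel_cast_two hodd)))
  exact hne (congrArg Subtype.val (eq_zero_of_killed P.R.π P.R.ker_π P.R.φ
    (x.split.prime.odd_of_ne_two hq2) hπ (P.quartic_R x hq2 hA hτ ⟨z, hz⟩ hnew)))

end FLTAgent.R2.Lv

end
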