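import Fermat.Agent.Chebotarev.Density

/-!
Area R2, parcel D: Frobenius elements generating the same cyclic group as a given element on a
finite extension.
-/

set_option autoImplicit false

noncomputable section

namespace FLTAgent.R2.Layer

open FLTAgent.Chebotarev
open scoped Pointwise

local notation "Ω" => AlgebraicClosure ℚ
local notation "GalQ" => AlgebraicClosure ℚ ≃ₐ[ℚ] AlgebraicClosure ℚ

/-- on a finite extension some Frobenius element outside a finite set is a power of `σ`, and `σ`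
a power of it -/
theorem exists_frobenius_gen (E : IntermediateField ℚ Ω) [FiniteDimensional ℚ E]
    (σ : GalQ) (S : Finset ℕ) :
    ∃ (ℓ : ℕ) (A : ValuationSubring Ω) (φ : GalQ) (j u : ℕ),
      ℓ.Prime ∧ ℓ ∉ S ∧ A.LiesOverPrime ℓ ∧ A.IsFrobeniusAt φ ℓ ∧
        (∀ x ∈ E, (φ ^ j) x = σ x) ∧ ∀ x ∈ E, φ x = (σ ^ u) x := by
  haveI : IsGalois ℚ Ω := FLTAgent.Alg.qb_isGalois
  let M := IntermediateField.normalClosure ℚ E Ω
  haveI : Normal ℚ M := normalClosure.normal ℚ E Ω
  obtain ⟨p, x, hpS, hx⟩ := exists_frobRes_conj_gen M (AlgEquiv.restrictNormalHom M σ) S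
  obtain ⟨g, hg⟩ := AlgEquiv.restrictNormalHom_surjective (F := ℚ) (K₁ := M) Ω x⁻¹
  obtain ⟨j, hj⟩ : AlgEquiv.restrictNormalHom M σ ∈
      Submonoid.powers (x⁻¹ * frobRes M p * x) := by
    rw [mem_powers_iff_mem_zpowers, hx]
    exact Subgroup.mem_zpowers _
  obtain ⟨u, hu⟩ : x⁻¹ * frobRes M p * x ∈
      Submonoid.powers (AlgEquiv.restrictNormalHom M σ) := by
    rw [mem_powers_iff_mem_zpowers, ← hx]
    exact Subgroup.mem_zpowers _
  set φ : GalQ := g * frobAt p * g⁻¹ with hφ
  have hres : AlgEquiv.restrictNormalHom M φ = x⁻¹ * frobRes M p * x := by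
    rw [hφ, map_mul, map_mul, map_inv, hg, inv_inv]
  have key : ∀ a b : GalQ, AlgEquiv.restrictNormalHom M a = AlgEquiv.restrictNormalHom M b →
      ∀ z ∈ E, a z = b z := by
    intro a b hab z hz
    have hzM : z ∈ M := E.le_normalClosure hz
    exact (AlgEquiv.restrictNormal_commutes a M ⟨z, hzM⟩).symm.trans
      ((congrArg (algebraMap M Ω) (DFunLike.congr_fun hab ⟨z, hzM⟩)).trans
        (AlgEquiv.restrictNormal_commutes b M ⟨z, hzM⟩))
  refine ⟨p, g • placeAt p, φ, j, u, p.2, hpS, liesOverPrime_smul g (placeAt_liesOver p),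
    isFrobeniusAt_conj (isFrobeniusAt_frobAt p) g, key _ _ ?_, key _ _ ?_⟩
  · rw [map_pow, hres]; exact hj
  · rw [map_pow, hres]; exact hu.symm

end FLTAgent.R2.Layer

end
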