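import Fermat.Agent.R2.PrimesFrame
import Fermat.Agent.R2.PrimesCheb
import Fermat.Agent.MLT.SquareAux

/-!
Area R2, parcel D: existence of the auxiliary primes `q` killing a class with values in the
two-torsion of an anchor.
-/

set_option autoImplicit false
set_option linter.style.haveILetI false

noncomputable section

namespace FLTAgent.R2

open WeierstrassCurve Matrix
open FLTAgent.Torsion (Tors nsmul_tors)
open FLTAgent.Local (QPoint)
open FLTAgent.Attach (cyc)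
open scoped WeierstrassCurve.Affine Pointwise

local notation "Ω" => AlgebraicClosure ℚ
local notation "GalQ" => AlgebraicClosure ℚ ≃ₐ[ℚ] AlgebraicClosure ℚ

/-- a continuous crossed homomorphism into the two-torsion -/
structure IsTwoCocycle {W : WeierstrassCurve ℤ} (z : GalQ → Tors W 2) : Prop where
  mul : ∀ σ τ, z (σ * τ) = z σ + σ • z τ
  level : ∃ L : IntermediateField ℚ Ω, FiniteDimensional ℚ L ∧
    ∀ σ s : GalQ, (∀ x ∈ L, s x = x) → z (σ * s) = z σ

/-- inertia at an odd bad prime of an anchor: trace two modulo four and determinant one at every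
level -/
theorem exists_transvection {W : WeierstrassCurve ℤ} (h : IsAnchor W) (T : MLT.TateBasis W 2)
    {l : ℕ} (hl : l.Prime) (hl2 : l ≠ 2) (hd : (l : ℤ) ∣ W.Δ) {A : ValuationSubring Ω}
    (hA : A.LiesOverPrime l) (n : ℕ) :
    ∃ τ ∈ A.inertiaSubgroupIn ℚ, Layer.red T h.neg.ne τ ≠ 1 ∧
      (Layer.rep T h.neg.ne (n + 1) τ).det = 1 ∧
      ∃ b, (Layer.rep T h.neg.ne (n + 1) τ).trace = 2 * b ∧ Layer.modTwo (n + 1) b = 1 := by
  obtain ⟨τ, hτ, hmove⟩ := Layer.exists_inertia_sqrt hl hA h.neg.ne (h.odd_v l hl hl2 hd)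
  obtain ⟨hsq, hne⟩ := Layer.red_transposition T h.neg.ne hmove
  have hln : ∀ k : ℕ, ¬ l ∣ 2 ^ k := fun k hk =>
    hl2 ((Nat.prime_dvd_prime_iff_eq hl Nat.prime_two).1 (hl.dvd_of_dvd_pow hk))
  have hdet : ∀ k, (Layer.rep T h.neg.ne k τ).det = 1 := fun k => by
    rw [Layer.det_eq_cyc T h.neg.ne k hsq hne, Attach.cyc_inertia hl (hln _) hA hτ]
  -- the trace modulo four
  obtain ⟨P, hP4, hP2, hfix⟩ := Layer.exists_four_fixed hA hl hl2 hd (h.ss l hl) h.neg.ne
  set c := (T.basis h.neg.ne 1).repr (Torsion.mkTors P (by simpa using hP4)) with hc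
  have hcol : Layer.rep T h.neg.ne 1 τ *ᵥ ⇑c = ⇑c := by
    show T.levelMat h.neg.ne 1 τ *ᵥ ⇑c = ⇑c
    rw [MLT.TateBasis.levelMat, hc, LinearMap.toMatrix_mulVec_repr]
    congr 2
    exact Subtype.ext (hfix τ hτ)
  have hodd : ∃ i, Layer.modTwo 1 (c i) = 1 := by
    by_contra hcon
    push Not at hcon
    apply hP2
    have h2 : (2 : ZMod (2 ^ (1 + 1))) • Torsion.mkTors P (by simpa using hP4) = 0 := by
      apply (T.basis h.neg.ne 1).repr.injective
      rw [map_smul, map_zero]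
      ext i
      have := hcon i
      rw [hc] at this
      rw [Finsupp.smul_apply, smul_eq_mul, Finsupp.zero_apply]
      revert this
      generalize ((T.basis h.neg.ne 1).repr (Torsion.mkTors P _)) i = a
      revert a
      decide
    have h3 := congrArg Subtype.val h2
    rw [← Nat.cast_ofNat (R := ZMod (2 ^ (1 + 1))) (n := 2), Nat.cast_smul_eq_nsmul] at h3
    exact h3
  have htr1 : (Layer.rep T h.neg.ne 1 τ).trace = 2 := by
    have key : ∀ a00 a01 a10 a11 c0 c1 : ZMod (2 ^ (1 + 1)), a00 * a11 - a01 * a10 = 1 →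
        a00 * c0 + a01 * c1 = c0 → a10 * c0 + a11 * c1 = c1 →
        (IsUnit c0 ∨ IsUnit c1) → a00 + a11 = 2 := by
      intro a b d e c0 c1 hdet' h0 h1 hu
      rcases hu with hu | hu
      · refine sub_eq_zero.1 (hu.mul_left_eq_zero.1 ?_)
        linear_combination -(e - 1) * h0 + b * h1 + c0 * hdet'
      · refine sub_eq_zero.1 (hu.mul_left_eq_zero.1 ?_)
        linear_combination -(a - 1) * h1 + d * h0 + c1 * hdet'
    have h0 := congrFun hcol 0
    have h1 := congrFun hcol 1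
    simp only [Matrix.mulVec, dotProduct, Fin.sum_univ_two] at h0 h1
    rw [Matrix.trace_fin_two]
    refine key _ _ _ _ _ _ ((Matrix.det_fin_two _).symm.trans (hdet 1)) h0 h1 ?_
    obtain ⟨i, hi⟩ := hodd
    have hu : ∀ x : ZMod (2 ^ (1 + 1)), Layer.modTwo 1 x = 1 → IsUnit x := by decide
    fin_cases i
    · exact Or.inl (hu _ hi)
    · exact Or.inr (hu _ hi)
  have hcast : ∀ m, ∃ j : ℕ, (Layer.rep T h.neg.ne (m + 1) τ).trace = (j : ZMod (2 ^ (m + 1 + 1))) ∧
      j % 4 = 2 := by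
    intro m
    induction m with
    | zero =>
      exact ⟨2, by rw [htr1]; rfl, rfl⟩
    | succ m ih =>
      obtain ⟨j, hj, hj4⟩ := ih
      obtain ⟨k, hk⟩ := ZMod.natCast_zmod_surjective (Layer.rep T h.neg.ne (m + 1 + 1) τ).trace
      refine ⟨k, hk.symm, ?_⟩
      have e : T.levelMat h.neg.ne (m + 1) τ = _ := (T.levelMat_cast h.neg.ne (m + 1) τ).symm
      have h' : (Layer.rep T h.neg.ne (m + 1) τ).trace = ((k : ℕ) : ZMod (2 ^ (m + 1 + 1))) := by
        show (T.levelMat h.neg.ne (m + 1) τ).trace = _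
        rw [e, Matrix.trace_fin_two, Matrix.map_apply, Matrix.map_apply, ← map_add,
          ← Matrix.trace_fin_two]
        exact (congrArg _ hk.symm).trans (map_natCast _ k)
      rw [hj, ZMod.natCast_eq_natCast_iff'] at h'
      have h4 : 4 ∣ 2 ^ (m + 1 + 1) := ⟨2 ^ m, by ring⟩
      have := congrArg (· % 4) h'
      simp only [Nat.mod_mod_of_dvd _ h4] at this
      omega
  obtain ⟨j, hj, hj4⟩ := hcast n
  refine ⟨τ, hτ, hne, hdet _, (j / 2 : ℕ), ?_, ?_⟩
  · rw [hj]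
    conv_lhs => rw [show j = 2 * (j / 2) by omega]
    push_cast
    rfl
  · rw [map_natCast, ← Nat.cast_one, ZMod.natCast_eq_natCast_iff']
    omega

/-- **the killing primes**: a nonzero class whose value at inertia over one odd bad prime lies in
the fixed line is, at infinitely many primes `q` with `Frob_q = c` on `W[2^N]`, outside the fixed
line of Frobenius -/
theorem exists_killing_prime {W : WeierstrassCurve ℤ} (h : IsAnchor W) (N : ℕ)
    {z : GalQ → Tors W 2} (hz : IsTwoCocycle z) {l : ℕ} (hl : l.Prime) (hl2 : l ≠ 2)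
    (hd : (l : ℤ) ∣ W.Δ) {A₀ : ValuationSubring Ω} (hA₀ : A₀.LiesOverPrime l)
    (hline : ∀ σ ∈ A₀.inertiaSubgroupIn ℚ, σ • z σ = z σ)
    (hne : ¬ ∃ P : Tors W 2, ∀ σ : GalQ, z σ = σ • P - P) (S : Finset ℕ) :
    ∃ (q : ℕ) (A : ValuationSubring Ω) (σ : GalQ), q.Prime ∧ q ∉ S ∧ q ≠ 2 ∧
      ¬ (q : ℤ) ∣ W.Δ ∧ A.LiesOverPrime q ∧ A.IsFrobeniusAt σ q ∧
      (∀ P : QPoint W, 2 ^ N • P = 0 → σ • P = complexConjugation • P) ∧
      2 ^ N ∣ q + 1 ∧ (2 : ℤ) ^ N ∣ W.apOfModel q ∧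
      (∃ x : Tors W 2, σ • x ≠ x) ∧ σ • z σ ≠ z σ := by
  haveI : Fact (Nat.Prime 2) := ⟨Nat.prime_two⟩
  obtain ⟨T⟩ := MLT.exists_tateBasis (p := 2) h.neg.ne
  have hΔ := h.neg.ne
  -- work at level `n + 1 ≥ N`
  set n := N with hn
  obtain ⟨τ, hτI, hτne, hτdet, hτtr⟩ := exists_transvection h T hl hl2 hd hA₀ n
  obtain ⟨hcsq, hcne⟩ := Layer.red_transposition T hΔ (Layer.conj_sqrt h.neg)
  let w : GalQ → Fin 2 → ZMod 2 := fun g => Layer.co T hΔ (z g)
  have hw : ∀ g k, w (g * k) = w g + Layer.red T hΔ g *ᵥ w k := fun g k => by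
    simp only [w, hz.mul, map_add, Layer.co_smul]
  have hirr := Layer.no_fixed T hΔ h.irr
  haveI : NeZero (2 ^ (n + 1 + 1)) := ⟨pow_ne_zero _ two_ne_zero⟩
  let χ : GalQ →* ZMod (2 ^ (n + 1 + 1)) :=
    { toFun := cyc (2 ^ (n + 1 + 1))
      map_one' := Attach.cyc_one _
      map_mul' := Attach.cyc_mul _ }
  have hln : ¬ l ∣ 2 ^ (n + 1 + 1) := fun hk =>
    hl2 ((Nat.prime_dvd_prime_iff_eq hl Nat.prime_two).1 (hl.dvd_of_dvd_pow hk))
  obtain ⟨k, hk, hχk, hout⟩ := Layer.exists_outside (Layer.red T hΔ) hw (Layer.rep T hΔ (n + 1))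
    (Layer.rep_map T hΔ (n + 1)) χ.toHomUnits
    (Layer.surjective_of_transposition (Layer.red T hΔ) hcsq hcne hirr) hirr hτdet hτtr hτne
    (Units.ext (Attach.cyc_inertia hl hln hA₀ hτI))
    (by simp only [w, ← Layer.co_smul, hline τ hτI])
    (fun ⟨m, hm⟩ => hne ⟨(Layer.co T hΔ).symm m, fun g => (Layer.co T hΔ).injective (by
      rw [map_sub, Layer.co_smul, AddEquiv.apply_symm_apply]; exact hm g)⟩) hcne
  set σ₀ : GalQ := complexConjugation * k with hσ₀
  obtain ⟨L1, hL1, h1⟩ := EllFrob.exists_torsion_field hΔ (2 ^ (n + 1 + 1)) (NeZero.ne _)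
  obtain ⟨L2, hL2, h2⟩ := Attach.exists_cyc_level (2 ^ (n + 1 + 1))
  obtain ⟨L3, hL3, h3⟩ := hz.level
  haveI := hL1; haveI := hL2; haveI := hL3
  obtain ⟨q, A, φ, j, u, hq, hqS, hA, hφ, hagree, hagree'⟩ :=
    Layer.exists_frobenius_gen (L1 ⊔ L2 ⊔ L3) σ₀ (insert 2 (S ∪ W.Δ.natAbs.primeFactors))
  simp only [Finset.mem_insert, Finset.mem_union, Nat.mem_primeFactors, not_or] at hqS
  obtain ⟨hq2, hqS, hqΔ⟩ := hqS
  have hgood : ¬ (q : ℤ) ∣ W.Δ := fun hh => hqΔ ⟨hq, Int.natCast_dvd.1 hh, by simpa using hΔ⟩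
  -- the three invariants of agreement on the finite extension
  have hcmp : ∀ a b : GalQ, (∀ y ∈ L1 ⊔ L2 ⊔ L3, a y = b y) →
      Layer.rep T hΔ (n + 1) a = Layer.rep T hΔ (n + 1) b ∧
        cyc (2 ^ (n + 1 + 1)) a = cyc (2 ^ (n + 1 + 1)) b ∧ z a = z b := by
    intro a b hab
    have hfix : ∀ L : IntermediateField ℚ Ω, L ≤ L1 ⊔ L2 ⊔ L3 → ∀ y ∈ L, (b⁻¹ * a) y = y :=
      fun L hL y hy => by
        rw [AlgEquiv.mul_apply, hab y (hL hy)]
        exact b.symm_apply_apply y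
    have e : a = b * (b⁻¹ * a) := (mul_inv_cancel_left b a).symm
    refine ⟨(Layer.rep_eq_iff T hΔ (n + 1) a b).2 fun P hP => congrArg Subtype.val (h1 a b (fun y hy =>
      hab y (le_sup_left (a := L1 ⊔ L2) (le_sup_left (a := L1) hy))) (Torsion.mkTors P hP)), ?_, ?_⟩
    · conv_lhs => rw [e]
      rw [Attach.cyc_mul, h2 _ (hfix L2 (le_trans le_sup_right le_sup_left)), mul_one]
    · conv_lhs => rw [e]
      exact h3 _ _ (hfix L3 le_sup_right)
  obtain ⟨hrj, -, -⟩ := hcmp _ _ hagree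
  obtain ⟨hru, hcu, hzu⟩ := hcmp _ _ hagree'
  have hred : ∀ a b : GalQ, Layer.rep T hΔ (n + 1) a = Layer.rep T hΔ (n + 1) b →
      Layer.red T hΔ a = Layer.red T hΔ b := fun a b hab => by
    rw [← Layer.rep_map T hΔ (n + 1), hab, Layer.rep_map]
  have hσc : Layer.rep T hΔ (n + 1) σ₀ = Layer.rep T hΔ (n + 1) complexConjugation := by
    rw [hσ₀, map_mul, hk, mul_one]
  have hc2 : Layer.red T hΔ σ₀ * Layer.red T hΔ σ₀ = 1 := by rw [hred _ _ hσc, hcsq]
  have hc2' : Layer.rep T hΔ (n + 1) σ₀ * Layer.rep T hΔ (n + 1) σ₀ = 1 := by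
    rw [hσc, ← map_mul, complexConjugation_mul_self, map_one]
  obtain ⟨v, hv⟩ : Odd u := by
    rw [← Nat.not_even_iff_odd]
    rintro ⟨v, rfl⟩
    apply hcne
    rw [← hred _ _ hσc, ← hred _ _ hrj, map_pow, hred _ _ hru, map_pow, ← two_mul, pow_mul,
      pow_two, hc2, one_pow, one_pow]
  have hp : ∀ {M : Type} [Monoid M] (a : M), a * a = 1 → a ^ (2 * v + 1) = a :=
    fun a ha => by rw [pow_succ, pow_mul, pow_two, ha, one_pow, one_mul]
  have hφc : Layer.rep T hΔ (n + 1) φ = Layer.rep T hΔ (n + 1) complexConjugation := by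
    rw [hru, map_pow, hv, hp _ hc2', hσc]
  have hcyc : cyc (2 ^ (n + 1 + 1)) φ = -1 := by
    have hk1 : cyc (2 ^ (n + 1 + 1)) k = 1 := congrArg Units.val hχk
    have e0 : cyc (2 ^ (n + 1 + 1)) σ₀ = -1 := by
      rw [hσ₀, Attach.cyc_mul, hk1, mul_one, MLT.cyc_conj_general]
    rw [hcu, EllFrob.cyc_pow, e0, hv, hp _ (by rw [neg_mul_neg, one_mul])]
  have hq1 : 2 ^ (n + 1 + 1) ∣ q + 1 := by
    have hqn : ¬ q ∣ 2 ^ (n + 1 + 1) := fun hh =>
      hq2 ((Nat.prime_dvd_prime_iff_eq hq Nat.prime_two).1 (hq.dvd_of_dvd_pow hh))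
    have e := Attach.cyc_frobenius hq hqn hA hφ
    rw [hcyc] at e
    rw [← ZMod.natCast_eq_zero_iff, Nat.cast_add, Nat.cast_one, ← e, neg_add_cancel]
  have hact : ∀ P : QPoint W, 2 ^ (n + 1 + 1) • P = 0 → φ • P = complexConjugation • P :=
    fun P hP => (Layer.rep_eq_iff T hΔ (n + 1) _ _).1 hφc P hP
  have hact2 : ∀ x : Tors W 2, φ • x = complexConjugation • x := fun x =>
    (Layer.co T hΔ).injective (by rw [Layer.co_smul, Layer.co_smul, hred _ _ hφc])
  have hlevel : 2 ^ N ∣ 2 ^ (n + 1 + 1) := pow_dvd_pow 2 (by omega)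
  refine ⟨q, A, φ, hq, hqS, hq2, hgood, hA, hφ, fun P hP => hact P ?_, hlevel.trans hq1, ?_, ?_, ?_⟩
  · obtain ⟨e, he⟩ := hlevel
    rw [he, mul_nsmul, hP, nsmul_zero]
  · -- the trace of Frobenius
    have hdiv : ((2 ^ (n + 1 + 1) : ℕ) : ℤ) ∣ W.apOfModel q := by
      refine S58.dvd_of_forall_zsmul hΔ (NeZero.ne _) fun P hP => ?_
      have hqn : ¬ q ∣ 2 ^ (n + 1 + 1) := fun hh =>
        hq2 ((Nat.prime_dvd_prime_iff_eq hq Nat.prime_two).1 (hq.dvd_of_dvd_pow hh))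
      set Q := complexConjugation • P with hQ
      have hQP : φ • Q = P := by
        rw [hact Q (Local.smul_torsion hP), hQ, smul_smul, complexConjugation_mul_self, one_smul]
      have hrel := EllFrob.torsion_relation hq hgood hA hφ hqn Q (Local.smul_torsion hP)
      rw [hQP, hact P hP, ← hQ] at hrel
      have hq0 : (q : ℤ) • Q + Q = 0 := by
        obtain ⟨e, he⟩ := hq1
        rw [natCast_zsmul, ← succ_nsmul, he, mul_nsmul, Local.smul_torsion hP, nsmul_zero]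
      linear_combination (norm := abel) hq0 - hrel
    refine dvd_trans ?_ hdiv
    push_cast
    exact pow_dvd_pow 2 (by omega)
  · by_contra hcon
    push Not at hcon
    refine hcne (Matrix.ext_of_mulVec_single fun i => ?_)
    obtain ⟨x, hx⟩ := (Layer.co T hΔ).surjective (Pi.single i 1)
    rw [← hx, ← Layer.co_smul, ← hact2, hcon, Matrix.one_mulVec]
  · intro hfix
    apply hout
    have hw' : Layer.red T hΔ φ *ᵥ w φ = w φ := by simp only [w, ← Layer.co_smul, hfix]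
    have hwu : w φ = w (σ₀ ^ u) := congrArg (Layer.co T hΔ) hzu
    rw [hwu, hred _ _ hru] at hw'
    have hwodd : ∀ m : ℕ, w (σ₀ ^ (2 * m + 1)) = w σ₀ +
        m • (w σ₀ + Layer.red T hΔ σ₀ *ᵥ w σ₀) := by
      intro m
      induction m with
      | zero => simp
      | succ m ih =>
        rw [show 2 * (m + 1) + 1 = 1 + (1 + (2 * m + 1)) by ring, pow_add σ₀, pow_add σ₀, pow_one, hw σ₀, hw σ₀,
          ih, Matrix.mulVec_add, Matrix.mulVec_mulVec, hc2, Matrix.one_mulVec, succ_nsmul]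
        abel
    have hr1 : Layer.red T hΔ (σ₀ ^ u) = Layer.red T hΔ σ₀ := by
      rw [map_pow, hv, hp _ hc2]
    rw [hr1, hv, hwodd, Matrix.mulVec_add, Matrix.mulVec_smul, Matrix.mulVec_add,
      Matrix.mulVec_mulVec, hc2, Matrix.one_mulVec,
      add_comm (Layer.red T hΔ σ₀ *ᵥ w σ₀) (w σ₀), add_left_inj] at hw'
    exact hw'

end FLTAgent.R2

end
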