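import Fermat.Agent.R2.Selmer
import Fermat.Agent.R2.Defs
import Fermat.Agent.R2.PrimesKill

/-!
R2, parcel C: the Selmer space of the two-torsion of an anchor is killed by boundedly many killing
primes.
-/

set_option autoImplicit false
set_option linter.style.haveILetI false

noncomputable section

namespace FLTAgent.R2

open WeierstrassCurve Matrix CategoryTheory groupCohomology
open FLTAgent.Torsion (Tors mkTors nsmul_tors)
open FLTAgent.Local (QPoint)
open scoped WeierstrassCurve.Affine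
open FLTAgent.PT (Gam loc inert Z1 h1mk res1 unr1 range_loc)

local notation "Ω" => AlgebraicClosure ℚ
local notation "V₂" => Fin 2 → ZMod 2
local notation "M₂" => Matrix (Fin 2) (Fin 2) (ZMod 2)

variable {W : WeierstrassCurve ℤ}

/-- the residual representation, as a plane over `𝔽₂` -/
abbrev r2 (hW : IsAnchor W) : GQ →* M₂ := Layer.red (tate hW) hW.neg.ne

theorem r2_eq_rb (hW : IsAnchor W) (σ : GQ) : (r2 hW σ : M₂) = rb hW σ := by
  haveI : Fact (Nat.Prime 2) := ⟨Nat.prime_two⟩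
  show ((tate hW).levelMat hW.neg.ne 0 σ).map (Layer.modTwo 0) = _
  rw [RingHom.ext_zmod (Layer.modTwo 0) (RingHom.id (ZMod 2))]
  exact (Matrix.map_id _).trans ((tate hW).mat_level hW.neg.ne 0 σ).symm

theorem isPlane_r2 (hW : IsAnchor W) : Sel.IsPlane (r2 hW) where
  level := by
    haveI : Fact (Nat.Prime 2) := ⟨Nat.prime_two⟩
    obtain ⟨L, hL, h⟩ := (tate hW).exists_level hW.neg.ne 0
    refine ⟨L, hL, fun g hg => ?_⟩
    rw [← map_one (r2 hW)]
    exact congrArg (fun A => A.map (Layer.modTwo 0))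
      (h g 1 fun z hz => (IntermediateField.mem_fixingSubgroup_iff _ _).1 hg z hz)
  irr v := Layer.no_fixed (tate hW) hW.neg.ne hW.irr v
  inf := (Layer.red_transposition (tate hW) hW.neg.ne (Layer.conj_sqrt hW.neg)).2

open Classical in
/-- the primes of the conditions of an anchor -/
def baseP (W : WeierstrassCurve ℤ) : Finset Nat.Primes :=
  (insert 2 (badOdd W)).subtype Nat.Prime

theorem mem_baseP {q : Nat.Primes} : q ∈ baseP W ↔ (q : ℕ) ∈ insert 2 (badOdd W) :=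
  Finset.mem_subtype

theorem exists_moves_two (hW : IsAnchor W) :
    ∃ g : Gam Recip.two', r2 hW (loc Recip.two' g) ≠ 1 := by
  by_contra hno
  push Not at hno
  obtain ⟨k, u, hk, hΔu, hu⟩ := hW.two
  have hu0 : u ≠ 0 := by rintro rfl; exact absurd hu (by decide)
  have hΔ0 : ((W.Δ : ℤ) : ℚ) ≠ 0 := Int.cast_ne_zero.2 hW.neg.ne
  have hfix : ∀ g : Gam Recip.two', loc Recip.two' g (TH2.sqrtΔ W) = TH2.sqrtΔ W := fun g => by
    by_contra h
    exact (Layer.red_transposition (tate hW) hW.neg.ne h).2 (hno g)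
  have hs : TH2.sqrtΔ W ^ 2 = (((W.Δ : ℤ) : ℚ) : Ω) := by
    rw [TH2.sqrtΔ_sq, Rat.cast_intCast]
  have h0 : Recip.kl Recip.two' ((W.Δ : ℤ) : ℚ) = 0 := by
    rw [Recip.kl, Recip.kq_eq hs hΔ0, res1, PT.h1map_mk, PT.h1mk_eq_zero_iff]
    refine ⟨0, fun g => ?_⟩
    rw [map_zero, sub_zero]
    exact (Recip.kapQ_unique hs hΔ0 (a := 0) (by rw [hfix g, Recip.sgn_zero, one_mul])).symm
  rw [hΔu, show (((2 : ℤ) ^ (2 * k) * u : ℤ) : ℚ) = (u : ℚ) * ((2 : ℚ) ^ k) ^ 2 by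
      push_cast; ring,
    Recip.kl_mul_sq _ (Int.cast_ne_zero.2 hu0) (by positivity), Recip.kl_eq_zero_iff' hu0] at h0
  have := (Recip.isSquare_two (by omega)).1 h0
  omega

theorem inertia_r2_sq (hW : IsAnchor W) {l : ℕ} (hl : l.Prime) (hl2 : l ≠ 2)
    (hd : (l : ℤ) ∣ W.Δ) {A : ValuationSubring Ω} (hA : A.LiesOverPrime l) {σ : GQ}
    (hσ : σ ∈ A.inertiaSubgroupIn ℚ) : r2 hW σ * r2 hW σ = 1 := by
  obtain ⟨P, hP4, hP2, hfix⟩ := Layer.exists_four_fixed hA hl hl2 hd (hW.ss l hl) hW.neg.ne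
  set x : Tors W 2 := mkTors (2 • P) (by rw [← mul_nsmul']; simpa using hP4)
  have hx : σ • x = x := Subtype.ext (by
    show σ • (2 • P) = 2 • P
    rw [← smul_comm (2 : ℕ) σ P, hfix σ hσ])
  have hv : r2 hW σ *ᵥ Layer.co (tate hW) hW.neg.ne x = Layer.co (tate hW) hW.neg.ne x := by
    rw [← Layer.co_smul, hx]
  have hne : Layer.co (tate hW) hW.neg.ne x ≠ 0 := fun e =>
    hP2 (congrArg Subtype.val ((map_eq_zero_iff _ (Layer.co (tate hW) hW.neg.ne).injective).1 e))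
  have key : ∀ (A : M₂) (v : V₂), A.det = 1 → v ≠ 0 → A *ᵥ v = v → A * A = 1 := by decide
  exact key _ _ (Sel.det_eq_one _ σ) hne hv

theorem inertia_r2_good (hW : IsAnchor W) {q : ℕ} (hq : q.Prime) (hq2 : q ≠ 2)
    (hgood : ¬(q : ℤ) ∣ W.Δ) {A : ValuationSubring Ω} (hA : A.LiesOverPrime q) {σ : GQ}
    (hσ : σ ∈ A.inertiaSubgroupIn ℚ) : r2 hW σ = 1 :=
  (Layer.red_eq_one_iff (tate hW) hW.neg.ne σ).2 fun P hP =>
    Local.inertia_fix_zeroComp hA hq Nat.prime_two hq2 hσ hP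
      (Local.mem_zeroComp_of_good hA hq hgood P)

theorem isBase_r2 (hW : IsAnchor W) : Sel.IsBase (r2 hW) (baseP W) where
  two := mem_baseP.2 (Finset.mem_insert_self _ _)
  moves q hq := by
    rcases Finset.mem_insert.1 (mem_baseP.1 hq) with h2 | hb
    · obtain rfl : q = Recip.two' := Subtype.ext h2
      exact exists_moves_two hW
    · rw [badOdd, Finset.mem_filter, Nat.mem_primeFactors] at hb
      obtain ⟨⟨hl, hd, -⟩, hl2⟩ := hb
      obtain ⟨τ, hτ, hτne, -, -⟩ := exists_transvection hW (tate hW) hl hl2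
        (Int.natCast_dvd.2 hd) (A := PT.plc q) (PT.lies_plc q) 0
      have hmem : τ ∈ (loc q).range := by
        rw [range_loc q]; exact Local.inertia_mem_decomposition hτ
      obtain ⟨g, rfl⟩ := hmem
      exact ⟨g, hτne⟩
  unr q hq g hg := by
    rw [mem_baseP, Finset.mem_insert, not_or] at hq
    refine inertia_r2_good hW q.2 hq.1 (fun hd => hq.2 ?_) (PT.lies_plc q) hg
    rw [badOdd, Finset.mem_filter, Nat.mem_primeFactors]
    exact ⟨⟨q.2, Int.natCast_dvd.1 hd, Int.natAbs_ne_zero.2 hW.neg.ne⟩, hq.1⟩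

/-- an elementary cocycle of the Selmer space gives a class of the Selmer space -/
theorem exists_class_of_inX (hW : IsAnchor W) {S : Finset Nat.Primes} {S' : Finset ℕ}
    (hS : ∀ q : Nat.Primes, q ∈ S ↔ (q : ℕ) ∈ S') {f : GQ → Fin 2 → Lam 0} (hf : InX hW S' f) :
    ∃ z : Z1 (MonoidHom.id GQ) (Sel.plane (r2 hW)),
      (∀ g, Sel.cv z g = f g) ∧ h1mk _ _ z ∈ Sel.Selm (r2 hW) S := by
  have hz1 : (f : GQ → Sel.plane (r2 hW)) ∈ Z1 (MonoidHom.id GQ) (Sel.plane (r2 hW)) := by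
    refine ⟨(mem_cocycles₁_iff _).2 fun g h => ?_, ?_⟩
    · show (f (g * h) : V₂) = r2 hW g *ᵥ (f h : V₂) + f g
      rw [r2_eq_rb, hf.cocycle g h, add_comm]
    · obtain ⟨F, hF, h⟩ := hf.level
      exact ⟨F, hF, fun g s hs => h g s ((IntermediateField.mem_fixingSubgroup_iff _ _).1 hs)⟩
  set z0 : Z1 (MonoidHom.id GQ) (Sel.plane (r2 hW)) := ⟨f, hz1⟩ with hz0
  refine ⟨z0, fun g => rfl, ?_⟩
  rw [Sel.mem_selm]
  refine ⟨fun q hq => ?_, fun q hq => ?_⟩
  · refine ⟨⟨_, PT.pullPush_mem_Z1 (MonoidHom.id GQ) (r' := loc q) (loc q) (fun _ => rfl)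
      (LinearMap.id : Sel.plane (r2 hW) →ₗ[ZMod 2] Rep.res (loc q) (Sel.plane (r2 hW)))
      (fun _ _ => rfl) z0.2⟩, fun s hs => ?_, rfl⟩
    exact hf.unr q q.2 (fun h => hq ((hS q).2 h)) _ (PT.lies_plc q) _ hs
  · obtain ⟨v, hv⟩ := hf.line q ((hS q).1 hq) _ (PT.lies_plc q)
    have hd : ∀ g : Gam q, loc q g ∈ (PT.plc q).decompositionSubgroup ℚ := fun g => by
      rw [← range_loc q]; exact ⟨g, rfl⟩
    let vv : (Rep.res (loc q) (Sel.plane (r2 hW))) := (v : V₂)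
    let cb : Z1 (loc q) (Rep.res (loc q) (Sel.plane (r2 hW))) :=
      ⟨(d₀₁ (Rep.res (loc q) (Sel.plane (r2 hW)))).hom vv, by
        refine ⟨coboundaries₁_le_cocycles₁ _ (LinearMap.mem_range_self _ _), ?_⟩
        obtain ⟨F, hF, hρ⟩ := ((isPlane_r2 hW).adm.res (loc q)).level
        refine ⟨F, hF, fun g s hs => ?_⟩
        show (Rep.res (loc q) (Sel.plane (r2 hW))).ρ (g * s) vv - vv =
          (Rep.res (loc q) (Sel.plane (r2 hW))).ρ g vv - vv
        rw [map_mul, hρ s hs, mul_one]⟩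
    refine ⟨⟨_, PT.pullPush_mem_Z1 (MonoidHom.id GQ) (r' := loc q) (loc q) (fun _ => rfl)
      (LinearMap.id : Sel.plane (r2 hW) →ₗ[ZMod 2] Rep.res (loc q) (Sel.plane (r2 hW)))
      (fun _ _ => rfl) z0.2⟩ - cb, fun g h => ?_, ?_⟩
    · show r2 hW (loc q h) *ᵥ ((f (loc q g) : V₂) - (r2 hW (loc q g) *ᵥ (v : V₂) - v)) =
        (f (loc q g) : V₂) - (r2 hW (loc q g) *ᵥ (v : V₂) - v)
      rw [r2_eq_rb, r2_eq_rb]
      exact hv _ (hd g) _ (hd h)
    · rw [map_sub, sub_eq_self.2 ((PT.h1mk_eq_zero_iff (loc q) cb).2 ⟨vv, fun g => rfl⟩)]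
      rfl

/-- what a killing prime provides -/
def IsKillingPrime (W : WeierstrassCurve ℤ) (N q : ℕ) : Prop :=
  q.Prime ∧ q ≠ 2 ∧ ¬(q : ℤ) ∣ W.Δ ∧ 2 ^ (N + 1) ∣ q + 1 ∧
    (2 : ℤ) ^ (N + 1) ∣ W.apOfModel q ∧
    ∃ (A : ValuationSubring Ω) (σ : GQ), A.LiesOverPrime q ∧ A.IsFrobeniusAt σ q ∧
      ∀ P : QPoint W, 2 ^ (N + 1) • P = 0 → σ • P = complexConjugation • P

/-- **boundedly many killing primes kill the Selmer space** -/
theorem exists_selmer_zero (hW : IsAnchor W) :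
    ∃ kmax : ℕ, ∀ (N : ℕ) (avoid : Finset ℕ), ∃ Q : Finset ℕ, Q.card ≤ kmax ∧
      (∀ q ∈ Q, IsKillingPrime W N q ∧ q ∉ avoid) ∧
      SelmerZero hW (insert 2 (badOdd W ∪ Q)) := by
  classical
  obtain ⟨kmax, hk⟩ := (isPlane_r2 hW).exists_killing_set (isBase_r2 hW)
  refine ⟨kmax, fun N avoid => ?_⟩
  obtain ⟨l, hl, hl5, hld⟩ := hW.big
  have hl2 : l ≠ 2 := by omega
  set lp : Nat.Primes := ⟨l, hl⟩
  have hlS : lp ∈ baseP W := mem_baseP.2 (Finset.mem_insert_of_mem (by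
    rw [badOdd, Finset.mem_filter, Nat.mem_primeFactors]
    exact ⟨⟨hl, Int.natCast_dvd.1 hld, Int.natAbs_ne_zero.2 hW.neg.ne⟩, hl2⟩))
  obtain ⟨Q, hQc, hQg, -, hQ0⟩ := hk (fun q => IsKillingPrime W N q ∧ (q : ℕ) ∉ avoid) <| by
    intro z hz hz0 S
    set T := tate hW
    have hΔ := hW.neg.ne
    let zt : GQ → Tors W 2 := fun g => (Layer.co T hΔ).symm (Sel.cv z g)
    have hzt : ∀ g, Layer.co T hΔ (zt g) = Sel.cv z g := fun g => AddEquiv.apply_symm_apply _ _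
    have hc : IsTwoCocycle zt := by
      refine ⟨fun a b => (Layer.co T hΔ).injective ?_, ?_⟩
      · rw [map_add, Layer.co_smul, hzt, hzt, hzt, Sel.cv_mul, add_comm]
      · obtain ⟨L, hL, h⟩ := z.2.2
        exact ⟨L, hL, fun g s hs => congrArg (Layer.co T hΔ).symm
          (h g s ((IntermediateField.mem_fixingSubgroup_iff _ _).2 hs))⟩
    have hline : ∀ σ ∈ (PT.plc lp).inertiaSubgroupIn ℚ, σ • zt σ = zt σ := by
      intro σ hσ
      have hmem : σ ∈ (loc lp).range := by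
        rw [range_loc lp]; exact Local.inertia_mem_decomposition hσ
      obtain ⟨g, rfl⟩ := hmem
      refine (Layer.co T hΔ).injective ?_
      rw [Layer.co_smul, hzt]
      have hsq := inertia_r2_sq hW hl hl2 hld (PT.lies_plc lp) hσ
      obtain ⟨w, hw, e⟩ := (Sel.mem_selm.1 hz).2 lp hlS
      rw [res1, PT.h1map_mk, eq_comm, ← sub_eq_zero, ← map_sub, PT.h1mk_eq_zero_iff] at e
      obtain ⟨m, hm⟩ := e
      have main : ∀ m' t' : V₂, r2 hW (loc lp g) *ᵥ t' = t' →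
          r2 hW (loc lp g) *ᵥ m' - m' = Sel.cv z (loc lp g) - t' →
            r2 hW (loc lp g) *ᵥ Sel.cv z (loc lp g) = Sel.cv z (loc lp g) := by
        intro m' t' ht hval
        rw [(sub_eq_iff_eq_add.1 hval.symm), Matrix.mulVec_add, Matrix.mulVec_sub,
          Matrix.mulVec_mulVec, hsq, Matrix.one_mulVec, ht]
        exact Sel.sub_comm_two _ _ _
      exact main m (w.1 g) (hw g g) (hm g)
    have hnc : ¬∃ P : Tors W 2, ∀ σ : GQ, zt σ = σ • P - P := by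
      rintro ⟨P, hP⟩
      refine hz0 ((PT.h1mk_eq_zero_iff _ z).2 ⟨Layer.co T hΔ P, fun g => ?_⟩)
      have e := congrArg (Layer.co T hΔ) (hP g)
      rw [hzt, map_sub, Layer.co_smul] at e
      exact e.symm
    obtain ⟨q, A, σ, hq, hqS, hq2, hgood, hA, hσ, hconj, hdiv, hap, -, hout⟩ :=
      exists_killing_prime hW (N + 1) hc hl hl2 hld (PT.lies_plc lp) hline hnc
        (avoid ∪ S.image fun v : Nat.Primes => (v : ℕ))
    rw [Finset.mem_union, not_or] at hqS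
    refine ⟨⟨q, hq⟩, A, σ, fun hh => hqS.2 (Finset.mem_image_of_mem _ hh),
      ⟨⟨hq, hq2, hgood, hdiv, hap, A, σ, hA, hσ, hconj⟩, hqS.1⟩, hA, hσ.mem_decompositionSubgroup,
      ?_, fun e => hout ((Layer.co T hΔ).injective (by rw [Layer.co_smul, hzt, e]))⟩
    have hσc : r2 hW σ = r2 hW complexConjugation := by
      refine Matrix.ext_of_mulVec_single fun j => ?_
      obtain ⟨x, hx⟩ := (Layer.co T hΔ).surjective (Pi.single j 1)
      rw [← hx, ← Layer.co_smul, ← Layer.co_smul]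
      refine congrArg _ (Subtype.ext (hconj _ ?_))
      rw [pow_succ, mul_nsmul', nsmul_tors x, nsmul_zero]
    rw [hσc, ← map_mul, complexConjugation_mul_self, map_one]
  refine ⟨Q.image fun q : Nat.Primes => (q : ℕ), le_trans Finset.card_image_le hQc, ?_, ?_⟩
  · rintro q hq
    obtain ⟨v, hv, rfl⟩ := Finset.mem_image.1 hq
    exact hQg v hv
  intro f hf
  obtain ⟨z, hzf, hz⟩ := exists_class_of_inX hW (S := baseP W ∪ Q) (fun q => by
    simp only [Finset.mem_union, mem_baseP, Finset.mem_insert, Finset.mem_image]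
    constructor
    · rintro ((h | h) | h)
      exacts [Or.inl h, Or.inr (Or.inl h), Or.inr (Or.inr ⟨q, h, rfl⟩)]
    · rintro (h | h | ⟨v, hv, e⟩)
      exacts [Or.inl (Or.inl h), Or.inl (Or.inr h), Or.inr (Subtype.ext e ▸ hv)]) hf
  rw [hQ0, Submodule.mem_bot, PT.h1mk_eq_zero_iff] at hz
  obtain ⟨m, hm⟩ := hz
  refine ⟨(m : V₂), fun g => ?_⟩
  rw [← hzf g, ← r2_eq_rb]
  exact (hm g).symm

end FLTAgent.R2

end
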