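import Fermat.Agent.R2.LevelRhoDefs
import Fermat.Agent.R2.LevelRhoCore
import Fermat.Agent.R2.SelmerCurve
import Fermat.Agent.R2.Curve

/-!
Area R2, parcel G1: the data of an anchor feed the representation of a level with diamonds.

`Setup` carries coefficients with enough roots of unity, a complete family of choices, a lattice of
level `N0 R²` and the representation of `LevelRho` on them, residually the two-torsion of the curve.
-/

set_option autoImplicit false
set_option linter.style.haveILetI false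
set_option linter.unusedSectionVars false
set_option maxHeartbeats 1000000

noncomputable section

open Matrix IsLocalRing

namespace FLTAgent.R2.Lv

open FLTAgent.LL FLTAgent.R2.Coh

local notation "M2" => Matrix (Fin 2) (Fin 2)

variable {W : WeierstrassCurve ℤ}

/-- the residual representation with coefficients `ℤ/2` -/
def rb2 (hW : IsAnchor W) : GQ →* M2 (ZMod 2) := rb hW

/-- independence of `1, A, B, AB` -/
theorem indep_of_three_two : ∀ A B : M2 (ZMod 2), A.trace = 1 → A.det = 1 → B * B = 1 → B ≠ 1 →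
    ∀ a b c d : ZMod 2, a • (1 : M2 (ZMod 2)) + b • A + c • B + d • (A * B) = 0 →
      a = 0 ∧ b = 0 ∧ c = 0 ∧ d = 0 := by
  decide +kernel

theorem span_rb2_eq_top (hW : IsAnchor W) {σ₀ : GQ} (hσ₀ : (rb2 hW σ₀).trace = 1) :
    Submodule.span (ZMod 2) (Set.range (rb2 hW)) = ⊤ := by
  haveI : Fact (Nat.Prime 2) := ⟨Nat.prime_two⟩
  set τ : GQ := complexConjugation
  have hr : rb2 hW τ = r2 hW τ := (r2_eq_rb hW τ).symm
  have hdet : (rb2 hW σ₀).det = 1 := LevelRho.det_eq_one (rb2 hW) σ₀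
  have hsq : rb2 hW τ * rb2 hW τ = 1 := by
    rw [← map_mul, show τ * τ = 1 from complexConjugation_mul_self, map_one]
  have hne : rb2 hW τ ≠ 1 := by
    rw [hr]
    exact (isPlane_r2 hW).inf
  let v : Fin 4 → M2 (ZMod 2) := ![rb2 hW 1, rb2 hW σ₀, rb2 hW τ, rb2 hW (σ₀ * τ)]
  have hv : LinearIndependent (ZMod 2) v := Fintype.linearIndependent_iff.2 fun g hg => by
    rw [Fin.sum_univ_four] at hg
    simp only [v, map_one, map_mul, Matrix.cons_val] at hg
    obtain ⟨h0, h1, h2, h3⟩ := indep_of_three_two _ _ hσ₀ hdet hsq hne _ _ _ _ hg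
    intro i
    fin_cases i <;> assumption
  refine eq_top_iff.2 ((hv.span_eq_top_of_card_eq_finrank' ?_).ge.trans (Submodule.span_mono ?_))
  · rw [Module.finrank_matrix]
    simp
  · rintro _ ⟨i, rfl⟩
    fin_cases i <;> exact ⟨_, rfl⟩

theorem trace_rb2 (hW : IsAnchor W) {l : ℕ} (hl : l.Prime) (hl2 : l ≠ 2)
    (hgood : ¬ (l : ℤ) ∣ W.Δ) {P : ValuationSubring (AlgebraicClosure ℚ)} (hP : P.LiesOverPrime l)
    {σ : GQ} (hσ : P.IsFrobeniusAt σ l) :
    (rb2 hW σ).trace = (W.apOfModel l : ZMod 2) :=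
  trace_rE hW 0 hl hl2 hgood hP hσ

theorem apOfModel_cast_two {a : ℤ} (h : Odd a) : (a : ZMod 2) = 1 := by
  obtain ⟨k, rfl⟩ := h
  push_cast
  rw [show (2 : ZMod 2) = 0 from rfl, zero_mul, zero_add]

variable {hW : IsAnchor W} {M r : ℕ}

theorem two_dvd_delta (hW : IsAnchor W) : (2 : ℤ) ∣ W.Δ := by
  obtain ⟨k, u, hk, h, -⟩ := hW.two
  exact h ▸ dvd_mul_of_dvd_left (dvd_pow_self 2 (by omega)) u

theorem SysData.l0_ne_two (d : SysData hW M) : d.l0 ≠ 2 := fun h =>
  d.good (h ▸ two_dvd_delta hW)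

variable [NeZero M]

/-- the data of a level and their representation -/
structure Setup (d : SysData hW M) (D : AuxData M r) : Type 1 where
  O : Type
  [commRing : CommRing O]
  [isDomain : IsDomain O]
  [dvr : IsDiscreteValuationRing O]
  [complete : IsAdicComplete (maximalIdeal O) O]
  [finiteRes : Finite (ResidueField O)]
  [charZero : CharZero O]
  [algebra : Algebra ℤ_[2] O]
  [finite : Module.Finite ℤ_[2] O]
  [localHom : IsLocalHom (algebraMap ℤ_[2] O)]
  L : ℕ
  [neZero : NeZero L]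
  hL : L = D.N0 * D.tw.R ^ 2
  LD : JTors.LatticeData L
  S : Finset ℕ
  κ : Type
  [fintype : Fintype κ]
  [nonempty : Nonempty κ]
  cs : κ → D.Choice O
  hχ : ∀ k a, (cs k).chi a - 1 ∈ maximalIdeal O
  hsum : ∀ u : D.Del, u ≠ 1 → ∑ k, (cs k).delta u = 0
  R : LevelRho (d.sys Z2) hL LD S cs hχ (rb2 hW)

attribute [instance] Setup.commRing Setup.isDomain Setup.dvr Setup.complete Setup.finiteRes
  Setup.charZero Setup.algebra Setup.finite Setup.localHom Setup.neZero Setup.fintype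
  Setup.nonempty

theorem exists_setup (d : SysData hW M) (D : AuxData M r) (hD : Good d D)
    (hne : (d.sys Z2).E (lrRep D) ≠ ⊥) : Nonempty (Setup d D) := by
  classical
  haveI : Fact (Nat.Prime 2) := ⟨Nat.prime_two⟩
  choose e he using hD.index
  obtain ⟨O, _, _, _, _, _, _, _, _, _, -, h2, hζ, hw⟩ :=
    Coh.exists_roots_ring (Finset.univ.sup e + 1)
  have hodd : ∀ i, D.Q i ≠ 2 := fun i h => by
    have := hD.mod4_Q i
    rw [h] at this
    exact absurd this (by decide)
  obtain ⟨cs, hχ, hsum⟩ := AuxData.exists_choices (D := D) (A := O) hodd h2 hD.index fun i => by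
    rw [he i, ← pow_succ']
    exact hζ _ (Nat.succ_le_succ (Finset.le_sup (Finset.mem_univ i)))
  haveI : NeZero (D.N0 * D.tw.R ^ 2) := ⟨mul_ne_zero
    (fun h => NeZero.ne M (Nat.eq_zero_of_zero_dvd (h ▸ D.dvd0))) (pow_ne_zero _ D.tw.R_ne_zero)⟩
  obtain ⟨LD⟩ := JTors.exists_latticeData (D.N0 * D.tw.R ^ 2)
  haveI : ∀ i, NeZero (D.H i).index := fun i => ⟨by rw [he i]; exact pow_ne_zero _ two_ne_zero⟩
  let S : Finset ℕ := insert 2 (M.primeFactors ∪ W.Δ.natAbs.primeFactors ∪ d.S)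
  have hΔ : W.Δ.natAbs ≠ 0 := Int.natAbs_ne_zero.2 hW.neg.ne
  have hS : ∀ l : ℕ, l.Prime → (l ∉ S ↔ ¬ l ∣ M ∧ l ∉ (d.sys Z2).bad) := fun l hl => by
    simp only [S, Finset.mem_insert, Finset.mem_union, Nat.mem_primeFactors, SysData.sys,
      Set.mem_setOf_eq, Int.natCast_dvd, hl, hΔ, NeZero.ne M, ne_eq, not_false_eq_true, and_true,
      true_and]
    tauto
  have hl0 : (d.sys Z2).l0 ∉ S := (hS _ d.prime).2 ⟨fun h => by
    haveI : Fact (1 < d.l0) := ⟨d.prime.one_lt⟩
    have h1 := congrArg (ZMod.castHom h (ZMod d.l0)) d.one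
    rw [map_natCast, ZMod.natCast_self, map_one] at h1
    exact zero_ne_one h1, fun h => by
    rcases h with h | h | h
    exacts [d.l0_ne_two h, d.good h, d.notMem h]⟩
  obtain ⟨P, σ₀, hP, hσ⟩ := Alg.exists_place_frobenius d.l0 d.prime
  have hσ₀ : (rb2 hW σ₀).trace = 1 := by
    rw [trace_rb2 hW d.prime d.l0_ne_two d.good hP hσ, apOfModel_cast_two d.odd_ap]
  obtain ⟨R⟩ := exists_levelRho (d.sys Z2) rfl LD S cs hχ hsum (Finset.mem_insert_self _ _) hS hl0
    (rb2 hW) (rE_finLevel hW 0) (span_rb2_eq_top hW hσ₀)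
    (fun l hl hlS P hP σ hσ => by
      have hb := ((hS l hl).1 hlS).2
      rw [trace_rb2 hW hl (fun h => hb (Or.inl h)) (fun h => hb (Or.inr (Or.inl h))) hP hσ]
      exact (map_intCast (PadicInt.toZMod (p := 2)) _).symm)
    σ₀ hσ₀ hw hne
  exact ⟨{ O := O, L := _, hL := rfl, LD := LD, S := S, κ := _, cs := cs, hχ := hχ,
           hsum := hsum, R := R }⟩

end FLTAgent.R2.Lv

end
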