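import Fermat.Agent.R2.LevelSplit
import Fermat.Agent.R2.LevelDel

/-!
Area R2, parcel G5: the square of the operator at two at the top is the inverse diamond of `2`.
-/

set_option autoImplicit false
set_option linter.style.haveILetI false
set_option linter.unusedSectionVars false

noncomputable section

open scoped MatrixGroups
open Matrix IsLocalRing

namespace FLTAgent.R2.Lv

open FLTAgent.LL FLTAgent.R2.Coh

variable {W : WeierstrassCurve ℤ} {hW : IsAnchor W} {B : Base W} {N : ℕ} {K : Aux hW B N} {n : ℕ}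
  (D : TW K n)

/-- the scalar two modulo the odd part of the modulus -/
abbrev adTwo : GL (Fin 2) (ZMod (bigM D)) := adU (split_two D) ((2 : ℤ) • 1)

theorem exactTwo_cls : (exactTwo D).cls = clsTwo D := rfl

theorem adTwo_smul_line {a : ℕ} (ha : a ∣ dBad W * ∏ i, K.q i) (x : P1 (bigM D) a) :
    (adTwo D)⁻¹ • x = x := by
  obtain ⟨g, rfl⟩ := QuotientGroup.mk_surjective x
  have e := congrArg Prod.fst ((exactTwo D).adU_inv_smul
    ((QuotientGroup.mk g, fun i => QuotientGroup.mk g) : (exactTwo D).low.X))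
  rw [(exactTwo D).low.torsor_act] at e
  have e2 := congrArg (P1.proj (N := dBad W * ∏ i, K.q i) (bigM D) ha) e
  exact ((P1.proj_smul (M := bigM D) ha _ _).symm.trans e2)

theorem adTwo_smul_X (z : (dataX D).X) :
    (adTwo D)⁻¹ • z = (dataX D).torsor.act (clsTwo D)⁻¹ z := by
  rw [(dataX D).torsor_act]
  refine Prod.ext (adTwo_smul_line D (dvd_mul_right _ _) z.1) (funext fun i => ?_)
  have e := congrFun (congrArg Prod.snd ((exactTwo D).adU_inv_smul
    ((P1.base (bigM D) (dBad W * ∏ i, K.q i), z.2) : (exactTwo D).low.X))) i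
  rw [(exactTwo D).low.torsor_act] at e
  exact e

theorem adTwo_tP (A : Type*) [CommRing A] : tP K (lev_dvd_bigM D) A (adTwo D) = 1 := by
  refine LinearMap.ext fun F => funext fun z => ?_
  rw [funRep_apply, Module.End.one_apply]
  refine congrArg F (Prod.ext rfl (funext fun i => ?_))
  have hq : (kset K (lev_dvd_bigM D)).q i ∣ dBad W * ∏ j, K.q j :=
    dvd_mul_of_dvd_right (Finset.dvd_prod_of_mem K.q (Finset.mem_univ _)) _
  refine pq_ext ((kset K (lev_dvd_bigM D)).dvd i) ?_ ?_
  · rw [Prod.smul_snd, Pi.smul_apply, fstq_smul]; exact adTwo_smul_line D hq _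
  · rw [Prod.smul_snd, Pi.smul_apply, sndq_smul]; exact adTwo_smul_line D hq _

theorem adTwo_tY (A : Type*) [CommRing A] : tY K (lev_dvd_bigM D) A (adTwo D) = 1 := by
  refine LinearMap.ext fun F => funext fun z => ?_
  rw [funRep_apply, Module.End.one_apply]
  refine congrArg F (Prod.ext rfl (funext fun i => ?_))
  exact adTwo_smul_line D
    (dvd_mul_of_dvd_right (Finset.dvd_prod_of_mem K.q (Finset.mem_univ (i : Fin K.k))) _) (z.2 i)

theorem adTwo_tW : tW K (lev_dvd_bigM D) (adTwo D) = 1 :=
  LinearMap.ext fun v => Subtype.ext (LinearMap.congr_fun (adTwo_tP D (Lam N)) v.1)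

variable {A : Type*} [CommRing A] {V : Type*} [AddCommGroup V] [Module A V]
  {τ : Representation A (GL (Fin 2) (ZMod (bigM D))) V}

/-- `Wp²` at the top -/
theorem Wp_Wp_top (hτ : Fac (xData D).split τ) (hneg : τ (red (bigM D) (-1)) = 1)
    (h2 : τ (adTwo D) = 1) (x : H1 (pRep (p := 2) (funTensor τ (dataX D).X))) :
    Wp (xData D).split _ ((xData D).facX hτ) (Wp (xData D).split _ ((xData D).facX hτ) x) =
      LL.map ((topDia (p := 2) ((xData D).diaX hneg)).isTwist_act (clsTwo D)⁻¹) x := by
  rw [Wp_Wp]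
  obtain ⟨f, rfl⟩ := Submodule.mkQ_surjective _ x
  refine congrArg (fun w => H1.mk (pRep (p := 2) (funTensor τ (dataX D).X)) w)
    (Subtype.ext (funext fun γ => funext fun a => funext fun z => ?_))
  show scalP (xData D).split (funTensor τ (dataX D).X) (f.1 γ) a z =
    f.1 γ a ((dataX D).torsor.act (clsTwo D)⁻¹ z)
  rw [scalP_apply, funTensor_apply, ← adTwo_smul_X]
  show τ (adTwo D) _ = _
  rw [h2]
  rfl

end FLTAgent.R2.Lv

end
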