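import Fermat.Agent.R2.LevelSetup
import Fermat.Agent.R2.LevelTrans

/-!
Area R2, parcel G5: the full level seen at the top.

Lines at `2 · D · ∏ q` times vectors are lines at two times (lines at `D` times vectors) times lines
at the killing primes.
-/

set_option autoImplicit false
set_option linter.style.haveILetI false
set_option linter.unusedSectionVars false

noncomputable section

open scoped MatrixGroups
open Matrix IsLocalRing

namespace FLTAgent.R2.Lv

open FLTAgent.LL FLTAgent.R2.Coh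

variable {W : WeierstrassCurve ℤ} {hW : IsAnchor W} {B : Base W} {N : ℕ} {K : Aux hW B N} {n : ℕ}
  (D : TW K n)

theorem prod_q_coprime_two : Nat.Coprime 2 (dBad W * ∏ i, K.q i) := by
  refine Nat.Coprime.mul_right ?_ (Nat.Coprime.prod_right fun i _ =>
    (Nat.coprime_primes Nat.prime_two (K.prime i)).2 (two_ne_q i).symm)
  exact Nat.Coprime.prod_right fun l hl =>
    (Nat.coprime_primes Nat.prime_two ((badOdd_spec hW).1 hl).1).2 ((badOdd_spec hW).1 hl).2.1.symm

/-- the full level is exact at two -/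
def exactTwo : Exact (dataF D) 2 where
  b := dBad W * ∏ i, K.q i
  eq := mul_assoc _ _ _
  M' := bigM D / 2
  split := split_two D
  ne_Q i := (xData D).Q_two i
  cop := prod_q_coprime_two (hW := hW)

theorem nFull_eq_mul (i : Fin K.k) :
    nFull K = K.q i * (2 * dBad W * ∏ j ∈ Finset.univ.erase i, K.q j) := by
  rw [nFull, ← Finset.mul_prod_erase Finset.univ K.q (Finset.mem_univ i)]
  ring

/-- the full level is exact at a killing prime -/
def exactKill (i : Fin K.k) : Exact (dataF D) (K.q i) where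
  b := 2 * dBad W * ∏ j ∈ Finset.univ.erase i, K.q j
  eq := nFull_eq_mul i
  M' := bigM D / K.q i
  split :=
    have hd : K.q i ∣ bigM D := (K.q_dvd_lev i).trans (lev_dvd_bigM D)
    { prime := K.prime i
      eq := (Nat.mul_div_cancel' hd).symm
      coprime := Nat.coprime_of_squarefree_mul
        (by rw [Nat.mul_div_cancel' hd]; exact squarefree_bigM D) }
  ne_Q j := (xData D).q_ne i j
  cop := by
    refine (K.prime i).coprime_iff_not_dvd.2 fun h => ?_
    rcases (K.prime i).dvd_mul.1 h with h | h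
    · exact K.ndvd i (h.trans ⟨B.r, rfl⟩)
    · obtain ⟨j, hj, hd⟩ := (K.prime i).prime.exists_mem_finset_dvd h
      exact (Finset.mem_erase.1 hj).1
        (K.inj ((Nat.prime_dvd_prime_iff_eq (K.prime i) (K.prime j)).1 hd).symm)

/-- the top coefficients over the two-adic integers -/
abbrev topY : Representation Z2 (GL (Fin 2) (ZMod (bigM D)))
    (P1 (bigM D) 2 → (dataX D).X → PUnit.{1} × (kset K (lev_dvd_bigM D)).YY → Z2) :=
  pRep (p := 2) (funTensor (tY K (lev_dvd_bigM D) Z2) (dataX D).X)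

/-- diamonds at the top over the two-adic integers -/
abbrev diaTopY : DiaData (topY D)
    (pRep (p := 2) (funTensor (tY K (lev_dvd_bigM D) Z2) (dataX D).tw.Y)) (dataX D).Del :=
  topDia (p := 2) ((xData D).diaX (neg_one_tY K (lev_dvd_bigM D) Z2))

/-- the full level read at the top -/
structure TopIso (d : SysData hW (bigM D)) : Type where
  e : H1 (lrRep (dataF D)) ≃ₗ[Z2] H1 (topY D)
  map_T : ∀ (l : ℕ) (hl : l.Prime) (hlM : ¬ l ∣ bigM D) z,
    e (LL.T (lrRep (dataF D)) hl hlM z) = LL.T (topY D) hl hlM (e z)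
  mem_E : ∀ z, e z ∈ (d.sys Z2).E (topY D) ↔ z ∈ (d.sys Z2).E (lrRep (dataF D))
  map_act : ∀ (u : (dataX D).Del) z, e (LL.map (isTwist_act Z2 (dataF D) u) z) =
    LL.map ((diaTopY D).isTwist_act u) (e z)
  map_W : ∀ z, e ((exactTwo D).WX Z2 z) =
    Wp (xData D).split _ ((xData D).facX (xData D).facTY) (e z)
  newAt : ∀ z, (exactTwo D).NewAt Z2 z ↔
    degP (xData D).split _ ((xData D).facX (xData D).facTY) (e z) = 0
  red_pullX : ∀ (i : Fin K.k) y,
    redJ K (lev_dvd_bigM D) 2 (dataX D).X (e ((exactKill D i).pullX Z2 y)) = 0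
  push_pTop : ∀ (i : Fin K.k) w, (exactKill D i).pushX Z2
    (e.symm (LL.map (isTwist_pTop K (lev_dvd_bigM D) 2 (dataX D).X) w)) = 0

section Top

omit D in
theorem proj_proj {M N d d' : ℕ} (h : d ∣ N) (h' : d' ∣ d) (x : P1 M N) :
    P1.proj M h' (P1.proj M h x) = P1.proj M (h'.trans h) x := by
  induction x using QuotientGroup.induction_on with | H g => rfl

/-- the killing primes beside the bad ones, without diamonds -/
def badTW : TWData (bigM D) 3 K.k where
  N0 := dBad W
  dvd0 := (dBad_dvd (K := K)).trans (lev_dvd_bigM D)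
  Q := K.q
  prime := K.prime
  inj := K.inj
  dvd i := (K.q_dvd_lev i).trans (lev_dvd_bigM D)
  ndvd := (xData D).q_ndvd
  H _ := ⊤
  prime_p := Nat.prime_three
  p_ne_two := by decide
  index _ := ⟨0, by simp⟩

theorem q_dvd_bot (i : Fin K.k) : K.q i ∣ (exactTwo D).b :=
  dvd_mul_of_dvd_right (Finset.dvd_prod_of_mem K.q (Finset.mem_univ i)) _

theorem dBad_dvd_bot : dBad W ∣ (exactTwo D).b := dvd_mul_right _ _

/-- the lines below two split into lines at the bad primes and at the killing primes -/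
def psiB (x : P1 (bigM D) (exactTwo D).b) :
    P1 (bigM D) (dBad W) × (kset K (lev_dvd_bigM D)).YY :=
  (P1.proj _ (dBad_dvd_bot D) x, fun i => P1.proj _ (q_dvd_bot D i) x)

theorem psiB_smul (g : GL (Fin 2) (ZMod (bigM D))) (x : P1 (bigM D) (exactTwo D).b) :
    psiB D (g • x) = g • psiB D x :=
  Prod.ext (P1.proj_smul (dBad_dvd_bot D) g x) (funext fun i => P1.proj_smul (q_dvd_bot D i) g x)

theorem psiB_bijective : Function.Bijective (psiB D) := by
  refine ⟨fun x x' h => ?_, fun y => ?_⟩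
  · obtain ⟨g, rfl⟩ := QuotientGroup.mk_surjective x
    obtain ⟨g', rfl⟩ := QuotientGroup.mk_surjective x'
    obtain ⟨a, ha⟩ := ZMod.intCast_surjective ((g⁻¹ * g').1 1 0)
    have h0 : (QuotientGroup.mk g : P1 (bigM D) (dBad W)) = QuotientGroup.mk g' :=
      congrArg Prod.fst h
    have hi : ∀ i, (QuotientGroup.mk g : P1 (bigM D) (K.q i)) = QuotientGroup.mk g' := fun i =>
      congrFun (congrArg Prod.snd h) i
    rw [QuotientGroup.eq, mem_B0_iff_int (show dBad W ∣ bigM D from (badTW D).dvd0) ha] at h0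
    rw [QuotientGroup.eq, mem_B0_iff_int (show (exactTwo D).b ∣ bigM D from (badTW D).N0R_dvd) ha]
    refine (badTW D).N0R_dvd_int h0 fun i => ?_
    have := hi i
    rwa [QuotientGroup.eq, mem_B0_iff_int (show K.q i ∣ bigM D from (badTW D).dvd i) ha] at this
  · obtain ⟨z, hz⟩ := (badTW D).projPY_surjective y
    obtain ⟨γ, hγ⟩ := (badTW D).exists_red_smul_baseP z
    refine ⟨red (bigM D) γ • P1.base (bigM D) (exactTwo D).b, ?_⟩
    rw [psiB_smul]
    exact (((badTW D).projPY_smul _ _).symm.trans (congrArg (badTW D).projPY hγ)).trans hz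

/-- the set below two -/
def psi (z : (exactTwo D).low.X) :
    (dataX D).X × (PUnit.{1} × (kset K (lev_dvd_bigM D)).YY) :=
  (((psiB D z.1).1, z.2), (PUnit.unit, (psiB D z.1).2))

theorem psi_smul (g : GL (Fin 2) (ZMod (bigM D))) (z : (exactTwo D).low.X) :
    psi D (g • z) = g • psi D z := by
  exact congrArg (fun w : P1 (bigM D) (dBad W) × (kset K (lev_dvd_bigM D)).YY =>
    ((w.1, g • z.2), (PUnit.unit.{1}, w.2))) (psiB_smul D g z.1)

theorem psi_bijective : Function.Bijective (psi D) := by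
  refine ⟨fun z z' h => ?_, fun y => ?_⟩
  · have h1 : psiB D z.1 = psiB D z'.1 :=
      Prod.ext (congrArg (fun w => w.1.1) h) (congrArg (fun w => w.2.2) h)
    have h2 : z.2 = z'.2 := congrArg (fun w => w.1.2) h
    exact Prod.ext ((psiB_bijective D).1 h1) h2
  · obtain ⟨w, hw⟩ := (psiB_bijective D).2 (y.1.1, y.2.2)
    have hw1 : (psiB D w).1 = y.1.1 := congrArg Prod.fst hw
    have hw2 : (psiB D w).2 = y.2.2 := congrArg Prod.snd hw
    exact ⟨(w, y.1.2), Prod.ext (Prod.ext hw1 rfl) (Prod.ext rfl hw2)⟩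

/-- the set below two, as an equivalence -/
def psiEquiv : (exactTwo D).low.X ≃ (dataX D).X × (PUnit.{1} × (kset K (lev_dvd_bigM D)).YY) :=
  Equiv.ofBijective _ (psi_bijective D)

theorem psiEquiv_smul (g : GL (Fin 2) (ZMod (bigM D))) (z : (exactTwo D).low.X) :
    psiEquiv D (g • z) = g • psiEquiv D z := psi_smul D g z

/-- functions below two as functions at the top -/
def toV : ((exactTwo D).low.X → Z2) →ₗ[Z2]
    ((dataX D).X → PUnit.{1} × (kset K (lev_dvd_bigM D)).YY → Z2) :=
  curryV ∘ₗ funPull Z2 (psiEquiv D).symm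

/-- functions at the top as functions below two -/
def ofV : ((dataX D).X → PUnit.{1} × (kset K (lev_dvd_bigM D)).YY → Z2) →ₗ[Z2]
    ((exactTwo D).low.X → Z2) :=
  funPull Z2 (psiEquiv D) ∘ₗ uncurryV

theorem isTwist_toV : IsTwist ((exactTwo D).lowRep Z2)
    (funTensor (tY K (lev_dvd_bigM D) Z2) (dataX D).X) 1 (toV D) := by
  have h := (isTwist_funPull (A := Z2) (M := bigM D) (psiEquiv D).symm fun g z => by
    rw [Equiv.symm_apply_eq, psiEquiv_smul, Equiv.apply_symm_apply]).comp
      (isTwist_curry_funRep (A := Z2) (M := bigM D) (X := (dataX D).X)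
        (Y := PUnit.{1} × (kset K (lev_dvd_bigM D)).YY))
  rwa [one_mul] at h

theorem isTwist_ofV : IsTwist (funTensor (tY K (lev_dvd_bigM D) Z2) (dataX D).X)
    ((exactTwo D).lowRep Z2) 1 (ofV D) := by
  have h := (isTwist_uncurry_funRep (A := Z2) (M := bigM D) (X := (dataX D).X)
    (Y := PUnit.{1} × (kset K (lev_dvd_bigM D)).YY)).comp
    (isTwist_funPull (A := Z2) (M := bigM D) (psiEquiv D) fun g z => psiEquiv_smul D g z)
  rwa [one_mul] at h

theorem ofV_toV (F : (exactTwo D).low.X → Z2) : ofV D (toV D F) = F :=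
  funext fun z => congrArg F ((psiEquiv D).symm_apply_apply z)

theorem toV_ofV (G : (dataX D).X → PUnit.{1} × (kset K (lev_dvd_bigM D)).YY → Z2) :
    toV D (ofV D G) = G :=
  funext fun x => funext fun t => by
    show G ((psiEquiv D) ((psiEquiv D).symm (x, t))).1 ((psiEquiv D) ((psiEquiv D).symm (x, t))).2 = _
    rw [(psiEquiv D).apply_symm_apply]

/-- classes of the full level at the top -/
def toTopH : H1 (lrRep (dataF D)) →ₗ[Z2] H1 (topY D) :=
  LL.map (Lv.isTwist_postcomp (p := 2) _ (isTwist_toV D)) ∘ₗ (exactTwo D).toLine Z2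

/-- classes at the top at the full level -/
def ofTopH : H1 (topY D) →ₗ[Z2] H1 (lrRep (dataF D)) :=
  (exactTwo D).ofLine Z2 ∘ₗ LL.map (Lv.isTwist_postcomp (p := 2) _ (isTwist_ofV D))

theorem ofTopH_toTopH (z : H1 (lrRep (dataF D))) : ofTopH D (toTopH D z) = z :=
  (congrArg ((exactTwo D).ofLine Z2) (map_map_cancel _ _
    (fun F => funext fun a => ofV_toV D (F a)) _)).trans ((exactTwo D).ofLine_toLine Z2 z)

theorem toTopH_ofTopH (y : H1 (topY D)) : toTopH D (ofTopH D y) = y := by
  rw [toTopH, ofTopH, LinearMap.comp_apply, LinearMap.comp_apply, (exactTwo D).toLine_ofLine]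
  exact map_map_cancel _ _ (fun F => funext fun a => toV_ofV D (F a)) y

/-- the full level at the top, as an equivalence -/
def topEquiv : H1 (lrRep (dataF D)) ≃ₗ[Z2] H1 (topY D) :=
  LinearEquiv.ofLinearMap (toTopH D) (ofTopH D) (LinearMap.ext fun y => toTopH_ofTopH D y)
    (LinearMap.ext fun z => ofTopH_toTopH D z)

/-- two points of the full level with the same lines away from `q i` -/
theorem proj_kill_eq (i : Fin K.k) (u u' : P1 (bigM D) (nFull K))
    (h2 : P1.proj (bigM D) (Dvd.intro _ (exactTwo D).eq.symm) u =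
      P1.proj (bigM D) (Dvd.intro _ (exactTwo D).eq.symm) u')
    (hd : P1.proj (bigM D) ((dBad_dvd_bot D).trans (Dvd.intro_left 2 (exactTwo D).eq.symm)) u =
      P1.proj (bigM D) ((dBad_dvd_bot D).trans (Dvd.intro_left 2 (exactTwo D).eq.symm)) u')
    (hq : ∀ j, j ≠ i →
      P1.proj (bigM D) ((q_dvd_bot D j).trans (Dvd.intro_left 2 (exactTwo D).eq.symm)) u =
        P1.proj (bigM D) ((q_dvd_bot D j).trans (Dvd.intro_left 2 (exactTwo D).eq.symm)) u') :
    P1.proj (bigM D) (Dvd.intro_left (K.q i) (exactKill D i).eq.symm) u =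
      P1.proj (bigM D) (Dvd.intro_left (K.q i) (exactKill D i).eq.symm) u' := by
  classical
  have hN : nFull K ∣ bigM D := (dataF D).dvd0
  obtain ⟨g, rfl⟩ := QuotientGroup.mk_surjective u
  obtain ⟨g', rfl⟩ := QuotientGroup.mk_surjective u'
  obtain ⟨a, ha⟩ := ZMod.intCast_surjective ((g⁻¹ * g').1 1 0)
  have key : ∀ (d : ℕ) (h : d ∣ nFull K),
      P1.proj (bigM D) h (QuotientGroup.mk g : P1 (bigM D) (nFull K)) =
        P1.proj (bigM D) h (QuotientGroup.mk g') ↔ (d : ℤ) ∣ a := fun d h => by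
    show (QuotientGroup.mk g : P1 (bigM D) d) = QuotientGroup.mk g' ↔ _
    rw [QuotientGroup.eq, mem_B0_iff_int (h.trans hN) ha]
  refine (key _ _).2 ?_
  show ((2 * dBad W * ∏ j ∈ Finset.univ.erase i, K.q j : ℕ) : ℤ) ∣ a
  rw [Int.natCast_dvd]
  have hco : Nat.Coprime 2 (dBad W * ∏ j, K.q j) := prod_q_coprime_two (hW := hW)
  refine Nat.Coprime.mul_dvd_of_dvd_of_dvd ?_ (Nat.Coprime.mul_dvd_of_dvd_of_dvd
    hco.coprime_mul_right_right (Int.natCast_dvd.1 ((key _ _).1 h2))
    (Int.natCast_dvd.1 ((key _ _).1 hd))) ?_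
  · exact Nat.Coprime.prod_right fun j _ => Nat.Coprime.mul_left
      ((Nat.coprime_primes Nat.prime_two (K.prime j)).2 (two_ne_q j).symm)
      ((K.prime j).coprime_iff_not_dvd.2 ((xData D).q_ndvd j)).symm
  · refine Finset.prod_dvd_of_isRelPrime (fun b _ c _ hbc => Nat.coprime_iff_isRelPrime.1
      ((Nat.coprime_primes (K.prime b) (K.prime c)).2 fun h' => hbc (K.inj h'))) fun j hj =>
      Int.natCast_dvd.1 ((key _ _).1 (hq j (Finset.mem_erase.1 hj).1))

/-- the point of the full level with given lines at the top -/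
def topPt (a : P1 (bigM D) 2) (x : (dataX D).X)
    (t : PUnit.{1} × (kset K (lev_dvd_bigM D)).YY) : (dataF D).X :=
  (exactTwo D).equivX.symm (a, (psiEquiv D).symm (x, t))

theorem topPt_equiv (u : (dataF D).X) :
    topPt D ((exactTwo D).equivX u).1 (psiEquiv D ((exactTwo D).equivX u).2).1
      (psiEquiv D ((exactTwo D).equivX u).2).2 = u :=
  ((congrArg (fun w => (exactTwo D).equivX.symm (((exactTwo D).equivX u).1, w))
    ((psiEquiv D).symm_apply_apply _))).trans ((exactTwo D).equivX.symm_apply_apply u)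

theorem topPt_spec (a : P1 (bigM D) 2) (x : (dataX D).X)
    (t : PUnit.{1} × (kset K (lev_dvd_bigM D)).YY) :
    P1.proj (bigM D) (Dvd.intro _ (exactTwo D).eq.symm) (topPt D a x t).1 = a ∧
      P1.proj (bigM D) ((dBad_dvd_bot D).trans (Dvd.intro_left 2 (exactTwo D).eq.symm))
        (topPt D a x t).1 = x.1 ∧ (topPt D a x t).2 = x.2 ∧
      ∀ j, P1.proj (bigM D) ((q_dvd_bot D j).trans (Dvd.intro_left 2 (exactTwo D).eq.symm))
        (topPt D a x t).1 = t.2 j := by
  have h : (exactTwo D).equivX (topPt D a x t) = (a, (psiEquiv D).symm (x, t)) :=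
    Equiv.apply_symm_apply _ _
  have h' : psi D ((exactTwo D).equivX (topPt D a x t)).2 = (x, t) := by
    rw [h]
    exact (psiEquiv D).apply_symm_apply (x, t)
  refine ⟨congrArg Prod.fst h, ?_, congrArg (fun w => w.1.2) h', fun j => ?_⟩
  · rw [← proj_proj (Dvd.intro_left 2 (exactTwo D).eq.symm) (dBad_dvd_bot D)]
    exact congrArg (fun w => w.1.1) h'
  · rw [← proj_proj (Dvd.intro_left 2 (exactTwo D).eq.symm) (q_dvd_bot D j)]
    exact congrArg (fun w => w.2.2 j) h'

theorem kill_topPt (i : Fin K.k) (a : P1 (bigM D) 2) (x : (dataX D).X)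
    (t t' : PUnit.{1} × (kset K (lev_dvd_bigM D)).YY) (h : ∀ j, j ≠ i → t.2 j = t'.2 j) :
    ((exactKill D i).equivX (topPt D a x t)).2 = ((exactKill D i).equivX (topPt D a x t')).2 := by
  obtain ⟨h2, hd, hx, hq⟩ := topPt_spec D a x t
  obtain ⟨h2', hd', hx', hq'⟩ := topPt_spec D a x t'
  refine Prod.ext (proj_kill_eq D i _ _ (h2.trans h2'.symm) (hd.trans hd'.symm) fun j hj => ?_)
    (hx.trans hx'.symm)
  exact (hq j).trans ((h j hj).trans (hq' j).symm)

theorem red_pull (i : Fin K.k) (y : H1 ((exactKill D i).lowRep Z2)) :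
    redJ K (lev_dvd_bigM D) 2 (dataX D).X (toTopH D ((exactKill D i).pullX Z2 y)) = 0 := by
  obtain ⟨f, rfl⟩ := Submodule.mkQ_surjective _ y
  refine (congrArg (fun w => H1.mk (pRep (p := 2) (funTensor (tP K (lev_dvd_bigM D) (Lam N))
    (dataX D).X)) w) (a₂ := 0) (Subtype.ext (funext fun g => funext fun a => funext fun x => ?_))).trans
    (map_zero _)
  show (kset K (lev_dvd_bigM D)).jT (Lam N) PUnit.{1} (funExt Z2 (Lam N) _ fun t =>
    f.1 g ((exactKill D i).equivX (topPt D a x t)).2) = 0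
  rw [← LinearMap.mem_ker, KSet.ker_jT]
  refine Submodule.mem_iSup_of_mem i fun t t' _ h => ?_
  show algebraMap Z2 (Lam N) _ = algebraMap Z2 (Lam N) _
  exact congrArg (fun w => algebraMap Z2 (Lam N) (f.1 g w)) (kill_topPt D i a x t t' h)

theorem push_kill (i : Fin (kset K (lev_dvd_bigM D)).k)
    (w : H1 (pRep (p := 2) (funTensor (tP K (lev_dvd_bigM D) Z2) (dataX D).X))) :
    (exactKill D i).pushX Z2
      (ofTopH D (LL.map (isTwist_pTop K (lev_dvd_bigM D) 2 (dataX D).X) w)) = 0 := by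
  classical
  obtain ⟨f, rfl⟩ := Submodule.mkQ_surjective _ w
  refine (congrArg (fun w => H1.mk ((exactKill D i).lowRep Z2) w) (a₂ := 0)
    (Subtype.ext (funext fun g => funext fun z => ?_))).trans (map_zero _)
  haveI : Fintype (P1 (bigM D) ((kset K (lev_dvd_bigM D)).q i)) := (kset K (lev_dvd_bigM D)).fintype_p1 i
  let pt : P1 (bigM D) ((kset K (lev_dvd_bigM D)).q i) → (dataF D).X := fun a => (exactKill D i).equivX.symm (a, z)
  let G : P1 (bigM D) 2 → (dataX D).X → PUnit.{1} × (kset K (lev_dvd_bigM D)).YY → Z2 :=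
    fun c x => (kset K (lev_dvd_bigM D)).pT Z2 PUnit.{1} (f.1 g c x)
  show pushPt (A := Z2) (M := bigM D) (p := K.q i) (fun a z' =>
    G ((exactTwo D).equivX ((exactKill D i).equivX.symm (a, z'))).1
      (psiEquiv D ((exactTwo D).equivX ((exactKill D i).equivX.symm (a, z'))).2).1
      (psiEquiv D ((exactTwo D).equivX ((exactKill D i).equivX.symm (a, z'))).2).2) z = 0
  rw [pushPt_apply, Finset.sum_apply]
  have hpt : ∀ a, (exactKill D i).equivX (pt a) = (a, z) := fun a => Equiv.apply_symm_apply _ _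
  obtain ⟨a₀⟩ : Nonempty (P1 (bigM D) ((kset K (lev_dvd_bigM D)).q i)) := ⟨P1.base _ _⟩
  let c₀ := ((exactTwo D).equivX (pt a₀)).1
  let x₀ := (psiEquiv D ((exactTwo D).equivX (pt a₀)).2).1
  let t₀ := (psiEquiv D ((exactTwo D).equivX (pt a₀)).2).2
  have hsame : ∀ a (d : ℕ) (hd : d ∣ nFull K) (hdb : d ∣ (exactKill D i).b),
      P1.proj (bigM D) hd (pt a).1 = P1.proj (bigM D) hdb z.1 := fun a d hd hdb =>
    (proj_proj (Dvd.intro_left (K.q i) (exactKill D i).eq.symm) hdb _).symm.trans (congrArg (P1.proj (bigM D) hdb)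
      (congrArg (fun w => w.2.1) (hpt a)))
  have hvec : ∀ a, (pt a).2 = z.2 := fun a => congrArg (fun w => w.2.2) (hpt a)
  have hc : ∀ a, ((exactTwo D).equivX (pt a)).1 = c₀ := fun a =>
    (hsame a 2 (Dvd.intro _ (exactTwo D).eq.symm) (dvd_mul_of_dvd_left (dvd_mul_right _ _) _)).trans
      (hsame a₀ 2 (Dvd.intro _ (exactTwo D).eq.symm) (dvd_mul_of_dvd_left (dvd_mul_right _ _) _)).symm
  have hx : ∀ a, (psiEquiv D ((exactTwo D).equivX (pt a)).2).1 = x₀ := fun a => by
    have hb : dBad W ∣ (exactKill D i).b := dvd_mul_of_dvd_left (dvd_mul_left _ 2) _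
    refine Prod.ext ?_ ((hvec a).trans (hvec a₀).symm)
    exact (proj_proj (Dvd.intro_left 2 (exactTwo D).eq.symm) (dBad_dvd_bot D) _).trans (((hsame a _ ((dBad_dvd_bot D).trans (Dvd.intro_left 2 (exactTwo D).eq.symm)) hb).trans
      (hsame a₀ _ ((dBad_dvd_bot D).trans (Dvd.intro_left 2 (exactTwo D).eq.symm)) hb).symm).trans (proj_proj (Dvd.intro_left 2 (exactTwo D).eq.symm) (dBad_dvd_bot D) _).symm)
  have ht : ∀ a, (psiEquiv D ((exactTwo D).equivX (pt a)).2).2 =
      (PUnit.unit, Function.update t₀.2 i a) := fun a => by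
    refine Prod.ext rfl (funext fun j => ?_)
    rcases eq_or_ne j i with rfl | hj
    · show _ = Function.update t₀.2 j a j
      rw [Function.update_self]
      exact (proj_proj (Dvd.intro_left 2 (exactTwo D).eq.symm) (q_dvd_bot D j) _).trans (congrArg Prod.fst (hpt a))
    · show _ = Function.update t₀.2 i a j
      rw [Function.update_of_ne hj]
      have hb : K.q j ∣ (exactKill D i).b := dvd_mul_of_dvd_right
        (Finset.dvd_prod_of_mem K.q (Finset.mem_erase.2 ⟨hj, Finset.mem_univ j⟩)) _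
      exact (proj_proj (Dvd.intro_left 2 (exactTwo D).eq.symm) (q_dvd_bot D j) _).trans (((hsame a _ ((q_dvd_bot D j).trans (Dvd.intro_left 2 (exactTwo D).eq.symm)) hb).trans
        (hsame a₀ _ ((q_dvd_bot D j).trans (Dvd.intro_left 2 (exactTwo D).eq.symm)) hb).symm).trans (proj_proj (Dvd.intro_left 2 (exactTwo D).eq.symm) (q_dvd_bot D j) _).symm)
  refine (Finset.sum_congr rfl fun a _ => show G ((exactTwo D).equivX (pt a)).1
      (psiEquiv D ((exactTwo D).equivX (pt a)).2).1 (psiEquiv D ((exactTwo D).equivX (pt a)).2).2 =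
      G c₀ x₀ (PUnit.unit, Function.update t₀.2 i a) by rw [hc a, hx a, ht a]).trans ?_
  simp only [G, KSet.pT, funKer_apply]
  rw [Finset.sum_comm]
  refine Finset.sum_eq_zero fun y _ => ?_
  rw [← Finset.sum_mul]
  refine mul_eq_zero_of_left ?_ _
  simp only [tens, ← Finset.mul_sum]
  refine mul_eq_zero_of_right _ ?_
  rw [Finset.sum_congr rfl fun a _ => show
    ∏ j, pK ((kset K (lev_dvd_bigM D)).dvd j) Z2 (Function.update t₀.2 i a j) (y.2 j) =
      pK ((kset K (lev_dvd_bigM D)).dvd i) Z2 a (y.2 i) *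
        ∏ j ∈ Finset.univ.erase i, pK ((kset K (lev_dvd_bigM D)).dvd j) Z2 (t₀.2 j) (y.2 j) by
    rw [← Finset.mul_prod_erase _ _ (Finset.mem_univ i), Function.update_self]
    exact congrArg _ (Finset.prod_congr rfl fun j hj => by
      rw [Function.update_of_ne (Finset.mem_erase.1 hj).1])]
  rw [← Finset.sum_mul]
  refine mul_eq_zero_of_left ?_ _
  simp [pK, jK, Finset.sum_sub_distrib]
  rw [if_pos ?_, if_pos ?_, sub_self] <;> exact @Finset.mem_univ _ (_) _

end Top

/-- the full level can be read at the top -/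
theorem nonempty_topIso (d : SysData hW (bigM D)) : Nonempty (TopIso D d) := by
  have hdeg : ∀ z, degP (xData D).split _ ((xData D).facX (xData D).facTY) (toTopH D z) =
      (LL.map (isTwist_toV D) ((exactTwo D).pushX Z2 z),
        LL.map (isTwist_toV D) ((exactTwo D).pushX Z2 ((exactTwo D).WX Z2 z))) := fun z => by
    refine (degP_natural (xData D).split ((exactTwo D).fac Z2) ((xData D).facX (xData D).facTY)
      (isTwist_toV D) ((exactTwo D).toLine Z2 z)).trans (Prod.ext rfl ?_)
    simp only [Exact.pushX, Exact.WX, LinearMap.comp_apply, Exact.toLine_ofLine]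
    rfl
  have hinj : Function.Injective (LL.map (isTwist_toV D)) :=
    Function.LeftInverse.injective (g := LL.map (isTwist_ofV D))
      fun y => map_map_cancel _ _ (ofV_toV D) y
  refine ⟨{
    e := topEquiv D
    map_T := fun l hl hlM z => ?_
    mem_E := fun z => ?_
    map_act := fun u z => ?_
    map_W := fun z => ?_
    newAt := fun z => ?_
    red_pullX := red_pull D
    push_pTop := push_kill D }⟩
  · show toTopH D _ = LL.T (topY D) hl hlM (toTopH D z)
    simp only [toTopH, Exact.toLine, LinearMap.comp_apply, map_T_one]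
  · refine ⟨fun h => ?_, fun h => ?_⟩
    · rw [← ofTopH_toTopH D z]
      exact (d.sys Z2).map_mem_E _ (fun _ => by simp)
        ((d.sys Z2).map_mem_E _ (fun _ => by simp) h)
    · exact (d.sys Z2).map_mem_E _ (fun _ => by simp)
        ((d.sys Z2).map_mem_E _ (fun _ => by simp) h)
  · show LL.map (Lv.isTwist_postcomp (p := 2) _ (isTwist_toV D)) ((exactTwo D).toLine Z2
      (LL.map (isTwist_act Z2 (dataF D) u) z)) = LL.map ((diaTopY D).isTwist_act u) (toTopH D z)
    refine (congrArg (LL.map (Lv.isTwist_postcomp (p := 2) _ (isTwist_toV D)))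
      ((exactTwo D).toLine_act Z2 u z)).trans ?_
    refine map_comm_eq _ _ _ _ (fun F => funext fun a => funext fun x => funext fun t => ?_) _
    show F a ((exactTwo D).low.torsor.act u ((psiEquiv D).symm (x, t))) =
      F a ((psiEquiv D).symm ((dataX D).torsor.act u x, t))
    refine congrArg (F a) ((psiEquiv D).injective ?_)
    rw [Equiv.apply_symm_apply]
    have h := (psiEquiv D).apply_symm_apply (x, t)
    generalize (psiEquiv D).symm (x, t) = s at h ⊢
    have h1 : psi D s = (x, t) := h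
    show psi D ((exactTwo D).low.torsor.act u s) = _
    have h2 : (psi D s).2 = t := congrArg Prod.snd h1
    exact Prod.ext (congrArg ((dataX D).torsor.act u) (congrArg Prod.fst h1) :) h2
  · show toTopH D _ = Wp _ _ _ (toTopH D z)
    simp only [toTopH, Exact.WX, LinearMap.comp_apply, Exact.toLine_ofLine]
    exact Wp_natural (xData D).split ((exactTwo D).lowRep Z2) ((exactTwo D).fac Z2)
      ((xData D).facX (xData D).facTY) (isTwist_toV D) _
  · show _ ↔ degP _ _ _ (toTopH D z) = 0
    rw [hdeg, Prod.mk_eq_zero, hinj.eq_iff' (map_zero _), hinj.eq_iff' (map_zero _)]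
    rfl

end FLTAgent.R2.Lv

end
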