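import Fermat.Agent.R2.LevelKerW

/-!
Area R2, parcel G2: `Wp² = ⟨p⟩`, by restricting the composite family to the pairs with
`ker g = im g'`, whose products are `p` times elements of `SL(2, ℤ)`.
-/

set_option autoImplicit false
set_option linter.style.haveILetI false
set_option linter.unusedSectionVars false

noncomputable section

open scoped MatrixGroups
open Matrix

namespace FLTAgent.R2.Lv

open FLTAgent.LL FLTAgent.R2.Coh

section Operator

variable {M p M' : ℕ} [NeZero M] [NeZero M'] (h : Split M p M')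
  {A : Type*} [CommRing A] {V : Type*} [AddCommGroup V] [Module A V]
  (τ : Representation A (GL (Fin 2) (ZMod M)) V)

theorem opH_opH_kerW [Fact p.Prime] (hτ : Fac h τ) {ι : Type} [Fintype ι] (R : Reps p ι)
    (hb : Function.Bijective fun i => kerPt h.dvdP (R.rep i)) (x : H1 (pRep (p := p) τ)) :
    opH ((isMatKer_kerW h τ hτ dvd_rfl (not_sq_dvd h.prime) h.coprime).isKer (Fam.ofReps R)
        R.det_rep)
      (opH ((isMatKer_kerW h τ hτ dvd_rfl (not_sq_dvd h.prime) h.coprime).isKer (Fam.ofReps R)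
        R.det_rep) x) = map (isTwist_scalP h τ hτ) x := by
  classical
  haveI := h.neZero
  have hR : ∀ i, RkOne p (R.rep i) := fun i => rkOne_of_det (R.det_rep i) dvd_rfl (not_sq_dvd h.prime)
  have hK := (isMatKer_kerW h τ hτ dvd_rfl (not_sq_dvd h.prime) h.coprime).isKer (Fam.ofReps R)
    R.det_rep
  -- the indices with a nonzero composite
  let e := Equiv.ofBijective _ hb
  let fl : ι → ι := fun j => e.symm (imPt h.dvdP (R.rep j))
  have hfl : ∀ j, kerPt h.dvdP (R.rep (fl j)) = imPt h.dvdP (R.rep j) := fun j =>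
    e.apply_symm_apply _
  have hker : ∀ (g : SL(2, ℤ)) i,
      kerPt h.dvdP (R.rep (R.idx g i)) = red M g⁻¹ • kerPt h.dvdP (R.rep i) := fun g i => by
    rw [← kerPt_mul_right h.dvdP (hR i) (adjOf_red h.dvdP g), R.rep_mul,
      kerPt_mul_left h.dvdP (hR _) (isUnit_det_coe p _)]
  have him : ∀ (g : SL(2, ℤ)) i,
      imPt h.dvdP (R.rep i) = red M (R.elt g i) • imPt h.dvdP (R.rep (R.idx g i)) := fun g i => by
    rw [← imPt_mul_right h.dvdP (hR i) (isUnit_det_coe p g), R.rep_mul,
      imPt_mul_left h.dvdP (hR _) (adjOf_red h.dvdP _), ← _root_.map_inv, inv_inv]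
  have hcompat : ∀ (g : SL(2, ℤ)) j, R.idx (R.elt g j) (fl j) = fl (R.idx g j) := fun g j => by
    refine hb.1 ?_
    dsimp only
    rw [hker, hfl, hfl, him g j, _root_.map_inv, inv_smul_smul]
  let C := (Fam.ofReps R).comp (Fam.ofReps R)
  let Fs : Fam (ι) :=
    { rep := fun j => C.rep (fl j, j)
      det_ne := fun j => C.det_ne (fl j, j)
      idx := R.idx
      elt := fun g j => C.elt g (fl j, j)
      rep_mul := fun g j => (C.rep_mul g (fl j, j)).trans (congrArg _ (congrArg C.rep
        (Prod.ext (hcompat g j) rfl)))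
      idx_mul := R.idx_mul
      idx_one := R.idx_one }
  let G : Fam (ι) :=
    { rep := fun _ => (p : ℤ) • 1
      det_ne := fun _ => by
        rw [det_smul_one]; exact pow_ne_zero _ (Int.natCast_ne_zero.mpr h.prime.ne_zero)
      idx := R.idx
      elt := fun g _ => g
      rep_mul := fun g _ => by rw [Matrix.smul_mul, Matrix.mul_smul, one_mul, mul_one]
      idx_mul := R.idx_mul
      idx_one := R.idx_one }
  let Φ : ι → (P1 M p → V) →ₗ[A] (P1 M p → V) := fun j =>
    kerW h τ (R.rep j) ∘ₗ kerW h τ (R.rep (fl j))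
  let Ψ : ι → (P1 M p → V) →ₗ[A] (P1 M p → V) := fun j =>
    LinearMap.pi fun y => if kerPt h.dvdP (R.rep j) = y then LinearMap.proj y ∘ₗ scalP h τ else 0
  have hΨ' : ∀ j F y, Ψ j F y =
      if kerPt h.dvdP (R.rep j) = y then τ (adU h ((p : ℤ) • 1)) (F y) else 0 := fun j F y => by
    show (if kerPt h.dvdP (R.rep j) = y then LinearMap.proj y ∘ₗ scalP h τ else 0) F = _
    split_ifs <;> rfl
  have hFs : IsKer (pRep τ) (pRep τ) Fs Φ := fun g j v =>
    ((hK.comp hK) g (fl j, j) v).trans (congrArg (pRep τ (red M g))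
      (congrArg (fun i => kerW h τ (R.rep (R.idx g j)) (kerW h τ (R.rep i) v)) (hcompat g j)))
  have hG : IsKer (pRep τ) (pRep τ) G Ψ := fun g j v => funext fun y => by
    have e1 := congrFun ((isTwist_scalP h τ hτ).apply_red g v) y
    rw [scalP_apply, funTensor_apply, funTensor_apply, scalP_apply] at e1
    rw [hΨ', funTensor_apply, funTensor_apply, hΨ', show G.idx g j = R.idx g j from rfl,
      show G.elt g j = g from rfl, hker, _root_.map_inv,
      apply_ite (τ (red M g)), _root_.map_zero]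
    exact (if_congr (smul_left_cancel_iff _).symm e1 rfl)
  have hnorm : ∀ j, ∃ δ : SL(2, ℤ),
      R.rep (fl j) * R.rep j = (p : ℤ) • (δ : Matrix (Fin 2) (Fin 2) ℤ) := by
    intro j
    have h0 : modP p (R.rep (fl j)) * modP p (R.rep j) = 0 := by
      refine Matrix.ext_iff_mulVec.mpr fun v => ?_
      have hp1 : Par (modP p (R.rep j) *ᵥ v) (colP h.dvdP (imPt h.dvdP (R.rep j))) := by
        refine (forall_par_mulVec_iff _ _).mpr ?_ v
        rw [← modP_adjugate]
        exact ((hR j).adjugate.kerPt_eq_iff h.dvdP _).mp (imPt_eq_kerPt h.dvdP (hR j)).symm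
      obtain ⟨c, hc⟩ := hp1.exists_smul (colP_ne_zero h.dvdP _)
      rw [← Matrix.mulVec_mulVec, hc, Matrix.mulVec_smul,
        ((hR (fl j)).kerPt_eq_iff h.dvdP _).mp (hfl j), smul_zero, Matrix.zero_mulVec]
    have hd : ∀ a b, (p : ℤ) ∣ (R.rep (fl j) * R.rep j) a b := fun a b => by
      rw [← ZMod.intCast_zmod_eq_zero_iff_dvd]
      exact congrFun (congrFun ((modP_mul p _ _).trans h0) a) b
    choose δ hδ using hd
    have hm : R.rep (fl j) * R.rep j = (p : ℤ) • Matrix.of δ := Matrix.ext hδ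
    have hdet : (Matrix.of δ).det = 1 := by
      have h2 := congrArg Matrix.det hm
      rw [Matrix.det_mul, R.det_rep, R.det_rep, Matrix.det_smul, Fintype.card_fin, pow_two] at h2
      exact (mul_left_cancel₀ (mul_ne_zero (Int.natCast_ne_zero.mpr h.prime.ne_zero)
        (Int.natCast_ne_zero.mpr h.prime.ne_zero)) ((mul_one _).trans h2)).symm
    exact ⟨⟨Matrix.of δ, hdet⟩, hm⟩
  choose δ hδ using hnorm
  have step1 : opH (hK.comp hK) = opH hFs := by
    refine opH_ext _ _ fun f g => ?_
    rw [opZ_apply, opZ_apply, Fintype.sum_prod_type_right]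
    refine Finset.sum_congr rfl fun j _ => ?_
    refine Finset.sum_eq_single (fl j) (fun i _ hne => funext fun z => ?_)
      fun hj => absurd (Finset.mem_univ _) hj
    show kerW h τ (R.rep j) (kerW h τ (R.rep i) _) z = 0
    have hne' : kerPt h.dvdP (R.rep i) ≠ imPt h.dvdP (R.rep j) := fun hh =>
      hne (e.injective (hh.trans (hfl j).symm))
    rw [kerW_apply, kerW_apply, if_neg hne', _root_.map_zero, ite_self]
  have step2 : opH hFs = opH hG := by
    refine opH_equiv hFs hG (Equiv.refl _) (fun _ _ => rfl) (fun j => (δ j)⁻¹)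
      (c := 1) (c' := 1) one_ne_zero (fun j => ?_) fun j v => funext fun z => ?_
    · rw [one_smul, one_smul]
      show (p : ℤ) • 1 = _ * (R.rep (fl j) * R.rep j)
      rw [hδ, Matrix.mul_smul, ← Matrix.SpecialLinearGroup.coe_mul, inv_mul_cancel,
        Matrix.SpecialLinearGroup.coe_one]
    · show Ψ j _ z = kerW h τ (R.rep j) (kerW h τ (R.rep (fl j)) v) z
      rw [hΨ', kerW_apply]
      by_cases hz : kerPt h.dvdP (R.rep j) = z
      swap
      · rw [if_neg hz, if_neg hz]
      subst hz
      rw [if_pos rfl, if_pos rfl, kerW_apply, if_pos (hfl j), funTensor_apply,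
        ← _root_.map_inv, inv_inv]
      have hline : imPt h.dvdP (R.rep (fl j)) = red M (δ j) • kerPt h.dvdP (R.rep j) := by
        rw [imPt_eq_kerPt h.dvdP (hR _), (hR (fl j)).adjugate.kerPt_eq_iff,
          mulVec_smul_eq_zero_iff, gl_red h.dvdP]
        have ha : (R.rep (fl j)).adjugate * (δ j : Matrix (Fin 2) (Fin 2) ℤ) = R.rep j := by
          refine smul_right_injective _ (Int.natCast_ne_zero.mpr h.prime.ne_zero) ?_
          show (p : ℤ) • _ = (p : ℤ) • _
          rw [← Matrix.mul_smul, ← hδ, ← mul_assoc, Matrix.adjugate_mul, R.det_rep,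
            Matrix.smul_mul, one_mul]
        show (modP p _ * modP p (δ j : Matrix (Fin 2) (Fin 2) ℤ)) *ᵥ _ = 0
        rw [← modP_mul, ha]
        exact ((hR j).kerPt_eq_iff h.dvdP _).mp rfl
      rw [← hline, ← Module.End.mul_apply, ← Module.End.mul_apply, ← _root_.map_mul,
        ← _root_.map_mul]
      refine LinearMap.congr_fun (hτ.congr h ?_) _
      rw [_root_.map_mul, _root_.map_mul, gl_red h.dvd', (adU_spec h _).1, (adU_spec h _).1,
        (adU_spec h _).1, ← redGL_adjugate_coe, ← redGL_adjugate_mul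
          (isUnit_det_coe M' _) (by rw [det_smul_one, Int.cast_pow]; exact h.isUnit_cast.pow 2),
        ← redGL_adjugate_mul (isUnit_det_of_coprime (R.det_rep _) h.coprime)
          (isUnit_det_of_coprime (R.det_rep _) h.coprime), hδ, Matrix.mul_smul, mul_one]
  rw [← LinearMap.comp_apply (opH hK), ← opH_comp hK hK, step1, step2]
  refine opH_eq_map hG _ (fun f g => funext fun z => ?_) x
  have hel : ∀ j, G.elt g j = g := fun _ => rfl
  rw [opZ_apply, Finset.sum_apply, scalP_apply]
  rw [Finset.sum_congr rfl fun j _ => (by rw [hel, hΨ'] : Ψ j (f.1 (G.elt g j)) z =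
    if kerPt h.dvdP (R.rep j) = z then τ (adU h ((p : ℤ) • 1)) (f.1 g z) else 0)]
  exact (Equiv.sum_comp e fun y => if y = z then τ (adU h ((p : ℤ) • 1)) (f.1 g z) else 0).trans
    (by
      haveI := Fintype.ofEquiv _ e
      simp)

/-- `Wp² = ⟨p⟩` -/
theorem Wp_Wp (hτ : Fac h τ) (x : H1 (pRep (p := p) τ)) :
    Wp h τ hτ (Wp h τ hτ x) = map (isTwist_scalP h τ hτ) x := by
  haveI : Fact p.Prime := ⟨h.prime⟩
  rw [Wp_eq h τ hτ]
  exact opH_opH_kerW h τ hτ (stdReps p) (kerPt_stdMat_bijective h.dvdP) x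

end Operator

end FLTAgent.R2.Lv

end
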