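import Mathlib

/-!
Area R2, parcel PATCH: limits along an ultrafilter of series with finite coefficient ring, and
membership in finitely generated ideals of products.
-/

set_option autoImplicit false
set_option linter.style.haveILetI false

noncomputable section

namespace FLTAgent.R2

open Filter

/-- the eventual value of a sequence in a finite type -/
def finLim {A : Type} [Finite A] (f : ℕ → A) : A :=
  (Ultrafilter.eq_pure_of_finite ((hyperfilter ℕ).map f)).choose

theorem eventually_finLim {A : Type} [Finite A] (f : ℕ → A) :
    ∀ᶠ n in (hyperfilter ℕ : Filter ℕ), f n = finLim f := by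
  have h := (Ultrafilter.eq_pure_of_finite ((hyperfilter ℕ).map f)).choose_spec
  have h1 : {finLim f} ∈ (hyperfilter ℕ).map f := by
    rw [show (hyperfilter ℕ).map f = pure (finLim f) from h]
    exact Ultrafilter.mem_pure.2 rfl
  exact h1

theorem finLim_eq {A : Type} [Finite A] {f : ℕ → A} {a : A}
    (h : ∀ᶠ n in (hyperfilter ℕ : Filter ℕ), f n = a) : finLim f = a := by
  obtain ⟨n, h1, h2⟩ := ((eventually_finLim f).and h).exists
  exact h1.symm.trans h2

variable {σ A : Type} [CommRing A] [Finite A]

/-- the limit of series as a series -/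
def serLimFun (f : ℕ → MvPowerSeries σ A) : MvPowerSeries σ A :=
  fun m => finLim fun n => MvPowerSeries.coeff m (f n)

theorem coeff_serLimFun (f : ℕ → MvPowerSeries σ A) (m : σ →₀ ℕ) :
    MvPowerSeries.coeff m (serLimFun f) = finLim fun n => MvPowerSeries.coeff m (f n) := rfl

open MvPowerSeries in
/-- the limit of series, coefficient by coefficient -/
def serLim : (ℕ → MvPowerSeries σ A) →+* MvPowerSeries σ A where
  toFun := serLimFun
  map_one' := by
    ext m
    rw [coeff_serLimFun]
    exact finLim_eq (Eventually.of_forall fun n => rfl)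
  map_zero' := by
    ext m
    rw [coeff_serLimFun]
    exact finLim_eq (Eventually.of_forall fun n => rfl)
  map_add' f g := by
    ext m
    rw [map_add, coeff_serLimFun, coeff_serLimFun, coeff_serLimFun]
    refine finLim_eq ?_
    filter_upwards [eventually_finLim fun n => coeff m (f n),
      eventually_finLim fun n => coeff m (g n)] with n h1 h2
    rw [Pi.add_apply, map_add, h1, h2]
  map_mul' f g := by
    classical
    ext m
    rw [MvPowerSeries.coeff_mul, coeff_serLimFun]
    simp only [coeff_serLimFun]
    refine finLim_eq ?_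
    have h : ∀ᶠ n in (hyperfilter ℕ : Filter ℕ), ∀ p ∈ Finset.HasAntidiagonal.antidiagonal m,
        coeff p.1 (f n) = finLim (fun n => coeff p.1 (f n)) ∧
          coeff p.2 (g n) = finLim (fun n => coeff p.2 (g n)) :=
      (Finset.eventually_all _).2 fun p _ => (eventually_finLim _).and (eventually_finLim _)
    filter_upwards [h] with n hn
    rw [Pi.mul_apply, MvPowerSeries.coeff_mul]
    refine Finset.sum_congr rfl fun p hp => ?_
    rw [(hn p hp).1, (hn p hp).2]

theorem coeff_serLim (f : ℕ → MvPowerSeries σ A) (m : σ →₀ ℕ) :
    MvPowerSeries.coeff m (serLim f) = finLim fun n => MvPowerSeries.coeff m (f n) := rfl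

theorem serLim_const (a : MvPowerSeries σ A) : serLim (fun _ => a) = a := by
  ext m
  rw [coeff_serLim]
  exact finLim_eq (Eventually.of_forall fun n => rfl)

theorem serLim_congr {f g : ℕ → MvPowerSeries σ A}
    (h : ∀ m, ∀ᶠ n in (hyperfilter ℕ : Filter ℕ),
      MvPowerSeries.coeff m (f n) = MvPowerSeries.coeff m (g n)) : serLim f = serLim g := by
  ext m
  rw [coeff_serLim, coeff_serLim]
  refine finLim_eq ?_
  filter_upwards [h m, eventually_finLim fun n => MvPowerSeries.coeff m (g n)] with n h1 h2
  rw [h1, h2]

/-- membership in a finitely generated ideal of a product is tested componentwise -/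
theorem mem_of_forall_mem_map {R : ℕ → Type} [∀ n, CommRing (R n)] {I : Ideal (Π n, R n)}
    (hI : I.FG) {x : Π n, R n} (hx : ∀ n, x n ∈ I.map (Pi.evalRingHom R n)) : x ∈ I := by
  classical
  obtain ⟨s, rfl⟩ := hI
  have h : ∀ n, ∃ a : s → R n, ∑ g : s, a g * (g : Π n, R n) n = x n := fun n => by
    have h1 : x n ∈ Ideal.span (Set.range fun g : s => (g : Π n, R n) n) := by
      convert hx n using 2
      rw [Ideal.map_span]
      congr 1
      ext z
      simp
    exact (Submodule.mem_span_range_iff_exists_fun (R n)).1 h1
  choose a ha using h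
  have e : x = ∑ g : s, (fun n => a n g) * (g : Π n, R n) := by
    funext n
    rw [Finset.sum_apply]
    exact (ha n).symm
  rw [e]
  exact sum_mem fun g _ => Ideal.mul_mem_left _ _ (Ideal.subset_span g.2)

end FLTAgent.R2

end
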