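import Fermat.Agent.R2.Defs
import Fermat.Agent.R2.Nilp
import Fermat.Agent.R2.PatchDual
import Fermat.Agent.R2.PatchEnd
import Fermat.Agent.R2.PatchLevel
import Fermat.Agent.R2.PatchLimit
import Fermat.Agent.R2.PatchRegular

/-!
Area R2, parcel PATCH: in modules free over diamonds of growing order some functional killed by
the ideal of the curve point has large order.
-/

set_option autoImplicit false
set_option linter.style.haveILetI false
set_option linter.unusedSectionVars false

noncomputable section

namespace FLTAgent.R2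

open IsLocalRing RingTheory.Sequence Filter Matrix
open scoped Pointwise

set_option maxHeartbeats 1600000 in
set_option synthInstance.maxHeartbeats 400000 in
theorem exists_dual_killed {N t d r k : ℕ} (hN : t * (k + 1) < N + 1) (hd : 0 < d)
    (R : ℕ → Type) [∀ n, CommRing (R n)] [∀ n, Algebra (Lam N) (R n)]
    (M : ℕ → Type) [∀ n, AddCommGroup (M n)] [∀ n, Module (Lam N) (M n)]
    (φ : ∀ n, R n →ₐ[Lam N] Module.End (Lam N) (M n))
    (y : ∀ n, Fin r → R n) (c : ∀ n, Fin k → R n) (q : ∀ n, Fin r → R n) (δ : ∀ n, Fin r → R n)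
    (hgen : ∀ n, Algebra.adjoin (Lam N) (Set.range (y n) ∪ Set.range (c n) ∪ Set.range (q n)) = ⊤)
    (hnil : ∀ n, ∀ x ∈ Ideal.span (Set.range (y n) ∪ Set.range (c n) ∪ Set.range (q n)), IsNilpotent x)
    (hδ : ∀ n i, δ n i - 1 ∈
      Ideal.span {(2 : R n)} * Ideal.span (Set.range (y n) ∪ Set.range (c n) ∪ Set.range (q n)) ⊔
        Ideal.span (Set.range (y n) ∪ Set.range (c n) ∪ Set.range (q n)) ^ 2)
    (hco : ∀ n i (m : M n), ∃ z, φ n (q n i) m = φ n (δ n i - 1) z)
    (hsq : ∀ n i, c n i * c n i ∈
      Ideal.span {(2 : R n)} * Ideal.span (Set.range (y n) ∪ Set.range (c n) ∪ Set.range (q n)) ^ 2 ⊔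
        Ideal.span (Set.range (y n) ∪ Set.range (c n) ∪ Set.range (q n)) ^ 3)
    (hpow : ∀ n i, φ n (δ n i ^ 2 ^ (n + 1)) = 1)
    (hbasis : ∀ n, ∃ e : Fin d → M n, Function.Bijective
      fun a : Fin d → (Fin r → Fin (2 ^ (n + 1))) → Lam N =>
        ∑ j, ∑ u, a j u • φ n (∏ i, δ n i ^ (u i : ℕ)) (e j)) :
    ∃ (n : ℕ) (ψ : M n →ₗ[Lam N] Lam N),
      (∀ x ∈ Ideal.span (Set.range (y n) ∪ Set.range (c n) ∪ Set.range (q n)), ∀ m, ψ (φ n x m) = 0) ∧
        (2 ^ t : Lam N) • ψ ≠ 0 := by
  classical
  by_contra hcon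
  push Not at hcon
  choose e he using hbasis
  choose zc hzc using hco
  set J : ∀ n, Ideal (R n) := fun n => Ideal.span (Set.range (y n) ∪ Set.range (c n) ∪ Set.range (q n)) with hJ
  have hδle : ∀ n, ∀ x ∈ Ideal.span {(2 : R n)} * J n ⊔ J n ^ 2, x ∈ J n := fun n x hx =>
    by
      have h : Ideal.span {(2 : R n)} * J n ⊔ J n ^ 2 ≤ J n :=
        sup_le Ideal.mul_le_right (Ideal.pow_le_self two_ne_zero)
      exact h hx
  choose ev hevX hevC hlift hker using fun n => exists_level (φ n) (δ n)
    (fun i => hnil n _ (hδle n _ (hδ n i))) (hpow n) (e n) (he n)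
  choose lift hlift using hlift
  let P := MvPowerSeries (Fin r) (Lam N)
  let Ψ : ∀ n, (Fin d → P) → M n := fun n v => ∑ j, φ n (ev n (v j)) (e n j)
  have hΨsub : ∀ n v w, Ψ n (v - w) = Ψ n v - Ψ n w := fun n v w => by
    simp [Ψ, map_sub, Finset.sum_sub_distrib]
  have hΨsingle : ∀ n j (f : P), Ψ n (Pi.single j f) = φ n (ev n f) (e n j) := fun n j f => by
    simp only [Ψ]
    rw [Finset.sum_eq_single j (fun i _ hi => by simp [hi]) (by simp), Pi.single_eq_same]
  -- what the limit does not see
  have hlim : ∀ v w : ℕ → Fin d → P,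
      (∀ᶠ n in (hyperfilter ℕ : Filter ℕ), Ψ n (v n) = Ψ n (w n)) →
        ∀ i, serLim (fun n => v n i) = serLim (fun n => w n i) := by
    intro v w hvw i
    refine serLim_congr fun m => ?_
    have hbig : ∀ᶠ n in (hyperfilter ℕ : Filter ℕ), N + ∑ i, m i ≤ n := by
      refine Filter.Eventually.filter_mono hyperfilter_le_cofinite ?_
      rw [Nat.cofinite_eq_atTop]
      exact eventually_ge_atTop _
    filter_upwards [hvw, hbig] with n h1 h2
    have h3 := hker n (v n - w n) (by rw [show ∑ j, φ n (ev n ((v n - w n) j)) (e n j) =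
      Ψ n (v n - w n) from rfl, hΨsub, h1, sub_self]) i m (fun a => ?_)
    · rwa [Pi.sub_apply, map_sub, sub_eq_zero] at h3
    · have : m a ≤ ∑ i, m i := Finset.single_le_sum (fun i _ => Nat.zero_le (m i)) (Finset.mem_univ a)
      exact lt_of_lt_of_le Nat.lt_two_pow_self (Nat.pow_le_pow_right two_pos (by omega))
  -- matrices of the operators
  let A : ∀ n, R n → Matrix (Fin d) (Fin d) P :=
    fun n x => Matrix.of fun i j => lift n (φ n x (e n j)) i
  have hA : ∀ n x (v : Fin d → P), Ψ n (A n x *ᵥ v) = φ n x (Ψ n v) := by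
    intro n x v
    have h1 : ∀ j, ∑ i, φ n (ev n (A n x i j)) (e n i) = φ n x (e n j) := fun j =>
      hlift n (φ n x (e n j))
    simp only [Ψ, Matrix.mulVec, dotProduct, map_sum, LinearMap.sum_apply]
    rw [Finset.sum_comm]
    refine Finset.sum_congr rfl fun j _ => ?_
    have h2 : ∀ (a b : R n) (z : M n), φ n (a * b) z = φ n a (φ n b z) := fun a b z => by
      rw [map_mul]; rfl
    calc ∑ i, φ n (ev n (A n x i j * v j)) (e n i)
        = ∑ i, φ n (ev n (v j)) (φ n (ev n (A n x i j)) (e n i)) :=
          Finset.sum_congr rfl fun i _ => by rw [map_mul, mul_comm, h2]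
      _ = φ n (ev n (v j) * x) (e n j) := by rw [← map_sum, h1, h2]
      _ = φ n x (φ n (ev n (v j)) (e n j)) := by rw [mul_comm, h2]
  let Â : (Π n, R n) → Matrix (Fin d) (Fin d) (ℕ → P) :=
    fun x => Matrix.of fun i j n => A n (x n) i j
  let col : Matrix (Fin d) (Fin d) (ℕ → P) → Fin d → ℕ → Fin d → P := fun B j n i => B i j n
  have hmat : ∀ (B B' : Matrix (Fin d) (Fin d) (ℕ → P)),
      (∀ j, ∀ᶠ n in (hyperfilter ℕ : Filter ℕ), Ψ n (col B j n) = Ψ n (col B' j n)) →
        B.map serLim = B'.map serLim := fun B B' h => by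
    ext1 i j
    exact hlim (col B j) (col B' j) (h j) i
  have hÂcol : ∀ x j n, Ψ n (col (Â x) j n) = φ n (x n) (e n j) := fun x j n =>
    hlift n (φ n (x n) (e n j))
  let H : (Π n, R n) →+* Matrix (Fin d) (Fin d) P :=
    { toFun := fun x => (Â x).map serLim
      map_one' := by
        rw [← Matrix.map_one serLim (map_zero _) (map_one _)]
        refine hmat _ _ fun j => Eventually.of_forall fun n => ?_
        rw [hÂcol, show col 1 j n = Pi.single j 1 by
          funext i; rcases eq_or_ne i j with rfl | h <;> simp [col, *],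
          hΨsingle, map_one, Pi.one_apply]
      map_mul' := fun x x' => by
        rw [← Matrix.map_mul]
        refine hmat _ _ fun j => Eventually.of_forall fun n => ?_
        rw [hÂcol, Pi.mul_apply, map_mul, Module.End.mul_apply,
          show col (Â x * Â x') j n = A n (x n) *ᵥ col (Â x') j n by
            funext i; simp [col, Â, Matrix.mul_apply, Matrix.mulVec, dotProduct],
          hA, hÂcol]
      map_zero' := by
        rw [← Matrix.map_zero serLim (map_zero _)]
        refine hmat _ _ fun j => Eventually.of_forall fun n => ?_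
        rw [hÂcol, show col 0 j n = 0 from rfl]
        simp [Ψ]
      map_add' := fun x x' => by
        rw [← Matrix.map_add serLim (map_add _)]
        refine hmat _ _ fun j => Eventually.of_forall fun n => ?_
        rw [hÂcol, Pi.add_apply, map_add, LinearMap.add_apply,
          show col (Â x + Â x') j n = col (Â x) j n + col (Â x') j n from rfl, ← hÂcol x,
          ← hÂcol x']
        simp [Ψ, Finset.sum_add_distrib] }
  have hHdef : ∀ x, H x = (Â x).map serLim := fun x => rfl
  have hHcongr : ∀ x x', (∀ᶠ n in (hyperfilter ℕ : Filter ℕ), x n = x' n) → H x = H x' :=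
    fun x x' h => hmat _ _ fun j => h.mono fun n hn => by rw [hÂcol, hÂcol, hn]
  let scR : P →+* Π n, R n := RingHom.pi ev
  have hHsc : ∀ f : P, H (scR f) = Matrix.scalar (Fin d) f := by
    intro f
    have h1 : (Matrix.scalar (Fin d) (fun _ : ℕ => f)).map serLim = Matrix.scalar (Fin d) f := by
      ext1 i j
      rcases eq_or_ne i j with rfl | h
      · simp [serLim_const]
      · simp [h]
    rw [← h1]
    refine hmat _ _ fun j => Eventually.of_forall fun n => ?_
    rw [hÂcol, show col (Matrix.scalar (Fin d) fun _ : ℕ => f) j n = Pi.single j f by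
      funext i; rcases eq_or_ne i j with rfl | h <;> simp [col, *], hΨsingle]
    rfl
  -- the limit ring and module
  let T := (Π n, R n) ⧸ RingHom.ker H
  let qT : (Π n, R n) →+* T := Ideal.Quotient.mk _
  let HT : T →+* Matrix (Fin d) (Fin d) P := RingHom.kerLift H
  have hHTinj : Function.Injective HT := RingHom.kerLift_injective H
  have hHT : ∀ x, HT (qT x) = H x := fun x => RingHom.kerLift_mk H x
  letI : Module T (Fin d → P) := Module.compHom (Fin d → P)
    ((Matrix.toLinAlgEquiv' : Matrix (Fin d) (Fin d) P ≃ₐ[P] _).toRingEquiv.toRingHom.comp HT)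
  have hsmul : ∀ (x : T) (v : Fin d → P), x • v = HT x *ᵥ v := fun x v =>
    Matrix.toLinAlgEquiv'_apply _ _
  let sc : P →+* T := qT.comp scR
  have hHTsc : ∀ f, HT (sc f) = Matrix.scalar (Fin d) f := fun f => (hHT _).trans (hHsc f)
  have hscsmul : ∀ (f : P) (v : Fin d → P), sc f • v = f • v := fun f v => by
    rw [hsmul, hHTsc]
    funext i
    simp [Matrix.mulVec_diagonal]
  letI : Algebra P T := sc.toAlgebra
  haveI : Module.Finite T (Fin d → P) := by
    refine Module.Finite.of_surjective
      (Fintype.linearCombination T fun j => (Pi.single j 1 : Fin d → P))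
      fun v => ⟨fun j => sc (v j), ?_⟩
    simp only [Fintype.linearCombination_apply, hscsmul]
    funext i
    simp [Pi.single_apply]
  haveI : IsNoetherianRing T := by
    let Lm : T →ₗ[P] Matrix (Fin d) (Fin d) P :=
      { toFun := HT
        map_add' := map_add HT
        map_smul' := fun f x => by
          rw [Algebra.smul_def, map_mul]
          change HT (sc f) * HT x = f • HT x
          rw [hHTsc, Matrix.scalar_apply, Matrix.smul_eq_diagonal_mul] }
    haveI : IsNoetherian P T := isNoetherian_of_injective Lm hHTinj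
    exact isNoetherian_of_tower P inferInstance
  haveI : Nontrivial T := by
    refine ⟨⟨0, 1, fun h => ?_⟩⟩
    have h' := congrArg HT h
    rw [map_zero, map_one] at h'
    have := congrFun (congrFun h' ⟨0, hd⟩) ⟨0, hd⟩
    rw [Matrix.zero_apply, Matrix.one_apply_eq] at this
    exact zero_ne_one this
  -- generators
  let G : (Fin r ⊕ Fin k) ⊕ Fin r → Π n, R n := fun g n =>
    Sum.elim (Sum.elim (y n) (c n)) (q n) g
  have hGn : ∀ n, J n = Ideal.span (Set.range fun g => G g n) := fun n => by
    simp only [hJ, G]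
    rw [← Set.Sum.elim_range, ← Set.Sum.elim_range]
  let JR : Ideal (Π n, R n) := Ideal.span (Set.range G)
  have hJRfg : JR.FG := Submodule.fg_span (Set.finite_range G)
  have hJRmap : ∀ n, JR.map (Pi.evalRingHom R n) = J n := fun n => by
    rw [hGn, Ideal.map_span, ← Set.range_comp]
    rfl
  let JT : Ideal T := JR.map qT
  have hGJ : ∀ g, qT (G g) ∈ JT := fun g =>
    Ideal.mem_map_of_mem qT (Ideal.subset_span ⟨g, rfl⟩)
  have hdec : ∀ (n : ℕ) (z : R n), ∃ a : Lam N, z - algebraMap (Lam N) (R n) a ∈ J n := by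
    intro n z
    have hz : z ∈ Algebra.adjoin (Lam N) (Set.range (y n) ∪ Set.range (c n) ∪ Set.range (q n)) := hgen n ▸ Algebra.mem_top
    induction hz using Algebra.adjoin_induction with
    | mem x hx => exact ⟨0, by rw [map_zero, sub_zero]; exact Ideal.subset_span hx⟩
    | algebraMap a => exact ⟨a, by rw [sub_self]; exact zero_mem _⟩
    | add x x' _ _ hx hx' =>
      obtain ⟨a, ha⟩ := hx
      obtain ⟨b, hb⟩ := hx'
      exact ⟨a + b, by rw [map_add, add_sub_add_comm]; exact add_mem ha hb⟩
    | mul x x' _ _ hx hx' =>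
      obtain ⟨a, ha⟩ := hx
      obtain ⟨b, hb⟩ := hx'
      refine ⟨a * b, ?_⟩
      rw [map_mul, show x * x' - algebraMap _ _ a * algebraMap _ _ b =
        x' * (x - algebraMap _ _ a) + algebraMap _ _ a * (x' - algebraMap _ _ b) by ring]
      exact add_mem (Ideal.mul_mem_left _ _ ha) (Ideal.mul_mem_left _ _ hb)
  choose aN haN using hdec
  have hunit : ∀ x : Π n, R n, IsUnit (finLim fun n => aN n (x n)) → IsUnit (qT x) := by
    intro x hu
    set a := finLim fun n => aN n (x n)
    let x' : Π n, R n := fun n => if aN n (x n) = a then x n else 1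
    have h1 : qT x = qT x' := by
      refine hHTinj ((hHT x).trans ((hHcongr x x' ?_).trans (hHT x').symm))
      filter_upwards [eventually_finLim fun n => aN n (x n)] with n hn
      exact (if_pos hn).symm
    rw [h1]
    refine RingHom.isUnit_map qT (Pi.isUnit_iff.2 fun n => ?_)
    simp only [x']
    split_ifs with h
    · have h2 : IsUnit (algebraMap (Lam N) (R n) a) := hu.map _
      have h3 := (hnil n _ (haN n (x n))).isUnit_add_right_of_commute h2 (Commute.all _ _)
      rwa [h, sub_add_cancel] at h3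
    · exact isUnit_one
  haveI : IsLocalRing T := by
    refine IsLocalRing.of_isUnit_or_isUnit_one_sub_self fun z => ?_
    obtain ⟨x, rfl⟩ := Ideal.Quotient.mk_surjective z
    by_cases h : IsUnit (finLim fun n => aN n (x n))
    · exact Or.inl (hunit x h)
    refine Or.inr ?_
    set a := finLim fun n => aN n (x n) with ha
    let x' : Π n, R n := fun n => if aN n (x n) = a then 1 - x n else 1
    have h1 : 1 - qT x = qT x' := by
      rw [← map_one qT, ← map_sub]
      refine hHTinj ((hHT _).trans ((hHcongr _ x' ?_).trans (hHT x').symm))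
      filter_upwards [eventually_finLim fun n => aN n (x n)] with n hn
      exact (if_pos hn).symm
    change IsUnit (1 - qT x)
    rw [h1]
    refine RingHom.isUnit_map qT (Pi.isUnit_iff.2 fun n => ?_)
    simp only [x']
    split_ifs with hn
    · have h2 : IsUnit (algebraMap (Lam N) (R n) (1 - a)) :=
        ((IsLocalRing.isUnit_or_isUnit_one_sub_self a).resolve_left h).map _
      have h3 := ((hnil n _ (haN n (x n))).neg).isUnit_add_right_of_commute h2 (Commute.all _ _)
      rwa [hn, map_sub, map_one, show -(x n - algebraMap (Lam N) (R n) a) +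
        (1 - algebraMap (Lam N) (R n) a) = 1 - x n by ring] at h3
    · exact isUnit_one
  have h2m : (2 : T) ∈ maximalIdeal T := by
    rw [mem_maximalIdeal, mem_nonunits_iff]
    intro h
    have h0 : (2 : T) ^ (N + 1) = 0 := by
      rw [← map_ofNat sc 2, ← map_pow, two_pow_series, map_zero]
    exact not_isUnit_zero (h0 ▸ h.pow (N + 1))
  have hJm : JT ≤ maximalIdeal T := by
    refine Ideal.map_le_iff_le_comap.2 (Ideal.span_le.2 ?_)
    rintro _ ⟨g, rfl⟩
    rw [SetLike.mem_coe, Ideal.mem_comap, mem_maximalIdeal, mem_nonunits_iff]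
    intro h
    obtain ⟨z', hz⟩ := h.exists_right_inv
    obtain ⟨z, rfl⟩ := Ideal.Quotient.mk_surjective z'
    have h1 : IsUnit (1 - G g * z) := Pi.isUnit_iff.2 fun n => by
      refine IsNilpotent.isUnit_one_sub (hnil n _ ?_)
      change (G g * z) n ∈ J n
      rw [hGn]
      exact Ideal.mul_mem_right _ _ (Ideal.subset_span ⟨g, rfl⟩)
    have h2 := h1.map qT
    rw [map_sub, map_one, map_mul, show qT (G g) * qT z = 1 from hz, sub_self] at h2
    exact not_isUnit_zero h2
  have hmax : maximalIdeal T ≤ Ideal.span {(2 : T)} ⊔ JT := by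
    intro z hz
    obtain ⟨x, rfl⟩ := Ideal.Quotient.mk_surjective z
    set a := finLim fun n => aN n (x n) with ha
    have hna : ¬ IsUnit a := fun h => (mem_maximalIdeal _).1 hz (hunit x h)
    obtain ⟨b, hb⟩ : ∃ b, a = 2 * b := by
      obtain ⟨i, hi, hI⟩ := exists_two_pow_span N (Ideal.span {a})
      have hi0 : i ≠ 0 := by
        rintro rfl
        rw [pow_zero, Ideal.span_singleton_one, Ideal.span_singleton_eq_top] at hI
        exact hna hI
      obtain ⟨u, hu⟩ := Ideal.mem_span_singleton'.1 (hI ▸ Ideal.mem_span_singleton_self a)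
      obtain ⟨i, rfl⟩ := Nat.exists_eq_succ_of_ne_zero hi0
      exact ⟨u * 2 ^ i, hu.symm.trans (by simp only [Nat.succ_eq_add_one, pow_succ' (2 : Lam N) i]; exact mul_left_comm u 2 _)⟩
    let al : Π n, R n := fun n => algebraMap (Lam N) (R n) a
    let x' : Π n, R n := fun n => if aN n (x n) = a then x n else al n
    have h1 : qT x = qT x' := by
      refine hHTinj ((hHT x).trans ((hHcongr x x' ?_).trans (hHT x').symm))
      filter_upwards [eventually_finLim fun n => aN n (x n)] with n hn
      exact (if_pos hn).symm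
    have h2 : x' - al ∈ JR := mem_of_forall_mem_map hJRfg fun n => by
      rw [hJRmap, Pi.sub_apply]
      simp only [x']
      split_ifs with hn
      · have := haN n (x n)
        rwa [hn] at this
      · rw [sub_self]; exact zero_mem _
    change qT x ∈ _
    rw [h1, show qT x' = qT al + qT (x' - al) by rw [map_sub]; ring]
    refine Submodule.add_mem_sup ?_ (Ideal.mem_map_of_mem qT h2)
    rw [Ideal.mem_span_singleton']
    refine ⟨qT (fun n => algebraMap (Lam N) (R n) b), ?_⟩
    rw [← map_ofNat qT 2, ← map_mul]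
    refine congrArg qT (funext fun n => ?_)
    simp only [al, hb, Pi.mul_apply, Pi.ofNat_apply, map_mul, map_ofNat]
    ring
  -- the squares
  have hsqT : ∀ i, qT (G (Sum.inl (Sum.inr i))) ^ 2 ∈ maximalIdeal T * JT ^ 2 := by
    intro i
    have h1 : G (Sum.inl (Sum.inr i)) * G (Sum.inl (Sum.inr i)) ∈ Ideal.span {(2 : Π n, R n)} * JR ^ 2 ⊔ JR ^ 3 :=
      mem_of_forall_mem_map
        (((Submodule.fg_span_singleton _).mul (Ideal.FG.pow hJRfg)).sup (Ideal.FG.pow hJRfg))
        fun n => by
          rw [Ideal.map_sup, Ideal.map_mul, Ideal.map_pow, Ideal.map_pow, hJRmap, Ideal.map_span,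
            Set.image_singleton, map_ofNat]
          exact hsq n i
    have h2 := Ideal.mem_map_of_mem qT h1
    rw [Ideal.map_sup, Ideal.map_mul, Ideal.map_pow, Ideal.map_pow, Ideal.map_span,
      Set.image_singleton, map_ofNat, map_mul, ← pow_two] at h2
    have h3 : Ideal.span {(2 : T)} * JT ^ 2 ⊔ JT ^ 3 ≤ maximalIdeal T * JT ^ 2 := by
      refine sup_le (Ideal.mul_mono_left ((Ideal.span_singleton_le_iff_mem _).2 h2m)) ?_
      exact (pow_succ' JT 2).le.trans (Ideal.mul_mono_left hJm)
    exact h3 h2
  have hJT : JT = Ideal.span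
      (Set.range (fun i => qT (G (Sum.inl (Sum.inl i)))) ∪
        Set.range (fun i => qT (G (Sum.inl (Sum.inr i)))) ∪
        Set.range (fun i => qT (G (Sum.inr i)))) := by
    rw [← Set.Sum.elim_range, ← Set.Sum.elim_range]
    refine (Ideal.map_span qT _).trans (congrArg Ideal.span ?_)
    rw [← Set.range_comp]
    congr 1
    funext g
    rcases g with (i | i) | i <;> rfl
  have hscX : ∀ i, sc (MvPowerSeries.X i) ∈ maximalIdeal T * JT := fun i => by
    have h1 : scR (MvPowerSeries.X i) ∈ Ideal.span {(2 : Π n, R n)} * JR ⊔ JR ^ 2 :=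
      mem_of_forall_mem_map
        (((Submodule.fg_span_singleton _).mul hJRfg).sup (Ideal.FG.pow hJRfg))
        fun n => by
          rw [Ideal.map_sup, Ideal.map_mul, Ideal.map_pow, hJRmap, Ideal.map_span,
            Set.image_singleton, map_ofNat]
          change ev n (MvPowerSeries.X i) ∈ _
          rw [hevX]
          exact hδ n i
    have h2 := Ideal.mem_map_of_mem qT h1
    rw [Ideal.map_sup, Ideal.map_mul, Ideal.map_pow, Ideal.map_span, Set.image_singleton,
      map_ofNat] at h2
    have h3 : Ideal.span {(2 : T)} * JT ⊔ JT ^ 2 ≤ maximalIdeal T * JT :=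
      sup_le (Ideal.mul_mono_left ((Ideal.span_singleton_le_iff_mem _).2 h2m))
        ((pow_two JT).le.trans (Ideal.mul_mono_left hJm))
    exact h3 h2
  have hqX : ∀ i (v : Fin d → P), ∃ w : Fin d → P,
      qT (G (Sum.inr i)) • v = sc (MvPowerSeries.X i) • w := by
    intro i v
    refine ⟨fun a => serLim fun n => lift n (zc n i (Ψ n v)) a, ?_⟩
    rw [hscsmul, hsmul, hHT, hHdef]
    funext a
    have h1 := hlim (fun n => A n (q n i) *ᵥ v)
      (fun n => (MvPowerSeries.X i : P) • lift n (zc n i (Ψ n v)))
      (Eventually.of_forall fun n => ?_) a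
    · rw [Pi.smul_apply, smul_eq_mul]
      refine Eq.trans ?_ (h1.trans ?_)
      · simp only [Matrix.mulVec, dotProduct, Matrix.map_apply]
        conv_lhs => enter [2, x, 2]; rw [← serLim_const (v x)]
        simp only [← map_mul, ← map_sum]
        congr 1
        funext n
        simp [Â, G]
      · conv_rhs => enter [1]; rw [← serLim_const (MvPowerSeries.X i : P)]
        rw [← map_mul]
        rfl
    · rw [hA]
      refine (hzc n i (Ψ n v)).trans ?_
      rw [← hevX]
      conv_lhs => rw [← hlift n (zc n i (Ψ n v))]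
      simp only [Ψ, Pi.smul_apply, smul_eq_mul, map_sum, map_mul]
      rfl
  -- the failure in the limit
  have hfail : ∀ n j, ∃ m : (Fin r ⊕ Fin k) ⊕ Fin r → M n,
      ∑ g, φ n (G g n) (m g) = (2 ^ t : Lam N) • e n j := by
    intro n j
    let Smap : ((Fin r ⊕ Fin k) ⊕ Fin r → M n) →ₗ[Lam N] M n := ∑ g, φ n (G g n) ∘ₗ LinearMap.proj g
    have hmem : (2 ^ t : Lam N) • e n j ∈ LinearMap.range Smap := by
      by_contra hnot
      obtain ⟨ψ, hψ, hne⟩ := exists_functional_killing _ hnot
      have h0 := hcon n ψ fun x hx m => by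
        change x ∈ J n at hx
        rw [hGn] at hx
        obtain ⟨a, rfl⟩ := (Submodule.mem_span_range_iff_exists_fun (R n)).1 hx
        refine hψ _ ⟨fun g => φ n (a g) m, ?_⟩
        simp only [Smap, LinearMap.sum_apply, LinearMap.comp_apply, LinearMap.proj_apply, map_sum]
        refine Finset.sum_congr rfl fun g _ => ?_
        rw [smul_eq_mul, mul_comm (a g), map_mul]
        rfl
      rw [map_smul, ← LinearMap.smul_apply, h0] at hne
      exact hne rfl
    obtain ⟨m, hm⟩ := hmem
    refine ⟨m, ?_⟩
    rw [← hm]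
    simp [Smap]
  choose mf hmf using hfail
  have htwo : ∀ (j : ℕ) (v : Fin d → P), (2 : T) ^ j • v = fun i => (2 : P) ^ j * v i := by
    intro j v
    rw [← map_ofNat sc 2, ← map_pow, hscsmul]
    rfl
  have hbase : ∀ j, (2 : T) ^ t • (Pi.single j 1 : Fin d → P) ∈
      JT • (⊤ : Submodule T (Fin d → P)) := by
    intro j
    let v : (Fin r ⊕ Fin k) ⊕ Fin r → ℕ → Fin d → P := fun g n => lift n (mf n j g)
    let w : (Fin r ⊕ Fin k) ⊕ Fin r → Fin d → P := fun g i => serLim fun n => v g n i
    have hw : (2 : T) ^ t • (Pi.single j 1 : Fin d → P) = ∑ g, qT (G g) • w g := by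
      funext i
      rw [htwo, Finset.sum_apply]
      have h1 := hlim (fun n => ∑ g, A n (G g n) *ᵥ v g n)
        (fun n => Pi.single j ((2 : P) ^ t)) (Eventually.of_forall fun n => ?_) i
      · have h3 : ∀ g, (qT (G g) • w g) i = serLim fun n => (A n (G g n) *ᵥ v g n) i := fun g => by
          rw [hsmul, hHT, hHdef]
          simp only [Matrix.mulVec, dotProduct, Matrix.map_apply, w, ← map_mul, ← map_sum]
          congr 1
          funext n
          simp [Â]
        simp only [h3, ← map_sum]
        rw [show (∑ g, fun n => (A n (G g n) *ᵥ v g n) i) =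
            fun n => (∑ g, A n (G g n) *ᵥ v g n) i by funext n; simp,
          h1, serLim_const]
        simp only [Pi.single_apply, mul_ite, mul_one, mul_zero]
      · rw [hΨsingle, map_pow, map_ofNat]
        calc Ψ n (∑ g, A n (G g n) *ᵥ v g n) = ∑ g, Ψ n (A n (G g n) *ᵥ v g n) := by
              simp only [Ψ, Finset.sum_apply, map_sum, LinearMap.sum_apply]
              exact Finset.sum_comm
          _ = ∑ g, φ n (G g n) (mf n j g) := Finset.sum_congr rfl fun g _ => by
              rw [hA]; exact congrArg _ (hlift n _)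
          _ = (2 ^ t : Lam N) • e n j := hmf n j
          _ = φ n (2 ^ t) (e n j) := by
              rw [← map_ofNat (algebraMap (Lam N) (R n)) 2, ← map_pow, AlgHom.commutes]
              rfl
    rw [hw]
    exact sum_mem fun g _ => Submodule.smul_mem_smul (hGJ g) trivial
  exact false_of_limit hN hd sc hscsmul (fun i => qT (G (Sum.inl (Sum.inl i))))
    (fun i => qT (G (Sum.inl (Sum.inr i)))) (fun i => qT (G (Sum.inr i)))
    h2m (hJT ▸ hJm) (hJT ▸ hmax) (fun i => hJT ▸ hsqT i) (fun i => hJT ▸ hscX i) hqX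
    (fun j => hJT ▸ hbase j)

end FLTAgent.R2

end
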