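import Fermat.Agent.R2.PrimesTW
import Fermat.Agent.R2.PrimesKill

/-!
Area R2, parcel D: a killing set is auxiliary data.
-/

set_option autoImplicit false
set_option linter.style.haveILetI false

noncomputable section

namespace FLTAgent.R2

open WeierstrassCurve Matrix
open FLTAgent.Local (QPoint)
open scoped WeierstrassCurve.Affine

local notation "Ω" => AlgebraicClosure ℚ

variable {W : WeierstrassCurve ℤ}

/-- the residual image is the image modulo two -/
theorem rb_eq_one_iff (hW : IsAnchor W) (σ : GQ) :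
    rb hW σ = 1 ↔ Layer.red (tate hW) hW.neg.ne σ = 1 := by
  rw [red_eq_rb]
  constructor
  · intro h
    rw [h, Matrix.map_one _ (map_zero _) (map_one _)]
  · intro h
    ext i j
    have := congrFun (congrFun h i) j
    rw [Matrix.map_apply] at this
    revert this
    generalize rb hW σ i j = x
    simp only [Matrix.one_apply]
    revert x
    split_ifs <;> decide

/-- Frobenius acting as complex conjugation on `W[2^(N+1)]` has trace zero there -/
theorem trace_rE_of_dvd (hW : IsAnchor W) (N : ℕ) {q : ℕ} (hq : q.Prime) (hq2 : q ≠ 2)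
    (hgood : ¬ (q : ℤ) ∣ W.Δ) {A : ValuationSubring Ω} (hA : A.LiesOverPrime q) {σ : GQ}
    (hσ : A.IsFrobeniusAt σ q) (hap : (2 : ℤ) ^ (N + 1) ∣ W.apOfModel q) :
    (rE hW N σ).trace = 0 := by
  haveI : Fact (Nat.Prime 2) := ⟨Nat.prime_two⟩
  obtain ⟨htr, -⟩ := (tate hW).frobenius hW.neg.ne hq hgood hA hσ (Ne.symm hq2)
  show (((tate hW).mat hW.neg.ne σ).map (PadicInt.toZModPow (N + 1))).trace = 0
  rw [Matrix.trace_fin_two, Matrix.map_apply, Matrix.map_apply, ← map_add, ← Matrix.trace_fin_two,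
    htr, map_intCast, ZMod.intCast_zmod_eq_zero_iff_dvd]
  exact_mod_cast hap

/-- a finite set of killing primes gives auxiliary data -/
theorem exists_aux_of_killing (hW : IsAnchor W) (B : Base W) (N : ℕ) (S Q : Finset ℕ)
    (hQ : ∀ q ∈ Q, q.Prime ∧ q ∉ S ∧ ¬ q ∣ B.lev ∧ 2 ^ (N + 1) ∣ q + 1 ∧
      ∃ (A : ValuationSubring Ω) (σ : GQ), A.LiesOverPrime q ∧ A.IsFrobeniusAt σ q ∧
        (2 : ℤ) ^ (N + 1) ∣ W.apOfModel q ∧ rb hW σ ≠ 1)
    (hzero : SelmerZero hW (insert 2 (badOdd W ∪ Q))) :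
    ∃ K : Aux hW B N, K.k = Q.card ∧ ∀ i, K.q i ∉ S := by
  classical
  let e : Fin Q.card ≃ Q := Q.equivFin.symm
  let q : Fin Q.card → ℕ := fun i => (e i).1
  have hq : ∀ i, q i ∈ Q := fun i => (e i).2
  have hne2 : ∀ i, q i ≠ 2 := fun i h => (hQ _ (hq i)).2.2.1 (by
    rw [h]; exact Dvd.dvd.mul_right (Dvd.dvd.mul_right dvd_rfl _) _)
  have hgood : ∀ i, ¬ (q i : ℤ) ∣ W.Δ := fun i h => (hQ _ (hq i)).2.2.1 (by
    have hmem : q i ∈ badOdd W := (badOdd_spec hW).2 ⟨(hQ _ (hq i)).1, hne2 i, h⟩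
    exact Dvd.dvd.mul_right (dvd_mul_of_dvd_right (Finset.dvd_prod_of_mem _ hmem) _) _)
  choose A σ hA hσ hap hne using fun i => (hQ _ (hq i)).2.2.2.2
  have htau : ∀ i, ∃ τ ∈ (A i).inertiaSubgroupIn ℚ, ∀ x : Ω, x ^ 2 = (q i : Ω) → τ x = -x :=
    fun i => Layer.exists_inertia_neg (hQ _ (hq i)).1 (hA i)
  choose tau htau1 htau2 using htau
  have himg : Finset.univ.image q = Q := by
    ext x
    simp only [Finset.mem_image, Finset.mem_univ, true_and]
    exact ⟨fun ⟨i, hi⟩ => hi ▸ hq i, fun hx => ⟨e.symm ⟨x, hx⟩, by simp [q]⟩⟩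
  refine ⟨{
      k := Q.card
      q := q
      prime := fun i => (hQ _ (hq i)).1
      inj := fun i j h => e.injective (Subtype.ext h)
      ndvd := fun i => (hQ _ (hq i)).2.2.1
      cong := fun i => ?_
      place := A
      lies := hA
      frob := σ
      frob_spec := hσ
      tr := fun i => trace_rE_of_dvd hW N (hQ _ (hq i)).1 (hne2 i) (hgood i) (hA i) (hσ i) (hap i)
      ne_one := hne
      tau := tau
      tau_mem := htau1
      tau_sqrt := htau2
      selmer := by rw [himg]; exact hzero }, rfl, fun i => (hQ _ (hq i)).2.1⟩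
  have h0 : ((q i + 1 : ℕ) : Lam N) = 0 := (ZMod.natCast_eq_zero_iff _ _).2 (hQ _ (hq i)).2.2.2.1
  push_cast at h0
  exact eq_neg_of_add_eq_zero_left h0

end FLTAgent.R2

end
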