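import Fermat.Agent.R2.Defs
import Fermat.Agent.R2.PrimesTW
import Fermat.Agent.R2.PrimesAux
import Fermat.Agent.R2.SelmerCurve

/-!
Area R2, parcels C and D: the auxiliary primes exist.
-/

set_option autoImplicit false

noncomputable section

namespace FLTAgent.R2

variable {W : WeierstrassCurve ℤ}

theorem exists_base (hW : IsAnchor W) : Nonempty (Base W) :=
  nonempty_base hW

/-- a bounded number of killing primes, outside any given finite set -/
theorem exists_aux (hW : IsAnchor W) (B : Base W) :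
    ∃ kmax : ℕ, ∀ (N : ℕ) (S : Finset ℕ), ∃ K : Aux hW B N, K.k ≤ kmax ∧ ∀ i, K.q i ∉ S := by
  obtain ⟨kmax, hk⟩ := exists_selmer_zero hW
  refine ⟨kmax, fun N S => ?_⟩
  obtain ⟨Q, hcard, hQ, hzero⟩ := hk N (S ∪ B.lev.primeFactors)
  obtain ⟨K, hK, hKS⟩ := exists_aux_of_killing hW B N S Q (fun q hq => by
    obtain ⟨⟨hp, -, -, hdvd, hap, A, σ, hA, hσ, hconj⟩, havoid⟩ := hQ q hq
    refine ⟨hp, fun h => havoid (Finset.mem_union_left _ h), fun h => havoid
      (Finset.mem_union_right _ (Nat.mem_primeFactors.2 ⟨hp, h, NeZero.ne _⟩)), hdvd, A, σ, hA, hσ,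
      hap, fun h1 => ?_⟩
    have hc := (Layer.red_transposition (tate hW) hW.neg.ne (Layer.conj_sqrt hW.neg)).2
    refine hc ?_
    rw [← (rb_eq_one_iff hW σ).1 h1, ← Layer.rep_map (tate hW) hW.neg.ne N,
      ← Layer.rep_map (tate hW) hW.neg.ne N,
      (Layer.rep_eq_iff (tate hW) hW.neg.ne N σ complexConjugation).2 hconj]) hzero
  exact ⟨K, hK ▸ hcard, hKS⟩

/-- Taylor–Wiles data outside any given finite set -/
theorem exists_tw (hW : IsAnchor W) (B : Base W) {N : ℕ} (K : Aux hW B N) (n : ℕ)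
    (S : Finset ℕ) : ∃ D : TW K n, Disjoint D.aux S :=
  nonempty_tw hW B K n S

end FLTAgent.R2

end
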