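import Fermat.Agent.R2.Anchor
import Fermat.Agent.R2.Limit
import Fermat.Agent.R2.Curve
import Fermat.Agent.R2.PrimesExist
import Fermat.Agent.R2.LevelMain
import Fermat.Agent.R2.Deform
import Fermat.Agent.R2.Patch
import Fermat.Agent.R2.Descent

/-!
Area R2, top: anchors are modular, from the parcels.
-/

set_option autoImplicit false
set_option linter.style.haveILetI false

noncomputable section

open MvPolynomial

namespace FLTAgent.R2

variable {W : WeierstrassCurve ℤ}

theorem mem_badOdd (hΔ : W.Δ ≠ 0) {l : ℕ} :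
    l ∈ badOdd W ↔ l.Prime ∧ (l : ℤ) ∣ W.Δ ∧ l ≠ 2 := by
  simp [badOdd, Nat.mem_primeFactors, Int.natCast_dvd, hΔ, and_assoc]

theorem squarefree_lev (hW : IsAnchor W) (B : Base W) : Squarefree B.lev := by
  classical
  have hs : ∀ l ∈ insert 2 (insert B.r (badOdd W)), l.Prime := by
    intro l hl
    simp only [Finset.mem_insert] at hl
    rcases hl with rfl | rfl | hl
    · exact Nat.prime_two
    · exact B.prime
    · exact ((mem_badOdd hW.neg.ne).1 hl).1
  have hr : B.r ∉ badOdd W := fun h => B.good ((mem_badOdd hW.neg.ne).1 h).2.1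
  have h2 : 2 ∉ insert B.r (badOdd W) := by
    simp only [Finset.mem_insert, not_or]
    refine ⟨fun h => ?_, fun h => ((mem_badOdd hW.neg.ne).1 h).2.2 rfl⟩
    have := B.mod24
    omega
  have e : B.lev = ∏ l ∈ insert 2 (insert B.r (badOdd W)), l := by
    rw [Finset.prod_insert h2, Finset.prod_insert hr, Base.lev]
    ring
  rw [e]
  refine Finset.squarefree_prod_of_pairwise_isCoprime (fun a ha b hb hab => ?_) fun a ha =>
    (hs a ha).squarefree
  exact Nat.coprime_iff_isRelPrime.mp ((Nat.coprime_primes (hs a ha) (hs b hb)).2 hab)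

theorem dvd_lev (hW : IsAnchor W) (B : Base W) {l : ℕ} (hl : l.Prime) (h : (l : ℤ) ∣ W.Δ) :
    l ∣ B.lev := by
  by_cases h2 : l = 2
  · subst h2
    exact dvd_mul_of_dvd_left (dvd_mul_right 2 _) _
  · exact dvd_mul_of_dvd_left (dvd_mul_of_dvd_right
      (Finset.dvd_prod_of_mem _ ((mem_badOdd hW.neg.ne).2 ⟨hl, h, h2⟩)) _) _

/-- at every precision some class modulo the old functions is eigen of large order -/
theorem exists_eigenclass (hW : IsAnchor W) (B : Base W) {N t : ℕ} (K : Aux hW B N)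
    (S : Finset ℕ) (hN : t * (2 * K.k + 1) < N + 1) :
    ∃ (n : ℕ) (D : TW K n), Disjoint D.aux S ∧ ∃ x : LL.H1 (botRep K),
      (2 ^ t : Lam N) • x ≠ 0 ∧
      ∀ (l : ℕ) (hl : l.Prime) (hlK : ¬ l ∣ K.lev), ¬ (l : ℤ) ∣ W.Δ → l ∉ D.aux →
        LL.T (botRep K) hl hlK x = (W.apOfModel l : Lam N) • x := by
  classical
  obtain ⟨ε, hε⟩ := exists_sign hW
  obtain ⟨d, hd, hlev⟩ := exists_lev hW B ε K
  choose D hD using fun n => exists_tw hW B K n S
  let L := fun n => (hlev n (D n)).some
  let P := fun n =>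
    (nonempty_pointRing (L n).cond (L n).gen (hε B N n K (D n))).some
  obtain ⟨n, ψ, hψJ, hψ⟩ := exists_dual_killed hN hd (fun n => (P n).R') (fun n => (L n).M)
    (fun n => (L n).φ.comp (P n).π) (fun n => (P n).y) (fun n => (P n).c)
    (fun n => (P n).cQ) (fun n => (P n).δ) (fun n => (P n).gen) (fun n => (P n).nil)
    (fun n => (P n).δ_mem)
    (fun n i m => by
      have h : (P n).π ((P n).cQ i) ∈ Ideal.span
          (Set.range fun ab : Fin 2 × Fin 2 => ((L n).ρ ((D n).tau i) - 1) ab.1 ab.2) :=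
        (P n).cQ_mem i
      have key : ∀ a ∈ Ideal.span
          (Set.range fun ab : Fin 2 × Fin 2 => ((L n).ρ ((D n).tau i) - 1) ab.1 ab.2),
          ∀ x, (L n).φ a x ∈ LinearMap.range ((L n).φ ((L n).ρ ((D n).tau i)).det - 1) := by
        intro a ha
        induction ha using Submodule.span_induction with
        | mem a ha =>
          obtain ⟨⟨p, q⟩, rfl⟩ := ha
          exact fun x => (L n).coinv i _ ((D n).tau_mem i) p q x
        | zero => intro x; rw [map_zero, LinearMap.zero_apply]; exact zero_mem _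
        | add a b _ _ ha hb =>
          intro x; rw [map_add, LinearMap.add_apply]; exact add_mem (ha x) (hb x)
        | smul r a _ ha =>
          intro x
          obtain ⟨z, hz⟩ := ha x
          refine ⟨(L n).φ r z, ?_⟩
          rw [smul_eq_mul, map_mul, Module.End.mul_apply, ← hz, ← Module.End.mul_apply,
            ← Module.End.mul_apply, mul_sub, sub_mul, mul_one, one_mul, ← map_mul, ← map_mul,
            mul_comm r]
      obtain ⟨z, hz⟩ := key _ h m
      refine ⟨z, ?_⟩
      rw [AlgHom.comp_apply, AlgHom.comp_apply, map_sub, map_one, (P n).δ_eq, map_sub, map_one]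
      exact hz.symm)
    (fun n => (P n).sq)
    (fun n i => by
      rw [AlgHom.comp_apply, _root_.map_pow (P n).π, (P n).δ_eq]
      exact (L n).pow_dia i)
    (fun n => by
      obtain ⟨e, he⟩ := (L n).basis
      refine ⟨e, ?_⟩
      simpa only [AlgHom.comp_apply, map_prod (P n).π, _root_.map_pow (P n).π, (P n).δ_eq,
        diaProd] using he)
  have hinv : ψ ∈ invDual (D n) (L n).ρ (L n).φ := by
    intro i x
    have h1 : Ideal.span {(2 : (P n).R')} *
        Ideal.span (Set.range (P n).y ∪ Set.range (P n).c ∪ Set.range (P n).cQ) ⊔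
        Ideal.span (Set.range (P n).y ∪ Set.range (P n).c ∪ Set.range (P n).cQ) ^ 2 ≤
        Ideal.span (Set.range (P n).y ∪ Set.range (P n).c ∪ Set.range (P n).cQ) :=
      sup_le Ideal.mul_le_right (Ideal.pow_le_self two_ne_zero)
    have h := hψJ _ (h1 ((P n).δ_mem i)) x
    rw [AlgHom.comp_apply, map_sub, map_one, map_sub, map_one, LinearMap.sub_apply,
      Module.End.one_apply, map_sub, sub_eq_zero, (P n).δ_eq] at h
    exact h
  obtain ⟨j, hj⟩ : ∃ j, (2 ^ t : Lam N) • (L n).down j ⟨ψ, hinv⟩ ≠ 0 := by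
    by_contra hcon
    push Not at hcon
    refine hψ ?_
    have h := (L n).down_inj ((2 ^ t : Lam N) • ⟨ψ, hinv⟩) fun j => by
      rw [_root_.map_smul]
      exact hcon j
    exact congrArg Subtype.val h
  refine ⟨n, D n, hD n, (L n).down j ⟨ψ, hinv⟩, hj, fun l hl hlK hgood hlD => ?_⟩
  obtain ⟨A, σ, hA, hσ⟩ := Alg.exists_place_frobenius l hl
  have hl2 : l ≠ 2 := by
    rintro rfl
    exact hlK (dvd_mul_of_dvd_left (dvd_mul_of_dvd_left (dvd_mul_right 2 _) _) _)
  rw [← _root_.map_smul]
  refine ((L n).down_T l hl hlK hgood hlD A hA σ hσ ⟨ψ, hinv⟩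
    ((W.apOfModel l : Lam N) • ⟨ψ, hinv⟩) (fun x => ?_) j).symm
  obtain ⟨a, ha, ha'⟩ := (P n).trace σ
  have h := hψJ _ ha' x
  rw [AlgHom.comp_apply, map_sub, AlgHom.commutes, map_sub, AlgHom.commutes, LinearMap.sub_apply,
    Module.algebraMap_end_apply, map_sub, sub_eq_zero, _root_.map_smul, ha,
    trace_rE hW N hl hl2 hgood hA hσ] at h
  exact h.symm

/-- all relations of the Hecke operators of level `2 D r` hold for the curve modulo powers of two -/
theorem relModPow_lev (hW : IsAnchor W) (B : Base W) : RelModPow B.lev W := by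
  classical
  intro R hR m
  obtain ⟨kmax, hK⟩ := exists_aux hW B
  choose T hT using fun k => exists_descent_bound hW B k m
  let t := (Finset.range (kmax + 1)).sup T
  let S : Finset ℕ := R.vars.image fun i : GoodIdx B.lev => (i : ℕ)
  obtain ⟨K, hk, hKS⟩ := hK (t * (2 * kmax + 1)) S
  obtain ⟨n, D, hD, x, hx, hxT⟩ := exists_eigenclass (t := t) hW B K S
    (Nat.lt_succ_of_le (Nat.mul_le_mul_left t (by omega)))
  refine hT K.k _ K rfl (D.aux ∪ W.Δ.natAbs.primeFactors) x ?_ ?_ R hR fun i hi => ?_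
  · intro h
    refine hx ?_
    have hle : T K.k ≤ t := Finset.le_sup (f := T) (Finset.mem_range.2 (Nat.lt_succ_of_le hk))
    obtain ⟨e, he⟩ := Nat.exists_eq_add_of_le hle
    have h2 : (2 : Lam (t * (2 * kmax + 1))) ^ t =
        (2 : Lam (t * (2 * kmax + 1))) ^ e * 2 ^ T K.k :=
      (congrArg ((2 : Lam (t * (2 * kmax + 1))) ^ ·) (he.trans (add_comm _ _))).trans
        (pow_add _ _ _)
    rw [h2, mul_smul, h, smul_zero]
  · intro l hl hlK hlS
    rw [Finset.mem_union, not_or] at hlS
    exact hxT l hl hlK (fun h => hlS.2 (Nat.mem_primeFactors.2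
      ⟨hl, Int.natCast_dvd.1 h, Int.natAbs_ne_zero.2 hW.neg.ne⟩)) hlS.1
  · have hiS : (i : ℕ) ∈ S := Finset.mem_image_of_mem _ hi
    have hidx : (i : ℕ).Prime ∧ ¬ (i : ℕ) ∣ B.lev := i.2
    refine ⟨fun h => ?_, fun h => ?_⟩
    · rcases hidx.1.dvd_mul.1 h with h | h
      · exact hidx.2 h
      · obtain ⟨a, -, ha⟩ := hidx.1.prime.exists_mem_finset_dvd h
        exact hKS a ((Nat.prime_dvd_prime_iff_eq hidx.1 (K.prime a)).1 ha ▸ hiS)
    · rcases Finset.mem_union.1 h with h | h
      · exact Finset.disjoint_left.1 hD h hiS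
      · rw [Nat.mem_primeFactors] at h
        exact hidx.2 (dvd_lev hW B hidx.1 (Int.natCast_dvd.2 h.2.1))

theorem anchorModular : AnchorModular := fun W hW => by
  obtain ⟨B⟩ := exists_base hW
  exact ⟨B.lev, squarefree_lev hW B, fun l hl h => dvd_lev hW B hl h,
    modularModel_of_relModPow (relModPow_lev hW B)⟩

end FLTAgent.R2

end
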