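import Fermat.Agent.R2.Carayol
import Fermat.Agent.R2.Curve
import Fermat.Agent.R2.SelmerCurve
import Fermat.Agent.PT.Tool.Places
import Fermat.Agent.PT.TW.Places
import Mathlib.RingTheory.Henselian

/-!
Area R2, parcel DEF: the representation over the trace algebra of a level joined with the curve.

`carrier` is the algebra generated by the pairs of traces; it is local with residue field `𝔽₂`,
the pair of representations descends to it through an endomorphism `F` of the matrix algebra, so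
every deformation condition descends.
-/

set_option autoImplicit false
set_option linter.style.haveILetI false
set_option linter.unusedSectionVars false

noncomputable section

open Matrix IsLocalRing
open scoped Pointwise

namespace FLTAgent.R2.Pt

local notation "M₂" => Matrix (Fin 2) (Fin 2)

variable {W : WeierstrassCurve ℤ} {hW : IsAnchor W} {B : Base W} {N n : ℕ} {K : Aux hW B N}

/-- reduction modulo two -/
def par (N : ℕ) : Lam N →+* ZMod 2 := ZMod.castHom (dvd_pow_self 2 N.succ_ne_zero) (ZMod 2)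

theorem par_eq_zero_iff (z : Lam N) : par N z = 0 ↔ ∃ b, z = 2 * b := by
  constructor
  · intro h
    rw [par, ← ZMod.natCast_zmod_val z, map_natCast, ZMod.natCast_eq_zero_iff] at h
    obtain ⟨b, hb⟩ := h
    exact ⟨b, by rw [← ZMod.natCast_zmod_val z, hb]; push_cast; rfl⟩
  · rintro ⟨b, rfl⟩
    rw [map_mul, map_ofNat, show (2 : ZMod 2) = 0 from rfl, zero_mul]

theorem par_surjective : Function.Surjective (par N) := ZMod.ringHom_surjective _

theorem mem_maximalIdeal_iff_par (z : Lam N) : z ∈ maximalIdeal (Lam N) ↔ par N z = 0 := by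
  haveI : Fact (Nat.Prime 2) := ⟨Nat.prime_two⟩
  rw [← IsLocalRing.ker_eq_maximalIdeal (par N) par_surjective, RingHom.mem_ker]

theorem par_rE (hW : IsAnchor W) (σ : GQ) (a b : Fin 2) :
    par N (rE hW N σ a b) = r2 hW σ a b := by
  have h := (mem_maximalIdeal_iff_par _).1 (rE_res hW N σ a b)
  rw [map_sub, map_natCast, sub_eq_zero] at h
  rw [h, r2_eq_rb]
  exact ZMod.natCast_zmod_val (n := 2) (rb hW σ a b)

/-- a finite local ring over `Lam N` with residue field `𝔽₂` -/
theorem algebraMap_mem_of_par {R : Type} [CommRing R] [IsLocalRing R] [Algebra (Lam N) R]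
    {z : Lam N} (hz : par N z = 0) : algebraMap (Lam N) R z ∈ maximalIdeal R := by
  obtain ⟨b, rfl⟩ := (par_eq_zero_iff z).1 hz
  rw [map_mul, map_ofNat]
  refine Ideal.mul_mem_right _ _ ?_
  rw [IsLocalRing.mem_maximalIdeal, mem_nonunits_iff]
  intro h
  have h0 : (2 : R) ^ (N + 1) = 0 := by
    rw [← map_ofNat (algebraMap (Lam N) R) 2, ← map_pow,
      show (2 : Lam N) ^ (N + 1) = 0 by exact_mod_cast ZMod.natCast_self (2 ^ (N + 1)), map_zero]
  exact not_isUnit_zero (h0 ▸ h.pow (N + 1))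

theorem r2_span (hW : IsAnchor W) : Submodule.span (ZMod 2) (Set.range (r2 hW)) = ⊤ := by
  have hsurj : ∀ X X' : M₂ (ZMod 2), X * X' = 1 →
      X ∈ Submodule.span (ZMod 2) (Set.range (r2 hW)) := fun X X' h => by
    obtain ⟨hc, hc1⟩ := Layer.red_transposition (tate hW) hW.neg.ne (Layer.conj_sqrt hW.neg)
    obtain ⟨g, hg⟩ := Layer.surjective_of_transposition (r2 hW) hc hc1 (isPlane_r2 hW).irr X X' h
    exact Submodule.subset_span ⟨g, hg⟩
  have e : ∀ Z : M₂ (ZMod 2), ∃ a b c d : ZMod 2, Z = a • !![1, 0; 0, 1] + b • !![1, 1; 0, 1] +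
      c • !![1, 0; 1, 1] + d • !![1, 1; 1, 0] := by decide
  rw [eq_top_iff]
  intro Z _
  obtain ⟨a, b, c, d, rfl⟩ := e Z
  refine add_mem (add_mem (add_mem ?_ ?_) ?_) ?_ <;> refine Submodule.smul_mem _ _ ?_
  · exact hsurj _ !![1, 0; 0, 1] (by decide)
  · exact hsurj _ !![1, 1; 0, 1] (by decide)
  · exact hsurj _ !![1, 0; 1, 1] (by decide)
  · exact hsurj _ !![0, 1; 1, 1] (by decide)

theorem exists_moves_placeTwo (hW : IsAnchor W) :
    ∃ g ∈ placeTwo.decompositionSubgroup ℚ, ∃ a b : Fin 2, a ≠ b ∧ r2 hW g a b = 1 := by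
  obtain ⟨g, hg⟩ := exists_moves_two hW
  set x := PT.loc Recip.two' g
  have hx : x ∈ (ExtCitation.primeLocalPlace Recip.two').decompositionSubgroup ℚ := by
    rw [← PT.range_loc]; exact ⟨g, rfl⟩
  obtain ⟨s, hs⟩ := EIS.exists_smul_place Nat.prime_two
    (PT.TW.liesOver_primeLocalPlace Recip.two') placeTwo_lies
  refine ⟨s * x * s⁻¹, ?_, ?_⟩
  · rw [← hs]
    change (s * x * s⁻¹) • (s • _) = s • _
    rw [smul_smul, inv_mul_cancel_right, mul_smul]
    exact congrArg (s • ·) hx
  have hne : r2 hW (s * x * s⁻¹) ≠ 1 := fun h => hg (by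
    have e : x = s⁻¹ * (s * x * s⁻¹) * s := by group
    rw [e, map_mul, map_mul, h, mul_one, ← map_mul, inv_mul_cancel, map_one])
  have key : ∀ A : M₂ (ZMod 2), A.det = 1 → A ≠ 1 → A 0 1 = 1 ∨ A 1 0 = 1 := by decide
  rcases key _ (Layer.det_one (Layer.map_mul_map_inv (r2 hW) _)) hne with h | h
  · exact ⟨0, 1, by decide, h⟩
  · exact ⟨1, 0, by decide, h⟩

variable {R : Type} [CommRing R] [IsLocalRing R] [Finite R] [Algebra (Lam N) R] {ε : ℤˣ}
  {D : TW K n} {ρ : GQ →* M₂ R}

/-- the algebra of the pairs of traces -/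
def carrier (hW : IsAnchor W) (N : ℕ) {R : Type} [CommRing R] [Algebra (Lam N) R]
    (ρ : GQ →* M₂ R) : Subalgebra (Lam N) (R × Lam N) :=
  Algebra.adjoin (Lam N) (Set.range fun σ => ((ρ σ).trace, (rE hW N σ).trace))

variable (hW) (N) (ρ) in
/-- the residual value -/
def res2 : carrier hW N ρ →+* ZMod 2 :=
  (par N).comp ((RingHom.snd R (Lam N)).comp (carrier hW N ρ).val.toRingHom)

theorem res2_apply (x : carrier hW N ρ) : res2 hW N ρ x = par N (x : R × Lam N).2 := rfl

theorem par_res (hc : Cond ε D ρ) (σ : GQ) (a b : Fin 2) :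
    ρ σ a b - algebraMap (Lam N) R (rE hW N σ a b) ∈ maximalIdeal R := by
  have h1 := hc.res σ a b
  have h2 : algebraMap (Lam N) R (rE hW N σ a b - ((rb hW σ a b).val : Lam N)) ∈ maximalIdeal R :=
    algebraMap_mem_of_par ((mem_maximalIdeal_iff_par _).1 (rE_res hW N σ a b))
  rw [map_sub, map_natCast] at h2
  simpa using sub_mem h1 h2

theorem fst_sub_snd_mem (hc : Cond ε D ρ) (x : carrier hW N ρ) :
    (x : R × Lam N).1 - algebraMap (Lam N) R (x : R × Lam N).2 ∈ maximalIdeal R := by
  obtain ⟨x, hx⟩ := x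
  induction hx using Algebra.adjoin_induction with
  | mem z hz =>
    obtain ⟨σ, rfl⟩ := hz
    have := add_mem (par_res hc σ 0 0) (par_res hc σ 1 1)
    simp only [Matrix.trace_fin_two, map_add] at this ⊢
    convert this using 1
    ring
  | algebraMap z =>
    simp only [Prod.algebraMap_apply, Algebra.algebraMap_self, RingHom.id_apply, sub_self,
      zero_mem]
  | add a b _ _ ha hb =>
    simp only [Prod.fst_add, Prod.snd_add, map_add] at ha hb ⊢
    rw [add_sub_add_comm]
    exact add_mem ha hb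
  | mul a b _ _ ha hb =>
    simp only [Prod.fst_mul, Prod.snd_mul, map_mul] at ha hb ⊢
    rw [show a.1 * b.1 - algebraMap (Lam N) R a.2 * algebraMap (Lam N) R b.2 =
      b.1 * (a.1 - algebraMap (Lam N) R a.2) +
        algebraMap (Lam N) R a.2 * (b.1 - algebraMap (Lam N) R b.2) by ring]
    exact add_mem (Ideal.mul_mem_left _ _ ha) (Ideal.mul_mem_left _ _ hb)

theorem isUnit_of_res2 (hc : Cond ε D ρ) (x : carrier hW N ρ) (h : res2 hW N ρ x ≠ 0) : IsUnit x := by
  have h2 : IsUnit (x : R × Lam N).2 := by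
    by_contra hu
    exact h ((mem_maximalIdeal_iff_par _).1 ((mem_maximalIdeal _).2 hu))
  have h1 : IsUnit (x : R × Lam N).1 := by
    by_contra hu
    have := sub_mem ((mem_maximalIdeal _).2 hu) (fst_sub_snd_mem hc x)
    rw [sub_sub_cancel] at this
    exact (mem_maximalIdeal _).1 this (h2.map _)
  have hu : IsUnit (x : R × Lam N) := Prod.isUnit_iff.2 ⟨h1, h2⟩
  have hinj : Function.Injective fun z : carrier hW N ρ => x * z := fun a b hab =>
    Subtype.ext (hu.mul_left_cancel (congrArg Subtype.val hab))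
  obtain ⟨z, hz⟩ := (Finite.injective_iff_surjective.1 hinj) 1
  exact IsUnit.of_mul_eq_one z hz

theorem isLocalRing_carrier (hc : Cond ε D ρ) : IsLocalRing (carrier hW N ρ) := by
  haveI : Nontrivial (carrier hW N ρ) := ⟨⟨0, 1, fun h => by
    have := congrArg (res2 hW N ρ) h
    rw [map_zero, map_one] at this
    exact zero_ne_one this⟩⟩
  refine IsLocalRing.of_isUnit_or_isUnit_one_sub_self fun x => ?_
  by_cases h : res2 hW N ρ x = 0
  · refine Or.inr (isUnit_of_res2 hc _ ?_)
    rw [map_sub, map_one, h, sub_zero]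
    exact one_ne_zero
  · exact Or.inl (isUnit_of_res2 hc _ h)

theorem maximalIdeal_carrier [IsLocalRing (carrier hW N ρ)] :
    maximalIdeal (carrier hW N ρ) = RingHom.ker (res2 hW N ρ) := by
  haveI : Fact (Nat.Prime 2) := ⟨Nat.prime_two⟩
  refine (IsLocalRing.ker_eq_maximalIdeal _ fun z => ⟨((z.val : ℕ) : carrier hW N ρ), ?_⟩).symm
  rw [map_natCast, ZMod.natCast_zmod_val]

/-- a finite local ring is Henselian -/
theorem henselianLocalRing_of_finite (A : Type) [CommRing A] [IsLocalRing A] [Finite A] :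
    HenselianLocalRing A := by
  obtain ⟨M, hM⟩ := IsArtinianRing.isNilpotent_jacobson_bot (R := A)
  rw [IsLocalRing.jacobson_eq_maximalIdeal ⊥ bot_ne_top] at hM
  haveI : IsAdicComplete (maximalIdeal A) A :=
    { haus' := fun x hx => by simpa [hM, SModEq.zero] using hx M
      prec' := fun f hf => ⟨f M, fun i => by
        rcases le_total i M with h | h
        · exact hf h
        · have h1 := hf h
          rw [hM] at h1
          simp only [Ideal.zero_eq_bot, Submodule.bot_smul, SModEq.bot] at h1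
          rw [h1]⟩ }
  refine ⟨fun f hf a₀ h1 h2 => ?_⟩
  exact HenselianRing.is_henselian f hf a₀ h1 (h2.map _)

/-- on the decomposition group at two the eigenvalue is a power of its value at a Frobenius -/
theorem lam_eq_pow {S : Type} [CommRing S] [Algebra (Lam N) S] (r : GQ →* M₂ S) {lam : GQ → S}
    (hm : ∀ g ∈ placeTwo.decompositionSubgroup ℚ, ∀ h ∈ placeTwo.decompositionSubgroup ℚ,
      lam (g * h) = lam g * lam h)
    (hi : ∀ g ∈ placeTwo.inertiaSubgroupIn ℚ, lam g = 1)
    (hid : ∀ g ∈ placeTwo.decompositionSubgroup ℚ, ∀ h ∈ placeTwo.decompositionSubgroup ℚ,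
      (r g - (algebraMap (Lam N) S (chi N g) * lam g) • (1 : M₂ S)) *
        (r h - lam h • (1 : M₂ S)) = 0)
    {g₀ : GQ} (hg₀ : g₀ ∈ placeTwo.decompositionSubgroup ℚ) {a b : Fin 2} (hab : a ≠ b)
    (hu : IsUnit (r g₀ a b)) {g : GQ} (hg : g ∈ placeTwo.decompositionSubgroup ℚ) {i : ℕ}
    {s : GQ} (hs : s ∈ placeTwo.inertiaSubgroupIn ℚ)
    (hfix : r (s⁻¹ * ((frobTwo ^ i)⁻¹ * g)) = 1) : lam g = lam frobTwo ^ i := by
  have hF := frobTwo_spec.mem_decompositionSubgroup
  have hsD := Local.inertia_mem_decomposition hs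
  set u := s⁻¹ * ((frobTwo ^ i)⁻¹ * g) with hudef
  have huD : u ∈ placeTwo.decompositionSubgroup ℚ :=
    mul_mem (inv_mem hsD) (mul_mem (inv_mem (pow_mem hF i)) hg)
  have h1 : lam u = 1 := by
    have h := congrFun (congrFun (hid g₀ hg₀ u huD) a) b
    rw [hfix, show (1 : M₂ S) - lam u • 1 = (1 - lam u) • 1 by rw [sub_smul, one_smul],
      Matrix.mul_smul, mul_one,
      Matrix.smul_apply, Matrix.sub_apply, Matrix.smul_apply, Matrix.one_apply_ne hab, smul_zero,
      sub_zero, smul_eq_mul, Matrix.zero_apply, hu.mul_left_eq_zero, sub_eq_zero] at h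
    exact h.symm
  have h1' : lam 1 = 1 := hi 1 (one_mem _)
  have hp : ∀ j : ℕ, lam (frobTwo ^ j) = lam frobTwo ^ j := by
    intro j
    induction j with
    | zero => rw [pow_zero, pow_zero, h1']
    | succ j ih => rw [pow_succ, pow_succ, hm _ (pow_mem hF j) _ hF, ih]
  have e : g = frobTwo ^ i * (s * u) := by rw [hudef]; group
  rw [e, hm _ (pow_mem hF i) _ (mul_mem hsD huD), hm _ hsD _ huD, hi s hs, h1, mul_one, mul_one, hp]

/-- a matrix of pairs from the two representations -/
def pairRep (hW : IsAnchor W) (N : ℕ) (ρ : GQ →* M₂ R) : GQ →* M₂ (R × Lam N) where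
  toFun σ := Matrix.of fun a b => (ρ σ a b, rE hW N σ a b)
  map_one' := by
    ext a b
    all_goals rcases eq_or_ne a b with rfl | h <;> simp [*]
  map_mul' σ τ := by
    ext a b
    all_goals simp [Matrix.mul_apply, Fin.sum_univ_two]

theorem map_fst_pairRep (σ : GQ) :
    (pairRep hW N ρ σ).map (RingHom.fst R (Lam N)) = ρ σ := rfl

theorem map_snd_pairRep (σ : GQ) :
    (pairRep hW N ρ σ).map (RingHom.snd R (Lam N)) = rE hW N σ := rfl

theorem ext_pair {A B : M₂ (R × Lam N)}
    (h1 : A.map (RingHom.fst R (Lam N)) = B.map (RingHom.fst R (Lam N)))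
    (h2 : A.map (RingHom.snd R (Lam N)) = B.map (RingHom.snd R (Lam N))) : A = B :=
  Matrix.ext fun a b => Prod.ext (congrFun (congrFun h1 a) b) (congrFun (congrFun h2 a) b)

set_option maxHeartbeats 800000 in
/-- the descent of the pair, with its deformation conditions -/
theorem exists_rep_carrier (hc : Cond ε D ρ) (hE : Cond ε D (rE hW N))
    [IsLocalRing (carrier hW N ρ)] :
    ∃ (ρT : GQ →* M₂ (carrier hW N ρ))
      (F : M₂ (R × Lam N) →ₐ[R × Lam N] M₂ (R × Lam N)),
      (∀ σ, (ρT σ).map (carrier hW N ρ).val = F (pairRep hW N ρ σ)) ∧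
      (∀ σ, ((ρT σ).trace : R × Lam N) = ((ρ σ).trace, (rE hW N σ).trace)) ∧
      (∀ σ, ((ρT σ).det : R × Lam N) = ((ρ σ).det, (rE hW N σ).det)) ∧
      (∀ σ a b, res2 hW N ρ (ρT σ a b) = r2 hW σ a b) ∧
      Algebra.adjoin (Lam N) (Set.range fun σ => (ρT σ).trace) = ⊤ ∧
      Cond ε D ρT := by
  classical
  haveI := henselianLocalRing_of_finite (carrier hW N ρ)
  haveI : Fact (Nat.Prime 2) := ⟨Nat.prime_two⟩
  let trT : GQ → carrier hW N ρ := fun σ => ⟨_, Algebra.subset_adjoin ⟨σ, rfl⟩⟩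
  have hres2 : Function.Surjective (res2 hW N ρ) := fun z =>
    ⟨((z.val : ℕ) : carrier hW N ρ), by rw [map_natCast, ZMod.natCast_zmod_val]⟩
  obtain ⟨ρT, F, hF, hr, htr, hdet⟩ := Carayol.exists_rep_hom
    (B := R × Lam N) (T := carrier hW N ρ) Subtype.val_injective (pairRep hW N ρ) (res2 hW N ρ) hres2
    (r2 hW) trT (fun σ => by
      show ((ρ σ).trace, (rE hW N σ).trace) = _
      simp [pairRep, Matrix.trace_fin_two])
    (fun σ => by
      rw [res2_apply]
      show par N (rE hW N σ).trace = _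
      rw [Matrix.trace_fin_two, Matrix.trace_fin_two, map_add, par_rE, par_rE])
    (r2_span hW)
  have hF' : ∀ σ, (ρT σ).map (carrier hW N ρ).val = F (pairRep hW N ρ σ) := hF
  have htr' : ∀ σ, ((ρT σ).trace : R × Lam N) = ((ρ σ).trace, (rE hW N σ).trace) := fun σ =>
    congrArg Subtype.val (htr σ)
  have hdet' : ∀ σ, ((ρT σ).det : R × Lam N) = ((ρ σ).det, (rE hW N σ).det) := fun σ => by
    refine (hdet σ).trans (Prod.ext ?_ ?_)
    · show RingHom.fst R (Lam N) (pairRep hW N ρ σ).det = _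
      rw [RingHom.map_det, RingHom.mapMatrix_apply, map_fst_pairRep]
    · show RingHom.snd R (Lam N) (pairRep hW N ρ σ).det = _
      rw [RingHom.map_det, RingHom.mapMatrix_apply, map_snd_pairRep]
  have hres : ∀ σ a b, res2 hW N ρ (ρT σ a b) = r2 hW σ a b := fun σ a b =>
    congrFun (congrFun (hr σ) a) b
  refine ⟨ρT, F, hF', htr', hdet', hres, ?_, ?_⟩
  · rw [eq_top_iff]
    rintro ⟨x, hx⟩ -
    induction hx using Algebra.adjoin_induction with
    | mem z hz =>
      obtain ⟨σ, rfl⟩ := hz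
      exact Algebra.subset_adjoin ⟨σ, htr σ⟩
    | algebraMap z => exact Subalgebra.algebraMap_mem _ z
    | add a b ha hb iha ihb => exact add_mem iha ihb
    | mul a b ha hb iha ihb => exact mul_mem iha ihb
  -- identities descend through `F`
  let ι : M₂ (carrier hW N ρ) →+* M₂ (R × Lam N) := (carrier hW N ρ).val.toRingHom.mapMatrix
  have hι : ∀ σ, ι (ρT σ) = F (pairRep hW N ρ σ) := hF'
  have hιinj : Function.Injective ι := Matrix.map_injective Subtype.val_injective
  have hιs : ∀ x : carrier hW N ρ, ι (x • 1) = F ((x : R × Lam N) • 1) := fun x => by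
    rw [map_smul F, map_one]
    ext a b
    all_goals rcases eq_or_ne a b with rfl | h <;> simp [ι, *]
  have hone : ∀ σ, ρ σ = 1 → rE hW N σ = 1 → ρT σ = 1 := fun σ h1 h2 => by
    refine hιinj ?_
    rw [hι, map_one, show pairRep hW N ρ σ = 1 from ext_pair
      (by rw [map_fst_pairRep, h1, Matrix.map_one _ (map_zero _) (map_one _)])
      (by rw [map_snd_pairRep, h2, Matrix.map_one _ (map_zero _) (map_one _)]), map_one]
  have hsq : ∀ σ, (ρ σ - 1) * (ρ σ - 1) = 0 → (rE hW N σ - 1) * (rE hW N σ - 1) = 0 →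
      (ρT σ - 1) * (ρT σ - 1) = 0 := fun σ h1 h2 => by
    refine hιinj ?_
    rw [map_mul, map_sub, hι, map_one, map_zero, ← map_one F, ← map_sub F, ← map_mul F,
      show (pairRep hW N ρ σ - 1) * (pairRep hW N ρ σ - 1) = 0 from ext_pair
        ((map_mul (RingHom.fst R (Lam N)).mapMatrix _ _).trans (by
          rw [map_sub, map_one, RingHom.mapMatrix_apply, map_fst_pairRep, h1,
            Matrix.map_zero _ (map_zero _)]))
        ((map_mul (RingHom.snd R (Lam N)).mapMatrix _ _).trans (by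
          rw [map_sub, map_one, RingHom.mapMatrix_apply, map_snd_pairRep, h2,
            Matrix.map_zero _ (map_zero _)])), map_zero]
  obtain ⟨L1, hL1, hρ1⟩ := hc.level
  obtain ⟨L2, hL2, hE2⟩ := hE.level
  haveI := hL1
  haveI := hL2
  have hlevT : ∀ σ : GQ, (∀ x ∈ L1 ⊔ L2, σ x = x) → ρT σ = 1 := fun σ h => hone σ
    (hρ1 σ fun x hx => h x (le_sup_left (b := L2) hx))
    (hE2 σ fun x hx => h x (le_sup_right (a := L1) hx))
  constructor
  · exact ⟨L1 ⊔ L2, inferInstance, hlevT⟩
  · intro σ a b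
    rw [maximalIdeal_carrier, RingHom.mem_ker, map_sub, map_natCast, hres, r2_eq_rb, sub_eq_zero]
    exact (ZMod.natCast_zmod_val (n := 2) (rb hW σ a b)).symm
  · intro q hq h2 hb hK hD P hP σ hσ
    exact hone σ (hc.unr q hq h2 hb hK hD P hP σ hσ) (hE.unr q hq h2 hb hK hD P hP σ hσ)
  · intro σ hσ
    apply Subtype.ext
    rw [hdet', hc.det σ hσ, hE.det σ hσ]
    rfl
  · intro q hq P hP σ hσ
    exact hsq σ (hc.bad q hq P hP σ hσ) (hE.bad q hq P hP σ hσ)
  · intro i σ hσ
    exact hsq σ (hc.aux i σ hσ) (hE.aux i σ hσ)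
  · intro i
    apply Subtype.ext
    rw [SubmonoidClass.coe_pow, htr', Prod.pow_mk, hc.aux_tr i, hE.aux_tr i]
    rfl
  · intro i σ hσ
    refine hιinj ?_
    rw [map_mul, map_mul, hι, hι, ← map_mul F, ← map_mul F]
    refine congrArg F (ext_pair ?_ ?_) <;> rw [← map_mul]
    · rw [map_fst_pairRep, map_mul, hc.tw i σ hσ, ← map_mul, ← map_mul, map_fst_pairRep]
    · rw [map_snd_pairRep, map_mul, hE.tw i σ hσ, ← map_mul, ← map_mul, map_snd_pairRep]
  · -- the eigenvalue at two
    obtain ⟨lam, hlF, hlm, hli, hlid⟩ := hc.two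
    obtain ⟨lamE, heF, hem, hei, heid⟩ := hE.two
    obtain ⟨g₀, hg₀, a, b, hab, hg₀ab⟩ := exists_moves_placeTwo hW
    have huE : IsUnit (rE hW N g₀ a b) := by
      by_contra h
      have := (mem_maximalIdeal_iff_par _).1 ((mem_maximalIdeal _).2 h)
      rw [par_rE, hg₀ab] at this
      exact one_ne_zero this
    have huR : IsUnit (ρ g₀ a b) := by
      by_contra h
      have := sub_mem ((mem_maximalIdeal _).2 h) (par_res hc g₀ a b)
      rw [sub_sub_cancel] at this
      exact (mem_maximalIdeal _).1 this (huE.map _)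
    obtain ⟨u, hu⟩ : IsUnit (chi N D.g2) := by
      refine IsUnit.of_mul_eq_one (chi N D.g2⁻¹) ?_
      show Attach.cyc _ D.g2 * Attach.cyc _ D.g2⁻¹ = 1
      rw [← Attach.cyc_mul, mul_inv_cancel, Attach.cyc_one]
    let lF : carrier hW N ρ :=
      algebraMap (Lam N) (carrier hW N ρ) (((ε : ℤ) : Lam N) * (u⁻¹ : (Lam N)ˣ)) * (ρT D.g2).det
    have hlF' : (lF : R × Lam N) = (lam frobTwo, lamE frobTwo) := by
      have hu1 : algebraMap (Lam N) R (chi N D.g2) * algebraMap (Lam N) R (u⁻¹ : (Lam N)ˣ) = 1 := by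
        rw [← map_mul, ← hu, Units.mul_inv, map_one]
      rw [Subalgebra.coe_mul, hdet', Subalgebra.coe_algebraMap, Prod.algebraMap_apply,
        Prod.mk_mul_mk]
      refine Prod.ext ?_ ?_
      · show algebraMap (Lam N) R _ * (ρ D.g2).det = lam frobTwo
        rw [map_mul, map_intCast, mul_right_comm, ← hlF, mul_assoc, hu1, mul_one]
      · show algebraMap (Lam N) (Lam N) _ * (rE hW N D.g2).det = lamE frobTwo
        rw [Algebra.algebraMap_self, RingHom.id_apply] at heF ⊢
        rw [mul_right_comm, ← heF, mul_assoc, ← hu, Units.mul_inv, mul_one]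
    have hmem : ∀ g ∈ placeTwo.decompositionSubgroup ℚ,
        (lam g, lamE g) ∈ carrier hW N ρ := by
      intro g hg
      obtain ⟨L3, hL3, hchi⟩ := Attach.exists_cyc_level (2 ^ (N + 1))
      haveI := hL3
      haveI := FLTAgent.Common.isAlgebraic_qbar
      haveI := FLTAgent.Common.isGalois_qbar
      let M := IntermediateField.normalClosure ℚ ↥(L1 ⊔ L2 ⊔ L3) (AlgebraicClosure ℚ)
      haveI : Normal ℚ M := normalClosure.normal ℚ _ _
      haveI : IsGalois ℚ M := IsGalois.mk
      haveI : FiniteDimensional ℚ M := normalClosure.is_finiteDimensional ℚ _ _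
      obtain ⟨i, s, hs, hsM⟩ := PT.exists_pow_frob_inertia Nat.prime_two placeTwo_lies
        frobTwo_spec hg M
      set v := s⁻¹ * ((frobTwo ^ i)⁻¹ * g) with hv
      have hvfix : ∀ x ∈ L1 ⊔ L2 ⊔ L3, v x = x := fun x hx => by
        have hxM : x ∈ M := (L1 ⊔ L2 ⊔ L3).le_normalClosure hx
        rw [hv, AlgEquiv.mul_apply, ← hsM x hxM]
        exact s.symm_apply_apply x
      have h1 : ρ v = 1 := hρ1 v fun x hx => hvfix x
        (le_sup_left (b := L3) (le_sup_left (b := L2) hx))
      have h2 : rE hW N v = 1 := hE2 v fun x hx => hvfix x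
        (le_sup_left (b := L3) (le_sup_right (a := L1) hx))
      rw [lam_eq_pow ρ hlm hli hlid hg₀ hab huR hg hs h1,
        lam_eq_pow (rE hW N) hem hei heid hg₀ hab huE hg hs h2, ← Prod.pow_mk, ← hlF']
      exact pow_mem lF.2 i
    let lamT : GQ → carrier hW N ρ := fun g =>
      if hg : g ∈ placeTwo.decompositionSubgroup ℚ then ⟨(lam g, lamE g), hmem g hg⟩ else 1
    have hlamT : ∀ g ∈ placeTwo.decompositionSubgroup ℚ,
        (lamT g : R × Lam N) = (lam g, lamE g) := fun g hg => by
      simp only [lamT]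
      rw [dif_pos hg]
    refine ⟨lamT, ?_, fun g hg h hh => ?_, fun g hg => ?_, fun g hg h hh => ?_⟩
    · apply Subtype.ext
      rw [Subalgebra.coe_mul, Subalgebra.coe_mul,
        hlamT _ frobTwo_spec.mem_decompositionSubgroup, hdet', Subalgebra.coe_algebraMap,
        Prod.algebraMap_apply, Prod.mk_mul_mk, hlF, heF]
      exact Prod.ext (by simp) (by simp)
    · apply Subtype.ext
      rw [Subalgebra.coe_mul, hlamT g hg, hlamT h hh, hlamT _ (mul_mem hg hh), Prod.mk_mul_mk,
        hlm g hg h hh, hem g hg h hh]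
    · apply Subtype.ext
      rw [hlamT g (Local.inertia_mem_decomposition hg), hli g hg, hei g hg]
      rfl
    · refine hιinj ?_
      rw [map_mul, map_sub, map_sub, hι, hι, hιs, hιs, ← map_sub F, ← map_sub F, ← map_mul F,
        Subalgebra.coe_mul, Subalgebra.coe_algebraMap, hlamT g hg, hlamT h hh, map_zero]
      refine (congrArg F (ext_pair (B := 0) ((map_mul (RingHom.fst R (Lam N)).mapMatrix _ _).trans ?_)
        ((map_mul (RingHom.snd R (Lam N)).mapMatrix _ _).trans ?_))).trans (map_zero F)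
      · rw [map_sub, map_sub, RingHom.mapMatrix_apply, RingHom.mapMatrix_apply,
          RingHom.mapMatrix_apply, RingHom.mapMatrix_apply, map_fst_pairRep, map_fst_pairRep,
          Matrix.map_zero _ (map_zero _), ← hlid g hg h hh]
        congr 2 <;> (ext x y; rcases eq_or_ne x y with rfl | hxy <;> simp [*])
      · rw [map_sub, map_sub, RingHom.mapMatrix_apply, RingHom.mapMatrix_apply,
          RingHom.mapMatrix_apply, RingHom.mapMatrix_apply, map_snd_pairRep, map_snd_pairRep,
          Matrix.map_zero _ (map_zero _), ← heid g hg h hh]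
        congr 2 <;> (ext x y; rcases eq_or_ne x y with rfl | hxy <;> simp [*])

end FLTAgent.R2.Pt

end
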