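import Fermat.Agent.R2.PrimesFrame
import Fermat.Agent.R2.PrimesCheb
import Fermat.Agent.Local.API
import Mathlib.NumberTheory.LegendreSymbol.JacobiSymbol
import Mathlib.NumberTheory.LSeries.PrimesInAP

/-!
Area R2, parcel D: elements of prescribed cyclotomic value, prescribed effect on the square roots
of primes and of order three on the two-torsion, and the Frobenius elements attached to them.
-/

set_option autoImplicit false
set_option linter.style.haveILetI false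

noncomputable section

namespace FLTAgent.R2.Layer

open WeierstrassCurve Matrix
open FLTAgent.Attach (cyc)
open scoped Pointwise

local notation "Ω" => AlgebraicClosure ℚ
local notation "GalQ" => AlgebraicClosure ℚ ≃ₐ[ℚ] AlgebraicClosure ℚ
local notation "M₂" => Matrix (Fin 2) (Fin 2) (ZMod 2)

/-- every unit class is a value of the cyclotomic character -/
theorem exists_cyc_eq' (n : ℕ) [NeZero n] {c : ℕ} (hc : c.Coprime n) :
    ∃ σ : GalQ, cyc n σ = (c : ZMod n) := by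
  obtain ⟨ℓ, hℓn, hℓ, hℓc⟩ := Nat.forall_exists_prime_gt_and_modEq n (NeZero.ne n) hc
  obtain ⟨A, σ, hA, hσ⟩ := Alg.exists_place_frobenius ℓ hℓ
  refine ⟨σ, ?_⟩
  rw [Attach.cyc_frobenius hℓ (fun h => by
    have := Nat.le_of_dvd (Nat.pos_of_ne_zero (NeZero.ne n)) h
    omega) hA hσ]
  exact (ZMod.natCast_eq_natCast_iff _ _ _).2 hℓc

theorem apply_sq_eq (σ : GalQ) {x : Ω} {D : ℤ} (hx : x ^ 2 = (D : Ω)) : σ x = x ∨ σ x = -x :=
  sq_eq_sq_iff_eq_or_eq_neg.mp (by rw [← map_pow, hx, map_intCast])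

theorem sqrt_ne_zero {x : Ω} {D : ℤ} (hx : x ^ 2 = (D : Ω)) (hD : D ≠ 0) : x ≠ 0 := fun e => by
  rw [e, zero_pow two_ne_zero] at hx
  exact hD (Int.cast_eq_zero.1 hx.symm)

theorem neg_ne_self {x : Ω} (hx : x ≠ 0) : -x ≠ x := fun e => hx (neg_eq_self.1 e)

/-- some inertia element over an odd prime negates its square roots and fixes those of the integers
prime to it -/
theorem exists_inertia_neg {l : ℕ} (hl : l.Prime) {A : ValuationSubring Ω}
    (hA : A.LiesOverPrime l) :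
    ∃ τ ∈ A.inertiaSubgroupIn ℚ, ∀ x : Ω, x ^ 2 = (l : Ω) → τ x = -x := by
  obtain ⟨r, hr⟩ := IsAlgClosed.exists_pow_nat_eq ((l : ℤ) : Ω) (n := 2) two_pos
  have hr0 : r ≠ 0 := sqrt_ne_zero hr (Int.natCast_ne_zero.2 hl.ne_zero)
  obtain ⟨τ, hτ, hmove⟩ : ∃ τ ∈ A.inertiaSubgroupIn ℚ, τ r ≠ r := by
    by_contra hno
    push Not at hno
    obtain ⟨i, hi⟩ := SS2.exists_zpow_valuation_T hl hA (SS2.mem_inertiaFixed.mpr hno) hr0
    have h := congrArg (· ^ 2) hi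
    simp only [← map_pow, hr, Int.cast_natCast] at h
    rw [← zpow_natCast _ 2, ← _root_.zpow_mul] at h
    have h2 := (zpow_right_inj₀ (zero_lt_iff.mpr ((Valuation.ne_zero_iff _).mpr
      (Nat.cast_ne_zero.mpr hl.ne_zero))) (ne_of_lt hA)).mp
        ((zpow_one (A.valuation (l : Ω))).trans h)
    omega
  refine ⟨τ, hτ, fun x hx => ?_⟩
  have hneg := (apply_sq_eq τ hr).resolve_left hmove
  rcases sq_eq_sq_iff_eq_or_eq_neg.mp (show x ^ 2 = r ^ 2 by rw [hx, hr, Int.cast_natCast]) with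
    rfl | rfl
  · exact hneg
  · rw [map_neg, hneg]

variable {W : WeierstrassCurve ℤ}

/-- inertia at an odd prime where `Δ` has odd valuation acts on `√Δ` as on `√l` -/
theorem move_sqrt_delta (hΔ : W.Δ ≠ 0) {l : ℕ} (hl : l.Prime) (hl2 : l ≠ 2)
    (hodd : Odd (padicValInt l W.Δ)) {A : ValuationSubring Ω} (hA : A.LiesOverPrime l)
    {τ : GalQ} (hτ : τ ∈ A.inertiaSubgroupIn ℚ) {r : Ω} (hr : r ^ 2 = (l : Ω)) (hneg : τ r = -r) :
    τ (TH2.sqrtΔ W) ≠ TH2.sqrtΔ W := by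
  set v := padicValInt l W.Δ
  haveI : Fact l.Prime := ⟨hl⟩
  obtain ⟨m, hm⟩ : ((l : ℤ) ^ v) ∣ W.Δ := padicValInt_dvd W.Δ
  have hlm : ¬ (l : ℤ) ∣ m := by
    rintro ⟨e, rfl⟩
    have h1 : (l : ℤ) ^ (v + 1) ∣ W.Δ := ⟨e, by rw [hm, pow_succ]; ring⟩
    rcases (padicValInt_dvd_iff _ _).1 h1 with h1 | h1
    · exact hΔ h1
    · omega
  have hr0 : r ≠ 0 := sqrt_ne_zero (D := (l : ℤ)) (by rw [hr, Int.cast_natCast])
    (Int.natCast_ne_zero.2 hl.ne_zero)
  set s := TH2.sqrtΔ W / r ^ v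
  have hs : s ^ 2 = (m : Ω) := by
    rw [div_pow, TH2.sqrtΔ_sq, hm, Int.cast_mul, Int.cast_pow, Int.cast_natCast, ← pow_mul,
      mul_comm v 2, pow_mul, hr]
    exact mul_div_cancel_left₀ _ (pow_ne_zero _ (Nat.cast_ne_zero.2 hl.ne_zero))
  have hfix : τ s = s := TH2.inertia_fix_sqrt hl hA hτ hs hlm (fun e => absurd e hl2)
  have e : TH2.sqrtΔ W = s * r ^ v := (div_mul_cancel₀ _ (pow_ne_zero _ hr0)).symm
  rw [e, map_mul, hfix, map_pow, hneg, hodd.neg_pow, mul_neg, ← e]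
  exact neg_ne_self (sqrt_ne_zero (TH2.sqrtΔ_sq W) hΔ)

variable (T : MLT.TateBasis W 2) (hΔ : W.Δ ≠ 0)

theorem sign_or_three : ∀ X : M₂, X.det = 1 → (X * X = 1 ∧ X ≠ 1) ∨ X = 1 ∨ X.trace = 1 := by
  decide

theorem det_red (σ : GalQ) : (red T hΔ σ).det = 1 := det_one (map_mul_map_inv (red T hΔ) σ)

/-- fixing `√Δ` is having no transposition image -/
theorem fixes_iff (σ : GalQ) :
    σ (TH2.sqrtΔ W) = TH2.sqrtΔ W ↔ (red T hΔ σ = 1 ∨ (red T hΔ σ).trace = 1) := by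
  have key : ∀ X : M₂, X * X = 1 → X ≠ 1 → ¬ (X = 1 ∨ X.trace = 1) := by decide
  constructor
  · intro h
    rcases sign_or_three _ (det_red T hΔ σ) with ⟨hs, hne⟩ | h1 | h1
    · exfalso
      obtain ⟨D⟩ := TH2.nonempty_trio hΔ
      have hp1 : D.perm σ ≠ 1 := fun e =>
        hne ((red_eq_one_iff T hΔ σ).2 ((D.fixesTwo_iff_perm hΔ σ).2 e))
      have hp2 : D.perm σ * D.perm σ = 1 := by
        rw [← TH2.Trio.perm_mul]
        exact (D.fixesTwo_iff_perm hΔ _).1 ((red_eq_one_iff T hΔ _).1 (by rw [map_mul, hs]))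
      have hev := (D.fixes_sqrt_iff hΔ σ).1 h
      rcases TH2.perm_three_cases (D.perm σ) with e | e | e | e | e | e <;>
        rw [e] at hp1 hp2 hev <;> revert hp1 hp2 hev <;> decide
    · exact Or.inl h1
    · exact Or.inr h1
  · intro h
    by_contra hmove
    obtain ⟨hs, hne⟩ := red_transposition T hΔ hmove
    exact key _ hs hne h

/-- correction by a commutator to order three on the two-torsion -/
theorem exists_three (hneg : W.Δ < 0) (hirr : W.ModRepIsIrreducible 2) {σ : GalQ}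
    (hσ : σ (TH2.sqrtΔ W) = TH2.sqrtΔ W) :
    ∃ a b : GalQ, (red T hΔ (σ * (a * b * a⁻¹ * b⁻¹))).trace = 1 := by
  rcases (fixes_iff T hΔ σ).1 hσ with h1 | h1
  swap
  · exact ⟨1, 1, by simpa using h1⟩
  obtain ⟨hc, hc1⟩ := red_transposition T hΔ (conj_sqrt hneg)
  have hsurj := surjective_of_transposition (red T hΔ) hc hc1 (no_fixed T hΔ hirr)
  obtain ⟨g, g', hg, -⟩ := exists_three_cycle
  obtain ⟨a, ha⟩ := hsurj !![0, 1; 1, 1] !![1, 1; 1, 0] (by decide)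
  obtain ⟨a', ha'⟩ := hsurj !![1, 1; 1, 0] !![0, 1; 1, 1] (by decide)
  obtain ⟨b, hb⟩ := hsurj !![0, 1; 1, 0] !![0, 1; 1, 0] (by decide)
  refine ⟨a, b, ?_⟩
  have e : red T hΔ a⁻¹ = !![1, 1; 1, 0] := by
    refine left_inv_eq_right_inv (a := !![0, 1; 1, 1]) ?_ (by decide)
    rw [← ha, ← map_mul, inv_mul_cancel, map_one]
  have e' : red T hΔ b⁻¹ = !![0, 1; 1, 0] := by
    refine left_inv_eq_right_inv (a := !![0, 1; 1, 0]) ?_ (by decide)
    rw [← hb, ← map_mul, inv_mul_cancel, map_one]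
  simp only [map_mul, h1, one_mul, ha, hb, e, e']
  decide

/-- an element of prescribed cyclotomic value, of order three on the two-torsion -/
theorem exists_three_cyc (hW : IsAnchor W) (n : ℕ) [NeZero n] {c : ℕ} (hc : c.Coprime n)
    (hbig : ∃ l : ℕ, l.Prime ∧ l ≠ 2 ∧ ¬ l ∣ n ∧ (l : ℤ) ∣ W.Δ) :
    ∃ σ : GalQ, cyc n σ = (c : ZMod n) ∧ (red T hW.neg.ne σ).trace = 1 := by
  obtain ⟨σ₀, hσ₀⟩ := exists_cyc_eq' n hc
  obtain ⟨l, hl, hl2, hln, hld⟩ := hbig
  obtain ⟨A, -, hA, -⟩ := Alg.exists_place_frobenius l hl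
  obtain ⟨τ, hτ, hneg⟩ := exists_inertia_neg hl hA
  obtain ⟨r, hr⟩ := IsAlgClosed.exists_pow_nat_eq ((l : ℕ) : Ω) (n := 2) two_pos
  have hmove := move_sqrt_delta hW.neg.ne hl hl2 (hW.odd_v l hl hl2 hld) hA hτ hr (hneg r hr)
  obtain ⟨σ₁, hσ₁, hfix⟩ : ∃ σ₁, cyc n σ₁ = (c : ZMod n) ∧ σ₁ (TH2.sqrtΔ W) = TH2.sqrtΔ W := by
    rcases apply_sq_eq σ₀ (TH2.sqrtΔ_sq W) with h | h
    · exact ⟨σ₀, hσ₀, h⟩
    · refine ⟨σ₀ * τ, by rw [Attach.cyc_mul, Attach.cyc_inertia hl hln hA hτ, mul_one, hσ₀], ?_⟩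
      rw [AlgEquiv.mul_apply, (apply_sq_eq τ (TH2.sqrtΔ_sq W)).resolve_left hmove, map_neg, h,
        neg_neg]
  obtain ⟨a, b, hab⟩ := exists_three T hW.neg.ne hW.neg hW.irr hfix
  refine ⟨_, ?_, hab⟩
  have hinv : ∀ x : GalQ, cyc n x * cyc n x⁻¹ = 1 := fun x => by
    rw [← Attach.cyc_mul, mul_inv_cancel, Attach.cyc_one]
  rw [Attach.cyc_mul, Attach.cyc_mul, Attach.cyc_mul, Attach.cyc_mul, hσ₁]
  linear_combination (c : ZMod n) * cyc n b * cyc n b⁻¹ * hinv a + (c : ZMod n) * hinv b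

/-- Frobenius acts on a square root by the Legendre symbol -/
theorem frob_sqrt {q : ℕ} [Fact q.Prime] (hq2 : q ≠ 2) {A : ValuationSubring Ω}
    (hA : A.LiesOverPrime q) {φ : GalQ} (hφ : A.IsFrobeniusAt φ q) {D : ℤ} (hD : ¬ (q : ℤ) ∣ D)
    {x : Ω} (hx : x ^ 2 = (D : Ω)) : φ x = ((legendreSym q D : ℤ) : Ω) * x := by
  have hq : q.Prime := Fact.out
  set e := legendreSym q D
  have he : (e : Ω) = 1 ∨ (e : Ω) = -1 := by
    rcases legendreSym.eq_one_or_neg_one q (a := D)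
      (fun h => hD ((ZMod.intCast_zmod_eq_zero_iff_dvd D q).1 h)) with h | h <;> simp [e, h]
  have hvD : A.valuation x = 1 := by
    have : A.valuation x ^ 2 = 1 := by rw [← map_pow, hx]; exact Local.val_int_eq_one hA hq hD
    exact (pow_eq_one_iff.mp this).resolve_right two_ne_zero
  have hxA : x ∈ A := (A.valuation_le_one_iff _).1 hvD.le
  have h1 : A.valuation (φ x - x ^ q) < 1 :=
    (A.mem_nonunits_iff).1 (Chebotarev.frob_sub_pow_mem hφ hxA)
  have h2 : A.valuation (x ^ q - (e : Ω) * x) < 1 := by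
    obtain ⟨j, hj⟩ := hq.odd_of_ne_two hq2
    have hdiv : (q : ℤ) ∣ D ^ (q / 2) - e := by
      rw [← ZMod.intCast_zmod_eq_zero_iff_dvd, Int.cast_sub, Int.cast_pow, legendreSym.eq_pow,
        sub_self]
    have hj' : q / 2 = j := by omega
    rw [hj'] at hdiv
    have hfac : x ^ q - (e : Ω) * x = ((D ^ j - e : ℤ) : Ω) * x := by
      push_cast
      rw [← hx, ← pow_mul, hj]; ring
    rw [hfac, map_mul, hvD, mul_one]
    exact (Local.val_int_lt_one_iff hA hq _).2 hdiv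
  have h3 : A.valuation (φ x - (e : Ω) * x) < 1 := by
    rw [show φ x - (e : Ω) * x = (φ x - x ^ q) + (x ^ q - (e : Ω) * x) by ring]
    exact Valuation.map_add_lt _ h1 h2
  by_contra hne
  have hopp : φ x - (e : Ω) * x = -(((2 : ℤ) : Ω) * ((e : Ω) * x)) := by
    push_cast
    rcases apply_sq_eq φ hx with h | h <;> rcases he with he | he <;>
      rw [h, he] at hne ⊢ <;> first | ring1 | (exact absurd (by ring1) hne)
  have hv2 : A.valuation (((2 : ℤ) : Ω)) = 1 := Local.val_int_eq_one hA hq (fun h => hq2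
    ((Nat.prime_dvd_prime_iff_eq hq Nat.prime_two).1 (Int.natCast_dvd_natCast.1 h)))
  rw [hopp, Valuation.map_neg, map_mul, map_mul, hvD, hv2] at h3
  rcases he with he | he <;> simp [he] at h3

end FLTAgent.R2.Layer

end
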