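import Fermat.Agent.R2.RecipLaw

/-!
R2, parcel C: the product formula for the symbols of a cubic field, by the linear trick.
-/

set_option autoImplicit false
set_option linter.unusedSectionVars false
set_option linter.style.haveILetI false

noncomputable section

open CategoryTheory groupCohomology IntermediateField

namespace FLTAgent.R2.Recip

open FLTAgent.PT

/-- the algebraic closure of `ℚ` -/
local notation "Qb" => AlgebraicClosure ℚ

variable {H : Subgroup GQ}

theorem exists_rat_of_fixed {z : Qb} (h : ∀ g : GQ, g z = z) : ∃ r : ℚ, (r : Qb) = z := by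
  haveI := FLTAgent.Common.isGalois_qbar
  have hmem : z ∈ (⊥ : IntermediateField ℚ Qb) :=
    (InfiniteGalois.mem_bot_iff_fixed (k := ℚ) (K := Qb) z).2 h
  obtain ⟨r, hr⟩ := IntermediateField.mem_bot.1 hmem
  exact ⟨r, by rw [← hr, eq_ratCast]⟩

theorem exists_translate (x : GQ ⧸ H) :
    ∃ a : GQ, a • ((1 : GQ) : GQ ⧸ H) = x :=
  ⟨x.out, by rw [MulAction.Quotient.smul_mk, smul_eq_mul, mul_one]; exact x.out_eq'⟩

/-- every class is the class of an invariant function -/
theorem exists_kU (hH : IsOpn H) (c : cH1 (MonoidHom.id GQ) (N2 H)) :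
    ∃ U : GQ ⧸ H → Qb, IsEU U ∧ kU hH U = c := by
  obtain ⟨z, rfl⟩ := Submodule.mkQ_surjective _ c
  have hz : ∀ g h x, (z.1 (g * h) x : ZMod 2) = (z.1 h (g⁻¹ • x) : ZMod 2) + z.1 g x := fun g h x => by
    have e := congrFun ((mem_cocycles₁_iff _).1 z.2.1 g h) x
    rw [e, Pi.add_apply, N2_rho]
  set x0 : GQ ⧸ H := ((1 : GQ) : GQ ⧸ H)
  have hH0 : ∀ h : H, (h : GQ)⁻¹ • x0 = x0 := fun h => by
    rw [MulAction.Quotient.smul_mk, QuotientGroup.eq]
    simp
  obtain ⟨F, hF, hlev⟩ := z.2.2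
  obtain ⟨t, ht0, ht⟩ := hilbert90_qbar (r := H.subtype) (u := fun h => sgn (z.1 (h : GQ) x0))
    (fun h => sgn_ne _) (fun g h => by
      show sgn (z.1 ((g : GQ) * (h : GQ)) x0 : ZMod 2) = _ * (g : GQ) (sgn _)
      rw [map_sgn, hz, hH0 g, sgn_add, mul_comm])
    ⟨F, hF, fun g s hs => by
      show sgn (z.1 ((g : GQ) * (s : GQ)) x0) = sgn (z.1 (g : GQ) x0)
      rw [hlev _ _ (show (s : GQ) ∈ F.fixingSubgroup from hs)]⟩
  choose a ha using fun x : GQ ⧸ H => exists_translate x
  let s : GQ ⧸ H → Qb := fun x => sgn (z.1 (a x) x) * a x t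
  have hs0 : ∀ x, s x ≠ 0 := fun x => mul_ne_zero (sgn_ne _) (by simpa using ht0)
  have hrel : ∀ g x, g (s (g⁻¹ • x)) = sgn (z.1 g x) * s x := by
    intro g x
    set y := g⁻¹ • x with hy
    have hmem : (a x)⁻¹ * (g * a y) ∈ H := by
      rw [← QuotientGroup.eq]
      have e1 : (a x) • x0 = (g * a y) • x0 := by
        rw [ha, mul_smul, ha, hy, smul_inv_smul]
      simpa [x0, MulAction.Quotient.smul_mk] using e1
    obtain ⟨h, hh⟩ : ∃ h : H, g * a y = a x * (h : GQ) := ⟨⟨_, hmem⟩, (mul_inv_cancel_left _ _).symm⟩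
    show g (sgn (z.1 (a y) y) * a y t) = _
    rw [map_mul, map_sgn, ← AlgEquiv.mul_apply, hh, AlgEquiv.mul_apply,
      show (h : GQ) t = _ from ht h, map_mul, map_sgn, ← mul_assoc, ← sgn_add]
    show _ = sgn (z.1 g x : ZMod 2) * (sgn (z.1 (a x) x : ZMod 2) * a x t)
    rw [← mul_assoc, ← sgn_add]
    have e : (z.1 (a y) y : ZMod 2) + z.1 g x = (z.1 (h : GQ) x0 : ZMod 2) + z.1 (a x) x := by
      have e1 := hz g (a y) x
      have e2 := hz (a x) (h : GQ) x
      rw [← hy] at e1
      rw [show (a x)⁻¹ • x = x0 by rw [inv_smul_eq_iff]; exact (ha x).symm, ← hh] at e2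
      exact e1.symm.trans e2
    refine congrArg (fun w => sgn w * a x t) ?_
    have two : ((2 : ℕ) : ZMod 2) = 0 := rfl
    push_cast at two
    linear_combination e + ((z.1 (h : GQ) x0 : ZMod 2) - (z.1 g x : ZMod 2)) * two
  have hs : IsRoot s := ⟨hs0, fun g x => by rw [hrel, mul_pow, sgn_sq, one_mul]⟩
  have hU : IsEU fun x => s x ^ 2 :=
    ⟨fun x => pow_ne_zero _ (hs0 x), fun g x => by rw [map_pow, hs.eqv]⟩
  refine ⟨_, hU, ?_⟩
  rw [kU_eq hH hU hs fun x => rfl, kcl]
  refine congrArg (h1mk _ _) (Subtype.ext (funext fun g => funext fun x => kap_unique hs (hrel g x)))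

variable [Fintype (GQ ⧸ H)]

/-- the rational classes among the classes of `H` -/
def constCl (hH : IsOpn H) : cH1 (MonoidHom.id GQ) M2 →ₗ[ZMod 2] cH1 (MonoidHom.id GQ) (N2 H) :=
  h1push (MonoidHom.id GQ) (indConst H M2) fun _ _ => rfl

theorem kU_const (hH : IsOpn H) {r : ℚ} (hr : r ≠ 0) :
    kU hH (fun _ => (r : Qb)) = constCl hH (kq r) := by
  rw [kU_eq hH (isEU_const hr) (isRoot_of_sq (isEU_const hr) fun _ => qrt_sq r) fun _ => qrt_sq r,
    kq_eq (qrt_sq r) hr, kcl]
  refine congrArg (h1mk _ _) (Subtype.ext (funext fun g => funext fun x => ?_))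
  exact kap_unique (s := fun _ : GQ ⧸ H => qrt r) (g := g) (x := x)
    (isRoot_of_sq (isEU_const hr) fun _ => qrt_sq r) (kapQ_spec (qrt_sq r) g)

/-- projection formula with rational norm -/
theorem gSym_const (hH : IsOpn H) (c : cH1 (MonoidHom.id GQ) M2) {U : GQ ⧸ H → Qb} (hU : IsEU U) :
    ∃ s : ℚ, s ≠ 0 ∧ gSym hH (constCl hH c) (kU hH U) = qSym c (kq s) := by
  set w := rootOf U
  have hw : IsRoot w := isRoot_of_sq hU (rootOf_sq U)
  obtain ⟨s, hs⟩ := exists_rat_of_fixed (z := ∏ x, U x) fun g => by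
    rw [map_prod]
    exact Fintype.prod_equiv (MulAction.toPerm g) _ _ fun x => by
      rw [MulAction.toPerm_apply, ← hU.eqv g (g • x), inv_smul_smul]
  have hs0 : s ≠ 0 := fun e => Finset.prod_ne_zero_iff.2 (fun x _ => hU.ne x)
    (by rw [← hs, e, Rat.cast_zero])
  have ht : (∏ x, w x) ^ 2 = (s : Qb) := by
    rw [← Finset.prod_pow, hs]
    exact Finset.prod_congr rfl fun x _ => rootOf_sq U x
  refine ⟨s, hs0, ?_⟩
  obtain ⟨z, rfl⟩ := Submodule.mkQ_surjective _ c
  rw [kU_eq hH hU hw (rootOf_sq U), kq_eq ht hs0, kcl]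
  refine congrArg (h2mk _ _) (Subtype.ext (funext fun gh => ?_))
  obtain ⟨g, h⟩ := gh
  show (∑ x, (z.1 g : ZMod 2) * ((N2 H).ρ g (kap w h) x : ZMod 2)) =
    (z.1 g : ZMod 2) * (M2.ρ g (kapQ (∏ x, w x) h) : ZMod 2)
  rw [mu_two_rho, ← Finset.mul_sum]
  congr 1
  rw [Finset.sum_congr rfl fun x _ => N2_rho g (kap w h) x,
    show (∑ x, (kap w h (g⁻¹ • x) : ZMod 2)) = ∑ x, (kap w h x : ZMod 2) from
      Fintype.sum_equiv (MulAction.toPerm g⁻¹) _ _ fun x => rfl]
  refine (kapQ_unique ht hs0 ?_).symm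
  rw [map_prod]
  have e1 : ∀ S : Finset (GQ ⧸ H),
      sgn (∑ x ∈ S, (kap w h x : ZMod 2)) = ∏ x ∈ S, sgn (kap w h x) := by
    intro S
    classical
    induction S using Finset.induction_on with
    | empty => simp
    | insert x S hx ih => rw [Finset.sum_insert hx, Finset.prod_insert hx, sgn_add, ih]
  rw [e1, ← Finset.prod_mul_distrib]
  exact Fintype.prod_equiv (MulAction.toPerm h) _ _ fun x => by
    rw [MulAction.toPerm_apply, ← kap_spec hw, inv_smul_smul]

/-- the classes with vanishing sum of invariants -/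
def Good (hH : IsOpn H) (a b : cH1 (MonoidHom.id GQ) (N2 H)) : Prop := totInv (gSym hH a b) = 0

theorem good_const_left (hH : IsOpn H) {r : ℚ} (hr : r ≠ 0) {V : GQ ⧸ H → Qb} (hV : IsEU V) :
    Good hH (kU hH fun _ => (r : Qb)) (kU hH V) := by
  obtain ⟨s, hs, e⟩ := gSym_const hH (kq r) hV
  rw [Good, kU_const hH hr, e]
  exact law hr hs

theorem good_const_right (hH : IsOpn H) {r : ℚ} (hr : r ≠ 0) {V : GQ ⧸ H → Qb} (hV : IsEU V) :
    Good hH (kU hH V) (kU hH fun _ => (r : Qb)) := by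
  rw [Good, gSym_flip]
  exact good_const_left hH hr hV

theorem good_self (hH : IsOpn H) {U : GQ ⧸ H → Qb} (hU : IsEU U) (h1 : ∀ x, U x ≠ 1) :
    Good hH (kU hH U) (kU hH U) := by
  have hn : IsEU fun x => -U x :=
    ⟨fun x => neg_ne_zero.2 (hU.ne x), fun g x => by rw [map_neg, hU.eqv]⟩
  have hc : IsEU fun _ : GQ ⧸ H => ((-1 : ℚ) : Qb) := isEU_const (by norm_num)
  have e : kU hH U = kU hH (fun x => -U x) + kU hH (fun _ => ((-1 : ℚ) : Qb)) := by
    rw [← kU_mul hH hn hc]
    congr 1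
    funext x
    push_cast
    ring
  show totInv (gSym hH (kU hH U) (kU hH U)) = 0
  conv_lhs => arg 2; arg 2; rw [e]
  rw [map_add, map_add, neg_self hH hU h1, map_zero, zero_add]
  exact good_const_right hH (by norm_num) hU

/-- a linear function -/
theorem good_linear (hH : IsOpn H) {U : GQ ⧸ H → Qb} (hU : IsEU U)
    (hirr : ∀ (x : GQ ⧸ H) (r : ℚ), U x ≠ (r : Qb)) (a b : ℚ) (hab : a ≠ 0 ∨ b ≠ 0) :
    Good hH (kU hH U) (kU hH fun x => (a : Qb) + (b : Qb) * U x) := by
  have h1 : ∀ x, U x ≠ 1 := fun x e => hirr x 1 (by rw [e, Rat.cast_one])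
  rcases eq_or_ne b 0 with rfl | hb
  · have ha : a ≠ 0 := hab.resolve_right (not_not.2 rfl)
    simpa using good_const_right hH ha hU
  rcases eq_or_ne a 0 with rfl | ha
  · rw [show (fun x => ((0 : ℚ) : Qb) + (b : Qb) * U x) = fun x => (b : Qb) * U x from
      funext fun x => by simp, kU_mul hH (isEU_const hb) hU, Good, map_add, map_add,
      show totInv (gSym hH (kU hH U) (kU hH fun _ => (b : Qb))) = 0 from good_const_right hH hb hU,
      show totInv (gSym hH (kU hH U) (kU hH U)) = 0 from good_self hH hU h1, add_zero]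
  set c : ℚ := -b / a with hc
  have hc0 : c ≠ 0 := div_ne_zero (neg_ne_zero.2 hb) ha
  have hne : ∀ x, (a : Qb) + (b : Qb) * U x ≠ 0 := fun x e => hirr x (-a / b) (by
    have hb' : (b : Qb) ≠ 0 := Rat.cast_ne_zero.2 hb
    push_cast
    field_simp
    linear_combination e)
  have hl : IsEU fun x => (a : Qb) + (b : Qb) * U x :=
    ⟨hne, fun g x => by rw [map_add, map_mul, map_ratCast, map_ratCast, hU.eqv]⟩
  have ha' : (a : Qb) ≠ 0 := Rat.cast_ne_zero.2 ha
  have hW : IsEU fun x => (c : Qb) * U x := (isEU_const hc0).mul hU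
  have hW' : IsEU fun x => 1 - (c : Qb) * U x :=
    ⟨fun x e => hne x (by
      rw [hc] at e; push_cast at e; field_simp at e; linear_combination e),
      fun g x => by rw [map_sub, map_one, map_mul, map_ratCast, hU.eqv]⟩
  have e : kU hH (fun x => (a : Qb) + (b : Qb) * U x) =
      kU hH (fun _ => (a : Qb)) + kU hH (fun x => 1 - (c : Qb) * U x) := by
    rw [← kU_mul hH (isEU_const ha) hW']
    congr 1
    funext x
    rw [hc]
    push_cast
    field_simp
    ring
  have hst := congrArg totInv (steinberg hH hW hW')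
  rw [kU_mul hH (isEU_const hc0) hU, map_add, LinearMap.add_apply, map_add, map_zero,
    show totInv (gSym hH (kU hH fun _ => (c : Qb)) (kU hH fun x => 1 - (c : Qb) * U x)) = 0 from
      good_const_left hH hc0 hW', zero_add] at hst
  rw [Good, e, map_add, map_add,
    show totInv (gSym hH (kU hH U) (kU hH fun _ => (a : Qb))) = 0 from good_const_right hH ha hU,
    zero_add]
  exact hst

/-- **the product formula over a cubic field** -/
theorem totInv_gSym (hH : IsOpn H) (h3 : Nat.card (GQ ⧸ H) = 3)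
    (a b : cH1 (MonoidHom.id GQ) (N2 H)) : totInv (gSym hH a b) = 0 := by
  obtain ⟨U, hU, rfl⟩ := exists_kU hH a
  obtain ⟨V, hV, rfl⟩ := exists_kU hH b
  set x0 : GQ ⧸ H := ((1 : GQ) : GQ ⧸ H) with hx0
  choose t ht using fun x : GQ ⧸ H => exists_translate x
  have hev : ∀ {W : GQ ⧸ H → Qb}, IsEU W → ∀ x, W x = t x (W x0) := fun {W} hW x => by
    conv_lhs => rw [← hW.eqv (t x) x]
    rw [show (t x)⁻¹ • x = x0 by rw [inv_smul_eq_iff]; exact (ht x).symm]
  by_cases hr : ∃ (x : GQ ⧸ H) (r : ℚ), U x = (r : Qb)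
  · obtain ⟨x, r, hx⟩ := hr
    have h0 : U x0 = (r : Qb) := (t x).injective (by rw [← hev hU, hx, map_ratCast])
    have hconst : U = fun _ => (r : Qb) := funext fun y => by rw [hev hU y, h0, map_ratCast]
    have hr0 : r ≠ 0 := fun e => hU.ne x (by rw [hx, e, Rat.cast_zero])
    rw [hconst]
    exact good_const_left hH hr0 hV
  push Not at hr
  -- four elements of the cubic field are dependent
  have hfix : ∀ {W : GQ ⧸ H → Qb}, IsEU W → W x0 ∈ Fld H := fun {W} hW =>
    (IntermediateField.mem_fixedField_iff _ _).2 fun h hh => by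
      conv_lhs => rw [show x0 = h⁻¹ • x0 by
        rw [hx0, MulAction.Quotient.smul_mk, QuotientGroup.eq]; simpa using hh]
      exact hW.eqv h x0
  let u : Fld H := ⟨U x0, hfix hU⟩
  let v : Fld H := ⟨V x0, hfix hV⟩
  let f : Fin 4 → Fld H := ![1, u, v, u * v]
  haveI := hH.finite_fld
  have hdep : ¬LinearIndependent ℚ f := fun hli => by
    have h := hli.fintype_card_le_finrank
    rw [Fintype.card_fin, ← card_quotient hH, h3] at h
    omega
  rw [Fintype.linearIndependent_iff] at hdep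
  push Not at hdep
  obtain ⟨c, hc, i, hi⟩ := hdep
  have hc0 : (c 0 : Qb) + (c 1 : Qb) * U x0 + (c 2 : Qb) * V x0 + (c 3 : Qb) * (U x0 * V x0) = 0 := by
    have h := congrArg (fun w : Fld H => (w : Qb)) hc
    simp only [f, Fin.sum_univ_four, Matrix.cons_val_zero, Matrix.cons_val_one, Matrix.cons_val,
      u, v] at h
    push_cast [Rat.smul_def] at h
    linear_combination h
  have hrel : ∀ x, (c 0 : Qb) + (c 1 : Qb) * U x + (c 2 : Qb) * V x + (c 3 : Qb) * (U x * V x) = 0 :=
    fun x => by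
      have h := congrArg (t x) hc0
      rw [map_add, map_add, map_add, map_mul, map_mul, map_mul, map_mul, map_ratCast, map_ratCast,
        map_ratCast, map_ratCast, ← hev hU, ← hev hV, map_zero] at h
      exact h
  have hcd : c 2 ≠ 0 ∨ c 3 ≠ 0 := by
    by_contra hh
    push Not at hh
    obtain ⟨h2, h3'⟩ := hh
    rw [h2, h3', Rat.cast_zero, zero_mul, zero_mul, add_zero, add_zero] at hc0
    rcases eq_or_ne (c 1) 0 with h1 | h1
    · rw [h1, Rat.cast_zero, zero_mul, add_zero, Rat.cast_eq_zero] at hc0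
      fin_cases i
      · exact hi hc0
      · exact hi h1
      · exact hi h2
      · exact hi h3'
    · refine hr x0 (-c 0 / c 1) ?_
      have : (c 1 : Qb) ≠ 0 := Rat.cast_ne_zero.2 h1
      push_cast
      field_simp
      linear_combination hc0
  have hden : ∀ x, (c 2 : Qb) + (c 3 : Qb) * U x ≠ 0 := fun x e => by
    rcases eq_or_ne (c 3) 0 with h3' | h3'
    · rw [h3', Rat.cast_zero, zero_mul, add_zero, Rat.cast_eq_zero] at e
      exact hcd.elim (fun h => h e) fun h => h h3'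
    · refine hr x (-c 2 / c 3) ?_
      have : (c 3 : Qb) ≠ 0 := Rat.cast_ne_zero.2 h3'
      push_cast
      field_simp
      linear_combination e
  have hnum : ∀ x, ((-c 0 : ℚ) : Qb) + ((-c 1 : ℚ) : Qb) * U x = V x * ((c 2 : Qb) + (c 3 : Qb) * U x) :=
    fun x => by push_cast; linear_combination -hrel x
  have hab : -c 0 ≠ 0 ∨ -c 1 ≠ 0 := by
    by_contra hh
    push Not at hh
    have e := hnum x0
    rw [hh.1, hh.2] at e
    simp only [Rat.cast_zero, zero_mul, add_zero] at e
    exact mul_ne_zero (hV.ne x0) (hden x0) e.symm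
  have hd : IsEU fun x => (c 2 : Qb) + (c 3 : Qb) * U x :=
    ⟨hden, fun g x => by rw [map_add, map_mul, map_ratCast, map_ratCast, hU.eqv]⟩
  have g1 := good_linear hH hU (fun x r => hr x r) (-c 0) (-c 1) hab
  have g2 := good_linear hH hU (fun x r => hr x r) (c 2) (c 3) hcd
  rw [funext hnum, kU_mul hH hV hd, Good, map_add, map_add,
    show totInv (gSym hH (kU hH U) (kU hH fun x => (c 2 : Qb) + (c 3 : Qb) * U x)) = 0 from g2,
    add_zero] at g1
  exact g1

end FLTAgent.R2.Recip
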