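import Fermat.Agent.PT.ToolAPI
import Fermat.Agent.PT.Local.Cup
import Fermat.Agent.PT.Global.Dict
import Mathlib.Algebra.Field.ZMod

/-!
R2, parcel C: the cohomological symbols with values in `H²(μ₂)`: the trace pairing on functions on
cosets, Kummer classes of invariant functions, the Steinberg relation.
-/

set_option autoImplicit false
set_option linter.unusedSectionVars false
set_option linter.style.haveILetI false

noncomputable section

open CategoryTheory groupCohomology IntermediateField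

namespace FLTAgent.R2.Recip

open FLTAgent.PT

/-- the algebraic closure of `ℚ` -/
local notation "Qb" => AlgebraicClosure ℚ

/-- `μ₂` -/
abbrev M2 : Rep.{0} (ZMod 2) GQ := mu 2

theorem cyc_two (g : GQ) : ExtCitation.cycloChar 2 g = 1 := Subsingleton.elim _ _

theorem mu_two_rho (g : GQ) (a : M2) : M2.ρ g a = a := by
  simp [Representation.twist_apply, cyc_two]

/-- the sign of an element of `𝔽₂` -/
def sgn (a : ZMod 2) : Qb := if a = 0 then 1 else -1

@[simp] theorem sgn_zero : sgn 0 = 1 := if_pos rfl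

@[simp] theorem sgn_one : sgn 1 = -1 := if_neg one_ne_zero

theorem cases_two (a : ZMod 2) : a = 0 ∨ a = 1 := by revert a; decide

theorem sgn_add (a b : ZMod 2) : sgn (a + b) = sgn a * sgn b := by
  rcases cases_two a with rfl | rfl <;> rcases cases_two b with rfl | rfl <;>
    simp [show (1 : ZMod 2) + 1 = 0 by decide]

theorem sgn_ne (a : ZMod 2) : sgn a ≠ 0 := by
  rcases cases_two a with rfl | rfl <;> simp

theorem sgn_inj {a b : ZMod 2} {x : Qb} (hx : x ≠ 0) (h : sgn a * x = sgn b * x) : a = b := by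
  have h' := mul_right_cancel₀ hx h
  rcases cases_two a with rfl | rfl <;> rcases cases_two b with rfl | rfl
  · rfl
  · exact absurd h' (by norm_num)
  · exact absurd h' (by norm_num)
  · rfl

theorem map_sgn (g : GQ) (a : ZMod 2) : g (sgn a) = sgn a := by
  rcases cases_two a with rfl | rfl <;> simp

theorem sgn_sq (a : ZMod 2) : sgn a ^ 2 = 1 := by
  rcases cases_two a with rfl | rfl <;> simp

theorem exists_sgn {x y : Qb} (h : x ^ 2 = y ^ 2) : ∃ a, x = sgn a * y := by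
  rcases sq_eq_sq_iff_eq_or_eq_neg.1 h with e | e
  · exact ⟨0, by rw [sgn_zero, one_mul, e]⟩
  · exact ⟨1, by rw [sgn_one, neg_one_mul, e]⟩

/-- finitely many numbers are fixed by a level -/
theorem exists_level_fix {ι : Type*} [Finite ι] (x : ι → Qb) :
    ∃ E : IntermediateField ℚ Qb, FiniteDimensional ℚ E ∧
      ∀ s ∈ E.fixingSubgroup, ∀ i, (s : GQ) (x i) = x i := by
  haveI := FLTAgent.Common.isAlgebraic_qbar
  refine ⟨adjoin ℚ (Set.range x), ?_, fun s hs i => ?_⟩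
  · haveI := (Set.finite_range x).to_subtype
    exact finiteDimensional_adjoin fun y _ => Algebra.IsIntegral.isIntegral y
  · exact (IntermediateField.mem_fixingSubgroup_iff _ _).1 hs _ (subset_adjoin ℚ _ ⟨i, rfl⟩)

variable {H : Subgroup GQ}

/-- functions on the cosets -/
abbrev N2 (H : Subgroup GQ) : Rep.{0} (ZMod 2) GQ := ind H M2

theorem N2_rho (g : GQ) (f : N2 H) (x : GQ ⧸ H) : (N2 H).ρ g f x = f (g⁻¹ • x) := by
  rw [ind_apply, mu_two_rho]

/-- the trace form -/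
def trB (H : Subgroup GQ) [Fintype (GQ ⧸ H)] : N2 H →ₗ[ZMod 2] N2 H →ₗ[ZMod 2] M2 :=
  LinearMap.mk₂ (ZMod 2) (fun f f' => (∑ x, (f x : ZMod 2) * (f' x : ZMod 2) : ZMod 2))
    (fun f f' f'' => by simp [add_mul, Finset.sum_add_distrib])
    (fun c f f' => by simp [Finset.mul_sum, mul_assoc])
    (fun f f' f'' => by simp [mul_add, Finset.sum_add_distrib])
    (fun c f f' => by simp [Finset.mul_sum, mul_left_comm])

theorem trB_apply [Fintype (GQ ⧸ H)] (f f' : N2 H) :
    (trB H f f' : ZMod 2) = ∑ x, (f x : ZMod 2) * (f' x : ZMod 2) := rfl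

theorem trB_eqv [Fintype (GQ ⧸ H)] : IsEqv (trB H) := fun g f f' => by
  rw [mu_two_rho]
  show (∑ x, ((N2 H).ρ g f x : ZMod 2) * ((N2 H).ρ g f' x : ZMod 2)) = ∑ x, (f x : ZMod 2) * f' x
  refine (Finset.sum_congr rfl fun x _ => congrArg₂ (fun a b : ZMod 2 => a * b)
    (N2_rho g f x) (N2_rho g f' x)).trans ?_
  exact Fintype.sum_equiv (MulAction.toPerm g⁻¹) _ _ fun x => rfl

theorem trB_comm [Fintype (GQ ⧸ H)] (f f' : N2 H) : trB H f' f = trB H f f' := by
  show (∑ x, (f' x : ZMod 2) * f x) = ∑ x, (f x : ZMod 2) * f' x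
  exact Finset.sum_congr rfl fun x _ => mul_comm _ _

/-- the standing hypothesis: `H` is open -/
abbrev IsOpn (H : Subgroup GQ) : Prop := IsOpenSub (MonoidHom.id GQ) H

theorem isAdm_N2 (hH : IsOpn H) : IsAdm (MonoidHom.id GQ) (N2 H) :=
  isAdm_ind hH (isAdm_mu 2)

/-- the global symbol -/
def gSym [Fintype (GQ ⧸ H)] (hH : IsOpn H) :
    cH1 (MonoidHom.id GQ) (N2 H) →ₗ[ZMod 2] cH1 (MonoidHom.id GQ) (N2 H) →ₗ[ZMod 2]
      cH2 (MonoidHom.id GQ) M2 :=
  cupH (MonoidHom.id GQ) (trB H) trB_eqv (isAdm_N2 hH)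

/-- square roots of an invariant function -/
structure IsRoot (s : GQ ⧸ H → Qb) : Prop where
  ne : ∀ x, s x ≠ 0
  eqv : ∀ (g : GQ) (x : GQ ⧸ H), g (s (g⁻¹ • x)) ^ 2 = s x ^ 2

/-- the signs of a root -/
def kap (s : GQ ⧸ H → Qb) (g : GQ) : N2 H := fun x => if g (s (g⁻¹ • x)) = s x then 0 else 1

theorem kap_spec {s : GQ ⧸ H → Qb} (hs : IsRoot s) (g : GQ) (x : GQ ⧸ H) :
    g (s (g⁻¹ • x)) = sgn (kap s g x) * s x := by
  by_cases h : g (s (g⁻¹ • x)) = s x
  · rw [show (kap s g x : ZMod 2) = 0 from if_pos h, sgn_zero, one_mul, h]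
  · rw [show (kap s g x : ZMod 2) = 1 from if_neg h, sgn_one, neg_one_mul]
    exact (sq_eq_sq_iff_eq_or_eq_neg.1 (hs.eqv g x)).resolve_left h

theorem kap_unique {s : GQ ⧸ H → Qb} (hs : IsRoot s) {g : GQ} {x : GQ ⧸ H} {a : ZMod 2}
    (h : g (s (g⁻¹ • x)) = sgn a * s x) : (kap s g x : ZMod 2) = a :=
  sgn_inj (hs.ne x) ((kap_spec hs g x).symm.trans h)

theorem kap_mul_apply {s : GQ ⧸ H → Qb} (hs : IsRoot s) (g h : GQ) (x : GQ ⧸ H) :
    (kap s (g * h) x : ZMod 2) = (kap s h (g⁻¹ • x) : ZMod 2) + kap s g x := by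
  refine kap_unique hs ?_
  rw [mul_inv_rev, mul_smul, AlgEquiv.mul_apply, kap_spec hs h (g⁻¹ • x), map_mul, map_sgn,
    kap_spec hs g x, sgn_add, mul_assoc]

theorem kap_mem (hH : IsOpn H) {s : GQ ⧸ H → Qb} (hs : IsRoot s) :
    kap s ∈ Z1 (MonoidHom.id GQ) (N2 H) := by
  refine ⟨(mem_cocycles₁_iff _).2 fun g h => funext fun x => ?_, ?_⟩
  · show (kap s (g * h) x : ZMod 2) = ((N2 H).ρ g (kap s h) x : ZMod 2) + kap s g x
    rw [N2_rho, kap_mul_apply hs]
  · haveI := hH.finite_quotient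
    obtain ⟨E, hE, hfix⟩ := exists_level_fix s
    obtain ⟨F, hF, hle⟩ := hH
    obtain ⟨L, hL, hLle, hLn⟩ := exists_normal_level (E ⊔ F)
    refine ⟨L, hL, fun g t ht => funext fun x => ?_⟩
    have htH : ∀ y : GQ ⧸ H, t⁻¹ • y = y := fun y => smul_coset_eq hLn
      (fun u hu => hle (IntermediateField.fixingSubgroup_antitone le_sup_right (hLle hu)))
      (inv_mem ht) y
    refine kap_unique hs ?_
    rw [mul_inv_rev, mul_smul, htH, AlgEquiv.mul_apply,
      hfix t (IntermediateField.fixingSubgroup_antitone le_sup_left (hLle ht)), kap_spec hs]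

/-- the Kummer class of a root -/
def kcl (hH : IsOpn H) {s : GQ ⧸ H → Qb} (hs : IsRoot s) : cH1 (MonoidHom.id GQ) (N2 H) :=
  h1mk _ _ ⟨kap s, kap_mem hH hs⟩

/-- invariant functions without zeros -/
structure IsEU (U : GQ ⧸ H → Qb) : Prop where
  ne : ∀ x, U x ≠ 0
  eqv : ∀ (g : GQ) (x : GQ ⧸ H), g (U (g⁻¹ • x)) = U x

theorem IsRoot.mul {s t : GQ ⧸ H → Qb} (hs : IsRoot s) (ht : IsRoot t) :
    IsRoot fun x => s x * t x :=
  ⟨fun x => mul_ne_zero (hs.ne x) (ht.ne x), fun g x => by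
    rw [map_mul, mul_pow, mul_pow, hs.eqv, ht.eqv]⟩

theorem isRoot_of_sq {U s : GQ ⧸ H → Qb} (hU : IsEU U) (h : ∀ x, s x ^ 2 = U x) : IsRoot s :=
  ⟨fun x e => hU.ne x (by rw [← h, e, zero_pow two_ne_zero]), fun g x => by
    rw [← map_pow, h, h, hU.eqv]⟩

theorem kcl_mul (hH : IsOpn H) {s t : GQ ⧸ H → Qb} (hs : IsRoot s) (ht : IsRoot t) :
    kcl hH (hs.mul ht) = kcl hH hs + kcl hH ht := by
  rw [kcl, kcl, kcl, ← map_add]
  refine congrArg _ (Subtype.ext (funext fun g => funext fun x => ?_))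
  show (kap (fun x => s x * t x) g x : ZMod 2) = (kap s g x : ZMod 2) + kap t g x
  refine kap_unique (hs.mul ht) ?_
  rw [map_mul, kap_spec hs, kap_spec ht, sgn_add]
  ring

theorem kcl_congr (hH : IsOpn H) {s t : GQ ⧸ H → Qb} (hs : IsRoot s) (ht : IsRoot t)
    (h : ∀ x, s x ^ 2 = t x ^ 2) : kcl hH hs = kcl hH ht := by
  choose m hm using fun x => exists_sgn (h x)
  rw [← sub_eq_zero, kcl, kcl, ← map_sub, h1mk_eq_zero_iff]
  refine ⟨m, fun g => funext fun x => ?_⟩
  show ((N2 H).ρ g m x : ZMod 2) - m x = (kap s g x : ZMod 2) - kap t g x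
  rw [N2_rho]
  have key : (kap s g x : ZMod 2) + m x = m (g⁻¹ • x) + kap t g x := by
    refine sgn_inj (ht.ne x) ?_
    rw [sgn_add, sgn_add, mul_assoc, ← hm, ← kap_spec hs, hm, map_mul, map_sgn, kap_spec ht,
      mul_assoc]
  linear_combination -key

/-- a chosen root of a function -/
def rootOf (U : GQ ⧸ H → Qb) (x : GQ ⧸ H) : Qb :=
  (IsAlgClosed.exists_pow_nat_eq (U x) (n := 2) two_pos).choose

theorem rootOf_sq (U : GQ ⧸ H → Qb) (x : GQ ⧸ H) : rootOf U x ^ 2 = U x :=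
  (IsAlgClosed.exists_pow_nat_eq (U x) (n := 2) two_pos).choose_spec

/-- the class of an invariant function (junk otherwise) -/
def kU (hH : IsOpn H) (U : GQ ⧸ H → Qb) : cH1 (MonoidHom.id GQ) (N2 H) :=
  open Classical in
  if h : IsEU U then kcl hH (isRoot_of_sq h (rootOf_sq U)) else 0

theorem kU_eq (hH : IsOpn H) {U s : GQ ⧸ H → Qb} (hU : IsEU U) (hs : IsRoot s)
    (h : ∀ x, s x ^ 2 = U x) : kU hH U = kcl hH hs := by
  rw [kU, dif_pos hU]
  exact kcl_congr hH _ _ fun x => by rw [rootOf_sq, h]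

theorem IsEU.mul {U V : GQ ⧸ H → Qb} (hU : IsEU U) (hV : IsEU V) : IsEU fun x => U x * V x :=
  ⟨fun x => mul_ne_zero (hU.ne x) (hV.ne x), fun g x => by rw [map_mul, hU.eqv, hV.eqv]⟩

theorem IsEU.inv {U : GQ ⧸ H → Qb} (hU : IsEU U) : IsEU fun x => (U x)⁻¹ :=
  ⟨fun x => inv_ne_zero (hU.ne x), fun g x => by rw [map_inv₀, hU.eqv]⟩

theorem isEU_const {r : ℚ} (hr : r ≠ 0) : IsEU fun _ : GQ ⧸ H => (r : Qb) :=
  ⟨fun _ => Rat.cast_ne_zero.2 hr, fun g _ => map_ratCast g r⟩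

theorem kU_mul (hH : IsOpn H) {U V : GQ ⧸ H → Qb} (hU : IsEU U) (hV : IsEU V) :
    kU hH (fun x => U x * V x) = kU hH U + kU hH V := by
  rw [kU_eq hH (hU.mul hV) ((isRoot_of_sq hU (rootOf_sq U)).mul (isRoot_of_sq hV (rootOf_sq V)))
    (fun x => by rw [mul_pow, rootOf_sq, rootOf_sq]), kcl_mul, kU, kU, dif_pos hU, dif_pos hV]

theorem kU_one (hH : IsOpn H) : kU hH (fun _ => (1 : Qb)) = 0 := by
  have h1 : IsEU fun _ : GQ ⧸ H => (1 : Qb) := ⟨fun _ => one_ne_zero, fun g _ => map_one g⟩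
  have h := kU_mul hH h1 h1
  rw [show (fun x : GQ ⧸ H => (1 : Qb) * 1) = fun _ => 1 from funext fun _ => mul_one 1] at h
  exact left_eq_add.1 h

theorem kU_inv (hH : IsOpn H) {U : GQ ⧸ H → Qb} (hU : IsEU U) :
    kU hH (fun x => (U x)⁻¹) = kU hH U := by
  have h := kU_mul hH hU hU.inv
  rw [show (fun x => U x * (U x)⁻¹) = fun _ => 1 from funext fun x => mul_inv_cancel₀ (hU.ne x),
    kU_one] at h
  refine (eq_neg_of_add_eq_zero_right h.symm).trans ?_
  refine neg_eq_of_add_eq_zero_left ?_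
  rw [← two_smul (ZMod 2), show (2 : ZMod 2) = 0 from rfl, zero_smul]

variable [Fintype (GQ ⧸ H)]

theorem gSym_flip (hH : IsOpn H) (a b : cH1 (MonoidHom.id GQ) (N2 H)) :
    gSym hH a b = gSym hH b a := by
  have h : gSym hH a b + gSym hH b a = 0 :=
    Loc.cupH_flip trB_eqv (isAdm_N2 hH) (isAdm_N2 hH) (trB H) trB_eqv
      trB_comm a b
  rw [eq_neg_of_add_eq_zero_left h]
  refine neg_eq_of_add_eq_zero_left ?_
  rw [← two_smul (ZMod 2), show (2 : ZMod 2) = 0 from rfl, zero_smul]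

/-- the Steinberg relation -/
theorem steinberg (hH : IsOpn H) {U : GQ ⧸ H → Qb} (hU : IsEU U)
    (hU' : IsEU fun x => 1 - U x) : gSym hH (kU hH U) (kU hH fun x => 1 - U x) = 0 := by
  classical
  rw [gSym_flip, kU, kU, dif_pos hU, dif_pos hU']
  set s := rootOf U
  set w := rootOf (fun x => 1 - U x) with hw
  have hs : IsRoot s := isRoot_of_sq hU (rootOf_sq U)
  have hwr : IsRoot w := isRoot_of_sq hU' (rootOf_sq _)
  have hsw : ∀ x, s x ^ 2 + w x ^ 2 = 1 := fun x => by rw [rootOf_sq, hw, rootOf_sq]; ring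
  choose q hq using fun x => IsAlgClosed.exists_pow_nat_eq (1 + s x) (n := 2) two_pos
  have hq0 : ∀ x, q x ≠ 0 := fun x e => hwr.ne x (pow_eq_zero_iff two_ne_zero |>.1 (by
    linear_combination hsw x + (s x - 1) * hq x - (s x - 1) * q x * e))
  -- the two branches
  let P : ZMod 2 → (GQ ⧸ H) → Qb := fun a x => if a = 0 then q x else w x / q x
  have hP : ∀ a x, P a x ^ 2 = 1 + sgn a * s x := by
    intro a x
    rcases cases_two a with rfl | rfl
    · show (if (0 : ZMod 2) = 0 then q x else w x / q x) ^ 2 = _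
      rw [if_pos rfl, hq, sgn_zero, one_mul]
    · show (if (1 : ZMod 2) = 0 then q x else w x / q x) ^ 2 = _
      rw [if_neg one_ne_zero, div_pow, hq, sgn_one, div_eq_iff (by
        rw [← hq]; exact pow_ne_zero _ (hq0 x))]
      linear_combination hsw x
  have hP0 : ∀ a x, P a x ≠ 0 := by
    intro a x
    rcases cases_two a with rfl | rfl
    · exact hq0 x
    · exact div_ne_zero (hwr.ne x) (hq0 x)
  have hP1 : ∀ a x, P (a + 1) x = w x / P a x := by
    intro a x
    rcases cases_two a with rfl | rfl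
    · show (if (0 : ZMod 2) + 1 = 0 then q x else w x / q x) = w x / q x
      rw [if_neg (by decide)]
    · show (if (1 : ZMod 2) + 1 = 0 then q x else w x / q x) = w x / (w x / q x)
      rw [if_pos (by decide), div_div_cancel₀ (hwr.ne x)]
  have hb : ∀ g x, ∃ b, g (q (g⁻¹ • x)) = sgn b * P (kap s g x) x := fun g x =>
    exists_sgn (by rw [← map_pow, hq, map_add, map_one, kap_spec hs, hP])
  choose b hb using hb
  have key : ∀ g x a, g (P a (g⁻¹ • x)) =
      sgn (a * (kap w g x : ZMod 2) + b g x) * P (a + kap s g x) x := by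
    intro g x a
    rcases cases_two a with rfl | rfl
    · rw [zero_mul, zero_add, zero_add]
      exact hb g x
    · rw [one_mul, add_comm (1 : ZMod 2) (kap s g x), hP1]
      show g (if (1 : ZMod 2) = 0 then q (g⁻¹ • x) else w (g⁻¹ • x) / q (g⁻¹ • x)) = _
      rw [if_neg one_ne_zero, map_div₀, kap_spec hwr, hb, sgn_add]
      rcases cases_two (b g x) with e | e <;> rw [e] <;> simp only [sgn_zero, sgn_one] <;> ring
  have hbm : ∀ g h x, b (g * h) x =
      b h (g⁻¹ • x) + b g x + (kap w g x : ZMod 2) * (kap s h (g⁻¹ • x) : ZMod 2) := by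
    intro g h x
    refine sgn_inj (hP0 _ x) (((hb (g * h) x).symm.trans ?_))
    rw [mul_inv_rev, mul_smul, AlgEquiv.mul_apply, hb, map_mul, map_sgn, key, ← mul_assoc,
      ← sgn_add, kap_mul_apply hs]
    refine congrArg₂ (fun u v => sgn u * P v x) (by ring) rfl
  show cupH (MonoidHom.id GQ) (trB H) trB_eqv (isAdm_N2 hH) (kcl hH hwr) (kcl hH hs) = 0
  rw [kcl, kcl, cupH_mk]
  refine (continuousH2π_eq_zero_iff _ _ _).2 ((mem_levelCoboundaries₂_iff _ _ _).2
    ⟨fun g => (∑ x, b g x : ZMod 2), ?_, ?_⟩)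
  · obtain ⟨E, hE, hfix⟩ := exists_level_fix q
    obtain ⟨F, hF, hsF⟩ := (kap_mem hH hs).2
    obtain ⟨F', hF', hle⟩ := hH
    obtain ⟨L, hL, hLle, hLn⟩ := exists_normal_level (E ⊔ (F ⊔ F'))
    refine ⟨L, hL, fun g t ht => Finset.sum_congr rfl fun x _ => ?_⟩
    have htE : t ∈ E.fixingSubgroup :=
      IntermediateField.fixingSubgroup_antitone le_sup_left (hLle ht)
    have htH : ∀ y : GQ ⧸ H, t⁻¹ • y = y := fun y => smul_coset_eq hLn
      (fun u hu => hle (IntermediateField.fixingSubgroup_antitone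
        (le_sup_right.trans le_sup_right) (hLle hu))) (inv_mem ht) y
    have hg : kap s (g * t) = kap s g := hsF g t (IntermediateField.fixingSubgroup_antitone
      (le_sup_left.trans le_sup_right) (hLle ht))
    refine sgn_inj (hP0 _ x) ((hb (g * t) x).symm.trans ?_)
    rw [mul_inv_rev, mul_smul, htH, AlgEquiv.mul_apply, hfix t htE, hb, hg]
  · funext gh
    obtain ⟨g, h⟩ := gh
    rw [d₁₂_hom_apply]
    show (M2.ρ g (∑ x, b h x : ZMod 2) : ZMod 2) - (∑ x, b (g * h) x : ZMod 2) + (∑ x, b g x : ZMod 2) =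
      (∑ x, (kap w g x : ZMod 2) * ((N2 H).ρ g (kap s h) x : ZMod 2))
    rw [mu_two_rho, Finset.sum_congr rfl fun x _ => hbm g h x, Finset.sum_add_distrib,
      Finset.sum_add_distrib]
    rw [Finset.sum_congr rfl fun x _ => congrArg ((kap w g x : ZMod 2) * ·) (N2_rho g (kap s h) x)]
    rw [show (∑ x, b h (g⁻¹ • x)) = ∑ x, b h x from
      Fintype.sum_equiv (MulAction.toPerm g⁻¹) _ _ fun x => rfl]
    generalize (∑ x, (kap w g x : ZMod 2) * (kap s h (g⁻¹ • x) : ZMod 2)) = c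
    generalize (∑ x, b h x : ZMod 2) = u
    generalize (∑ x, b g x : ZMod 2) = v
    show u - (u + v + (c : ZMod 2)) + v = (c : ZMod 2)
    linear_combination ZMod.neg_eq_self_mod_two (c : ZMod 2)

theorem neg_self (hH : IsOpn H) {U : GQ ⧸ H → Qb} (hU : IsEU U) (h1 : ∀ x, U x ≠ 1) :
    gSym hH (kU hH U) (kU hH fun x => -U x) = 0 := by
  have hA : IsEU fun x => 1 - U x :=
    ⟨fun x e => h1 x (sub_eq_zero.1 e).symm, fun g x => by rw [map_sub, map_one, hU.eqv]⟩
  have hB : IsEU fun x => 1 - (U x)⁻¹ :=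
    ⟨fun x e => h1 x (inv_eq_one.1 (sub_eq_zero.1 e).symm),
      fun g x => by rw [map_sub, map_one, map_inv₀, hU.eqv]⟩
  have e : (fun x => -U x) = fun x => (1 - U x) * (1 - (U x)⁻¹)⁻¹ := funext fun x => by
    have := hU.ne x
    have := hB.ne x
    rw [eq_mul_inv_iff_mul_eq₀ (hB.ne x)]
    field_simp
    ring
  rw [e, kU_mul hH hA hB.inv, map_add, kU_inv hH hB, steinberg hH hU hA, zero_add,
    ← kU_inv hH hU]
  exact steinberg hH hU.inv hB

end FLTAgent.R2.Recip
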