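import Fermat.Agent.R2.RecipLocal
import Mathlib.NumberTheory.LegendreSymbol.QuadraticReciprocity

/-!
R2, parcel C: the product formula for the rational symbols, that is quadratic reciprocity.
-/

set_option autoImplicit false
set_option linter.unusedSectionVars false
set_option linter.style.haveILetI false

noncomputable section

open CategoryTheory groupCohomology

namespace FLTAgent.R2.Recip

open FLTAgent.PT

/-- the invariant at infinity on cocycles -/
def infZ : ↥(levelCocycles₂ (MonoidHom.id GQ) M2) →ₗ[ZMod 2] ZMod 2 where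
  toFun z := (z.1 (complexConjugation, complexConjugation) : ZMod 2) + z.1 (1, 1)
  map_add' z z' := by
    show ((z.1 _ : ZMod 2) + z'.1 _) + ((z.1 _ : ZMod 2) + z'.1 _) = _
    exact add_add_add_comm _ _ _ _
  map_smul' c z := by
    show c * (z.1 _ : ZMod 2) + c * (z.1 _ : ZMod 2) = c * (_ + _)
    exact (mul_add _ _ _).symm

/-- the invariant at infinity -/
def invInf : cH2 (MonoidHom.id GQ) M2 →ₗ[ZMod 2] ZMod 2 :=
  Submodule.liftQ _ infZ fun z hz => by
    obtain ⟨y, -, hy⟩ := (mem_levelCoboundaries₂_iff _ _ _).1 (show z.1 ∈ levelCoboundaries₂ _ M2 from hz)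
    rw [LinearMap.mem_ker]
    show (z.1 (complexConjugation, complexConjugation) : ZMod 2) + z.1 (1, 1) = 0
    rw [← congrFun hy (complexConjugation, complexConjugation), ← congrFun hy (1, 1)]
    rw [d₁₂_hom_apply, d₁₂_hom_apply]
    show ((M2.ρ complexConjugation (y complexConjugation) : ZMod 2) -
      y (complexConjugation * complexConjugation) + y complexConjugation) +
        ((M2.ρ 1 (y 1) : ZMod 2) - y (1 * 1) + y 1) = 0
    rw [mu_two_rho, mu_two_rho, complexConjugation_mul_self, one_mul]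
    show ((y complexConjugation : ZMod 2) - y 1 + y complexConjugation) + (y 1 - y 1 + y 1) = 0
    show ((y complexConjugation : ZMod 2) - (y 1 : ZMod 2) + y complexConjugation) +
      ((y 1 : ZMod 2) - y 1 + y 1) = (0 : ZMod 2)
    have two : ((2 : ℕ) : ZMod 2) = 0 := rfl
    push_cast at two
    linear_combination (y complexConjugation : ZMod 2) * two

theorem invInf_h2mk (z : ↥(levelCocycles₂ (MonoidHom.id GQ) M2)) :
    invInf (h2mk _ _ z) =
      (z.1 (complexConjugation, complexConjugation) : ZMod 2) + z.1 (1, 1) := rfl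

/-- the local invariant of a global class -/
def invAt (q : Nat.Primes) (c : cH2 (MonoidHom.id GQ) M2) : ZMod 2 := inv2 q (res2 q M2 c)

theorem finite_invAt (c : cH2 (MonoidHom.id GQ) M2) :
    (Function.support fun q => invAt q c).Finite :=
  (finite_res2 (isAdm_mu 2) c).subset fun q hq h => hq (by
    show inv2 q (res2 q M2 c) = 0
    rw [h, map_zero])

/-- the sum of all invariants -/
def totInv : cH2 (MonoidHom.id GQ) M2 →ₗ[ZMod 2] ZMod 2 where
  toFun c := (∑ᶠ q, invAt q c) + invInf c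
  map_add' c d := by
    rw [map_add invInf, show (∑ᶠ q, invAt q (c + d)) = (∑ᶠ q, invAt q c) + ∑ᶠ q, invAt q d by
      rw [← finsum_add_distrib (finite_invAt c) (finite_invAt d)]
      exact finsum_congr fun q => by simp [invAt]]
    exact add_add_add_comm _ _ _ _
  map_smul' a c := by
    rcases cases_two a with rfl | rfl
    · simp [invAt]
    · simp

theorem totInv_eq_sum (c : cH2 (MonoidHom.id GQ) M2) (S : Finset Nat.Primes)
    (h : ∀ q, q ∉ S → invAt q c = 0) : totInv c = (∑ q ∈ S, invAt q c) + invInf c := by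
  show (∑ᶠ q, invAt q c) + _ = _
  rw [finsum_eq_sum_of_support_subset _ fun q hq => Finset.mem_coe.2 (not_not.1 fun hn => hq (h q hn))]

theorem invAt_qSym (q : Nat.Primes) (r s : ℚ) : invAt q (qSym (kq r) (kq s)) = symb q r s := by
  rw [invAt, IsSelfDual.res2_gS]
  rfl

open Classical in
/-- the sign at infinity of a rational number -/
def negBit (r : ℚ) : ZMod 2 := kapQ (qrt r) complexConjugation

theorem invInf_qSym {r s : ℚ} (hr : r ≠ 0) (hs : s ≠ 0) :
    invInf (qSym (kq r) (kq s)) = negBit r * negBit s := by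
  rw [kq_eq (qrt_sq r) hr, kq_eq (qrt_sq s) hs]
  show invInf (h2mk (MonoidHom.id GQ) M2 _) = _
  rw [invInf_h2mk]
  show (kapQ (qrt r) complexConjugation : ZMod 2) * (M2.ρ complexConjugation (kapQ (qrt s) complexConjugation) : ZMod 2) +
    (kapQ (qrt r) 1 : ZMod 2) * (M2.ρ 1 (kapQ (qrt s) 1) : ZMod 2) = _
  rw [mu_two_rho, show (kapQ (qrt r) 1 : ZMod 2) = 0 from if_pos rfl, zero_mul, add_zero]
  rfl

theorem negBit_pos {r : ℚ} (hr : 0 < r) : negBit r = 0 := by
  refine kapQ_unique (qrt_sq r) hr.ne' ?_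
  rw [sgn_zero, one_mul]
  refine complexEmbedding.toRingHom.injective ?_
  show complexEmbedding (complexConjugation (qrt r)) = complexEmbedding (qrt r)
  rw [complexEmbedding_complexConjugation]
  set z := complexEmbedding (qrt r) with hz
  have h : z ^ 2 = ((r : ℝ) : ℂ) := by
    rw [hz, ← map_pow, qrt_sq]
    simp
  have hre : z.re * z.re - z.im * z.im = (r : ℝ) := by
    have := congrArg Complex.re h
    rwa [sq, Complex.mul_re, Complex.ofReal_re] at this
  have him : z.re * z.im + z.im * z.re = 0 := by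
    have := congrArg Complex.im h
    rwa [sq, Complex.mul_im, Complex.ofReal_im] at this
  have hr' : (0 : ℝ) < (r : ℝ) := by exact_mod_cast hr
  have hzero : z.im = 0 := by
    rcases mul_eq_zero.1 (show z.re * z.im = 0 by linarith) with e | e
    · exfalso; rw [e] at hre; nlinarith [mul_self_nonneg z.im]
    · exact e
  exact Complex.conj_eq_iff_im.2 hzero

theorem negBit_neg_one : negBit (-1) = 1 := by
  refine (cases_two _).resolve_left fun h => ?_
  have h1 := kapQ_spec (qrt_sq (-1)) complexConjugation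
  change kapQ (qrt (-1)) complexConjugation = (0 : ZMod 2) at h
  rw [h] at h1
  have h2 := congrArg complexEmbedding h1
  rw [complexEmbedding_complexConjugation, map_mul] at h2
  set z := complexEmbedding (qrt (-1)) with hz
  have hs : complexEmbedding (sgn (0 : ZMod 2)) = 1 := by rw [sgn_zero, map_one]
  erw [hs] at h2
  rw [one_mul, Complex.conj_eq_iff_im] at h2
  have h3 : z ^ 2 = -1 := by
    rw [hz, ← map_pow, qrt_sq]
    simp
  have := congrArg Complex.re h3
  rw [sq, Complex.mul_re, h2] at this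
  simp at this
  nlinarith [mul_self_nonneg z.re]

/-- the product formula holds for a pair -/
def Law (r s : ℚ) : Prop := totInv (qSym (kq r) (kq s)) = 0

theorem law_comm {r s : ℚ} (h : Law r s) : Law s r := by
  have e : qSym (kq s) (kq r) = qSym (kq r) (kq s) := by
    have h := Loc.cupH_flip (r := MonoidHom.id GQ) (φ := mulM) isSelfDual_mulM.eqv (isAdm_mu 2)
      (isAdm_mu 2) mulM isSelfDual_mulM.eqv (fun a b => (mul_comm (b : ZMod 2) (a : ZMod 2) :))
      (kq r) (kq s)
    change qSym (kq r) (kq s) + qSym (kq s) (kq r) = 0 at h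
    rw [← add_zero (qSym (kq s) (kq r)), ← add_self_two (qSym (kq r) (kq s)), ← add_assoc,
      add_comm (qSym (kq s) (kq r)), h, zero_add]
  rwa [Law, e]

theorem law_mul_right {r s t : ℚ} (hs : s ≠ 0) (ht : t ≠ 0) (h1 : Law r s) (h2 : Law r t) :
    Law r (s * t) := by
  rw [Law, kq_mul hs ht, map_add, map_add, show totInv (qSym (kq r) (kq s)) = 0 from h1,
    show totInv (qSym (kq r) (kq t)) = 0 from h2, add_zero]

theorem law_one (r : ℚ) : Law r 1 := by rw [Law, kq_one, map_zero, map_zero]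

theorem law_of_zero {r s : ℚ} (h : qSym (kq r) (kq s) = 0) : Law r s := by rw [Law, h, map_zero]

theorem sum_support (r s : ℤ) (S : Finset Nat.Primes) (h2 : two' ∈ S)
    (hS : ∀ q : Nat.Primes, q ∉ S → ¬((q : ℕ) : ℤ) ∣ r ∧ ¬((q : ℕ) : ℤ) ∣ s) :
    totInv (qSym (kq (r : ℚ)) (kq (s : ℚ))) =
      (∑ q ∈ S, symb q (r : ℚ) (s : ℚ)) + invInf (qSym (kq (r : ℚ)) (kq (s : ℚ))) := by
  rw [totInv_eq_sum _ S fun q hq => ?_]
  · simp only [invAt_qSym]
  · rw [invAt_qSym]
    exact symb_unit (fun e => hq (by rwa [show q = two' from Subtype.ext e])) (hS q hq).1 (hS q hq).2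

theorem prime_not_dvd {q l : Nat.Primes} (h : q ≠ l) : ¬((q : ℕ) : ℤ) ∣ ((l : ℕ) : ℤ) := fun hd =>
  h (Subtype.ext ((Nat.prime_dvd_prime_iff_eq q.2 l.2).1 (Int.natCast_dvd_natCast.1 hd)))

theorem prime_not_dvd_neg_one (q : Nat.Primes) : ¬((q : ℕ) : ℤ) ∣ -1 := fun hd => by
  rw [dvd_neg] at hd
  exact q.2.not_dvd_one (Int.natCast_dvd_natCast.1 (by exact_mod_cast hd))

theorem odd_prime_not_two_dvd {l : Nat.Primes} (hl : (l : ℕ) ≠ 2) : ¬(2 : ℤ) ∣ ((l : ℕ) : ℤ) :=
  prime_not_dvd (q := two') fun e => hl (e ▸ rfl)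

theorem symb_odd' {q : Nat.Primes} (hq : (q : ℕ) ≠ 2) {n : ℤ} (hn : ¬((q : ℕ) : ℤ) ∣ n) :
    symb q (((q : ℕ) : ℤ) : ℚ) (n : ℚ) = if IsSquare (n : ZMod (q : ℕ)) then 0 else 1 := by
  rw [Int.cast_natCast]; exact symb_odd hq hn

theorem symb_odd_right {q : Nat.Primes} (hq : (q : ℕ) ≠ 2) {n : ℤ} (hn : ¬((q : ℕ) : ℤ) ∣ n) :
    symb q (n : ℚ) (((q : ℕ) : ℤ) : ℚ) = if IsSquare (n : ZMod (q : ℕ)) then 0 else 1 := by
  rw [symb_comm]; exact symb_odd' hq hn

theorem symb_two_unit_right {u : ℤ} (hu : ¬(2 : ℤ) ∣ u) :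
    symb two' (u : ℚ) ((((two' : Nat.Primes) : ℕ) : ℤ) : ℚ) =
      if u % 8 = 3 ∨ u % 8 = 5 then 1 else 0 := by
  rw [symb_comm, show ((((two' : Nat.Primes) : ℕ) : ℤ) : ℚ) = 2 by norm_num [two']]
  exact symb_two_two_unit hu

theorem law_neg_one_neg_one : Law (-1) (-1) := by
  rw [Law, show (-1 : ℚ) = ((-1 : ℤ) : ℚ) by norm_num,
    sum_support (-1) (-1) {two'} (Finset.mem_singleton_self _)
      fun q _ => ⟨prime_not_dvd_neg_one q, prime_not_dvd_neg_one q⟩,
    Finset.sum_singleton, invInf_qSym (by norm_num) (by norm_num)]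
  push_cast
  rw [symb_neg_one_neg_one, negBit_neg_one]
  decide

theorem law_two_neg_one : Law 2 (-1) := by
  refine law_of_zero ?_
  rw [show (-1 : ℚ) = 1 - 2 by norm_num]
  exact qSym_steinberg two_ne_zero (by norm_num)

theorem law_two_two : Law 2 2 := by
  refine law_of_zero ?_
  have h := qSym_neg_self (r := 2) two_ne_zero
  rw [show (-2 : ℚ) = -1 * 2 by norm_num, kq_mul (by norm_num) two_ne_zero, map_add,
    show qSym (kq 2) (kq (-1)) = 0 by
      rw [show (-1 : ℚ) = 1 - 2 by norm_num]; exact qSym_steinberg two_ne_zero (by norm_num),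
    zero_add] at h
  exact h

theorem law_prime_neg_one {l : Nat.Primes} (hl : (l : ℕ) ≠ 2) : Law ((l : ℕ) : ℚ) (-1) := by
  haveI : Fact (l : ℕ).Prime := ⟨l.2⟩
  have hne : two' ≠ l := fun e => hl (e ▸ rfl)
  rw [Law, show ((l : ℕ) : ℚ) = (((l : ℕ) : ℤ) : ℚ) by norm_num,
    show (-1 : ℚ) = ((-1 : ℤ) : ℚ) by norm_num,
    sum_support _ _ {two', l} (by simp) fun q hq => ⟨prime_not_dvd (by
      intro e; exact hq (by simp [e])), prime_not_dvd_neg_one q⟩,
    Finset.sum_pair hne, symb_two_units (odd_prime_not_two_dvd hl) (by decide),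
    symb_odd' hl (prime_not_dvd_neg_one l),
    invInf_qSym (by exact_mod_cast l.2.ne_zero) (by norm_num),
    show negBit (((l : ℕ) : ℤ) : ℚ) = 0 from negBit_pos (by exact_mod_cast l.2.pos), zero_mul, add_zero]
  have h := ZMod.exists_sq_eq_neg_one_iff (p := (l : ℕ))
  by_cases h3 : (l : ℕ) % 4 = 3
  · rw [if_pos ⟨by omega, by decide⟩, if_neg (by push_cast; rw [h]; omega)]
    decide
  · rw [if_neg (fun e => h3 (by omega)), if_pos (by push_cast; rw [h]; omega), add_zero]

theorem law_prime_two {l : Nat.Primes} (hl : (l : ℕ) ≠ 2) : Law ((l : ℕ) : ℚ) 2 := by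
  haveI : Fact (l : ℕ).Prime := ⟨l.2⟩
  have hne : two' ≠ l := fun e => hl (e ▸ rfl)
  rw [Law, show ((l : ℕ) : ℚ) = (((l : ℕ) : ℤ) : ℚ) by norm_num,
    show (2 : ℚ) = ((((two' : Nat.Primes) : ℕ) : ℤ) : ℚ) by norm_num [two'],
    sum_support _ _ {two', l} (by simp) fun q hq => ⟨prime_not_dvd (by
      intro e; exact hq (by simp [e])), prime_not_dvd (by intro e; exact hq (by simp [e]))⟩,
    Finset.sum_pair hne,
    symb_two_unit_right (odd_prime_not_two_dvd hl), symb_odd' hl (prime_not_dvd hne.symm),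
    invInf_qSym (by exact_mod_cast l.2.ne_zero) (by norm_num [two']),
    show negBit (((l : ℕ) : ℤ) : ℚ) = 0 from negBit_pos (by exact_mod_cast l.2.pos), zero_mul, add_zero]
  have h := ZMod.exists_sq_eq_two_iff (p := (l : ℕ)) hl
  have h2 : (l : ℕ) % 2 = 1 := (Nat.Prime.mod_two_eq_one_iff_ne_two l.2).2 hl
  have e2 : ((((two' : Nat.Primes) : ℕ) : ℤ) : ZMod (l : ℕ)) = 2 := by simp [two']
  by_cases h8 : (l : ℕ) % 8 = 1 ∨ (l : ℕ) % 8 = 7
  · rw [if_neg (by omega), if_pos (by rw [e2]; exact h.2 h8), add_zero]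
  · rw [if_pos (by omega), if_neg (by rw [e2]; exact fun e => h8 (h.1 e))]
    decide

theorem law_prime_prime {l m : Nat.Primes} (hl : (l : ℕ) ≠ 2) (hm : (m : ℕ) ≠ 2) :
    Law ((l : ℕ) : ℚ) ((m : ℕ) : ℚ) := by
  haveI : Fact (l : ℕ).Prime := ⟨l.2⟩
  haveI : Fact (m : ℕ).Prime := ⟨m.2⟩
  rcases eq_or_ne l m with rfl | hlm
  · have hl0 : ((l : ℕ) : ℚ) ≠ 0 := by exact_mod_cast l.2.ne_zero
    have h := qSym_neg_self hl0
    rw [show (-((l : ℕ) : ℚ)) = -1 * ((l : ℕ) : ℚ) by ring, kq_mul (by norm_num) hl0, map_add] at h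
    have h1 := law_prime_neg_one hl
    rw [Law] at h1 ⊢
    have h' := congrArg totInv h
    rw [map_add, map_zero, h1, zero_add] at h'
    exact h'
  have h2l : two' ≠ l := fun e => hl (e ▸ rfl)
  have h2m : two' ≠ m := fun e => hm (e ▸ rfl)
  rw [Law, show ((l : ℕ) : ℚ) = (((l : ℕ) : ℤ) : ℚ) by norm_num,
    show ((m : ℕ) : ℚ) = (((m : ℕ) : ℤ) : ℚ) by norm_num,
    sum_support _ _ {two', l, m} (by simp) fun q hq => ⟨prime_not_dvd (by
      intro e; exact hq (by simp [e])), prime_not_dvd (by intro e; exact hq (by simp [e]))⟩,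
    Finset.sum_insert (by simp [h2l, h2m]), Finset.sum_pair hlm,
    symb_two_units (odd_prime_not_two_dvd hl) (odd_prime_not_two_dvd hm),
    symb_odd' hl (prime_not_dvd hlm), symb_odd_right hm (prime_not_dvd hlm.symm),
    invInf_qSym (by exact_mod_cast l.2.ne_zero) (by exact_mod_cast m.2.ne_zero),
    show negBit (((l : ℕ) : ℤ) : ℚ) = 0 from negBit_pos (by exact_mod_cast l.2.pos), zero_mul, add_zero]
  simp only [Int.cast_natCast]
  have hl2 : (l : ℕ) % 2 = 1 := (Nat.Prime.mod_two_eq_one_iff_ne_two l.2).2 hl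
  have hm2 : (m : ℕ) % 2 = 1 := (Nat.Prime.mod_two_eq_one_iff_ne_two m.2).2 hm
  by_cases hl4 : (l : ℕ) % 4 = 1
  · have h := ZMod.exists_sq_eq_prime_iff_of_mod_four_eq_one (p := (l : ℕ)) (q := (m : ℕ)) hl4 hm
    rw [if_neg (by omega)]
    by_cases hs : IsSquare ((m : ℕ) : ZMod (l : ℕ))
    · rw [if_pos hs, if_pos (h.1 hs)]; decide
    · rw [if_neg hs, if_neg (fun e => hs (h.2 e))]; decide
  by_cases hm4 : (m : ℕ) % 4 = 1
  · have h := ZMod.exists_sq_eq_prime_iff_of_mod_four_eq_one (p := (m : ℕ)) (q := (l : ℕ)) hm4 hl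
    rw [if_neg (by omega)]
    by_cases hs : IsSquare ((m : ℕ) : ZMod (l : ℕ))
    · rw [if_pos hs, if_pos (h.2 hs)]; decide
    · rw [if_neg hs, if_neg (fun e => hs (h.1 e))]; decide
  have h := ZMod.exists_sq_eq_prime_iff_of_mod_four_eq_three (p := (l : ℕ)) (q := (m : ℕ))
    (by omega) (by omega) fun e => hlm (Subtype.ext e)
  rw [if_pos (by omega)]
  by_cases hs : IsSquare ((m : ℕ) : ZMod (l : ℕ))
  · rw [if_pos hs, if_neg (h.1 hs)]; decide
  · rw [if_neg hs, if_pos (not_not.1 fun e => hs (h.2 e))]; decide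

/-- multiplicative induction on nonzero rationals -/
theorem rat_induction {P : ℚ → Prop} (h1 : P 1) (hn : P (-1))
    (hp : ∀ l : Nat.Primes, P ((l : ℕ) : ℚ))
    (hm : ∀ r s : ℚ, r ≠ 0 → s ≠ 0 → P r → P s → P (r * s))
    (hsq : ∀ r s : ℚ, r ≠ 0 → s ≠ 0 → P r → P (r * s ^ 2)) {r : ℚ} (hr : r ≠ 0) : P r := by
  have nat : ∀ n : ℕ, n ≠ 0 → P (n : ℚ) := by
    intro n
    induction n using induction_on_primes with
    | zero => exact fun h => absurd rfl h
    | one => intro _; exact_mod_cast h1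
    | prime_mul l a hl ih =>
      intro h
      have ha : a ≠ 0 := fun e => h (by rw [e, mul_zero])
      push_cast
      exact hm _ _ (by exact_mod_cast hl.ne_zero) (by exact_mod_cast ha) (hp ⟨l, hl⟩) (ih ha)
  have hden : ((r.den : ℕ) : ℚ) ≠ 0 := by exact_mod_cast r.den_nz
  have hnum : P (r.num : ℚ) := by
    have hn0 : r.num.natAbs ≠ 0 := Int.natAbs_ne_zero.2 (Rat.num_ne_zero.2 hr)
    rcases Int.natAbs_eq r.num with e | e <;> rw [e]
    · rw [Int.cast_natCast]
      exact nat _ hn0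
    · rw [Int.cast_neg, Int.cast_natCast, neg_eq_neg_one_mul]
      exact hm _ _ (by norm_num) (Nat.cast_ne_zero.2 hn0) hn (nat _ hn0)
  have h := hsq _ ((r.den : ℚ))⁻¹ (mul_ne_zero (Int.cast_ne_zero.2 (Rat.num_ne_zero.2 hr)) hden)
    (inv_ne_zero hden) (hm _ _ (Int.cast_ne_zero.2 (Rat.num_ne_zero.2 hr)) hden hnum (nat _ r.den_nz))
  convert h using 1
  rw [inv_pow]
  field_simp
  rw [← Rat.mul_den_eq_num]

theorem law_gen_left {r : ℚ} (hr : r = -1 ∨ ∃ l : Nat.Primes, r = ((l : ℕ) : ℚ)) {s : ℚ}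
    (hs : s ≠ 0) : Law r s := by
  have key : ∀ s : ℚ, (s = -1 ∨ ∃ l : Nat.Primes, s = ((l : ℕ) : ℚ)) → Law r s := by
    have two : ∀ l : Nat.Primes, (l : ℕ) = 2 → ((l : ℕ) : ℚ) = 2 := fun l e => by rw [e]; norm_num
    intro s hs
    rcases hr with rfl | ⟨l, rfl⟩ <;> rcases hs with rfl | ⟨m, rfl⟩
    · exact law_neg_one_neg_one
    · refine law_comm ?_
      by_cases hm : (m : ℕ) = 2
      · rw [two m hm]; exact law_two_neg_one
      · exact law_prime_neg_one hm
    · by_cases hl : (l : ℕ) = 2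
      · rw [two l hl]; exact law_two_neg_one
      · exact law_prime_neg_one hl
    · by_cases hl : (l : ℕ) = 2 <;> by_cases hm : (m : ℕ) = 2
      · rw [two l hl, two m hm]; exact law_two_two
      · rw [two l hl]; exact law_comm (law_prime_two hm)
      · rw [two m hm]; exact law_prime_two hl
      · exact law_prime_prime hl hm
  refine rat_induction (P := Law r) (law_one r) (key _ (Or.inl rfl))
    (fun l => key _ (Or.inr ⟨l, rfl⟩)) (fun a b ha hb h h' => law_mul_right ha hb h h')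
    (fun a b ha hb h => ?_) hs
  rw [Law, kq_mul_sq ha hb]
  exact h

/-- **the product formula** -/
theorem law {r s : ℚ} (hr : r ≠ 0) (hs : s ≠ 0) : totInv (qSym (kq r) (kq s)) = 0 := by
  refine law_comm (rat_induction (P := fun r => Law s r) (law_one s)
    (law_comm (law_gen_left (Or.inl rfl) hs)) (fun l => law_comm (law_gen_left (Or.inr ⟨l, rfl⟩) hs))
    (fun a b ha hb h h' => law_mul_right ha hb h h') (fun a b ha hb h => ?_) hr)
  rw [Law, kq_mul_sq ha hb]
  exact h

end FLTAgent.R2.Recip
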