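import Fermat.Agent.R2.RecipRat
import Mathlib.NumberTheory.Padics.Hensel

/-!
R2, parcel C: the local symbols of rational numbers.
-/

set_option autoImplicit false
set_option linter.unusedSectionVars false
set_option linter.style.haveILetI false

noncomputable section

open CategoryTheory groupCohomology

namespace FLTAgent.R2.Recip

open FLTAgent.PT

theorem isSquare_padicInt_of_close {p : ℕ} [Fact p.Prime] {u a : ℤ_[p]}
    (h : ‖a ^ 2 - u‖ < ‖(2 : ℤ_[p]) * a‖ ^ 2) : IsSquare u := by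
  have hF : ∀ z : ℤ_[p], (Polynomial.X ^ 2 - Polynomial.C u : Polynomial ℤ_[p]).aeval z = z ^ 2 - u :=
    fun z => by simp
  have hF' : (Polynomial.X ^ 2 - Polynomial.C u : Polynomial ℤ_[p]).derivative.aeval a = 2 * a := by
    simp [one_add_one_eq_two]
  obtain ⟨z, hz, -⟩ := hensels_lemma (F := (Polynomial.X ^ 2 - Polynomial.C u : Polynomial ℤ_[p]))
    (a := a) (by rw [hF, hF']; exact h)
  exact ⟨z, by rw [hF] at hz; linear_combination -hz⟩

variable {q : Nat.Primes}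

theorem norm_intCast_unit {n : ℤ} (hn : ¬((q : ℕ) : ℤ) ∣ n) : ‖(n : Qq q)‖ = 1 :=
  le_antisymm (Padic.norm_int_le_one n)
    (not_lt.1 fun h => hn (Padic.norm_intCast_lt_one_iff.1 h))

theorem norm_sqrt_unit {n : ℤ} (hn : ¬((q : ℕ) : ℤ) ∣ n) {a : Qq q} (ha : (n : Qq q) = a * a) :
    ‖a‖ = 1 := by
  have h := norm_intCast_unit hn
  rw [ha, norm_mul] at h
  exact (pow_eq_one_iff_of_nonneg (norm_nonneg a) two_ne_zero).1 (by rw [sq]; exact h)

theorem isSquare_zmod {n : ℤ} (hq : (q : ℕ) ≠ 2) (hn : ¬((q : ℕ) : ℤ) ∣ n) :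
    IsSquare (n : Qq q) ↔ IsSquare (n : ZMod (q : ℕ)) := by
  constructor
  · rintro ⟨a, ha⟩
    let b : ℤ_[(q : ℕ)] := ⟨a, (norm_sqrt_unit hn ha).le⟩
    have hb : (n : ℤ_[(q : ℕ)]) = b * b := Subtype.ext (by push_cast; exact ha)
    refine ⟨PadicInt.toZMod b, ?_⟩
    rw [← map_mul, ← hb, map_intCast]
  · rintro ⟨c, hc⟩
    set a : ℤ := ((c.val : ℕ) : ℤ) with hadef
    have h0 : ((q : ℕ) : ℤ) ∣ a ^ 2 - n := (ZMod.intCast_zmod_eq_zero_iff_dvd _ _).1 (by
      rw [Int.cast_sub, Int.cast_pow, hadef, Int.cast_natCast, ZMod.natCast_zmod_val, hc, sq, sub_self])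
    have ha : ¬((q : ℕ) : ℤ) ∣ a := fun h => hn (by
      have h1 : ((q : ℕ) : ℤ) ∣ a ^ 2 := dvd_pow h two_ne_zero
      have h2 := dvd_sub h1 h0
      rwa [sub_sub_cancel] at h2)
    have h2a : ¬((q : ℕ) : ℤ) ∣ 2 * a := fun h => by
      rcases (Nat.prime_iff_prime_int.1 q.2).dvd_or_dvd h with h' | h'
      · exact hq ((Nat.prime_dvd_prime_iff_eq q.2 Nat.prime_two).1 (Int.natCast_dvd_natCast.1 h'))
      · exact ha h'
    have hu : ‖((2 * a : ℤ) : ℤ_[(q : ℕ)])‖ = 1 :=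
      le_antisymm (PadicInt.norm_le_one _) (not_lt.1 fun h => h2a (PadicInt.norm_int_lt_one_iff_dvd _ |>.1 h))
    have hsq := isSquare_padicInt_of_close (p := (q : ℕ)) (u := (n : ℤ_[(q : ℕ)]))
      (a := (a : ℤ_[(q : ℕ)])) (by
        rw [← Int.cast_pow, ← Int.cast_sub, show ((2 : ℤ_[(q : ℕ)]) * (a : ℤ_[(q : ℕ)])) = ((2 * a : ℤ) : ℤ_[(q : ℕ)]) by
          push_cast; ring, hu, one_pow]
        exact PadicInt.norm_int_lt_one_iff_dvd _ |>.2 h0)
    obtain ⟨z, hz⟩ := hsq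
    exact ⟨(z : Qq q), by rw [← PadicInt.coe_intCast, hz, PadicInt.coe_mul]⟩

theorem not_isSquare_of_dvd_once {n : ℤ} (h1 : ((q : ℕ) : ℤ) ∣ n)
    (h2 : ¬((q : ℕ) : ℤ) ^ 2 ∣ n) : ¬IsSquare (n : Qq q) := by
  rintro ⟨a, ha⟩
  have hn0 : (n : Qq q) ≠ 0 := Int.cast_ne_zero.2 fun e => h2 (e ▸ dvd_zero _)
  have ha0 : a ≠ 0 := fun e => hn0 (by rw [ha, e, mul_zero])
  have hv := congrArg Padic.valuation ha
  rw [Padic.valuation_intCast, Padic.valuation_mul ha0 ha0] at hv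
  have hn : n ≠ 0 := fun e => h2 (e ▸ dvd_zero _)
  have e1 : (1 : ℕ) ≤ padicValInt (q : ℕ) n :=
    ((padicValInt_dvd_iff (p := (q : ℕ)) 1 n).1 (by rwa [pow_one])).resolve_left hn
  have e2 : ¬(2 : ℕ) ≤ padicValInt (q : ℕ) n := fun h =>
    h2 ((padicValInt_dvd_iff (p := (q : ℕ)) 2 n).2 (Or.inr h))
  omega

/-- the prime two -/
def two' : Nat.Primes := ⟨2, Nat.prime_two⟩

theorem isSquare_two {n : ℤ} (hn : ¬(2 : ℤ) ∣ n) : IsSquare (n : Qq two') ↔ n % 8 = 1 := by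
  constructor
  · rintro ⟨a, ha⟩
    let b : ℤ_[2] := ⟨a, (norm_sqrt_unit (q := two') hn ha).le⟩
    have hb : (n : ℤ_[2]) = b * b := Subtype.ext (by push_cast; exact ha)
    have h8 : (n : ZMod (2 ^ 3)) = PadicInt.toZModPow 3 b * PadicInt.toZModPow 3 b := by
      rw [← map_mul, ← hb, map_intCast]
    have hodd : ((n % 8 : ℤ) : ZMod (2 ^ 3)) = (n : ZMod (2 ^ 3)) :=
      (ZMod.intCast_eq_intCast_iff' _ _ _).2 (by norm_num)
    rw [← hodd] at h8
    generalize PadicInt.toZModPow 3 b = c at h8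
    have hr : n % 8 = 1 ∨ n % 8 = 3 ∨ n % 8 = 5 ∨ n % 8 = 7 := by omega
    rcases hr with e | e | e | e <;> rw [e] at h8 ⊢ <;> revert c <;> decide
  · intro h
    have hd : ((2 : ℕ) : ℤ) ^ 3 ∣ 1 - n := by norm_num; omega
    have h1 : ‖((1 : ℤ_[2])) ^ 2 - (n : ℤ_[2])‖ < ‖(2 : ℤ_[2]) * 1‖ ^ 2 := by
      have e : ‖((1 - n : ℤ) : ℤ_[2])‖ ≤ ((2 : ℕ) : ℝ) ^ (-((3 : ℕ) : ℤ)) :=
        (PadicInt.norm_int_le_pow_iff_dvd).2 hd
      have h2 : ‖(2 : ℤ_[2])‖ = (2 : ℝ)⁻¹ := by simpa using PadicInt.norm_p (p := 2)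
      rw [one_pow, mul_one, h2]
      push_cast at e
      refine e.trans_lt ?_
      norm_num
    obtain ⟨z, hz⟩ := isSquare_padicInt_of_close h1
    exact ⟨((z : ℚ_[2]) :), by
      show (n : ℚ_[2]) = _
      rw [← PadicInt.coe_intCast, hz, PadicInt.coe_mul]; rfl⟩

theorem kl_eq_zero_iff' {n : ℤ} (hn : n ≠ 0) : kl q (n : ℚ) = 0 ↔ IsSquare (n : Qq q) := by
  rw [kl_eq_zero_iff (Int.cast_ne_zero.2 hn), Rat.cast_intCast]

theorem span_of_indep {V : Type*} [AddCommGroup V] [Module (ZMod 2) V] {k : ℕ} [NeZero k]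
    (v : Fin k → V) (hd : Module.finrank (ZMod 2) V = k)
    (h : ∀ c : Fin k → ZMod 2, c ≠ 0 → (∑ i, c i • v i) ≠ 0) :
    Submodule.span (ZMod 2) (Set.range v) = ⊤ := by
  refine LinearIndependent.span_eq_top_of_card_eq_finrank ?_ (by rw [Fintype.card_fin, hd])
  rw [Fintype.linearIndependent_iff]
  intro c hc
  by_contra hne
  exact h c (fun e => hne fun i => congrFun e i) hc

theorem eq_zero_of_orth (q : Nat.Primes) {k : ℕ} (v : Fin k → lH1 q M2)
    (hv : Submodule.span (ZMod 2) (Set.range v) = ⊤) {y : lH1 q M2}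
    (hy : ∀ i, qlSym q (v i) y = 0) : y = 0 := by
  refine isSelfDual_mulM.nondeg_right q fun x => ?_
  have hx : x ∈ LinearMap.ker ((qlSym q).flip y) := (Submodule.span_le.2
    (show Set.range v ⊆ (LinearMap.ker ((qlSym q).flip y) : Set _) by
      rintro _ ⟨i, rfl⟩; exact hy i)) (hv.symm ▸ Submodule.mem_top : x ∈ Submodule.span _ (Set.range v))
  exact hx

/-- the invariant of a local class of degree two -/
def inv2 (q : Nat.Primes) : lH2 q M2 ≃ₗ[ZMod 2] ZMod 2 :=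
  haveI : Module.Finite (ZMod 2) (lH2 q M2) := Module.finite_of_finrank_eq_succ (finrank_lH2_mu q)
  haveI : Module.Free (ZMod 2) (lH2 q M2) := Module.Free.of_divisionRing _ _
  LinearEquiv.ofFinrankEq (lH2 q M2) (ZMod 2) (by rw [finrank_lH2_mu, Module.finrank_self])

/-- the local symbol as a number -/
def symb (q : Nat.Primes) (r s : ℚ) : ZMod 2 := inv2 q (qlSym q (kl q r) (kl q s))

theorem symb_eq_one_of_ne {r s : ℚ} (h : qlSym q (kl q r) (kl q s) ≠ 0) : symb q r s = 1 :=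
  (cases_two _).resolve_left fun e => h ((inv2 q).map_eq_zero_iff.1 e)

theorem symb_eq_zero {r s : ℚ} (h : qlSym q (kl q r) (kl q s) = 0) : symb q r s = 0 := by
  rw [symb, h, map_zero]

theorem symb_comm (q : Nat.Primes) (r s : ℚ) : symb q r s = symb q s r := by
  rw [symb, symb, qlSym_comm]

theorem symb_unit (hq : (q : ℕ) ≠ 2) {m n : ℤ} (hm : ¬((q : ℕ) : ℤ) ∣ m)
    (hn : ¬((q : ℕ) : ℤ) ∣ n) : symb q (m : ℚ) (n : ℚ) = 0 :=
  symb_eq_zero (isSelfDual_mulM.lSym_unr q hq (kl_unr hq hm) (kl_unr hq hn))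

/-- `(q, n)_q` is the quadratic residue symbol -/
theorem symb_odd (hq : (q : ℕ) ≠ 2) {n : ℤ} (hn : ¬((q : ℕ) : ℤ) ∣ n) :
    symb q ((q : ℕ) : ℚ) (n : ℚ) = if IsSquare (n : ZMod (q : ℕ)) then 0 else 1 := by
  have hn0 : n ≠ 0 := fun e => hn (e ▸ dvd_zero _)
  split_ifs with h
  · refine symb_eq_zero ?_
    rw [(kl_eq_zero_iff' hn0).2 ((isSquare_zmod hq hn).2 h), map_zero]
  refine symb_eq_one_of_ne fun h0 => ?_
  have hns : ¬IsSquare (n : Qq q) := fun e => h ((isSquare_zmod hq hn).1 e)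
  have hqn : ¬((q : ℕ) : ℤ) ^ 2 ∣ ((q : ℕ) : ℤ) * n := fun hd =>
    hn (Int.dvd_of_mul_dvd_mul_left (a := ((q : ℕ) : ℤ)) (by exact_mod_cast q.2.ne_zero) (by rwa [← sq]))
  have hqq : ¬((q : ℕ) : ℤ) ^ 2 ∣ ((q : ℕ) : ℤ) := fun hd => by
    have h' : ((q : ℕ) ^ 2 : ℕ) ∣ (q : ℕ) := Int.natCast_dvd_natCast.1 (by push_cast; exact hd)
    have := Nat.le_of_dvd q.2.pos h'
    have := q.2.two_le
    nlinarith
  have hq0 : ((q : ℕ) : ℤ) ≠ 0 := by exact_mod_cast q.2.ne_zero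
  let v : Fin 2 → lH1 q M2 := ![kl q ((q : ℕ) : ℚ), kl q (n : ℚ)]
  have hspan : Submodule.span (ZMod 2) (Set.range v) = ⊤ := by
    refine span_of_indep v (by rw [finrank_lH1_M2, if_neg hq]) fun c hc => ?_
    rw [Fin.sum_univ_two]
    have k1 : kl q ((q : ℕ) : ℚ) ≠ 0 := fun e => not_isSquare_of_dvd_once dvd_rfl hqq
      ((kl_eq_zero_iff' hq0).1 (by exact_mod_cast e))
    have k2 : kl q (n : ℚ) ≠ 0 := fun e => hns ((kl_eq_zero_iff' hn0).1 e)
    have k3 : kl q ((q : ℕ) : ℚ) + kl q (n : ℚ) ≠ 0 := fun e => by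
      rw [← kl_mul q (by exact_mod_cast q.2.ne_zero) (Int.cast_ne_zero.2 hn0)] at e
      exact not_isSquare_of_dvd_once (dvd_mul_right _ _) hqn
        ((kl_eq_zero_iff' (mul_ne_zero hq0 hn0)).1 (by exact_mod_cast e))
    rcases cases_two (c 0) with e0 | e0 <;> rcases cases_two (c 1) with e1 | e1
    · exact absurd (funext fun i => by fin_cases i <;> assumption) hc
    all_goals simp only [v, e0, e1, Matrix.cons_val_zero, Matrix.cons_val_one, zero_smul, one_smul,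
      zero_add, add_zero]
    · exact k2
    · exact k1
    · exact k3
  refine hns ((kl_eq_zero_iff' hn0).1 (eq_zero_of_orth q v hspan fun i => ?_))
  fin_cases i
  · exact h0
  · exact isSelfDual_mulM.lSym_unr q hq (kl_unr hq hn) (kl_unr hq hn)

section Two

theorem qSym_steinberg {r : ℚ} (h0 : r ≠ 0) (h1 : r ≠ 1) : qSym (kq r) (kq (1 - r)) = 0 := by
  classical
  have hH : IsOpn (⊤ : Subgroup GQ) := ⟨⊥, inferInstance, le_top⟩
  haveI : Finite (GQ ⧸ (⊤ : Subgroup GQ)) := hH.finite_quotient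
  letI := Fintype.ofFinite (GQ ⧸ (⊤ : Subgroup GQ))
  haveI : Subsingleton (GQ ⧸ (⊤ : Subgroup GQ)) := QuotientGroup.subsingleton_quotient_top
  set x0 : GQ ⧸ (⊤ : Subgroup GQ) := ((1 : GQ) : GQ ⧸ (⊤ : Subgroup GQ))
  have h := steinberg hH (isEU_const h0) (by
    simpa using isEU_const (H := (⊤ : Subgroup GQ)) (sub_ne_zero.2 h1.symm))
  have e1 : ∀ {s : ℚ} (hs : s ≠ 0), kU hH (fun _ => (s : AlgebraicClosure ℚ)) =
      h1push (MonoidHom.id GQ) (indConst (⊤ : Subgroup GQ) M2) (fun _ _ => rfl) (kq s) := by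
    intro s hs
    rw [kU_eq hH (isEU_const hs) (isRoot_of_sq (isEU_const hs) fun _ => qrt_sq s) fun _ => qrt_sq s,
      kq_eq (qrt_sq s) hs, kcl]
    refine congrArg (h1mk _ _) (Subtype.ext (funext fun g => funext fun x => ?_))
    exact kap_unique (s := fun _ : GQ ⧸ (⊤ : Subgroup GQ) => qrt s) (g := g) (x := x)
      (isRoot_of_sq (isEU_const hs) fun _ => qrt_sq s) (kapQ_spec (qrt_sq s) g)
  rw [show (fun _ : GQ ⧸ (⊤ : Subgroup GQ) => 1 - (r : AlgebraicClosure ℚ)) =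
      fun _ => ((1 - r : ℚ) : AlgebraicClosure ℚ) from funext fun _ => by push_cast; rfl,
    e1 h0, e1 (sub_ne_zero.2 h1.symm)] at h
  refine Eq.trans ?_ h
  obtain ⟨a, ha⟩ := Submodule.mkQ_surjective _ (kq r)
  obtain ⟨b, hb⟩ := Submodule.mkQ_surjective _ (kq (1 - r))
  rw [← ha, ← hb]
  refine congrArg (h2mk _ _) (Subtype.ext (funext fun g => ?_))
  exact (Fintype.sum_subsingleton (fun _ : GQ ⧸ (⊤ : Subgroup GQ) =>
    (a.1 g.1 : ZMod 2) * (M2.ρ g.1 (b.1 g.2) : ZMod 2)) x0).symm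

theorem qSym_neg_self {r : ℚ} (h0 : r ≠ 0) : qSym (kq r) (kq (-r)) = 0 := by
  rcases eq_or_ne r 1 with rfl | h1
  · rw [kq_one, map_zero, LinearMap.zero_apply]
  have ha : (1 - r : ℚ) ≠ 0 := sub_ne_zero.2 h1.symm
  have hi : r⁻¹ ≠ 1 := fun e => h1 (inv_eq_one.1 e)
  have hb : (1 - r⁻¹ : ℚ) ≠ 0 := sub_ne_zero.2 hi.symm
  have e : (-r) * (1 - r⁻¹) ^ 2 = (1 - r) * (1 - r⁻¹) := by field_simp; ring
  have h2 := kq_mul_sq (neg_ne_zero.2 h0) hb
  rw [e, kq_mul ha hb] at h2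
  rw [← h2, map_add, qSym_steinberg h0 h1, zero_add,
    show kq r = kq r⁻¹ by
      conv_rhs => rw [← kq_mul_sq (inv_ne_zero h0) h0]
      congr 1
      field_simp]
  exact qSym_steinberg (inv_ne_zero h0) hi

theorem symb_neg_self (q : Nat.Primes) {r : ℚ} (h0 : r ≠ 0) : symb q r (-r) = 0 := by
  refine symb_eq_zero ?_
  rw [kl, kl, ← IsSelfDual.res2_gS, qSym_neg_self h0, map_zero]

theorem symb_steinberg (q : Nat.Primes) {r : ℚ} (h0 : r ≠ 0) (h1 : r ≠ 1) :
    symb q r (1 - r) = 0 := by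
  refine symb_eq_zero ?_
  rw [kl, kl, ← IsSelfDual.res2_gS, qSym_steinberg h0 h1, map_zero]

theorem symb_add_right (q : Nat.Primes) (r : ℚ) {s t : ℚ} (hs : s ≠ 0) (ht : t ≠ 0) :
    symb q r (s * t) = symb q r s + symb q r t := by
  rw [symb, kl_mul q hs ht, map_add, map_add]; rfl

theorem symb_neg_four (q : Nat.Primes) (r : ℚ) : symb q r (-4) = symb q r (-1) := by
  rw [symb, symb, show (-4 : ℚ) = -1 * 2 ^ 2 by norm_num, kl_mul_sq q (by norm_num) two_ne_zero]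

theorem kl2_ne {n : ℤ} (hn : n ≠ 0) (h : ¬IsSquare (n : Qq two')) : kl two' (n : ℚ) ≠ 0 :=
  fun e => h ((kl_eq_zero_iff' hn).1 e)

/-- a basis at two -/
def v2 : Fin 3 → lH1 two' M2 := ![kl two' (-1 : ℤ), kl two' (2 : ℤ), kl two' (5 : ℤ)]

theorem span_v2 : Submodule.span (ZMod 2) (Set.range v2) = ⊤ := by
  refine span_of_indep v2 (by rw [finrank_lH1_M2, if_pos (show ((two' : Nat.Primes) : ℕ) = 2 from rfl)]) fun c hc => ?_
  rw [Fin.sum_univ_three]
  have unit : ∀ n : ℤ, ¬(2 : ℤ) ∣ n → n % 8 ≠ 1 → kl two' (n : ℚ) ≠ 0 := fun n h1 h2 =>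
    kl2_ne (by rintro rfl; exact h1 (dvd_zero _)) fun h => h2 ((isSquare_two h1).1 h)
  have even : ∀ n : ℤ, (2 : ℤ) ∣ n → ¬(2 : ℤ) ^ 2 ∣ n → kl two' (n : ℚ) ≠ 0 := fun n h1 h2 =>
    kl2_ne (by rintro rfl; exact h2 (dvd_zero _)) (not_isSquare_of_dvd_once (q := two') h1 h2)
  have hm : ∀ m n : ℤ, m ≠ 0 → n ≠ 0 → kl two' (m : ℚ) + kl two' (n : ℚ) = kl two' ((m * n : ℤ) : ℚ) :=
    fun m n hm hn => by rw [Int.cast_mul, kl_mul two' (Int.cast_ne_zero.2 hm) (Int.cast_ne_zero.2 hn)]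
  rcases cases_two (c 0) with e0 | e0 <;> rcases cases_two (c 1) with e1 | e1 <;>
    rcases cases_two (c 2) with e2 | e2
  · exact absurd (funext fun i => by fin_cases i <;> assumption) hc
  all_goals simp only [v2, e0, e1, e2, Matrix.cons_val_zero, Matrix.cons_val_one, Matrix.cons_val,
    zero_smul, one_smul, zero_add, add_zero]
  · exact unit 5 (by decide) (by decide)
  · exact even 2 (by decide) (by decide)
  · rw [hm _ _ (by decide) (by decide)]; exact even _ (by decide) (by decide)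
  · exact unit (-1) (by decide) (by decide)
  · rw [hm _ _ (by decide) (by decide)]; exact unit _ (by decide) (by decide)
  · rw [hm _ _ (by decide) (by decide)]; exact even _ (by decide) (by decide)
  · rw [hm _ _ (by decide) (by decide), hm _ _ (by decide) (by decide)]
    exact even _ (by decide) (by decide)

theorem symb_two_neg_one : symb two' 2 (-1) = 0 := by
  rw [show (-1 : ℚ) = 1 - 2 by norm_num]
  exact symb_steinberg two' two_ne_zero (by norm_num)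

theorem symb_five_neg_one : symb two' 5 (-1) = 0 := by
  rw [← symb_neg_four]
  rw [show (-4 : ℚ) = 1 - 5 by norm_num]
  exact symb_steinberg two' (by norm_num) (by norm_num)

theorem symb_five_five : symb two' 5 5 = 0 := by
  have h := symb_neg_self two' (r := 5) (by norm_num)
  rwa [show (-5 : ℚ) = -1 * 5 by norm_num, symb_add_right two' 5 (by norm_num) (by norm_num),
    symb_five_neg_one, zero_add] at h

theorem symb_neg_one_neg_one : symb two' (-1) (-1) = 1 := by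
  refine (cases_two _).resolve_left fun h => ?_
  have hz : kl two' ((-1 : ℤ) : ℚ) = 0 := by
    refine eq_zero_of_orth two' v2 span_v2 fun i => (inv2 two').map_eq_zero_iff.1 ?_
    fin_cases i
    · show symb two' ((-1 : ℤ) : ℚ) ((-1 : ℤ) : ℚ) = 0
      simpa using h
    · show symb two' ((2 : ℤ) : ℚ) ((-1 : ℤ) : ℚ) = 0
      simpa using symb_two_neg_one
    · show symb two' ((5 : ℤ) : ℚ) ((-1 : ℤ) : ℚ) = 0
      simpa using symb_five_neg_one
  exact absurd ((isSquare_two (by decide)).1 ((kl_eq_zero_iff' (by decide)).1 hz)) (by decide)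

theorem symb_two_five : symb two' 2 5 = 1 := by
  refine (cases_two _).resolve_left fun h => ?_
  have hz : kl two' ((5 : ℤ) : ℚ) = 0 := by
    refine eq_zero_of_orth two' v2 span_v2 fun i => (inv2 two').map_eq_zero_iff.1 ?_
    fin_cases i
    · show symb two' ((-1 : ℤ) : ℚ) ((5 : ℤ) : ℚ) = 0
      rw [symb_comm]
      simpa using symb_five_neg_one
    · show symb two' ((2 : ℤ) : ℚ) ((5 : ℤ) : ℚ) = 0
      simpa using h
    · show symb two' ((5 : ℤ) : ℚ) ((5 : ℤ) : ℚ) = 0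
      simpa using symb_five_five
  exact absurd ((isSquare_two (by decide)).1 ((kl_eq_zero_iff' (by decide)).1 hz)) (by decide)

/-- the class of an odd number at two -/
theorem kl_two_unit {u : ℤ} (hu : ¬(2 : ℤ) ∣ u) :
    kl two' (u : ℚ) = (if u % 4 = 3 then (1 : ZMod 2) else 0) • kl two' (-1) +
      (if u % 8 = 3 ∨ u % 8 = 5 then (1 : ZMod 2) else 0) • kl two' 5 := by
  have key : ∀ w : ℤ, w ≠ 0 → (u * w) % 8 = 1 → kl two' (u : ℚ) = kl two' (w : ℚ) := by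
    intro w hw h
    have hu0 : u ≠ 0 := by rintro rfl; exact hu (dvd_zero _)
    have h2 : ¬(2 : ℤ) ∣ u * w := fun hd => by omega
    have h0 : kl two' ((u * w : ℤ) : ℚ) = 0 :=
      (kl_eq_zero_iff' (mul_ne_zero hu0 hw)).2 ((isSquare_two h2).2 h)
    rw [Int.cast_mul, kl_mul two' (Int.cast_ne_zero.2 hu0) (Int.cast_ne_zero.2 hw)] at h0
    rw [← add_zero (kl two' (u : ℚ)), ← add_self_two (kl two' (w : ℚ)), ← add_assoc, h0, zero_add]
  have hr : u % 8 = 1 ∨ u % 8 = 3 ∨ u % 8 = 5 ∨ u % 8 = 7 := by omega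
  rcases hr with e | e | e | e
  · rw [if_neg (by omega), if_neg (by omega), zero_smul, zero_smul, add_zero]
    rw [key 1 one_ne_zero (by omega), kl, Int.cast_one, kq_one, map_zero]
  · rw [if_pos (by omega), if_pos (Or.inl e), one_smul, one_smul, key (-5) (by decide) (by omega),
      ← kl_mul two' (by norm_num) (by norm_num)]
    norm_num
  · rw [if_neg (by omega), if_pos (Or.inr e), zero_smul, one_smul, zero_add,
      key 5 (by decide) (by omega)]
    norm_num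
  · rw [if_pos (by omega), if_neg (by omega), zero_smul, one_smul, add_zero,
      key (-1) (by decide) (by omega)]
    norm_num

theorem symb_two_units {u w : ℤ} (hu : ¬(2 : ℤ) ∣ u) (hw : ¬(2 : ℤ) ∣ w) :
    symb two' (u : ℚ) (w : ℚ) = if u % 4 = 3 ∧ w % 4 = 3 then 1 else 0 := by
  have h11 := symb_neg_one_neg_one
  have h51 := symb_five_neg_one
  have h15 := (symb_comm two' (-1) 5).trans symb_five_neg_one
  have h55 := symb_five_five
  unfold symb at h11 h51 h15 h55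
  rw [symb, kl_two_unit hu, kl_two_unit hw]
  simp only [map_add, map_smul, LinearMap.add_apply, LinearMap.smul_apply, h11, h51, h15, h55,
    smul_eq_mul, mul_zero, add_zero, mul_one]
  by_cases hu3 : u % 4 = 3 <;> by_cases hw3 : w % 4 = 3 <;> simp [hu3, hw3]

theorem symb_two_two_unit {u : ℤ} (hu : ¬(2 : ℤ) ∣ u) :
    symb two' 2 (u : ℚ) = if u % 8 = 3 ∨ u % 8 = 5 then 1 else 0 := by
  have h1 := symb_two_neg_one
  have h5 := symb_two_five
  unfold symb at h1 h5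
  rw [symb, kl_two_unit hu]
  simp only [map_add, map_smul, h1, h5, smul_eq_mul, mul_zero, zero_add, mul_one]

end Two

end FLTAgent.R2.Recip
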