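import Fermat.Agent.R2.RecipCup
import Fermat.Agent.PT.LocalAPI

/-!
R2, parcel C: self-dual modules at `2`: the local symbol is perfect, unramified classes are
orthogonal to each other at odd primes.
-/

set_option autoImplicit false
set_option linter.unusedSectionVars false
set_option linter.style.haveILetI false

noncomputable section

open CategoryTheory groupCohomology

namespace FLTAgent.R2.Recip

open FLTAgent.PT

variable {M : Rep.{0} (ZMod 2) GQ}

/-- a perfect invariant form with values in `μ₂` -/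
structure IsSelfDual (φ : M →ₗ[ZMod 2] M →ₗ[ZMod 2] M2) : Prop where
  eqv : IsEqv φ
  inj : ∀ y, (∀ x, φ x y = 0) → y = 0
  adm : IsAdm (MonoidHom.id GQ) M

namespace IsSelfDual

variable {φ : M →ₗ[ZMod 2] M →ₗ[ZMod 2] M2} (h : IsSelfDual φ) (q : Nat.Primes)
include h

/-- the map to the dual -/
def toDual : M ≃ₗ[ZMod 2] dual' M :=
  haveI := h.adm.finite
  haveI : Module.Free (ZMod 2) M := Module.Free.of_divisionRing _ _
  LinearEquiv.ofBijective (φ.flip : M →ₗ[ZMod 2] Module.Dual (ZMod 2) M) (by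
    have hi : Function.Injective (φ.flip : M →ₗ[ZMod 2] Module.Dual (ZMod 2) M) := by
      rw [injective_iff_map_eq_zero]
      exact fun y hy => h.inj y fun x => LinearMap.congr_fun hy x
    exact ⟨hi, (LinearMap.injective_iff_surjective_of_finrank_eq_finrank
      Subspace.dual_finrank_eq.symm).1 hi⟩)

theorem toDual_eqv (g : GQ) (y : M) : h.toDual (M.ρ g y) = (dual' M).ρ g (h.toDual y) := by
  refine LinearMap.ext fun x => ?_
  show (φ x (M.ρ g y) : ZMod 2) =
    (((ExtCitation.cycloChar 2 g : (ZMod 2)ˣ) : ZMod 2) • ((φ.flip y) ∘ₗ M.ρ g⁻¹)) x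
  rw [cyc_two, Units.val_one, one_smul, LinearMap.comp_apply, LinearMap.flip_apply]
  have e := h.eqv g (M.ρ g⁻¹ x) y
  rw [mu_two_rho, ← Module.End.mul_apply, ← map_mul, mul_inv_cancel, map_one,
    Module.End.one_apply] at e
  exact e

theorem toDual_symm_eqv (g : GQ) (f : dual' M) :
    h.toDual.symm ((dual' M).ρ g f) = M.ρ g (h.toDual.symm f) := by
  apply h.toDual.injective
  rw [toDual_eqv, LinearEquiv.apply_symm_apply, LinearEquiv.apply_symm_apply]

/-- the local symbol of the form -/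
def lSym : lH1 q M →ₗ[ZMod 2] lH1 q M →ₗ[ZMod 2] lH2 q M2 :=
  cupH (loc q) (A := Rep.res (loc q) M) (B := Rep.res (loc q) M) (C := Rep.res (loc q) M2) φ
    (fun g => h.eqv (loc q g)) (h.adm.res _)

/-- the classes of `M` as classes of the dual -/
def push : lH1 q M →ₗ[ZMod 2] lH1 q (dual' M) :=
  h1push (loc q) (A := Rep.res (loc q) M) (B := Rep.res (loc q) (dual' M)) h.toDual.toLinearMap
    fun g y => h.toDual_eqv (loc q g) y

theorem push_bijective : Function.Bijective (h.push q) :=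
  Loc.h1push_bijective (A := Rep.res (loc q) M) (B := Rep.res (loc q) (dual' M))
    h.toDual.toLinearMap h.toDual.symm.toLinearMap (fun g y => h.toDual_eqv (loc q g) y)
    (fun g f => h.toDual_symm_eqv (loc q g) f) (fun y => h.toDual.symm_apply_apply y)
    (fun f => h.toDual.apply_symm_apply f)

theorem lSym_eq (x y : lH1 q M) : h.lSym q x y = pair11 q h.adm x (h.push q y) := by
  obtain ⟨z, rfl⟩ := Submodule.mkQ_surjective _ x
  obtain ⟨w, rfl⟩ := Submodule.mkQ_surjective _ y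
  show h.lSym q (h1mk _ _ z) (h1mk _ _ w) = pair11 q h.adm (h1mk _ _ z) (h.push q (h1mk _ _ w))
  refine congrArg (h2mk (loc q) (Rep.res (loc q) M2)) (Subtype.ext (funext fun g => ?_))
  show φ (z.1 g.1) (M.ρ (loc q g.1) (w.1 g.2)) =
    ((dual' M).ρ (loc q g.1) (h.toDual (w.1 g.2))) (z.1 g.1)
  rw [← toDual_eqv]
  rfl

theorem nondeg_right {y : lH1 q M} (hy : ∀ x, h.lSym q x y = 0) : y = 0 := by
  refine (h.push_bijective q).1 ?_
  rw [map_zero]
  refine (pair11_bijective q h.adm).2.1 (LinearMap.ext fun x => ?_)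
  rw [LinearMap.flip_apply, ← lSym_eq, hy, map_zero, LinearMap.zero_apply]

theorem nondeg_left {x : lH1 q M} (hx : ∀ y, h.lSym q x y = 0) : x = 0 := by
  refine (pair11_bijective q h.adm).1.1 (LinearMap.ext fun f => ?_)
  obtain ⟨y, rfl⟩ := (h.push_bijective q).2 f
  rw [← lSym_eq, hx, map_zero, LinearMap.zero_apply]

theorem push_unr {x : lH1 q M} (hx : x ∈ unr1 q M) : h.push q x ∈ unr1 q (dual' M) := by
  obtain ⟨z, hz, rfl⟩ := hx
  refine ⟨⟨_, pullPush_mem_Z1 (loc q) (r' := loc q) (MonoidHom.id _) (fun _ => rfl)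
    (A := Rep.res (loc q) M) (B := Rep.res (loc q) (dual' M)) h.toDual.toLinearMap
    (fun g y => h.toDual_eqv (loc q g) y) z.2⟩, fun s hs => ?_, rfl⟩
  show h.toDual (z.1 s) = 0
  rw [hz s hs, map_zero]

theorem lSym_unr (hq : (q : ℕ) ≠ 2) {x y : lH1 q M} (hx : x ∈ unr1 q M) (hy : y ∈ unr1 q M) :
    h.lSym q x y = 0 := by
  rw [lSym_eq]
  exact Loc.pair11_unr hq h.adm hx (h.push_unr q hy)

/-- at an odd prime where the module is unramified the unramified classes are their own annihilator -/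
theorem unr_of_orth (hq : (q : ℕ) ≠ 2) (hu : IsUnrAt q M) {y : lH1 q M}
    (hy : ∀ x ∈ unr1 q M, h.lSym q x y = 0) : y ∈ unr1 q M := by
  have h1 : h.push q y ∈ unr1 q (dual' M) := (unr1_orthogonal' q hq h.adm hu _).2 fun x hx => by
    rw [← lSym_eq]; exact hy x hx
  obtain ⟨w, hw, hwy⟩ := h1
  obtain ⟨z, rfl⟩ := Submodule.mkQ_surjective _ y
  have key : h1push (loc q) (A := Rep.res (loc q) (dual' M)) (B := Rep.res (loc q) M)
      h.toDual.symm.toLinearMap (fun g f => h.toDual_symm_eqv (loc q g) f)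
      (h.push q (h1mk _ _ z)) = h1mk _ _ z := by
    rw [push, h1map_mk, h1map_mk]
    exact congrArg _ (Subtype.ext (funext fun g => h.toDual.symm_apply_apply _))
  show h1mk _ _ z ∈ _
  rw [← key]
  change h1mk _ _ w = h.push q (h1mk _ _ z) at hwy
  rw [← hwy, h1map_mk]
  refine ⟨_, fun s hs => ?_, rfl⟩
  show h.toDual.symm (w.1 s) = 0
  rw [hw s hs, map_zero]

/-- the global symbol of the form -/
def gS : cH1 (MonoidHom.id GQ) M →ₗ[ZMod 2] cH1 (MonoidHom.id GQ) M →ₗ[ZMod 2]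
    cH2 (MonoidHom.id GQ) M2 :=
  cupH (MonoidHom.id GQ) φ h.eqv h.adm

theorem res2_gS (x y : cH1 (MonoidHom.id GQ) M) :
    res2 q M2 (h.gS x y) = h.lSym q (res1 q M x) (res1 q M y) := by
  obtain ⟨z, rfl⟩ := Submodule.mkQ_surjective _ x
  obtain ⟨w, rfl⟩ := Submodule.mkQ_surjective _ y
  rfl

end IsSelfDual

/-- multiplication on `μ₂ = 𝔽₂` -/
def mulM : M2 →ₗ[ZMod 2] M2 →ₗ[ZMod 2] M2 :=
  LinearMap.mul (ZMod 2) (ZMod 2)

theorem mulM_apply (a b : M2) : (mulM a b : ZMod 2) = (a : ZMod 2) * b := rfl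

theorem isSelfDual_mulM : IsSelfDual mulM where
  eqv := fun g a b => by rw [mu_two_rho, mu_two_rho, mu_two_rho]
  inj := fun y hy => (one_mul (y : ZMod 2)).symm.trans (hy (1 : ZMod 2))
  adm := isAdm_mu 2

/-- the symbol over `ℚ` -/
abbrev qSym : cH1 (MonoidHom.id GQ) M2 →ₗ[ZMod 2] cH1 (MonoidHom.id GQ) M2 →ₗ[ZMod 2]
    cH2 (MonoidHom.id GQ) M2 :=
  isSelfDual_mulM.gS

/-- the local symbol over `ℚ_q` -/
abbrev qlSym (q : Nat.Primes) : lH1 q M2 →ₗ[ZMod 2] lH1 q M2 →ₗ[ZMod 2] lH2 q M2 :=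
  isSelfDual_mulM.lSym q

end FLTAgent.R2.Recip
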