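import Fermat.Agent.R2.RecipPair
import Fermat.Agent.Local.Degree
import Fermat.Agent.TOR.InertiaVal

/-!
R2, parcel C: Kummer classes of rational numbers, locally.
-/

set_option autoImplicit false
set_option linter.unusedSectionVars false
set_option linter.style.haveILetI false

noncomputable section

open CategoryTheory groupCohomology

namespace FLTAgent.R2.Recip

open FLTAgent.PT FLTAgent.PT.Loc

/-- the algebraic closure of `ℚ` -/
local notation "Qb" => AlgebraicClosure ℚ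

/-- a square root of a rational number -/
def qrt (r : ℚ) : Qb := (IsAlgClosed.exists_pow_nat_eq (r : Qb) (n := 2) two_pos).choose

theorem qrt_sq (r : ℚ) : qrt r ^ 2 = (r : Qb) :=
  (IsAlgClosed.exists_pow_nat_eq (r : Qb) (n := 2) two_pos).choose_spec

theorem qrt_ne {r : ℚ} (hr : r ≠ 0) : qrt r ≠ 0 := fun e =>
  hr (Rat.cast_eq_zero.1 (show (r : Qb) = 0 by rw [← qrt_sq, e, zero_pow two_ne_zero]))

/-- the sign character of a number -/
def kapQ (t : Qb) (g : GQ) : M2 := (if g t = t then 0 else 1 : ZMod 2)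

theorem kapQ_spec {t : Qb} {r : ℚ} (ht : t ^ 2 = (r : Qb)) (g : GQ) :
    g t = sgn (kapQ t g) * t := by
  by_cases h : g t = t
  · rw [show (kapQ t g : ZMod 2) = 0 from if_pos h, sgn_zero, one_mul, h]
  · rw [show (kapQ t g : ZMod 2) = 1 from if_neg h, sgn_one, neg_one_mul]
    exact (sq_eq_sq_iff_eq_or_eq_neg.1 (by rw [← map_pow, ht, map_ratCast] : g t ^ 2 = t ^ 2)).resolve_left h

theorem kapQ_unique {t : Qb} {r : ℚ} (ht : t ^ 2 = (r : Qb)) (hr : r ≠ 0) {g : GQ} {a : ZMod 2}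
    (h : g t = sgn a * t) : (kapQ t g : ZMod 2) = a :=
  sgn_inj (fun e => hr (Rat.cast_eq_zero.1 (show (r : Qb) = 0 by rw [← ht, e, zero_pow two_ne_zero])))
    ((kapQ_spec ht g).symm.trans h)

theorem kapQ_mem {t : Qb} {r : ℚ} (ht : t ^ 2 = (r : Qb)) (hr : r ≠ 0) :
    kapQ t ∈ Z1 (MonoidHom.id GQ) M2 := by
  refine ⟨(mem_cocycles₁_iff _).2 fun g h => ?_, ?_⟩
  · show (kapQ t (g * h) : ZMod 2) = (M2.ρ g (kapQ t h) : ZMod 2) + kapQ t g
    rw [mu_two_rho]
    refine kapQ_unique ht hr ?_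
    rw [AlgEquiv.mul_apply, kapQ_spec ht h, map_mul, map_sgn, kapQ_spec ht g, sgn_add, mul_assoc]
  · obtain ⟨E, hE, hfix⟩ := exists_level_fix fun _ : Unit => t
    refine ⟨E, hE, fun g s hs => ?_⟩
    refine kapQ_unique ht hr ?_
    rw [AlgEquiv.mul_apply, hfix s hs (), kapQ_spec ht g]

open Classical in
/-- the Kummer class of a rational number (junk at zero) -/
def kq (r : ℚ) : cH1 (MonoidHom.id GQ) M2 :=
  if hr : r ≠ 0 then h1mk _ _ ⟨kapQ (qrt r), kapQ_mem (qrt_sq r) hr⟩ else 0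

theorem kq_eq {t : Qb} {r : ℚ} (ht : t ^ 2 = (r : Qb)) (hr : r ≠ 0) :
    kq r = h1mk _ _ ⟨kapQ t, kapQ_mem ht hr⟩ := by
  rw [kq, dif_pos hr]
  refine congrArg _ (Subtype.ext (funext fun g => kapQ_unique (qrt_sq r) hr ?_))
  obtain ⟨a, ha⟩ := exists_sgn ((qrt_sq r).trans ht.symm)
  rw [ha, map_mul, map_sgn, kapQ_spec ht, ← mul_assoc, mul_comm (sgn a), mul_assoc]

theorem kq_mul {r s : ℚ} (hr : r ≠ 0) (hs : s ≠ 0) : kq (r * s) = kq r + kq s := by
  have ht : (qrt r * qrt s) ^ 2 = ((r * s : ℚ) : Qb) := by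
    rw [mul_pow, qrt_sq, qrt_sq, Rat.cast_mul]
  rw [kq_eq ht (mul_ne_zero hr hs), kq_eq (qrt_sq r) hr, kq_eq (qrt_sq s) hs, ← map_add]
  refine congrArg _ (Subtype.ext (funext fun g => kapQ_unique ht (mul_ne_zero hr hs) ?_))
  show g (qrt r * qrt s) = sgn ((kapQ (qrt r) g : ZMod 2) + kapQ (qrt s) g) * (qrt r * qrt s)
  rw [map_mul, kapQ_spec (qrt_sq r), kapQ_spec (qrt_sq s), sgn_add]
  ring

theorem add_self_two {V : Type*} [AddCommGroup V] [Module (ZMod 2) V] (x : V) : x + x = 0 := by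
  rw [← two_smul (ZMod 2), show (2 : ZMod 2) = 0 from rfl, zero_smul]

theorem kq_mul_sq {r s : ℚ} (hr : r ≠ 0) (hs : s ≠ 0) : kq (r * s ^ 2) = kq r := by
  rw [sq, kq_mul hr (mul_ne_zero hs hs), kq_mul hs hs, add_self_two, add_zero]

theorem kq_one : kq 1 = 0 := by
  have h := kq_mul one_ne_zero one_ne_zero
  rw [one_mul] at h
  exact left_eq_add.1 h

section Loc

variable (q : Nat.Primes)

/-- the local class -/
def kl (r : ℚ) : lH1 q M2 := res1 q M2 (kq r)

theorem kl_mul {r s : ℚ} (hr : r ≠ 0) (hs : s ≠ 0) : kl q (r * s) = kl q r + kl q s := by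
  rw [kl, kq_mul hr hs, map_add]; rfl

theorem kl_mul_sq {r s : ℚ} (hr : r ≠ 0) (hs : s ≠ 0) : kl q (r * s ^ 2) = kl q r := by
  rw [kl, kq_mul_sq hr hs]; rfl

variable {q}

theorem kl_eq_zero_iff {r : ℚ} (hr : r ≠ 0) : kl q r = 0 ↔ IsSquare (r : Qq q) := by
  have hd : kl q r = 0 ↔ ∀ g : Gam q, loc q g (qrt r) = qrt r := by
    rw [kl, kq_eq (qrt_sq r) hr, res1, h1map_mk, h1mk_eq_zero_iff]
    constructor
    · rintro ⟨m, hm⟩ g
      have h := hm g
      change M2.ρ (loc q g) m - m = kapQ (qrt r) (loc q g) at h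
      rw [mu_two_rho, sub_self] at h
      rw [kapQ_spec (qrt_sq r), ← h]
      show sgn (0 : ZMod 2) * qrt r = qrt r
      rw [sgn_zero, one_mul]
    · intro h
      refine ⟨0, fun g => ?_⟩
      rw [map_zero, sub_zero]
      exact (kapQ_unique (qrt_sq r) hr (a := 0) (by rw [h g, sgn_zero, one_mul])).symm
  rw [hd]
  constructor
  · intro h
    have hmem : iota q (qrt r) ∈ KF (⊤ : Subgroup (Gam q)) := mem_KF.2 fun g _ => by
      rw [← iota_loc, h g]
    rw [KF_top, IntermediateField.mem_bot] at hmem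
    obtain ⟨a, ha⟩ := hmem
    refine ⟨a, (algebraMap (Qq q) (Cq q)).injective ?_⟩
    rw [map_ratCast, map_mul, ha, ← map_mul, ← sq, qrt_sq, map_ratCast]
  · rintro ⟨a, ha⟩ g
    have h2 : iota q (qrt r) ^ 2 = algebraMap (Qq q) (Cq q) a ^ 2 := by
      rw [← map_pow, qrt_sq, ← map_pow, sq, ← ha, map_ratCast, map_ratCast]
    refine (iota q).toRingHom.injective (show iota q (loc q g (qrt r)) = iota q (qrt r) from ?_)
    rw [iota_loc]
    rcases sq_eq_sq_iff_eq_or_eq_neg.1 h2 with e | e <;>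
      simp only [e, map_neg, AlgEquiv.commutes]

/-- units have unramified classes at odd primes -/
theorem kl_unr (hq : (q : ℕ) ≠ 2) {n : ℤ} (hn : ¬((q : ℕ) : ℤ) ∣ n) :
    kl q (n : ℚ) ∈ unr1 q M2 := by
  have hn0 : n ≠ 0 := fun e => hn (e ▸ dvd_zero _)
  have hnq : ((n : ℤ) : ℚ) ≠ 0 := Int.cast_ne_zero.2 hn0
  rw [kl, kq_eq (qrt_sq _) hnq, res1, h1map_mk]
  refine ⟨_, fun g hg => ?_, rfl⟩
  show (kapQ (qrt (n : ℚ)) (loc q g) : ZMod 2) = 0
  refine kapQ_unique (qrt_sq _) hnq ?_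
  rw [sgn_zero, one_mul]
  set t := qrt (n : ℚ) with htdef
  set A := ExtCitation.primeLocalPlace q
  have hA : A.LiesOverPrime (q : ℕ) := lies_plc q
  have hval : A.valuation (t : Qb) = 1 := by
    have hsq : A.valuation t ^ 2 = 1 := by
      rw [← map_pow, qrt_sq, Rat.cast_intCast]
      rcases Int.natAbs_eq n with e | e <;> rw [e] <;>
        simp only [Int.cast_neg, Int.cast_natCast, Valuation.map_neg] <;>
        exact Local.valuation_natCast_of_not_dvd hA q.2 fun hd =>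
          hn (Int.natCast_dvd.2 hd)
    exact (pow_eq_one_iff_of_nonneg zero_le two_ne_zero).1 hsq
  by_contra hne
  have hs : loc q g t = -t :=
    (sq_eq_sq_iff_eq_or_eq_neg.1 (by rw [← map_pow, qrt_sq, map_ratCast] :
      loc q g t ^ 2 = t ^ 2)).resolve_left hne
  have h := TOR.inertia_sub_lt (show loc q g ∈ A.inertiaSubgroupIn ℚ from hg)
    ((A.valuation_le_one_iff t).1 hval.le)
  rw [hs, show -t - t = -((2 : ℕ) * t) by push_cast; ring, Valuation.map_neg, map_mul, hval,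
    mul_one, Local.valuation_natCast_of_not_dvd hA q.2 fun hd =>
      hq ((Nat.prime_dvd_prime_iff_eq q.2 Nat.prime_two).1 hd)] at h
  exact lt_irrefl _ h

/-- the dimension of the local classes -/
theorem finrank_lH1_M2 (q : Nat.Primes) :
    Module.finrank (ZMod 2) (lH1 q M2) = if (q : ℕ) = 2 then 3 else 2 := by
  haveI : Finite (Gam q ⧸ (⊤ : Subgroup (Gam q))) := finite_quot (openU_top q)
  haveI : Subsingleton (Gam q ⧸ (⊤ : Subgroup (Gam q))) := QuotientGroup.subsingleton_quotient_top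
  have hb : Function.Bijective (eps1 (⊤ : Subgroup (Gam q)) M2) := by
    let g : Rep.res (loc q) M2 →ₗ[ZMod 2] Ind (⊤ : Subgroup (Gam q)) M2 :=
      LinearMap.pi fun _ => LinearMap.id
    have hsum : ∀ f : Ind (⊤ : Subgroup (Gam q)) M2,
        indSum (⊤ : Subgroup (Gam q)) (Rep.res (loc q) M2) f =
          f ((1 : Gam q) : Gam q ⧸ (⊤ : Subgroup (Gam q))) := by
      intro f
      letI := Fintype.ofFinite (Gam q ⧸ (⊤ : Subgroup (Gam q)))
      show (∑ y, f y) = _
      exact Fintype.sum_subsingleton _ _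
    refine h1push_bijective _ g indSum_Ind_eqv (fun _ _ => rfl) (fun f => ?_) fun a => ?_
    · funext y
      rw [Subsingleton.elim y ((1 : Gam q) : Gam q ⧸ (⊤ : Subgroup (Gam q)))]
      exact hsum f
    · rw [hsum]
      rfl
  rw [← (LinearEquiv.ofBijective _ hb).finrank_eq,
    (LinearEquiv.ofBijective _ (ev1_bijective (openU_top q) (isAdm_mu 2))).finrank_eq]
  refine finrank_cH1_mu (openU_top q) ?_
  rw [muCard_of_triv (fun u _ => by simp only [om, cyc_two, Units.val_one]), Subgroup.index_top,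
    pow_one]
  split_ifs <;> norm_num

theorem qlSym_comm (q : Nat.Primes) (x y : lH1 q M2) : qlSym q x y = qlSym q y x := by
  have h := Loc.cupH_flip (r := loc q) (A := Rep.res (loc q) M2) (B := Rep.res (loc q) M2)
    (C := Rep.res (loc q) M2) (φ := mulM) (fun g => isSelfDual_mulM.eqv (loc q g))
    ((isAdm_mu 2).res _) ((isAdm_mu 2).res _) mulM (fun g => isSelfDual_mulM.eqv (loc q g))
    (fun a b => (mul_comm (b : ZMod 2) (a : ZMod 2) :)) x y
  change qlSym q x y + qlSym q y x = 0 at h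
  rw [← add_zero (qlSym q x y), ← add_self_two (qlSym q y x), ← add_assoc, h, zero_add]

end Loc

end FLTAgent.R2.Recip
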