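import Fermat.Agent.R2.RecipCubic
import Fermat.Agent.PT.Global.Units
import Fermat.Agent.PT.GlobalAPI

/-!
R2, parcel C: the Selmer space of a plane over `𝔽₂` with full image: finiteness, isotropy, and the
killing of classes by auxiliary primes.
-/

set_option autoImplicit false
set_option linter.unusedSectionVars false
set_option linter.style.haveILetI false

noncomputable section

open CategoryTheory groupCohomology Matrix
open scoped Pointwise

namespace FLTAgent.R2.Sel

open FLTAgent.PT FLTAgent.R2.Recip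

local notation "V₂" => Fin 2 → ZMod 2
local notation "M₂" => Matrix (Fin 2) (Fin 2) (ZMod 2)

theorem det_eq_one (r : GQ →* M₂) (g : GQ) : (r g).det = 1 := by
  have h : (r g).det * (r g⁻¹).det = 1 := by
    rw [← Matrix.det_mul, ← map_mul, mul_inv_cancel, map_one, Matrix.det_one]
  revert h
  generalize (r g).det = a
  generalize (r g⁻¹).det = b
  revert a b
  decide

/-- the representation of a matrix action -/
def plane (r : GQ →* M₂) : Rep.{0} (ZMod 2) GQ :=
  Rep.of
    ({ toFun := fun g => Matrix.mulVecLin (r g)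
       map_one' := by rw [map_one, Matrix.mulVecLin_one]; rfl
       map_mul' := fun g h => by rw [map_mul, Matrix.mulVecLin_mul]; rfl } :
      Representation (ZMod 2) GQ V₂)

theorem plane_rho (r : GQ →* M₂) (g : GQ) (v : V₂) : (plane r).ρ g v = r g *ᵥ v := rfl

/-- hypotheses on the plane -/
structure IsPlane (r : GQ →* M₂) : Prop where
  level : ∃ F : IntermediateField ℚ (AlgebraicClosure ℚ), FiniteDimensional ℚ F ∧
    ∀ g ∈ F.fixingSubgroup, r g = 1
  irr : ∀ v : V₂, (∀ g, r g *ᵥ v = v) → v = 0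
  inf : r complexConjugation ≠ 1

variable {r : GQ →* M₂}

theorem IsPlane.adm (h : IsPlane r) : IsAdm (MonoidHom.id GQ) (plane r) := by
  obtain ⟨F, hF, hr⟩ := h.level
  refine ⟨inferInstanceAs (Module.Finite (ZMod 2) V₂), F, hF, fun g hg => LinearMap.ext fun v => ?_⟩
  show r g *ᵥ (v : V₂) = v
  exact (congrArg (fun A : M₂ => A *ᵥ (v : V₂)) (hr g hg)).trans (Matrix.one_mulVec (v : V₂))

/-- the alternating form -/
def detB (v w : V₂) : ZMod 2 := v 0 * w 1 + v 1 * w 0

theorem detB_mul : ∀ (A : M₂) (v w : V₂), A.det = 1 → detB (A *ᵥ v) (A *ᵥ w) = detB v w := by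
  decide

theorem detB_fixed : ∀ (A : M₂) (v w : V₂), A ≠ 1 → A *ᵥ v = v → A *ᵥ w = w → detB v w = 0 := by
  decide

theorem detB_add_left (v v' w : V₂) : detB (v + v') w = detB v w + detB v' w := by
  simp [detB]; ring

theorem detB_smul_left (c : ZMod 2) (v w : V₂) : detB (c • v) w = c * detB v w := by
  simp [detB]; ring

theorem detB_add_right (v w w' : V₂) : detB v (w + w') = detB v w + detB v w' := by
  simp [detB]; ring

theorem detB_smul_right (c : ZMod 2) (v w : V₂) : detB v (c • w) = c * detB v w := by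
  simp [detB]; ring

/-- the form as a bilinear map -/
def form (r : GQ →* M₂) : plane r →ₗ[ZMod 2] plane r →ₗ[ZMod 2] M2 :=
  LinearMap.mk₂ (ZMod 2) (fun v w => detB v w)
    (fun v v' w => detB_add_left (v : V₂) v' w) (fun c v w => detB_smul_left c (v : V₂) w)
    (fun v w w' => detB_add_right (v : V₂) w w') (fun c v w => detB_smul_right c (v : V₂) w)

theorem form_apply (v w : plane r) : (form r v w : ZMod 2) = detB v w := rfl

theorem IsPlane.selfDual (h : IsPlane r) : IsSelfDual (form r) where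
  eqv := fun g v w => by
    rw [mu_two_rho]
    exact detB_mul (r g) v w (det_eq_one r g)
  inj := fun w hw => by
    have e0 : detB ![1, 0] w = 0 := hw (![1, 0] : V₂)
    have e1 : detB ![0, 1] w = 0 := hw (![0, 1] : V₂)
    simp [detB] at e0 e1
    exact funext fun i => by fin_cases i <;> assumption
  adm := h.adm

/-- the values of a cocycle as vectors -/
def cv (z : Z1 (MonoidHom.id GQ) (plane r)) (g : GQ) : V₂ := z.1 g

theorem cv_mul (z : Z1 (MonoidHom.id GQ) (plane r)) (a b : GQ) :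
    cv z (a * b) = r a *ᵥ cv z b + cv z a :=
  (mem_cocycles₁_iff _).1 z.2.1 a b

theorem cv_one (z : Z1 (MonoidHom.id GQ) (plane r)) : cv z 1 = 0 :=
  cocycles₁_map_one (⟨z.1, z.2.1⟩ : cocycles₁ (plane r))

theorem sub_comm_two : ∀ m p t : V₂, m - p + t = p - m + t := by decide

theorem vadd_self : ∀ v : V₂, v + v = 0 := by decide

section Embed

variable (r)

/-- the base vector -/
def e0 : V₂ := ![1, 0]

/-- its stabiliser -/
def stab : Subgroup GQ where
  carrier := {g | r g *ᵥ e0 = e0}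
  one_mem' := by
    show r 1 *ᵥ e0 = e0
    rw [map_one, Matrix.one_mulVec]
  mul_mem' := fun {a b} ha hb => by
    show r (a * b) *ᵥ e0 = e0
    rw [map_mul, ← Matrix.mulVec_mulVec, show r b *ᵥ e0 = e0 from hb, show r a *ᵥ e0 = e0 from ha]
  inv_mem' := fun {a} ha => by
    show r a⁻¹ *ᵥ e0 = e0
    conv_lhs => rw [← show r a *ᵥ e0 = e0 from ha]
    rw [Matrix.mulVec_mulVec, ← map_mul, inv_mul_cancel, map_one, Matrix.one_mulVec]

variable {r}

theorem IsPlane.stab_open (h : IsPlane r) : IsOpn (stab r) := by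
  obtain ⟨F, hF, hr⟩ := h.level
  exact ⟨F, hF, fun g hg => show r g *ᵥ e0 = e0 by rw [hr g hg, Matrix.one_mulVec]⟩

/-- the vector at a coset -/
def vec (x : GQ ⧸ stab r) : V₂ :=
  Quotient.liftOn' x (fun g => r g *ᵥ e0) fun a b hab => by
    rw [QuotientGroup.leftRel_apply] at hab
    conv_lhs => rw [← show r (a⁻¹ * b) *ᵥ e0 = e0 from hab]
    rw [Matrix.mulVec_mulVec, ← map_mul, mul_inv_cancel_left]

theorem vec_mk (g : GQ) : vec (g : GQ ⧸ stab r) = r g *ᵥ e0 := rfl

theorem vec_smul (g : GQ) (x : GQ ⧸ stab r) : vec (g • x) = r g *ᵥ vec x := by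
  induction x using QuotientGroup.induction_on with
  | H a =>
    rw [MulAction.Quotient.smul_mk, smul_eq_mul, vec_mk, vec_mk, map_mul, ← Matrix.mulVec_mulVec]

theorem vec_ne (x : GQ ⧸ stab r) : vec x ≠ 0 := by
  induction x using QuotientGroup.induction_on with
  | H a =>
    intro e
    rw [vec_mk] at e
    have := congrArg (r a⁻¹ *ᵥ ·) e
    simp only [Matrix.mulVec_mulVec, ← map_mul, inv_mul_cancel, map_one, Matrix.one_mulVec,
      Matrix.mulVec_zero] at this
    exact absurd this (by decide)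

theorem IsPlane.vec_bijective (h : IsPlane r) :
    Function.Bijective fun x : GQ ⧸ stab r => (⟨vec x, vec_ne x⟩ : {v : V₂ // v ≠ 0}) := by
  refine ⟨fun x y e => ?_, fun ⟨v, hv⟩ => ?_⟩
  · have e' : vec x = vec y := congrArg Subtype.val e
    induction x using QuotientGroup.induction_on with
    | H a =>
      induction y using QuotientGroup.induction_on with
      | H b =>
        rw [QuotientGroup.eq]
        show r (a⁻¹ * b) *ᵥ e0 = e0
        rw [map_mul, ← Matrix.mulVec_mulVec, ← vec_mk, ← e', vec_mk, Matrix.mulVec_mulVec,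
          ← map_mul, inv_mul_cancel, map_one, Matrix.one_mulVec]
  · by_contra hno
    have hmiss : ∀ g, r g *ᵥ e0 ≠ v := fun g e =>
      hno ⟨(g : GQ ⧸ stab r), Subtype.ext ((vec_mk g).trans e)⟩
    obtain ⟨g₀, hg₀⟩ : ∃ g, r g *ᵥ e0 ≠ e0 := by
      by_contra hall
      push Not at hall
      exact absurd (h.irr e0 hall) (by decide)
    refine hv (h.irr v fun g => ?_)
    have key : ∀ (A : M₂) (a v : V₂), A.det = 1 → v ≠ 0 → a ≠ 0 → a ≠ e0 → v ≠ e0 → v ≠ a →
        A *ᵥ e0 ≠ v → A *ᵥ a ≠ v → A *ᵥ v = v := by decide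
    refine key (r g) (r g₀ *ᵥ e0) v (det_eq_one r g) hv (vec_ne (g₀ : GQ ⧸ stab r)) hg₀
      (fun e => hmiss 1 (by rw [map_one, Matrix.one_mulVec, e])) (fun e => hmiss g₀ e.symm)
      (hmiss g) ?_
    rw [Matrix.mulVec_mulVec, ← map_mul]
    exact hmiss _

theorem IsPlane.card_cosets (h : IsPlane r) : Nat.card (GQ ⧸ stab r) = 3 := by
  rw [Nat.card_congr (Equiv.ofBijective _ h.vec_bijective), Nat.card_eq_fintype_card]
  rfl

theorem sum_detB_mul : ∀ v w : V₂,
    (∑ u : {u : V₂ // u ≠ 0}, detB u v * detB u w) = detB v w := by decide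

theorem sum_detB_smul : ∀ v : V₂, (∑ u : {u : V₂ // u ≠ 0}, detB u v • (u : V₂)) = v := by decide

/-- the embedding into the functions on the cosets -/
def emb2 (r : GQ →* M₂) : plane r →ₗ[ZMod 2] N2 (stab r) :=
  LinearMap.pi fun x => form r (vec x : V₂)

theorem emb2_apply (v : plane r) (x : GQ ⧸ stab r) : (emb2 r v x : ZMod 2) = detB (vec x) v := rfl

theorem emb2_eqv (g : GQ) (v : plane r) : emb2 r ((plane r).ρ g v) = (N2 (stab r)).ρ g (emb2 r v) := by
  funext x
  rw [N2_rho]
  show detB (vec x) (r g *ᵥ (v : V₂)) = detB (vec (g⁻¹ • x)) v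
  rw [← detB_mul (r g) (vec (g⁻¹ • x)) v (det_eq_one r g), ← vec_smul, smul_inv_smul]

/-- the retraction -/
def ret2 (r : GQ →* M₂) [Fintype (GQ ⧸ stab r)] : N2 (stab r) →ₗ[ZMod 2] plane r where
  toFun f := (∑ x, (f x : ZMod 2) • vec x : V₂)
  map_add' f f' := by
    show (∑ x, ((f x : ZMod 2) + f' x) • vec x) = (∑ x, (f x : ZMod 2) • vec x) + _
    simp only [add_smul, Finset.sum_add_distrib]
  map_smul' c f := by
    show (∑ x, (c * (f x : ZMod 2)) • vec x) = c • (∑ x, (f x : ZMod 2) • vec x : V₂)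
    simp only [mul_smul, Finset.smul_sum]

theorem ret2_eqv [Fintype (GQ ⧸ stab r)] (g : GQ) (f : N2 (stab r)) :
    ret2 r ((N2 (stab r)).ρ g f) = (plane r).ρ g (ret2 r f) := by
  show (∑ x, ((N2 (stab r)).ρ g f x : ZMod 2) • vec x) = r g *ᵥ (∑ x, (f x : ZMod 2) • vec x : V₂)
  rw [Matrix.mulVec_sum]
  refine Fintype.sum_equiv (MulAction.toPerm g⁻¹) _ _ fun x => ?_
  rw [MulAction.toPerm_apply, N2_rho, Matrix.mulVec_smul, ← vec_smul, smul_inv_smul]

theorem IsPlane.ret2_emb2 (h : IsPlane r) [Fintype (GQ ⧸ stab r)] (v : plane r) :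
    ret2 r (emb2 r v) = v := by
  show (∑ x, detB (vec x) v • vec x) = (v : V₂)
  refine Eq.trans ?_ (sum_detB_smul v)
  exact Fintype.sum_equiv (Equiv.ofBijective _ h.vec_bijective) _ _ fun x => rfl

theorem IsPlane.trB_emb2 (h : IsPlane r) [Fintype (GQ ⧸ stab r)] (v w : plane r) :
    trB (stab r) (emb2 r v) (emb2 r w) = form r v w := by
  show (∑ x, detB (vec x) v * detB (vec x) w) = detB (v : V₂) w
  refine Eq.trans ?_ (sum_detB_mul v w)
  exact Fintype.sum_equiv (Equiv.ofBijective _ h.vec_bijective) _ _ fun x => rfl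

/-- classes of the plane as classes of functions -/
def embH (r : GQ →* M₂) :
    cH1 (MonoidHom.id GQ) (plane r) →ₗ[ZMod 2] cH1 (MonoidHom.id GQ) (N2 (stab r)) :=
  h1push (MonoidHom.id GQ) (emb2 r) emb2_eqv

theorem IsPlane.embH_injective (h : IsPlane r) : Function.Injective (embH r) := by
  haveI := h.stab_open.finite_quotient
  letI := Fintype.ofFinite (GQ ⧸ stab r)
  refine Function.LeftInverse.injective
    (g := h1push (MonoidHom.id GQ) (ret2 r) ret2_eqv) fun c => ?_
  obtain ⟨z, rfl⟩ := Submodule.mkQ_surjective _ c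
  refine congrArg (h1mk _ _) (Subtype.ext (funext fun g => ?_))
  exact h.ret2_emb2 (z.1 g)

/-- **the product formula for the plane** -/
theorem IsPlane.totInv_gS (h : IsPlane r) (x y : cH1 (MonoidHom.id GQ) (plane r)) :
    totInv (h.selfDual.gS x y) = 0 := by
  haveI := h.stab_open.finite_quotient
  letI := Fintype.ofFinite (GQ ⧸ stab r)
  refine Eq.trans (congrArg totInv ?_)
    (totInv_gSym h.stab_open h.card_cosets (embH r x) (embH r y))
  obtain ⟨z, rfl⟩ := Submodule.mkQ_surjective _ x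
  obtain ⟨w, rfl⟩ := Submodule.mkQ_surjective _ y
  refine congrArg (h2mk _ _) (Subtype.ext (funext fun g => ?_))
  show form r (z.1 g.1) ((plane r).ρ g.1 (w.1 g.2)) =
    trB (stab r) (emb2 r (z.1 g.1)) ((N2 (stab r)).ρ g.1 (emb2 r (w.1 g.2)))
  rw [← emb2_eqv, h.trB_emb2]

end Embed

section Space

/-- the cocycles on the local group with values in its fixed vectors -/
def lineZ (r : GQ →* M₂) (q : Nat.Primes) :
    Submodule (ZMod 2) (Z1 (loc q) (Rep.res (loc q) (plane r))) where
  carrier := {z | ∀ g h : Gam q, r (loc q h) *ᵥ (z.1 g : V₂) = z.1 g}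
  add_mem' := fun {a b} ha hb g h =>
    (Matrix.mulVec_add (r (loc q h)) (a.1 g : V₂) (b.1 g : V₂)).trans
      (congrArg₂ (fun u v : V₂ => u + v) (ha g h) (hb g h))
  zero_mem' := fun g h => Matrix.mulVec_zero _
  smul_mem' := fun c a ha g h =>
    (Matrix.mulVec_smul (r (loc q h)) c (a.1 g : V₂)).trans
      (congrArg (fun u : V₂ => c • u) (ha g h))

/-- the line condition -/
def lineH1 (r : GQ →* M₂) (q : Nat.Primes) : Submodule (ZMod 2) (lH1 q (plane r)) :=
  (lineZ r q).map (h1mk _ _)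

/-- the Selmer space -/
def Selm (r : GQ →* M₂) (S : Finset Nat.Primes) :
    Submodule (ZMod 2) (cH1 (MonoidHom.id GQ) (plane r)) :=
  H1T S (plane r) ⊓ ⨅ (q : Nat.Primes) (_ : q ∈ S), (lineH1 r q).comap (res1 q (plane r))

theorem mem_selm {S : Finset Nat.Primes} {c : cH1 (MonoidHom.id GQ) (plane r)} :
    c ∈ Selm r S ↔ (∀ q ∉ S, res1 q _ c ∈ unr1 q (plane r)) ∧
      ∀ q ∈ S, res1 q _ c ∈ lineH1 r q := by
  simp only [Selm, H1T, Submodule.mem_inf, Submodule.mem_iInf, Submodule.mem_comap]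

theorem finite_KT_two {H : Subgroup GQ} [NumberField ↥(Fld H)] (hG : OpenMu 2 H)
    (T : Finset (Pl H)) : Finite (KT hG T) := by
  haveI := (finite_finrank_TU (K := ↥(Fld H)) (prs hG T)).1
  haveI : Module.Finite ℤ ((Subgroup.toAddSubgroup (TU (prs hG T)))) :=
    Module.Finite.equiv (AddEquiv.toIntLinearEquiv
      { toFun := fun x => ⟨Additive.ofMul ((Additive.toMul x : ↥(TU (prs hG T))) : (↥(Fld H))ˣ),
          (Additive.toMul x).2⟩
        invFun := fun x => Additive.ofMul ⟨Additive.toMul x.1, x.2⟩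
        left_inv := fun _ => rfl
        right_inv := fun _ => rfl
        map_add' := fun _ _ => rfl })
  let f : (Subgroup.toAddSubgroup (TU (prs hG T))) →ₗ[ℤ] G1 2 H :=
    ((kappa hG).comp (Subgroup.toAddSubgroup (TU (prs hG T))).subtype).toIntLinearMap
  haveI : Module.Finite ℤ (LinearMap.range f) := Module.Finite.range f
  haveI : Finite (LinearMap.range f) := by
    refine Module.finite_of_fg_torsion _ fun x => ⟨⟨(2 : ℤ), mem_nonZeroDivisors_of_ne_zero two_ne_zero⟩, ?_⟩
    refine Subtype.ext ?_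
    show (2 : ℤ) • (x.1 : G1 2 H) = 0
    rw [two_zsmul]
    exact add_self_two _
  refine Finite.of_injective (β := LinearMap.range f) (fun a => ⟨a.1, ?_⟩)
    fun a b e => Subtype.ext (congrArg (fun w : LinearMap.range f => (w : G1 2 H)) e)
  obtain ⟨y, hy, e⟩ := a.2
  exact ⟨⟨y, hy⟩, e⟩

theorem IsPlane.finite_H1T (h : IsPlane r) (S : Finset Nat.Primes) :
    Finite (H1T S (plane r)) := by
  have hG : OpenMu 2 (stab r) := ⟨h.stab_open, fun g _ => cyc_two g⟩
  haveI := h.stab_open.numberField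
  obtain ⟨T, hST, hT⟩ := exists_goodT hG S
  haveI : Finite (H1T T (N2 (stab r))) := by
    rw [H1T_eq_KT hG hT]; exact finite_KT_two hG _
  refine Finite.of_injective (β := H1T T (N2 (stab r))) (fun c => ⟨embH r c.1, ?_⟩)
    fun a b e => Subtype.ext (h.embH_injective
      (congrArg (fun w : H1T T (N2 (stab r)) => (w : cH1 (MonoidHom.id GQ) (N2 (stab r)))) e))
  simp only [H1T, Submodule.mem_iInf, Submodule.mem_comap]
  intro q hq
  have hc : res1 q (plane r) c.1 ∈ unr1 q (plane r) := by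
    have := c.2
    simp only [H1T, Submodule.mem_iInf, Submodule.mem_comap] at this
    exact this q fun hh => hq (hST hh)
  obtain ⟨z, hz⟩ := Submodule.mkQ_surjective _ c.1
  rw [← hz] at hc ⊢
  obtain ⟨w, hw, e⟩ := hc
  have e' := congrArg (h1push (loc q) (A := Rep.res (loc q) (plane r))
    (B := Rep.res (loc q) (N2 (stab r))) (emb2 r) fun g v => emb2_eqv (loc q g) v) e
  refine ⟨⟨_, pullPush_mem_Z1 (loc q) (r' := loc q) (MonoidHom.id _) (fun _ => rfl)
    (A := Rep.res (loc q) (plane r)) (B := Rep.res (loc q) (N2 (stab r))) (emb2 r)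
    (fun g v => emb2_eqv (loc q g) v) w.2⟩, fun s hs => ?_, e'⟩
  show emb2 r (w.1 s) = 0
  rw [hw s hs, map_zero]

theorem IsPlane.finite_selm (h : IsPlane r) (S : Finset Nat.Primes) :
    Module.Finite (ZMod 2) (Selm r S) := by
  haveI := h.finite_H1T S
  haveI : Finite (Selm r S) :=
    Finite.of_injective _ (Submodule.inclusion_injective (inf_le_left : Selm r S ≤ H1T S (plane r)))
  exact Module.Finite.of_finite

end Space

section Kill

/-- a set of primes for which the local conditions are isotropic -/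
structure IsBase (r : GQ →* M₂) (S : Finset Nat.Primes) : Prop where
  two : two' ∈ S
  moves : ∀ q ∈ S, ∃ g : Gam q, r (loc q g) ≠ 1
  unr : ∀ q ∉ S, ∀ g ∈ inert q, r (loc q g) = 1

theorem IsBase.isUnrAt {S : Finset Nat.Primes} (hS : IsBase r S) {q : Nat.Primes} (hq : q ∉ S) :
    IsUnrAt q (plane r) := fun g hg => LinearMap.ext fun v => by
  show r (loc q g) *ᵥ (v : V₂) = v
  exact (congrArg (fun A : M₂ => A *ᵥ (v : V₂)) (hS.unr q hq g hg)).trans (Matrix.one_mulVec (v : V₂))

theorem IsBase.insert {S : Finset Nat.Primes} (hS : IsBase r S) {q : Nat.Primes}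
    (hq : ∃ g : Gam q, r (loc q g) ≠ 1) : IsBase r (Insert.insert q S) where
  two := Finset.mem_insert_of_mem hS.two
  moves v hv := by
    rcases Finset.mem_insert.1 hv with rfl | hv
    exacts [hq, hS.moves v hv]
  unr v hv := hS.unr v fun h => hv (Finset.mem_insert_of_mem h)

theorem lSym_line (h : IsPlane r) {q : Nat.Primes} (hq : ∃ g : Gam q, r (loc q g) ≠ 1)
    {x y : lH1 q (plane r)} (hx : x ∈ lineH1 r q) (hy : y ∈ lineH1 r q) :
    h.selfDual.lSym q x y = 0 := by
  obtain ⟨z, hz, rfl⟩ := hx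
  obtain ⟨w, hw, rfl⟩ := hy
  obtain ⟨g, hg⟩ := hq
  show h2mk _ _ _ = 0
  refine (congrArg (h2mk _ _) (Subtype.ext (funext fun a => ?_))).trans (map_zero _)
  show detB (z.1 a.1) (r (loc q a.1) *ᵥ (w.1 a.2 : V₂)) = 0
  rw [hw a.2 a.1]
  exact detB_fixed _ _ _ hg (hz a.1 g) (hw a.2 g)

theorem IsPlane.invInf_gS (h : IsPlane r) (x y : cH1 (MonoidHom.id GQ) (plane r)) :
    invInf (h.selfDual.gS x y) = 0 := by
  obtain ⟨z, rfl⟩ := Submodule.mkQ_surjective _ x
  obtain ⟨w, rfl⟩ := Submodule.mkQ_surjective _ y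
  show invInf (h2mk _ _ _) = 0
  rw [invInf_h2mk]
  set c := complexConjugation
  have hfix : ∀ u : Z1 (MonoidHom.id GQ) (plane r), r c *ᵥ cv u c = cv u c := fun u => by
    have e := cv_mul u c c
    rw [complexConjugation_mul_self, cv_one] at e
    calc r c *ᵥ cv u c = r c *ᵥ cv u c + (cv u c + cv u c) := by rw [vadd_self, add_zero]
      _ = cv u c := by rw [← add_assoc, ← e, zero_add]
  show detB (cv z c) (r c *ᵥ cv w c) + detB (cv z 1) (r 1 *ᵥ cv w 1) = 0
  rw [hfix, detB_fixed _ _ _ h.inf (hfix z) (hfix w), cv_one z, zero_add]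
  simp [detB]

/-- **the killing lemma**: a prime where some class is nonzero makes the space strictly smaller -/
theorem IsPlane.selm_insert (h : IsPlane r) {S : Finset Nat.Primes} (hS : IsBase r S)
    {q : Nat.Primes} (hq : q ∉ S) (hmv : ∃ g : Gam q, r (loc q g) ≠ 1)
    {f : cH1 (MonoidHom.id GQ) (plane r)} (hf : f ∈ Selm r S)
    (hfq : res1 q _ f ∉ lineH1 r q) : Selm r (insert q S) < Selm r S := by
  have hq2 : (q : ℕ) ≠ 2 := fun e => hq (by rw [show q = two' from Subtype.ext e]; exact hS.two)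
  have hu := hS.isUnrAt hq
  rw [mem_selm] at hf
  obtain ⟨hfu, hfl⟩ := hf
  have key : ∀ c ∈ Selm r (insert q S), res1 q _ c ∈ unr1 q (plane r) := by
    intro c hc
    rw [mem_selm] at hc
    obtain ⟨hcu, hcl⟩ := hc
    have hother : ∀ v : Nat.Primes, v ≠ q →
        h.selfDual.lSym v (res1 v _ f) (res1 v _ c) = 0 := by
      intro v hv
      by_cases hvS : v ∈ S
      · exact lSym_line h (hS.moves v hvS) (hfl v hvS) (hcl v (Finset.mem_insert_of_mem hvS))
      · exact h.selfDual.lSym_unr v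
          (fun e => hvS (by rw [show v = two' from Subtype.ext e]; exact hS.two))
          (hfu v hvS) (hcu v (by simp [hv, hvS]))
    have htot := h.totInv_gS f c
    rw [totInv_eq_sum _ {q} fun v hv => by
      rw [invAt, IsSelfDual.res2_gS, hother v (by simpa using hv), map_zero],
      Finset.sum_singleton, h.invInf_gS, add_zero, invAt, IsSelfDual.res2_gS,
      LinearEquiv.map_eq_zero_iff] at htot
    -- the unramified classes form a line spanned by the class of `f`
    haveI := finite_lH1 q h.adm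
    set x := res1 q (plane r) f with hx
    have hx0 : x ≠ 0 := fun e => hfq (by rw [e]; exact Submodule.zero_mem _)
    have hle : Module.finrank (ZMod 2) (unr1 q (plane r)) ≤ 1 := by
      rw [finrank_unr1 q h.adm]
      obtain ⟨g, hg⟩ := hmv
      have hlt : (lH0 q (plane r)) < ⊤ := lt_top_iff_ne_top.2 fun e => hg
        (Matrix.ext_of_mulVec_single fun i => by
          have hm : ∀ v : plane r, v ∈ (lH0 q (plane r)) := fun v => by rw [e]; exact Submodule.mem_top
          rw [Matrix.one_mulVec]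
          exact hm (Pi.single i 1 : V₂) g)
      haveI : Module.Finite (ZMod 2) (plane r) := h.adm.finite
      have := Submodule.finrank_lt hlt.ne
      have e2 : Module.finrank (ZMod 2) (plane r) = 2 := Module.finrank_fin_fun (R := ZMod 2)
      omega
    have hspan : unr1 q (plane r) = Submodule.span (ZMod 2) {x} :=
      (Submodule.eq_of_le_of_finrank_le ((Submodule.span_singleton_le_iff_mem _ _).2 (hfu q hq))
        (by rw [finrank_span_singleton hx0]; exact hle)).symm
    refine h.selfDual.unr_of_orth q hq2 hu fun x' hx' => ?_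
    rw [hspan, Submodule.mem_span_singleton] at hx'
    obtain ⟨a, rfl⟩ := hx'
    rw [map_smul, LinearMap.smul_apply, htot, smul_zero]
  refine lt_of_le_of_ne (fun c hc => ?_) fun e => ?_
  · have hk := key c hc
    rw [mem_selm] at hc ⊢
    refine ⟨fun v hv => ?_, fun v hv => hc.2 v (Finset.mem_insert_of_mem hv)⟩
    rcases eq_or_ne v q with rfl | hvq
    · exact hk
    · exact hc.1 v (by simp [hv, hvq])
  · have hmem : f ∈ Selm r (insert q S) := by rw [e, mem_selm]; exact ⟨hfu, hfl⟩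
    rw [mem_selm] at hmem
    exact hfq (hmem.2 q (Finset.mem_insert_self q S))

/-- a value outside the line at a transposition of a decomposition group -/
theorem not_line_of_outside {q : Nat.Primes} {A : ValuationSubring (AlgebraicClosure ℚ)}
    (hA : A.LiesOverPrime (q : ℕ)) {s : GQ} (hs : s ∈ A.decompositionSubgroup ℚ)
    (hne : r s * r s = 1) (z : Z1 (MonoidHom.id GQ) (plane r))
    (hout : r s *ᵥ cv z s ≠ cv z s) :
    (∃ g : Gam q, r (loc q g) ≠ 1) ∧ res1 q _ (h1mk _ _ z) ∉ lineH1 r q := by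
  obtain ⟨x, hx⟩ := exists_conj q.2 hA (lies_plc q)
  have hxA : x • A = plc q := SetLike.ext fun w => by
    rw [ValuationSubring.mem_smul_pointwise_iff_exists]
    exact ⟨fun ⟨y, hy, hyw⟩ => hyw ▸ (hx y).1 hy, fun hw => ⟨x⁻¹ w, (hx _).2 (by
      rwa [show x (x⁻¹ w) = w from x.apply_symm_apply w]), x.apply_symm_apply w⟩⟩
  have hd : x * s * x⁻¹ ∈ (plc q).decompositionSubgroup ℚ := by
    show (x * s * x⁻¹) • plc q = plc q
    rw [← hxA, mul_smul, inv_smul_smul, mul_smul, show s • A = A from hs]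
  rw [← range_loc q] at hd
  obtain ⟨g, hg⟩ := hd
  have hxs : cv z (x * s) = r (x * s * x⁻¹) *ᵥ cv z x + cv z (x * s * x⁻¹) := by
    have e : x * s * x⁻¹ * x = x * s := by group
    rw [← cv_mul z (x * s * x⁻¹) x, e]
  rw [cv_mul z x s, ← hg] at hxs
  have hrs : r (loc q g) * r x = r x * r s := by
    rw [hg, ← map_mul, ← map_mul, inv_mul_cancel_right]
  have hinv : r x⁻¹ * r x = 1 := by rw [← map_mul, inv_mul_cancel, map_one]
  have hb2 : r (loc q g) * r (loc q g) = 1 := by
    rw [hg, ← map_mul, show x * s * x⁻¹ * (x * s * x⁻¹) = x * (s * s) * x⁻¹ by group, map_mul,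
      map_mul, map_mul, hne, mul_one, ← map_mul, mul_inv_cancel, map_one]
  have key : r (loc q g) *ᵥ cv z (loc q g) ≠ cv z (loc q g) := by
    intro he
    apply hout
    set b := r (loc q g)
    have e1 : r x *ᵥ cv z s = b *ᵥ cv z x + cv z (loc q g) - cv z x := eq_sub_of_add_eq hxs
    have e2 : b *ᵥ (r x *ᵥ cv z s) = r x *ᵥ cv z s := by
      rw [e1, Matrix.mulVec_sub, Matrix.mulVec_add, he, Matrix.mulVec_mulVec, hb2, Matrix.one_mulVec]
      generalize b *ᵥ cv z x = p
      generalize cv z x = t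
      generalize cv z (loc q g) = u
      revert p t u
      decide
    rw [Matrix.mulVec_mulVec, hrs, ← Matrix.mulVec_mulVec] at e2
    have e3 := congrArg (r x⁻¹ *ᵥ ·) e2
    simp only [Matrix.mulVec_mulVec, ← mul_assoc, hinv, one_mul, Matrix.one_mulVec] at e3
    exact e3
  refine ⟨⟨g, fun e => key (by rw [e, Matrix.one_mulVec])⟩, ?_⟩
  rintro ⟨w, hw, e⟩
  rw [res1, h1map_mk, eq_comm, ← sub_eq_zero, ← map_sub, h1mk_eq_zero_iff] at e
  obtain ⟨m, hm⟩ := e
  have main : ∀ m' t' : V₂, r (loc q g) *ᵥ t' = t' →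
      r (loc q g) *ᵥ m' - m' = cv z (loc q g) - t' →
        r (loc q g) *ᵥ cv z (loc q g) = cv z (loc q g) := by
    intro m' t' ht hval
    rw [(sub_eq_iff_eq_add.1 hval.symm), Matrix.mulVec_add, Matrix.mulVec_sub,
      Matrix.mulVec_mulVec, hb2, Matrix.one_mulVec, ht]
    exact sub_comm_two _ _ _
  exact key (main m (w.1 g) (hw g g) (hm g))

/-- **bounded killing**: if every nonzero class is seen at a prime with property `Good` outside any
finite set, boundedly many such primes kill the space -/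
theorem IsPlane.exists_killing_set (h : IsPlane r) {S₀ : Finset Nat.Primes} (hS₀ : IsBase r S₀) :
    ∃ kmax : ℕ, ∀ (Good : Nat.Primes → Prop),
      (∀ z : Z1 (MonoidHom.id GQ) (plane r), h1mk _ _ z ∈ Selm r S₀ → h1mk _ _ z ≠ 0 →
        ∀ S : Finset Nat.Primes, ∃ (q : Nat.Primes) (A : ValuationSubring (AlgebraicClosure ℚ))
          (s : GQ), q ∉ S ∧ Good q ∧ A.LiesOverPrime (q : ℕ) ∧ s ∈ A.decompositionSubgroup ℚ ∧
            r s * r s = 1 ∧ r s *ᵥ cv z s ≠ cv z s) →
      ∃ Q : Finset Nat.Primes, Q.card ≤ kmax ∧ (∀ q ∈ Q, Good q) ∧ Disjoint Q S₀ ∧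
        Selm r (S₀ ∪ Q) = ⊥ := by
  refine ⟨Module.finrank (ZMod 2) (Selm r S₀), fun Good hgood => ?_⟩
  have key : ∀ n : ℕ, ∀ Q : Finset Nat.Primes, (∀ q ∈ Q, Good q) → Disjoint Q S₀ →
      IsBase r (S₀ ∪ Q) → Selm r (S₀ ∪ Q) ≤ Selm r S₀ →
      Module.finrank (ZMod 2) (Selm r (S₀ ∪ Q)) ≤ n →
      ∃ Q' : Finset Nat.Primes, Q'.card ≤ Q.card + n ∧ (∀ q ∈ Q', Good q) ∧ Disjoint Q' S₀ ∧
        Selm r (S₀ ∪ Q') = ⊥ := by
    intro n
    induction n with
    | zero =>
      intro Q hQ hd _ _ hn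
      haveI := h.finite_selm (S₀ ∪ Q)
      exact ⟨Q, le_rfl, hQ, hd, Submodule.finrank_eq_zero.1 (Nat.le_zero.1 hn)⟩
    | succ n ih =>
      intro Q hQ hd hbase hle hn
      by_cases hbot : Selm r (S₀ ∪ Q) = ⊥
      · exact ⟨Q, Nat.le_add_right _ _, hQ, hd, hbot⟩
      obtain ⟨c, hc, hc0⟩ := (Submodule.ne_bot_iff _).1 hbot
      obtain ⟨z, rfl⟩ := Submodule.mkQ_surjective _ c
      obtain ⟨q, A, s, hqS, hqG, hA, hs, hne, hout⟩ := hgood z (hle hc) hc0 (S₀ ∪ Q)
      obtain ⟨hmv, hline⟩ := not_line_of_outside hA hs hne z hout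
      have hlt := h.selm_insert hbase hqS hmv hc hline
      haveI := h.finite_selm (S₀ ∪ Q)
      have hfr := Submodule.finrank_lt_finrank_of_lt hlt
      have e : S₀ ∪ insert q Q = insert q (S₀ ∪ Q) := Finset.union_insert q S₀ Q
      obtain ⟨Q', hcard, hQ', hd', hbot'⟩ := ih (insert q Q)
        (fun v hv => (Finset.mem_insert.1 hv).elim (fun e => e ▸ hqG) (hQ v))
        (Finset.disjoint_insert_left.2 ⟨fun hh => hqS (Finset.mem_union_left _ hh), hd⟩)
        (e ▸ hbase.insert hmv) (e ▸ hlt.le.trans hle) (by rw [e]; omega)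
      refine ⟨Q', hcard.trans ?_, hQ', hd', hbot'⟩
      have := Finset.card_insert_le q Q
      omega
  obtain ⟨Q', hc, hQ', hd', hb⟩ := key _ ∅ (by simp) (Finset.disjoint_empty_left _)
    (by rw [Finset.union_empty]; exact hS₀) (by rw [Finset.union_empty]) (by rw [Finset.union_empty])
  exact ⟨Q', by simpa using hc, hQ', hd', hb⟩

end Kill

end FLTAgent.R2.Sel
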