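import Mathlib.Algebra.DualNumber
import Mathlib.Algebra.Field.ZMod
import Mathlib.Algebra.Module.ZMod
import Mathlib.LinearAlgebra.Dual.Lemmas
import Mathlib.FieldTheory.Finiteness

/-!
Area R2, parcel tangent space: maps to the dual numbers over `𝔽₂` from linear forms on a ring
modulo `(2) + I ^ 2`, for an ideal `I` of residue field `𝔽₂`.
-/

set_option autoImplicit false

noncomputable section

open TrivSqZeroExt

namespace FLTAgent.R2.Tan

variable {S : Type} [CommRing S] {I : Ideal S}

/-- the ideal killed by all tangent maps -/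
abbrev tanIdeal (I : Ideal S) : Ideal S := Ideal.span {(2 : S)} ⊔ I ^ 2

theorem two_nsmul_tan (z : S ⧸ tanIdeal I) : 2 • z = 0 := by
  obtain ⟨x, rfl⟩ := Ideal.Quotient.mk_surjective z
  rw [two_nsmul, ← map_add, Ideal.Quotient.eq_zero_iff_mem]
  refine Ideal.mem_sup_left (Ideal.mem_span_singleton.2 ⟨x, ?_⟩)
  ring

instance moduleTan : Module (ZMod 2) (S ⧸ tanIdeal I) := AddCommGroup.zmodModule two_nsmul_tan

/-- what is needed of the ideal -/
structure ResTwo (I : Ideal S) : Prop where
  ne_top : (1 : S) ∉ I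
  two : (2 : S) ∈ I
  cases : ∀ x, x ∈ I ∨ x - 1 ∈ I

namespace ResTwo

variable (h : ResTwo I)
include h

theorem mem_iff {x : S} : x ∈ I ↔ x - 1 ∉ I :=
  ⟨fun hx hx1 => h.ne_top (by simpa using I.sub_mem hx hx1),
    fun hx => (h.cases x).resolve_right hx⟩

open Classical in
/-- the residue map -/
def resMap : S →+* ZMod 2 where
  toFun x := if x ∈ I then 0 else 1
  map_one' := if_neg h.ne_top
  map_zero' := if_pos I.zero_mem
  map_mul' x y := by
    rcases h.cases x with hx | hx
    · rw [if_pos hx, if_pos (I.mul_mem_right y hx), zero_mul]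
    rcases h.cases y with hy | hy
    · rw [if_pos hy, if_pos (I.mul_mem_left x hy), mul_zero]
    have h1 : x * y - 1 ∈ I := by
      have := I.add_mem (I.mul_mem_right y hx) hy
      rwa [show (x - 1) * y + (y - 1) = x * y - 1 by ring] at this
    rw [if_neg fun e => (h.mem_iff.1 e) hx, if_neg fun e => (h.mem_iff.1 e) hy,
      if_neg fun e => (h.mem_iff.1 e) h1, one_mul]
  map_add' x y := by
    rcases h.cases x with hx | hx <;> rcases h.cases y with hy | hy
    · rw [if_pos hx, if_pos hy, if_pos (I.add_mem hx hy), add_zero]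
    · rw [if_pos hx, if_neg fun e => (h.mem_iff.1 e) hy, if_neg, zero_add]
      exact fun e => (h.mem_iff.1 ((I.add_mem_iff_right hx).1 e)) hy
    · rw [if_pos hy, if_neg fun e => (h.mem_iff.1 e) hx, if_neg, add_zero]
      exact fun e => (h.mem_iff.1 ((I.add_mem_iff_left hy).1 e)) hx
    · rw [if_neg fun e => (h.mem_iff.1 e) hx, if_neg fun e => (h.mem_iff.1 e) hy, if_pos]
      · rfl
      · have := I.add_mem (I.add_mem hx hy) h.two
        rwa [show x - 1 + (y - 1) + 2 = x + y by ring] at this

theorem resMap_eq_zero {x : S} : h.resMap x = 0 ↔ x ∈ I := by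
  classical
  show (if x ∈ I then (0 : ZMod 2) else 1) = 0 ↔ _
  split_ifs with hx <;> simp [hx]

theorem resMap_eq_val {x : S} (c : ZMod 2) (hx : x - (c.val : S) ∈ I) : h.resMap x = c := by
  have := (h.resMap_eq_zero).2 hx
  rwa [map_sub, map_natCast, ZMod.natCast_zmod_val, sub_eq_zero] at this

theorem resMap_eq_one {x : S} (hx : x - 1 ∈ I) : h.resMap x = 1 := by
  have := (h.resMap_eq_zero).2 hx
  rwa [map_sub, map_one, sub_eq_zero] at this

/-- the map to the dual numbers of a form killing `1` -/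
def dualMap (f : S ⧸ tanIdeal I →ₗ[ZMod 2] ZMod 2) (h1 : f 1 = 0) : S →+* DualNumber (ZMod 2) where
  toFun x := inl (h.resMap x) + inr (f (Ideal.Quotient.mk _ x))
  map_one' := by
    ext
    · simp
    · simp [h1]
  map_zero' := by ext <;> simp
  map_add' x y := by ext <;> simp
  map_mul' x y := by
    set q := Ideal.Quotient.mk (tanIdeal I)
    have hJ : ∀ a b : S, a ∈ I → b ∈ I → q (a * b) = 0 := fun a b ha hb =>
      Ideal.Quotient.eq_zero_iff_mem.2
        (Ideal.mem_sup_right (by rw [pow_two]; exact Ideal.mul_mem_mul ha hb))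
    ext
    · simp
    · simp only [snd_add, snd_inl, snd_inr, zero_add, DualNumber.snd_mul, fst_add, fst_inl,
        fst_inr, add_zero, map_mul h.resMap]
      rcases h.cases x with hx | hx <;> rcases h.cases y with hy | hy
      · rw [h.resMap_eq_zero.2 hx, h.resMap_eq_zero.2 hy, hJ x y hx hy, map_zero]; ring
      · have e : q (x * y) = q x := by
          rw [← sub_eq_zero, ← map_sub, show x * y - x = x * (y - 1) by ring]
          exact hJ _ _ hx hy
        rw [h.resMap_eq_zero.2 hx, h.resMap_eq_one hy, e]; ring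
      · have e : q (x * y) = q y := by
          rw [← sub_eq_zero, ← map_sub, show x * y - y = (x - 1) * y by ring]
          exact hJ _ _ hx hy
        rw [h.resMap_eq_zero.2 hy, h.resMap_eq_one hx, e]; ring
      · have e : q (x * y) = q x + q y - 1 := by
          rw [← map_one q, ← map_add, ← map_sub, ← sub_eq_zero, ← map_sub,
            show x * y - (x + y - 1) = (x - 1) * (y - 1) by ring]
          exact hJ _ _ hx hy
        rw [h.resMap_eq_one hx,
          h.resMap_eq_one hy, e, map_sub, map_add, h1]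
        ring

theorem dualMap_fst (f : S ⧸ tanIdeal I →ₗ[ZMod 2] ZMod 2) (h1 : f 1 = 0) (x : S) :
    (h.dualMap f h1 x).fst = h.resMap x := by simp [dualMap]

theorem dualMap_snd (f : S ⧸ tanIdeal I →ₗ[ZMod 2] ZMod 2) (h1 : f 1 = 0) (x : S) :
    (h.dualMap f h1 x).snd = f (Ideal.Quotient.mk _ x) := by simp [dualMap]

/-- the tangent maps separate -/
theorem mem_tanIdeal {x : S} (hx : ∀ (f : S ⧸ tanIdeal I →ₗ[ZMod 2] ZMod 2) (h1 : f 1 = 0),
    h.dualMap f h1 x = 0) : x ∈ tanIdeal I := by
  set q := Ideal.Quotient.mk (tanIdeal I)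
  have h0 : x ∈ I := by
    rw [← h.resMap_eq_zero, ← h.dualMap_fst 0 rfl, hx 0 rfl, fst_zero]
  by_cases hmem : q x ∈ Submodule.span (ZMod 2) {(1 : S ⧸ tanIdeal I)}
  · obtain ⟨c, hc⟩ := Submodule.mem_span_singleton.1 hmem
    obtain rfl | rfl : c = 0 ∨ c = 1 := (by decide : ∀ c : ZMod 2, c = 0 ∨ c = 1) c
    · rw [zero_smul, eq_comm, Ideal.Quotient.eq_zero_iff_mem] at hc
      exact hc
    · rw [one_smul, ← map_one q, Ideal.Quotient.mk_eq_mk_iff_sub_mem] at hc
      refine absurd ?_ h.ne_top
      have hle : tanIdeal I ≤ I := sup_le ((Ideal.span_singleton_le_iff_mem I).2 h.two)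
        (Ideal.pow_le_self two_ne_zero)
      simpa using I.add_mem (hle hc) h0
  · obtain ⟨f, hf, hf0⟩ := Submodule.exists_dual_map_eq_bot_of_notMem hmem inferInstance
    have h1 : f 1 = 0 := (Submodule.mem_bot (ZMod 2)).1
      (hf0 ▸ Submodule.mem_map_of_mem (Submodule.mem_span_singleton_self _))
    have := congrArg TrivSqZeroExt.snd (hx f h1)
    rw [h.dualMap_snd, snd_zero] at this
    exact absurd this hf

end ResTwo

end FLTAgent.R2.Tan

end
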