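import Fermat.Agent.R2.TanCurve
import Fermat.Agent.R2.TanDual
import Fermat.Agent.R2.Tame

/-!
Area R2, parcel tangent space: from the deformation conditions to the tangent space computation.
-/

set_option autoImplicit false
set_option linter.style.haveILetI false

noncomputable section

open Matrix FLTAgent.R2.Tan IsLocalRing FLTAgent.PT.TW

namespace FLTAgent.R2

local notation "Ω" => AlgebraicClosure ℚ
local notation "M₂" => Matrix (Fin 2) (Fin 2) (ZMod 2)
local notation "Md" => Matrix (Fin 2) (Fin 2) (DualNumber (ZMod 2))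

theorem neg_one_dual : (-1 : DualNumber (ZMod 2)) = 1 := by
  ext <;> simp

/-- a matrix reducing to one squares to one -/
theorem sq_eq_one_of_fst {X : Md} (h : fstM X = 1) : X * X = 1 := by
  refine extM ?_ ?_
  · rw [fstM_mul, h, one_mul, fstM_one]
  · have key : ∀ M : M₂, M + M = 0 := by decide
    rw [sndM_mul, h, one_mul, mul_one, sndM_one, key]

theorem pow_eq_or {G : Type} [Monoid G] {x : G} (h : x * x = 1) (m : ℕ) :
    x ^ m = 1 ∨ x ^ m = x := by
  rcases Nat.even_or_odd' m with ⟨j, rfl | rfl⟩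
  · exact Or.inl (by rw [pow_mul, pow_two, h, one_pow])
  · exact Or.inr (by rw [pow_succ, pow_mul, pow_two, h, one_pow, one_mul])

/-- commuting lifts have commuting tangent parts when one reduces to one -/
theorem comm_snd {F X : Md} (hX : fstM X = 1) (h : F * X = X * F) :
    fstM F * sndM X = sndM X * fstM F := by
  have e := congrArg sndM h
  rw [sndM_mul, sndM_mul, hX, one_mul, mul_one] at e
  rw [add_comm] at e
  exact add_left_cancel e

theorem det_snd_trace {X : Md} (hX : fstM X = 1) : X.det.snd = (sndM X).trace := by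
  rw [det_snd (C := sndM X) (by rw [hX, mul_one]), hX, det_one, mul_one]

theorem frame_key : ∀ g M : M₂, g * g = 1 → g ≠ 1 → g * M = M * g →
    ((Matrix.of ![(if g *ᵥ ![1, 0] = ![1, 0] then ![0, 1] else ![1, 0]),
          g *ᵥ (if g *ᵥ ![1, 0] = ![1, 0] then ![0, 1] else ![1, 0])])ᵀ.adjugate * M *
        (Matrix.of ![(if g *ᵥ ![1, 0] = ![1, 0] then ![0, 1] else ![1, 0]),
          g *ᵥ (if g *ᵥ ![1, 0] = ![1, 0] then ![0, 1] else ![1, 0])])ᵀ) 0 0 -
      ((Matrix.of ![(if g *ᵥ ![1, 0] = ![1, 0] then ![0, 1] else ![1, 0]),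
          g *ᵥ (if g *ᵥ ![1, 0] = ![1, 0] then ![0, 1] else ![1, 0])])ᵀ.adjugate * M *
        (Matrix.of ![(if g *ᵥ ![1, 0] = ![1, 0] then ![0, 1] else ![1, 0]),
          g *ᵥ (if g *ᵥ ![1, 0] = ![1, 0] then ![0, 1] else ![1, 0])])ᵀ) 1 0 = 0 →
      M * (g + 1) = 0 := by
  simp only [adjugate_fin_two]
  decide

theorem frame_det : ∀ g : M₂, g * g = 1 → g ≠ 1 →
    (Matrix.of ![(if g *ᵥ ![1, 0] = ![1, 0] then ![0, 1] else ![1, 0]),
      g *ᵥ (if g *ᵥ ![1, 0] = ![1, 0] then ![0, 1] else ![1, 0])])ᵀ.det = 1 := by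
  decide

theorem three_key' {g M : M₂} (h1 : g.det = 1) (h2 : g.trace = 1) (h3 : g * M = M * g)
    (h4 : M.trace = 0) (h5 : M 0 0 = 0) : M = 0 := by
  have key : ∀ g M : M₂,
      g.det = 1 ∧ g.trace = 1 ∧ g * M = M * g ∧ M.trace = 0 ∧ M 0 0 = 0 → M = 0 := by decide
  exact key g M ⟨h1, h2, h3, h4, h5⟩

variable {W : WeierstrassCurve ℤ} {hW : IsAnchor W} {B : Base W} {N n : ℕ} {K : Aux hW B N}

theorem rb_aux_trace (i : Fin K.k) : (rb hW (K.frob i)).trace = 0 := by
  rw [← rE_cast hW N]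
  exact ((AddMonoidHom.map_trace (ZMod.castHom (pow_dvd_pow 2
    (Nat.succ_le_succ (Nat.zero_le N))) (Lam 0)).toAddMonoidHom (rE hW N (K.frob i))).symm).trans
      (by rw [K.tr i, map_zero])

variable {D : TW K n} {S : Type} [CommRing S] [Algebra (Lam N) S]
  {ρ : GQ →* Matrix (Fin 2) (Fin 2) S}

/-- a map to the dual numbers compatible with the residual representation -/
structure TanMap (ρ : GQ →* Matrix (Fin 2) (Fin 2) S) (φ : S →+* DualNumber (ZMod 2)) : Prop where
  level : Deform.FinLevel (fun σ => ρ σ)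
  fst : ∀ σ a b, (φ (ρ σ a b)).fst = (rU hW σ : M₂) a b

variable {φ : S →+* DualNumber (ZMod 2)}

/-- the lift of a map -/
def mapLift (h : TanMap (hW := hW) ρ φ) : TanLift (rU hW) (ZMod 2) where
  R := φ.mapMatrix.toMonoidHom.comp ρ
  fst_eq g := by
    ext a b
    exact (h.fst g a b).trans (by simp [emb_eq_map])
  level := by
    obtain ⟨L, hL, hker⟩ := h.level
    refine ⟨L, hL, fun g hg => ?_⟩
    show φ.mapMatrix (ρ g) = 1
    rw [show ρ g = 1 from hker g hg, map_one]

theorem mapLift_apply (h : TanMap (hW := hW) ρ φ) (σ : GQ) :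
    (mapLift h).R σ = φ.mapMatrix (ρ σ) := rfl

theorem fstM_lift (h : TanMap (hW := hW) ρ φ) (σ : GQ) :
    fstM (φ.mapMatrix (ρ σ)) = (rU hW σ : M₂) := by
  ext a b; exact h.fst σ a b

theorem chi_isUnit (σ : GQ) : IsUnit (chi N σ) := by
  refine isUnit_iff_exists_inv.2 ⟨chi N σ⁻¹, ?_⟩
  rw [chi, chi, ← Attach.cyc_mul, mul_inv_cancel, Attach.cyc_one]

/-- the cyclotomic character has no tangent part -/
theorem map_chi (φ : S →+* DualNumber (ZMod 2)) (σ : GQ) :
    φ (algebraMap (Lam N) S (chi N σ)) = 1 := by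
  have e : φ.comp (algebraMap (Lam N) S) = (TrivSqZeroExt.inlHom (ZMod 2) (ZMod 2)).comp
      (ZMod.castHom (dvd_pow_self 2 N.succ_ne_zero) (ZMod 2)) := RingHom.ext_zmod _ _
  have h1 : ∀ x : ZMod 2, x ≠ 0 → x = 1 := by decide
  show φ.comp (algebraMap (Lam N) S) (chi N σ) = 1
  rw [e, RingHom.comp_apply, h1 _ ((chi_isUnit σ).map _).ne_zero, map_one]

theorem cyc_tw_inertia {v : Nat.Primes} (hv : v ∉ twP D) {A : ValuationSubring Ω}
    (hA : A.LiesOverPrime (v : ℕ)) {τ : GQ} (hτ : τ ∈ A.inertiaSubgroupIn ℚ) :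
    Attach.cyc D.R τ = 1 := by
  refine Attach.cyc_inertia v.2 (fun hd => hv ?_) hA hτ
  obtain ⟨i, -, hi⟩ := (Nat.Prime.prime v.2).exists_mem_finset_dvd hd
  exact (mem_twP D).2 ⟨i, ((Nat.prime_dvd_prime_iff_eq v.2 (D.prime i)).1 hi).symm⟩

theorem det_one_of_unr (h : TanMap (hW := hW) ρ φ)
    (hdet : ∀ σ, Attach.cyc D.R σ = 1 → (ρ σ).det = algebraMap (Lam N) S (chi N σ))
    {v : Nat.Primes} (hv : v ∉ twP D) {τ : GQ}
    (hτ : τ ∈ ((locs D).pl v).inertiaSubgroupIn ℚ) : ((mapLift h).R τ).det = 1 := by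
  rw [mapLift_apply, ← RingHom.map_det, hdet τ (cyc_tw_inertia hv ((locs D).lies v) hτ), map_chi]

omit [Algebra (Lam N) S] in
theorem unip_of_bad (h : TanMap (hW := hW) ρ φ)
    (hbad : ∀ q ∈ badOdd W, ∀ P : ValuationSubring Ω, P.LiesOverPrime q →
      ∀ σ ∈ P.inertiaSubgroupIn ℚ, (ρ σ - 1) * (ρ σ - 1) = 0)
    {v : Nat.Primes} (hv : v ∈ badP W) {τ : GQ}
    (hτ : τ ∈ ((locs D).pl v).inertiaSubgroupIn ℚ) :
    ((mapLift h).R τ - 1) * ((mapLift h).R τ - 1) = 0 := by
  rw [mapLift_apply, ← map_one φ.mapMatrix, ← map_sub, ← map_mul,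
    hbad _ (mem_badP.1 hv) _ ((locs D).lies v) τ hτ, map_zero]

section Local

variable {R : Type} [CommRing R] [IsLocalRing R] [Algebra (Lam N) R] {ε : ℤˣ}
  {ρR : GQ →* Matrix (Fin 2) (Fin 2) R} {φR : R →+* DualNumber (ZMod 2)}

omit [Algebra (Lam N) R] in
theorem isUnit_of_fst {x : R} (hx : (φR x).fst = 1) : IsUnit x := by
  let χ : R →+* ZMod 2 :=
    (TrivSqZeroExt.fstHom (ZMod 2) (ZMod 2) (ZMod 2)).toRingHom.comp φR
  have hs : Function.Surjective χ := fun c => ⟨(c.val : R), by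
    rw [map_natCast, ZMod.natCast_zmod_val]⟩
  by_contra hu
  have hmem : x ∈ maximalIdeal R := hu
  rw [← IsLocalRing.eq_maximalIdeal (RingHom.ker_isMaximal_of_surjective χ hs),
    RingHom.mem_ker] at hmem
  exact one_ne_zero (hx.symm.trans hmem)

omit [Algebra (Lam N) R] in
theorem lift_frame (h : TanMap (hW := hW) ρR φR)
    (hco : ∀ c, (φR (coord D ρR c)).snd = 0) (i : Fin K.k) {τ : GQ}
    (hτ : τ ∈ (K.place i).inertiaSubgroupIn ℚ) :
    sndM ((mapLift h).R τ) * ((rU hW (K.frob i) : M₂) + 1) = 0 := by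
  obtain ⟨hg2, hg1⟩ := rU_aux_frob i
  have hg2' : (rU hW (K.frob i) : M₂) * (rU hW (K.frob i) : M₂) = 1 := by
    rw [← Units.val_mul, hg2, Units.val_one]
  have hg1' : (rU hW (K.frob i) : M₂) ≠ 1 := fun e => hg1 (Units.ext e)
  set g : M₂ := (rU hW (K.frob i) : M₂) with hg
  have hu : ∀ σ ∈ (K.place i).inertiaSubgroupIn ℚ, fstM ((mapLift h).R σ) = 1 := fun σ hσ => by
    rw [mapLift_apply, fstM_lift h, rU_inertia hW (K.prime i) (aux_not_bad i) (K.lies i) hσ,
      Units.val_one]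
  obtain ⟨hgen, hconj⟩ := tame_image (mapLift h).R (mapLift h).level (K.prime i) (aux_ne_two i)
    (K.lies i) (k := 1) (fun σ hσ => by rw [pow_one, pow_two, sq_eq_one_of_fst (hu σ hσ)])
    (K.tau_mem i) (K.tau_sqrt i)
  set X := (mapLift h).R (K.tau i) with hX
  set M := sndM X with hM
  have hXf : fstM X = 1 := hu _ (K.tau_mem i)
  have hcomm : g * M = M * g := by
    have e := (hconj _ (K.frob_spec i)).1
    obtain ⟨j, hj⟩ := (K.prime i).odd_of_ne_two (aux_ne_two i)
    rw [hj, pow_succ, pow_mul, pow_two, sq_eq_one_of_fst hXf, one_pow, one_mul] at e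
    have := comm_snd hXf e
    rwa [mapLift_apply, fstM_lift h, ← hg] at this
  obtain ⟨m, hm⟩ := hgen τ hτ
  rcases pow_eq_or (sq_eq_one_of_fst hXf) m with e | e
  · rw [hm, e, sndM_one, zero_mul]
  rw [hm, e]
  -- the frame
  let χ : R →+* ZMod 2 :=
    (TrivSqZeroExt.fstHom (ZMod 2) (ZMod 2) (ZMod 2)).toRingHom.comp φR
  have hfv : ∀ j, (φR (frameVec K R i j)).fst =
      (if g *ᵥ ![1, 0] = ![1, 0] then ![0, 1] else ![1, 0] : Fin 2 → ZMod 2) j := by
    intro j
    have hiff : g *ᵥ ![1, 0] = ![1, 0] ↔ rb hW (K.frob i) *ᵥ ![1, 0] = ![1, 0] := by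
      rw [hg, rU_val]
    by_cases hcase : rb hW (K.frob i) *ᵥ ![1, 0] = ![1, 0]
    · rw [frameVec, if_pos hcase, if_pos (hiff.2 hcase)]
      fin_cases j <;> simp
    · rw [frameVec, if_neg hcase, if_neg (fun e => hcase (hiff.1 e))]
      fin_cases j <;> simp
  set P := frameMat K ρR i with hP
  set P₀ : M₂ := (Matrix.of ![(if g *ᵥ ![1, 0] = ![1, 0] then ![0, 1] else ![1, 0]),
      g *ᵥ (if g *ᵥ ![1, 0] = ![1, 0] then ![0, 1] else ![1, 0])])ᵀ with hP₀
  have hPf : fstM (φR.mapMatrix P) = P₀ := by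
    ext a b
    show (φR (P a b)).fst = _
    fin_cases b
    · exact hfv a
    · show χ ((ρR (K.frob i) *ᵥ frameVec K R i) a) = _
      rw [RingHom.map_mulVec]
      have e1 : (ρR (K.frob i)).map χ = g := by
        ext p q; exact h.fst (K.frob i) p q
      have e2 : (χ ∘ frameVec K R i) =
          (if g *ᵥ ![1, 0] = ![1, 0] then ![0, 1] else ![1, 0] : Fin 2 → ZMod 2) := funext hfv
      rw [e1, e2]
      rfl
  have hdet1 : (φR P.det).fst = 1 := by
    rw [RingHom.map_det, det_fst, hPf, hP₀]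
    exact frame_det g hg2' hg1'
  have hdu : IsUnit P.det := isUnit_of_fst hdet1
  set Z := P.adjugate * (ρR (K.tau i) - 1) * P with hZ
  have hY : P.det * coord D ρR (.inl i) = Z 0 0 - Z 1 0 := by
    show P.det * (frameY K ρR i 0 0 - frameY K ρR i 1 0) = _
    rw [frameY, ← hP, ← hZ, Matrix.smul_apply, Matrix.smul_apply, smul_eq_mul, smul_eq_mul,
      ← mul_sub, ← mul_assoc, Ring.mul_inverse_cancel _ hdu, one_mul]
  have hT : φR.mapMatrix (ρR (K.tau i) - 1) = X - 1 := by
    rw [map_sub, map_one, hX, mapLift_apply]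
  have hT0 : fstM (X - 1) = 0 := by
    ext a b
    have := congrFun (congrFun hXf a) b
    simp only [fstM, Matrix.map_apply, Matrix.sub_apply, TrivSqZeroExt.fst_sub] at this ⊢
    rw [this]
    fin_cases a <;> fin_cases b <;> simp
  have hT1 : sndM (X - 1) = M := by
    ext a b
    fin_cases a <;> fin_cases b <;> simp [hM, sndM]
  have hZf : fstM (φR.mapMatrix Z) = 0 := by
    rw [hZ, map_mul, map_mul, hT, fstM_mul, fstM_mul, hT0, mul_zero, zero_mul]
  have hA : fstM (φR.mapMatrix P.adjugate) = P₀.adjugate := by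
    rw [← hPf]
    exact (congrArg fstM (RingHom.map_adjugate φR P)).trans
      (RingHom.map_adjugate (TrivSqZeroExt.fstHom (ZMod 2) (ZMod 2) (ZMod 2)).toRingHom
        (φR.mapMatrix P))
  have hZs : sndM (φR.mapMatrix Z) = P₀.adjugate * M * P₀ := by
    rw [hZ, map_mul, map_mul, hT, sndM_mul, sndM_mul, fstM_mul, hT0, hT1, hA, hPf, mul_zero,
      mul_zero, zero_mul, add_zero, zero_add]
  have hcf : (φR (coord D ρR (.inl i))).fst = 0 := by
    have e := congrArg (fun x => (φR x).fst) hY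
    simp only [map_mul, map_sub, TrivSqZeroExt.fst_mul, TrivSqZeroExt.fst_sub, hdet1, one_mul] at e
    rw [e]
    have z0 := congrFun (congrFun hZf 0) 0
    have z1 := congrFun (congrFun hZf 1) 0
    simp only [fstM, Matrix.map_apply, RingHom.mapMatrix_apply, Matrix.zero_apply] at z0 z1
    rw [z0, z1, sub_zero]
  have hkey : (P₀.adjugate * M * P₀) 0 0 - (P₀.adjugate * M * P₀) 1 0 = 0 := by
    have e := congrArg (fun x => (φR x).snd) hY
    simp only [map_mul, map_sub, DualNumber.snd_mul, TrivSqZeroExt.snd_sub, hdet1,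
      hcf, mul_zero, add_zero, hco] at e
    rw [← hZs]
    exact e.symm
  exact frame_key g M hg2' hg1' hcomm hkey

theorem lift_tw (hc : Cond ε D ρR) (h : TanMap (hW := hW) ρR φR)
    (hco : ∀ c, (φR (coord D ρR c)).snd = 0) (i : Fin (rk W)) {τ : GQ}
    (hτ : τ ∈ (D.place i).inertiaSubgroupIn ℚ) (hd : ((mapLift h).R τ).det = 1) :
    (mapLift h).R τ = 1 := by
  have hu : ∀ σ ∈ (D.place i).inertiaSubgroupIn ℚ, fstM ((mapLift h).R σ) = 1 := fun σ hσ => by
    rw [mapLift_apply, fstM_lift h, rU_inertia hW (D.prime i) (tw_not_bad D i) (D.lies i) hσ,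
      Units.val_one]
  obtain ⟨hgen, -⟩ := tame_image (mapLift h).R (mapLift h).level (D.prime i) (tw_ne_two D i)
    (D.lies i) (k := 1) (fun σ hσ => by rw [pow_one, pow_two, sq_eq_one_of_fst (hu σ hσ)])
    (D.tau_mem i) (D.tau_sqrt i)
  set X := (mapLift h).R (D.tau i) with hX
  have hXf : fstM X = 1 := hu _ (D.tau_mem i)
  obtain ⟨m, hm⟩ := hgen τ hτ
  rcases pow_eq_or (sq_eq_one_of_fst hXf) m with e | e
  · rw [hm, e]
  rw [hm, e] at hd ⊢
  have hcomm : (rU hW (D.frob i) : M₂) * sndM X = sndM X * (rU hW (D.frob i) : M₂) := by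
    have hc' : Commute (ρR (D.tau i)) (ρR (D.frob i)) := hc.tw i _ (D.tau_mem i)
    have e' : φR.mapMatrix (ρR (D.frob i)) * X = X * φR.mapMatrix (ρR (D.frob i)) := by
      rw [hX, mapLift_apply, ← map_mul φR.mapMatrix, ← map_mul φR.mapMatrix, hc'.eq]
    have := comm_snd hXf e'
    rwa [fstM_lift h] at this
  have htr : (sndM X).trace = 0 := by rw [← det_snd_trace hXf, hd, TrivSqZeroExt.snd_one]
  have h00 : sndM X 0 0 = 0 := by
    have e' := hco (.inr (.inr i))
    simpa [coord, hX, mapLift_apply, sndM] using e'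
  have hz := three_key' (by rw [rU_val, ← r2_eq_rb]; exact Sel.det_eq_one _ _)
    (by rw [rU_val]; exact D.order_three i) hcomm htr h00
  exact extM (by rw [hXf, fstM_one]) (by rw [hz, sndM_one])

theorem lift_two (hc : Cond ε D ρR) (h : TanMap (hW := hW) ρR φR)
    (hd : ∀ g, ((mapLift h).R g).det = 1) :
    ∃ w : Fin 2 → DualNumber (ZMod 2), (fun i => (w i).fst) ≠ 0 ∧
      ∀ d ∈ placeTwo.decompositionSubgroup ℚ, w ᵥ* (mapLift h).R d = w := by
  obtain ⟨lam, hl2, hlmul, hlI, hleq⟩ := hc.two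
  have hfD : frobTwo ∈ placeTwo.decompositionSubgroup ℚ := frobTwo_spec.mem_decompositionSubgroup
  let μ : GQ → DualNumber (ZMod 2) := fun g => φR (lam g)
  have hμI : ∀ g ∈ placeTwo.inertiaSubgroupIn ℚ, μ g = 1 := fun g hg => by
    simp only [μ, hlI g hg, map_one]
  have hμf : μ frobTwo = 1 := by
    have e := congrArg φR hl2
    rw [map_mul, map_chi, mul_one, map_mul, RingHom.map_det, ← mapLift_apply h, hd, mul_one] at e
    simp only [μ]
    rw [e]
    rcases Int.units_eq_one_or ε with rfl | rfl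
    · simp
    · simp [neg_one_dual]
  have hμeq : ∀ g ∈ placeTwo.decompositionSubgroup ℚ, ∀ g' ∈ placeTwo.decompositionSubgroup ℚ,
      ((mapLift h).R g - μ g • (1 : Md)) * ((mapLift h).R g' - μ g' • (1 : Md)) = 0 := by
    intro g hg g' hg'
    have hs : ∀ c : R, φR.mapMatrix (c • (1 : Matrix (Fin 2) (Fin 2) R)) = φR c • (1 : Md) := by
      intro c
      refine Matrix.ext fun a b => ?_
      fin_cases a <;> fin_cases b <;> simp
    have e := congrArg φR.mapMatrix (hleq g hg g' hg')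
    rwa [map_mul, map_zero, map_sub, map_sub, hs, hs, map_mul, map_chi, one_mul,
      ← mapLift_apply h, ← mapLift_apply h] at e
  -- a row with nonzero reduction
  obtain ⟨a, b, hab⟩ : ∃ a b, (((mapLift h).R frobTwo - 1) a b).fst ≠ 0 := by
    by_contra hno
    push Not at hno
    refine (Layer.red_transposition (tate hW) hW.neg.ne (frobTwo_sqrt hW)).2
      ((rU_eq_one_iff hW _).1 (Units.ext ?_))
    rw [← fstM_lift h, Units.val_one, ← sub_eq_zero]
    ext a b
    have := hno a b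
    fin_cases a <;> fin_cases b <;> simpa [fstM, mapLift_apply] using this
  have hpos : ∀ c : DualNumber (ZMod 2), ((mapLift h).R frobTwo - 1) a b * c = 0 → c = 0 := by
    intro c hc0
    have hunit : IsUnit (((mapLift h).R frobTwo - 1) a b) := by
      refine TrivSqZeroExt.isUnit_iff_isUnit_fst.2 ?_
      exact isUnit_iff_ne_zero.2 hab
    exact hunit.mul_right_eq_zero.1 hc0
  have hμ1 : ∀ s ∈ placeTwo.decompositionSubgroup ℚ, (mapLift h).R s = 1 → μ s = 1 := by
    intro s hs hs1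
    have e := congrFun (congrFun (hμeq s hs _ hfD) a) b
    rw [hμf, one_smul, hs1,
      show (1 : Md) - μ s • (1 : Md) = (1 - μ s) • (1 : Md) by rw [sub_smul, one_smul],
      Matrix.smul_mul, one_mul, Matrix.smul_apply, smul_eq_mul, Matrix.zero_apply, mul_comm] at e
    exact (sub_eq_zero.1 (hpos _ e)).symm
  have hμmul : ∀ g ∈ placeTwo.decompositionSubgroup ℚ, ∀ g' ∈ placeTwo.decompositionSubgroup ℚ,
      μ (g * g') = μ g * μ g' := fun g hg g' hg' => by
    simp only [μ, hlmul g hg g' hg', map_mul]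
  have hμ : ∀ d ∈ placeTwo.decompositionSubgroup ℚ, μ d = 1 := by
    intro d hd'
    obtain ⟨L, hL, hLg, -, hker⟩ := exists_normal_field (RU_level (mapLift h))
    haveI := hL; haveI := hLg
    obtain ⟨i, ι, hι, hag⟩ :=
      PT.exists_pow_frob_inertia Nat.prime_two placeTwo_lies frobTwo_spec hd' L
    have hιD := Local.inertia_mem_decomposition hι
    have hpD := Subgroup.pow_mem _ hfD i
    set s := ι⁻¹ * ((frobTwo ^ i)⁻¹ * d) with hs
    have hsD : s ∈ placeTwo.decompositionSubgroup ℚ :=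
      Subgroup.mul_mem _ (Subgroup.inv_mem _ hιD)
        (Subgroup.mul_mem _ (Subgroup.inv_mem _ hpD) hd')
    have hs1 : (mapLift h).R s = 1 := congrArg Units.val (hker s fun x hx => by
      rw [hs, AlgEquiv.mul_apply, ← hag x hx]
      exact ι.symm_apply_apply x)
    have hp : ∀ j : ℕ, μ (frobTwo ^ j) = 1 := by
      intro j
      induction j with
      | zero => rw [pow_zero]; exact hμI 1 (Subgroup.one_mem _)
      | succ j ih => rw [pow_succ, hμmul _ (Subgroup.pow_mem _ hfD j) _ hfD, ih, hμf, one_mul]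
    have hdec : d = frobTwo ^ i * (ι * s) := by rw [hs]; group
    rw [hdec, hμmul _ hpD _ (Subgroup.mul_mem _ hιD hsD), hμmul _ hιD _ hsD, hp, hμI _ hι,
      hμ1 _ hsD hs1, one_mul, one_mul]
  refine ⟨fun j => ((mapLift h).R frobTwo - 1) a j, fun e => hab (congrFun e b), fun d hd' => ?_⟩
  have e := hμeq _ hfD d hd'
  rw [hμf, hμ d hd', one_smul, mul_sub, mul_one, sub_eq_zero] at e
  exact funext fun j => congrFun (congrFun e a) j

theorem tanCond (hc : Cond ε D ρR) (h : TanMap (hW := hW) ρR φR)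
    (hco : ∀ c, (φR (coord D ρR c)).snd = 0) :
    Tan.TanCond (locs D) (badP W) (auxP K) (twP D) (mapLift h) where
  det_unr v hv τ hτ := det_one_of_unr h hc.det hv hτ
  unr v hP hQ hU h2 τ hτ := by
    rw [mapLift_apply, hc.unr v v.2 h2 (fun hb => hP (mem_badP.2 hb))
      (fun i hi => hQ (mem_auxP.2 ⟨i, hi⟩)) (fun i hi => hU ((mem_twP D).2 ⟨i, hi⟩))
      _ ((locs D).lies v) τ hτ, map_one]
  unip v hv τ hτ := unip_of_bad h hc.bad hv hτ
  tw v hv τ hτ hd := by
    obtain ⟨i, hi⟩ := (mem_twP D).1 hv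
    obtain rfl : v = ⟨D.Q i, D.prime i⟩ := Subtype.ext hi.symm
    rw [(locs_tw D i).1] at hτ
    exact lift_tw hc h hco i hτ hd
  two hd v hv := by
    rw [(locs_two D v hv).1]
    exact lift_two hc h hd
  aux_trace v hv := by
    obtain ⟨i, hi⟩ := mem_auxP.1 hv
    obtain rfl : v = ⟨K.q i, K.prime i⟩ := Subtype.ext hi.symm
    rw [(locs_aux D i).2, mapLift_apply]
    have e : (φR.mapMatrix (ρR (K.frob i))).trace = φR (coord D ρR (.inr (.inl i))) :=
      (AddMonoidHom.map_trace φR.toAddMonoidHom _).symm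
    refine TrivSqZeroExt.ext ?_ ?_
    · rw [Matrix.trace_fin_two, TrivSqZeroExt.fst_add, TrivSqZeroExt.fst_zero]
      show (φR (ρR _ 0 0)).fst + (φR (ρR _ 1 1)).fst = 0
      rw [h.fst, h.fst, rU_val]
      exact ((Matrix.trace_fin_two _).symm).trans (rb_aux_trace i)
    · rw [e, hco, TrivSqZeroExt.snd_zero]
  aux_frame v hv τ hτ := by
    obtain ⟨i, hi⟩ := mem_auxP.1 hv
    obtain rfl : v = ⟨K.q i, K.prime i⟩ := Subtype.ext hi.symm
    rw [(locs_aux D i).1] at hτ
    rw [(locs_aux D i).2, emb_eq_map]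
    simpa using lift_frame h hco i hτ

end Local

end FLTAgent.R2

end
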