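import Fermat.Agent.LL.TameGen

/-!
Area R2, parcel tangent space: tame inertia in finite two-groups, and characters of exponent two.
-/

set_option autoImplicit false
set_option linter.style.haveILetI false
set_option linter.unusedSectionVars false

noncomputable section

open FLTAgent.PT

namespace FLTAgent.R2.Tan

/-- a chosen place and Frobenius element at every prime -/
structure Loc where
  pl : Nat.Primes → ValuationSubring (AlgebraicClosure ℚ)
  lies : ∀ v, (pl v).LiesOverPrime (v : ℕ)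
  fr : Nat.Primes → GQ
  fr_spec : ∀ v, (pl v).IsFrobeniusAt (fr v) (v : ℕ)

/-- factoring through a finite level -/
def HasLevel {X : Type} [One X] (f : GQ → X) : Prop :=
  ∃ L : IntermediateField ℚ (AlgebraicClosure ℚ), FiniteDimensional ℚ L ∧
    ∀ g : GQ, (∀ x ∈ L, g x = x) → f g = 1

variable {G : Type} [Group G] (Λ : Loc)

/-- the fixed field of the kernel -/
theorem exists_normal_field {f : GQ →* G} (hf : HasLevel f) :
    ∃ L : IntermediateField ℚ (AlgebraicClosure ℚ), FiniteDimensional ℚ L ∧ IsGalois ℚ L ∧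
      (∀ g : GQ, ∀ x ∈ L, g x ∈ L) ∧ ∀ g, (∀ x ∈ L, g x = x) → f g = 1 := by
  obtain ⟨L₀, hL₀, h₀⟩ := hf
  haveI := FLTAgent.Common.isGalois_qbar
  haveI : Normal ℚ (AlgebraicClosure ℚ) := IsGalois.to_normal
  let L := IntermediateField.normalClosure ℚ L₀ (AlgebraicClosure ℚ)
  haveI : Normal ℚ L := normalClosure.normal ℚ L₀ _
  haveI : FiniteDimensional ℚ L := normalClosure.is_finiteDimensional ℚ L₀ _
  haveI : IsGalois ℚ L := { }
  refine ⟨L, inferInstance, inferInstance, fun g x hx => ?_,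
    fun g hg => h₀ g fun x hx => hg x (L₀.le_normalClosure hx)⟩
  exact (IntermediateField.normal_iff_forall_map_le' (K := L) (L := AlgebraicClosure ℚ)).mp
    inferInstance g ⟨x, hx, rfl⟩

theorem map_eq_of_agree {f : GQ →* G} {L : IntermediateField ℚ (AlgebraicClosure ℚ)}
    (h : ∀ g, (∀ x ∈ L, g x = x) → f g = 1) {g g' : GQ} (hgg' : ∀ x ∈ L, g x = g' x) :
    f g = f g' := by
  have h1 : f (g'⁻¹ * g) = 1 := h _ fun x hx => by
    rw [AlgEquiv.mul_apply, hgg' x hx]; exact g'.symm_apply_apply x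
  rw [map_mul, map_inv, inv_mul_eq_one] at h1
  exact h1.symm

/-- decomposition groups are generated by Frobenius and inertia -/
theorem decomp_eq (f : GQ →* G) (hf : HasLevel f) (v : Nat.Primes) {φ : GQ}
    (hφ : (Λ.pl v).IsFrobeniusAt φ (v : ℕ)) {d : GQ} (hd : d ∈ (Λ.pl v).decompositionSubgroup ℚ) :
    ∃ i : ℕ, ∃ ρ ∈ (Λ.pl v).inertiaSubgroupIn ℚ, f d = f φ ^ i * f ρ := by
  obtain ⟨L, hL, hLg, -, hker⟩ := exists_normal_field hf
  haveI := hL; haveI := hLg
  obtain ⟨i, ρ, hρ, h⟩ := PT.exists_pow_frob_inertia v.2 (Λ.lies v) hφ hd L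
  refine ⟨i, ρ, hρ, ?_⟩
  rw [map_eq_of_agree hker h, map_mul, map_inv, map_pow, mul_inv_cancel_left]

/-- tame inertia in a finite two-group: cyclic, and Frobenius raises it to the power `v` -/
theorem tame_image (f : GQ →* G) (hf : HasLevel f) (v : Nat.Primes) (hv : (v : ℕ) ≠ 2) (K : ℕ)
    (hexp : ∀ τ ∈ (Λ.pl v).inertiaSubgroupIn ℚ, f τ ^ 2 ^ K = 1) :
    ∃ σ ∈ (Λ.pl v).inertiaSubgroupIn ℚ,
      (∀ τ ∈ (Λ.pl v).inertiaSubgroupIn ℚ, ∃ m : ℕ, f τ = f σ ^ m) ∧
      ∀ φ, (Λ.pl v).IsFrobeniusAt φ (v : ℕ) → f φ * f σ * (f φ)⁻¹ = f σ ^ (v : ℕ) := by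
  obtain ⟨L₁, hL₁, -, hmap, hker⟩ := exists_normal_field hf
  haveI := hL₁
  haveI := FLTAgent.Common.isGalois_qbar
  -- the field cut out by the kernel
  let N := f.ker
  have hopen : IsOpen (N : Set GQ) := Subgroup.isOpen_mono
    (H₁ := L₁.fixingSubgroup) (fun g hg => hker g fun x hx =>
      (IntermediateField.mem_fixingSubgroup_iff _ _).1 hg x hx)
    (IntermediateField.fixingSubgroup_isOpen L₁)
  let Nc : ClosedSubgroup GQ := ⟨N, Subgroup.isClosed_of_isOpen _ hopen⟩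
  let L := IntermediateField.fixedField N
  have hLfix : L.fixingSubgroup = N := InfiniteGalois.fixingSubgroup_fixedField Nc
  have hLle : L ≤ L₁ := by
    rw [← InfiniteGalois.fixedField_fixingSubgroup L₁]
    exact IntermediateField.fixedField_le fun g hg => hker g fun x hx =>
      (IntermediateField.mem_fixingSubgroup_iff _ _).1 hg x hx
  haveI : FiniteDimensional ℚ L := FiniteDimensional.of_injective
    (IntermediateField.inclusion hLle).toLinearMap (IntermediateField.inclusion_injective hLle)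
  have hmem : ∀ g, (∀ x ∈ L, g x = x) → f g = 1 := fun g hg =>
    MonoidHom.mem_ker.mp (hLfix.le ((IntermediateField.mem_fixingSubgroup_iff _ _).2 hg))
  have hfix : ∀ g, f g = 1 → ∀ x ∈ L, g x = x := fun g hg =>
    (IntermediateField.mem_fixingSubgroup_iff _ _).1
      (hLfix.symm ▸ (MonoidHom.mem_ker.mpr hg : g ∈ N))
  have hL : ∀ g : GQ, ∀ x ∈ L, g x ∈ L := by
    intro g x hx
    rw [IntermediateField.mem_fixedField_iff] at hx ⊢
    intro s hs
    have hc := (MonoidHom.normal_ker f).conj_mem s hs g⁻¹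
    rw [inv_inv] at hc
    have := hx _ (hc : g⁻¹ * s * g ∈ N)
    rw [AlgEquiv.mul_apply, AlgEquiv.mul_apply] at this
    have e := congrArg g this
    rwa [← AlgEquiv.mul_apply g g⁻¹, mul_inv_cancel, AlgEquiv.one_apply] at e
  have hζ : ∀ y : AlgebraicClosure ℚ, y ^ 2 = 1 → y ∈ L := fun y hy => by
    rcases sq_eq_one_iff.mp hy with rfl | rfl
    · exact one_mem L
    · exact neg_mem (one_mem L)
  obtain ⟨σ, hσ, hgen, hconj⟩ := EIS.exists_tame_generator (k := K) v.2 (Λ.lies v) Nat.prime_two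
    (fun e => hv e.symm) L hL hζ fun τ hτ => hfix _ (by rw [map_pow]; exact hexp τ hτ)
  refine ⟨σ, hσ, fun τ hτ => ?_, fun φ hφ => ?_⟩
  · obtain ⟨m, hm⟩ := hgen τ hτ
    exact ⟨m, by rw [map_eq_of_agree hmem hm, map_pow]⟩
  · have := map_eq_of_agree hmem (hconj φ hφ)
    rwa [map_mul, map_mul, map_inv, map_pow] at this

variable {k : Type} [Field k] [CharP k 2]

theorem sq_mult_eq_one (x : Multiplicative k) : x ^ 2 = 1 := by
  apply Multiplicative.toAdd.injective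
  rw [toAdd_pow, toAdd_one, two_nsmul, CharTwo.add_self_eq_zero]

theorem sq_mult_sq {x : Multiplicative k × Multiplicative k} : x ^ 2 = 1 :=
  Prod.ext (sq_mult_eq_one _) (sq_mult_eq_one _)

/-- a character killed at an inertia element moved by another kills the inertia group -/
theorem inertia_eq_one (θ χ : GQ →* Multiplicative k) (hθ : HasLevel θ) (hχ : HasLevel χ)
    (v : Nat.Primes) (hv : (v : ℕ) ≠ 2) {σ : GQ} (hσ : σ ∈ (Λ.pl v).inertiaSubgroupIn ℚ)
    (hθσ : θ σ ≠ 1) (hχσ : χ σ = 1) : ∀ τ ∈ (Λ.pl v).inertiaSubgroupIn ℚ, χ τ = 1 := by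
  obtain ⟨L₁, hL₁, h₁⟩ := hθ
  obtain ⟨L₂, hL₂, h₂⟩ := hχ
  haveI := hL₁; haveI := hL₂
  obtain ⟨s, hs, hgen, -⟩ := tame_image Λ (θ.prod χ) ⟨L₁ ⊔ L₂, inferInstance, fun g hg =>
      Prod.ext (h₁ g fun x hx => hg x ((le_sup_left : L₁ ≤ L₁ ⊔ L₂) hx))
        (h₂ g fun x hx => hg x ((le_sup_right : L₂ ≤ L₁ ⊔ L₂) hx))⟩ v hv 1
    (fun τ _ => by rw [pow_one]; exact sq_mult_sq)
  obtain ⟨m, hm⟩ := hgen σ hσ
  have hm1 : θ σ = θ s ^ m := congrArg Prod.fst hm
  have hm2 : χ σ = χ s ^ m := congrArg Prod.snd hm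
  have hodd : Odd m := by
    by_contra hev
    obtain ⟨j, rfl⟩ := Nat.not_odd_iff_even.mp hev
    exact hθσ (by rw [hm1, ← two_mul, pow_mul, sq_mult_eq_one, one_pow])
  obtain ⟨j, rfl⟩ := hodd
  rw [pow_succ, pow_mul, sq_mult_eq_one, one_pow, one_mul] at hm2
  intro τ hτ
  obtain ⟨i, hi⟩ := hgen τ hτ
  rw [show χ τ = χ s ^ i from congrArg Prod.snd hi, ← hm2, hχσ, one_pow]

/-- a character trivial on the inertia groups at the standard places is trivial -/
theorem eq_one_of_unramified (χ : GQ →* Multiplicative k) (hχ : HasLevel χ)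
    (h : ∀ v : Nat.Primes, ∀ τ ∈ (Λ.pl v).inertiaSubgroupIn ℚ, χ τ = 1) (g : GQ) : χ g = 1 := by
  obtain ⟨L, hL, hker⟩ := hχ
  haveI := hL
  exact Common.hom_eq_one_of_unramified χ L
    (fun s hs => hker s ((IntermediateField.mem_fixingSubgroup_iff _ _).1 hs))
    (fun q hq V hV s hs => MonoidHom.mem_ker.mp
      (Common.inertia_le_of_inertia_le (H := χ.ker) hq (Λ.lies ⟨q, hq⟩) hV
        (fun τ hτ => MonoidHom.mem_ker.mpr (h ⟨q, hq⟩ τ hτ)) hs)) g

/-- the quadratic character of conductor `q` -/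
def legChar (q : Nat.Primes) : GQ → Multiplicative k := fun g =>
  haveI : NeZero (q : ℕ) := ⟨q.2.ne_zero⟩
  open scoped Classical in
  if IsSquare (Attach.cyc (q : ℕ) g) then 1 else Multiplicative.ofAdd 1

theorem legChar_mul {q : Nat.Primes} (g h : GQ) :
    legChar (k := k) q (g * h) = legChar q g * legChar q h := by
  haveI : Fact (q : ℕ).Prime := ⟨q.2⟩
  haveI : NeZero (q : ℕ) := ⟨q.2.ne_zero⟩
  set a := Attach.cyc (q : ℕ) g
  set b := Attach.cyc (q : ℕ) h
  have ha : a ≠ 0 := (PT.TW.cycHom (q : ℕ) g).ne_zero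
  have hb : b ≠ 0 := (PT.TW.cycHom (q : ℕ) h).ne_zero
  have hmul : Attach.cyc (q : ℕ) (g * h) = a * b := Attach.cyc_mul _ _ _
  simp only [legChar, hmul]
  by_cases hga : IsSquare a <;> by_cases hgb : IsSquare b
  · rw [if_pos hga, if_pos hgb, if_pos (hga.mul hgb), one_mul]
  · rw [if_pos hga, if_neg hgb, if_neg, one_mul]
    intro hab
    obtain ⟨x, hx⟩ := hab
    obtain ⟨y, hy⟩ := hga
    refine hgb ⟨x / y, ?_⟩
    rw [hy] at hx
    have hy0 : y ≠ 0 := fun e => ha (by rw [hy, e, mul_zero])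
    field_simp
    linear_combination hx
  · rw [if_neg hga, if_pos hgb, if_neg, mul_one]
    intro hab
    obtain ⟨x, hx⟩ := hab
    obtain ⟨y, hy⟩ := hgb
    refine hga ⟨x / y, ?_⟩
    rw [hy] at hx
    have hy0 : y ≠ 0 := fun e => hb (by rw [hy, e, mul_zero])
    field_simp
    linear_combination hx
  · rw [if_neg hga, if_neg hgb, if_pos, ← ofAdd_add, CharTwo.add_self_eq_zero, ofAdd_zero]
    refine (quadraticChar_one_iff_isSquare (mul_ne_zero ha hb)).mp ?_
    rw [map_mul, quadraticChar_neg_one_iff_not_isSquare.mpr hga,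
      quadraticChar_neg_one_iff_not_isSquare.mpr hgb]
    rfl

theorem legChar_one {q : Nat.Primes} : legChar (k := k) q 1 = 1 := by
  haveI : NeZero (q : ℕ) := ⟨q.2.ne_zero⟩
  simp [legChar, Attach.cyc_one]

/-- as a homomorphism -/
def legHom (q : Nat.Primes) : GQ →* Multiplicative k where
  toFun := legChar q
  map_one' := legChar_one
  map_mul' := legChar_mul

theorem legHom_level (q : Nat.Primes) : HasLevel (legHom (k := k) q) := by
  haveI : NeZero (q : ℕ) := ⟨q.2.ne_zero⟩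
  obtain ⟨L, hL, hc⟩ := Attach.exists_cyc_level (q : ℕ)
  refine ⟨L, hL, fun g hg => ?_⟩
  show legChar q g = 1
  simp [legChar, hc g hg]

theorem legHom_inertia {q v : Nat.Primes} (hv : (v : ℕ) ≠ (q : ℕ)) {τ : GQ}
    (hτ : τ ∈ (Λ.pl v).inertiaSubgroupIn ℚ) : legHom (k := k) q τ = 1 := by
  haveI : Fact (q : ℕ).Prime := ⟨q.2⟩
  haveI : NeZero (q : ℕ) := ⟨q.2.ne_zero⟩
  have h := PT.TW.cycloChar_eq_one_of_inertia (p := (q : ℕ)) v.2 hv (Λ.lies v) hτ
  have h2 : Attach.cyc (q : ℕ) τ = 1 := by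
    rw [← PT.TW.cycloChar_eq_cyc, h, Units.val_one]
  show legChar q τ = 1
  simp [legChar, h2]

theorem legHom_frob {q v : Nat.Primes} (hv : (v : ℕ) ≠ (q : ℕ)) {φ : GQ}
    (hφ : (Λ.pl v).IsFrobeniusAt φ (v : ℕ)) :
    legHom (k := k) q φ =
      open scoped Classical in if IsSquare ((v : ℕ) : ZMod q) then 1 else Multiplicative.ofAdd 1 := by
  haveI : NeZero (q : ℕ) := ⟨q.2.ne_zero⟩
  have h := Attach.cyc_frobenius v.2
    (fun hd => hv ((Nat.prime_dvd_prime_iff_eq v.2 q.2).mp hd)) (Λ.lies v) hφ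
  show legChar q φ = _
  simp [legChar, h]

theorem exists_legHom_moved (q : Nat.Primes) (hq : (q : ℕ) ≠ 2) :
    ∃ σ ∈ (Λ.pl q).inertiaSubgroupIn ℚ, legHom (k := k) q σ ≠ 1 := by
  haveI : Fact (q : ℕ).Prime := ⟨q.2⟩
  haveI : NeZero (q : ℕ) := ⟨q.2.ne_zero⟩
  obtain ⟨a, ha⟩ := FiniteField.exists_nonsquare (F := ZMod (q : ℕ))
    (by rw [ZMod.ringChar_zmod_n]; exact hq)
  have ha0 : a ≠ 0 := fun h => ha (h ▸ IsSquare.zero)
  obtain ⟨τ, hτ, hτζ⟩ := EIS.exists_inertia_zeta q.2 (Λ.lies q) 1 a.val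
    ((ZMod.isUnit_iff_coprime _ _).mp (by rw [ZMod.natCast_zmod_val]; exact ha0.isUnit))
  refine ⟨τ, hτ, ?_⟩
  have hcyc : Attach.cyc (q : ℕ) τ = a :=
    Attach.cyc_unique τ _ fun z hz => hτζ z (by rwa [pow_one])
  show legChar q τ ≠ 1
  simp only [legChar, hcyc, if_neg ha]
  exact fun h => one_ne_zero (congrArg Multiplicative.toAdd h)

end FLTAgent.R2.Tan

end
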