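import Fermat.Agent.R2.TanMat
import Fermat.Agent.R2.TanInertia

/-!
Area R2, parcel tangent space: the lifts to the dual numbers satisfying the conditions of the
deformation problem with vanishing frame coordinates form a space of dimension at most `b - 1`,
where `b` is the number of odd bad primes.

The determinant part vanishes by the Legendre symbols of the Taylor-Wiles primes, the plane part by
the vanishing of the Selmer space, and the scalar part is a quadratic character ramified at the bad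
primes only, taken modulo the one cutting out the two-torsion.
-/

set_option autoImplicit false
set_option linter.style.haveILetI false
set_option linter.unusedSectionVars false

noncomputable section

open Matrix TrivSqZeroExt FLTAgent.PT FLTAgent.PT.TW

namespace FLTAgent.R2.Tan

/-- a lift of `r` to the dual numbers -/
structure TanLift (r : GQ →* GL (Fin 2) (ZMod 2)) (k : Type) [Field k] [Algebra (ZMod 2) k] where
  R : GQ →* Matrix (Fin 2) (Fin 2) (DualNumber k)
  fst_eq : ∀ g, fstM (R g) = emb (r g)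
  level : HasLevel R

/-- what is needed of the residual representation and the three sets of primes: bad, auxiliary,
Taylor-Wiles -/
structure TanSetting (Λ : Loc) (r : GQ →* GL (Fin 2) (ZMod 2)) (P Qa U : Finset Nat.Primes) : Prop where
  level : HasLevel r
  nonempty : P.Nonempty
  odd : ∀ v : Nat.Primes, (v ∈ P ∨ v ∈ Qa ∨ v ∈ U) → (v : ℕ) ≠ 2
  disjP : ∀ v ∈ P, v ∉ U
  disjQ : ∀ v ∈ Qa, v ∉ U ∧ v ∉ P
  ram : ∀ v ∈ P, ∃ σ ∈ (Λ.pl v).inertiaSubgroupIn ℚ, r σ ≠ 1
  unr : ∀ v : Nat.Primes, v ∉ P → ∀ τ ∈ (Λ.pl v).inertiaSubgroupIn ℚ, r τ = 1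
  transp : ∀ v : Nat.Primes, (v ∈ Qa ∨ (v : ℕ) = 2) →
    r (Λ.fr v) * r (Λ.fr v) = 1 ∧ r (Λ.fr v) ≠ 1
  indep : ∀ a : Nat.Primes → ZMod 2, (∀ p ∈ P, (∑ q ∈ U,
    open scoped Classical in if IsSquare ((p : ℕ) : ZMod (q : ℕ)) then 0 else a q) = 0) →
      ∀ q ∈ U, a q = 0

/-- every plane-valued class unramified outside the bad, auxiliary and even primes, with values in
the fixed lines there, vanishes -/
def SelTrivial (Λ : Loc) (r : GQ →* GL (Fin 2) (ZMod 2)) (P Qa : Finset Nat.Primes) : Prop :=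
  ∀ z : GQ → Fin 2 → ZMod 2,
    (∀ g h, z (g * h) = (r g : Matrix (Fin 2) (Fin 2) (ZMod 2)) *ᵥ z h + z g) →
    (∃ L : IntermediateField ℚ (AlgebraicClosure ℚ), FiniteDimensional ℚ L ∧
      ∀ g : GQ, (∀ x ∈ L, g x = x) → z g = 0) →
    (∀ v : Nat.Primes, v ∉ P → v ∉ Qa → (v : ℕ) ≠ 2 →
      ∀ A : ValuationSubring (AlgebraicClosure ℚ), A.LiesOverPrime (v : ℕ) →
        ∀ τ ∈ A.inertiaSubgroupIn ℚ, z τ = 0) →
    (∀ v : Nat.Primes, (v ∈ P ∨ v ∈ Qa ∨ (v : ℕ) = 2) →
      ∀ d ∈ (Λ.pl v).decompositionSubgroup ℚ, ∀ e ∈ (Λ.pl v).decompositionSubgroup ℚ,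
        (r e : Matrix (Fin 2) (Fin 2) (ZMod 2)) *ᵥ z d = z d) →
    ∃ m, ∀ g, z g = (r g : Matrix (Fin 2) (Fin 2) (ZMod 2)) *ᵥ m + m

variable {r : GQ →* GL (Fin 2) (ZMod 2)} {k : Type} [Field k] [Algebra (ZMod 2) k]
  {P Qa U : Finset Nat.Primes} {Λ : Loc}

/-- the conditions of the problem on a lift, frame coordinates at the auxiliary primes zero -/
structure TanCond (Λ : Loc) (P Qa U : Finset Nat.Primes) (L : TanLift r k) : Prop where
  det_unr : ∀ v : Nat.Primes, v ∉ U → ∀ τ ∈ (Λ.pl v).inertiaSubgroupIn ℚ, (L.R τ).det = 1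
  unr : ∀ v : Nat.Primes, v ∉ P → v ∉ Qa → v ∉ U → (v : ℕ) ≠ 2 →
    ∀ τ ∈ (Λ.pl v).inertiaSubgroupIn ℚ, L.R τ = 1
  unip : ∀ v ∈ P, ∀ τ ∈ (Λ.pl v).inertiaSubgroupIn ℚ, (L.R τ - 1) * (L.R τ - 1) = 0
  tw : ∀ v ∈ U, ∀ τ ∈ (Λ.pl v).inertiaSubgroupIn ℚ, (L.R τ).det = 1 → L.R τ = 1
  two : (∀ g, (L.R g).det = 1) → ∀ v : Nat.Primes, (v : ℕ) = 2 →
    ∃ w : Fin 2 → DualNumber k, (fun i => (w i).fst) ≠ 0 ∧
      ∀ d ∈ (Λ.pl v).decompositionSubgroup ℚ, w ᵥ* L.R d = w
  aux_trace : ∀ v ∈ Qa, (L.R (Λ.fr v)).trace = 0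
  aux_frame : ∀ v ∈ Qa,
    ∀ τ ∈ (Λ.pl v).inertiaSubgroupIn ℚ, sndM (L.R τ) * (emb (r (Λ.fr v)) + 1) = 0

theorem charP_two : CharP k 2 := charP_of_injective_algebraMap (algebraMap (ZMod 2) k).injective 2

/-- the cocycle of a lift -/
def coc (L : TanLift r k) (g : GQ) : Matrix (Fin 2) (Fin 2) k := sndM (L.R g) * emb (r g)⁻¹

variable (L : TanLift r k)

theorem sndM_eq (g : GQ) : sndM (L.R g) = coc L g * emb (r g) := by
  rw [coc, mul_assoc, emb_inv_mul, mul_one]

theorem coc_mul (g h : GQ) : coc L (g * h) = conj (r g) (coc L h) + coc L g := by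
  rw [coc, map_mul, map_mul, sndM_mul, L.fst_eq, L.fst_eq, _root_.mul_inv_rev, map_mul, add_mul]
  congr 1
  · simp only [conj, coc, mul_assoc]
  · rw [coc]
    simp only [mul_assoc]
    rw [← mul_assoc (emb (r h)), emb_mul_inv, one_mul]

theorem emb_injective : Function.Injective (emb (k := k)) := fun A B h =>
  Units.ext (Matrix.map_injective (algebraMap (ZMod 2) k).injective h)

theorem eq_of_R_eq {g h : GQ} (e : L.R g = L.R h) : r g = r h ∧ coc L g = coc L h := by
  have e1 : r g = r h := emb_injective (k := k) (by rw [← L.fst_eq, e, L.fst_eq])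
  exact ⟨e1, by rw [coc, coc, e, e1]⟩

theorem coc_one : coc L 1 = 0 := by rw [coc, map_one, sndM_one, zero_mul]

theorem det_fst_one (g : GQ) : ((L.R g).det).fst = 1 := by
  have key : ∀ M N : Matrix (Fin 2) (Fin 2) (ZMod 2), M * N = 1 → M.det = 1 := by decide
  rw [det_fst, L.fst_eq, emb_eq_map, ← RingHom.map_det,
    key _ ((r g)⁻¹ : GL (Fin 2) (ZMod 2)) (by rw [← Units.val_mul, mul_inv_cancel, Units.val_one]),
    map_one]

theorem det_snd_eq (g : GQ) : ((L.R g).det).snd = (coc L g).trace := by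
  rw [det_snd (C := coc L g) (by rw [sndM_eq, L.fst_eq]), ← det_fst, det_fst_one, mul_one]

theorem det_eq_one_iff (g : GQ) : (L.R g).det = 1 ↔ (coc L g).trace = 0 := by
  rw [← det_snd_eq]
  constructor
  · intro h; rw [h, TrivSqZeroExt.snd_one]
  · intro h
    exact TrivSqZeroExt.ext (by rw [det_fst_one, TrivSqZeroExt.fst_one])
      (by rw [h, TrivSqZeroExt.snd_one])

/-- the representation into units -/
def RU : GQ →* (Matrix (Fin 2) (Fin 2) (DualNumber k))ˣ := L.R.toHomUnits

theorem RU_val (g : GQ) : (RU L g : Matrix (Fin 2) (Fin 2) (DualNumber k)) = L.R g := rfl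

theorem RU_level : HasLevel (RU L) := by
  obtain ⟨F, hF, h⟩ := L.level
  exact ⟨F, hF, fun g hg => Units.ext (h g hg)⟩

theorem centralizer_invol : ∀ A B : GL (Fin 2) (ZMod 2), A * A = 1 → A ≠ 1 → B * A = A * B →
    B = 1 ∨ B = A := by
  have key' : ∀ M N : Matrix (Fin 2) (Fin 2) (ZMod 2),
      ¬ M * M = 1 ∨ M = 1 ∨ ¬ N * M = M * N ∨ ¬ N.det = 1 ∨ N = 1 ∨ N = M := by decide
  have key : ∀ M N : Matrix (Fin 2) (Fin 2) (ZMod 2), M * M = 1 → M ≠ 1 → N * M = M * N →
      N.det = 1 → N = 1 ∨ N = M := fun M N h1 h2 h3 h4 => by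
    rcases key' M N with e | e | e | e | e
    exacts [absurd h1 e, absurd e h2, absurd h3 e, absurd h4 e, e]
  intro A B hA hA1 h
  have kd : ∀ M N : Matrix (Fin 2) (Fin 2) (ZMod 2), M * N = 1 → M.det = 1 := by decide
  rcases key A B (by rw [← Units.val_mul, hA, Units.val_one]) (fun e => hA1 (Units.ext e))
    (by rw [← Units.val_mul, h, Units.val_mul])
    (kd _ (B⁻¹ : GL (Fin 2) (ZMod 2)) (by rw [← Units.val_mul, mul_inv_cancel, Units.val_one]))
    with e | e
  · exact Or.inl (Units.ext e)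
  · exact Or.inr (Units.ext e)

/-- fixed by an involution, hence by its powers -/
theorem fixed_of_or {A B : GL (Fin 2) (ZMod 2)} (hB : B = 1 ∨ B = A) {v : Fin 2 → k}
    (h : emb A *ᵥ v = v) : emb B *ᵥ v = v := by
  rcases hB with rfl | rfl
  · rw [map_one, one_mulVec]
  · exact h

variable {L}

/-- at a bad prime -/
theorem bad_decomp' (hS : TanSetting Λ r P Qa U)
    (hunip : ∀ v ∈ P, ∀ τ ∈ (Λ.pl v).inertiaSubgroupIn ℚ, (L.R τ - 1) * (L.R τ - 1) = 0)
    {v : Nat.Primes} (hv : v ∈ P) {d : GQ} (hd : d ∈ (Λ.pl v).decompositionSubgroup ℚ) :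
    (coc L d).trace = 0 ∧ ∀ e ∈ (Λ.pl v).decompositionSubgroup ℚ,
      emb (r e) *ᵥ stPart (coc L d) = stPart (coc L d) := by
  haveI := charP_two (k := k)
  have h2 : (2 : k) = 0 := two_eq_zero
  have hexp : ∀ τ ∈ (Λ.pl v).inertiaSubgroupIn ℚ, RU L τ ^ 2 ^ 1 = 1 := fun τ hτ => by
    apply Units.ext
    rw [pow_one, pow_two, Units.val_mul, RU_val, Units.val_one]
    have h := hunip v hv τ hτ
    have h2' : (2 : Matrix (Fin 2) (Fin 2) (DualNumber k)) = 0 := by
      rw [← map_ofNat (Matrix.scalar (Fin 2) : DualNumber k →+* _) 2]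
      have : (2 : DualNumber k) = 0 := by
        rw [← map_ofNat (TrivSqZeroExt.inlHom k k) 2, h2, map_zero]
      rw [this, map_zero]
    calc L.R τ * L.R τ = (L.R τ - 1) * (L.R τ - 1) + 2 * L.R τ - 1 := by noncomm_ring
      _ = -1 := by rw [h, h2', zero_mul, zero_add, zero_sub]
      _ = 1 := by
        rw [neg_eq_iff_add_eq_zero, ← two_mul, h2', zero_mul]
  obtain ⟨σ, hσ, hgen, hconj⟩ :=
    tame_image Λ (RU L) (RU_level L) v (hS.odd v (Or.inl hv)) 1 hexp
  have hsq : RU L σ * RU L σ = 1 := by simpa [pow_two] using hexp σ hσ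
  have hσσ : L.R (σ * σ) = L.R 1 := by
    rw [map_mul, map_one, ← RU_val, ← Units.val_mul, hsq, Units.val_one]
  set A := r σ with hA
  have hA2 : A * A = 1 := by rw [← map_mul, (eq_of_R_eq L hσσ).1, map_one]
  have hA1 : A ≠ 1 := by
    obtain ⟨s, hs, hs1⟩ := hS.ram v hv
    obtain ⟨m, hm⟩ := hgen s hs
    intro e
    refine hs1 ?_
    have : L.R s = L.R (σ ^ m) := by
      rw [← RU_val, hm, Units.val_pow_eq_pow_val, RU_val, map_pow]
    rw [(eq_of_R_eq L this).1, map_pow, ← hA, e, one_pow]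
  -- everything commutes with `σ`
  have hcomm : ∀ e ∈ (Λ.pl v).decompositionSubgroup ℚ, L.R (e * σ) = L.R (σ * e) := by
    intro e he
    obtain ⟨φ, hφ⟩ := (⟨Λ.fr v, Λ.fr_spec v⟩ : ∃ φ, (Λ.pl v).IsFrobeniusAt φ (v : ℕ))
    obtain ⟨i, ρ, hρ, hde⟩ := decomp_eq Λ (RU L) (RU_level L) v hφ he
    obtain ⟨m, hm⟩ := hgen ρ hρ
    have hpow : RU L σ ^ (v : ℕ) = RU L σ := by
      obtain ⟨j, hj⟩ := v.2.odd_of_ne_two (hS.odd v (Or.inl hv))
      rw [hj, pow_succ, pow_mul, pow_two, hsq, one_pow, one_mul]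
    have hc : Commute (RU L φ) (RU L σ) := by
      have := hconj φ hφ
      rw [hpow, mul_inv_eq_iff_eq_mul] at this
      exact this
    have : Commute (RU L e) (RU L σ) := by
      rw [hde, hm]
      exact (hc.pow_left i).mul_left ((Commute.refl _).pow_left m)
    rw [map_mul, map_mul]
    exact congrArg Units.val this.eq
  have hr : ∀ e ∈ (Λ.pl v).decompositionSubgroup ℚ, r e = 1 ∨ r e = A := fun e he =>
    centralizer_invol A (r e) hA2 hA1 (by
      rw [← map_mul, (eq_of_R_eq L (hcomm e he)).1, map_mul])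
  have hCσ : conj A (coc L σ) = coc L σ := by
    have e := (eq_of_R_eq L hσσ).2
    rw [coc_mul, coc_one, ← hA] at e
    ext i j
    have e' := congrFun (congrFun e i) j
    rw [Matrix.add_apply, Matrix.zero_apply] at e'
    linear_combination e' - coc L σ i j * h2
  have hfix : conj A (coc L d) = coc L d := by
    have e := (eq_of_R_eq L (hcomm d hd)).2
    rw [coc_mul, coc_mul, ← hA] at e
    rcases hr d hd with h | h
    · rw [h, conj_one, add_comm (conj A _)] at e
      exact (add_left_cancel e).symm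
    · rw [h, hCσ, add_comm (conj A _)] at e
      exact (add_left_cancel e).symm
  have hcm : emb A * coc L d = coc L d * emb A := by
    conv_rhs => rw [← hfix, conj, mul_assoc, emb_inv_mul, mul_one]
  exact ⟨trace_eq_zero_of_comm hA2 hA1 hcm,
    fun e he => fixed_of_or (hr e he) (stPart_fixed_of_comm hcm)⟩

theorem toAdd_hom_mul (χ : GQ →* Multiplicative k) (g h : GQ) :
    Multiplicative.toAdd (χ (g * h)) =
      Multiplicative.toAdd (χ g) + Multiplicative.toAdd (χ h) := by
  rw [map_mul, toAdd_mul]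

theorem bad_decomp (hS : TanSetting Λ r P Qa U) (hC : TanCond Λ P Qa U L) {v : Nat.Primes}
    (hv : v ∈ P) {d : GQ} (hd : d ∈ (Λ.pl v).decompositionSubgroup ℚ) :
    (coc L d).trace = 0 ∧ ∀ e ∈ (Λ.pl v).decompositionSubgroup ℚ,
      emb (r e) *ᵥ stPart (coc L d) = stPart (coc L d) :=
  bad_decomp' hS hC.unip hv hd

/-- the determinant part vanishes: only the conditions on determinants and at bad primes matter -/
theorem trace_coc_eq_zero' (hS : TanSetting Λ r P Qa U)
    (hdet : ∀ v : Nat.Primes, v ∉ U → ∀ τ ∈ (Λ.pl v).inertiaSubgroupIn ℚ, (L.R τ).det = 1)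
    (hunip : ∀ v ∈ P, ∀ τ ∈ (Λ.pl v).inertiaSubgroupIn ℚ, (L.R τ - 1) * (L.R τ - 1) = 0)
    (g : GQ) : (coc L g).trace = 0 := by
  classical
  haveI := charP_two (k := k)
  let ψ : GQ →* Multiplicative k :=
    { toFun := fun g => Multiplicative.ofAdd (coc L g).trace
      map_one' := by rw [coc_one, Matrix.trace_zero, ofAdd_zero]
      map_mul' := fun g h => by
        rw [coc_mul, Matrix.trace_add, trace_conj, ← ofAdd_add, add_comm] }
  have hψl : HasLevel ψ := by
    obtain ⟨F, hF, h⟩ := L.level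
    refine ⟨F, hF, fun g hg => ?_⟩
    show Multiplicative.ofAdd (coc L g).trace = 1
    rw [coc, h g hg, sndM_one, zero_mul, Matrix.trace_zero, ofAdd_zero]
  have hσex : ∀ q : Nat.Primes, ∃ σ, q ∈ U →
      σ ∈ (Λ.pl q).inertiaSubgroupIn ℚ ∧ legHom (k := k) q σ ≠ 1 := by
    intro q
    by_cases hq : q ∈ U
    · obtain ⟨σ, h1, h2⟩ := exists_legHom_moved Λ (k := k) q (hS.odd q (Or.inr (Or.inr hq)))
      exact ⟨σ, fun _ => ⟨h1, h2⟩⟩
    · exact ⟨1, fun h => absurd h hq⟩
  choose σ hσ using hσex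
  let a : Nat.Primes → k := fun q => Multiplicative.toAdd (ψ (σ q))
  let lg : Nat.Primes → GQ → k := fun q g => Multiplicative.toAdd (legHom (k := k) q g)
  have hlgσ : ∀ q ∈ U, lg q (σ q) = 1 := by
    intro q hq
    have h := (hσ q hq).2
    change legChar q (σ q) ≠ 1 at h
    show Multiplicative.toAdd (legChar (k := k) q (σ q)) = 1
    unfold legChar at h ⊢
    split_ifs at h ⊢ with hsq
    · exact absurd rfl h
    · rfl
  let χ : GQ →* Multiplicative k :=
    { toFun := fun g => ψ g * Multiplicative.ofAdd (∑ q ∈ U, a q * lg q g)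
      map_one' := by simp [lg]
      map_mul' := fun g h => by
        rw [map_mul ψ, mul_mul_mul_comm, ← ofAdd_add, ← Finset.sum_add_distrib]
        congr 2
        refine Finset.sum_congr rfl fun q _ => ?_
        rw [← mul_add]
        exact congrArg (a q * ·) (toAdd_hom_mul _ g h) }
  have hχl : HasLevel χ := by
    obtain ⟨F, hF, h⟩ := hψl
    choose G hG hGl using fun q => legHom_level (k := k) q
    haveI := hF
    haveI : ∀ q, FiniteDimensional ℚ (G q) := hG
    refine ⟨F ⊔ U.sup G, ?_, fun g hg => ?_⟩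
    · haveI : FiniteDimensional ℚ (U.sup G : IntermediateField ℚ (AlgebraicClosure ℚ)) := by
        rw [Finset.sup_eq_iSup]
        exact IntermediateField.finiteDimensional_iSup_of_finset
      infer_instance
    · show ψ g * _ = 1
      rw [h g fun x hx => hg x ((le_sup_left : F ≤ F ⊔ U.sup G) hx), one_mul,
        ← ofAdd_zero]
      congr 1
      refine Finset.sum_eq_zero fun q hq => ?_
      have : legHom (k := k) q g = 1 := hGl q g fun x hx =>
        hg x ((le_sup_right : U.sup G ≤ F ⊔ U.sup G) (Finset.le_sup (f := G) hq hx))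
      simp [lg, this]
  have hχ1 : ∀ g, χ g = 1 := eq_one_of_unramified Λ χ hχl fun v τ hτ => by
    by_cases hv : v ∈ U
    · refine inertia_eq_one Λ (legHom v) χ (legHom_level v) hχl v (hS.odd v (Or.inr (Or.inr hv)))
        (hσ v hv).1 (hσ v hv).2 ?_ τ hτ
      show ψ (σ v) * _ = 1
      rw [Finset.sum_eq_single v (fun q _ hqv => by
        simp [lg, legHom_inertia Λ (k := k) (q := q) (fun e => hqv (Subtype.ext e.symm)) (hσ v hv).1])
        (fun h => absurd hv h), hlgσ v hv, mul_one]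
      apply Multiplicative.toAdd.injective
      rw [toAdd_mul, toAdd_ofAdd, toAdd_one]
      exact CharTwo.add_self_eq_zero _
    · show ψ τ * _ = 1
      have h0 : ψ τ = 1 := by
        show Multiplicative.ofAdd (coc L τ).trace = 1
        rw [(det_eq_one_iff L τ).mp (hdet v hv τ hτ), ofAdd_zero]
      rw [h0, one_mul, ← ofAdd_zero]
      congr 1
      refine Finset.sum_eq_zero fun q hq => ?_
      simp [lg, legHom_inertia Λ (k := k) (q := q) (v := v) (fun e => hv (Subtype.ext e ▸ hq)) hτ]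
  have hψ : ∀ g, (coc L g).trace + ∑ q ∈ U, a q * lg q g = 0 := fun g => by
    have := congrArg Multiplicative.toAdd (hχ1 g)
    simpa [χ, ψ] using this
  have ha : ∀ q ∈ U, a q = 0 := by
    intro q₀ hq₀
    by_contra hne
    obtain ⟨f, hf⟩ := Module.Projective.exists_dual_ne_zero (ZMod 2) hne
    refine hf (hS.indep (fun q => f (a q)) (fun p hp => ?_) q₀ hq₀)
    obtain ⟨φ, hφ⟩ := (⟨Λ.fr p, Λ.fr_spec p⟩ : ∃ φ, (Λ.pl p).IsFrobeniusAt φ (p : ℕ))
    have h := hψ φ
    rw [(bad_decomp' hS hunip hp hφ.mem_decompositionSubgroup).1, zero_add] at h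
    have h' := congrArg f h
    rw [map_sum, map_zero] at h'
    refine Eq.trans ?_ h'
    refine Finset.sum_congr rfl fun q hq => ?_
    show _ = f (a q * Multiplicative.toAdd (legHom (k := k) q φ))
    rw [legHom_frob Λ (fun e => hS.disjP p hp ((Subtype.ext e : p = q) ▸ hq)) hφ]
    split_ifs <;> simp
  have := hψ g
  rwa [Finset.sum_eq_zero fun q hq => by rw [ha q hq, zero_mul], add_zero] at this

theorem trace_coc_eq_zero (hS : TanSetting Λ r P Qa U) (hC : TanCond Λ P Qa U L) (g : GQ) :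
    (coc L g).trace = 0 :=
  trace_coc_eq_zero' hS hC.det_unr hC.unip g

theorem decomp_two (hS : TanSetting Λ r P Qa U) {v : Nat.Primes} (hv : v ∈ Qa ∨ (v : ℕ) = 2)
    {d : GQ}
    (hd : d ∈ (Λ.pl v).decompositionSubgroup ℚ) : r d = 1 ∨ r d = r (Λ.fr v) := by
  have hφ := Λ.fr_spec v
  set φ := Λ.fr v with hφdef
  obtain ⟨i, ρ, hρ, h⟩ := decomp_eq Λ r hS.level v hφ hd
  have hvP : v ∉ P := fun hP => hv.elim (fun hq => (hS.disjQ v hq).2 hP) (hS.odd v (Or.inl hP))
  rw [h, hS.unr v hvP ρ hρ, mul_one]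
  rcases Nat.even_or_odd' i with ⟨j, rfl | rfl⟩
  · exact Or.inl (by rw [pow_mul, pow_two, (hS.transp v hv).1, one_pow])
  · exact Or.inr (by rw [pow_succ, pow_mul, pow_two, (hS.transp v hv).1, one_pow, one_mul])

/-- at the even prime -/
theorem two_decomp (hS : TanSetting Λ r P Qa U) (hC : TanCond Λ P Qa U L) {v : Nat.Primes}
    (hv : (v : ℕ) = 2) {d : GQ} (hd : d ∈ (Λ.pl v).decompositionSubgroup ℚ) :
    (∀ e ∈ (Λ.pl v).decompositionSubgroup ℚ,
      emb (r e) *ᵥ stPart (coc L d) = stPart (coc L d)) ∧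
    (r d = 1 → ∀ x : k, coc L d = x • 1 → x = 0) := by
  haveI := charP_two (k := k)
  have h2 : (2 : k) = 0 := two_eq_zero
  obtain ⟨w, hw0, hw⟩ := hC.two (fun g => (det_eq_one_iff L g).mpr (trace_coc_eq_zero hS hC g)) v hv
  have hφ := Λ.fr_spec v
  set φ := Λ.fr v with hφdef
  set w₀ : Fin 2 → k := fun i => (w i).fst
  set w₁ : Fin 2 → k := fun i => (w i).snd
  have hfst : ∀ e ∈ (Λ.pl v).decompositionSubgroup ℚ, w₀ ᵥ* emb (r e) = w₀ := fun e he => by
    rw [← L.fst_eq]
    ext i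
    have := congrArg TrivSqZeroExt.fst (congrFun (hw e he) i)
    simpa [Matrix.vecMul, dotProduct, Fin.sum_univ_two, fstM] using this
  have hsnd : w₁ ᵥ* emb (r d) + w₀ ᵥ* sndM (L.R d) = w₁ := by
    rw [← L.fst_eq]
    ext i
    have := congrArg TrivSqZeroExt.snd (congrFun (hw d hd) i)
    simp [Matrix.vecMul, dotProduct, Fin.sum_univ_two, fstM, sndM, w₀, w₁] at this ⊢
    linear_combination this
  obtain ⟨hA, hA1⟩ := hS.transp v (Or.inr hv)
  have hB := decomp_two hS (Or.inr hv) hd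
  have hBB : r d * r d = 1 := by rcases hB with e | e <;> rw [e] <;> simp [hA]
  have hkey : w₀ ᵥ* coc L d = w₁ ᵥ* (emb (r d) + 1) := by
    have e := congrArg (fun u => u ᵥ* emb (k := k) (r d)⁻¹) hsnd
    simp only [Matrix.add_vecMul, Matrix.vecMul_vecMul, emb_mul_inv, Matrix.vecMul_one] at e
    rw [inv_eq_of_mul_eq_one_right hBB] at e
    rw [Matrix.vecMul_add, Matrix.vecMul_one]
    ext i
    have e' := congrFun e i
    simp only [coc, inv_eq_of_mul_eq_one_right hBB, Pi.add_apply] at e' ⊢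
    linear_combination e' - w₁ i * h2
  refine ⟨fun e he => fixed_of_or (decomp_two hS (Or.inr hv) he)
    (stPart_fixed_of_row hA hA1 (trace_coc_eq_zero hS hC d) hw0
      (hfst φ hφ.mem_decompositionSubgroup) hB hkey), fun hr x hx => ?_⟩
  rw [hr, map_one, hx, Matrix.vecMul_smul, Matrix.vecMul_one, ← two_smul k (1 : Matrix _ _ k),
    h2, zero_smul, Matrix.vecMul_zero] at hkey
  exact (smul_eq_zero.mp hkey).resolve_right hw0

/-- at an auxiliary prime -/
theorem aux_decomp (hS : TanSetting Λ r P Qa U) (hC : TanCond Λ P Qa U L) {v : Nat.Primes}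
    (hv : v ∈ Qa) {d : GQ} (hd : d ∈ (Λ.pl v).decompositionSubgroup ℚ) :
    ∀ e ∈ (Λ.pl v).decompositionSubgroup ℚ,
      emb (r e) *ᵥ stPart (coc L d) = stPart (coc L d) := by
  haveI := charP_two (k := k)
  have h2 : (2 : k) = 0 := two_eq_zero
  obtain ⟨hvU, hvP⟩ := hS.disjQ v hv
  have hφ := Λ.fr_spec v
  set φ := Λ.fr v with hφdef
  obtain ⟨hA, hA1⟩ := hS.transp v (Or.inl hv)
  rw [← hφdef] at hA hA1
  have hexp : ∀ τ ∈ (Λ.pl v).inertiaSubgroupIn ℚ, RU L τ ^ 2 ^ 1 = 1 := fun τ hτ => by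
    apply Units.ext
    rw [pow_one, pow_two, Units.val_mul, RU_val, Units.val_one]
    have hr := hS.unr v hvP τ hτ
    refine extM ?_ ?_
    · rw [fstM_mul, L.fst_eq, hr, map_one, fstM_one, one_mul]
    · rw [sndM_mul, L.fst_eq, hr, map_one, one_mul, mul_one, sndM_one, ← two_smul k, h2, zero_smul]
  obtain ⟨σ, hσ, hgen, hconj⟩ :=
    tame_image Λ (RU L) (RU_level L) v (hS.odd v (Or.inr (Or.inl hv))) 1 hexp
  have hrσ := hS.unr v hvP σ hσ
  have hn : conj (r φ) (coc L σ) = coc L σ := by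
    have hpow : RU L σ ^ (v : ℕ) = RU L σ := by
      obtain ⟨j, hj⟩ := v.2.odd_of_ne_two (hS.odd v (Or.inr (Or.inl hv)))
      have hsq : RU L σ * RU L σ = 1 := by simpa [pow_two] using hexp σ hσ
      rw [hj, pow_succ, pow_mul, pow_two, hsq, one_pow, one_mul]
    have h := hconj φ hφ
    rw [hpow, mul_inv_eq_iff_eq_mul] at h
    have e : L.R (φ * σ) = L.R (σ * φ) := by
      rw [map_mul, map_mul]; exact congrArg Units.val h
    have e2 := (eq_of_R_eq L e).2
    rw [coc_mul, coc_mul, hrσ, conj_one, add_comm] at e2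
    exact add_left_cancel e2
  -- elements of the decomposition group with plane part in the fixed line
  let Good : GQ → Prop := fun g =>
    (r g = 1 ∨ r g = r φ) ∧ emb (r φ) *ᵥ stPart (coc L g) = stPart (coc L g)
  have hmul : ∀ g h, Good g → Good h → Good (g * h) := by
    rintro g h ⟨hg, zg⟩ ⟨hh, zh⟩
    refine ⟨?_, ?_⟩
    · rw [map_mul]
      rcases hg with e | e <;> rcases hh with e' | e' <;> rw [e, e'] <;> simp [hA]
    · rw [coc_mul, map_add, stPart_conj, mulVec_add, zg, fixed_of_or hg zh, zh]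
  have hpow : ∀ g, Good g → ∀ n : ℕ, Good (g ^ n) := fun g hg n => by
    induction n with
    | zero =>
      rw [pow_zero]
      exact ⟨Or.inl (map_one r), by rw [coc_one, map_zero, mulVec_zero]⟩
    | succ n ih => rw [pow_succ]; exact hmul _ _ ih hg
  have hGφ : Good φ := by
    refine ⟨Or.inr rfl, stPart_fixed_of_trace hA hA1 (trace_coc_eq_zero hS hC φ) ?_⟩
    rw [← sndM_eq]
    have := congrArg TrivSqZeroExt.snd (hC.aux_trace v hv)
    simpa [Matrix.trace_fin_two, sndM] using this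
  have hGσ : Good σ := ⟨Or.inl hrσ, by rw [← stPart_conj, hn]⟩
  obtain ⟨i, ρ, hρ, hde⟩ := decomp_eq Λ (RU L) (RU_level L) v hφ hd
  obtain ⟨m, hm⟩ := hgen ρ hρ
  have hG := hmul _ _ (hpow φ hGφ i) (hpow σ hGσ m)
  have e : L.R d = L.R (φ ^ i * σ ^ m) := by
    rw [map_mul, map_pow, map_pow, ← RU_val, hde, hm]
    rfl
  intro g hg
  rw [(eq_of_R_eq L e).2]
  exact fixed_of_or (decomp_two hS (Or.inl hv) hg) hG.2

theorem map_mulVec_emb (f : k →ₗ[ZMod 2] ZMod 2) (A : GL (Fin 2) (ZMod 2)) (z : Fin 2 → k) :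
    (fun i => f ((emb A *ᵥ z) i)) = (A : Matrix (Fin 2) (Fin 2) (ZMod 2)) *ᵥ fun i => f (z i) := by
  ext i
  have e : ∀ j, emb (k := k) A i j * z j = (A : Matrix (Fin 2) (Fin 2) (ZMod 2)) i j • z j :=
    fun j => (Algebra.smul_def _ _).symm
  simp [Matrix.mulVec, dotProduct, Fin.sum_univ_two, e]

/-- the plane part is a coboundary -/
theorem exists_stPart_eq [Finite k] (hS : TanSetting Λ r P Qa U) (hC : TanCond Λ P Qa U L)
    (hX : SelTrivial Λ r P Qa) :
    ∃ m : Fin 2 → k, ∀ g, stPart (coc L g) = emb (r g) *ᵥ m + m := by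
  classical
  let b := Module.finBasis (ZMod 2) k
  have hf : ∀ f : k →ₗ[ZMod 2] ZMod 2, ∃ m : Fin 2 → ZMod 2, ∀ g,
      (fun i => f (stPart (coc L g) i)) =
        (r g : Matrix (Fin 2) (Fin 2) (ZMod 2)) *ᵥ m + m := by
    intro f
    refine hX _ (fun g h => ?_) ?_ (fun v hP hQ h2 A hA τ hτ => ?_) (fun v hv d hd e he => ?_)
    · rw [← map_mulVec_emb, coc_mul, map_add, stPart_conj]
      ext i; simp
    · obtain ⟨F, hF, h⟩ := L.level
      exact ⟨F, hF, fun g hg => funext fun i => by simp [coc, h g hg, sndM_one]⟩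
    · have h1' : ∀ σ ∈ (Λ.pl v).inertiaSubgroupIn ℚ, L.R σ = 1 := fun σ hσ => by
        by_cases hU : v ∈ U
        · exact hC.tw v hU σ hσ ((det_eq_one_iff L σ).mpr (trace_coc_eq_zero hS hC σ))
        · exact hC.unr v hP hQ hU h2 σ hσ
      have hker := Common.inertia_le_of_inertia_le (H := (RU L).ker) v.2 (Λ.lies v) hA
        (fun σ hσ => MonoidHom.mem_ker.mpr (Units.ext (h1' σ hσ))) hτ
      have h1 : L.R τ = 1 := congrArg Units.val (MonoidHom.mem_ker.mp hker)
      ext i; simp [coc, h1, sndM_one]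
    · rw [← map_mulVec_emb]
      congr 1
      ext i
      congr 1
      rcases hv with hv | hv | hv
      · exact congrFun ((bad_decomp hS hC hv hd).2 e he) i
      · exact congrFun (aux_decomp hS hC hv hd e he) i
      · exact congrFun ((two_decomp hS hC hv hd).1 e he) i
  choose m hm using fun j => hf (b.coord j)
  refine ⟨fun i => ∑ j, m j i • b j, fun g => funext fun i => b.ext_elem fun j => ?_⟩
  have h := congrFun (hm j g) i
  have hmj : ∀ i, b.repr (∑ j', m j' i • b j') j = m j i := fun i => by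
    rw [map_sum]; simp [Finsupp.single_apply]
  change b.repr (stPart (coc L g) i) j = _ at h
  have hcj := congrFun (map_mulVec_emb (b.coord j) (r g) (fun i => ∑ j, m j i • b j)) i
  simp only [Module.Basis.coord_apply, hmj] at hcj
  rw [Pi.add_apply, map_add, Finsupp.add_apply, hcj, hmj, h, Pi.add_apply]

/-- the scalar gauge -/
def eta (r : GQ →* GL (Fin 2) (ZMod 2)) (k : Type) [Field k] [Algebra (ZMod 2) k] :
    GQ →* Multiplicative k where
  toFun g := Multiplicative.ofAdd
    ((conj (r g) (g₀ : Matrix (Fin 2) (Fin 2) k) + g₀ : Matrix (Fin 2) (Fin 2) k) 0 0)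
  map_one' := by
    rw [map_one, conj_one, Matrix.add_apply, ← two_mul, two_eq_zero, zero_mul, ofAdd_zero]
  map_mul' g h := by
    obtain ⟨a, ha, -⟩ := conj_g₀ (k := k) (r g)
    obtain ⟨b, hb, -⟩ := conj_g₀ (k := k) (r h)
    have hs : ∀ x : k, conj (r g) (x • (1 : Matrix (Fin 2) (Fin 2) k)) = x • 1 := fun x => by
      rw [conj, Matrix.mul_smul, mul_one, Matrix.smul_mul, emb_mul_inv]
    rw [← ofAdd_add, map_mul, conj_mul, hb, conj_add, hs, ha]
    congr 1
    simp only [Matrix.add_apply, Matrix.smul_apply, Matrix.one_apply_eq, smul_eq_mul, mul_one]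
    linear_combination (-(g₀ : Matrix (Fin 2) (Fin 2) k) 0 0) * (two_eq_zero (k := k))

theorem eta_spec (g : GQ) :
    conj (r g) (g₀ : Matrix (Fin 2) (Fin 2) k) + g₀ = Multiplicative.toAdd (eta r k g) • 1 ∧
      (r g * r g = 1 → r g ≠ 1 → Multiplicative.toAdd (eta r k g) = 1) := by
  obtain ⟨e, he, he1⟩ := conj_g₀ (k := k) (r g)
  have h : conj (r g) (g₀ : Matrix (Fin 2) (Fin 2) k) + g₀ = e • 1 := by
    rw [he, add_right_comm, ← two_smul k g₀, two_eq_zero, zero_smul, zero_add]
  have h' : Multiplicative.toAdd (eta r k g) = e := by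
    show (conj (r g) (g₀ : Matrix (Fin 2) (Fin 2) k) + g₀ : Matrix (Fin 2) (Fin 2) k) 0 0 = e
    rw [h]; simp
  rw [h']
  exact ⟨h, he1⟩

theorem eta_level (hS : TanSetting Λ r P Qa U) : HasLevel (eta r k) := by
  obtain ⟨F, hF, h⟩ := hS.level
  refine ⟨F, hF, fun g hg => ?_⟩
  show Multiplicative.ofAdd _ = 1
  rw [h g hg, conj_one, Matrix.add_apply, ← two_mul, two_eq_zero, zero_mul, ofAdd_zero]

/-- the normal form of a tangent vector: a coboundary plus a scalar character ramified at the bad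
primes only, normalised at a given inertia element -/
theorem exists_normal_form [Finite k] (hS : TanSetting Λ r P Qa U) (hC : TanCond Λ P Qa U L)
    (hX : SelTrivial Λ r P Qa) {σ₀ : GQ} (h₀ : r σ₀ * r σ₀ = 1) (h₀' : r σ₀ ≠ 1) :
    ∃ (M : Matrix (Fin 2) (Fin 2) k) (χ : GQ →* Multiplicative k), HasLevel χ ∧ χ σ₀ = 1 ∧
      (∀ g, coc L g = Multiplicative.toAdd (χ g) • 1 + conj (r g) M + M) ∧
      ∀ v, v ∉ P → ∀ τ ∈ (Λ.pl v).inertiaSubgroupIn ℚ, χ τ = 1 := by
  haveI := charP_two (k := k)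
  have h2 : (2 : k) = 0 := two_eq_zero
  have hadd : ∀ X : Matrix (Fin 2) (Fin 2) k, X + X = 0 := fun X => by
    rw [← two_smul k, h2, zero_smul]
  obtain ⟨m, hm⟩ := exists_stPart_eq hS hC hX
  let c : GQ → Matrix (Fin 2) (Fin 2) k := fun g => coc L g + (conj (r g) (stLift m) + stLift m)
  have hsc : ∀ g, c g = c g 0 0 • 1 := fun g => eq_scalar
    (by
      have ht : (stLift m).trace = 0 := by simp [stLift, Matrix.trace_fin_two]
      simp only [c, Matrix.trace_add, trace_conj, trace_coc_eq_zero hS hC g, ht, add_zero])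
    (by
      rw [map_add, map_add, stPart_conj, stPart_stLift, hm]
      ext i
      simp only [Pi.add_apply, Pi.zero_apply]
      linear_combination ((emb (r g) *ᵥ m) i + m i) * h2)
  have hcm : ∀ g h, c (g * h) = conj (r g) (c h) + c g := fun g h => by
    simp only [c, coc_mul, map_mul, conj_mul, conj_add]
    calc _ = conj (r g) (coc L h) + coc L g + (conj (r g) (conj (r h) (stLift m)) + stLift m) := rfl
      _ = conj (r g) (coc L h) + coc L g + (conj (r g) (conj (r h) (stLift m)) + stLift m) +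
          (conj (r g) (stLift m) + conj (r g) (stLift m)) := by rw [hadd (conj (r g) (stLift m)), add_zero]
      _ = _ := by abel
  let x : k := c σ₀ 0 0
  let χf : GQ → k := fun g => c g 0 0 + x * Multiplicative.toAdd (eta r k g)
  have hχmul : ∀ g h, χf (g * h) = χf g + χf h := fun g h => by
    have e := congrFun (congrFun (hcm g h) 0) 0
    rw [hsc h, conj, Matrix.mul_smul, mul_one, Matrix.smul_mul, emb_mul_inv, Matrix.add_apply,
      Matrix.smul_apply, Matrix.one_apply_eq, smul_eq_mul, mul_one] at e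
    simp only [χf, toAdd_hom_mul, e]
    ring
  let χ : GQ →* Multiplicative k :=
    MonoidHom.mk' (fun g => Multiplicative.ofAdd (χf g)) fun g h => by
      rw [hχmul, ofAdd_add]
  let M := stLift m + x • g₀
  have hcoc : ∀ g, coc L g = Multiplicative.toAdd (χ g) • 1 + conj (r g) M + M := fun g => by
    have e : coc L g = c g + (conj (r g) (stLift m) + stLift m) := by
      simp only [c, add_assoc, hadd, add_zero]
    have e2 := (eta_spec (r := r) (k := k) g).1
    have e3 : conj (r g) (x • g₀) + x • g₀ =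
        (x * Multiplicative.toAdd (eta r k g)) • (1 : Matrix (Fin 2) (Fin 2) k) := by
      rw [mul_smul, ← e2, smul_add, conj, conj, Matrix.mul_smul, Matrix.smul_mul]
    show _ = χf g • (1 : Matrix (Fin 2) (Fin 2) k) + conj (r g) (stLift m + x • g₀) +
      (stLift m + x • g₀)
    rw [e, add_smul, ← e3, ← hsc, conj_add]
    calc _ = c g + (conj (r g) (stLift m) + stLift m) +
          ((conj (r g) (x • g₀) + x • g₀) + (conj (r g) (x • g₀) + x • g₀)) := by
          rw [hadd, add_zero]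
      _ = _ := by abel
  have hone : ∀ g, r g = 1 → coc L g = Multiplicative.toAdd (χ g) • 1 := fun g hg => by
    rw [hcoc g, hg, conj_one, add_assoc, hadd, add_zero]
  refine ⟨M, χ, ?_, ?_, hcoc, fun v hv τ hτ => ?_⟩
  · obtain ⟨F, hF, h⟩ := L.level
    obtain ⟨F', hF', h'⟩ := hS.level
    haveI := hF; haveI := hF'
    refine ⟨F ⊔ F', inferInstance, fun g hg => ?_⟩
    have e := hone g (h' g fun x hx => hg x ((le_sup_right : F' ≤ F ⊔ F') hx))
    rw [coc, h g fun x hx => hg x ((le_sup_left : F ≤ F ⊔ F') hx), sndM_one, zero_mul] at e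
    have := congrFun (congrFun e 0) 0
    simpa using this.symm
  · show Multiplicative.ofAdd (χf σ₀) = 1
    rw [show χf σ₀ = x + x by simp [χf, x, (eta_spec (r := r) (k := k) σ₀).2 h₀ h₀'],
      CharTwo.add_self_eq_zero, ofAdd_zero]
  · have e := hone τ (hS.unr v hv τ hτ)
    suffices Multiplicative.toAdd (χ τ) = 0 by simpa using this
    set y := Multiplicative.toAdd (χ τ)
    have hzero : L.R τ = 1 → y = 0 := fun h1 => by
      rw [coc, h1, sndM_one, zero_mul] at e
      simpa using (congrFun (congrFun e 0) 0).symm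
    by_cases hU : v ∈ U
    · exact hzero (hC.tw v hU τ hτ ((det_eq_one_iff L τ).mpr (trace_coc_eq_zero hS hC τ)))
    by_cases hQ : v ∈ Qa
    · obtain ⟨φ, hφ⟩ := (⟨Λ.fr v, Λ.fr_spec v⟩ : ∃ φ, (Λ.pl v).IsFrobeniusAt φ (v : ℕ))
      have h := hC.aux_frame v hQ τ hτ
      rw [sndM_eq, e, hS.unr v hv τ hτ, map_one, mul_one, Matrix.smul_mul, one_mul] at h
      refine (smul_eq_zero.mp h).resolve_right fun h' => (hS.transp v (Or.inl hQ)).2
        (emb_injective (k := k) ?_)
      rw [map_one, ← sub_eq_zero, sub_eq_add_neg, ← h']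
      congr 1
      exact neg_eq_of_add_eq_zero_left (hadd 1)
    by_cases h2' : (v : ℕ) = 2
    · exact (two_decomp hS hC h2' (Local.inertia_mem_decomposition hτ)).2 (hS.unr v hv τ hτ) y e
    · exact hzero (hC.unr v hv hQ hU h2' τ hτ)

end FLTAgent.R2.Tan

namespace FLTAgent.R2

open Tan

/-- **tangent space**: at most `b - 1` dimensions -/
theorem card_tanSpace_le {Λ : Loc} {r : GQ →* GL (Fin 2) (ZMod 2)} {P Qa U : Finset Nat.Primes}
    {k : Type} [Field k] [Algebra (ZMod 2) k] [Finite k]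
    (hS : TanSetting Λ r P Qa U) (hX : SelTrivial Λ r P Qa)
    {T : Type} (Φ : T → TanLift r k) (hC : ∀ t, TanCond Λ P Qa U (Φ t))
    (hinj : ∀ t t', (∃ M : Matrix (Fin 2) (Fin 2) k, ∀ g,
      sndM ((Φ t).R g) + sndM ((Φ t').R g) = emb (r g) * M + M * emb (r g)) → t = t') :
    Finite T ∧ Nat.card T ≤ Nat.card k ^ (P.card - 1) := by
  classical
  haveI := charP_two (k := k)
  rcases isEmpty_or_nonempty T with hT | ⟨⟨t₀⟩⟩
  · exact ⟨inferInstance, by rw [Nat.card_of_isEmpty]; exact Nat.zero_le _⟩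
  obtain ⟨p₀, hp₀⟩ := hS.nonempty
  have hinv : ∀ v ∈ P, ∃ σ ∈ (Λ.pl v).inertiaSubgroupIn ℚ,
      Multiplicative.toAdd (eta r k σ) = 1 ∧ r σ * r σ = 1 ∧ r σ ≠ 1 := by
    intro v hv
    obtain ⟨σ, hσ, hσ1⟩ := hS.ram v hv
    -- the image of inertia has exponent two as some lift satisfies the conditions
    · have hu := (hC t₀).unip v hv σ hσ
      have h2 : r σ * r σ = 1 := by
        refine emb_injective (k := k) ?_
        have e := congrArg fstM hu
        rw [fstM_mul] at e
        have e' : fstM ((Φ t₀).R σ - 1) = emb (r σ) - 1 := by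
          rw [← (Φ t₀).fst_eq]
          ext i j
          fin_cases i <;> fin_cases j <;> simp [fstM]
        have e0 : fstM (0 : Matrix (Fin 2) (Fin 2) (DualNumber k)) = 0 := by
          ext i j; simp [fstM]
        rw [e', e0] at e
        have hneg : -(1 : Matrix (Fin 2) (Fin 2) k) = 1 := by
          rw [neg_eq_iff_add_eq_zero, ← two_smul k, two_eq_zero, zero_smul]
        rw [sub_eq_add_neg, hneg] at e
        rw [map_mul, map_one]
        have hz : emb (k := k) (r σ) + emb (r σ) = 0 := by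
          rw [← two_smul k, two_eq_zero, zero_smul]
        calc emb (r σ) * emb (r σ) = (emb (k := k) (r σ) + 1) * (emb (r σ) + 1) -
              (emb (r σ) + emb (r σ)) - 1 := by noncomm_ring
          _ = 1 := by rw [e, hz, sub_zero, zero_sub, hneg]
      exact ⟨σ, hσ, (eta_spec (r := r) (k := k) σ).2 h2 hσ1, h2, hσ1⟩
  choose σ hσ hσe hσ2 hσ1 using hinv
  choose M χ hχl hχ0 hχc hχu using fun t =>
    exists_normal_form hS (hC t) hX (hσ2 p₀ hp₀) (hσ1 p₀ hp₀)
  let ι : T → ({p : Nat.Primes // p ∈ P.erase p₀} → k) := fun t p =>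
    Multiplicative.toAdd (χ t (σ p.1 (Finset.mem_of_mem_erase p.2)))
  have hι : Function.Injective ι := by
    intro t t' e
    have hprod : ∀ g, (χ t * χ t') g = 1 := by
      refine eq_one_of_unramified Λ _ ?_ fun v τ hτ => ?_
      · obtain ⟨F, hF, h⟩ := hχl t
        obtain ⟨F', hF', h'⟩ := hχl t'
        haveI := hF; haveI := hF'
        exact ⟨F ⊔ F', inferInstance, fun g hg => by
          rw [MonoidHom.mul_apply, h g fun x hx => hg x ((le_sup_left : F ≤ F ⊔ F') hx),
            h' g fun x hx => hg x ((le_sup_right : F' ≤ F ⊔ F') hx), one_mul]⟩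
      · by_cases hv : v ∈ P
        · refine inertia_eq_one Λ (eta r k) (χ t * χ t') (eta_level hS) ?_ v
            (hS.odd v (Or.inl hv)) (hσ v hv) (fun h => ?_) ?_ τ hτ
          · obtain ⟨F, hF, h⟩ := hχl t
            obtain ⟨F', hF', h'⟩ := hχl t'
            haveI := hF; haveI := hF'
            exact ⟨F ⊔ F', inferInstance, fun g hg => by
              rw [MonoidHom.mul_apply, h g fun x hx => hg x ((le_sup_left : F ≤ F ⊔ F') hx),
                h' g fun x hx => hg x ((le_sup_right : F' ≤ F ⊔ F') hx), one_mul]⟩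
          · have := hσe v hv
            rw [h] at this
            exact zero_ne_one this
          · rw [MonoidHom.mul_apply]
            rcases eq_or_ne v p₀ with rfl | hne
            · rw [hχ0 t, hχ0 t', one_mul]
            · have h := congrFun e ⟨v, Finset.mem_erase.mpr ⟨hne, hv⟩⟩
              change Multiplicative.toAdd (χ t (σ v hv)) = Multiplicative.toAdd (χ t' (σ v hv)) at h
              rw [Multiplicative.toAdd.injective h]
              rw [← pow_two]
              exact sq_mult_eq_one _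
        · rw [MonoidHom.mul_apply, hχu t v hv τ hτ, hχu t' v hv τ hτ, one_mul]
    refine hinj t t' ⟨M t + M t', fun g => ?_⟩
    have hχeq : Multiplicative.toAdd (χ t g) + Multiplicative.toAdd (χ t' g) = 0 := by
      rw [← toAdd_mul, ← MonoidHom.mul_apply, hprod g, toAdd_one]
    rw [sndM_eq, sndM_eq, hχc t g, hχc t' g, ← add_mul]
    have hsum : Multiplicative.toAdd (χ t g) • (1 : Matrix (Fin 2) (Fin 2) k) +
        Multiplicative.toAdd (χ t' g) • 1 = 0 := by rw [← add_smul, hχeq, zero_smul]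
    calc (Multiplicative.toAdd (χ t g) • 1 + conj (r g) (M t) + M t +
          (Multiplicative.toAdd (χ t' g) • 1 + conj (r g) (M t') + M t')) * emb (r g)
        = (conj (r g) (M t + M t') + (M t + M t') +
          (Multiplicative.toAdd (χ t g) • (1 : Matrix (Fin 2) (Fin 2) k) +
            Multiplicative.toAdd (χ t' g) • 1)) * emb (r g) := by rw [conj_add]; congr 1; abel
      _ = _ := by
        rw [hsum, add_zero, add_mul, conj, mul_assoc (emb (r g) * _), emb_inv_mul, mul_one]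
  haveI : Fintype k := Fintype.ofFinite k
  refine ⟨Finite.of_injective ι hι, (Nat.card_le_card_of_injective ι hι).trans_eq ?_⟩
  rw [Nat.card_fun, Nat.card_eq_fintype_card (α := {p // p ∈ P.erase p₀}), Fintype.card_coe,
    Finset.card_erase_of_mem hp₀]

end FLTAgent.R2

end
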