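import Fermat.Agent.R2.SelmerCurve
import Fermat.Agent.R2.PrimesAux
import Fermat.Agent.R2.Curve
import Fermat.Agent.R2.TanSpace
import Fermat.Agent.TH2.Unramified

/-!
Area R2, parcel tangent space: the residual representation of an anchor, with chosen places at the
auxiliary primes, satisfies the hypotheses of the tangent space computation.
-/

set_option autoImplicit false
set_option linter.style.haveILetI false

noncomputable section

open Matrix FLTAgent.R2.Tan
open scoped Pointwise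

namespace FLTAgent.R2

local notation "Ω" => AlgebraicClosure ℚ
local notation "M₂" => Matrix (Fin 2) (Fin 2) (ZMod 2)

variable {W : WeierstrassCurve ℤ}

/-- the residual representation, into units -/
def rU (hW : IsAnchor W) : GQ →* GL (Fin 2) (ZMod 2) := (r2 hW).toHomUnits

theorem rU_val (hW : IsAnchor W) (σ : GQ) : ((rU hW σ : GL (Fin 2) (ZMod 2)) : M₂) = rb hW σ :=
  r2_eq_rb hW σ

theorem rU_eq_one_iff (hW : IsAnchor W) (σ : GQ) : rU hW σ = 1 ↔ r2 hW σ = 1 :=
  Units.ext_iff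

theorem rU_level (hW : IsAnchor W) : Tan.HasLevel (rU hW) := by
  obtain ⟨L, hL, h⟩ := (isPlane_r2 hW).level
  exact ⟨L, hL, fun g hg => Units.ext (h g ((IntermediateField.mem_fixingSubgroup_iff _ _).2 hg))⟩

/-- inertia off the odd bad primes fixes the two-torsion -/
theorem rU_inertia (hW : IsAnchor W) {q : ℕ} (hq : q.Prime) (hb : q ∉ badOdd W)
    {A : ValuationSubring Ω} (hA : A.LiesOverPrime q) {σ : GQ}
    (hσ : σ ∈ A.inertiaSubgroupIn ℚ) : rU hW σ = 1 := by
  rw [rU_eq_one_iff]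
  rcases eq_or_ne q 2 with rfl | hq2
  · exact (Layer.red_eq_one_iff (tate hW) hW.neg.ne σ).2
      (TH2.admissible_two_of_anchor hW hA hσ)
  · exact inertia_r2_good hW hq hq2 (not_dvd_of_not_mem_badOdd hW hq hq2 hb) hA hσ

/-- a Frobenius at two moves `√Δ` -/
theorem frobTwo_sqrt (hW : IsAnchor W) : frobTwo (TH2.sqrtΔ W) ≠ TH2.sqrtΔ W := by
  intro hfix
  obtain ⟨k, u, -, hΔ, hu⟩ := hW.two
  obtain ⟨j, hj⟩ : ∃ j : ℤ, u = 8 * j + 5 := ⟨u / 8, by omega⟩
  have hsq : TH2.sqrtΔ W ^ 2 = (((2 : ℤ) ^ (2 * k) * u : ℤ) : Ω) := by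
    rw [TH2.sqrtΔ_sq, hΔ]
  set w : Ω := (1 + TH2.sqrtΔ W / 2 ^ k) / 2 with hw
  have hww : w ^ 2 = w + ((2 * j + 1 : ℤ) : Ω) := by
    have h2 : (TH2.sqrtΔ W / 2 ^ k) ^ 2 = ((u : ℤ) : Ω) := by
      rw [div_pow, hsq, ← pow_mul, mul_comm k 2]
      push_cast
      field_simp
    rw [hj] at h2
    rw [hw]
    push_cast at h2 ⊢
    linear_combination h2 / 4
  have hint : w ∈ placeTwo := by
    rcases le_or_gt (placeTwo.valuation w) 1 with h | h
    · exact (placeTwo.valuation_le_one_iff w).1 h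
    · exfalso
      have hm : ((2 * j + 1 : ℤ) : Ω) ∈ placeTwo := intCast_mem placeTwo _
      have h1 : placeTwo.valuation (w ^ 2) ≤ max (placeTwo.valuation w) 1 := by
        rw [hww]
        exact le_trans (Valuation.map_add _ _ _)
          (max_le_max le_rfl ((placeTwo.valuation_le_one_iff _).2 hm))
      rw [max_eq_left h.le, map_pow, pow_two] at h1
      exact absurd h1 (not_le.2 (lt_mul_of_one_lt_left (zero_lt_one.trans h) h))
  have h := Chebotarev.frob_sub_pow_mem frobTwo_spec hint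
  have hfw : frobTwo w = w := by
    rw [hw, map_div₀, map_add, map_one, map_div₀, map_pow, hfix, map_ofNat]
  rw [hfw, hww, sub_add_cancel_left, ValuationSubring.mem_nonunits_iff, Valuation.map_neg] at h
  have h2 : placeTwo.valuation (((2 : ℤ) : Ω)) < 1 := by
    have := placeTwo_lies
    rw [Int.cast_ofNat]
    simpa [ValuationSubring.LiesOverPrime, ValuationSubring.mem_nonunits_iff] using this
  have h3 : placeTwo.valuation (((2 * j : ℤ) : Ω)) < 1 := by
    rw [Int.cast_mul, map_mul]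
    exact mul_lt_one_of_lt_of_le h2 ((placeTwo.valuation_le_one_iff _).2 (intCast_mem placeTwo _))
  have h4 : placeTwo.valuation (1 : Ω) < 1 := by
    have e : (1 : Ω) = ((2 * j + 1 : ℤ) : Ω) - ((2 * j : ℤ) : Ω) := by push_cast; ring
    rw [e]
    exact lt_of_le_of_lt (Valuation.map_sub _ _ _) (max_lt h h3)
  rw [map_one] at h4
  exact lt_irrefl _ h4

/-- reduction of the levels -/
theorem rE_cast (hW : IsAnchor W) (N : ℕ) (σ : GQ) :
    (rE hW N σ).map (ZMod.castHom (pow_dvd_pow 2 (Nat.succ_le_succ (Nat.zero_le N))) (Lam 0)) =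
      rb hW σ := by
  haveI : Fact (Nat.Prime 2) := ⟨Nat.prime_two⟩
  ext a b
  exact RingHom.congr_fun (PadicInt.zmod_cast_comp_toZModPow (p := 2) 1 (N + 1)
    (Nat.succ_le_succ (Nat.zero_le N))) _

section Places

variable {hW : IsAnchor W} {B : Base W} {N n : ℕ} {K : Aux hW B N} (D : TW K n)

theorem aux_ne_two (i : Fin K.k) : K.q i ≠ 2 :=
  (good_of_not_dvd_lev K (K.prime i) (K.ndvd i)).1

theorem aux_not_bad (i : Fin K.k) : K.q i ∉ badOdd W := fun h =>
  (good_of_not_dvd_lev K (K.prime i) (K.ndvd i)).2 ((badOdd_spec hW).1 h).2.2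

theorem tw_ndvd_base (i : Fin (rk W)) : ¬ D.Q i ∣ B.lev := fun h =>
  D.ndvd i (dvd_mul_of_dvd_left h _)

theorem tw_ne_two (i : Fin (rk W)) : D.Q i ≠ 2 :=
  (good_of_not_dvd_lev K (D.prime i) (tw_ndvd_base D i)).1

theorem tw_not_bad (i : Fin (rk W)) : D.Q i ∉ badOdd W := fun h =>
  (good_of_not_dvd_lev K (D.prime i) (tw_ndvd_base D i)).2 ((badOdd_spec hW).1 h).2.2

theorem tw_ne_aux (i : Fin (rk W)) (j : Fin K.k) : D.Q i ≠ K.q j := fun h =>
  D.ndvd i (h ▸ K.q_dvd_lev j)

/-- the place and the Frobenius used at a prime -/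
def locData (v : Nat.Primes) : {p : ValuationSubring Ω × GQ //
    p.1.LiesOverPrime (v : ℕ) ∧ p.1.IsFrobeniusAt p.2 (v : ℕ)} :=
  if h : ∃ i, K.q i = (v : ℕ) then
    ⟨(K.place h.choose, K.frob h.choose), by
      have := K.lies h.choose
      have := K.frob_spec h.choose
      simp only [h.choose_spec] at *
      exact ⟨by assumption, by assumption⟩⟩
  else if h' : ∃ i, D.Q i = (v : ℕ) then
    ⟨(D.place h'.choose, D.frob h'.choose), by
      have := D.lies h'.choose
      have := D.frob_spec h'.choose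
      simp only [h'.choose_spec] at *
      exact ⟨by assumption, by assumption⟩⟩
  else if h2 : (v : ℕ) = 2 then
    ⟨(placeTwo, frobTwo), by rw [h2]; exact ⟨placeTwo_lies, frobTwo_spec⟩⟩
  else
    ⟨((Alg.exists_place_frobenius (v : ℕ) v.2).choose,
        (Alg.exists_place_frobenius (v : ℕ) v.2).choose_spec.choose),
      (Alg.exists_place_frobenius (v : ℕ) v.2).choose_spec.choose_spec⟩

/-- the places of the data -/
def locs : Tan.Loc where
  pl v := (locData D v).1.1
  lies v := (locData D v).2.1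
  fr v := (locData D v).1.2
  fr_spec v := (locData D v).2.2

theorem locs_aux (i : Fin K.k) :
    (locs D).pl ⟨K.q i, K.prime i⟩ = K.place i ∧ (locs D).fr ⟨K.q i, K.prime i⟩ = K.frob i := by
  have h : ∃ j, K.q j = ((⟨K.q i, K.prime i⟩ : Nat.Primes) : ℕ) := ⟨i, rfl⟩
  simp only [locs, locData, dif_pos h]
  rw [K.inj h.choose_spec]
  exact ⟨rfl, rfl⟩

theorem locs_tw (i : Fin (rk W)) :
    (locs D).pl ⟨D.Q i, D.prime i⟩ = D.place i ∧ (locs D).fr ⟨D.Q i, D.prime i⟩ = D.frob i := by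
  have h : ∃ j, D.Q j = ((⟨D.Q i, D.prime i⟩ : Nat.Primes) : ℕ) := ⟨i, rfl⟩
  have h' : ¬ ∃ j, K.q j = ((⟨D.Q i, D.prime i⟩ : Nat.Primes) : ℕ) := fun ⟨j, hj⟩ =>
    tw_ne_aux D i j hj.symm
  simp only [locs, locData, dif_neg h', dif_pos h]
  rw [D.inj h.choose_spec]
  exact ⟨rfl, rfl⟩

theorem locs_two (v : Nat.Primes) (hv : (v : ℕ) = 2) :
    (locs D).pl v = placeTwo ∧ (locs D).fr v = frobTwo := by
  have h1 : ¬ ∃ j, K.q j = (v : ℕ) := fun ⟨j, hj⟩ => aux_ne_two j (hj.trans hv)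
  have h2 : ¬ ∃ j, D.Q j = (v : ℕ) := fun ⟨j, hj⟩ => tw_ne_two D j (hj.trans hv)
  simp only [locs, locData, dif_neg h1, dif_neg h2, dif_pos hv, and_self]

variable (W) in
/-- the odd bad primes -/
def badP : Finset Nat.Primes := (badOdd W).subtype Nat.Prime

variable (K) in
/-- a killing prime, bundled -/
def auxPt (i : Fin K.k) : Nat.Primes := ⟨K.q i, K.prime i⟩

/-- a Taylor–Wiles prime, bundled -/
def twPt (i : Fin (rk W)) : Nat.Primes := ⟨D.Q i, D.prime i⟩

variable (K) in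
/-- the killing primes -/
def auxP : Finset Nat.Primes := Finset.univ.image (auxPt K)

/-- the Taylor–Wiles primes -/
def twP : Finset Nat.Primes := Finset.univ.image (twPt D)

theorem mem_badP {v : Nat.Primes} : v ∈ badP W ↔ (v : ℕ) ∈ badOdd W := Finset.mem_subtype

theorem mem_auxP {v : Nat.Primes} : v ∈ auxP K ↔ ∃ i, K.q i = (v : ℕ) := by
  simp only [auxP, Finset.mem_image, Finset.mem_univ, true_and]
  exact ⟨fun ⟨i, h⟩ => ⟨i, congrArg Subtype.val h⟩, fun ⟨i, h⟩ => ⟨i, Subtype.ext h⟩⟩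

theorem mem_twP {v : Nat.Primes} : v ∈ twP D ↔ ∃ i, D.Q i = (v : ℕ) := by
  simp only [twP, Finset.mem_image, Finset.mem_univ, true_and]
  exact ⟨fun ⟨i, h⟩ => ⟨i, congrArg Subtype.val h⟩, fun ⟨i, h⟩ => ⟨i, Subtype.ext h⟩⟩

theorem card_badP : (badP W).card = (badOdd W).card := by
  refine (Finset.card_subtype _ _).trans (congrArg Finset.card ?_)
  exact Finset.filter_true_of_mem fun l hl =>
    Nat.prime_of_mem_primeFactors (Finset.mem_filter.1 hl).1

/-- a killing Frobenius is an involution -/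
theorem rU_aux_frob (i : Fin K.k) :
    rU hW (K.frob i) * rU hW (K.frob i) = 1 ∧ rU hW (K.frob i) ≠ 1 := by
  have key : ∀ M : M₂, M.det = 1 → M.trace = 0 → M * M = 1 := by decide
  have htr : (rb hW (K.frob i)).trace = 0 := by
    rw [← rE_cast hW N]
    exact ((AddMonoidHom.map_trace (ZMod.castHom (pow_dvd_pow 2
      (Nat.succ_le_succ (Nat.zero_le N))) (Lam 0)).toAddMonoidHom (rE hW N (K.frob i))).symm).trans
        (by rw [K.tr i, map_zero])
  refine ⟨Units.ext ?_, fun h => K.ne_one i ?_⟩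
  · rw [Units.val_mul, Units.val_one, rU_val]
    exact key _ (by rw [← r2_eq_rb]; exact Sel.det_eq_one _ _) htr
  · rw [← rU_val, h, Units.val_one]

theorem tanSetting : Tan.TanSetting (locs D) (rU hW) (badP W) (auxP K) (twP D) where
  level := rU_level hW
  nonempty := by
    obtain ⟨l, hl, h5, hd⟩ := hW.big
    exact ⟨⟨l, hl⟩, mem_badP.2 ((badOdd_spec hW).2 ⟨hl, (by omega : l ≠ 2), hd⟩)⟩
  odd v hv := by
    rcases hv with h | h | h
    · exact ((badOdd_spec hW).1 (mem_badP.1 h)).2.1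
    · obtain ⟨i, hi⟩ := mem_auxP.1 h; exact hi ▸ aux_ne_two i
    · obtain ⟨i, hi⟩ := (mem_twP D).1 h; exact hi ▸ tw_ne_two D i
  disjP v hv h := by
    obtain ⟨i, hi⟩ := (mem_twP D).1 h
    exact tw_not_bad D i (hi ▸ mem_badP.1 hv)
  disjQ v hv := by
    obtain ⟨i, hi⟩ := mem_auxP.1 hv
    refine ⟨fun h => ?_, fun h => aux_not_bad i (hi ▸ mem_badP.1 h)⟩
    obtain ⟨j, hj⟩ := (mem_twP D).1 h
    exact tw_ne_aux D j i (hj.trans hi.symm)
  ram v hv := by
    obtain ⟨-, hl2, hd⟩ := (badOdd_spec hW).1 (mem_badP.1 hv)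
    obtain ⟨τ, hτ, hne, -, -⟩ :=
      exists_transvection hW (tate hW) v.2 hl2 hd ((locs D).lies v) 0
    exact ⟨τ, hτ, fun h => hne ((rU_eq_one_iff hW τ).1 h)⟩
  unr v hv τ hτ := rU_inertia hW v.2 (fun h => hv (mem_badP.2 h)) ((locs D).lies v) hτ
  transp v hv := by
    rcases hv with h | h
    · obtain ⟨i, hi⟩ := mem_auxP.1 h
      obtain rfl : v = ⟨K.q i, K.prime i⟩ := Subtype.ext hi.symm
      rw [(locs_aux D i).2]
      exact rU_aux_frob i
    · rw [(locs_two D v h).2]
      obtain ⟨h1, h2⟩ := Layer.red_transposition (tate hW) hW.neg.ne (frobTwo_sqrt hW)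
      exact ⟨Units.ext h1, fun e => h2 ((rU_eq_one_iff hW _).1 e)⟩
  indep a ha := by
    classical
    have h0 := D.legendre (fun i => a ⟨D.Q i, D.prime i⟩) fun p hp => by
      have hp' := Nat.prime_of_mem_primeFactors (Finset.mem_filter.1 hp).1
      have := ha ⟨p, hp'⟩ (mem_badP.2 hp)
      have hinj : Set.InjOn (twPt D) ↑(Finset.univ : Finset (Fin (rk W))) := fun i _ j _ e =>
        D.inj (congrArg Subtype.val e)
      rw [twP, Finset.sum_image hinj] at this
      refine Eq.trans (Finset.sum_congr rfl fun i _ => ?_) this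
      haveI : Fact (D.Q i).Prime := ⟨D.prime i⟩
      rw [← jacobiSym.legendreSym.to_jacobiSym]
      simp only [legendreSym.eq_neg_one_iff, Int.cast_natCast, ite_not, twPt]
      congr
    intro q hq
    obtain ⟨i, hi⟩ := (mem_twP D).1 hq
    obtain rfl : q = ⟨D.Q i, D.prime i⟩ := Subtype.ext hi.symm
    exact congrFun h0 i

theorem selTrivial : Tan.SelTrivial (locs D) (rU hW) (badP W) (auxP K) := by
  classical
  intro z hz ⟨L, hL, hzL⟩ hunr hline
  have hmem : ∀ q : Nat.Primes, (q : ℕ) ∈ insert 2 (badOdd W ∪ Finset.univ.image K.q) ↔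
      (q ∈ badP W ∨ q ∈ auxP K ∨ (q : ℕ) = 2) := fun q => by
    simp only [Finset.mem_insert, Finset.mem_union, Finset.mem_image, Finset.mem_univ, true_and,
      mem_badP, mem_auxP]
    tauto
  have hz' : ∀ g h, z (g * h) = z g + rb hW g *ᵥ z h := fun g h => by
    rw [hz, rU_val, add_comm]
  have hin : InX hW (insert 2 (badOdd W ∪ Finset.univ.image K.q)) z := by
    refine ⟨hz', ⟨L, hL, fun g s hs => ?_⟩, fun q hq hqS A hA σ hσ => ?_, fun q hqS A hA => ?_⟩
    · rw [hz', hzL s hs, mulVec_zero, add_zero]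
    · exact hunr ⟨q, hq⟩ (fun h => hqS ((hmem ⟨q, hq⟩).2 (Or.inl h)))
        (fun h => hqS ((hmem ⟨q, hq⟩).2 (Or.inr (Or.inl h))))
        (fun h => hqS ((hmem ⟨q, hq⟩).2 (Or.inr (Or.inr h)))) A hA σ hσ
    · have hq : q.Prime := by
        rcases Finset.mem_insert.1 hqS with rfl | h
        · exact Nat.prime_two
        rcases Finset.mem_union.1 h with h | h
        · exact ((badOdd_spec hW).1 h).1
        · obtain ⟨i, -, rfl⟩ := Finset.mem_image.1 h; exact K.prime i
      obtain ⟨h, hh⟩ := EIS.exists_smul_place hq ((locs D).lies ⟨q, hq⟩) hA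
      refine ⟨z h, fun g hg e he => ?_⟩
      set A₀ := (locs D).pl ⟨q, hq⟩
      have hconj : ∀ x ∈ A.decompositionSubgroup ℚ,
          h⁻¹ * x * h ∈ A₀.decompositionSubgroup ℚ := fun x hx => by
        rw [← hh] at hx
        show (h⁻¹ * x * h) • A₀ = A₀
        rw [mul_smul, mul_smul, show x • h • A₀ = h • A₀ from hx, inv_smul_smul]
      have hfix := hline ⟨q, hq⟩ ((hmem ⟨q, hq⟩).1 hqS) _ (hconj g hg) _ (hconj e he)
      rw [rU_val] at hfix
      set d := h⁻¹ * g * h
      have hval : z g - (rb hW g *ᵥ z h - z h) = rb hW h *ᵥ z d := by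
        have e1 : g * h = h * d := by simp [d, mul_assoc]
        have e2 : z g + rb hW g *ᵥ z h = z h + rb hW h *ᵥ z d := by rw [← hz', e1, hz']
        have key : ∀ a b c x : Fin 2 → Lam 0, a + b = c + x → a - (b - c) = x := by decide
        exact key _ _ _ _ e2
      rw [hval]
      calc rb hW e *ᵥ (rb hW h *ᵥ z d) = rb hW h *ᵥ (rb hW (h⁻¹ * e * h) *ᵥ z d) := by
            rw [mulVec_mulVec, mulVec_mulVec, ← map_mul, ← map_mul]
            congr 2
            group
        _ = _ := by rw [hfix]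
  obtain ⟨m, hm⟩ := K.selmer z hin
  refine ⟨m, fun g => ?_⟩
  have key : ∀ a b : Fin 2 → Lam 0, a - b = a + b := by decide
  rw [hm g, rU_val]
  exact key _ _

end Places

end FLTAgent.R2

end
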