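import Fermat.Agent.PT.TW.Tangent

/-!
Area R2, parcel tangent space: linear algebra of two by two matrices under conjugation by
`GL₂(𝔽₂)` in characteristic two.  The adjoint module is the sum of the scalars-and-`g₀` part (trace
detects its quotient) and a plane, onto which `stPart` projects equivariantly.
-/

set_option autoImplicit false
set_option linter.unusedSectionVars false

noncomputable section

open Matrix

namespace FLTAgent.R2.Tan

variable {k : Type} [Field k] [Algebra (ZMod 2) k]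

theorem two_eq_zero : (2 : k) = 0 := by
  rw [← map_ofNat (algebraMap (ZMod 2) k) 2, show (2 : ZMod 2) = 0 from rfl, map_zero]

/-- an element of `GL₂(𝔽₂)` with coefficients in `k` -/
def emb : GL (Fin 2) (ZMod 2) →* Matrix (Fin 2) (Fin 2) k :=
  ((algebraMap (ZMod 2) k).mapMatrix.toMonoidHom).comp (Units.coeHom _)

/-- the six elements, through their entries -/
theorem emb_cases (A : GL (Fin 2) (ZMod 2)) :
    (emb A = !![(1 : k), 0; 0, 1] ∧ emb A⁻¹ = !![(1 : k), 0; 0, 1]) ∨
    (emb A = !![(0 : k), 1; 1, 0] ∧ emb A⁻¹ = !![(0 : k), 1; 1, 0]) ∨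
    (emb A = !![(1 : k), 1; 0, 1] ∧ emb A⁻¹ = !![(1 : k), 1; 0, 1]) ∨
    (emb A = !![(1 : k), 0; 1, 1] ∧ emb A⁻¹ = !![(1 : k), 0; 1, 1]) ∨
    (emb A = !![(0 : k), 1; 1, 1] ∧ emb A⁻¹ = !![(1 : k), 1; 1, 0]) ∨
    (emb A = !![(1 : k), 1; 1, 0] ∧ emb A⁻¹ = !![(0 : k), 1; 1, 1]) := by
  have key : ∀ M N : Matrix (Fin 2) (Fin 2) (ZMod 2), M * N = 1 →
      (M = !![1, 0; 0, 1] ∧ N = !![1, 0; 0, 1]) ∨ (M = !![0, 1; 1, 0] ∧ N = !![0, 1; 1, 0]) ∨
      (M = !![1, 1; 0, 1] ∧ N = !![1, 1; 0, 1]) ∨ (M = !![1, 0; 1, 1] ∧ N = !![1, 0; 1, 1]) ∨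
      (M = !![0, 1; 1, 1] ∧ N = !![1, 1; 1, 0]) ∨ (M = !![1, 1; 1, 0] ∧ N = !![0, 1; 1, 1]) := by
    decide
  have e : ∀ (B : GL (Fin 2) (ZMod 2)) (a b c d : ZMod 2),
      (B : Matrix (Fin 2) (Fin 2) (ZMod 2)) = !![a, b; c, d] →
        emb B = !![algebraMap (ZMod 2) k a, algebraMap (ZMod 2) k b;
          algebraMap (ZMod 2) k c, algebraMap (ZMod 2) k d] := fun B a b c d h => by
    show (B : Matrix (Fin 2) (Fin 2) (ZMod 2)).map (algebraMap (ZMod 2) k) = _
    rw [h]
    ext i j
    fin_cases i <;> fin_cases j <;> rfl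
  rcases key (A : Matrix (Fin 2) (Fin 2) (ZMod 2)) (A⁻¹ : GL (Fin 2) (ZMod 2))
    (by rw [← Units.val_mul, mul_inv_cancel, Units.val_one]) with h | h | h | h | h | h
  · exact Or.inl ⟨by simpa using e A _ _ _ _ h.1, by simpa using e _ _ _ _ _ h.2⟩
  · exact Or.inr (Or.inl ⟨by simpa using e A _ _ _ _ h.1, by simpa using e _ _ _ _ _ h.2⟩)
  · exact Or.inr (Or.inr (Or.inl ⟨by simpa using e A _ _ _ _ h.1, by simpa using e _ _ _ _ _ h.2⟩))
  · exact Or.inr (Or.inr (Or.inr (Or.inl
      ⟨by simpa using e A _ _ _ _ h.1, by simpa using e _ _ _ _ _ h.2⟩)))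
  · exact Or.inr (Or.inr (Or.inr (Or.inr (Or.inl
      ⟨by simpa using e A _ _ _ _ h.1, by simpa using e _ _ _ _ _ h.2⟩))))
  · exact Or.inr (Or.inr (Or.inr (Or.inr (Or.inr
      ⟨by simpa using e A _ _ _ _ h.1, by simpa using e _ _ _ _ _ h.2⟩))))

/-- conjugation -/
def conj (A : GL (Fin 2) (ZMod 2)) (M : Matrix (Fin 2) (Fin 2) k) : Matrix (Fin 2) (Fin 2) k :=
  emb A * M * emb A⁻¹

theorem emb_mul_inv (A : GL (Fin 2) (ZMod 2)) : emb (k := k) A * emb A⁻¹ = 1 := by
  rw [← map_mul, mul_inv_cancel, map_one]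

theorem emb_inv_mul (A : GL (Fin 2) (ZMod 2)) : emb (k := k) A⁻¹ * emb A = 1 := by
  rw [← map_mul, inv_mul_cancel, map_one]

theorem conj_one (M : Matrix (Fin 2) (Fin 2) k) : conj 1 M = M := by simp [conj]

theorem conj_mul (A B : GL (Fin 2) (ZMod 2)) (M : Matrix (Fin 2) (Fin 2) k) :
    conj (A * B) M = conj A (conj B M) := by
  simp only [conj, map_mul, _root_.mul_inv_rev, mul_assoc]

theorem conj_add (A : GL (Fin 2) (ZMod 2)) (M N : Matrix (Fin 2) (Fin 2) k) :
    conj A (M + N) = conj A M + conj A N := by simp [conj, mul_add, add_mul]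

theorem trace_conj (A : GL (Fin 2) (ZMod 2)) (M : Matrix (Fin 2) (Fin 2) k) :
    (conj A M).trace = M.trace := by
  rw [conj, Matrix.trace_mul_comm, ← mul_assoc, emb_inv_mul, one_mul]

/-- the plane component -/
def stPart : Matrix (Fin 2) (Fin 2) k →ₗ[k] (Fin 2 → k) where
  toFun M := ![M 0 0 + M 0 1 + M 1 1, M 0 0 + M 1 0 + M 1 1]
  map_add' M N := by
    ext i; fin_cases i <;> simp <;> ring
  map_smul' a M := by
    ext i; fin_cases i <;> simp <;> ring

theorem stPart_apply (M : Matrix (Fin 2) (Fin 2) k) :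
    stPart M = ![M 0 0 + M 0 1 + M 1 1, M 0 0 + M 1 0 + M 1 1] := rfl

/-- a section of `stPart` -/
def stLift (v : Fin 2 → k) : Matrix (Fin 2) (Fin 2) k := !![0, v 0; v 1, 0]

theorem stPart_stLift (v : Fin 2 → k) : stPart (stLift v) = v := by
  ext i; fin_cases i <;> simp [stPart_apply, stLift]

theorem stPart_conj (A : GL (Fin 2) (ZMod 2)) (M : Matrix (Fin 2) (Fin 2) k) :
    stPart (conj A M) = emb A *ᵥ stPart M := by
  have h2 : (2 : k) = 0 := two_eq_zero
  have h3 : (3 : k) = 1 := by linear_combination h2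
  rcases emb_cases (k := k) A with h | h | h | h | h | h <;> rw [conj, h.1, h.2] <;> ext i <;>
    fin_cases i <;>
    simp only [stPart_apply, Matrix.mulVec, dotProduct, Fin.sum_univ_two, Matrix.mul_apply] <;>
    simp <;> ring_nf <;> simp [h2, h3]

/-- the order three element spanning the trivial part with the scalars -/
def g₀ : Matrix (Fin 2) (Fin 2) k := !![0, 1; 1, 1]

/-- trace zero and no plane component: scalar -/
theorem eq_scalar {M : Matrix (Fin 2) (Fin 2) k} (ht : M.trace = 0) (hs : stPart M = 0) :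
    M = (M 0 0) • (1 : Matrix (Fin 2) (Fin 2) k) := by
  have h2 : (2 : k) = 0 := two_eq_zero
  have e0 := congrFun hs 0
  have e1 := congrFun hs 1
  rw [Matrix.trace_fin_two] at ht
  simp [stPart_apply] at e0 e1
  ext i j
  fin_cases i <;> fin_cases j <;> simp
  · linear_combination e0 - ht
  · linear_combination e1 - ht
  · linear_combination ht - M 0 0 * h2

theorem emb_eq_map (A : GL (Fin 2) (ZMod 2)) :
    emb (k := k) A = (algebraMap (ZMod 2) k).mapMatrix (A : Matrix (Fin 2) (Fin 2) (ZMod 2)) := rfl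

/-- conjugation moves `g₀` by a scalar, nonzero exactly for the involutions -/
theorem conj_g₀ (A : GL (Fin 2) (ZMod 2)) :
    ∃ e : k, conj A g₀ = g₀ + e • (1 : Matrix (Fin 2) (Fin 2) k) ∧ (A * A = 1 → A ≠ 1 → e = 1) := by
  have key : ∀ M N : Matrix (Fin 2) (Fin 2) (ZMod 2), M * N = 1 →
      (M * !![0, 1; 1, 1] * N = !![0, 1; 1, 1] ∧ (M * M ≠ 1 ∨ M = 1)) ∨
        M * !![0, 1; 1, 1] * N = !![0, 1; 1, 1] + 1 := by decide
  have hg : (algebraMap (ZMod 2) k).mapMatrix (!![0, 1; 1, 1] : Matrix (Fin 2) (Fin 2) (ZMod 2))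
      = g₀ := by
    ext i j
    fin_cases i <;> fin_cases j <;> simp [g₀]
  rcases key (A : Matrix (Fin 2) (Fin 2) (ZMod 2)) (A⁻¹ : GL (Fin 2) (ZMod 2))
    (by rw [← Units.val_mul, mul_inv_cancel, Units.val_one]) with ⟨h, hA⟩ | h
  · refine ⟨0, ?_, fun hsq hne => ?_⟩
    · rw [zero_smul, add_zero, conj, emb_eq_map, emb_eq_map, ← hg, ← map_mul, ← map_mul, h]
    · rcases hA with e | e
      · exact absurd (by rw [← Units.val_mul, hsq, Units.val_one]) e
      · exact absurd (Units.ext e) hne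
  · refine ⟨1, ?_, fun _ _ => rfl⟩
    rw [one_smul, conj, emb_eq_map, emb_eq_map, ← hg, ← map_mul, ← map_mul, h, map_add, map_one]

variable {A : GL (Fin 2) (ZMod 2)} (hA : A * A = 1) (hA1 : A ≠ 1)

include hA hA1 in
theorem emb_invol : emb (k := k) A = !![(0 : k), 1; 1, 0] ∨ emb (k := k) A = !![(1 : k), 1; 0, 1] ∨
    emb (k := k) A = !![(1 : k), 0; 1, 1] := by
  have hne' : emb (k := k) A ≠ 1 := fun h => hA1 (Units.ext (Matrix.map_injective
    (algebraMap (ZMod 2) k).injective (h.trans (map_one emb).symm)))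
  have hsq' : emb (k := k) A * emb A = 1 := by rw [← map_mul, hA, map_one]
  rcases emb_cases (k := k) A with h | h | h | h | h | h
  · exact absurd (h.1.trans Matrix.one_fin_two.symm) hne'
  · exact Or.inl h.1
  · exact Or.inr (Or.inl h.1)
  · exact Or.inr (Or.inr h.1)
  all_goals
    rw [h.1] at hsq'
    have e := congrFun (congrFun hsq' 0) 1
    simp [Matrix.mul_apply, Fin.sum_univ_two] at e

include hA hA1 in
/-- the centraliser of an involution has trace zero -/
theorem trace_eq_zero_of_comm {M : Matrix (Fin 2) (Fin 2) k} (hc : emb A * M = M * emb A) :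
    M.trace = 0 := by
  have h2 : (2 : k) = 0 := two_eq_zero
  rw [Matrix.trace_fin_two]
  have e00 := congrFun (congrFun hc 0) 0
  have e01 := congrFun (congrFun hc 0) 1
  have e10 := congrFun (congrFun hc 1) 0
  rcases emb_invol (k := k) hA hA1 with h | h | h <;> rw [h] at e00 e01 e10 <;>
    simp [Matrix.mul_apply, Fin.sum_univ_two] at e00 e01 e10
  · linear_combination e01 + M 0 0 * h2
  · linear_combination e01 + M 0 0 * h2
  · linear_combination e10 + M 1 1 * h2

include hA hA1 in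
/-- trace zero on both sides of an involution: plane component fixed by it -/
theorem stPart_fixed_of_trace {M : Matrix (Fin 2) (Fin 2) k} (hM : M.trace = 0)
    (hAM : (M * emb A).trace = 0) : emb A *ᵥ stPart M = stPart M := by
  have h2 : (2 : k) = 0 := two_eq_zero
  rw [Matrix.trace_fin_two] at hM hAM
  rcases emb_invol (k := k) hA hA1 with h | h | h <;> rw [h] at hAM ⊢ <;>
    simp [Matrix.mul_apply, Fin.sum_univ_two] at hAM <;> ext i <;> fin_cases i <;>
    simp [stPart_apply, Matrix.mulVec, dotProduct, Fin.sum_univ_two]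
  · linear_combination hAM - M 0 1 * h2
  · linear_combination hAM - M 1 0 * h2
  · linear_combination hAM
  · linear_combination hAM

theorem stPart_fixed_of_comm {M : Matrix (Fin 2) (Fin 2) k} (hc : emb A * M = M * emb A) :
    emb A *ᵥ stPart M = stPart M := by
  rw [← stPart_conj, conj, hc, mul_assoc, emb_mul_inv, mul_one]

include hA hA1 in
/-- the fixed row of an involution meets its fixed line trivially -/
theorem stPart_fixed_of_row {M : Matrix (Fin 2) (Fin 2) k} (hM : M.trace = 0) {w v : Fin 2 → k}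
    (hw0 : w ≠ 0) (hw : w ᵥ* emb A = w) {B : GL (Fin 2) (ZMod 2)} (hB : B = 1 ∨ B = A)
    (h : w ᵥ* M = v ᵥ* (emb B + 1)) : emb A *ᵥ stPart M = stPart M := by
  have h2 : (2 : k) = 0 := two_eq_zero
  rw [Matrix.trace_fin_two] at hM
  -- multiply by the fixed column
  obtain ⟨u, hu, hAu, hkey⟩ : ∃ u : Fin 2 → k, emb A *ᵥ u = u ∧ u ≠ 0 ∧
      (w ⬝ᵥ (M *ᵥ u) = 0 → emb A *ᵥ stPart M = stPart M) := by
    have hw' : ∀ i, (w ᵥ* emb A) i = w i := fun i => congrFun hw i
    have a0 := hw' 0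
    have a1 := hw' 1
    rcases emb_invol (k := k) hA hA1 with hh | hh | hh <;> rw [hh] at a0 a1 ⊢ <;>
      simp [Matrix.vecMul, dotProduct, Fin.sum_univ_two] at a0 a1
    · refine ⟨![1, 1], ?_, by simp, fun hz => ?_⟩
      · ext i; fin_cases i <;> simp [Matrix.mulVec, dotProduct, Fin.sum_univ_two]
      have hw1 : w 0 ≠ 0 := fun e => hw0 (by ext i; fin_cases i <;> simp [e, a0.trans e])
      have hz' : w 0 * (M 0 0 + M 0 1 + M 1 0 + M 1 1) = 0 := by
        simp [Matrix.mulVec, dotProduct, Fin.sum_univ_two] at hz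
        linear_combination hz - (M 1 0 + M 1 1) * a0
      have hm := (mul_eq_zero.mp hz').resolve_left hw1
      ext i
      fin_cases i <;>
        simp [stPart_apply, Matrix.mulVec, dotProduct, Fin.sum_univ_two]
      · linear_combination hm - hM - M 0 1 * h2
      · linear_combination hm - hM - M 1 0 * h2
    · refine ⟨![1, 0], ?_, by simp, fun hz => ?_⟩
      · ext i; fin_cases i <;> simp [Matrix.mulVec, dotProduct, Fin.sum_univ_two]
      have hw1 : w 1 ≠ 0 := fun e => hw0 (by ext i; fin_cases i <;> simp [e, a1])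
      have hz' : w 1 * M 1 0 = 0 := by
        simp [Matrix.mulVec, dotProduct, Fin.sum_univ_two] at hz
        linear_combination hz - M 0 0 * a1
      have hm := (mul_eq_zero.mp hz').resolve_left hw1
      ext i
      fin_cases i <;>
        simp [stPart_apply, Matrix.mulVec, dotProduct, Fin.sum_univ_two]
      linear_combination hm + hM
    · refine ⟨![0, 1], ?_, by simp, fun hz => ?_⟩
      · ext i; fin_cases i <;> simp [Matrix.mulVec, dotProduct, Fin.sum_univ_two]
      have hw1 : w 0 ≠ 0 := fun e => hw0 (by ext i; fin_cases i <;> simp [e, a0])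
      have hz' : w 0 * M 0 1 = 0 := by
        simp [Matrix.mulVec, dotProduct, Fin.sum_univ_two] at hz
        linear_combination hz - M 1 1 * a0
      have hm := (mul_eq_zero.mp hz').resolve_left hw1
      ext i
      fin_cases i <;>
        simp [stPart_apply, Matrix.mulVec, dotProduct, Fin.sum_univ_two]
      linear_combination hm + hM
  refine hkey ?_
  rw [Matrix.dotProduct_mulVec, h, ← Matrix.dotProduct_mulVec, Matrix.add_mulVec, Matrix.one_mulVec]
  have huB : emb (k := k) B *ᵥ u = u := by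
    rcases hB with rfl | rfl
    · rw [map_one, Matrix.one_mulVec]
    · exact hu
  rw [huB, ← two_smul k u, two_eq_zero, zero_smul, dotProduct_zero]

end FLTAgent.R2.Tan

end
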