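import Fermat.Agent.R2.Anchor
import Fermat.Agent.SW2.Irred5
import Fermat.Agent.MLT.Main
import Fermat.Agent.CUBE.CubeFree
import Fermat.Agent.LL.Avoid
import Fermat.Agent.S02
import Fermat.Agent.S07
import Fermat.Agent.S09
import Fermat.Agent.S45
import Mathlib.NumberTheory.FLT.Three
import Mathlib.NumberTheory.FLT.Four

/-!
Area R2, top: modularity of anchors and the two switches give the Frey curve modular, hence
Fermat's Last Theorem.
-/

set_option autoImplicit false

noncomputable section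

namespace FLTAgent.R2

open WeierstrassCurve

/-- exact coefficients of a curve congruent to `W` modulo `p` make `W` residually modular -/
theorem residual_of_modular {W W' : WeierstrassCurve ℤ} {p N : ℕ} (hp : p.Prime)
    (hbad : ∀ l : ℕ, l.Prime → (l : ℤ) ∣ W'.Δ → l ∣ N)
    (hmod : W'.IsModularModelOfLevel N)
    (hcong : ∀ l : ℕ, l.Prime → W.IsGoodPrimeFor l → W'.IsGoodPrimeFor l → l ≠ p →
      (p : ℤ) ∣ (W'.apOfModel l - W.apOfModel l)) :
    W.IsResiduallyModularOfLevel p N := by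
  obtain ⟨f, hf, hap⟩ := hmod
  have hnu : ¬ IsUnit ((p : ℕ) : integralClosure ℤ ℂ) := by
    rintro hu
    obtain ⟨v, hv⟩ := hu.exists_left_inv
    have hv' : ((v : integralClosure ℤ ℂ) : ℂ) * (p : ℂ) = 1 := by
      have := congrArg (fun x : integralClosure ℤ ℂ => (x : ℂ)) hv
      simpa using this
    have hint : IsIntegral ℤ ((1 / p : ℚ)) := by
      have e : ((v : integralClosure ℤ ℂ) : ℂ) = algebraMap ℚ ℂ (1 / p : ℚ) := by
        rw [eq_div_of_mul_eq (by exact_mod_cast hp.ne_zero : (p : ℂ) ≠ 0) hv']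
        simp
      have h2 := v.2
      rw [mem_integralClosure_iff, e] at h2
      exact (isIntegral_algebraMap_iff (algebraMap ℚ ℂ).injective).1 h2
    obtain ⟨z, hz⟩ := IsIntegrallyClosed.isIntegral_iff.1 hint
    have hz' : (z : ℚ) * p = 1 := by
      rw [show (z : ℚ) = 1 / p from hz, div_mul_cancel₀]
      exact_mod_cast hp.ne_zero
    have hz'' : z * (p : ℤ) = 1 := by exact_mod_cast hz'
    exact (Nat.prime_iff_prime_int.1 hp).not_isUnit (isUnit_iff_exists_inv.2 ⟨z, by rw [mul_comm]; exact hz''⟩)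
  obtain ⟨𝔪, h𝔪, hp𝔪⟩ := exists_max_ideal_of_mem_nonunits hnu
  refine ⟨f, 𝔪, hf, h𝔪, hp𝔪, fun l hl hgood hlN hlp => ⟨(W'.apOfModel l : ℤ), ?_, ?_⟩⟩
  · rw [hap l hl (fun h => hlN (hbad l hl h)) hlN]
    push_cast
    rfl
  · obtain ⟨k, hk⟩ := hcong l hl hgood (fun h => hlN (hbad l hl h)) hlp
    rw [← Int.cast_sub, hk, Int.cast_mul, Int.cast_natCast]
    exact 𝔪.mul_mem_right _ hp𝔪

/-- modularity lifting from a congruent modular curve -/
theorem exact_of_congruent {W W' : WeierstrassCurve ℤ} {p N : ℕ} (hp : p = 3 ∨ p = 5)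
    (hΔ : W.Δ ≠ 0) (hW : W.IsSemistableModel) (hirr : W.ModRepIsIrreducible p) (hN : Squarefree N)
    (hbad : ∀ l : ℕ, l.Prime → (l : ℤ) ∣ W'.Δ → l ∣ N)
    (hmod : W'.IsModularModelOfLevel N)
    (hcong : ∀ l : ℕ, l.Prime → W.IsGoodPrimeFor l → W'.IsGoodPrimeFor l → l ≠ p →
      (p : ℤ) ∣ (W'.apOfModel l - W.apOfModel l)) :
    Mlc1IsModularModelOfExactConductorLevel W := by
  have hpp : p.Prime := by rcases hp with rfl | rfl <;> norm_num
  have : NeZero N := ⟨hN.ne_zero⟩
  refine FLTAgent.MLT.modularity_lifting p hp W hΔ hW hirr N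
    (residual_of_modular hpp hbad hmod hcong) (fun h => ?_) fun q hq _ h => ?_
  · exact hpp.not_isUnit (hN p (by rwa [← pow_two]))
  · exact hq.not_isUnit (hN q (dvd_trans ⟨q, by ring⟩ h))

/-- curves multiplicative at `2` with irreducible mod `3` representation are modular -/
theorem exact_of_three (hA : AnchorModular) (hS : AnchorSwitch) {W : WeierstrassCurve ℤ}
    (hΔ : W.Δ ≠ 0) (hW : W.IsSemistableModel) (h3 : W.ModRepIsIrreducible 3)
    (h2 : (2 : ℤ) ∣ W.Δ) : Mlc1IsModularModelOfExactConductorLevel W := by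
  obtain ⟨W', hanchor, hcong⟩ := hS W hΔ hW h3 h2
  obtain ⟨N, hN, hbad, hmod⟩ := hA W' hanchor
  exact exact_of_congruent (Or.inl rfl) hΔ hW h3 hN hbad hmod hcong

/-- curves multiplicative at `2` with irreducible mod `5` representation are modular -/
theorem exact_of_five (hA : AnchorModular) (hS : AnchorSwitch) (hF : FiveSwitch)
    {W : WeierstrassCurve ℤ} (hΔ : W.Δ ≠ 0) (hW : W.IsSemistableModel)
    (h5 : W.ModRepIsIrreducible 5) (h2 : (2 : ℤ) ∣ W.Δ) :
    Mlc1IsModularModelOfExactConductorLevel W := by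
  obtain ⟨W', hΔ', hW', h3, h2', hcong⟩ := hF W hΔ hW h5 h2
  obtain ⟨N, -, hN, hbad, hmod⟩ := exact_of_three hA hS hΔ' hW' h3 h2'
  exact exact_of_congruent (Or.inr rfl) hΔ hW h5 hN (fun l hl h => (hbad l hl).2 h) hmod hcong

/-- the Frey curve is modular -/
theorem freyCurve_isModular (hA : AnchorModular) (hS : AnchorSwitch) (hF : FiveSwitch)
    (P : FreyPackage) : P.freyCurve.IsModular := by
  obtain ⟨N, hN0, -, -, hmod⟩ := exact_of_five hA hS hF (FLTAgent.Local.freyCurveInt_Δ_ne_zero P)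
    (fun q hq h => FLTAgent.Local.freyCurveInt_semistable P hq h)
    (FLTAgent.SW2.frey_modFive_irreducible P) (FLTAgent.Local.freyCurveInt_two_dvd_Δ P)
  exact ⟨P.freyCurveInt, ⟨1, by rw [one_smul]; exact FLTAgent.Local.freyCurve_eq P⟩, N, hN0, hmod⟩

/-- the Frey representation is modular of a conductor level -/
theorem frey_conductorLevel (hA : AnchorModular) (hS : AnchorSwitch) (hF : FiveSwitch)
    (P : FreyPackage) : ∃ N : ℕ, P.IsConductorLevel N ∧ P.ModularRepOfLevel N :=
  FLTAgent.LL.exists_conductorLevel_of_isModular FLTAgent.CUBE.cubeFree P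
    (freyCurve_isModular hA hS hF P)

/-- there is no Frey package -/
theorem no_freyPackage (hA : AnchorModular) (hS : AnchorSwitch) (hF : FiveSwitch)
    (P : FreyPackage) : False := by
  obtain ⟨f, hf⟩ := Fermat.Agent.S45.result P (freyCurve_isModular hA hS hF P)
    (Fermat.Agent.S09.result P)
  exact hf (Fermat.Agent.S07.result f)

/-- Fermat's Last Theorem -/
theorem fermat (hA : AnchorModular) (hS : AnchorSwitch) (hF : FiveSwitch) :
    FermatLastTheorem := by
  refine FermatLastTheorem.of_odd_primes fun p hp hodd => ?_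
  rcases Nat.lt_or_ge p 5 with h | h
  · have hp3 : p = 3 := by
      have := hp.two_le
      interval_cases p <;> simp_all [Nat.odd_iff]
    subst hp3
    exact fermatLastTheoremThree
  · rw [fermatLastTheoremFor_iff_int]
    intro a b c ha hb hc H
    obtain ⟨P⟩ := Fermat.Agent.S02.result a b c ha hb hc p hp h H
    exact no_freyPackage hA hS hF P

/-- the root statement -/
theorem fermat_statement (hA : AnchorModular) (hS : AnchorSwitch) (hF : FiveSwitch)
    (n : ℕ) (hn : 3 ≤ n) (a b c : ℕ) (ha : 0 < a) (hb : 0 < b) (hc : 0 < c) :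
    a ^ n + b ^ n ≠ c ^ n :=
  fermat hA hS hF n hn a b c ha.ne' hb.ne' hc.ne'

end FLTAgent.R2

end
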