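import Fermat.Agent.R2.Defs
import Fermat.Agent.R2.TwoVec
import Fermat.Agent.PT.Tool.Places

/-!
Area R2, at a place over two exactly dividing the level: the shape of the representation on a module
of killed vectors on which the involution is the scalar `w`.

With `λ` the unramified sign with `λ (Frob) = -w` and `a(g) = ρ g - λ g`, every `a(g)` of a
decomposition word maps into the vectors with representative twists; a scalar doing so vanishes as
`Frobenius + w` is residually nonzero; hence `det a(g) = 0` and `adj a(g) · a(h) = 0`.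
-/

set_option autoImplicit false
set_option linter.unusedSectionVars false
set_option linter.style.haveILetI false
set_option maxHeartbeats 1000000

noncomputable section

open scoped MatrixGroups TensorProduct Matrix
open Matrix IsLocalRing ModularCurve AlgebraicCurve

namespace FLTAgent.R2

open FLTAgent.Attach (HeckeLattice GalQ cyc cycR)
open FLTAgent.Reduction (Qb Ctx)
open FLTAgent.MLT (KilledVec)

/-- the unramified sign at two sending Frobenius to `-w` -/
def lamTwo (w : ℤ) (σ : GalQ) : ℤ := if cyc 3 σ = 1 then 1 else -w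

theorem cyc_pow_two (n : ℕ) [NeZero n] (σ : GalQ) : ∀ m : ℕ, cyc n (σ ^ m) = cyc n σ ^ m
  | 0 => by rw [pow_zero, pow_zero, Attach.cyc_one]
  | m + 1 => by rw [pow_succ, Attach.cyc_mul, cyc_pow_two n σ m, pow_succ]

section Algebra

variable {T : Type} [CommRing T]

/-- a scalar from one entry -/
theorem scalar_eq_sum (Z : Matrix (Fin 2) (Fin 2) T) (i j : Fin 2) :
    ∑ a : Fin 2, Matrix.single a i 1 * Z * Matrix.single j a 1 =
      Matrix.scalar (Fin 2) (Z i j) := by
  ext k l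
  fin_cases i <;> fin_cases j <;> fin_cases k <;> fin_cases l <;>
    simp [Matrix.mul_apply, Fin.sum_univ_two, Matrix.single_apply]

/-- the scalar of a determinant of one column from each of two matrices -/
theorem cross_eq (a b : Matrix (Fin 2) (Fin 2) T) (i j : Fin 2) :
    a * (Matrix.single i 0 (b 1 j) - Matrix.single i 1 (b 0 j)) +
      b * (Matrix.single j 1 (a 0 i) - Matrix.single j 0 (a 1 i)) =
      Matrix.scalar (Fin 2) (a 0 i * b 1 j - a 1 i * b 0 j) := by
  ext k l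
  fin_cases i <;> fin_cases j <;> fin_cases k <;> fin_cases l <;>
    simp [Matrix.mul_apply, Fin.sum_univ_two, Matrix.single_apply] <;> ring

variable {O W : Type} [CommRing O] [Algebra O T] [AddCommGroup W] [Module O W]
  (Θ : Matrix (Fin 2) (Fin 2) T →ₐ[O] Module.End O W) (X : Submodule O W)

/-- the second factor in terms of the first -/
theorem sub_det_eq (B : Matrix (Fin 2) (Fin 2) T) {l : T} (hl : l * l = 1) :
    B - (l * B.det) • (1 : Matrix (Fin 2) (Fin 2) T) =
      -(B - l • 1).adjugate - (l * (B - l • 1).det) • 1 := by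
  ext i j
  fin_cases i <;> fin_cases j <;>
    simp [Matrix.adjugate_fin_two, Matrix.det_fin_two] <;>
    linear_combination (-(B 0 0 + B 1 1 - l)) * hl

/-- a matrix whose entries act by zero acts by zero -/
theorem apply_eq_zero_of_entries {Z : Matrix (Fin 2) (Fin 2) T}
    (h : ∀ i j, Θ (Matrix.scalar (Fin 2) (Z i j)) = 0) : Θ Z = 0 := by
  have e : Z = ∑ i, ∑ j, Matrix.scalar (Fin 2) (Z i j) * Matrix.single i j 1 := by
    ext k l
    fin_cases k <;> fin_cases l <;>
      simp [Matrix.mul_apply, Matrix.sum_apply, Fin.sum_univ_two, Matrix.single_apply]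
  rw [e, map_sum]
  refine Finset.sum_eq_zero fun i _ => ?_
  rw [map_sum]
  refine Finset.sum_eq_zero fun j _ => ?_
  rw [map_mul Θ, h i j, zero_mul]

/-- a matrix acting by zero has entries acting by zero -/
theorem entries_eq_zero {Z : Matrix (Fin 2) (Fin 2) T} (h : Θ Z = 0) (i j : Fin 2) :
    Θ (Matrix.scalar (Fin 2) (Z i j)) = 0 := by
  rw [← scalar_eq_sum Z i j, map_sum]
  exact Finset.sum_eq_zero fun a _ => by rw [map_mul Θ, map_mul Θ, h, mul_zero, zero_mul]

/-- two matrices mapping into `X`, when no nonzero scalar does -/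
theorem adjugate_mul_eq_zero
    (hX : ∀ u : T, (∀ x, Θ (Matrix.scalar (Fin 2) u) x ∈ X) → Θ (Matrix.scalar (Fin 2) u) = 0)
    {a b : Matrix (Fin 2) (Fin 2) T} (ha : ∀ x, Θ a x ∈ X) (hb : ∀ x, Θ b x ∈ X) :
    Θ (Matrix.scalar (Fin 2) a.det) = 0 ∧ Θ (a.adjugate * b) = 0 := by
  have cross : ∀ a b : Matrix (Fin 2) (Fin 2) T, (∀ x, Θ a x ∈ X) → (∀ x, Θ b x ∈ X) →
      ∀ i j, Θ (Matrix.scalar (Fin 2) (a 0 i * b 1 j - a 1 i * b 0 j)) = 0 := by
    intro a b ha hb i j
    refine hX _ fun x => ?_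
    rw [← cross_eq a b i j, map_add Θ, map_mul Θ, map_mul Θ, LinearMap.add_apply,
      Module.End.mul_apply, Module.End.mul_apply]
    exact add_mem (ha _) (hb _)
  refine ⟨?_, apply_eq_zero_of_entries Θ fun i j => ?_⟩
  · have h := cross a a ha ha 0 1
    rwa [show a 0 0 * a 1 1 - a 1 0 * a 0 1 = a.det by rw [Matrix.det_fin_two]; ring] at h
  · fin_cases i
    · have e : (a.adjugate * b) 0 j = -(a 0 1 * b 1 j - a 1 1 * b 0 j) := by
        simp [Matrix.adjugate_fin_two, Matrix.mul_apply, Fin.sum_univ_two]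
        ring
      show Θ (Matrix.scalar (Fin 2) ((a.adjugate * b) 0 j)) = 0
      rw [e, map_neg, map_neg, cross a b ha hb 1 j, neg_zero]
    · have e : (a.adjugate * b) 1 j = a 0 0 * b 1 j - a 1 0 * b 0 j := by
        simp [Matrix.adjugate_fin_two, Matrix.mul_apply, Fin.sum_univ_two]
        ring
      show Θ (Matrix.scalar (Fin 2) ((a.adjugate * b) 1 j)) = 0
      rw [e]
      exact cross a b ha hb 0 j

/-- no nonzero scalar maps into `X`, if some matrix with a unit entry is divisible by two on the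
vectors with a nonzero multiple in `X` -/
theorem scalar_eq_zero_of_mem [IsDomain O] [IsLocalRing O] [IsNoetherianRing O] [Module.Finite O W]
    [Module.IsTorsionFree O W] (h2 : (2 : O) ∈ maximalIdeal O) (h20 : (2 : O) ≠ 0)
    (N : Matrix (Fin 2) (Fin 2) T) {i j : Fin 2} (hu : IsUnit (N i j))
    (hN : ∀ (x : W) (c : O), c ≠ 0 → c • x ∈ X → ∃ z, Θ N x = (2 : O) • z)
    (u : T) (h : ∀ x, Θ (Matrix.scalar (Fin 2) u) x ∈ X) :
    Θ (Matrix.scalar (Fin 2) u) = 0 := by
  obtain ⟨n, hn⟩ := hu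
  set S := Matrix.scalar (Fin 2) (α := T)
  have hcomm : ∀ (Y : Matrix (Fin 2) (Fin 2) T), Y * S u = S u * Y := fun Y =>
    ((Matrix.scalar_commute u (fun r => Commute.all _ r) Y).eq).symm
  -- the vectors with a nonzero multiple in the image
  let Z : Set W := {x | ∃ c : O, c ≠ 0 ∧ ∃ z, c • x = Θ (S u) z}
  have hZ : ∀ Y, ∀ x ∈ Z, Θ Y x ∈ Z := by
    rintro Y x ⟨c, hc, z, hz⟩
    refine ⟨c, hc, Θ Y z, ?_⟩
    rw [← map_smul, hz, ← Module.End.mul_apply, ← map_mul, hcomm, map_mul, Module.End.mul_apply]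
  have hdiv : ∀ x ∈ Z, ∃ z ∈ Z, x = (2 : O) • z := by
    intro x hx
    have h1 : ∀ a : Fin 2, ∃ z, Θ (Matrix.single a i 1 * N * Matrix.single j a 1) x = (2 : O) • z := by
      intro a
      obtain ⟨c, hc, z, hz⟩ := hZ (Matrix.single j a 1) x hx
      obtain ⟨z', hz'⟩ := hN (Θ (Matrix.single j a 1) x) c hc (hz ▸ h z)
      exact ⟨Θ (Matrix.single a i 1) z', by
        rw [map_mul, map_mul, Module.End.mul_apply, Module.End.mul_apply, hz', map_smul]⟩
    choose z hz using h1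
    have e : Θ (S (n : T)) x = (2 : O) • ∑ a, z a := by
      rw [hn, ← scalar_eq_sum N i j, map_sum, LinearMap.sum_apply, Finset.smul_sum]
      exact Finset.sum_congr rfl fun a _ => hz a
    have e2 : x = (2 : O) • Θ (S ((n⁻¹ : Tˣ) : T)) (∑ a, z a) := by
      rw [← map_smul, ← e, ← Module.End.mul_apply, ← map_mul, ← map_mul, Units.inv_mul,
        map_one, map_one, Module.End.one_apply]
    refine ⟨_, ?_, e2⟩
    obtain ⟨c, hc, w, hw⟩ := hx
    exact ⟨c * 2, mul_ne_zero hc h20, w, by rw [mul_smul, ← e2, hw]⟩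
  have hpow : ∀ (k : ℕ) (x : W), x ∈ Z → x ∈ (maximalIdeal O ^ k • ⊤ : Submodule O W) := by
    intro k
    induction k with
    | zero => intro x _; simp
    | succ k ih =>
      intro x hx
      obtain ⟨z, hz, rfl⟩ := hdiv x hx
      rw [pow_succ', Submodule.mul_smul]
      exact Submodule.smul_mem_smul h2 (ih z hz)
  refine LinearMap.ext fun x => ?_
  have hx : Θ (S u) x ∈ Z := ⟨1, one_ne_zero, x, one_smul _ _⟩
  have hbot := Ideal.iInf_pow_smul_eq_bot_of_isLocalRing (M := W) (maximalIdeal O)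
    (IsLocalRing.maximalIdeal.isMaximal O).ne_top
  rw [LinearMap.zero_apply, ← Submodule.mem_bot (R := O), ← hbot, Submodule.mem_iInf]
  exact fun k => hpow k _ hx

end Algebra

section Lattice

variable {O : Type} [CommRing O] [IsDomain O] [IsDiscreteValuationRing O]
  [IsAdicComplete (maximalIdeal O) O] [CharZero O] {M : ℕ} [NeZero M]
  {A : ValuationSubring Qb} (C : Ctx A M 2) (D : HeckeLattice (M * 2))
  (hO : ((2 : ℕ) : O) ∈ maximalIdeal O)
  {T : Type} [CommRing T] [Algebra O T] (W : Submodule O (D.Idx → O))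
  (Θ : Matrix (Fin 2) (Fin 2) T →ₐ[O] Module.End O W)
  (ρ : GalQ →* Matrix (Fin 2) (Fin 2) T)

/-- the representation minus the sign -/
def subSign (w : ℤ) (i : ℕ) (σ : GalQ) : Matrix (Fin 2) (Fin 2) T :=
  ρ σ - (((-w) ^ i : ℤ) : T) • 1

set_option maxHeartbeats 2000000 in
/-- the shape on decomposition words -/
theorem twoShape_words (hdet : ∀ σ, (ρ σ).det = algebraMap O T (cycR Nat.prime_two hO σ))
    (hgal : ∀ (σ : GalQ) (x : W), ((Θ (ρ σ) x : W) : D.Idx → O) =
      D.galMat Nat.prime_two hO σ *ᵥ (x : D.Idx → O))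
    (hkill : ∀ x ∈ W, KilledVec D x) (w : ℤˣ) (hw : ∀ x ∈ W, AtkinVec C D w x)
    (hsat : ∀ x : D.Idx → O, (2 : O) • x ∈ W → x ∈ W)
    {φ : GalQ} (hφ : A.IsFrobeniusAt φ 2) {i j : Fin 2}
    (hunit : IsUnit ((ρ φ + ((w : ℤ) : T) • 1) i j))
    (m m' : ℕ) {s s' : GalQ} (hs : s ∈ A.inertiaSubgroupIn ℚ) (hs' : s' ∈ A.inertiaSubgroupIn ℚ) :
    Θ ((ρ (φ ^ m * s) - ((((-(w : ℤ)) ^ m : ℤ) : T) * (ρ (φ ^ m * s)).det) • 1) *
      (ρ (φ ^ m' * s') - (((-(w : ℤ)) ^ m' : ℤ) : T) • 1)) = 0 := by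
  classical
  haveI : Module.Finite O W := Module.Finite.iff_fg.mpr (IsNoetherian.noetherian W)
  have hww : (w : ℤ) * (w : ℤ) = 1 := by
    rw [← Units.val_mul, Int.units_mul_self, Units.val_one]
  let X : Submodule O W := (kerVecSub C D).comap W.subtype
  have hmemX : ∀ x : W, x ∈ X ↔ KerVec C D (x : D.Idx → O) := fun x => Iff.rfl
  obtain ⟨gs, hg, -⟩ := SS.compat_frobenius C hφ
  have hXgal : ∀ x ∈ X, Θ (ρ φ) x ∈ X := fun x hx => by
    rw [hmemX, hgal]
    exact KerVec.galois C D hO hg hx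
  have hint : ∀ (σ : GalQ), σ ∈ A.inertiaSubgroupIn ℚ → ∀ x, Θ (ρ σ - 1) x ∈ X := fun σ hσ x => by
    rw [hmemX, map_sub Θ, map_one Θ, LinearMap.sub_apply, Module.End.one_apply, Submodule.coe_sub,
      hgal]
    exact kerVec_inertia_sub C D hO hσ _
  have hNcoe : ∀ x : W, ((Θ (ρ φ + ((w : ℤ) : T) • 1) x : W) : D.Idx → O) =
      D.galMat Nat.prime_two hO φ *ᵥ (x : D.Idx → O) + ((w : ℤ) : O) • (x : D.Idx → O) := fun x => by
    rw [show (((w : ℤ) : T) • (1 : Matrix (Fin 2) (Fin 2) T)) = ((w : ℤ) : O) • 1 by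
      rw [← algebraMap_smul T ((w : ℤ) : O) (1 : Matrix (Fin 2) (Fin 2) T), map_intCast],
      map_add Θ, map_smul Θ, map_one Θ, LinearMap.add_apply, LinearMap.smul_apply,
      Module.End.one_apply, Submodule.coe_add, Submodule.coe_smul, hgal]
  have hfrob : ∀ x, Θ (ρ φ + ((w : ℤ) : T) • 1) x ∈ X := fun x => by
    rw [hmemX, hNcoe]
    exact kerVec_frob_add C D hO hφ hww (hkill _ x.2) (hw _ x.2)
  -- every word
  have hpow : ∀ (m : ℕ), ∀ x ∈ X, Θ (ρ φ ^ m) x ∈ X := fun m => by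
    induction m with
    | zero => intro x hx; rwa [pow_zero, map_one, Module.End.one_apply]
    | succ m ih =>
      intro x hx
      rw [pow_succ', map_mul, Module.End.mul_apply]
      exact hXgal _ (ih x hx)
  have hfrobPow : ∀ (m : ℕ) (x : W), Θ (ρ φ ^ m - (((-(w : ℤ)) ^ m : ℤ) : T) • 1) x ∈ X := by
    intro m
    induction m with
    | zero => intro x; simp
    | succ m ih =>
      intro x
      have e : ρ φ ^ (m + 1) - (((-(w : ℤ)) ^ (m + 1) : ℤ) : T) • (1 : Matrix (Fin 2) (Fin 2) T) =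
          ρ φ * (ρ φ ^ m - (((-(w : ℤ)) ^ m : ℤ) : T) • 1) +
            ((((-(w : ℤ)) ^ m : ℤ) : O) • (ρ φ + ((w : ℤ) : T) • 1)) := by
        rw [← algebraMap_smul T (((-(w : ℤ)) ^ m : ℤ) : O) (ρ φ + _), map_intCast, pow_succ' (ρ φ),
          Matrix.mul_sub, Matrix.mul_smul, Matrix.mul_one, smul_add, smul_smul, ← Int.cast_mul,
          pow_succ, mul_neg, Int.cast_neg, neg_smul]
        abel
      rw [e, map_add Θ, map_mul Θ, map_smul Θ, LinearMap.add_apply, Module.End.mul_apply,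
        LinearMap.smul_apply]
      exact add_mem (hXgal _ (ih x)) (X.smul_mem _ (hfrob x))
  have hword : ∀ (m : ℕ) (σ : GalQ), σ ∈ A.inertiaSubgroupIn ℚ →
      ∀ x, Θ (subSign ρ (w : ℤ) m (φ ^ m * σ)) x ∈ X := fun m σ hσ x => by
    have e : subSign ρ (w : ℤ) m (φ ^ m * σ) =
        ρ φ ^ m * (ρ σ - 1) + (ρ φ ^ m - (((-(w : ℤ)) ^ m : ℤ) : T) • 1) := by
      rw [subSign, map_mul, map_pow, Matrix.mul_sub, Matrix.mul_one]
      abel
    rw [e, map_add Θ, map_mul Θ, LinearMap.add_apply, Module.End.mul_apply]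
    exact add_mem (hpow m _ (hint σ hσ x)) (hfrobPow m x)
  -- no scalar maps into `X`
  have h2 : (2 : O) ∈ maximalIdeal O := by simpa using hO
  have hscal := scalar_eq_zero_of_mem Θ X h2 (OfNat.ofNat_ne_zero 2) (ρ φ + ((w : ℤ) : T) • 1) hunit fun x c hc hcx => by
    have hd := frob_add_mem_two C D hO hφ hww (hkill _ x.2) (hw _ x.2) hc hcx
    choose z hz using hd
    have hzW : z ∈ W := hsat z (by
      have e : (2 : O) • z = ((Θ (ρ φ + ((w : ℤ) : T) • 1) x : W) : D.Idx → O) := by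
        rw [hNcoe]; funext l; rw [Pi.smul_apply, smul_eq_mul]; exact (hz l).symm
      rw [e]
      exact Submodule.coe_mem _)
    refine ⟨⟨z, hzW⟩, Subtype.ext ?_⟩
    rw [hNcoe, Submodule.coe_smul]
    funext l
    rw [Pi.smul_apply, smul_eq_mul]
    exact hz l
  -- the determinant and the product
  set g := φ ^ m * s
  set lg : T := (((-(w : ℤ)) ^ m : ℤ) : T)
  set a := subSign ρ (w : ℤ) m g
  obtain ⟨hd, hab⟩ := adjugate_mul_eq_zero Θ X hscal (hword m s hs) (hword m' s' hs')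
  have hlg : lg * lg = 1 := by
    rw [← Int.cast_mul, ← mul_pow, neg_mul_neg, hww, one_pow, Int.cast_one]
  rw [sub_det_eq (ρ g) hlg, Matrix.sub_mul, map_sub Θ, Matrix.neg_mul, map_neg Θ]
  have hsc : ∀ t : T, t • (1 : Matrix (Fin 2) (Fin 2) T) = Matrix.scalar (Fin 2) t := fun t => by
    ext k l; simp [Matrix.scalar, Matrix.one_apply, Matrix.diagonal]
  change -Θ (a.adjugate * subSign ρ (w : ℤ) m' (φ ^ m' * s')) -
    Θ ((lg * a.det) • (1 : Matrix (Fin 2) (Fin 2) T) * subSign ρ (w : ℤ) m' (φ ^ m' * s')) = 0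
  rw [show Θ (a.adjugate * subSign ρ (w : ℤ) m' (φ ^ m' * s')) = 0 from hab, hsc, mul_comm lg,
    map_mul (Matrix.scalar (Fin 2)), Matrix.mul_assoc, map_mul Θ,
    show Θ (Matrix.scalar (Fin 2) a.det) = 0 from hd, zero_mul]
  exact (show -(0 : Module.End O W) - 0 = 0 by abel)

/-- the shape on a finite quotient, on the whole decomposition group -/
theorem twoShape (hdet : ∀ σ, (ρ σ).det = algebraMap O T (cycR Nat.prime_two hO σ))
    (hgal : ∀ (σ : GalQ) (x : W), ((Θ (ρ σ) x : W) : D.Idx → O) =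
      D.galMat Nat.prime_two hO σ *ᵥ (x : D.Idx → O))
    (hkill : ∀ x ∈ W, KilledVec D x) (w : ℤˣ) (hw : ∀ x ∈ W, AtkinVec C D w x)
    (hsat : ∀ x : D.Idx → O, (2 : O) • x ∈ W → x ∈ W)
    {φ : GalQ} (hφ : A.IsFrobeniusAt φ 2) {i j : Fin 2}
    (hunit : IsUnit ((ρ φ + ((w : ℤ) : T) • 1) i j))
    {R : Type} [CommRing R] (ψ : T →+* R)
    (hψ : ∀ t : T, Θ (Matrix.scalar (Fin 2) t) = 0 → ψ t = 0)
    (hfin : Deform.FinLevel fun σ => (ρ σ).map ψ)
    {g h : GalQ} (hg : g ∈ A.decompositionSubgroup ℚ) (hh : h ∈ A.decompositionSubgroup ℚ) :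
    ((ρ g).map ψ - ((lamTwo w g : R) * ((ρ g).map ψ).det) • (1 : Matrix (Fin 2) (Fin 2) R)) *
      ((ρ h).map ψ - (lamTwo w h : R) • (1 : Matrix (Fin 2) (Fin 2) R)) = 0 := by
  classical
  obtain ⟨L, hL, hfix⟩ := hfin
  haveI := hL
  obtain ⟨ζ, hζ⟩ := HasEnoughRootsOfUnity.exists_primitiveRoot (AlgebraicClosure ℚ) 3
  haveI : FiniteDimensional ℚ (IntermediateField.adjoin ℚ {ζ} : IntermediateField ℚ (AlgebraicClosure ℚ)) :=
    IntermediateField.adjoin.finiteDimensional (Alg.qb_isAlgebraic.isAlgebraic ζ).isIntegral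
  haveI := FLTAgent.Common.isGalois_qbar
  let L' : IntermediateField ℚ (AlgebraicClosure ℚ) := L ⊔ IntermediateField.adjoin ℚ {ζ}
  let K := IntermediateField.normalClosure ℚ L' (AlgebraicClosure ℚ)
  haveI : Normal ℚ K := normalClosure.normal ℚ L' _
  haveI : IsGalois ℚ K := { }
  -- a decomposition element is a word up to the level
  have hword : ∀ d ∈ A.decompositionSubgroup ℚ, ∃ (m : ℕ) (s : GalQ),
      s ∈ A.inertiaSubgroupIn ℚ ∧ (ρ d).map ψ = (ρ (φ ^ m * s)).map ψ ∧
        lamTwo w d = (-(w : ℤ)) ^ m := by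
    intro d hd
    obtain ⟨m, s, hs, hsK⟩ := PT.exists_pow_frob_inertia Nat.prime_two C.lies hφ hd K
    refine ⟨m, s, hs, ?_, ?_⟩
    · have ht : (ρ ((φ ^ m * s)⁻¹ * d)).map ψ = 1 := hfix _ fun x hx => by
        rw [_root_.mul_inv_rev, mul_assoc, AlgEquiv.mul_apply,
          ← hsK x (L'.le_normalClosure (le_sup_left (b := IntermediateField.adjoin ℚ {ζ}) hx)),
          ← AlgEquiv.mul_apply, inv_mul_cancel, AlgEquiv.one_apply]
      rw [← Matrix.mul_one ((ρ (φ ^ m * s)).map ψ), ← ht, ← Matrix.map_mul, ← map_mul,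
        mul_inv_cancel_left]
    · have hd3 : cyc 3 d = (2 : ZMod 3) ^ m := by
        have e : d ζ = (φ ^ m * s) ζ := by
          rw [AlgEquiv.mul_apply, hsK ζ (L'.le_normalClosure ((le_sup_right (a := L))
            (IntermediateField.mem_adjoin_simple_self ℚ ζ))), ← AlgEquiv.mul_apply,
            mul_inv_cancel_left]
        have hc : cyc 3 d = cyc 3 (φ ^ m * s) := by
          rw [Attach.cyc_spec d hζ.pow_eq_one, Attach.cyc_spec _ hζ.pow_eq_one] at e
          exact ZMod.val_injective 3 (hζ.pow_inj (ZMod.val_lt _) (ZMod.val_lt _) e)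
        rw [hc, Attach.cyc_mul, Attach.cyc_inertia Nat.prime_two (by norm_num) C.lies hs, mul_one,
          cyc_pow_two, Attach.cyc_frobenius Nat.prime_two (by norm_num) C.lies hφ,
          Nat.cast_two]
      have hww : (-(w : ℤ)) ^ 2 = 1 := by
        rw [neg_sq, sq, ← Units.val_mul, Int.units_mul_self, Units.val_one]
      rw [lamTwo, hd3]
      rcases Nat.even_or_odd m with ⟨r, rfl⟩ | ⟨r, rfl⟩
      · rw [← two_mul, pow_mul, pow_mul, hww, one_pow,
          show ((2 : ZMod 3) ^ 2) = 1 by decide, one_pow, if_pos rfl]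
      · rw [pow_add, pow_mul, pow_add, pow_mul, hww, one_pow, one_mul, pow_one, pow_one,
          show ((2 : ZMod 3) ^ 2) = 1 by decide, one_pow, one_mul,
          if_neg (show (2 : ZMod 3) ≠ 1 by decide)]
  obtain ⟨m, s, hs, eg, lg⟩ := hword g hg
  obtain ⟨m', s', hs', eh, lh⟩ := hword h hh
  have hmap : ∀ (σ : GalQ) (t : T), (ρ σ - t • 1).map ψ = (ρ σ).map ψ - ψ t • 1 := fun σ t => by
    ext k l
    simp [Matrix.map_apply, Matrix.one_apply, apply_ite ψ]
  have key := twoShape_words C D hO W Θ ρ hdet hgal hkill w hw hsat hφ hunit m m' hs hs'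
  rw [eg, eh, lg, lh]
  ext k l
  have h0 := hψ _ (entries_eq_zero Θ key k l)
  rw [← Matrix.map_apply (f := ψ), Matrix.map_mul, hmap, hmap, map_mul ψ, map_intCast ψ, map_intCast ψ,
    RingHom.map_det, RingHom.mapMatrix_apply] at h0
  exact h0

end Lattice

end FLTAgent.R2

end
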